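/-
UNIP (item 34, S34/S35), piece U6 "Cheap" (helper20): the cheap half (β) of `ESUnip`.

`A ⊂ ℚ̄` a valuation ring over a prime `ℓ`, `σ` in the inertia group of `A`, `F_N ⊂ ℚ̄((q))`.
* `cheap_infty` : for every `u ∈ F_N^×` there is a constant `c ≠ 0` such that
  `c · σ(u) / u` reduces to one at the Gauss valuation `v_∞` of the `q`-expansion
  (`ReducesToOne`, `ES/G2/Plan.lean`).  No hypothesis on `N` (so also for `ℓ ∣ N`).
* `atkinLehnerBar` : the Atkin–Lehner involution `w_q` of `F_{Mq}` over `ℚ̄` (helper90's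
  `AL.atkinLehner`, transported to `modularFunctionFieldBar (M * q)`), with its API.
* `cheap_zero` : the same at `v_0 = v_∞ ∘ w_q`.
* `cheap` : both together.
-/
import Fermat.Agent.ES.G2.Unram
import Fermat.Agent.ES.G2.Prim
import Fermat.Agent.ES.G2.HeckeDeg
import Fermat.Agent.S34.ALMain

set_option autoImplicit false

noncomputable section

namespace Fermat.Agent.UNIP

open ModularCurve AlgebraicCurve Fermat.Agent.ES Fermat.Agent.ES.G2 HahnSeries

/-- the action of `σ ∈ G_ℚ` on `F_N ⊂ ℚ̄((q))` is the action on the coefficients -/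
theorem cheap_smul_coe (N : ℕ) (σ : Qb ≃ₐ[ℚ] Qb) (Y : modularFunctionFieldBar N) :
    ((arithmeticGalois (modularFunctionFieldFull N) σ • Y : modularFunctionFieldBar N) :
      LaurentSeries Qb) = coeffMap (σ : Qb →+* Qb) (Y : LaurentSeries Qb) := rfl

/-- **(β) at `v_∞`**: for `σ` in the inertia group and `u ∈ F_N^×`, `σ(u)/u` is a constant times
an element which reduces to one. -/
theorem cheap_infty (N : ℕ) [NeZero N] (ℓ : ℕ) (hℓ : ℓ.Prime) (A : ValuationSubring Qb)
    (hA : A.LiesOverPrime ℓ) (σ : Qb ≃ₐ[ℚ] Qb) (hσ : σ ∈ A.inertiaSubgroupIn ℚ)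
    (u : modularFunctionFieldBar N) (hu : u ≠ 0) :
    ∃ c : Qb, c ≠ 0 ∧
      ReducesToOne A N (algebraMap Qb (modularFunctionFieldBar N) c *
        ((arithmeticGalois (modularFunctionFieldFull N) σ • u) / u)) := by
  obtain ⟨c, y₁, y₂, hc, hy₁, hy₂, hP₁, hP₂, he⟩ := stmtPrim N ℓ hℓ A hA u hu
  have hy₁0 : y₁ ≠ 0 := unram_ne_zero_of_kronPrim hP₁
  have hy₂0 : y₂ ≠ 0 := unram_ne_zero_of_kronPrim hP₂
  set g := arithmeticGalois (modularFunctionFieldFull N) σ with hg
  have hσdec : σ ∈ A.decompositionSubgroup ℚ := kron_mem_decomposition_of_mem_inertia hσ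
  have hσc : σ c ≠ 0 := (map_ne_zero_iff _ σ.injective).mpr hc
  have hσy₁0 : coeffMap (σ : Qb →+* Qb) y₁ ≠ 0 :=
    (map_ne_zero_iff _ (coeffMap (σ : Qb →+* Qb)).injective).mpr hy₁0
  have hσy₂0 : coeffMap (σ : Qb →+* Qb) y₂ ≠ 0 :=
    (map_ne_zero_iff _ (coeffMap (σ : Qb →+* Qb)).injective).mpr hy₂0
  have hu0 : (u : LaurentSeries Qb) ≠ 0 := fun h => hu (Subtype.ext h)
  -- the conjugate relation
  have he' : coeffMap (σ : Qb →+* Qb) (u : LaurentSeries Qb) * coeffMap (σ : Qb →+* Qb) y₂ =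
      HahnSeries.C (σ c) * coeffMap (σ : Qb →+* Qb) y₁ := by
    have := congrArg (coeffMap (σ : Qb →+* Qb)) he
    rw [map_mul, map_mul] at this
    rw [this]
    congr 1
    show coeffMap (σ : Qb →+* Qb) (HahnSeries.single 0 c) = HahnSeries.single 0 (σ c)
    rw [coeffMap_single]
    rfl
  refine ⟨c / σ c, div_ne_zero hc hσc, ?_⟩
  refine ⟨coeffMap (σ : Qb →+* Qb) y₁ * y₂, coeffMap (σ : Qb →+* Qb) y₂ * y₁,
    mul_mem (coeffMap_mem_laurentBaseChange σ hy₁) hy₂,
    mul_mem (coeffMap_mem_laurentBaseChange σ hy₂) hy₁,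
    (hP₁.coeffMap_of_mem_decomposition σ hσdec).mul hP₂,
    (hP₂.coeffMap_of_mem_decomposition σ hσdec).mul hP₁, ?_, ?_⟩
  · have c1 : KronCongr A (coeffMap (σ : Qb →+* Qb) y₁ * y₂) (y₁ * y₂) :=
      KronCongr.mul (hP₁.1.coeffMap_of_mem_decomposition σ hσdec) hP₁.1 hP₂.1 hP₂.1
        (kron_inertia_congr hσ hP₁.1) (KronCongr.refl (A := A) y₂)
    have c2 : KronCongr A (coeffMap (σ : Qb →+* Qb) y₂ * y₁) (y₂ * y₁) :=
      KronCongr.mul (hP₂.1.coeffMap_of_mem_decomposition σ hσdec) hP₂.1 hP₁.1 hP₁.1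
        (kron_inertia_congr hσ hP₂.1) (KronCongr.refl (A := A) y₁)
    rw [mul_comm y₂ y₁] at c2
    exact c1.trans c2.symm
  · -- the fraction
    show (algebraMap Qb (LaurentSeries Qb) (c / σ c) *
        (coeffMap (σ : Qb →+* Qb) (u : LaurentSeries Qb) / (u : LaurentSeries Qb))) *
          (coeffMap (σ : Qb →+* Qb) y₂ * y₁) = coeffMap (σ : Qb →+* Qb) y₁ * y₂
    have hCc : (HahnSeries.C c : LaurentSeries Qb) ≠ 0 :=
      (map_ne_zero_iff _ HahnSeries.C_injective).mpr hc
    have hCσc : (HahnSeries.C (σ c) : LaurentSeries Qb) ≠ 0 :=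
      (map_ne_zero_iff _ HahnSeries.C_injective).mpr hσc
    have hA1 : algebraMap Qb (LaurentSeries Qb) (c / σ c) =
        (HahnSeries.C c : LaurentSeries Qb) / HahnSeries.C (σ c) := by
      rw [LaurentSeries.algebraMap_apply, map_div₀]
    rw [hA1]
    field_simp
    -- goal: C c * σu * (σy₂ * y₁) = σy₁ * y₂ * (C σc * u)   (up to arrangement)
    have e1 : (HahnSeries.C c : LaurentSeries Qb) * y₁ = (u : LaurentSeries Qb) * y₂ := he.symm
    linear_combination
      (y₁ * (HahnSeries.C c : LaurentSeries Qb)) * he' +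
        (HahnSeries.C (σ c) * coeffMap (σ : Qb →+* Qb) y₁) * e1

/-! ### The Atkin–Lehner involution on `modularFunctionFieldBar (M * q)` -/

/-- an embedding `ℚ̄ → ℂ` (only used to have the relations between the `j(q^d)` stable under
the swap; `w_q` does not depend on it) -/
def cheapIota : Qb →+* ℂ :=
  letI : Algebra ℚ Qb := AlgebraicClosure.instAlgebra (k := ℚ) (R := ℚ)
  haveI : Algebra.IsAlgebraic ℚ Qb := AlgebraicClosure.isAlgebraic ℚ
  (IsAlgClosed.lift (R := ℚ) (S := Qb) (M := ℂ)).toRingHom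

section AL

variable {q M : ℕ} [NeZero q] [NeZero M] [NeZero (M * q)] (hq : q.Prime) (hqM : ¬ q ∣ M)

/-- the Atkin–Lehner involution `w_q` of `F_{Mq} = modularFunctionFieldBar (M * q)` -/
def atkinLehnerBar :
    modularFunctionFieldBar (M * q) ≃ₐ[Qb] modularFunctionFieldBar (M * q) :=
  (IntermediateField.equivOfEq (hdeg_laurentBaseChange_full Qb (M * q))).trans
    ((Fermat.Agent.AL.atkinLehner Qb cheapIota hq hqM).trans
      (IntermediateField.equivOfEq (hdeg_laurentBaseChange_full Qb (M * q)).symm))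

theorem cheap_mem_fullC {N : ℕ} {y : LaurentSeries Qb} (hy : y ∈ modularFunctionFieldBar N) :
    y ∈ modularFunctionFieldFullC Qb N := by
  rw [← hdeg_laurentBaseChange_full Qb N]; exact hy

theorem cheap_mem_bar {N : ℕ} {y : LaurentSeries Qb} (hy : y ∈ modularFunctionFieldFullC Qb N) :
    y ∈ modularFunctionFieldBar N := by
  show y ∈ laurentBaseChange Qb (modularFunctionFieldFull N)
  rw [hdeg_laurentBaseChange_full Qb N]; exact hy

theorem atkinLehnerBar_coe (y : modularFunctionFieldBar (M * q)) :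
    ((atkinLehnerBar hq hqM y : modularFunctionFieldBar (M * q)) : LaurentSeries Qb) =
      ((Fermat.Agent.AL.atkinLehner Qb cheapIota hq hqM
        ⟨(y : LaurentSeries Qb), cheap_mem_fullC y.2⟩ : modularFunctionFieldFullC Qb (M * q)) :
          LaurentSeries Qb) := by
  unfold atkinLehnerBar
  rw [AlgEquiv.trans_apply, AlgEquiv.trans_apply, IntermediateField.equivOfEq_apply]
  rfl

/-- `w_q` is an involution -/
theorem atkinLehnerBar_invol (y : modularFunctionFieldBar (M * q)) :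
    atkinLehnerBar hq hqM (atkinLehnerBar hq hqM y) = y := by
  apply Subtype.ext
  rw [atkinLehnerBar_coe]
  have h : (⟨((atkinLehnerBar hq hqM y : modularFunctionFieldBar (M * q)) : LaurentSeries Qb),
      cheap_mem_fullC (atkinLehnerBar hq hqM y).2⟩ : modularFunctionFieldFullC Qb (M * q)) =
      Fermat.Agent.AL.atkinLehner Qb cheapIota hq hqM
        ⟨(y : LaurentSeries Qb), cheap_mem_fullC y.2⟩ := Subtype.ext (atkinLehnerBar_coe hq hqM y)
  rw [h, Fermat.Agent.AL.atkinLehner_invol]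

/-- `w_q f = f(q^q)` for `f ∈ F_M` -/
theorem atkinLehnerBar_of_mem_low {f : LaurentSeries Qb} (hf : f ∈ modularFunctionFieldBar M)
    (hf' : f ∈ modularFunctionFieldBar (M * q)) :
    ((atkinLehnerBar hq hqM ⟨f, hf'⟩ : modularFunctionFieldBar (M * q)) : LaurentSeries Qb) =
      qExpand Qb q f := by
  rw [atkinLehnerBar_coe]
  exact Fermat.Agent.AL.atkinLehner_of_mem_low Qb cheapIota hq hqM (cheap_mem_fullC hf)

/-- `w_q (f(q^q)) = f` for `f ∈ F_M` -/
theorem atkinLehnerBar_qExpand {f : LaurentSeries Qb} (hf : f ∈ modularFunctionFieldBar M)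
    (hf' : qExpand Qb q f ∈ modularFunctionFieldBar (M * q)) :
    ((atkinLehnerBar hq hqM ⟨qExpand Qb q f, hf'⟩ : modularFunctionFieldBar (M * q)) :
      LaurentSeries Qb) = f := by
  rw [atkinLehnerBar_coe]
  exact Fermat.Agent.AL.atkinLehner_qExpand Qb cheapIota hq hqM (cheap_mem_fullC hf)

/-- `w_q` commutes with the Galois action on the coefficients -/
theorem atkinLehnerBar_smul (σ : Qb ≃ₐ[ℚ] Qb) (y : modularFunctionFieldBar (M * q)) :
    atkinLehnerBar hq hqM (arithmeticGalois (modularFunctionFieldFull (M * q)) σ • y) =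
      arithmeticGalois (modularFunctionFieldFull (M * q)) σ • atkinLehnerBar hq hqM y := by
  apply Subtype.ext
  rw [cheap_smul_coe, atkinLehnerBar_coe, atkinLehnerBar_coe]
  exact Fermat.Agent.AL.atkinLehner_coeffMap Qb cheapIota hq hqM (σ : Qb →+* Qb)
    ⟨(y : LaurentSeries Qb), cheap_mem_fullC y.2⟩

/-- **(β) at `v_0 = v_∞ ∘ w_q`** -/
theorem cheap_zero (A : ValuationSubring Qb) (hA : A.LiesOverPrime q) (σ : Qb ≃ₐ[ℚ] Qb)
    (hσ : σ ∈ A.inertiaSubgroupIn ℚ) (u : modularFunctionFieldBar (M * q)) (hu : u ≠ 0) :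
    ∃ c : Qb, c ≠ 0 ∧
      ReducesToOne A (M * q) (algebraMap Qb (modularFunctionFieldBar (M * q)) c *
        atkinLehnerBar hq hqM
          ((arithmeticGalois (modularFunctionFieldFull (M * q)) σ • u) / u)) := by
  have hwu : atkinLehnerBar hq hqM u ≠ 0 :=
    (map_ne_zero_iff _ (atkinLehnerBar hq hqM).injective).mpr hu
  obtain ⟨c, hc, h⟩ := cheap_infty (M * q) q hq A hA σ hσ (atkinLehnerBar hq hqM u) hwu
  refine ⟨c, hc, ?_⟩
  rw [map_div₀, atkinLehnerBar_smul]
  exact h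

/-- **(β), the cheap half of `ESUnip`**: for `σ` in the inertia group at `A` (over `q ∥ Mq`) and
`u ∈ F_{Mq}^×`, the element `σ(u)/u` is a constant times an element reducing to one, both at `v_∞`
and at `v_0 = v_∞ ∘ w_q`. -/
theorem cheap (A : ValuationSubring Qb) (hA : A.LiesOverPrime q) (σ : Qb ≃ₐ[ℚ] Qb)
    (hσ : σ ∈ A.inertiaSubgroupIn ℚ) (u : modularFunctionFieldBar (M * q)) (hu : u ≠ 0) :
    (∃ c : Qb, c ≠ 0 ∧
      ReducesToOne A (M * q) (algebraMap Qb (modularFunctionFieldBar (M * q)) c *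
        ((arithmeticGalois (modularFunctionFieldFull (M * q)) σ • u) / u))) ∧
    (∃ c : Qb, c ≠ 0 ∧
      ReducesToOne A (M * q) (algebraMap Qb (modularFunctionFieldBar (M * q)) c *
        atkinLehnerBar hq hqM
          ((arithmeticGalois (modularFunctionFieldFull (M * q)) σ • u) / u))) :=
  ⟨cheap_infty (M * q) q hq A hA σ hσ u hu, cheap_zero hq hqM A hA σ hσ u hu⟩

end AL

end Fermat.Agent.UNIP
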