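import Mathlib

set_option autoImplicit false

open MulAction Pointwise Ideal

namespace Fermat.Agent.UNIP

section general

variable (A K L : Type*) {B : Type*} [Field K] [Field L] [Algebra K L] [CommRing A] [CommRing B]
  [Algebra A B] {p : Ideal A} (P : Ideal B) [P.LiesOver p]
variable [Algebra A K] [IsFractionRing A K] [Algebra A L] [IsScalarTower A K L] [Algebra B L]
  [IsScalarTower A B L] [IsFractionRing B L] [MulSemiringAction Gal(L/K) B]
  [SMulDistribClass Gal(L/K) B L]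
variable (E 𝓞E : Type*) [Field E] [Algebra E L] [IsInertiaField K L P E] [CommRing 𝓞E]
  [Algebra 𝓞E E] [IsFractionRing 𝓞E E] [Algebra 𝓞E B] [Algebra 𝓞E L] [IsScalarTower 𝓞E E L]
  [IsScalarTower 𝓞E B L] (𝓟E : Ideal 𝓞E) [hE : P.LiesOver 𝓟E]
variable [IsGalois K L] [IsDedekindDomain A] [IsDedekindDomain B] [Module.Finite A B]
  [Module.IsTorsionFree A B] [Algebra A 𝓞E] [Module.Finite A 𝓞E] [IsScalarTower A 𝓞E B]
  [IsDedekindDomain 𝓞E] [𝓟E.LiesOver p]
variable [FiniteDimensional K L] [Ring.HasFiniteQuotients A] [𝓟E.IsMaximal] [P.IsMaximal]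

omit [P.LiesOver p] hE [FiniteDimensional K L] [Ring.HasFiniteQuotients A] [𝓟E.IsMaximal] [P.IsMaximal] in
include K L E P in
theorem beta0_inertia_instances (hp : p ≠ ⊥) :
    Module.Finite 𝓞E B ∧ Module.IsTorsionFree 𝓞E B ∧ Module.IsTorsionFree A 𝓞E ∧
      IsGaloisGroup Gal(L/K) A B ∧ IsGaloisGroup (inertia Gal(L/K) P) 𝓞E B ∧ 𝓟E ≠ ⊥ := by
  have inst₁ : Module.Finite 𝓞E B := Module.Finite.right A 𝓞E B
  have inst₂ : Module.IsTorsionFree 𝓞E B := by
    rw [Module.isTorsionFree_iff_faithfulSMul]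
    apply Algebra.IsAlgebraic.faithfulSMul_tower_top A
  have inst₃ : Module.IsTorsionFree A 𝓞E := Module.IsTorsionFree.of_faithfulSMul _ _ B
  have inst₄ : IsGaloisGroup Gal(L/K) A B := .of_isFractionRing _ _ _ K L
  have inst₅ : IsGaloisGroup (inertia Gal(L/K) P) 𝓞E B := .of_isFractionRing _ _ _ E L
  exact ⟨inst₁, inst₂, inst₃, inst₄, inst₅, Ideal.ne_bot_of_liesOver_of_ne_bot hp 𝓟E⟩

omit [P.LiesOver p] [IsDedekindDomain B] in
theorem beta0_inertia_inertia_eq_top {G : Type*} [Group G] [MulSemiringAction G B] (P : Ideal B) :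
    P.inertia (inertia G P) = ⊤ := by
  ext ⟨σ, hσ⟩
  simp only [Subgroup.mem_top, iff_true]
  intro x
  exact hσ x

include K L E P in
theorem beta0_ramificationIdxIn_eq (hp : p ≠ ⊥) :
    ramificationIdxIn 𝓟E B = p.ramificationIdxIn B := by
  obtain ⟨_, _, _, _, _, h𝓟⟩ := beta0_inertia_instances A K L P E 𝓞E 𝓟E hp
  have : p.IsMaximal := over_def P p ▸ Ideal.IsMaximal.under A P
  have : Finite (A ⧸ p) := Ring.HasFiniteQuotients.finiteQuotient hp
  have h1 := card_inertia_eq_ramificationIdxIn (G := Gal(L/K)) p P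
  have hfq : Ring.HasFiniteQuotients 𝓞E := Ring.HasFiniteQuotients.of_module_finite A 𝓞E
  have : Finite (𝓞E ⧸ 𝓟E) := Ring.HasFiniteQuotients.finiteQuotient h𝓟
  have h2 := card_inertia_eq_ramificationIdxIn (G := inertia Gal(L/K) P) 𝓟E P
  rw [beta0_inertia_inertia_eq_top] at h2
  rw [← h2, ← h1]
  simp

include K L E P in
/-- The prime of the inertia field below `P` is unramified over `K`. -/
theorem beta0_ramificationIdx_eq_one (hp : p ≠ ⊥) :
    𝓟E.ramificationIdx A = 1 := by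
  obtain ⟨_, _, _, _, _, h𝓟⟩ := beta0_inertia_instances A K L P E 𝓞E 𝓟E hp
  have := ramificationIdx_tower (R := A) 𝓟E P
  rwa [← ramificationIdxIn_eq_ramificationIdx 𝓟E P (inertia Gal(L/K) P),
    beta0_ramificationIdxIn_eq A K L P E 𝓞E 𝓟E hp, ramificationIdxIn_eq_ramificationIdx p P Gal(L/K),
    right_eq_mul₀ <| (ramificationIdx_pos P A).ne'] at this

include K L E P 𝓟E hE in
/-- The residue field does not grow between the inertia field and the top field. -/
theorem beta0_inertiaDeg_eq_one (hp : p ≠ ⊥) :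
    P.inertiaDeg 𝓞E = 1 := by
  obtain ⟨_, _, _, _, _, h𝓟⟩ := beta0_inertia_instances A K L P E 𝓞E 𝓟E hp
  have hfq : Ring.HasFiniteQuotients 𝓞E := Ring.HasFiniteQuotients.of_module_finite A 𝓞E
  have : Finite (𝓞E ⧸ 𝓟E) := Ring.HasFiniteQuotients.finiteQuotient h𝓟
  have h2 := ncard_primesOver_mul_card_inertia_mul_finrank (G := inertia Gal(L/K) P) 𝓟E P
  rw [beta0_inertia_inertia_eq_top] at h2
  have hcard : Nat.card (⊤ : Subgroup (inertia Gal(L/K) P)) = Nat.card (inertia Gal(L/K) P) :=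
    Nat.card_congr (Subgroup.topEquiv).toEquiv
  rw [hcard] at h2
  have hpos : 0 < Nat.card (inertia Gal(L/K) P) := Nat.card_pos
  have h3 : (𝓟E.primesOver B).ncard * P.inertiaDeg 𝓞E = 1 := by
    have : (𝓟E.primesOver B).ncard * P.inertiaDeg 𝓞E * Nat.card (inertia Gal(L/K) P) =
        1 * Nat.card (inertia Gal(L/K) P) := by
      rw [one_mul]
      calc (𝓟E.primesOver B).ncard * P.inertiaDeg 𝓞E * Nat.card (inertia Gal(L/K) P)
          = (𝓟E.primesOver B).ncard * Nat.card (inertia Gal(L/K) P) * P.inertiaDeg 𝓞E := by ring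
        _ = Nat.card (inertia Gal(L/K) P) := h2
    exact Nat.eq_of_mul_eq_mul_right hpos this
  exact Nat.eq_one_of_mul_eq_one_left h3

end general

end Fermat.Agent.UNIP
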