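import Mathlib
import Fermat.Agent.Common.InertiaLift
import Fermat.Agent.UNIP.Beta0General

/-!
# UNIP piece U10 (`Beta0`), part 1: places of `ℚ̄` on number fields

`A` is a valuation subring of `ℚ̄` lying over the prime `q`.  For a number field `K` with an
embedding `ι : K →+* ℚ̄` we identify `A ∩ K` (`A.comap ι`) with the valuation ring of the adic
valuation of `𝓞 K` at the prime `beta0Prime A ι = 𝔪_A ∩ 𝓞 K`.
-/

set_option autoImplicit false
set_option linter.style.haveILetI false
set_option linter.unusedSectionVars false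

open scoped NumberField Pointwise
open Ideal MulAction IsDedekindDomain

namespace Fermat.Agent.UNIP

/-- Algebraic integers lie in every valuation subring. -/
theorem beta0_mem_of_isIntegral (A : ValuationSubring (AlgebraicClosure ℚ))
    (x : AlgebraicClosure ℚ) (hx : IsIntegral ℤ x) : x ∈ A := by
  have h1 : IsIntegral A x := hx.tower_top
  obtain ⟨y, hy⟩ := (IsIntegrallyClosed.isIntegral_iff (R := A) (K := AlgebraicClosure ℚ)).mp h1
  rw [← hy]
  exact y.2

/-- `y ∈ 𝔪_A` iff `y = 0` or `y⁻¹ ∉ A`. -/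
theorem beta0_mem_nonunits_iff_inv {L : Type*} [Field L] (A : ValuationSubring L) {y : L}
    (hy : y ≠ 0) : y ∈ A.nonunits ↔ y⁻¹ ∉ A := by
  rw [A.mem_nonunits_iff, ← A.valuation_le_one_iff, map_inv₀, not_le]
  have h0 : A.valuation y ≠ 0 := (Valuation.ne_zero_iff _).mpr hy
  rw [one_lt_inv₀ (zero_lt_iff.mpr h0)]

section general

variable (A : ValuationSubring (AlgebraicClosure ℚ))
  {K : Type*} [Field K] [NumberField K] (ι : K →+* AlgebraicClosure ℚ)

/-- The embedding `𝓞 K → ℚ̄` induced by `ι`. -/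
noncomputable def beta0Emb : 𝓞 K →+* AlgebraicClosure ℚ :=
  ι.comp (algebraMap (𝓞 K) K)

theorem beta0Emb_apply (x : 𝓞 K) : beta0Emb ι x = ι (x : K) := rfl

theorem beta0Emb_mem (x : 𝓞 K) : beta0Emb ι x ∈ A :=
  beta0_mem_of_isIntegral A _ ((NumberField.RingOfIntegers.isIntegral x).map
    (ι.comp (algebraMap (𝓞 K) K)).toIntAlgHom)

/-- The prime of `𝓞 K` cut out by `A`. -/
noncomputable def beta0Prime : Ideal (𝓞 K) :=
  (IsLocalRing.maximalIdeal A).comap ((beta0Emb ι).codRestrict A.toSubring (beta0Emb_mem A ι))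

theorem mem_beta0Prime (y : 𝓞 K) : y ∈ beta0Prime A ι ↔ beta0Emb ι y ∈ A.nonunits := by
  rw [beta0Prime, Ideal.mem_comap, ← ValuationSubring.coe_mem_nonunits_iff]
  rfl

instance beta0Prime_isPrime : (beta0Prime A ι).IsPrime := Ideal.comap_isPrime _ _

variable {A} in
theorem natCast_mem_beta0Prime {q : ℕ} (hA : A.LiesOverPrime q) :
    ((q : ℕ) : 𝓞 K) ∈ beta0Prime A ι := by
  rw [mem_beta0Prime]
  have : beta0Emb ι ((q : ℕ) : 𝓞 K) = ((q : ℕ) : AlgebraicClosure ℚ) := by simp
  rw [this]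
  exact hA

variable {A} in
theorem beta0Prime_ne_bot {q : ℕ} (hq : q.Prime) (hA : A.LiesOverPrime q) :
    beta0Prime A ι ≠ ⊥ := by
  intro h
  have h1 := natCast_mem_beta0Prime ι hA
  rw [h, Ideal.mem_bot] at h1
  have : (q : ℕ) = 0 := by exact_mod_cast h1
  exact hq.ne_zero this

variable {A} in
theorem beta0Prime_isMaximal {q : ℕ} (hq : q.Prime) (hA : A.LiesOverPrime q) :
    (beta0Prime A ι).IsMaximal :=
  (beta0Prime_isPrime A ι).isMaximal (beta0Prime_ne_bot ι hq hA)

variable {A} in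
theorem beta0Prime_under_int {q : ℕ} (hq : q.Prime) (hA : A.LiesOverPrime q) :
    (beta0Prime A ι).under ℤ = Ideal.span {(q : ℤ)} := by
  have hmax : (Ideal.span {(q : ℤ)}).IsMaximal :=
    PrincipalIdealRing.isMaximal_of_irreducible (Nat.prime_iff_prime_int.mp hq).irreducible
  symm
  apply hmax.eq_of_le
  · exact Ideal.IsPrime.ne_top inferInstance
  · rw [Ideal.span_singleton_le_iff_mem, Ideal.under_def, Ideal.mem_comap]
    have := natCast_mem_beta0Prime ι hA
    simpa using this

variable {A} in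
/-- The point of the height-one spectrum of `𝓞 K` cut out by `A`. -/
noncomputable def beta0Spec {q : ℕ} (hq : q.Prime) (hA : A.LiesOverPrime q) :
    HeightOneSpectrum (𝓞 K) :=
  ⟨beta0Prime A ι, beta0Prime_isPrime A ι, beta0Prime_ne_bot ι hq hA⟩

variable {A} in
/-- `A ∩ K` is the valuation ring of the adic valuation at `beta0Prime`. -/
theorem beta0_comap_eq {q : ℕ} (hq : q.Prime) (hA : A.LiesOverPrime q) :
    A.comap ι = ((beta0Spec ι hq hA).valuation K).valuationSubring := by
  rw [← HeightOneSpectrum.valuationSubringAtPrime_eq_valuationSubring]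
  symm
  apply ValuationSubring.eq_of_le_of_ne_top
  · rintro x ⟨a, s, hs, rfl⟩
    rw [ValuationSubring.mem_comap, map_mul, map_inv₀]
    have hsP : beta0Emb ι s ∉ A.nonunits := fun h => hs ((mem_beta0Prime A ι s).mpr h)
    have hv : A.valuation (beta0Emb ι s) = 1 :=
      Fermat.Agent.Common.frobGlue_valuation_eq_one A (beta0Emb_mem A ι s) hsP
    rw [← A.valuation_le_one_iff, map_mul, map_inv₀]
    have e1 : ι ((algebraMap (𝓞 K) K) s) = beta0Emb ι s := rfl
    rw [e1, hv, inv_one, mul_one]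
    exact (A.valuation_le_one_iff _).mpr (beta0Emb_mem A ι a)
  · intro h
    have hq0 : (q : K) ≠ 0 := by exact_mod_cast hq.ne_zero
    have h1 : ((q : K))⁻¹ ∈ A.comap ι := by rw [h]; trivial
    rw [ValuationSubring.mem_comap, map_inv₀, map_natCast] at h1
    have hq0' : (q : AlgebraicClosure ℚ) ≠ 0 := by exact_mod_cast hq.ne_zero
    exact (beta0_mem_nonunits_iff_inv A hq0').mp hA h1

variable {A} in
theorem beta0_mem_iff {q : ℕ} (hq : q.Prime) (hA : A.LiesOverPrime q) (x : K) :
    ι x ∈ A ↔ (beta0Spec ι hq hA).valuation K x ≤ 1 := by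
  rw [← ValuationSubring.mem_comap, beta0_comap_eq ι hq hA, Valuation.mem_valuationSubring_iff]

variable {A} in
theorem beta0_mem_nonunits_iff {q : ℕ} (hq : q.Prime) (hA : A.LiesOverPrime q) (x : K) :
    ι x ∈ A.nonunits ↔ (beta0Spec ι hq hA).valuation K x < 1 := by
  rcases eq_or_ne x 0 with rfl | hx
  · simp only [map_zero, zero_lt_one, iff_true]
    exact A.mem_nonunits_iff.mpr (by simp)
  · have hx' : ι x ≠ 0 := (map_ne_zero ι).mpr hx
    rw [beta0_mem_nonunits_iff_inv A hx', ← map_inv₀, beta0_mem_iff ι hq hA, map_inv₀, not_le]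
    have h0 : (beta0Spec ι hq hA).valuation K x ≠ 0 := (Valuation.ne_zero_iff _).mpr hx
    rw [one_lt_inv₀ (zero_lt_iff.mpr h0)]

end general

end Fermat.Agent.UNIP
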