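import Mathlib
import Fermat.Agent.UNIP.Beta0
import Fermat.Agent.S05.Inertia

/-!
# UNIP piece U10 (`Beta0`), part 2: the inertia field at finite level

`A` is a valuation subring of `ℚ̄` over `q`, `F ⊂ ℚ̄` a finite Galois extension of `ℚ`,
`P = 𝔪_A ∩ 𝓞 F`, `H` the inertia group of `P` in `Gal(F/ℚ)`, `T = F^H` (`beta0T A F`).
-/

set_option autoImplicit false
set_option linter.style.haveILetI false
set_option linter.unusedSectionVars false

open scoped NumberField Pointwise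
open Ideal MulAction IsDedekindDomain WithZero

namespace Fermat.Agent.UNIP

/-- In a Dedekind domain, if `q ∈ 𝓟 ∖ 𝓟²` and `a ∈ 𝓟` then `s a ∈ (q)` for some `s ∉ 𝓟`. -/
theorem beta0_exists_mul_eq {R : Type*} [CommRing R] [IsDedekindDomain R] (𝓟 : Ideal R)
    [𝓟.IsPrime] (q : R) (hq : q ∈ 𝓟) (hq2 : q ∉ 𝓟 ^ 2) (a : R) (ha : a ∈ 𝓟) :
    ∃ s, s ∉ 𝓟 ∧ ∃ c, s * a = q * c := by
  have hle : Ideal.span {q} ≤ 𝓟 := (Ideal.span_singleton_le_iff_mem 𝓟).mpr hq
  obtain ⟨J, hJ⟩ := Ideal.dvd_iff_le.mpr hle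
  have hJ' : ¬ J ≤ 𝓟 := by
    intro h
    apply hq2
    have : Ideal.span {q} ≤ 𝓟 ^ 2 := by
      rw [hJ, pow_two]
      exact Ideal.mul_mono_right h
    exact this (Ideal.mem_span_singleton_self q)
  obtain ⟨s, hsJ, hs⟩ := Set.not_subset.mp hJ'
  refine ⟨s, hs, ?_⟩
  have h1 : s * a ∈ Ideal.span {q} := by
    rw [hJ, mul_comm s a]
    exact Ideal.mul_mem_mul ha hsJ
  obtain ⟨c, hc⟩ := Ideal.mem_span_singleton'.mp h1
  exact ⟨c, by rw [← hc, mul_comm]⟩

/-- In `ℤᵐ⁰`, `a < 1` implies `a ≤ exp (-1)`. -/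
theorem beta0_le_exp_neg_one {a : ℤᵐ⁰} (h : a < 1) : a ≤ exp (-1 : ℤ) := by
  rcases eq_or_ne a 0 with rfl | ha
  · exact zero_le
  · obtain ⟨n, rfl⟩ : ∃ n : ℤ, a = exp n := ⟨log a, (exp_log ha).symm⟩
    rw [← exp_zero, exp_lt_exp] at h
    rw [exp_le_exp]
    omega

section finiteLevel

variable (A : ValuationSubring (AlgebraicClosure ℚ))
  (F : IntermediateField ℚ (AlgebraicClosure ℚ)) [NumberField F]

/-- The embedding `F → ℚ̄`. -/
noncomputable abbrev beta0ιF : F →+* AlgebraicClosure ℚ := algebraMap F (AlgebraicClosure ℚ)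

/-- The Galois action on `𝓞 F` is compatible with the embedding into `ℚ̄`. -/
theorem beta0Emb_smul [IsGalois ℚ F] (s : F ≃ₐ[ℚ] F) (y : 𝓞 F) :
    beta0Emb (beta0ιF F) (s • y) = ((s (y : F) : F) : AlgebraicClosure ℚ) := by
  simp only [beta0Emb, RingHom.comp_apply]
  rw [algebraMap.smul']
  rfl

variable {A} in
/-- Elements of the finite-level inertia group lift to the inertia group of `A`. -/
theorem beta0_exists_lift [IsGalois ℚ F] {q : ℕ} (hq : q.Prime) (hA : A.LiesOverPrime q)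
    (s : F ≃ₐ[ℚ] F) (hs : s ∈ (beta0Prime A (beta0ιF F)).inertia (F ≃ₐ[ℚ] F)) :
    ∃ σ ∈ A.inertiaSubgroupIn ℚ,
      ∀ x : F, σ (x : AlgebraicClosure ℚ) = ((s x : F) : AlgebraicClosure ℚ) := by
  haveI := Fermat.Agent.Common.isAlgClosure_rat_qbar
  obtain ⟨τ, hτ⟩ := AlgEquiv.restrictNormalHom_surjective (F := ℚ) (K₁ := F) (AlgebraicClosure ℚ) s
  have hτx : ∀ x : F, τ (x : AlgebraicClosure ℚ) = ((s x : F) : AlgebraicClosure ℚ) := by
    intro x
    rw [← hτ]
    exact (AlgEquiv.restrictNormal_commutes τ F x).symm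
  obtain ⟨σ', hσ', hσ'F⟩ :=
    Fermat.Agent.Common.exists_mem_inertiaSubgroupIn_of_congr' F q hq A hA τ
    (by
      intro x hxF hxint
      have hxint' : IsIntegral ℤ (⟨x, hxF⟩ : F) :=
        (isIntegral_algebraMap_iff (algebraMap F (AlgebraicClosure ℚ)).injective).mp hxint
      let y : 𝓞 F := ⟨⟨x, hxF⟩, hxint'⟩
      have hy : s • y - y ∈ beta0Prime A (beta0ιF F) := hs y
      rw [mem_beta0Prime, map_sub, beta0Emb_smul] at hy
      have e1 : τ x = ((s (y : F) : F) : AlgebraicClosure ℚ) := hτx ⟨x, hxF⟩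
      have e2 : beta0Emb (beta0ιF F) y = x := rfl
      rw [e1, ← e2]
      exact hy)
  exact ⟨σ', hσ', fun x => (hσ'F x).trans (hτx x)⟩

/-- Restrictions of elements of the inertia group of `A` lie in the finite-level inertia group. -/
theorem beta0_restrict_mem [IsGalois ℚ F] (σ : AlgebraicClosure ℚ ≃ₐ[ℚ] AlgebraicClosure ℚ)
    (hσ : σ ∈ A.inertiaSubgroupIn ℚ) (s : F ≃ₐ[ℚ] F)
    (hs : ∀ x : F, ((s x : F) : AlgebraicClosure ℚ) = σ (x : AlgebraicClosure ℚ)) :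
    s ∈ (beta0Prime A (beta0ιF F)).inertia (F ≃ₐ[ℚ] F) := by
  intro y
  show s • y - y ∈ beta0Prime A (beta0ιF F)
  rw [mem_beta0Prime, map_sub, beta0Emb_smul, hs]
  exact (Fermat.Agent.S05.inertia_mem_iff hσ).2.1 _ (beta0Emb_mem A (beta0ιF F) y)

/-- The inertia field of `F` at the prime cut out by `A`, as a subfield of `F`. -/
noncomputable def beta0T : IntermediateField ℚ F :=
  FixedPoints.intermediateField ((beta0Prime A (beta0ιF F)).inertia (F ≃ₐ[ℚ] F))

theorem mem_beta0T (x : F) :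
    x ∈ beta0T A F ↔ ∀ s ∈ (beta0Prime A (beta0ιF F)).inertia (F ≃ₐ[ℚ] F), s x = x := by
  constructor
  · intro h s hs
    exact h ⟨s, hs⟩
  · rintro h ⟨s, hs⟩
    exact h s hs

instance beta0T_isInertiaField [IsGalois ℚ F] :
    IsInertiaField ℚ F (beta0Prime A (beta0ιF F)) (beta0T A F) := by
  unfold beta0T; infer_instance

/-- The embedding `T → ℚ̄`. -/
noncomputable abbrev beta0ιT : beta0T A F →+* AlgebraicClosure ℚ :=
  (beta0ιF F).comp (algebraMap (beta0T A F) F)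

theorem beta0Prime_T_eq :
    beta0Prime A (beta0ιT A F) = (beta0Prime A (beta0ιF F)).under (𝓞 (beta0T A F)) := by
  ext y
  rw [mem_beta0Prime, Ideal.under_def, Ideal.mem_comap, mem_beta0Prime]
  rfl

variable {A} in
theorem natCast_not_mem_sq [IsGalois ℚ F] {q : ℕ} (hq : q.Prime) (hA : A.LiesOverPrime q) :
    ((q : ℕ) : 𝓞 (beta0T A F)) ∉ (beta0Prime A (beta0ιT A F)) ^ 2 := by
  haveI := beta0Prime_isMaximal (beta0ιF F) hq hA
  have hunder := beta0Prime_under_int (beta0ιF F) hq hA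
  have hne : (beta0Prime A (beta0ιF F)).under ℤ ≠ ⊥ := by
    rw [hunder]
    simp only [ne_eq, Ideal.span_singleton_eq_bot]
    exact_mod_cast hq.ne_zero
  have h1 : ((beta0Prime A (beta0ιF F)).under (𝓞 (beta0T A F))).ramificationIdx ℤ = 1 :=
    beta0_ramificationIdx_eq_one ℤ ℚ F (beta0Prime A (beta0ιF F)) (beta0T A F) (𝓞 (beta0T A F))
      ((beta0Prime A (beta0ιF F)).under (𝓞 (beta0T A F))) hne
  rw [← beta0Prime_T_eq] at h1
  have hunderT := beta0Prime_under_int (beta0ιT A F) hq hA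
  haveI : (beta0Prime A (beta0ιT A F)).LiesOver (Ideal.span {(q : ℤ)}) := ⟨hunderT.symm⟩
  have hne' : (Ideal.span {(q : ℤ)}) ≠ ⊥ := by
    simp only [ne_eq, Ideal.span_singleton_eq_bot]
    exact_mod_cast hq.ne_zero
  have h2 := Ideal.ramificationIdx'_eq_ramificationIdx (R := ℤ) (Ideal.span {(q : ℤ)})
    (beta0Prime A (beta0ιT A F)) hne'
  rw [h1] at h2
  intro hmem
  have hle : (Ideal.span {(q : ℤ)}).map (algebraMap ℤ (𝓞 (beta0T A F))) ≤
      beta0Prime A (beta0ιT A F) := by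
    rw [Ideal.map_le_iff_le_comap, ← Ideal.under_def, hunderT]
  have h3 := (Ideal.ramificationIdx'_ne_one_iff hle).mpr (by
    rw [Ideal.map_span, Set.image_singleton, Ideal.span_singleton_le_iff_mem]
    simpa using hmem)
  exact h3 h2

variable {A} in
/-- `q` has valuation `exp (-1)` in the inertia field. -/
theorem beta0_valuation_T_q [IsGalois ℚ F] {q : ℕ} (hq : q.Prime) (hA : A.LiesOverPrime q) :
    (beta0Spec (beta0ιT A F) hq hA).valuation (beta0T A F) ((q : ℕ) : beta0T A F) =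
      exp (-1 : ℤ) := by
  have e0 : ((q : ℕ) : beta0T A F) = algebraMap (𝓞 (beta0T A F)) (beta0T A F) ((q : ℕ)) := by
    simp
  rw [e0, HeightOneSpectrum.valuation_of_algebraMap]
  set v := beta0Spec (beta0ιT A F) hq hA
  have h1 : v.intValuation ((q : ℕ) : 𝓞 (beta0T A F)) ≤ exp (-((1 : ℕ) : ℤ)) := by
    rw [HeightOneSpectrum.intValuation_le_pow_iff_mem, pow_one]
    exact natCast_mem_beta0Prime (beta0ιT A F) hA
  have h2 : ¬ v.intValuation ((q : ℕ) : 𝓞 (beta0T A F)) ≤ exp (-((2 : ℕ) : ℤ)) := by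
    rw [HeightOneSpectrum.intValuation_le_pow_iff_mem]
    exact natCast_not_mem_sq F hq hA
  have h0 : v.intValuation ((q : ℕ) : 𝓞 (beta0T A F)) ≠ 0 := by
    intro h
    rw [h] at h2
    exact h2 zero_le
  obtain ⟨n, hn⟩ : ∃ n : ℤ, v.intValuation ((q : ℕ) : 𝓞 (beta0T A F)) = exp n :=
    ⟨log _, (exp_log h0).symm⟩
  rw [hn] at h1 h2 ⊢
  rw [exp_le_exp] at h1 h2
  rw [exp_inj]
  push_cast at h1 h2
  omega

variable {A} in
/-- `q` is a uniformizer of `A ∩ T`. -/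
theorem beta0_div_mem_T [IsGalois ℚ F] {q : ℕ} (hq : q.Prime) (hA : A.LiesOverPrime q)
    (t : beta0T A F) (ht : ((t : F) : AlgebraicClosure ℚ) ∈ A.nonunits) :
    ((t : F) : AlgebraicClosure ℚ) / (q : AlgebraicClosure ℚ) ∈ A := by
  have h1 : (beta0Spec (beta0ιT A F) hq hA).valuation (beta0T A F) t < 1 :=
    (beta0_mem_nonunits_iff (beta0ιT A F) hq hA t).mp ht
  have h2 := beta0_le_exp_neg_one h1
  have h3 : beta0ιT A F (t / ((q : ℕ) : beta0T A F)) ∈ A := by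
    rw [beta0_mem_iff (beta0ιT A F) hq hA, map_div₀, beta0_valuation_T_q F hq hA]
    rw [div_le_one₀ (by simp)]
    exact h2
  simpa using h3

end finiteLevel

end Fermat.Agent.UNIP
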