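import Mathlib
import Fermat.Agent.UNIP.Beta0Inertia
import Fermat.Agent.S13.Minkowski
import Fermat.Agent.S31.Cyclo

/-!
# UNIP piece U10 (`Beta0`), part 3: the absolute inertia field `E₀ = ℚ̄^I`

`A` is a valuation subring of `ℚ̄` over `q`, `I = A.inertiaSubgroupIn ℚ`, `E₀ = beta0Field A = ℚ̄^I`.

* `beta0Field_inter`       : `E₀ ∩ F` is the inertia field `beta0T A F` of a finite Galois `F`;
* `beta0_div_mem`          : `x ∈ E₀ ∩ 𝔪_A ⇒ x / q ∈ A`  (`q` is a uniformizer of `A ∩ E₀`);
* `beta0_mem_inertia_of_fixes` : `Gal(ℚ̄/E₀) = I`;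
* `beta0_exists_residue`   : every `a ∈ A` is congruent mod `𝔪_A` to `0` or to a root of unity of
  order prime to `q`, which lies in `E₀`  (residue field of `A ∩ E₀` = residue field of `A`);
* `beta0_root_mem`         : `E₀ ≤ E'`, `c ∈ E'` a unit of `A`, `d ^ p = c`, `p ≠ q` ⇒ `d ∈ E'`.
-/

set_option autoImplicit false
set_option linter.style.haveILetI false
set_option linter.unusedSectionVars false

open scoped NumberField Pointwise
open Ideal MulAction IsDedekindDomain WithZero

namespace Fermat.Agent.UNIP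

/-- The inertia field `E₀ = ℚ̄^I` of the valuation subring `A` of `ℚ̄`. -/
noncomputable def beta0Field (A : ValuationSubring (AlgebraicClosure ℚ)) :
    IntermediateField ℚ (AlgebraicClosure ℚ) :=
  IntermediateField.fixedField (A.inertiaSubgroupIn ℚ)

theorem mem_beta0Field {A : ValuationSubring (AlgebraicClosure ℚ)} {x : AlgebraicClosure ℚ} :
    x ∈ beta0Field A ↔ ∀ σ ∈ A.inertiaSubgroupIn ℚ, σ x = x := by
  constructor
  · intro h σ hσ
    exact h ⟨σ, hσ⟩
  · intro h σ
    exact h σ.1 σ.2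

/-- Every element of `ℚ̄` lies in a finite Galois extension of `ℚ`. -/
theorem beta0_exists_galois (S : Finset (AlgebraicClosure ℚ)) :
    ∃ F : IntermediateField ℚ (AlgebraicClosure ℚ), FiniteDimensional ℚ F ∧ IsGalois ℚ F ∧
      ∀ x ∈ S, x ∈ F := by
  haveI := Fermat.Agent.Common.isAlgClosure_rat_qbar
  set K : IntermediateField ℚ (AlgebraicClosure ℚ) :=
    IntermediateField.adjoin ℚ (S : Set (AlgebraicClosure ℚ)) with hK
  haveI hKfin : FiniteDimensional ℚ K :=
    IntermediateField.finiteDimensional_adjoin (fun x _ => (Algebra.IsIntegral.isIntegral x))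
  refine ⟨IntermediateField.normalClosure ℚ K (AlgebraicClosure ℚ), inferInstance, ?_, ?_⟩
  · have : Normal ℚ (IntermediateField.normalClosure ℚ K (AlgebraicClosure ℚ)) :=
      normalClosure.normal ℚ K (AlgebraicClosure ℚ)
    exact IsGalois.mk
  · intro x hx
    exact (IntermediateField.le_normalClosure K) (IntermediateField.subset_adjoin ℚ _ hx)

section finiteLevel

variable (A : ValuationSubring (AlgebraicClosure ℚ))
  (F : IntermediateField ℚ (AlgebraicClosure ℚ)) [NumberField F] [IsGalois ℚ F]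

variable {A} in
/-- `E₀ ∩ F` is contained in the inertia field of `F`. -/
theorem beta0_mem_T {q : ℕ} (hq : q.Prime) (hA : A.LiesOverPrime q)
    (x : F) (hx : (x : AlgebraicClosure ℚ) ∈ beta0Field A) : x ∈ beta0T A F := by
  rw [mem_beta0T]
  intro s hs
  obtain ⟨σ, hσ, hσx⟩ := beta0_exists_lift F hq hA s hs
  have h1 := mem_beta0Field.mp hx σ hσ
  rw [hσx x] at h1
  exact Subtype.ext h1

/-- The inertia field of `F` is contained in `E₀`. -/
theorem beta0_T_le (x : F) (hx : x ∈ beta0T A F) : (x : AlgebraicClosure ℚ) ∈ beta0Field A := by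
  haveI := Fermat.Agent.Common.isAlgClosure_rat_qbar
  rw [mem_beta0Field]
  intro σ hσ
  set s : F ≃ₐ[ℚ] F := AlgEquiv.restrictNormal σ F with hs
  have hsx : ∀ y : F, ((s y : F) : AlgebraicClosure ℚ) = σ (y : AlgebraicClosure ℚ) :=
    fun y => AlgEquiv.restrictNormal_commutes σ F y
  have hmem := beta0_restrict_mem A F σ hσ s hsx
  have := (mem_beta0T A F x).mp hx s hmem
  rw [← hsx x, this]

variable {A} in
/-- `E₀ ∩ F = T_F`. -/
theorem beta0Field_inter {q : ℕ} (hq : q.Prime) (hA : A.LiesOverPrime q) (x : F) :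
    (x : AlgebraicClosure ℚ) ∈ beta0Field A ↔ x ∈ beta0T A F :=
  ⟨beta0_mem_T F hq hA x, beta0_T_le A F x⟩

end finiteLevel

section absolute

variable {A : ValuationSubring (AlgebraicClosure ℚ)} {q : ℕ}

/-- **`q` is a uniformizer of `A ∩ E₀`.** -/
theorem beta0_div_mem (hq : q.Prime) (hA : A.LiesOverPrime q) {x : AlgebraicClosure ℚ}
    (hx : x ∈ beta0Field A) (hxA : x ∈ A.nonunits) : x / (q : AlgebraicClosure ℚ) ∈ A := by
  obtain ⟨F, hFfin, hFgal, hxF⟩ := beta0_exists_galois {x}
  haveI : NumberField F := { to_charZero := inferInstance, to_finiteDimensional := hFfin }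
  have hxF' : x ∈ F := hxF x (Finset.mem_singleton_self x)
  have hT : (⟨x, hxF'⟩ : F) ∈ beta0T A F := beta0_mem_T F hq hA ⟨x, hxF'⟩ hx
  exact beta0_div_mem_T F hq hA ⟨⟨x, hxF'⟩, hT⟩ hxA

/-- **`Gal(ℚ̄/E₀) = I`**: an automorphism fixing `E₀` pointwise lies in the inertia group. -/
theorem beta0_mem_inertia_of_fixes (hq : q.Prime) (hA : A.LiesOverPrime q)
    (σ : AlgebraicClosure ℚ ≃ₐ[ℚ] AlgebraicClosure ℚ) (hσ : ∀ x ∈ beta0Field A, σ x = x) :
    σ ∈ A.inertiaSubgroupIn ℚ := by
  haveI := Fermat.Agent.Common.isAlgClosure_rat_qbar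
  apply Fermat.Agent.S13.Minkowski.mem_inertiaSubgroupIn_of_forall hq A hA σ
  intro b hb
  obtain ⟨F, hFfin, hFgal, hbF⟩ := beta0_exists_galois {b}
  haveI : NumberField F := { to_charZero := inferInstance, to_finiteDimensional := hFfin }
  have hbF' : b ∈ F := hbF b (Finset.mem_singleton_self b)
  set s : F ≃ₐ[ℚ] F := AlgEquiv.restrictNormal σ F with hs
  have hsx : ∀ y : F, ((s y : F) : AlgebraicClosure ℚ) = σ (y : AlgebraicClosure ℚ) :=
    fun y => AlgEquiv.restrictNormal_commutes σ F y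
  -- `s` fixes the inertia field, hence lies in the finite-level inertia group
  have hsfix : ∀ y ∈ beta0T A F, s y = y := by
    intro y hy
    apply Subtype.ext
    rw [hsx]
    exact hσ _ (beta0_T_le A F y hy)
  have hsH : s ∈ (beta0Prime A (beta0ιF F)).inertia (F ≃ₐ[ℚ] F) := by
    have h1 : s ∈ (IntermediateField.fixedField
        ((beta0Prime A (beta0ιF F)).inertia (F ≃ₐ[ℚ] F))).fixingSubgroup := by
      rw [IntermediateField.mem_fixingSubgroup_iff]
      intro y hy
      exact hsfix y hy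
    rwa [IntermediateField.fixingSubgroup_fixedField] at h1
  obtain ⟨τ, hτ, hτx⟩ := beta0_exists_lift F hq hA s hsH
  have e1 : σ b = τ b := by
    rw [← hsx ⟨b, hbF'⟩, ← hτx ⟨b, hbF'⟩]
  rw [e1]
  exact Fermat.Agent.S05.inertia_apply_sub_mem_nonunits hτ (hb 1)

end absolute

end Fermat.Agent.UNIP
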