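import Mathlib
import Fermat.Agent.UNIP.Beta0Abs

/-!
# UNIP piece U10 (`Beta0`), part 4: `A₀ = A ∩ E₀` is a DVR with uniformizer `q`

`A` is a valuation subring of `ℚ̄` over `q`, `I = A.inertiaSubgroupIn ℚ`, `E₀ = beta0Field A = ℚ̄^I`.

* `beta0_valuation_eq_zpow` : `x ∈ E₀`, `x ≠ 0` ⇒ `v x = v q ^ k` for some `k : ℤ` (`v = A.valuation`);
* `beta0_isDVR_of_uniformizer` : generic criterion — `A.comap ι` is a DVR as soon as the values of
  `E` are powers of the value of one element `π` with `v (ι π) < 1`;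
* `beta0_isDVR` : `IsDiscreteValuationRing (A.comap (algebraMap E₀ ℚ̄))`;
* `beta0_exists_residue` : every `a ∈ A` is congruent mod `𝔪_A` to an element of `A ∩ E₀`
  (`0` or a root of unity of order prime to `q`);
* `beta0_root_mem` : `E₀ ≤ E'`, `c ∈ E'` a unit of `A`, `d ^ M = c`, `M` a unit of `A` ⇒ `d ∈ E'`.
-/

set_option autoImplicit false
set_option linter.style.haveILetI false
set_option linter.unusedSectionVars false

open scoped NumberField Pointwise
open Ideal MulAction IsDedekindDomain WithZero Polynomial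

namespace Fermat.Agent.UNIP

section generic

variable {L : Type*} [Field L] (A : ValuationSubring L)

/-- `v z = 1` iff `z ∈ A` and `z ∉ 𝔪`. -/
theorem beta0_valuation_eq_one_iff (z : L) :
    A.valuation z = 1 ↔ z ∈ A ∧ z ∉ A.nonunits := by
  rw [← A.valuation_le_one_iff, ValuationSubring.mem_nonunits_iff, not_lt]
  exact ⟨fun h => ⟨h.le, h.ge⟩, fun h => le_antisymm h.1 h.2⟩

/-- Generic DVR criterion for the trace `A ∩ E` of a valuation ring on a subfield. -/
theorem beta0_isDVR_of_uniformizer {E : Type*} [Field E] (ι : E →+* L) (π : E) (hπ0 : π ≠ 0)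
    (hπ : A.valuation (ι π) < 1)
    (h : ∀ x : E, x ≠ 0 → ∃ k : ℤ, A.valuation (ι x) = A.valuation (ι π) ^ k) :
    IsDiscreteValuationRing (A.comap ι) := by
  set γ := A.valuation (ι π) with hγ
  have hγ0 : 0 < γ := zero_lt_iff.mpr ((Valuation.ne_zero_iff _).mpr ((map_ne_zero ι).mpr hπ0))
  have hπmem : π ∈ A.comap ι := by
    rw [ValuationSubring.mem_comap, ← A.valuation_le_one_iff]
    exact hπ.le
  -- elements of valuation one are units
  have hunit : ∀ x : A.comap ι, A.valuation (ι (x : E)) = 1 → IsUnit x := by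
    intro x hx
    have hx0 : (x : E) ≠ 0 := by
      intro h0
      rw [h0, map_zero, map_zero] at hx
      exact zero_ne_one hx
    have hinv : (x : E)⁻¹ ∈ A.comap ι := by
      rw [ValuationSubring.mem_comap, ← A.valuation_le_one_iff, map_inv₀, map_inv₀, hx, inv_one]
    refine IsUnit.of_mul_eq_one ⟨(x : E)⁻¹, hinv⟩ ?_
    apply Subtype.ext
    simp [hx0]
  have hle : ∀ x : A.comap ι, A.valuation (ι (x : E)) ≤ 1 := fun x =>
    (A.valuation_le_one_iff _).mpr x.2
  have hnonunit : ∀ x : A.comap ι, IsUnit x → A.valuation (ι (x : E)) = 1 := by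
    intro x hx
    obtain ⟨y, hy⟩ := hx.exists_right_inv
    have h1 : A.valuation (ι (x : E)) * A.valuation (ι (y : E)) = 1 := by
      rw [← map_mul, ← map_mul]
      have : (x : E) * (y : E) = 1 := by
        have := congrArg (fun z : A.comap ι => (z : E)) hy
        simpa using this
      rw [this, map_one, map_one]
    apply le_antisymm (hle x)
    by_contra hlt
    rw [not_le] at hlt
    have : A.valuation (ι (x : E)) * A.valuation (ι (y : E)) < 1 := by
      calc A.valuation (ι (x : E)) * A.valuation (ι (y : E))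
          ≤ A.valuation (ι (x : E)) * 1 := mul_le_mul_right (hle y) _
        _ = A.valuation (ι (x : E)) := mul_one _
        _ < 1 := hlt
    rw [h1] at this
    exact lt_irrefl _ this
  apply IsDiscreteValuationRing.ofHasUnitMulPowIrreducibleFactorization
  refine ⟨⟨π, hπmem⟩, ?_, ?_⟩
  · -- irreducible
    refine ⟨fun hu => ?_, ?_⟩
    · have h1 : A.valuation (ι π) = 1 := hnonunit _ hu
      have h2 : A.valuation (ι π) < 1 := hπ
      rw [h1] at h2
      exact lt_irrefl _ h2
    · intro a b hab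
      have hab' : π = (a : E) * (b : E) := by
        have := congrArg (fun z : A.comap ι => (z : E)) hab
        simpa using this
      have ha0 : (a : E) ≠ 0 := by
        intro h0
        rw [h0, zero_mul] at hab'
        exact hπ0 hab'
      have hb0 : (b : E) ≠ 0 := by
        intro h0
        rw [h0, mul_zero] at hab'
        exact hπ0 hab'
      obtain ⟨m, hm⟩ := h a ha0
      obtain ⟨n, hn⟩ := h b hb0
      have hm0 : 0 ≤ m := by
        have := hle a
        rw [hm] at this
        exact (zpow_le_one_iff_right_of_lt_one₀ hγ0 hπ).mp this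
      have hn0 : 0 ≤ n := by
        have := hle b
        rw [hn] at this
        exact (zpow_le_one_iff_right_of_lt_one₀ hγ0 hπ).mp this
      have hmn : m + n = 1 := by
        have h1 : γ ^ (1 : ℤ) = γ ^ (m + n) := by
          rw [zpow_add₀ hγ0.ne', ← hm, ← hn, ← map_mul, ← map_mul, ← hab', zpow_one]
        exact ((zpow_right_inj₀ hγ0 hπ.ne).mp h1).symm
      rcases (by omega : m = 0 ∨ n = 0) with h0 | h0
      · left
        apply hunit
        rw [hm, h0, zpow_zero]
      · right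
        apply hunit
        rw [hn, h0, zpow_zero]
  · intro x hx
    have hx0 : (x : E) ≠ 0 := fun h0 => hx (Subtype.ext h0)
    obtain ⟨k, hk⟩ := h x hx0
    have hk0 : 0 ≤ k := by
      have := hle x
      rw [hk] at this
      exact (zpow_le_one_iff_right_of_lt_one₀ hγ0 hπ).mp this
    obtain ⟨n, rfl⟩ := Int.eq_ofNat_of_zero_le hk0
    refine ⟨n, ?_⟩
    -- the unit `x / π ^ n`
    have hu1 : A.valuation (ι ((x : E) / π ^ n)) = 1 := by
      rw [map_div₀, map_div₀, hk, map_pow, map_pow, zpow_natCast]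
      exact div_self (pow_ne_zero _ hγ0.ne')
    have humem : (x : E) / π ^ n ∈ A.comap ι := by
      rw [ValuationSubring.mem_comap, ← A.valuation_le_one_iff, hu1]
    obtain ⟨u, hu⟩ := hunit ⟨(x : E) / π ^ n, humem⟩ hu1
    refine ⟨u, ?_⟩
    rw [hu]
    apply Subtype.ext
    simp only [MulMemClass.coe_mul, SubmonoidClass.coe_pow]
    field_simp

end generic

section absolute

variable {A : ValuationSubring (AlgebraicClosure ℚ)} {q : ℕ}

/-- The value group of `E₀ = ℚ̄^I` is generated by the value of `q`. -/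
theorem beta0_valuation_eq_zpow (hq : q.Prime) (hA : A.LiesOverPrime q) {x : AlgebraicClosure ℚ}
    (hx : x ∈ beta0Field A) (hx0 : x ≠ 0) :
    ∃ k : ℤ, A.valuation x = A.valuation (q : AlgebraicClosure ℚ) ^ k := by
  obtain ⟨F, hFfin, hFgal, hxF⟩ := beta0_exists_galois {x}
  haveI : NumberField F := { to_charZero := inferInstance, to_finiteDimensional := hFfin }
  have hxF' : x ∈ F := hxF x (Finset.mem_singleton_self x)
  have hT : (⟨x, hxF'⟩ : F) ∈ beta0T A F := beta0_mem_T F hq hA ⟨x, hxF'⟩ hx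
  set t : beta0T A F := ⟨⟨x, hxF'⟩, hT⟩ with ht
  have ht0 : t ≠ 0 := by
    intro h
    apply hx0
    have := congrArg (fun z : beta0T A F => ((z : F) : AlgebraicClosure ℚ)) h
    simpa [ht] using this
  set w := (beta0Spec (beta0ιT A F) hq hA).valuation (beta0T A F) with hw
  have hwt : w t ≠ 0 := (Valuation.ne_zero_iff _).mpr ht0
  obtain ⟨m, hm⟩ : ∃ m : ℤ, w t = exp m := ⟨log _, (exp_log hwt).symm⟩
  have hwq : w ((q : ℕ) : beta0T A F) = exp (-1 : ℤ) := beta0_valuation_T_q F hq hA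
  -- `y = t * q ^ m` has valuation one
  set y : beta0T A F := t * ((q : ℕ) : beta0T A F) ^ m with hy
  have hwy : w y = 1 := by
    rw [hy, map_mul, map_zpow₀, hm, hwq, ← exp_zsmul, ← exp_add]
    simp
  have hyA : beta0ιT A F y ∈ A := by
    rw [beta0_mem_iff (beta0ιT A F) hq hA, ← hw, hwy]
  have hyA' : beta0ιT A F y ∉ A.nonunits := by
    rw [beta0_mem_nonunits_iff (beta0ιT A F) hq hA, ← hw, hwy]
    exact lt_irrefl _
  have hvy : A.valuation (beta0ιT A F y) = 1 :=
    (beta0_valuation_eq_one_iff A _).mpr ⟨hyA, hyA'⟩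
  have hyx : beta0ιT A F y = x * (q : AlgebraicClosure ℚ) ^ m := by
    rw [hy, map_mul, map_zpow₀, map_natCast]
    rfl
  rw [hyx, map_mul, map_zpow₀] at hvy
  have hq0 : A.valuation (q : AlgebraicClosure ℚ) ≠ 0 :=
    (Valuation.ne_zero_iff _).mpr (by exact_mod_cast hq.ne_zero)
  refine ⟨-m, ?_⟩
  rw [zpow_neg]
  exact eq_inv_of_mul_eq_one_left hvy

/-- **`A₀ = A ∩ E₀` is a discrete valuation ring** (with uniformizer `q`). -/
theorem beta0_isDVR (hq : q.Prime) (hA : A.LiesOverPrime q) :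
    IsDiscreteValuationRing
      (A.comap (algebraMap (beta0Field A) (AlgebraicClosure ℚ))) := by
  have hq0 : ((q : ℕ) : beta0Field A) ≠ 0 := by exact_mod_cast hq.ne_zero
  have e1 : algebraMap (beta0Field A) (AlgebraicClosure ℚ) ((q : ℕ) : beta0Field A) =
      (q : AlgebraicClosure ℚ) := map_natCast _ q
  apply beta0_isDVR_of_uniformizer A (algebraMap (beta0Field A) (AlgebraicClosure ℚ))
    ((q : ℕ) : beta0Field A) hq0
  · rw [e1]
    exact A.mem_nonunits_iff.mp hA
  · intro x hx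
    rw [e1]
    exact beta0_valuation_eq_zpow hq hA x.2 (by simpa using hx)

end absolute

section residue

/-- A nonzero nonunit-free congruence: if `a ∈ A` and `a ^ M - 1 ∈ 𝔪_A` (`M ≠ 0`), then `a` is congruent
mod `𝔪_A` to an `M`-th root of unity. -/
theorem beta0_exists_rootOfUnity {L : Type*} [Field L] [IsAlgClosed L] (A : ValuationSubring L)
    {M : ℕ} (hM : (M : L) ≠ 0) {a : L} (ha : a ∈ A) (haM : a ^ M - 1 ∈ A.nonunits) :
    ∃ ζ : L, ζ ^ M = 1 ∧ a - ζ ∈ A.nonunits := by
  classical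
  have hM0 : M ≠ 0 := by
    rintro rfl
    simp at hM
  haveI : NeZero (M : L) := ⟨hM⟩
  obtain ⟨ζ₀, hζ₀⟩ := HasEnoughRootsOfUnity.exists_primitiveRoot L M
  have hprod := X_pow_sub_one_eq_prod (Nat.pos_of_ne_zero hM0) hζ₀
  have heval : a ^ M - 1 = ∏ ζ ∈ nthRootsFinset M (1 : L), (a - ζ) := by
    have := congrArg (Polynomial.eval a) hprod
    simpa [Polynomial.eval_prod] using this
  by_contra hcon
  push Not at hcon
  have hall : ∀ ζ ∈ nthRootsFinset M (1 : L), A.valuation (a - ζ) = 1 := by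
    intro ζ hζ
    have hζM : ζ ^ M = 1 := (mem_nthRootsFinset (Nat.pos_of_ne_zero hM0) 1).mp hζ
    have hζA : ζ ∈ A := Fermat.Agent.S31.rootOfUnity_mem A hM0 hζM
    exact (beta0_valuation_eq_one_iff A _).mpr ⟨sub_mem ha hζA, hcon ζ hζM⟩
  have h1 : A.valuation (a ^ M - 1) = 1 := by
    rw [heval, map_prod]
    exact Finset.prod_eq_one hall
  rw [A.mem_nonunits_iff, h1] at haM
  exact lt_irrefl _ haM

variable {A : ValuationSubring (AlgebraicClosure ℚ)} {q : ℕ}

/-- **The residue field of `A₀ = A ∩ E₀` is the residue field of `A`**: every element of `A` is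
congruent modulo `𝔪_A` to an element of `A ∩ E₀`. -/
theorem beta0_exists_residue (hq : q.Prime) (hA : A.LiesOverPrime q) {a : AlgebraicClosure ℚ}
    (ha : a ∈ A) : ∃ b, b ∈ beta0Field A ∧ b ∈ A ∧ a - b ∈ A.nonunits := by
  classical
  by_cases hau : a ∈ A.nonunits
  · exact ⟨0, zero_mem _, zero_mem _, by simpa using hau⟩
  obtain ⟨F, hFfin, hFgal, haF⟩ := beta0_exists_galois {a}
  haveI : NumberField F := { to_charZero := inferInstance, to_finiteDimensional := hFfin }
  have haF' : a ∈ F := haF a (Finset.mem_singleton_self a)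
  set P := beta0Prime A (beta0ιF F) with hP
  haveI hPmax : P.IsMaximal := beta0Prime_isMaximal (beta0ιF F) hq hA
  have hPne : P ≠ ⊥ := beta0Prime_ne_bot (beta0ιF F) hq hA
  -- `a = n / d`
  have hmem : (⟨a, haF'⟩ : F) ∈ A.comap (beta0ιF F) := ha
  rw [beta0_comap_eq (beta0ιF F) hq hA,
    ← HeightOneSpectrum.valuationSubringAtPrime_eq_valuationSubring] at hmem
  obtain ⟨n, d, hd, hnd⟩ := hmem
  have hdP : d ∉ P := hd
  have hda : beta0Emb (beta0ιF F) d ∉ A.nonunits :=
    fun h => hdP ((mem_beta0Prime A _ d).mpr h)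
  have hvd : A.valuation (beta0Emb (beta0ιF F) d) = 1 :=
    (beta0_valuation_eq_one_iff A _).mpr ⟨beta0Emb_mem A _ d, hda⟩
  have hane : a = beta0Emb (beta0ιF F) n * (beta0Emb (beta0ιF F) d)⁻¹ := by
    have := congrArg (fun z : F => (z : AlgebraicClosure ℚ)) hnd
    simpa [beta0Emb] using this
  have hva : A.valuation a = 1 := (beta0_valuation_eq_one_iff A _).mpr ⟨ha, hau⟩
  have hvn : A.valuation (beta0Emb (beta0ιF F) n) = 1 := by
    rw [hane, map_mul, map_inv₀, hvd, inv_one, mul_one] at hva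
    exact hva
  have hnP : n ∉ P := fun h => by
    have := (mem_beta0Prime A _ n).mp h
    rw [A.mem_nonunits_iff, hvn] at this
    exact lt_irrefl _ this
  -- the finite residue field
  haveI : Finite (𝓞 F ⧸ P) := Ring.HasFiniteQuotients.finiteQuotient hPne
  letI : Fintype (𝓞 F ⧸ P) := Fintype.ofFinite _
  letI : Field (𝓞 F ⧸ P) := Ideal.Quotient.field P
  set Q := Fintype.card (𝓞 F ⧸ P) with hQ
  have hQ2 : 2 ≤ Q := Fintype.one_lt_card
  have hpow : ∀ x : 𝓞 F, x ∉ P →
      A.valuation ((beta0Emb (beta0ιF F) x) ^ (Q - 1) - 1) < 1 := by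
    intro x hx
    have h1 : (Ideal.Quotient.mk P x) ^ (Q - 1) = 1 :=
      FiniteField.pow_card_sub_one_eq_one _ (by rwa [Ne, Ideal.Quotient.eq_zero_iff_mem])
    have h2 : x ^ (Q - 1) - 1 ∈ P := by
      rw [← Ideal.Quotient.eq_zero_iff_mem, map_sub, map_pow, h1, map_one, sub_self]
    have h3 := (mem_beta0Prime A _ _).mp h2
    rw [map_sub, map_pow, map_one] at h3
    exact A.mem_nonunits_iff.mp h3
  have hQmem : ((Q : ℕ) : AlgebraicClosure ℚ) ∈ A.nonunits := by
    have h1 : ((Q : ℕ) : 𝓞 F) ∈ P := by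
      rw [← Ideal.Quotient.eq_zero_iff_mem, map_natCast]
      exact FiniteField.cast_card_eq_zero _
    have h3 := (mem_beta0Prime A _ _).mp h1
    simpa using h3
  set M := Q - 1 with hM
  have hM0 : M ≠ 0 := by omega
  have hMne : ((M : ℕ) : AlgebraicClosure ℚ) ≠ 0 := by exact_mod_cast hM0
  have hMu : ((M : ℕ) : AlgebraicClosure ℚ) ∉ A.nonunits := by
    intro h
    have h1 : (1 : AlgebraicClosure ℚ) = (Q : AlgebraicClosure ℚ) - (M : AlgebraicClosure ℚ) := by
      have : Q = M + 1 := by omega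
      rw [this]
      push_cast
      ring
    have : (1 : AlgebraicClosure ℚ) ∈ A.nonunits := by
      rw [h1, A.mem_nonunits_iff]
      exact lt_of_le_of_lt (Valuation.map_sub _ _ _)
        (max_lt (A.mem_nonunits_iff.mp hQmem) (A.mem_nonunits_iff.mp h))
    rw [A.mem_nonunits_iff, map_one] at this
    exact lt_irrefl _ this
  have haM : a ^ M - 1 ∈ A.nonunits := by
    rw [A.mem_nonunits_iff]
    have hd0 : beta0Emb (beta0ιF F) d ≠ 0 := by
      intro h
      rw [h, map_zero] at hvd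
      exact zero_ne_one hvd
    have e : a ^ M - 1 = ((beta0Emb (beta0ιF F) n ^ M - 1) - (beta0Emb (beta0ιF F) d ^ M - 1)) *
        ((beta0Emb (beta0ιF F) d)⁻¹) ^ M := by
      have hdd : beta0Emb (beta0ιF F) d ^ M * ((beta0Emb (beta0ιF F) d)⁻¹) ^ M = 1 := by
        rw [← mul_pow, mul_inv_cancel₀ hd0, one_pow]
      rw [hane, mul_pow]
      linear_combination hdd
    rw [e, map_mul, map_pow, map_inv₀, hvd, inv_one, one_pow, mul_one]
    exact lt_of_le_of_lt (Valuation.map_sub _ _ _) (max_lt (hpow n hnP) (hpow d hdP))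
  obtain ⟨ζ, hζM, hζ⟩ := beta0_exists_rootOfUnity A hMne ha haM
  refine ⟨ζ, ?_, Fermat.Agent.S31.rootOfUnity_mem A hM0 hζM, hζ⟩
  rw [mem_beta0Field]
  intro σ hσ
  exact Fermat.Agent.S31.inertia_rootOfUnity A hMu hM0 hσ hζM

/-- An element of `ℚ̄` fixed by every automorphism fixing `E'` pointwise lies in `E'`. -/
theorem beta0_mem_of_fixed (E' : IntermediateField ℚ (AlgebraicClosure ℚ))
    {d : AlgebraicClosure ℚ}
    (h : ∀ σ : AlgebraicClosure ℚ ≃ₐ[ℚ] AlgebraicClosure ℚ, (∀ x ∈ E', σ x = x) → σ d = d) :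
    d ∈ E' := by
  haveI := Fermat.Agent.Common.isAlgClosure_rat_qbar
  haveI : IsGalois ℚ (AlgebraicClosure ℚ) := inferInstance
  rw [← InfiniteGalois.fixedField_fixingSubgroup E']
  intro σ
  exact h σ.1 (fun x hx => (IntermediateField.mem_fixingSubgroup_iff E' σ.1).mp σ.2 x hx)

/-- **Roots of units**: if `E₀ ≤ E'`, `c ∈ E'` is a unit of `A` and `M` is prime to `q`, every
`M`-th root of `c` in `ℚ̄` lies in `E'`. -/
theorem beta0_root_mem (hq : q.Prime) (hA : A.LiesOverPrime q)
    (E' : IntermediateField ℚ (AlgebraicClosure ℚ)) (hE : beta0Field A ≤ E')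
    {M : ℕ} (hM0 : M ≠ 0) (hM : (M : AlgebraicClosure ℚ) ∉ A.nonunits)
    {c d : AlgebraicClosure ℚ} (hc : c ∈ E') (hcu : A.valuation c = 1) (hd : d ^ M = c) :
    d ∈ E' := by
  haveI := Fermat.Agent.Common.isAlgClosure_rat_qbar
  apply beta0_mem_of_fixed E'
  intro σ hσ
  have hσI : σ ∈ A.inertiaSubgroupIn ℚ :=
    beta0_mem_inertia_of_fixes hq hA σ (fun x hx => hσ x (hE hx))
  have hvd : A.valuation d = 1 := by
    have h1 : A.valuation d ^ M = 1 := by rw [← map_pow, hd, hcu]
    exact (pow_eq_one_iff_of_nonneg zero_le hM0).mp h1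
  have hd0 : d ≠ 0 := by
    rintro rfl
    simp at hvd
  have h1 := Fermat.Agent.S05.inertia_apply_div_sub_one_mem_nonunits hσI hvd
  have h2 : (σ d / d) ^ M = 1 := by
    rw [div_pow, ← map_pow, hd, hσ c hc]
    exact div_self (by rw [← hd]; exact pow_ne_zero _ hd0)
  have h3 : σ d / d = 1 :=
    Fermat.Agent.S31.rootOfUnity_eq_of_sub_mem A hM hM0 h2 (one_pow M) h1
  exact (div_eq_one_iff_eq hd0).mp h3

/-- **Units are `M`-th powers**: for `E₀ ≤ E'` and `M` prime to `q`, every unit of `A ∩ E'` is an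
`M`-th power of a unit of `A ∩ E'`. -/
theorem beta0_exists_root (hq : q.Prime) (hA : A.LiesOverPrime q)
    (E' : IntermediateField ℚ (AlgebraicClosure ℚ)) (hE : beta0Field A ≤ E')
    {M : ℕ} (hM0 : M ≠ 0) (hM : (M : AlgebraicClosure ℚ) ∉ A.nonunits)
    {c : AlgebraicClosure ℚ} (hc : c ∈ E') (hcu : A.valuation c = 1) :
    ∃ d, d ∈ E' ∧ A.valuation d = 1 ∧ d ^ M = c := by
  obtain ⟨d, hd⟩ := IsAlgClosed.exists_pow_nat_eq c (Nat.pos_of_ne_zero hM0)
  refine ⟨d, beta0_root_mem hq hA E' hE hM0 hM hc hcu hd, ?_, hd⟩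
  have h1 : A.valuation d ^ M = 1 := by rw [← map_pow, hd, hcu]
  exact (pow_eq_one_iff_of_nonneg zero_le hM0).mp h1

end residue

end Fermat.Agent.UNIP
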