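import Mathlib
import Fermat.Agent.UNIP.Beta0Ext

/-!
# UNIP piece U10 (`Beta0`), part 5: the totally ramified extension `E' = E₀ ⊔ F` of `E₀ = ℚ̄^I`

`A` is a valuation subring of `ℚ̄` over `q`, `v = A.valuation`, `E₀ = beta0Field A = ℚ̄^I`,
`F ⊂ ℚ̄` a finite Galois extension of `ℚ`, `T = beta0T A F = F ∩ E₀`, `n = beta0Deg A F = [F : T]`,
`E' = E₀ ⊔ F`.

* `beta0_sum_dominant`       : generic "dominant term" lemma for valuations;
* `beta0_valuation_F_q`      : the adic valuation of `q` in `F` is `exp (-n)`  (`e(P | q) = |H| = [F : T]`);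
* `beta0_exists_uniformizer` : `∃ π ∈ F`, `v π < 1`, `v π ^ n = v q`, values of `F` are powers of `v π`;
* `beta0_F_span`             : `F = ⊕_{i<n} T π^i`;
* `beta0_sup_span`           : `E' = ⊕_{i<n} E₀ π^i`;   `beta0_sum_eq_zero` : uniqueness;
* `beta0_coeff_mem`, `beta0_sup_decomp` : `A ∩ E' = ⊕_{i<n} (A ∩ E₀) π^i`;
* `beta0_sup_valuation_eq_zpow` : the values of `E'` are powers of `v π`;
* `beta0_sup_div_mem`        : `x ∈ E' ∩ 𝔪_A ⇒ x / π ∈ A`;
* `beta0_sup_isDVR`          : `IsDiscreteValuationRing (A.comap (algebraMap E' ℚ̄))`;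
* `beta0_sup_apply_mem`      : `σ ∈ I ⇒ σ E' ⊆ E'`;
* `beta0_sup_main`           : summary.
-/

set_option autoImplicit false
set_option linter.style.haveILetI false
set_option linter.unusedSectionVars false

open scoped NumberField Pointwise
open Ideal MulAction IsDedekindDomain WithZero Polynomial

namespace Fermat.Agent.UNIP

section generic

variable {L : Type*} [Field L] {Γ₀ : Type*} [LinearOrderedCommGroupWithZero Γ₀]
  (v : Valuation L Γ₀)

/-- **Dominant term**: if the values of the `c i` are powers of `γ ^ n` and `v ϖ = γ < 1`, the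
terms `c i * ϖ ^ i`, `i < n`, have pairwise distinct values, so their sum has the value of the
largest term. -/
theorem beta0_sum_dominant {n : ℕ} {γ : Γ₀} (hγ0 : 0 < γ) (hγ1 : γ < 1) {ϖ : L} (hϖ : v ϖ = γ)
    (c : Fin n → L) (hc : ∀ i, c i ≠ 0 → ∃ k : ℤ, v (c i) = γ ^ ((n : ℤ) * k)) :
    (∀ i, c i = 0) ∨ ∃ j, c j ≠ 0 ∧
      v (∑ i, c i * ϖ ^ (i : ℕ)) = v (c j * ϖ ^ (j : ℕ)) ∧
      ∀ i, v (c i * ϖ ^ (i : ℕ)) ≤ v (c j * ϖ ^ (j : ℕ)) := by
  classical
  by_cases hall : ∀ i, c i = 0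
  · exact Or.inl hall
  right
  push Not at hall
  obtain ⟨i₀, hi₀⟩ := hall
  have hϖ0 : ϖ ≠ 0 := by
    rintro rfl
    rw [map_zero] at hϖ
    exact hγ0.ne hϖ
  obtain ⟨j, -, hj⟩ := Finset.exists_max_image Finset.univ (fun i => v (c i * ϖ ^ (i : ℕ)))
    ⟨i₀, Finset.mem_univ _⟩
  have hj' : ∀ i, v (c i * ϖ ^ (i : ℕ)) ≤ v (c j * ϖ ^ (j : ℕ)) := fun i => hj i (Finset.mem_univ _)
  have hcj : c j ≠ 0 := by
    intro h0
    have h1 := hj' i₀
    rw [h0, zero_mul, map_zero, le_zero_iff, Valuation.zero_iff] at h1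
    exact (mul_ne_zero hi₀ (pow_ne_zero _ hϖ0)) h1
  have hval : ∀ i, c i ≠ 0 → ∃ k : ℤ, v (c i * ϖ ^ (i : ℕ)) = γ ^ ((n : ℤ) * k + (i : ℕ)) := by
    intro i hi
    obtain ⟨k, hk⟩ := hc i hi
    refine ⟨k, ?_⟩
    rw [map_mul, map_pow, hk, hϖ, zpow_add₀ hγ0.ne', zpow_natCast]
  refine ⟨j, hcj, ?_, hj'⟩
  apply Valuation.map_sum_eq_of_lt v (Finset.mem_univ j)
  intro i hi
  have hij : i ≠ j := by
    simpa using hi
  apply lt_of_le_of_ne (hj' i)
  intro heq
  obtain ⟨kj, hkj⟩ := hval j hcj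
  have hci : c i ≠ 0 := by
    intro h0
    rw [h0, zero_mul, map_zero, hkj] at heq
    exact (zpow_ne_zero _ hγ0.ne') heq.symm
  obtain ⟨ki, hki⟩ := hval i hci
  rw [hki, hkj] at heq
  have h1 : (n : ℤ) * ki + (i : ℕ) = (n : ℤ) * kj + (j : ℕ) :=
    (zpow_right_inj₀ hγ0 hγ1.ne).mp heq
  have hi_lt : ((i : ℕ) : ℤ) < n := by exact_mod_cast i.2
  have hj_lt : ((j : ℕ) : ℤ) < n := by exact_mod_cast j.2
  have h2 : ((i : ℕ) : ℤ) = ((j : ℕ) : ℤ) := by
    have e1 : ((n : ℤ) * ki + (i : ℕ)) % n = ((i : ℕ) : ℤ) := by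
      rw [add_comm, Int.add_mul_emod_self_left]
      exact Int.emod_eq_of_lt (by positivity) hi_lt
    have e2 : ((n : ℤ) * kj + (j : ℕ)) % n = ((j : ℕ) : ℤ) := by
      rw [add_comm, Int.add_mul_emod_self_left]
      exact Int.emod_eq_of_lt (by positivity) hj_lt
    rw [← e1, ← e2, h1]
  apply hij
  apply Fin.ext
  exact_mod_cast h2

end generic

section finiteLevel

variable (A : ValuationSubring (AlgebraicClosure ℚ))
  (F : IntermediateField ℚ (AlgebraicClosure ℚ)) [NumberField F] [IsGalois ℚ F]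

/-- The ramification index `n = [F : T]`. -/
noncomputable def beta0Deg : ℕ := Module.finrank (beta0T A F) F

variable {A} in
/-- `q` has valuation `exp (-n)` in `F`, `n = [F : T]`. -/
theorem beta0_valuation_F_q {q : ℕ} (hq : q.Prime) (hA : A.LiesOverPrime q) :
    (beta0Spec (beta0ιF F) hq hA).valuation F ((q : ℕ) : F) = exp (-(beta0Deg A F : ℤ)) := by
  have hqne : (Ideal.span {(q : ℤ)}) ≠ ⊥ := by
    simp only [ne_eq, Ideal.span_singleton_eq_bot]
    exact_mod_cast hq.ne_zero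
  haveI hqprime : (Ideal.span {(q : ℤ)}).IsPrime :=
    (Ideal.span_singleton_prime (by exact_mod_cast hq.ne_zero)).mpr (Nat.prime_iff_prime_int.mp hq)
  set v : HeightOneSpectrum ℤ := ⟨Ideal.span {(q : ℤ)}, hqprime, hqne⟩ with hv
  set w := beta0Spec (beta0ιF F) hq hA with hw
  haveI hPmax : (beta0Prime A (beta0ιF F)).IsMaximal := beta0Prime_isMaximal (beta0ιF F) hq hA
  have hunder := beta0Prime_under_int (beta0ιF F) hq hA
  haveI hlo : (beta0Prime A (beta0ιF F)).LiesOver (Ideal.span {(q : ℤ)}) := ⟨hunder.symm⟩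
  haveI : w.asIdeal.LiesOver v.asIdeal := hlo
  have h1 := HeightOneSpectrum.valuation_liesOver (K := ℚ) F v w ((q : ℕ) : ℚ)
  have h2 : v.valuation ℚ ((q : ℕ) : ℚ) = exp (-1 : ℤ) := by
    have e0 : ((q : ℕ) : ℚ) = algebraMap ℤ ℚ (q : ℤ) := by simp
    rw [e0, HeightOneSpectrum.valuation_of_algebraMap]
    exact HeightOneSpectrum.intValuation_singleton v (by exact_mod_cast hq.ne_zero) rfl
  have h3 : (Ideal.span {(q : ℤ)}).ramificationIdx' (beta0Prime A (beta0ιF F)) = beta0Deg A F := by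
    rw [Ideal.ramificationIdx'_eq_ramificationIdx (R := ℤ) (Ideal.span {(q : ℤ)})
      (beta0Prime A (beta0ιF F)) hqne]
    haveI : IsGaloisGroup (F ≃ₐ[ℚ] F) ℤ (𝓞 F) := .of_isFractionRing _ _ _ ℚ F
    rw [← ramificationIdxIn_eq_ramificationIdx (Ideal.span {(q : ℤ)})
      (beta0Prime A (beta0ιF F)) (F ≃ₐ[ℚ] F)]
    exact (IsInertiaField.rank_left ℤ ℚ F (beta0Prime A (beta0ιF F)) (beta0T A F) hqne).symm
  have h4 : v.asIdeal.ramificationIdx' w.asIdeal = beta0Deg A F := h3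
  rw [h4, h2] at h1
  have e1 : algebraMap ℚ F ((q : ℕ) : ℚ) = ((q : ℕ) : F) := by simp
  rw [e1] at h1
  rw [← h1, ← exp_nsmul]
  simp

end finiteLevel

section general

variable {A : ValuationSubring (AlgebraicClosure ℚ)}
  {K : Type*} [Field K] [NumberField K] (ι : K →+* AlgebraicClosure ℚ)

/-- Elements of adic valuation one are units of `A`. -/
theorem beta0_valuation_eq_one_of {q : ℕ} (hq : q.Prime) (hA : A.LiesOverPrime q) {x : K}
    (hx : (beta0Spec ι hq hA).valuation K x = 1) : A.valuation (ι x) = 1 := by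
  rw [beta0_valuation_eq_one_iff, beta0_mem_iff ι hq hA, beta0_mem_nonunits_iff ι hq hA, hx]
  exact ⟨le_refl _, lt_irrefl _⟩

/-- Transfer of the adic valuation to the valuation of `A`, through a uniformizer. -/
theorem beta0_valuation_eq_zpow_of {q : ℕ} (hq : q.Prime) (hA : A.LiesOverPrime q) {π : K}
    (hπ : (beta0Spec ι hq hA).valuation K π = exp (-1 : ℤ)) {x : K} {k : ℤ}
    (hx : (beta0Spec ι hq hA).valuation K x = exp (-k)) :
    A.valuation (ι x) = A.valuation (ι π) ^ k := by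
  have hπ0 : π ≠ 0 := by
    rintro rfl
    rw [map_zero] at hπ
    exact (exp_ne_zero).symm hπ
  have h1 : (beta0Spec ι hq hA).valuation K (x / π ^ k) = 1 := by
    rw [map_div₀, map_zpow₀, hx, hπ, ← exp_zsmul]
    simp
  have h2 := beta0_valuation_eq_one_of ι hq hA h1
  rw [map_div₀, map_div₀, map_zpow₀, map_zpow₀] at h2
  have h3 : A.valuation (ι π) ^ k ≠ 0 :=
    zpow_ne_zero _ ((Valuation.ne_zero_iff _).mpr ((map_ne_zero ι).mpr hπ0))
  exact (div_eq_one_iff_eq h3).mp h2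

end general

section finiteLevel

variable {A : ValuationSubring (AlgebraicClosure ℚ)}
  (F : IntermediateField ℚ (AlgebraicClosure ℚ)) [NumberField F] [IsGalois ℚ F]

/-- A uniformizer `π ∈ F`: `v π < 1`, `v π ^ n = v q` with `n = [F : T]`, and the values of `F`
are the powers of `v π`. -/
theorem beta0_exists_uniformizer {q : ℕ} (hq : q.Prime) (hA : A.LiesOverPrime q) :
    ∃ π : F, π ≠ 0 ∧ A.valuation (π : AlgebraicClosure ℚ) < 1 ∧
      A.valuation (π : AlgebraicClosure ℚ) ^ (beta0Deg A F) =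
        A.valuation (q : AlgebraicClosure ℚ) ∧
      ∀ x : F, x ≠ 0 → ∃ k : ℤ,
        A.valuation (x : AlgebraicClosure ℚ) = A.valuation (π : AlgebraicClosure ℚ) ^ k := by
  obtain ⟨π, hπ⟩ := (beta0Spec (beta0ιF F) hq hA).valuation_exists_uniformizer F
  have hπ0 : π ≠ 0 := by
    rintro rfl
    rw [map_zero] at hπ
    exact (exp_ne_zero).symm hπ
  refine ⟨π, hπ0, ?_, ?_, ?_⟩
  · have : (beta0ιF F) π ∈ A.nonunits := by
      rw [beta0_mem_nonunits_iff (beta0ιF F) hq hA, hπ, ← exp_zero, exp_lt_exp]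
      norm_num
    exact A.mem_nonunits_iff.mp this
  · have h1 := beta0_valuation_eq_zpow_of (beta0ιF F) hq hA hπ (k := (beta0Deg A F : ℤ))
      (beta0_valuation_F_q F hq hA)
    rw [zpow_natCast, map_natCast] at h1
    exact h1.symm
  · intro x hx
    have hwx : (beta0Spec (beta0ιF F) hq hA).valuation F x ≠ 0 := (Valuation.ne_zero_iff _).mpr hx
    obtain ⟨m, hm⟩ : ∃ m : ℤ, (beta0Spec (beta0ιF F) hq hA).valuation F x = exp m :=
      ⟨log _, (exp_log hwx).symm⟩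
    refine ⟨-m, ?_⟩
    exact beta0_valuation_eq_zpow_of (beta0ιF F) hq hA hπ (by rw [hm, neg_neg])

end finiteLevel

section dominant

variable {A : ValuationSubring (AlgebraicClosure ℚ)} {q : ℕ}

/-- **Dominant term** for `E₀`-combinations of the powers `π ^ i`, `i < n`, where
`v π ^ n = v q`. -/
theorem beta0_dominant (hq : q.Prime) (hA : A.LiesOverPrime q) {π : AlgebraicClosure ℚ}
    (hπ0 : π ≠ 0) (hπ1 : A.valuation π < 1) {n : ℕ}
    (hπn : A.valuation π ^ n = A.valuation (q : AlgebraicClosure ℚ))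
    (c : Fin n → AlgebraicClosure ℚ) (hc : ∀ i, c i ∈ beta0Field A) :
    (∀ i, c i = 0) ∨ ∃ j, c j ≠ 0 ∧
      A.valuation (∑ i, c i * π ^ (i : ℕ)) = A.valuation (c j * π ^ (j : ℕ)) ∧
      ∀ i, A.valuation (c i * π ^ (i : ℕ)) ≤ A.valuation (c j * π ^ (j : ℕ)) := by
  have hγ0 : 0 < A.valuation π := zero_lt_iff.mpr ((Valuation.ne_zero_iff _).mpr hπ0)
  apply beta0_sum_dominant A.valuation hγ0 hπ1 rfl c
  intro i hi
  obtain ⟨k, hk⟩ := beta0_valuation_eq_zpow hq hA (hc i) hi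
  refine ⟨k, ?_⟩
  rw [hk, ← hπn, ← zpow_natCast, ← zpow_mul]

/-- The powers `π ^ i`, `i < n`, are linearly independent over `E₀`. -/
theorem beta0_sum_eq_zero (hq : q.Prime) (hA : A.LiesOverPrime q) {π : AlgebraicClosure ℚ}
    (hπ0 : π ≠ 0) (hπ1 : A.valuation π < 1) {n : ℕ}
    (hπn : A.valuation π ^ n = A.valuation (q : AlgebraicClosure ℚ))
    (c : Fin n → AlgebraicClosure ℚ) (hc : ∀ i, c i ∈ beta0Field A)
    (hsum : ∑ i, c i * π ^ (i : ℕ) = 0) : ∀ i, c i = 0 := by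
  rcases beta0_dominant hq hA hπ0 hπ1 hπn c hc with h | ⟨j, hj, hv, -⟩
  · exact h
  · exfalso
    rw [hsum, map_zero] at hv
    have := (Valuation.zero_iff _).mp hv.symm
    exact (mul_ne_zero hj (pow_ne_zero _ hπ0)) this

/-- The value of a nonzero `E₀`-combination of the `π ^ i` is a power of `v π`. -/
theorem beta0_sum_valuation (hq : q.Prime) (hA : A.LiesOverPrime q) {π : AlgebraicClosure ℚ}
    (hπ0 : π ≠ 0) (hπ1 : A.valuation π < 1) {n : ℕ}
    (hπn : A.valuation π ^ n = A.valuation (q : AlgebraicClosure ℚ))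
    (c : Fin n → AlgebraicClosure ℚ) (hc : ∀ i, c i ∈ beta0Field A)
    (hsum : ∑ i, c i * π ^ (i : ℕ) ≠ 0) :
    ∃ m : ℤ, A.valuation (∑ i, c i * π ^ (i : ℕ)) = A.valuation π ^ m := by
  rcases beta0_dominant hq hA hπ0 hπ1 hπn c hc with h | ⟨j, hj, hv, -⟩
  · exfalso
    apply hsum
    apply Finset.sum_eq_zero
    intro i _
    rw [h i, zero_mul]
  · obtain ⟨k, hk⟩ := beta0_valuation_eq_zpow hq hA (hc j) hj
    refine ⟨(n : ℤ) * k + (j : ℕ), ?_⟩
    have hγ0 : A.valuation π ≠ 0 := (Valuation.ne_zero_iff _).mpr hπ0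
    rw [hv, map_mul, map_pow, hk, ← hπn, ← zpow_natCast, ← zpow_mul, zpow_add₀ hγ0, zpow_natCast]

/-- **Integrality of the coefficients**: if an `E₀`-combination of the `π ^ i`, `i < n`, lies in
`A`, all its coefficients lie in `A`. -/
theorem beta0_coeff_mem (hq : q.Prime) (hA : A.LiesOverPrime q) {π : AlgebraicClosure ℚ}
    (hπ0 : π ≠ 0) (hπ1 : A.valuation π < 1) {n : ℕ}
    (hπn : A.valuation π ^ n = A.valuation (q : AlgebraicClosure ℚ))
    (c : Fin n → AlgebraicClosure ℚ) (hc : ∀ i, c i ∈ beta0Field A)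
    (hsum : ∑ i, c i * π ^ (i : ℕ) ∈ A) : ∀ i, c i ∈ A := by
  intro i
  rcases beta0_dominant hq hA hπ0 hπ1 hπn c hc with h | ⟨j, hj, hv, hle⟩
  · rw [h i]
    exact zero_mem _
  · rcases eq_or_ne (c i) 0 with h0 | h0
    · rw [h0]
      exact zero_mem _
    have hγ0 : 0 < A.valuation π := zero_lt_iff.mpr ((Valuation.ne_zero_iff _).mpr hπ0)
    obtain ⟨k, hk⟩ := beta0_valuation_eq_zpow hq hA (hc i) h0
    have h1 : A.valuation (c i * π ^ (i : ℕ)) ≤ 1 := by
      refine (hle i).trans ?_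
      rw [← hv]
      exact (A.valuation_le_one_iff _).mpr hsum
    have h2 : A.valuation (c i * π ^ (i : ℕ)) = A.valuation π ^ ((n : ℤ) * k + (i : ℕ)) := by
      rw [map_mul, map_pow, hk, ← hπn, ← zpow_natCast, ← zpow_mul, zpow_add₀ hγ0.ne',
        zpow_natCast]
    rw [h2, zpow_le_one_iff_right_of_lt_one₀ hγ0 hπ1] at h1
    have hi_lt : ((i : ℕ) : ℤ) < n := by exact_mod_cast i.2
    have hk0 : 0 ≤ k := by
      by_contra hneg
      rw [not_le] at hneg
      have : (n : ℤ) * k ≤ (n : ℤ) * (-1) :=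
        mul_le_mul_of_nonneg_left (by omega) (by positivity)
      omega
    rw [← A.valuation_le_one_iff, hk, ← hπn, ← zpow_natCast, ← zpow_mul,
      zpow_le_one_iff_right_of_lt_one₀ hγ0 hπ1]
    positivity

end dominant

section span

variable {A : ValuationSubring (AlgebraicClosure ℚ)}
  (F : IntermediateField ℚ (AlgebraicClosure ℚ)) [NumberField F] [IsGalois ℚ F]

/-- `F = ⊕_{i<n} T π^i`. -/
theorem beta0_F_span {q : ℕ} (hq : q.Prime) (hA : A.LiesOverPrime q) {π : F} (hπ0 : π ≠ 0)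
    (hπ1 : A.valuation (π : AlgebraicClosure ℚ) < 1)
    (hπn : A.valuation (π : AlgebraicClosure ℚ) ^ (beta0Deg A F) =
      A.valuation (q : AlgebraicClosure ℚ)) (x : F) :
    ∃ c : Fin (beta0Deg A F) → beta0T A F, x = ∑ i, (c i : F) * π ^ (i : ℕ) := by
  have hπ0' : (π : AlgebraicClosure ℚ) ≠ 0 := by simpa using hπ0
  have hli : LinearIndependent (beta0T A F) (fun i : Fin (beta0Deg A F) => π ^ (i : ℕ)) := by
    rw [Fintype.linearIndependent_iff]
    intro g hg i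
    have hsum : ∑ i, ((g i : F) : AlgebraicClosure ℚ) * (π : AlgebraicClosure ℚ) ^ (i : ℕ)
        = 0 := by
      have := congrArg (fun z : F => (z : AlgebraicClosure ℚ)) hg
      simpa [Algebra.smul_def] using this
    have := beta0_sum_eq_zero hq hA hπ0' hπ1 hπn (fun i => ((g i : F) : AlgebraicClosure ℚ))
      (fun i => beta0_T_le A F (g i) (g i).2) hsum i
    simpa using this
  have hspan := hli.span_eq_top_of_card_eq_finrank' (by rw [Fintype.card_fin]; rfl)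
  have hx : x ∈ Submodule.span (beta0T A F)
      (Set.range fun i : Fin (beta0Deg A F) => π ^ (i : ℕ)) := by
    rw [hspan]
    trivial
  obtain ⟨c, hc⟩ := (Submodule.mem_span_range_iff_exists_fun _).mp hx
  refine ⟨c, ?_⟩
  rw [← hc]
  simp [Algebra.smul_def]

/-- `E₀ ⊔ F = ⊕_{i<n} E₀ π^i`. -/
theorem beta0_sup_span {q : ℕ} (hq : q.Prime) (hA : A.LiesOverPrime q) {π : F} (hπ0 : π ≠ 0)
    (hπ1 : A.valuation (π : AlgebraicClosure ℚ) < 1)
    (hπn : A.valuation (π : AlgebraicClosure ℚ) ^ (beta0Deg A F) =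
      A.valuation (q : AlgebraicClosure ℚ)) {x : AlgebraicClosure ℚ}
    (hx : x ∈ beta0Field A ⊔ F) :
    ∃ c : Fin (beta0Deg A F) → AlgebraicClosure ℚ, (∀ i, c i ∈ beta0Field A) ∧
      x = ∑ i, c i * (π : AlgebraicClosure ℚ) ^ (i : ℕ) := by
  have h1 : x ∈ (beta0Field A ⊔ F).toSubalgebra := hx
  rw [IntermediateField.sup_toSubalgebra_of_isAlgebraic_right, ← Subalgebra.mem_toSubmodule,
    ← Subalgebra.mul_toSubmodule] at h1
  refine Submodule.mul_induction_on h1 ?_ ?_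
  · intro m hm f hf
    obtain ⟨c, hc⟩ := beta0_F_span F hq hA hπ0 hπ1 hπn ⟨f, hf⟩
    refine ⟨fun i => m * ((c i : F) : AlgebraicClosure ℚ),
      fun i => mul_mem hm (beta0_T_le A F _ (c i).2), ?_⟩
    have h2 := congrArg (fun z : F => (z : AlgebraicClosure ℚ)) hc
    simp only [AddSubmonoidClass.coe_finsetSum, MulMemClass.coe_mul,
      SubmonoidClass.coe_pow] at h2
    rw [h2, Finset.mul_sum]
    apply Finset.sum_congr rfl
    intro i _
    ring
  · rintro y z ⟨c, hc, rfl⟩ ⟨d, hd, rfl⟩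
    refine ⟨fun i => c i + d i, fun i => add_mem (hc i) (hd i), ?_⟩
    rw [← Finset.sum_add_distrib]
    apply Finset.sum_congr rfl
    intro i _
    ring

end span

section sup

variable {A : ValuationSubring (AlgebraicClosure ℚ)}
  (F : IntermediateField ℚ (AlgebraicClosure ℚ)) [NumberField F] [IsGalois ℚ F]

/-- The value group of `E' = E₀ ⊔ F` is generated by the value of the uniformizer `π`. -/
theorem beta0_sup_valuation_eq_zpow {q : ℕ} (hq : q.Prime) (hA : A.LiesOverPrime q) {π : F}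
    (hπ0 : π ≠ 0) (hπ1 : A.valuation (π : AlgebraicClosure ℚ) < 1)
    (hπn : A.valuation (π : AlgebraicClosure ℚ) ^ (beta0Deg A F) =
      A.valuation (q : AlgebraicClosure ℚ)) {x : AlgebraicClosure ℚ}
    (hx : x ∈ beta0Field A ⊔ F) (hx0 : x ≠ 0) :
    ∃ m : ℤ, A.valuation x = A.valuation (π : AlgebraicClosure ℚ) ^ m := by
  have hπ0' : (π : AlgebraicClosure ℚ) ≠ 0 := by simpa using hπ0
  obtain ⟨c, hc, rfl⟩ := beta0_sup_span F hq hA hπ0 hπ1 hπn hx
  exact beta0_sum_valuation hq hA hπ0' hπ1 hπn c hc hx0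

/-- **`A' = ⊕_{i<n} A₀ π^i`**: every element of `A ∩ E'` is a combination of the `π ^ i`, `i < n`,
with coefficients in `A ∩ E₀`. -/
theorem beta0_sup_decomp {q : ℕ} (hq : q.Prime) (hA : A.LiesOverPrime q) {π : F}
    (hπ0 : π ≠ 0) (hπ1 : A.valuation (π : AlgebraicClosure ℚ) < 1)
    (hπn : A.valuation (π : AlgebraicClosure ℚ) ^ (beta0Deg A F) =
      A.valuation (q : AlgebraicClosure ℚ)) {x : AlgebraicClosure ℚ}
    (hx : x ∈ beta0Field A ⊔ F) (hxA : x ∈ A) :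
    ∃ c : Fin (beta0Deg A F) → AlgebraicClosure ℚ, (∀ i, c i ∈ beta0Field A ∧ c i ∈ A) ∧
      x = ∑ i, c i * (π : AlgebraicClosure ℚ) ^ (i : ℕ) := by
  have hπ0' : (π : AlgebraicClosure ℚ) ≠ 0 := by simpa using hπ0
  obtain ⟨c, hc, rfl⟩ := beta0_sup_span F hq hA hπ0 hπ1 hπn hx
  exact ⟨c, fun i => ⟨hc i, beta0_coeff_mem hq hA hπ0' hπ1 hπn c hc hxA i⟩, rfl⟩

/-- **`π` is a uniformizer of `A' = A ∩ E'`**. -/
theorem beta0_sup_div_mem {q : ℕ} (hq : q.Prime) (hA : A.LiesOverPrime q) {π : F}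
    (hπ0 : π ≠ 0) (hπ1 : A.valuation (π : AlgebraicClosure ℚ) < 1)
    (hπn : A.valuation (π : AlgebraicClosure ℚ) ^ (beta0Deg A F) =
      A.valuation (q : AlgebraicClosure ℚ)) {x : AlgebraicClosure ℚ}
    (hx : x ∈ beta0Field A ⊔ F) (hxA : x ∈ A.nonunits) :
    x / (π : AlgebraicClosure ℚ) ∈ A := by
  have hπ0' : (π : AlgebraicClosure ℚ) ≠ 0 := by simpa using hπ0
  have hγ0 : 0 < A.valuation (π : AlgebraicClosure ℚ) :=
    zero_lt_iff.mpr ((Valuation.ne_zero_iff _).mpr hπ0')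
  rcases eq_or_ne x 0 with rfl | hx0
  · rw [zero_div]
    exact zero_mem _
  obtain ⟨m, hm⟩ := beta0_sup_valuation_eq_zpow F hq hA hπ0 hπ1 hπn hx hx0
  have h1 : A.valuation x < 1 := A.mem_nonunits_iff.mp hxA
  rw [hm, ← zpow_zero (A.valuation (π : AlgebraicClosure ℚ)),
    zpow_lt_zpow_iff_right_of_lt_one₀ hγ0 hπ1] at h1
  rw [← A.valuation_le_one_iff, map_div₀, hm, div_eq_mul_inv, ← zpow_sub_one₀ hγ0.ne',
    zpow_le_one_iff_right_of_lt_one₀ hγ0 hπ1]
  omega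

/-- **`A' = A ∩ E'` is a discrete valuation ring**, `E' = E₀ ⊔ F`. -/
theorem beta0_sup_isDVR {q : ℕ} (hq : q.Prime) (hA : A.LiesOverPrime q) :
    IsDiscreteValuationRing
      (A.comap (algebraMap (↥(beta0Field A ⊔ F)) (AlgebraicClosure ℚ))) := by
  obtain ⟨π, hπ0, hπ1, hπn, -⟩ := beta0_exists_uniformizer (A := A) F hq hA
  have hπE : (π : AlgebraicClosure ℚ) ∈ beta0Field A ⊔ F :=
    (le_sup_right : F ≤ beta0Field A ⊔ F) π.2
  apply beta0_isDVR_of_uniformizer A (algebraMap (↥(beta0Field A ⊔ F)) (AlgebraicClosure ℚ))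
    ⟨(π : AlgebraicClosure ℚ), hπE⟩
  · intro h
    apply hπ0
    have := congrArg (fun z : ↥(beta0Field A ⊔ F) => (z : AlgebraicClosure ℚ)) h
    simpa using this
  · exact hπ1
  · intro x hx
    exact beta0_sup_valuation_eq_zpow F hq hA hπ0 hπ1 hπn x.2 (by simpa using hx)

/-- The inertia group stabilises `E' = E₀ ⊔ F`. -/
theorem beta0_sup_apply_mem {σ : AlgebraicClosure ℚ ≃ₐ[ℚ] AlgebraicClosure ℚ}
    (hσ : σ ∈ A.inertiaSubgroupIn ℚ) {x : AlgebraicClosure ℚ} (hx : x ∈ beta0Field A ⊔ F) :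
    σ x ∈ beta0Field A ⊔ F := by
  haveI := Fermat.Agent.Common.isAlgClosure_rat_qbar
  have h1 : x ∈ (beta0Field A ⊔ F).toSubalgebra := hx
  rw [IntermediateField.sup_toSubalgebra_of_isAlgebraic_right, ← Subalgebra.mem_toSubmodule,
    ← Subalgebra.mul_toSubmodule] at h1
  refine Submodule.mul_induction_on h1 ?_ ?_
  · intro m hm f hf
    rw [map_mul]
    apply mul_mem
    · rw [mem_beta0Field.mp hm σ hσ]
      exact (le_sup_left : beta0Field A ≤ beta0Field A ⊔ F) hm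
    · have := AlgEquiv.restrictNormal_commutes σ F ⟨f, hf⟩
      have h2 : σ f = ((AlgEquiv.restrictNormal σ F ⟨f, hf⟩ : F) : AlgebraicClosure ℚ) :=
        this.symm
      rw [h2]
      exact (le_sup_right : F ≤ beta0Field A ⊔ F) (AlgEquiv.restrictNormal σ F ⟨f, hf⟩).2
  · intro y z hy hz
    rw [map_add]
    exact add_mem hy hz

/-- **Summary** for `E' = E₀ ⊔ F`, `F / ℚ` finite Galois, `n = [F : F ∩ E₀]`: there is a
uniformizer `π ∈ F` with `v π ^ n = v q`, such that `E' = ⊕_{i<n} E₀ π^i`,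
`A ∩ E' = ⊕_{i<n} (A ∩ E₀) π^i`, and the values of `E'` are the powers of `v π`. -/
theorem beta0_sup_main {q : ℕ} (hq : q.Prime) (hA : A.LiesOverPrime q) :
    ∃ π : AlgebraicClosure ℚ, π ∈ F ∧ π ≠ 0 ∧ A.valuation π < 1 ∧
      A.valuation π ^ (beta0Deg A F) = A.valuation (q : AlgebraicClosure ℚ) ∧
      (∀ x ∈ beta0Field A ⊔ F, x ≠ 0 → ∃ m : ℤ, A.valuation x = A.valuation π ^ m) ∧
      (∀ x ∈ beta0Field A ⊔ F, x ∈ A.nonunits → x / π ∈ A) ∧
      (∀ x ∈ beta0Field A ⊔ F, ∃ c : Fin (beta0Deg A F) → AlgebraicClosure ℚ,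
        (∀ i, c i ∈ beta0Field A) ∧ x = ∑ i, c i * π ^ (i : ℕ) ∧ (x ∈ A → ∀ i, c i ∈ A)) ∧
      (∀ c : Fin (beta0Deg A F) → AlgebraicClosure ℚ, (∀ i, c i ∈ beta0Field A) →
        ∑ i, c i * π ^ (i : ℕ) = 0 → ∀ i, c i = 0) := by
  obtain ⟨π, hπ0, hπ1, hπn, -⟩ := beta0_exists_uniformizer (A := A) F hq hA
  have hπ0' : (π : AlgebraicClosure ℚ) ≠ 0 := by simpa using hπ0
  refine ⟨π, π.2, hπ0', hπ1, hπn, ?_, ?_, ?_, ?_⟩
  · intro x hx hx0
    exact beta0_sup_valuation_eq_zpow F hq hA hπ0 hπ1 hπn hx hx0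
  · intro x hx hxA
    exact beta0_sup_div_mem F hq hA hπ0 hπ1 hπn hx hxA
  · intro x hx
    obtain ⟨c, hc, rfl⟩ := beta0_sup_span F hq hA hπ0 hπ1 hπn hx
    exact ⟨c, hc, rfl, fun hxA => beta0_coeff_mem hq hA hπ0' hπ1 hπn c hc hxA⟩
  · intro c hc hsum
    exact beta0_sum_eq_zero hq hA hπ0' hπ1 hπn c hc hsum

end sup

end Fermat.Agent.UNIP
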