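import Mathlib
import Fermat.Agent.UNIP.Beta0Tot

/-!
# UNIP piece U10 (`Beta0`), part 6: TYPE form (for the modular glue MG-5 / the abstract theorem AT)

`A` is a valuation subring of `ℚ̄` over `q`, `K₀` an intermediate field of `ℚ̄ / ℚ`.
`beta0Ring A K₀ = A ∩ K₀` as a `ValuationSubring ↥K₀` (so `IsFractionRing (beta0Ring A K₀) K₀`,
`IsDomain`, `ValuationRing`, `IsLocalRing` are Mathlib instances).

* `beta0Ring_isUnit_iff`, `beta0Ring_mem_maximalIdeal_iff`, `beta0Ring_dvd_iff`;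
* `beta0Ring_hunit` : units are `M`-th powers (`E₀ ≤ K₀`, `q ∤ M`);  `beta0Ring_hpu`;
  `beta0Ring_exists_primitiveRoot`;
* `beta0Ring_isDVR_base`, `beta0Ring_irreducible_q` (`K₀ = E₀`);
* `beta0Ring_isDVR_sup`, `beta0Ring_sup_exists_irreducible` (`K₀ = E₀ ⊔ F`);
* `beta0RingIncl`, `beta0Ring_exists_residue`, `beta0Ring_sup_exists_poly`;
* `beta0FieldAlgebra` (`Algebra K₁ K₂` for `K₁ ≤ K₂`, use with `letI`), `beta0_sup_adjoin_eq_top`
  (`E' = E₀[π']`), `beta0FieldAlgebra_isAlgebraic`.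
-/

set_option autoImplicit false
set_option linter.style.haveILetI false
set_option linter.unusedSectionVars false

open scoped NumberField Pointwise
open Ideal MulAction IsDedekindDomain WithZero Polynomial

namespace Fermat.Agent.UNIP

section generic

variable {L : Type*} [Field L] (A : ValuationSubring L) {E : Type*} [Field E] (ι : E →+* L)

/-- Units of `A ∩ E` are the elements of value one. -/
theorem beta0_comap_isUnit_iff (x : A.comap ι) : IsUnit x ↔ A.valuation (ι (x : E)) = 1 := by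
  have hle : ∀ x : A.comap ι, A.valuation (ι (x : E)) ≤ 1 := fun x =>
    (A.valuation_le_one_iff _).mpr x.2
  constructor
  · intro hx
    obtain ⟨y, hy⟩ := hx.exists_right_inv
    have h1 : A.valuation (ι (x : E)) * A.valuation (ι (y : E)) = 1 := by
      rw [← map_mul, ← map_mul]
      have : (x : E) * (y : E) = 1 := by
        have := congrArg (fun z : A.comap ι => (z : E)) hy
        simpa using this
      rw [this, map_one, map_one]
    apply le_antisymm (hle x)
    by_contra hlt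
    rw [not_le] at hlt
    have : A.valuation (ι (x : E)) * A.valuation (ι (y : E)) < 1 := by
      calc A.valuation (ι (x : E)) * A.valuation (ι (y : E))
          ≤ A.valuation (ι (x : E)) * 1 := mul_le_mul_right (hle y) _
        _ = A.valuation (ι (x : E)) := mul_one _
        _ < 1 := hlt
    rw [h1] at this
    exact lt_irrefl _ this
  · intro hx
    have hx0 : (x : E) ≠ 0 := by
      intro h0
      rw [h0, map_zero, map_zero] at hx
      exact zero_ne_one hx
    have hinv : (x : E)⁻¹ ∈ A.comap ι := by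
      rw [ValuationSubring.mem_comap, ← A.valuation_le_one_iff, map_inv₀, map_inv₀, hx, inv_one]
    refine IsUnit.of_mul_eq_one ⟨(x : E)⁻¹, hinv⟩ ?_
    apply Subtype.ext
    simp [hx0]

/-- The maximal ideal of `A ∩ E` is `𝔪_A ∩ E`. -/
theorem beta0_comap_mem_maximalIdeal_iff (x : A.comap ι) :
    x ∈ IsLocalRing.maximalIdeal (A.comap ι) ↔ ι (x : E) ∈ A.nonunits := by
  rw [IsLocalRing.mem_maximalIdeal, mem_nonunits_iff, beta0_comap_isUnit_iff,
    A.mem_nonunits_iff]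
  have hle : A.valuation (ι (x : E)) ≤ 1 := (A.valuation_le_one_iff _).mpr x.2
  exact ⟨fun h => lt_of_le_of_ne hle h, fun h => h.ne⟩

/-- Divisibility in `A ∩ E`. -/
theorem beta0_comap_dvd_iff (π x : A.comap ι) (hπ0 : (π : E) ≠ 0) :
    π ∣ x ↔ ι (x : E) / ι (π : E) ∈ A := by
  constructor
  · rintro ⟨c, rfl⟩
    have : ι ((π * c : A.comap ι) : E) / ι (π : E) = ι (c : E) := by
      have hπ0' : ι (π : E) ≠ 0 := (map_ne_zero ι).mpr hπ0
      simp only [MulMemClass.coe_mul, map_mul]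
      field_simp
    rw [this]
    exact c.2
  · intro h
    have hmem : (x : E) / (π : E) ∈ A.comap ι := by
      rw [ValuationSubring.mem_comap, map_div₀]
      exact h
    refine ⟨⟨(x : E) / (π : E), hmem⟩, ?_⟩
    apply Subtype.ext
    simp only [MulMemClass.coe_mul]
    field_simp

/-- A uniformizer of `A ∩ E` is irreducible. -/
theorem beta0_comap_irreducible (π : A.comap ι) (hπ0 : (π : E) ≠ 0)
    (hπ1 : A.valuation (ι (π : E)) < 1)
    (hunif : ∀ x : E, ι x ∈ A.nonunits → ι x / ι (π : E) ∈ A) : Irreducible π := by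
  refine ⟨fun hu => ?_, ?_⟩
  · rw [beta0_comap_isUnit_iff] at hu
    rw [hu] at hπ1
    exact lt_irrefl _ hπ1
  · intro a b hab
    by_cases ha : IsUnit a
    · exact Or.inl ha
    right
    have ha' : ι (a : E) ∈ A.nonunits := by
      rw [← beta0_comap_mem_maximalIdeal_iff, IsLocalRing.mem_maximalIdeal, mem_nonunits_iff]
      exact ha
    obtain ⟨c, hc⟩ := (beta0_comap_dvd_iff A ι π a hπ0).mpr (hunif _ ha')
    have hπ0' : π ≠ 0 := fun h => hπ0 (by rw [h]; rfl)
    have h1 : π * 1 = π * (c * b) := by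
      rw [mul_one, ← mul_assoc, ← hc]
      exact hab
    have h2 : c * b = 1 := (mul_left_cancel₀ hπ0' h1).symm
    exact IsUnit.of_mul_eq_one c (by rw [mul_comm]; exact h2)

end generic

section ring

variable (A : ValuationSubring (AlgebraicClosure ℚ)) (K₀ : IntermediateField ℚ (AlgebraicClosure ℚ))

/-- `A ∩ K₀` as a valuation subring of `K₀`. -/
noncomputable abbrev beta0Ring : ValuationSubring K₀ :=
  A.comap (algebraMap K₀ (AlgebraicClosure ℚ))

variable {A K₀}

theorem mem_beta0Ring (x : K₀) : x ∈ beta0Ring A K₀ ↔ (x : AlgebraicClosure ℚ) ∈ A := Iff.rfl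

theorem beta0Ring_isUnit_iff (x : beta0Ring A K₀) :
    IsUnit x ↔ A.valuation (((x : K₀) : AlgebraicClosure ℚ)) = 1 :=
  beta0_comap_isUnit_iff A _ x

theorem beta0Ring_mem_maximalIdeal_iff (x : beta0Ring A K₀) :
    x ∈ IsLocalRing.maximalIdeal (beta0Ring A K₀) ↔
      ((x : K₀) : AlgebraicClosure ℚ) ∈ A.nonunits :=
  beta0_comap_mem_maximalIdeal_iff A _ x

theorem beta0Ring_dvd_iff (π x : beta0Ring A K₀) (hπ0 : π ≠ 0) :
    π ∣ x ↔ ((x : K₀) : AlgebraicClosure ℚ) / ((π : K₀) : AlgebraicClosure ℚ) ∈ A :=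
  beta0_comap_dvd_iff A _ π x (fun h => hπ0 (Subtype.ext h))

/-- Inclusion `A ∩ K₁ → A ∩ K₂` for `K₁ ≤ K₂`. -/
noncomputable def beta0RingIncl {K₁ K₂ : IntermediateField ℚ (AlgebraicClosure ℚ)}
    (h : K₁ ≤ K₂) : beta0Ring A K₁ →+* beta0Ring A K₂ where
  toFun x := ⟨⟨((x : K₁) : AlgebraicClosure ℚ), h (x : K₁).2⟩, x.2⟩
  map_one' := rfl
  map_mul' _ _ := rfl
  map_zero' := rfl
  map_add' _ _ := rfl

@[simp] theorem beta0RingIncl_coe {K₁ K₂ : IntermediateField ℚ (AlgebraicClosure ℚ)}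
    (h : K₁ ≤ K₂) (x : beta0Ring A K₁) :
    (((beta0RingIncl h x : beta0Ring A K₂) : K₂) : AlgebraicClosure ℚ) =
      ((x : K₁) : AlgebraicClosure ℚ) := rfl

theorem beta0RingIncl_injective {K₁ K₂ : IntermediateField ℚ (AlgebraicClosure ℚ)}
    (h : K₁ ≤ K₂) : Function.Injective (beta0RingIncl (A := A) h) := by
  intro x y hxy
  apply Subtype.ext
  apply Subtype.ext
  have := congrArg (fun z : beta0Ring A K₂ => ((z : K₂) : AlgebraicClosure ℚ)) hxy
  simpa using this

variable {q : ℕ}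

/-- **hunit**: units of `A ∩ K₀` are `M`-th powers (`E₀ ≤ K₀`, `M` prime to `q`). -/
theorem beta0Ring_hunit (hq : q.Prime) (hA : A.LiesOverPrime q) (hE : beta0Field A ≤ K₀)
    {M : ℕ} (hM0 : M ≠ 0) (hM : (M : AlgebraicClosure ℚ) ∉ A.nonunits) :
    ∀ a : beta0Ring A K₀, IsUnit a → ∃ d : beta0Ring A K₀, d ^ M = a := by
  intro a ha
  rw [beta0Ring_isUnit_iff] at ha
  obtain ⟨d, hdK, hdv, hd⟩ := beta0_exists_root hq hA K₀ hE hM0 hM (a : K₀).2 ha
  have hdA : d ∈ A := ((beta0_valuation_eq_one_iff A d).mp hdv).1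
  refine ⟨⟨⟨d, hdK⟩, hdA⟩, ?_⟩
  apply Subtype.ext
  apply Subtype.ext
  simpa using hd

/-- **hpu**: an integer prime to `q` is a unit of `A ∩ K₀`. -/
theorem beta0Ring_hpu {M : ℕ} (hM : (M : AlgebraicClosure ℚ) ∉ A.nonunits) :
    IsUnit ((M : ℕ) : beta0Ring A K₀) := by
  rw [beta0Ring_isUnit_iff, beta0_valuation_eq_one_iff]
  refine ⟨?_, ?_⟩
  · have : ((((M : ℕ) : beta0Ring A K₀) : K₀) : AlgebraicClosure ℚ) = (M : AlgebraicClosure ℚ) := by
      simp
    rw [this]
    exact natCast_mem A M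
  · have : ((((M : ℕ) : beta0Ring A K₀) : K₀) : AlgebraicClosure ℚ) = (M : AlgebraicClosure ℚ) := by
      simp
    rw [this]
    exact hM

/-- **hζ**: `A ∩ K₀` contains a primitive `M`-th root of unity (`E₀ ≤ K₀`, `M` prime to `q`). -/
theorem beta0Ring_exists_primitiveRoot (hE : beta0Field A ≤ K₀)
    {M : ℕ} (hM0 : M ≠ 0) (hM : (M : AlgebraicClosure ℚ) ∉ A.nonunits) :
    ∃ ζ : beta0Ring A K₀, IsPrimitiveRoot ζ M := by
  have hMne : (M : AlgebraicClosure ℚ) ≠ 0 := by exact_mod_cast hM0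
  haveI : NeZero (M : AlgebraicClosure ℚ) := ⟨hMne⟩
  obtain ⟨ζ₀, hζ₀⟩ := HasEnoughRootsOfUnity.exists_primitiveRoot (AlgebraicClosure ℚ) M
  have hζM : ζ₀ ^ M = 1 := hζ₀.pow_eq_one
  have hζA : ζ₀ ∈ A := Fermat.Agent.S31.rootOfUnity_mem A hM0 hζM
  have hζE : ζ₀ ∈ beta0Field A := by
    rw [mem_beta0Field]
    intro σ hσ
    exact Fermat.Agent.S31.inertia_rootOfUnity A hM hM0 hσ hζM
  refine ⟨⟨⟨ζ₀, hE hζE⟩, hζA⟩, ?_⟩
  have hinj : Function.Injective
      ((algebraMap K₀ (AlgebraicClosure ℚ)).comp (beta0Ring A K₀).subtype) := by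
    intro x y hxy
    apply Subtype.ext
    apply Subtype.ext
    exact hxy
  exact IsPrimitiveRoot.of_map_of_injective (f := (algebraMap K₀ (AlgebraicClosure ℚ)).comp
    (beta0Ring A K₀).subtype) hζ₀ hinj

/-- **Residue fields agree**: every element of `A ∩ K₀` is congruent to an element of `A ∩ E₀`
modulo the maximal ideal. -/
theorem beta0Ring_exists_residue (hq : q.Prime) (hA : A.LiesOverPrime q)
    (hE : beta0Field A ≤ K₀) (x : beta0Ring A K₀) :
    ∃ a : beta0Ring A (beta0Field A),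
      x - beta0RingIncl hE a ∈ IsLocalRing.maximalIdeal (beta0Ring A K₀) := by
  obtain ⟨b, hbE, hbA, hb⟩ := beta0_exists_residue hq hA (a := ((x : K₀) : AlgebraicClosure ℚ)) x.2
  refine ⟨⟨⟨b, hbE⟩, hbA⟩, ?_⟩
  rw [beta0Ring_mem_maximalIdeal_iff]
  exact hb

/-- `A ∩ E₀` is a DVR (type form of `beta0_isDVR`). -/
theorem beta0Ring_isDVR_base (hq : q.Prime) (hA : A.LiesOverPrime q) :
    IsDiscreteValuationRing (beta0Ring A (beta0Field A)) :=
  beta0_isDVR hq hA

/-- `q` is irreducible in `A ∩ E₀`. -/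
theorem beta0Ring_irreducible_q (hq : q.Prime) (hA : A.LiesOverPrime q) :
    Irreducible ((q : ℕ) : beta0Ring A (beta0Field A)) := by
  have e1 : ((((q : ℕ) : beta0Ring A (beta0Field A)) : beta0Field A) : AlgebraicClosure ℚ) =
      (q : AlgebraicClosure ℚ) := by simp
  apply beta0_comap_irreducible A _ _
  · intro h
    have h2 := congrArg (fun z : beta0Field A => (z : AlgebraicClosure ℚ)) h
    simp only [e1] at h2
    have : (q : AlgebraicClosure ℚ) ≠ 0 := by exact_mod_cast hq.ne_zero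
    exact this (by simpa using h2)
  · show A.valuation ((((q : ℕ) : beta0Ring A (beta0Field A)) : beta0Field A) :
        AlgebraicClosure ℚ) < 1
    rw [e1]
    exact A.mem_nonunits_iff.mp hA
  · intro x hx
    show (x : AlgebraicClosure ℚ) /
      ((((q : ℕ) : beta0Ring A (beta0Field A)) : beta0Field A) : AlgebraicClosure ℚ) ∈ A
    rw [e1]
    exact beta0_div_mem hq hA x.2 hx

end ring

section sup

variable {A : ValuationSubring (AlgebraicClosure ℚ)}
  (F : IntermediateField ℚ (AlgebraicClosure ℚ)) [NumberField F] [IsGalois ℚ F] {q : ℕ}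

/-- `A ∩ (E₀ ⊔ F)` is a DVR (type form of `beta0_sup_isDVR`). -/
theorem beta0Ring_isDVR_sup (hq : q.Prime) (hA : A.LiesOverPrime q) :
    IsDiscreteValuationRing (beta0Ring A (beta0Field A ⊔ F)) :=
  beta0_sup_isDVR F hq hA

/-- **Uniformizer of `A' = A ∩ (E₀ ⊔ F)`** in type form: `π' : A'` irreducible, lying in `F`,
with `v π' ^ n = v q` (`n = beta0Deg A F`), `π' ^ n ∣ q` and `q ∣ π' ^ n` in `A'`. -/
theorem beta0Ring_sup_exists_irreducible (hq : q.Prime) (hA : A.LiesOverPrime q) :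
    ∃ π : beta0Ring A (beta0Field A ⊔ F), Irreducible π ∧
      (((π : ↥(beta0Field A ⊔ F)) : AlgebraicClosure ℚ) ∈ F) ∧
      A.valuation (((π : ↥(beta0Field A ⊔ F)) : AlgebraicClosure ℚ)) ^ (beta0Deg A F) =
        A.valuation (q : AlgebraicClosure ℚ) ∧
      π ^ (beta0Deg A F) ∣ ((q : ℕ) : beta0Ring A (beta0Field A ⊔ F)) ∧
      ((q : ℕ) : beta0Ring A (beta0Field A ⊔ F)) ∣ π ^ (beta0Deg A F) := by
  obtain ⟨π, hπ0, hπ1, hπn, -⟩ := beta0_exists_uniformizer (A := A) F hq hA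
  have hπE : (π : AlgebraicClosure ℚ) ∈ beta0Field A ⊔ F :=
    (le_sup_right : F ≤ beta0Field A ⊔ F) π.2
  have hπA : (π : AlgebraicClosure ℚ) ∈ A := (A.valuation_le_one_iff _).mp hπ1.le
  have hπ0' : (π : AlgebraicClosure ℚ) ≠ 0 := by simpa using hπ0
  set ϖ : beta0Ring A (beta0Field A ⊔ F) := ⟨⟨(π : AlgebraicClosure ℚ), hπE⟩, hπA⟩ with hϖ
  have hϖ0 : ϖ ≠ 0 := by
    intro h
    apply hπ0'
    have := congrArg (fun z : beta0Ring A (beta0Field A ⊔ F) =>
      ((z : ↥(beta0Field A ⊔ F)) : AlgebraicClosure ℚ)) h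
    simpa [hϖ] using this
  have hq0 : (q : AlgebraicClosure ℚ) ≠ 0 := by exact_mod_cast hq.ne_zero
  have hqne : ((q : ℕ) : beta0Ring A (beta0Field A ⊔ F)) ≠ 0 := by
    exact_mod_cast hq.ne_zero
  have e1 : ((((q : ℕ) : beta0Ring A (beta0Field A ⊔ F)) : ↥(beta0Field A ⊔ F)) :
      AlgebraicClosure ℚ) = (q : AlgebraicClosure ℚ) := by simp
  have e2 : (((ϖ ^ (beta0Deg A F) : beta0Ring A (beta0Field A ⊔ F)) : ↥(beta0Field A ⊔ F)) :
      AlgebraicClosure ℚ) = (π : AlgebraicClosure ℚ) ^ (beta0Deg A F) := by simp [hϖ]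
  have hv1 : A.valuation ((q : AlgebraicClosure ℚ) / (π : AlgebraicClosure ℚ) ^ (beta0Deg A F))
      = 1 := by
    rw [map_div₀, map_pow, hπn]
    exact div_self ((Valuation.ne_zero_iff _).mpr hq0)
  have hv2 : A.valuation ((π : AlgebraicClosure ℚ) ^ (beta0Deg A F) / (q : AlgebraicClosure ℚ))
      = 1 := by
    rw [map_div₀, map_pow, hπn]
    exact div_self ((Valuation.ne_zero_iff _).mpr hq0)
  refine ⟨ϖ, ?_, π.2, hπn, ?_, ?_⟩
  · apply beta0_comap_irreducible A _ ϖ
    · intro h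
      apply hπ0'
      have := congrArg (fun z : ↥(beta0Field A ⊔ F) => (z : AlgebraicClosure ℚ)) h
      simpa [hϖ] using this
    · exact hπ1
    · intro x hx
      exact beta0_sup_div_mem F hq hA hπ0 hπ1 hπn x.2 hx
  · rw [beta0Ring_dvd_iff _ _ (pow_ne_zero _ hϖ0), e1, e2]
    exact ((beta0_valuation_eq_one_iff A _).mp hv1).1
  · rw [beta0Ring_dvd_iff _ _ hqne, e1, e2]
    exact ((beta0_valuation_eq_one_iff A _).mp hv2).1

end sup

section poly

variable {A : ValuationSubring (AlgebraicClosure ℚ)}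
  (F : IntermediateField ℚ (AlgebraicClosure ℚ)) [NumberField F] [IsGalois ℚ F] {q : ℕ}

/-- The degree `n = [F : T]` is positive. -/
theorem beta0Deg_pos : 0 < beta0Deg A F := Module.finrank_pos

/-- **The monic polynomial of the uniformizer**: for every `π' ∈ A' = A ∩ (E₀ ⊔ F)` lying in `F`,
of value `< 1` with `v π' ^ n = v q`, there is a monic `g ∈ A₀[X]` of degree `n` with `g(π') = 0`
(`A₀ = A ∩ E₀`).  Together with `π' ^ n ∣ q` this is the input of the Eisenstein bridge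
`nbc_ram_isEisensteinAt`. -/
theorem beta0Ring_sup_exists_poly (hq : q.Prime) (hA : A.LiesOverPrime q)
    (π : beta0Ring A (beta0Field A ⊔ F))
    (hπF : ((π : ↥(beta0Field A ⊔ F)) : AlgebraicClosure ℚ) ∈ F)
    (hπ0 : π ≠ 0)
    (hπ1 : A.valuation (((π : ↥(beta0Field A ⊔ F)) : AlgebraicClosure ℚ)) < 1)
    (hπn : A.valuation (((π : ↥(beta0Field A ⊔ F)) : AlgebraicClosure ℚ)) ^ (beta0Deg A F) =
        A.valuation (q : AlgebraicClosure ℚ)) :
    ∃ g : (beta0Ring A (beta0Field A))[X], g.Monic ∧ g.natDegree = beta0Deg A F ∧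
      Polynomial.eval₂ (beta0RingIncl (A := A)
        (le_sup_left : beta0Field A ≤ beta0Field A ⊔ F)) π g = 0 := by
  classical
  set ϖ : F := ⟨((π : ↥(beta0Field A ⊔ F)) : AlgebraicClosure ℚ), hπF⟩ with hϖ
  have hϖ0 : ϖ ≠ 0 := by
    intro h
    apply hπ0
    apply Subtype.ext
    apply Subtype.ext
    have := congrArg (fun z : F => (z : AlgebraicClosure ℚ)) h
    simpa [hϖ] using this
  have hmemE : ((ϖ : AlgebraicClosure ℚ)) ^ (beta0Deg A F) ∈ beta0Field A ⊔ F :=
    pow_mem ((le_sup_right : F ≤ beta0Field A ⊔ F) ϖ.2) _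
  have hmemA : ((ϖ : AlgebraicClosure ℚ)) ^ (beta0Deg A F) ∈ A := pow_mem π.2 _
  obtain ⟨c, hc, hsum⟩ := beta0_sup_decomp F hq hA hϖ0 hπ1 hπn hmemE hmemA
  set c' : Fin (beta0Deg A F) → beta0Ring A (beta0Field A) :=
    fun i => ⟨⟨c i, (hc i).1⟩, (hc i).2⟩ with hc'
  set p : (beta0Ring A (beta0Field A))[X] := ∑ i : Fin (beta0Deg A F), C (c' i) * X ^ (i : ℕ)
    with hp
  have hpdeg : p.degree < ((beta0Deg A F : ℕ) : WithBot ℕ) := Polynomial.degree_sum_fin_lt c'
  have hmonic : (X ^ (beta0Deg A F) - p).Monic := Polynomial.monic_X_pow_sub hpdeg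
  refine ⟨X ^ (beta0Deg A F) - p, hmonic, ?_, ?_⟩
  · have h1 : (X ^ (beta0Deg A F) - p).degree = ((beta0Deg A F : ℕ) : WithBot ℕ) := by
      rw [Polynomial.degree_sub_eq_left_of_degree_lt]
      · exact Polynomial.degree_X_pow _
      · rw [Polynomial.degree_X_pow]
        exact hpdeg
    exact Polynomial.natDegree_eq_of_degree_eq_some h1
  · rw [Polynomial.eval₂_sub, Polynomial.eval₂_pow, Polynomial.eval₂_X, hp,
      Polynomial.eval₂_finsetSum]
    apply Subtype.ext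
    apply Subtype.ext
    simp only [Polynomial.eval₂_mul, Polynomial.eval₂_C, Polynomial.eval₂_pow, Polynomial.eval₂_X]
    have : ((((π ^ (beta0Deg A F) - ∑ i : Fin (beta0Deg A F),
        beta0RingIncl (A := A) (le_sup_left : beta0Field A ≤ beta0Field A ⊔ F) (c' i) * π ^ (i : ℕ)
        : beta0Ring A (beta0Field A ⊔ F)) : ↥(beta0Field A ⊔ F)) : AlgebraicClosure ℚ)) =
        ((ϖ : AlgebraicClosure ℚ)) ^ (beta0Deg A F) -
          ∑ i, c i * (ϖ : AlgebraicClosure ℚ) ^ (i : ℕ) := by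
      simp [hϖ, hc']
    rw [this, hsum, sub_self]
    rfl

end poly

section fields

variable {K₁ K₂ : IntermediateField ℚ (AlgebraicClosure ℚ)}

/-- The algebra structure `K₁ → K₂` for `K₁ ≤ K₂` (use with `letI`). -/
@[reducible] noncomputable def beta0FieldAlgebra (h : K₁ ≤ K₂) : Algebra K₁ K₂ :=
  (IntermediateField.inclusion h).toRingHom.toAlgebra

theorem beta0FieldAlgebra_coe (h : K₁ ≤ K₂) (x : K₁) :
    letI := beta0FieldAlgebra h
    ((algebraMap K₁ K₂ x : K₂) : AlgebraicClosure ℚ) = (x : AlgebraicClosure ℚ) := rfl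

theorem beta0FieldAlgebra_isScalarTower (h : K₁ ≤ K₂) :
    letI := beta0FieldAlgebra h
    IsScalarTower ℚ K₁ K₂ := by
  letI := beta0FieldAlgebra h
  exact IsScalarTower.of_algebraMap_eq (fun x => by
    apply Subtype.ext
    rfl)

theorem beta0FieldAlgebra_isAlgebraic (h : K₁ ≤ K₂) (x : K₂) :
    letI := beta0FieldAlgebra h
    IsAlgebraic K₁ x := by
  letI := beta0FieldAlgebra h
  haveI := beta0FieldAlgebra_isScalarTower h
  haveI : Algebra.IsAlgebraic ℚ (AlgebraicClosure ℚ) := Fermat.Agent.S05.isAlgebraic_rat_qbar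
  have hx : IsAlgebraic ℚ x := by
    have h1 : IsAlgebraic ℚ (x : AlgebraicClosure ℚ) := Algebra.IsAlgebraic.isAlgebraic _
    exact (isAlgebraic_algebraMap_iff (algebraMap K₂ (AlgebraicClosure ℚ)).injective).mp h1
  exact hx.tower_top K₁

end fields

section adjoin

variable {A : ValuationSubring (AlgebraicClosure ℚ)}
  (F : IntermediateField ℚ (AlgebraicClosure ℚ)) [NumberField F] [IsGalois ℚ F] {q : ℕ}

/-- **`E' = E₀[π']`**: the uniformizer generates `E' = E₀ ⊔ F` as an `E₀`-algebra. -/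
theorem beta0_sup_adjoin_eq_top (hq : q.Prime) (hA : A.LiesOverPrime q)
    (π : ↥(beta0Field A ⊔ F)) (hπF : (π : AlgebraicClosure ℚ) ∈ F) (hπ0 : π ≠ 0)
    (hπ1 : A.valuation (π : AlgebraicClosure ℚ) < 1)
    (hπn : A.valuation (π : AlgebraicClosure ℚ) ^ (beta0Deg A F) =
        A.valuation (q : AlgebraicClosure ℚ)) :
    letI := beta0FieldAlgebra (le_sup_left : beta0Field A ≤ beta0Field A ⊔ F)
    Algebra.adjoin ↥(beta0Field A) ({π} : Set ↥(beta0Field A ⊔ F)) = ⊤ := by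
  letI := beta0FieldAlgebra (le_sup_left : beta0Field A ≤ beta0Field A ⊔ F)
  rw [eq_top_iff]
  rintro x -
  set ϖ : F := ⟨(π : AlgebraicClosure ℚ), hπF⟩ with hϖ
  have hϖ0 : ϖ ≠ 0 := by
    intro h
    apply hπ0
    apply Subtype.ext
    have := congrArg (fun z : F => (z : AlgebraicClosure ℚ)) h
    simpa [hϖ] using this
  obtain ⟨c, hc, hx⟩ := beta0_sup_span F hq hA hϖ0 hπ1 hπn x.2
  have hx' : x = ∑ i : Fin (beta0Deg A F),
      algebraMap ↥(beta0Field A) ↥(beta0Field A ⊔ F) ⟨c i, hc i⟩ * π ^ (i : ℕ) := by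
    apply Subtype.ext
    rw [hx]
    simp only [AddSubmonoidClass.coe_finsetSum, MulMemClass.coe_mul, SubmonoidClass.coe_pow]
    rfl
  rw [hx']
  apply Subalgebra.sum_mem
  intro i _
  apply Subalgebra.mul_mem
  · exact Subalgebra.algebraMap_mem _ _
  · exact Subalgebra.pow_mem _ (Algebra.subset_adjoin (Set.mem_singleton π)) _

end adjoin

end Fermat.Agent.UNIP
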