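import Mathlib
import Fermat.Agent.UNIP.Beta0Pkg

/-!
# UNIP piece U10 (`Beta0`), part 7: instantiation package for MG-4 / MG-5

Concrete types (all in `Type`):

* `E₀ = ↥(beta0Field A)`, `E' = ↥(beta0Field A ⊔ F)`  (`F / ℚ` finite Galois inside `ℚ̄`);
* `A₀ = ↥(beta0Ring A (beta0Field A))`, `A' = ↥(beta0Ring A (beta0Field A ⊔ F))`
  (DVRs: `beta0Ring_isDVR_base`, `beta0Ring_isDVR_sup`; fraction fields `E₀`, `E'`: Mathlib instances);
* `beta0InstFieldAlgebra A F : Algebra E₀ E'`, `beta0InstAlgebra A F : Algebra A₀ A'`,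
  `beta0InstAlgebraTop A F : Algebra A₀ E'` (reducible defs, use with `letI`), with
  `beta0Inst_isScalarTower` (`A₀ → A' → E'`) and `beta0Inst_isScalarTower'` (`A₀ → E₀ → E'`);
* `beta0Inst_isIntegral : Algebra.IsIntegral A₀ A'`;
* `beta0Inst_main` : the uniformizer `π'`, `hπ'0`, `hπ'u`, `hram`, `g`, `hgm`, `hroot`, `hdeg`,
  `Algebra.adjoin E₀ {π'} = ⊤`, `IsAlgebraic E₀ π'`  — inputs (i)–(iii) of `mgc_ramified`,
  `mgci_*`, `mgc_algebra_adjoin_eq_top`.
-/

set_option autoImplicit false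
set_option linter.style.haveILetI false
set_option linter.unusedSectionVars false

open scoped NumberField Pointwise
open Ideal MulAction IsDedekindDomain WithZero Polynomial

namespace Fermat.Agent.UNIP

section inst

variable (A : ValuationSubring (AlgebraicClosure ℚ))
  (F : IntermediateField ℚ (AlgebraicClosure ℚ))

/-- `Algebra E₀ E'`. -/
@[reducible] noncomputable def beta0InstFieldAlgebra :
    Algebra ↥(beta0Field A) ↥(beta0Field A ⊔ F) :=
  beta0FieldAlgebra (le_sup_left : beta0Field A ≤ beta0Field A ⊔ F)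

/-- `Algebra A₀ A'`. -/
@[reducible] noncomputable def beta0InstAlgebra :
    Algebra ↥(beta0Ring A (beta0Field A)) ↥(beta0Ring A (beta0Field A ⊔ F)) :=
  (beta0RingIncl (A := A) (le_sup_left : beta0Field A ≤ beta0Field A ⊔ F)).toAlgebra

/-- `Algebra A₀ E'` (through `A'`, equivalently through `E₀`). -/
@[reducible] noncomputable def beta0InstAlgebraTop :
    Algebra ↥(beta0Ring A (beta0Field A)) ↥(beta0Field A ⊔ F) :=
  ((beta0Ring A (beta0Field A ⊔ F)).subtype.comp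
    (beta0RingIncl (A := A) (le_sup_left : beta0Field A ≤ beta0Field A ⊔ F))).toAlgebra

theorem beta0InstAlgebra_algebraMap (a : ↥(beta0Ring A (beta0Field A))) :
    letI := beta0InstAlgebra A F
    ((algebraMap ↥(beta0Ring A (beta0Field A)) ↥(beta0Ring A (beta0Field A ⊔ F)) a :
      ↥(beta0Field A ⊔ F)) : AlgebraicClosure ℚ) = ((a : ↥(beta0Field A)) : AlgebraicClosure ℚ) :=
  rfl

/-- `A₀ → A' → E'`. -/
theorem beta0Inst_isScalarTower :
    letI := beta0InstAlgebra A F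
    letI := beta0InstAlgebraTop A F
    IsScalarTower ↥(beta0Ring A (beta0Field A)) ↥(beta0Ring A (beta0Field A ⊔ F))
      ↥(beta0Field A ⊔ F) := by
  letI := beta0InstAlgebra A F
  letI := beta0InstAlgebraTop A F
  exact IsScalarTower.of_algebraMap_eq (fun x => rfl)

/-- `A₀ → E₀ → E'`. -/
theorem beta0Inst_isScalarTower' :
    letI := beta0InstFieldAlgebra A F
    letI := beta0InstAlgebraTop A F
    IsScalarTower ↥(beta0Ring A (beta0Field A)) ↥(beta0Field A) ↥(beta0Field A ⊔ F) := by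
  letI := beta0InstFieldAlgebra A F
  letI := beta0InstAlgebraTop A F
  exact IsScalarTower.of_algebraMap_eq (fun x => rfl)

end inst

section main

variable {A : ValuationSubring (AlgebraicClosure ℚ)}
  (F : IntermediateField ℚ (AlgebraicClosure ℚ)) [NumberField F] [IsGalois ℚ F] {q : ℕ}

/-- **Package (i)–(iii)** for `mgc_ramified` / `mgci_*` / `mgc_algebra_adjoin_eq_top`. -/
theorem beta0Inst_main (hq : q.Prime) (hA : A.LiesOverPrime q) :
    letI := beta0InstAlgebra A F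
    letI := beta0InstFieldAlgebra A F
    ∃ π' : ↥(beta0Ring A (beta0Field A ⊔ F)),
      Irreducible π' ∧ π' ≠ 0 ∧ ¬ IsUnit π' ∧
      (((π' : ↥(beta0Field A ⊔ F)) : AlgebraicClosure ℚ) ∈ F) ∧
      A.valuation (((π' : ↥(beta0Field A ⊔ F)) : AlgebraicClosure ℚ)) < 1 ∧
      A.valuation (((π' : ↥(beta0Field A ⊔ F)) : AlgebraicClosure ℚ)) ^ (beta0Deg A F) =
        A.valuation (q : AlgebraicClosure ℚ) ∧
      π' ^ (beta0Deg A F) ∣ algebraMap ↥(beta0Ring A (beta0Field A))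
        ↥(beta0Ring A (beta0Field A ⊔ F)) ((q : ℕ) : ↥(beta0Ring A (beta0Field A))) ∧
      (∃ g : (↥(beta0Ring A (beta0Field A)))[X], g.Monic ∧ Polynomial.aeval π' g = 0 ∧
        g.natDegree ≤ beta0Deg A F ∧ g.natDegree = beta0Deg A F) ∧
      Algebra.adjoin ↥(beta0Field A) ({(π' : ↥(beta0Field A ⊔ F))} : Set ↥(beta0Field A ⊔ F)) = ⊤ ∧
      IsAlgebraic ↥(beta0Field A) (π' : ↥(beta0Field A ⊔ F)) := by
  letI := beta0InstAlgebra A F
  letI := beta0InstFieldAlgebra A F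
  obtain ⟨π, hirr, hπF, hπn, hdvd, -⟩ := beta0Ring_sup_exists_irreducible (A := A) F hq hA
  have hπ0 : π ≠ 0 := hirr.ne_zero
  have hπu : ¬ IsUnit π := hirr.not_isUnit
  have hπ1 : A.valuation (((π : ↥(beta0Field A ⊔ F)) : AlgebraicClosure ℚ)) < 1 := by
    have := (beta0Ring_mem_maximalIdeal_iff π).mp
      ((IsLocalRing.mem_maximalIdeal π).mpr hπu)
    exact A.mem_nonunits_iff.mp this
  have hπ0' : (π : ↥(beta0Field A ⊔ F)) ≠ 0 := fun h => hπ0 (Subtype.ext h)
  obtain ⟨g, hgm, hgdeg, hgroot⟩ := beta0Ring_sup_exists_poly F hq hA π hπF hπ0 hπ1 hπn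
  refine ⟨π, hirr, hπ0, hπu, hπF, hπ1, hπn, ?_, ⟨g, hgm, ?_, hgdeg.le, hgdeg⟩, ?_, ?_⟩
  · have e : algebraMap ↥(beta0Ring A (beta0Field A)) ↥(beta0Ring A (beta0Field A ⊔ F))
        ((q : ℕ) : ↥(beta0Ring A (beta0Field A))) =
        ((q : ℕ) : ↥(beta0Ring A (beta0Field A ⊔ F))) := map_natCast _ q
    rw [e]
    exact hdvd
  · rw [Polynomial.aeval_def]
    exact hgroot
  · exact beta0_sup_adjoin_eq_top F hq hA (π : ↥(beta0Field A ⊔ F)) hπF hπ0' hπ1 hπn
  · exact beta0FieldAlgebra_isAlgebraic _ _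

/-- **`A'` is integral over `A₀`.** -/
theorem beta0Inst_isIntegral (hq : q.Prime) (hA : A.LiesOverPrime q) :
    letI := beta0InstAlgebra A F
    Algebra.IsIntegral ↥(beta0Ring A (beta0Field A)) ↥(beta0Ring A (beta0Field A ⊔ F)) := by
  letI := beta0InstAlgebra A F
  letI := beta0InstFieldAlgebra A F
  obtain ⟨π, -, hπ0, -, hπF, hπ1, hπn, -, ⟨g, hgm, hgroot, -, -⟩, -, -⟩ :=
    beta0Inst_main (A := A) F hq hA
  have hπint : IsIntegral ↥(beta0Ring A (beta0Field A)) π := ⟨g, hgm, hgroot⟩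
  refine ⟨fun x => ?_⟩
  set ϖ : F := ⟨((π : ↥(beta0Field A ⊔ F)) : AlgebraicClosure ℚ), hπF⟩ with hϖ
  have hϖ0 : ϖ ≠ 0 := by
    intro h
    apply hπ0
    apply Subtype.ext
    apply Subtype.ext
    have := congrArg (fun z : F => (z : AlgebraicClosure ℚ)) h
    simpa [hϖ] using this
  obtain ⟨c, hc, hx⟩ := beta0_sup_decomp F hq hA hϖ0 hπ1 hπn (x : ↥(beta0Field A ⊔ F)).2 x.2
  have hx' : x = ∑ i : Fin (beta0Deg A F),
      algebraMap ↥(beta0Ring A (beta0Field A)) ↥(beta0Ring A (beta0Field A ⊔ F))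
        ⟨⟨c i, (hc i).1⟩, (hc i).2⟩ * π ^ (i : ℕ) := by
    apply Subtype.ext
    apply Subtype.ext
    rw [hx]
    simp only [AddSubmonoidClass.coe_finsetSum, MulMemClass.coe_mul, SubmonoidClass.coe_pow]
    rfl
  rw [hx']
  apply IsIntegral.sum
  intro i _
  exact IsIntegral.mul isIntegral_algebraMap (hπint.pow _)

end main

end Fermat.Agent.UNIP
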