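import Mathlib

/-!
# UNIP D5 (S34 / S35, direct route of `NOTES/S34-plan.md`): Step 2 (e) — from exponent `p` to `p ^ r`

Abstract setting (no modular forms):

* `F` a field (the function field `F′`);
* `V : κ → ValuationSubring F` the *vertical* valuation rings (the components of the special fibre);
* `O : ι → Subring F` the local rings `B′_𝔫` of the closed points `𝔫` (of all charts), each of them a
  local ring that is integrally closed in `F`; `J i` the ideal `π′ · O i`;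
* `inc i c` : the point `i` lies on the component `c`; then `J i ⊆ 𝔪 (V c)`;
* `ζ ∈ F` a primitive `p`-th root of unity lying in every `O i`, `V c`, with `ζ ^ k - 1` a unit there
  for `0 < k < p`.

`PwiShape V O J inc m w` ("`w` has the local shape for the exponent `m`"):
`w ≡ 1` at every vertical valuation, and at every closed point `w = ε · γ ^ m` with `ε ∈ O i`,
`ε ≡ 1 mod J i`, and `γ ≡ 1` at the vertical valuations through the point.

`pwi_exists_pow_eq` : if every `w` of shape `p` is a `p`-th power (Step 2 (a)–(d)), every point lies on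
a component and the incidence graph of the components is connected, then every `w` of shape
`p ^ r` is a `p ^ r`-th power.
-/

set_option autoImplicit false

namespace Fermat.Agent.UNIP

open Polynomial

variable {F : Type*} [Field F]

section Val

variable (V : ValuationSubring F)

theorem pwi_val_eq_one {x : F} (h : x - 1 ∈ V.nonunits) : V.valuation x = 1 := by
  rw [ValuationSubring.mem_nonunits_iff] at h
  have h1 : V.valuation (1 + (x - 1)) = 1 := V.valuation.map_one_add_of_lt h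
  rwa [add_sub_cancel] at h1

theorem pwi_mem_of_congr {x : F} (h : x - 1 ∈ V.nonunits) : x ∈ V :=
  (V.valuation_le_one_iff x).1 (pwi_val_eq_one V h).le

theorem pwi_congr_one : (1 : F) - 1 ∈ V.nonunits := by
  rw [sub_self]
  exact V.nonunits.zero_mem

theorem pwi_congr_mul {x y : F} (hx : x - 1 ∈ V.nonunits) (hy : y - 1 ∈ V.nonunits) :
    x * y - 1 ∈ V.nonunits := by
  have e : x * y - 1 = (x - 1) * y + (y - 1) := by ring
  rw [e]
  refine V.nonunits.add_mem ?_ hy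
  rw [ValuationSubring.mem_nonunits_iff, map_mul, pwi_val_eq_one V hy, mul_one]
  exact (ValuationSubring.mem_nonunits_iff V).1 hx

theorem pwi_congr_pow {x : F} (hx : x - 1 ∈ V.nonunits) (n : ℕ) : x ^ n - 1 ∈ V.nonunits := by
  induction n with
  | zero => rw [pow_zero]; exact pwi_congr_one V
  | succ n ih => rw [pow_succ]; exact pwi_congr_mul V ih hx

/-- multiplication of a non-unit by an element of `V` -/
theorem pwi_mul_mem_nonunits {a x : F} (ha : a ∈ V) (hx : x ∈ V.nonunits) :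
    a * x ∈ V.nonunits := by
  rw [ValuationSubring.mem_nonunits_iff] at hx ⊢
  rw [map_mul]
  exact Right.mul_lt_one_of_le_of_lt ((V.valuation_le_one_iff a).2 ha) hx

end Val

section Roots

/-- `∏_{k<p} (h - ζ^k) = h^p - 1`. -/
theorem pwi_prod_sub {p : ℕ} (hp : 0 < p) {ζ : F} (hζ : IsPrimitiveRoot ζ p) (h : F) :
    ∏ k ∈ Finset.range p, (h - ζ ^ k) = h ^ p - 1 := by
  have key := X_pow_sub_C_eq_prod hζ hp (one_pow p)
  have := congrArg (Polynomial.eval h) key
  simp only [eval_sub, eval_pow, eval_X, eval_C, eval_prod, mul_one] at this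
  exact this.symm

variable (V : ValuationSubring F)

theorem pwi_val_root {p : ℕ} (hp : 0 < p) {ζ : F} (hζ : IsPrimitiveRoot ζ p) :
    V.valuation ζ = 1 := by
  have h1 : V.valuation ζ ^ p = 1 := by rw [← map_pow, hζ.pow_eq_one, map_one]
  exact (pow_eq_one_iff_of_nonneg zero_le hp.ne').1 h1

theorem pwi_root_mem {p : ℕ} (hp : 0 < p) {ζ : F} (hζ : IsPrimitiveRoot ζ p) (k : ℕ) :
    ζ ^ k ∈ V :=
  (V.valuation_le_one_iff _).1 (by rw [map_pow, pwi_val_root V hp hζ, one_pow])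

theorem pwi_root_inv_mem {p : ℕ} (hp : 0 < p) {ζ : F} (hζ : IsPrimitiveRoot ζ p) (k : ℕ) :
    (ζ ^ k)⁻¹ ∈ V :=
  (V.valuation_le_one_iff _).1 (by rw [map_inv₀, map_pow, pwi_val_root V hp hζ, one_pow, inv_one])

/-- A `p`-th root of an element `≡ 1` is congruent to a `p`-th root of unity. -/
theorem pwi_exists_root_val {p : ℕ} (hp : 0 < p) {ζ : F} (hζ : IsPrimitiveRoot ζ p) {h : F}
    (hh : h ^ p - 1 ∈ V.nonunits) : ∃ k, k < p ∧ h - ζ ^ k ∈ V.nonunits := by
  by_contra hcon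
  push Not at hcon
  have hv : V.valuation h = 1 := by
    have h1 : V.valuation h ^ p = 1 := by rw [← map_pow]; exact pwi_val_eq_one V hh
    exact (pow_eq_one_iff_of_nonneg zero_le hp.ne').1 h1
  have hmem : h ∈ V := (V.valuation_le_one_iff h).1 hv.le
  have hall : ∀ k ∈ Finset.range p, V.valuation (h - ζ ^ k) = 1 := by
    intro k hk
    have hk' := Finset.mem_range.1 hk
    have h1 : h - ζ ^ k ∈ V := V.sub_mem hmem (pwi_root_mem V hp hζ k)
    have h2 : V.valuation (h - ζ ^ k) ≤ 1 := (V.valuation_le_one_iff _).2 h1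
    have h3 : ¬ V.valuation (h - ζ ^ k) < 1 := fun hlt =>
      hcon k hk' ((ValuationSubring.mem_nonunits_iff V).2 hlt)
    exact le_antisymm h2 (not_lt.1 h3)
  have hprod : V.valuation (h ^ p - 1) = 1 := by
    rw [← pwi_prod_sub hp hζ h, map_prod]
    exact Finset.prod_eq_one hall
  have := (ValuationSubring.mem_nonunits_iff V).1 hh
  rw [hprod] at this
  exact lt_irrefl _ this

/-- The root of unity in `pwi_exists_root_val` is unique. -/
theorem pwi_root_unique {p : ℕ} (hp : 0 < p) {ζ : F} (hζ : IsPrimitiveRoot ζ p)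
    (hζV : ∀ k, 0 < k → k < p → ζ ^ k - 1 ∉ V.nonunits) {h : F} {j k : ℕ} (hj : j < p)
    (hk : k < p) (h1 : h - ζ ^ j ∈ V.nonunits) (h2 : h - ζ ^ k ∈ V.nonunits) : j = k := by
  have aux : ∀ {a b : ℕ}, a < b → b < p → h - ζ ^ a ∈ V.nonunits → h - ζ ^ b ∈ V.nonunits →
      False := by
    intro a b hab hb ha' hb'
    have e : ζ ^ (b - a) - 1 = (ζ ^ a)⁻¹ * ((h - ζ ^ a) - (h - ζ ^ b)) := by
      have hz : ζ ^ a ≠ 0 := pow_ne_zero _ (hζ.ne_zero hp.ne')
      have e2 : ζ ^ b = ζ ^ a * ζ ^ (b - a) := by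
        rw [← pow_add, Nat.add_sub_cancel' hab.le]
      rw [e2]
      field_simp
      ring
    apply hζV (b - a) (Nat.sub_pos_of_lt hab) (lt_of_le_of_lt (Nat.sub_le _ _) hb)
    rw [e]
    exact pwi_mul_mem_nonunits V (pwi_root_inv_mem V hp hζ a) (V.nonunits.sub_mem ha' hb')
  rcases lt_trichotomy j k with hlt | heq | hgt
  · exact (aux hlt hk h1 h2).elim
  · exact heq
  · exact (aux hgt hj h2 h1).elim

end Roots

section LocalRing

variable {R : Type*} [CommRing R] [IsLocalRing R]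

/-- In a local ring, if a finite product of elements with pairwise unit differences lies in a
proper ideal, then one of the factors lies in the ideal. -/
theorem pwi_exists_mem_of_prod_mem (J : Ideal R) (hJ : J ≠ ⊤) (s : Finset ℕ) (a : ℕ → R)
    (hdiff : ∀ j ∈ s, ∀ k ∈ s, j ≠ k → IsUnit (a j - a k)) (hprod : ∏ k ∈ s, a k ∈ J) :
    ∃ k ∈ s, a k ∈ J := by
  classical
  by_cases hall : ∀ k ∈ s, IsUnit (a k)
  · exfalso
    apply hJ
    have hu : IsUnit (∏ k ∈ s, a k) := by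
      rw [IsUnit.prod_iff]
      exact hall
    exact Ideal.eq_top_of_isUnit_mem J hprod hu
  · push Not at hall
    obtain ⟨k₀, hk₀, hnu⟩ := hall
    refine ⟨k₀, hk₀, ?_⟩
    have hothers : ∀ j ∈ s.erase k₀, IsUnit (a j) := by
      intro j hj
      obtain ⟨hjk, hjs⟩ := Finset.mem_erase.1 hj
      by_contra hju
      have h1 : a j ∈ IsLocalRing.maximalIdeal R := (IsLocalRing.mem_maximalIdeal _).2 hju
      have h2 : a k₀ ∈ IsLocalRing.maximalIdeal R := (IsLocalRing.mem_maximalIdeal _).2 hnu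
      have h3 : a j - a k₀ ∈ IsLocalRing.maximalIdeal R := Ideal.sub_mem _ h1 h2
      exact (IsLocalRing.mem_maximalIdeal _).1 h3 (hdiff j hjs k₀ hk₀ hjk)
    have hu : IsUnit (∏ j ∈ s.erase k₀, a j) := by
      rw [IsUnit.prod_iff]
      exact hothers
    obtain ⟨u, hu'⟩ := hu
    have hsplit : ∏ k ∈ s, a k = a k₀ * ∏ j ∈ s.erase k₀, a j :=
      (Finset.mul_prod_erase s a hk₀).symm
    have h4 : a k₀ = (∏ k ∈ s, a k) * ((u⁻¹ : Rˣ) : R) := by
      rw [hsplit, ← hu', mul_assoc, Units.mul_inv, mul_one]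
    rw [h4]
    exact Ideal.mul_mem_right _ _ hprod

end LocalRing

section Main

/-- the inverse of a power of a root of unity is a power of it -/
theorem pwi_inv_pow_mem (O : Subring F) {p : ℕ} (hp : 0 < p) {ζ : F} (hζp : ζ ^ p = 1)
    (hζO : ζ ∈ O) (k : ℕ) : (ζ ^ k)⁻¹ ∈ O := by
  have e : (ζ ^ k)⁻¹ = ζ ^ (k * (p - 1)) := by
    apply inv_eq_of_mul_eq_one_right
    rw [← pow_add]
    have : k + k * (p - 1) = p * k := by
      obtain ⟨q, rfl⟩ : ∃ q, p = q + 1 := ⟨p - 1, by omega⟩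
      simp only [Nat.add_sub_cancel]; ring
    rw [this, pow_mul, hζp, one_pow]
  rw [e]
  exact O.pow_mem hζO _

variable {ι κ : Type*}

/-- `w` has the local shape for the exponent `m`: `w ≡ 1` at every vertical valuation, and at
every closed point `w = ε · γ ^ m` with `ε ∈ O i`, `ε ≡ 1 mod J i`, and `γ ≡ 1` at the vertical
valuations through the point. -/
def PwiShape (V : κ → ValuationSubring F) (O : ι → Subring F) (J : ∀ i, Ideal (O i))
    (inc : ι → κ → Prop) (m : ℕ) (w : F) : Prop :=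
  (∀ c, w - 1 ∈ (V c).nonunits) ∧
    ∀ i, ∃ ε γ : F, ∃ hε : ε ∈ O i, (⟨ε, hε⟩ - 1 : O i) ∈ J i ∧
      (∀ c, inc i c → γ - 1 ∈ (V c).nonunits) ∧ w = ε * γ ^ m

variable {V : κ → ValuationSubring F} {O : ι → Subring F} {J : ∀ i, Ideal (O i)}
  {inc : ι → κ → Prop}

/-- Shape for `m * n` gives shape for `m`. -/
theorem PwiShape.of_mul {m n : ℕ} {w : F} (h : PwiShape V O J inc (m * n) w) :
    PwiShape V O J inc m w := by
  refine ⟨h.1, fun i => ?_⟩
  obtain ⟨ε, γ, hε, hεJ, hγ, hw⟩ := h.2 i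
  refine ⟨ε, γ ^ n, hε, hεJ, fun c hc => pwi_congr_pow (V c) (hγ c hc) n, ?_⟩
  rw [hw, ← pow_mul, mul_comm n m]

/-- The trivial case `m = 1`... every `w` is a first power. -/
theorem pwi_pow_one (w : F) : ∃ h : F, h ^ (1 : ℕ) = w := ⟨w, pow_one w⟩

/-- The key step: a `p`-th root `h₀` of a `w` of shape `p * n` can be normalised by a `p`-th root
of unity to have shape `n`. -/
theorem pwi_step
    (hloc : ∀ i, IsLocalRing (O i)) (hJ : ∀ i, J i ≠ ⊤)
    (hic : ∀ i (x : F), IsIntegral (O i) x → x ∈ O i)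
    (hJV : ∀ i c, inc i c → ∀ x : O i, x ∈ J i → (x : F) ∈ (V c).nonunits)
    (hpt : ∀ i, ∃ c, inc i c)
    (hconn : ∀ c c' : κ, Relation.ReflTransGen (fun a b => ∃ i, inc i a ∧ inc i b) c c')
    {p : ℕ} (hp : 0 < p) {ζ : F} (hζ : IsPrimitiveRoot ζ p)
    (hζO : ∀ i, ζ ∈ O i)
    (hζu : ∀ i k, 0 < k → k < p → (ζ ^ k - 1)⁻¹ ∈ O i)
    (hζV : ∀ c k, 0 < k → k < p → ζ ^ k - 1 ∉ (V c).nonunits)
    {n : ℕ} {w h₀ : F} (hw : PwiShape V O J inc (p * n) w) (hh₀ : h₀ ^ p = w) :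
    ∃ h' : F, h' ^ p = w ∧ PwiShape V O J inc n h' := by
  classical
  have hζ0 : ζ ≠ 0 := hζ.ne_zero hp.ne'
  -- the root of unity on each component
  have hcomp : ∀ c, ∃ k, k < p ∧ h₀ - ζ ^ k ∈ (V c).nonunits := fun c =>
    pwi_exists_root_val (V c) hp hζ (by rw [hh₀]; exact hw.1 c)
  choose kc hkc hkc' using hcomp
  -- the root of unity at each closed point
  have hpoint : ∀ i, ∃ ε γ : F, ∃ k, k < p ∧ ε ∈ O i ∧
      (∃ hd : ε - ζ ^ k ∈ O i, (⟨ε - ζ ^ k, hd⟩ : O i) ∈ J i) ∧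
      (∀ c, inc i c → γ - 1 ∈ (V c).nonunits) ∧ h₀ = ε * γ ^ n := by
    intro i
    have := hloc i
    obtain ⟨ε, γ, hε, hεJ, hγ, hwε⟩ := hw.2 i
    obtain ⟨c₀, hc₀⟩ := hpt i
    have hγ0 : γ ≠ 0 := by
      rintro rfl
      have := pwi_val_eq_one (V c₀) (hγ c₀ hc₀)
      simp at this
    set T : F := h₀ * (γ ^ n)⁻¹ with hT
    have hTp : T ^ p = ε := by
      have h1 : (γ ^ n) ^ p ≠ 0 := pow_ne_zero _ (pow_ne_zero _ hγ0)
      rw [hT, mul_pow, hh₀, hwε, inv_pow, pow_mul', mul_assoc, mul_inv_cancel₀ h1, mul_one]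
    have hTint : IsIntegral (O i) T := by
      refine ⟨X ^ p - C (⟨ε, hε⟩ : O i), monic_X_pow_sub_C _ hp.ne', ?_⟩
      rw [eval₂_sub, eval₂_pow, eval₂_X, eval₂_C, hTp]
      exact sub_self _
    have hTO : T ∈ O i := hic i T hTint
    -- the product formula in `O i`
    let a : ℕ → O i := fun k => ⟨T, hTO⟩ - ⟨ζ, hζO i⟩ ^ k
    have hacoe : ∀ k, ((a k : O i) : F) = T - ζ ^ k := fun k => by simp [a]
    have hprodJ : ∏ k ∈ Finset.range p, a k ∈ J i := by
      have e : ∏ k ∈ Finset.range p, a k = (⟨ε, hε⟩ - 1 : O i) := by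
        apply Subtype.ext
        have e1 : ((∏ k ∈ Finset.range p, a k : O i) : F) =
            ∏ k ∈ Finset.range p, ((a k : O i) : F) := map_prod (O i).subtype _ _
        rw [e1]
        simp only [hacoe]
        rw [pwi_prod_sub hp hζ T, hTp]
        rfl
      rw [e]
      exact hεJ
    have hdiff : ∀ j ∈ Finset.range p, ∀ k ∈ Finset.range p, j ≠ k → IsUnit (a j - a k) := by
      have aux : ∀ {u v : ℕ}, u < v → v < p → IsUnit (a u - a v) := by
        intro u v huv hv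
        have hinv := hζu i (v - u) (Nat.sub_pos_of_lt huv) (lt_of_le_of_lt (Nat.sub_le _ _) hv)
        have e2 : ζ ^ v = ζ ^ u * ζ ^ (v - u) := by
          rw [← pow_add, Nat.add_sub_cancel' huv.le]
        have hz1 : ζ ^ (v - u) - 1 ≠ 0 := by
          intro h0
          have hdvd : p ∣ v - u := (hζ.pow_eq_one_iff_dvd _).1 (sub_eq_zero.1 h0)
          have := Nat.le_of_dvd (Nat.sub_pos_of_lt huv) hdvd
          omega
        have hzinv : (ζ ^ u)⁻¹ ∈ O i := pwi_inv_pow_mem (O i) hp hζ.pow_eq_one (hζO i) u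
        have hval : ((a u - a v : O i) : F) = ζ ^ v - ζ ^ u := by
          rw [AddSubgroupClass.coe_sub, hacoe, hacoe]; ring
        refine IsUnit.of_mul_eq_one (⟨(ζ ^ u)⁻¹, hzinv⟩ * ⟨(ζ ^ (v - u) - 1)⁻¹, hinv⟩) ?_
        apply Subtype.ext
        rw [Subring.coe_mul, hval, Subring.coe_mul, Subring.coe_one, e2]
        have hz : ζ ^ u ≠ 0 := pow_ne_zero _ hζ0
        show (ζ ^ u * ζ ^ (v - u) - ζ ^ u) * ((ζ ^ u)⁻¹ * (ζ ^ (v - u) - 1)⁻¹) = 1
        field_simp
      intro j hj k hk hjk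
      rcases lt_or_gt_of_ne hjk with hlt | hgt
      · exact aux hlt (Finset.mem_range.1 hk)
      · have := aux hgt (Finset.mem_range.1 hj)
        have e : a j - a k = -(a k - a j) := by ring
        rw [e]
        exact this.neg
    obtain ⟨k, hk, hkJ⟩ := pwi_exists_mem_of_prod_mem (J i) (hJ i) (Finset.range p) a hdiff hprodJ
    refine ⟨T, γ, k, Finset.mem_range.1 hk, hTO, ⟨?_, ?_⟩, hγ, ?_⟩
    · exact (O i).sub_mem hTO ((O i).pow_mem (hζO i) k)
    · have : (⟨T - ζ ^ k, (O i).sub_mem hTO ((O i).pow_mem (hζO i) k)⟩ : O i) = a k :=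
        Subtype.ext (hacoe k).symm
      rw [this]
      exact hkJ
    · rw [hT, mul_assoc, inv_mul_cancel₀ (pow_ne_zero _ hγ0), mul_one]
  choose ε γ ki hki hεO hεJ hγ hh₀ε using hpoint
  -- compatibility point / component
  have hik : ∀ i c, inc i c → ki i = kc c := by
    intro i c hic'
    refine pwi_root_unique (V c) hp hζ (hζV c) (hki i) (hkc c) ?_ (hkc' c)
    obtain ⟨hd, hdJ⟩ := hεJ i
    have h1 : (ε i - ζ ^ ki i) ∈ (V c).nonunits := hJV i c hic' _ hdJ
    have h2 : γ i ^ n - 1 ∈ (V c).nonunits := pwi_congr_pow (V c) (hγ i c hic') n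
    have e : h₀ - ζ ^ ki i = (ε i - ζ ^ ki i) * γ i ^ n + ζ ^ ki i * (γ i ^ n - 1) := by
      rw [hh₀ε i]; ring
    rw [e]
    refine (V c).nonunits.add_mem ?_ (pwi_mul_mem_nonunits (V c) (pwi_root_mem (V c) hp hζ _) h2)
    rw [mul_comm]
    exact pwi_mul_mem_nonunits (V c) (pwi_mem_of_congr (V c) h2) h1
  -- the root of unity is the same on all components
  have hadj : ∀ c c', (∃ i, inc i c ∧ inc i c') → kc c = kc c' := by
    rintro c c' ⟨i, h1, h2⟩
    rw [← hik i c h1, ← hik i c' h2]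
  have hconst : ∀ c c', kc c = kc c' := by
    intro c c'
    induction hconn c c' with
    | refl => rfl
    | tail _ hbc ih => exact ih.trans (hadj _ _ hbc)
  -- the common exponent
  obtain ⟨k, hk⟩ : ∃ k, ∀ c, kc c = k := by
    by_cases hne : Nonempty κ
    · obtain ⟨c₀⟩ := hne
      exact ⟨kc c₀, fun c => hconst c c₀⟩
    · exact ⟨0, fun c => (hne ⟨c⟩).elim⟩
  have hz : ζ ^ k ≠ 0 := pow_ne_zero _ hζ0
  refine ⟨(ζ ^ k)⁻¹ * h₀, ?_, ?_, ?_⟩
  · rw [mul_pow, hh₀, inv_pow, ← pow_mul, mul_comm k p, pow_mul, hζ.pow_eq_one, one_pow, inv_one,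
      one_mul]
  · intro c
    have e : (ζ ^ k)⁻¹ * h₀ - 1 = (ζ ^ k)⁻¹ * (h₀ - ζ ^ k) := by
      field_simp
    rw [e]
    have := hkc' c
    rw [hk c] at this
    exact pwi_mul_mem_nonunits (V c) (pwi_root_inv_mem (V c) hp hζ k) this
  · intro i
    obtain ⟨c, hc⟩ := hpt i
    have hkik : ki i = k := (hik i c hc).trans (hk c)
    have hzinv : (ζ ^ k)⁻¹ ∈ O i := pwi_inv_pow_mem (O i) hp hζ.pow_eq_one (hζO i) k
    obtain ⟨hd, hdJ⟩ := hεJ i
    refine ⟨(ζ ^ k)⁻¹ * ε i, γ i, (O i).mul_mem hzinv (hεO i), ?_, hγ i, ?_⟩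
    · have e : (⟨(ζ ^ k)⁻¹ * ε i, (O i).mul_mem hzinv (hεO i)⟩ - 1 : O i) =
          ⟨(ζ ^ k)⁻¹, hzinv⟩ * ⟨ε i - ζ ^ ki i, hd⟩ := by
        apply Subtype.ext
        rw [AddSubgroupClass.coe_sub, Subring.coe_mul, Subring.coe_one]
        show (ζ ^ k)⁻¹ * ε i - 1 = (ζ ^ k)⁻¹ * (ε i - ζ ^ ki i)
        rw [hkik]
        field_simp
      rw [e]
      exact Ideal.mul_mem_left _ _ hdJ
    · rw [hh₀ε i]; ring

/-- **Step 2 (e)**: if every `w` of shape `p` is a `p`-th power, then every `w` of shape `p ^ r`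
is a `p ^ r`-th power. -/
theorem pwi_exists_pow_eq
    (hloc : ∀ i, IsLocalRing (O i)) (hJ : ∀ i, J i ≠ ⊤)
    (hic : ∀ i (x : F), IsIntegral (O i) x → x ∈ O i)
    (hJV : ∀ i c, inc i c → ∀ x : O i, x ∈ J i → (x : F) ∈ (V c).nonunits)
    (hpt : ∀ i, ∃ c, inc i c)
    (hconn : ∀ c c' : κ, Relation.ReflTransGen (fun a b => ∃ i, inc i a ∧ inc i b) c c')
    {p : ℕ} (hp : 0 < p) {ζ : F} (hζ : IsPrimitiveRoot ζ p)
    (hζO : ∀ i, ζ ∈ O i)
    (hζu : ∀ i k, 0 < k → k < p → (ζ ^ k - 1)⁻¹ ∈ O i)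
    (hζV : ∀ c k, 0 < k → k < p → ζ ^ k - 1 ∉ (V c).nonunits)
    (hP : ∀ w : F, PwiShape V O J inc p w → ∃ h : F, h ^ p = w)
    (r : ℕ) : ∀ w : F, PwiShape V O J inc (p ^ r) w → ∃ h : F, h ^ (p ^ r) = w := by
  induction r with
  | zero =>
    intro w _
    exact ⟨w, by rw [pow_zero, pow_one]⟩
  | succ r ih =>
    intro w hw
    have hw' : PwiShape V O J inc (p * p ^ r) w := by rwa [pow_succ'] at hw
    obtain ⟨h₀, hh₀⟩ := hP w hw'.of_mul
    obtain ⟨h', hh', hshape⟩ :=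
      pwi_step hloc hJ hic hJV hpt hconn hp hζ hζO hζu hζV hw' hh₀
    obtain ⟨h'', hh''⟩ := ih h' hshape
    refine ⟨h'', ?_⟩
    rw [pow_succ, pow_mul, hh'', hh']

end Main

end Fermat.Agent.UNIP
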