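/-
UNIP (S34/S35), direct route, piece D3 "LocalShape" = Step 1 (helper84).

Abstract setting.  `F` a field (the function field `F′ = E′(j_d)`), `σ τ : F →+* F` (two elements of
the inertia group acting on coefficients), `u ∈ F^×` with `m ∣ ord_P u` at the places of the tube
of a closed point `𝔫` of the special fibre, `w := (τ − 1)(σ − 1) u = τ(σu/u)/(σu/u)`.

* `ls_cheap`        : (β) for ONE vertical valuation ring `Ov`: if `σ f / f` is a unit of `Ov` and
                      `τ` is trivial on the residue field, then `(τ − 1)(σ − 1) f ∈ 1 + 𝔪`.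
                      No normalisation of `f`, no coordinates.
* `ls_tube_factor`  : bookkeeping in the tube.  `ι` = the height-one primes of `B_𝔫`,
                      `ord : ι → F → ℤ`, `σι : Perm ι` the action of `σ`.  If every point `i` of the
                      support of `u` that is moved by `σ` has a coordinate function `f_i`
                      (`ord j f_i = δ_ij` at the moved `j`; Lemma N), then `u = u₁ · g₀ ^ m` where
                      `σ u₁ / u₁` has order `0` at EVERY `j ∈ ι`.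
* `ls_shape`        : if `e := σ u₁ / u₁` is a unit of the local ring `R` (Lemma U) and `τ` is
                      trivial modulo `π` on `R`, then `w = ε · h ^ m`, `ε = τ e / e ∈ R^×`,
                      `ε − 1 ∈ π R`, `h = (τ − 1)(σ − 1) g₀`.
* `ls_local_shape`  : the three together.
* `ls_localSubring`, `ls_tau_localSubring`, `ls_exists_denominator` : the local ring `B_𝔫 ⊆ F` of a
                      chart `B` at a prime `𝔫 ∋ π`; `τ` trivial mod `π` on `B` ⇒ on `B_𝔫`;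
                      `ε ∈ 1 + π B_𝔫` ⇒ `∃ s ∉ 𝔫, c ∈ B : s ε = s + π c`.
* `ls_kummer_local` : the input of Step 2 (KummerSplit): `L ⊇ F`, `y ^ m = w = ε · h ^ m`,
                      `s ε = s + π c` ⇒ `T := s · y / h` is integral over `B` and
                      `s · y − T = T · (h − 1)`.
-/
import Mathlib
import Fermat.Agent.UNIP.PowerInd

set_option autoImplicit false

namespace Fermat.Agent.UNIP

section Cheap

variable {F : Type*} [Field F]

/-- **(β), abstract.**  `Ov` a valuation ring of `F`, `τ` trivial on its residue field.  If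
`x` is a unit of `Ov` then `τ x / x ∈ 1 + 𝔪`. -/
theorem ls_cheap_unit (Ov : ValuationSubring F) (τ : F →+* F)
    (hτ : ∀ x : F, x ∈ Ov → Ov.valuation (τ x - x) < 1)
    {x : F} (hx : Ov.valuation x = 1) :
    Ov.valuation (τ x / x - 1) < 1 := by
  have hx0 : x ≠ 0 := by
    intro h
    rw [h, map_zero] at hx
    exact zero_ne_one hx
  have hmem : x ∈ Ov := (Ov.valuation_le_one_iff x).mp hx.le
  have h1 : τ x / x - 1 = (τ x - x) / x := by
    field_simp
  rw [h1, map_div₀, hx, div_one]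
  exact hτ x hmem

/-- **(β), abstract.**  If `σ f / f` is a unit of `Ov` (`σ` preserves the valuation) and `τ` is
trivial on the residue field of `Ov`, then `(τ − 1)(σ − 1) f ∈ 1 + 𝔪`. -/
theorem ls_cheap (Ov : ValuationSubring F) (σ τ : F →+* F)
    (hτ : ∀ x : F, x ∈ Ov → Ov.valuation (τ x - x) < 1)
    {f : F} (hσ : Ov.valuation (σ f / f) = 1) :
    Ov.valuation (τ (σ f / f) / (σ f / f) - 1) < 1 :=
  ls_cheap_unit Ov τ hτ hσ

/-- `σ` preserves the valuation of `Ov` as soon as it is trivial on the residue field and there is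
a uniformizer `ϖ` (every `f ≠ 0` is `ϖ ^ k · unit`) with `σ ϖ / ϖ` a unit. -/
theorem ls_valuation_map_div_eq_one (Ov : ValuationSubring F) (σ : F →+* F)
    (hσ : ∀ x : F, x ∈ Ov → Ov.valuation (σ x - x) < 1)
    (ϖ : F) (hϖ : Ov.valuation (σ ϖ / ϖ) = 1)
    {f : F} (k : ℤ) (hf : Ov.valuation (f * ϖ ^ k) = 1) :
    Ov.valuation (σ f / f) = 1 := by
  have hϖ0 : ϖ ≠ 0 := by
    intro h
    rw [h, map_zero, div_zero, map_zero] at hϖ
    exact zero_ne_one hϖ
  have hσϖ0 : σ ϖ ≠ 0 := (map_ne_zero σ).mpr hϖ0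
  set x := f * ϖ ^ k with hxdef
  have hx0 : x ≠ 0 := by
    intro h
    rw [h, map_zero] at hf
    exact zero_ne_one hf
  have hf0 : f ≠ 0 := by
    intro h
    apply hx0
    rw [hxdef, h, zero_mul]
  have hxmem : x ∈ Ov := (Ov.valuation_le_one_iff x).mp hf.le
  -- `σ x / x` is a unit: `σ x = x + (σ x - x)`
  have h1 : Ov.valuation (σ x) = 1 := by
    have h2 : σ x = x + (σ x - x) := by ring
    rw [h2]
    have h3 : Ov.valuation (σ x - x) < Ov.valuation x := by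
      rw [hf]; exact hσ x hxmem
    rw [Valuation.map_add_eq_of_lt_left _ h3, hf]
  have h4 : σ f / f = (σ x / x) * ((σ ϖ / ϖ) ^ k)⁻¹ := by
    rw [hxdef, map_mul, map_zpow₀, div_zpow]
    field_simp
  rw [h4, map_mul, map_inv₀, map_zpow₀, hϖ, one_zpow, inv_one, mul_one, map_div₀, h1, hf, div_one]

/-- `1 + 𝔪` is closed under products. -/
theorem ls_one_mul (Ov : ValuationSubring F) {x y : F}
    (hx : Ov.valuation (x - 1) < 1) (hy : Ov.valuation (y - 1) < 1) :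
    Ov.valuation (x * y - 1) < 1 := by
  have hymem : Ov.valuation y ≤ 1 := by
    have h2 : y = (y - 1) + 1 := by ring
    rw [h2]
    refine le_trans (Valuation.map_add _ _ _) ?_
    rw [map_one]
    exact max_le hy.le le_rfl
  have h1 : x * y - 1 = (x - 1) * y + (y - 1) := by ring
  rw [h1]
  refine lt_of_le_of_lt (Valuation.map_add _ _ _) (max_lt ?_ hy)
  rw [map_mul]
  calc Ov.valuation (x - 1) * Ov.valuation y ≤ Ov.valuation (x - 1) * 1 :=
        mul_le_mul_right hymem _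
    _ = Ov.valuation (x - 1) := mul_one _
    _ < 1 := hx

/-- `1 + 𝔪` is closed under powers. -/
theorem ls_one_pow (Ov : ValuationSubring F) {x : F}
    (hx : Ov.valuation (x - 1) < 1) (n : ℕ) :
    Ov.valuation (x ^ n - 1) < 1 := by
  induction n with
  | zero => simp
  | succ n ih =>
    rw [pow_succ]
    exact ls_one_mul Ov ih hx

end Cheap

section Tube

variable {F : Type*} [Field F] {ι : Type*}

theorem ls_ord_one (ord : ι → F → ℤ)
    (hmul : ∀ i x y, x ≠ 0 → y ≠ 0 → ord i (x * y) = ord i x + ord i y) (i : ι) :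
    ord i 1 = 0 := by
  have h := hmul i 1 1 one_ne_zero one_ne_zero
  rw [mul_one] at h
  linarith

theorem ls_ord_inv (ord : ι → F → ℤ)
    (hmul : ∀ i x y, x ≠ 0 → y ≠ 0 → ord i (x * y) = ord i x + ord i y) (i : ι)
    {x : F} (hx : x ≠ 0) : ord i x⁻¹ = -ord i x := by
  have h := hmul i x x⁻¹ hx (inv_ne_zero hx)
  rw [mul_inv_cancel₀ hx, ls_ord_one ord hmul i] at h
  linarith

theorem ls_ord_div (ord : ι → F → ℤ)
    (hmul : ∀ i x y, x ≠ 0 → y ≠ 0 → ord i (x * y) = ord i x + ord i y) (i : ι)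
    {x y : F} (hx : x ≠ 0) (hy : y ≠ 0) : ord i (x / y) = ord i x - ord i y := by
  rw [div_eq_mul_inv, hmul i x y⁻¹ hx (inv_ne_zero hy), ls_ord_inv ord hmul i hy]
  ring

theorem ls_ord_pow (ord : ι → F → ℤ)
    (hmul : ∀ i x y, x ≠ 0 → y ≠ 0 → ord i (x * y) = ord i x + ord i y) (i : ι)
    {x : F} (hx : x ≠ 0) (n : ℕ) : ord i (x ^ n) = n * ord i x := by
  induction n with
  | zero => simp [ls_ord_one ord hmul i]
  | succ n ih =>
    rw [pow_succ, hmul i _ _ (pow_ne_zero n hx) hx, ih]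
    push_cast
    ring

theorem ls_ord_zpow (ord : ι → F → ℤ)
    (hmul : ∀ i x y, x ≠ 0 → y ≠ 0 → ord i (x * y) = ord i x + ord i y) (i : ι)
    {x : F} (hx : x ≠ 0) (n : ℤ) : ord i (x ^ n) = n * ord i x := by
  obtain ⟨k, rfl | rfl⟩ := n.eq_nat_or_neg
  · rw [zpow_natCast, ls_ord_pow ord hmul i hx]
  · rw [zpow_neg, zpow_natCast, ls_ord_inv ord hmul i (pow_ne_zero k hx),
      ls_ord_pow ord hmul i hx]
    ring

theorem ls_ord_prod (ord : ι → F → ℤ)
    (hmul : ∀ i x y, x ≠ 0 → y ≠ 0 → ord i (x * y) = ord i x + ord i y) (i : ι)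
    {κ : Type*} (S : Finset κ) (f : κ → F) (hf : ∀ k ∈ S, f k ≠ 0) :
    ord i (∏ k ∈ S, f k) = ∑ k ∈ S, ord i (f k) := by
  classical
  induction S using Finset.induction_on with
  | empty => simp [ls_ord_one ord hmul i]
  | insert a S ha ih =>
    have hfa : f a ≠ 0 := hf a (Finset.mem_insert_self a S)
    have hfS : ∀ k ∈ S, f k ≠ 0 := fun k hk => hf k (Finset.mem_insert_of_mem hk)
    rw [Finset.prod_insert ha, Finset.sum_insert ha,
      hmul i _ _ hfa (Finset.prod_ne_zero_iff.mpr hfS), ih hfS]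

/-- **Step 1, bookkeeping in the tube.**  `ι` indexes the height-one primes of the local ring at a
closed point `𝔫` (horizontal and vertical), `ord i` the corresponding orders, `σι` the permutation
induced by `σ`.  Assume that every `i` in the support of `u` which is MOVED by `σ` has multiplicity
divisible by `m` and has a coordinate function `f` (a function whose divisor on the moved part
of the tube is `1 · i`).  Then `u = u₁ · g₀ ^ m` with `u₁` of order `0` at all moved `j`, and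
`σ u₁ / u₁` has order `0` at EVERY `j`. -/
theorem ls_tube_factor (σ : F →+* F) (ord : ι → F → ℤ)
    (hmul : ∀ i x y, x ≠ 0 → y ≠ 0 → ord i (x * y) = ord i x + ord i y)
    (σι : Equiv.Perm ι) (hσ : ∀ i x, x ≠ 0 → ord (σι i) (σ x) = ord i x)
    {u : F} (hu : u ≠ 0) (m : ℕ)
    (hfin : {i | σι i ≠ i ∧ ord i u ≠ 0}.Finite)
    (hm : ∀ i, σι i ≠ i → (m : ℤ) ∣ ord i u)
    (hcoord : ∀ i, σι i ≠ i → ord i u ≠ 0 →
      ∃ f : F, f ≠ 0 ∧ ord i f = 1 ∧ ∀ j, σι j ≠ j → j ≠ i → ord j f = 0) :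
    ∃ g₀ : F, g₀ ≠ 0 ∧ (∀ j, σι j ≠ j → ord j (u / g₀ ^ m) = 0) ∧
      ∀ j, ord j (σ (u / g₀ ^ m) / (u / g₀ ^ m)) = 0 := by
  classical
  -- the coordinate functions
  have hc : ∀ i : ι, ∃ f : F, f ≠ 0 ∧
      (σι i ≠ i → ord i u ≠ 0 → ∀ j, σι j ≠ j → ord j f = if j = i then 1 else 0) := by
    intro i
    by_cases h1 : σι i ≠ i ∧ ord i u ≠ 0
    · obtain ⟨f, hf0, hf1, hf⟩ := hcoord i h1.1 h1.2
      refine ⟨f, hf0, fun _ _ j hj => ?_⟩
      by_cases hji : j = i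
      · rw [if_pos hji, hji]; exact hf1
      · rw [if_neg hji]; exact hf j hj hji
    · exact ⟨1, one_ne_zero, fun h2 h3 => absurd ⟨h2, h3⟩ h1⟩
  choose f hf0 hf using hc
  set S : Finset ι := hfin.toFinset with hS
  have hmemS : ∀ i, i ∈ S ↔ σι i ≠ i ∧ ord i u ≠ 0 := fun i => by
    rw [hS, Set.Finite.mem_toFinset]; rfl
  -- the multiplicities
  set n : ι → ℤ := fun i => ord i u / (m : ℤ) with hn
  have hmn : ∀ i, σι i ≠ i → (m : ℤ) * n i = ord i u := fun i hi =>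
    Int.mul_ediv_cancel' (hm i hi)
  set g₀ : F := ∏ i ∈ S, f i ^ n i with hg₀
  have hg₀0 : g₀ ≠ 0 :=
    Finset.prod_ne_zero_iff.mpr fun i _ => zpow_ne_zero _ (hf0 i)
  have hordg : ∀ j, σι j ≠ j → (m : ℤ) * ord j g₀ = ord j u := by
    intro j hj
    rw [hg₀, ls_ord_prod ord hmul j S _ (fun i _ => zpow_ne_zero _ (hf0 i))]
    have h1 : ∀ i ∈ S, ord j (f i ^ n i) = if j = i then n i else 0 := by
      intro i hi
      rw [ls_ord_zpow ord hmul j (hf0 i), hf i ((hmemS i).mp hi).1 ((hmemS i).mp hi).2 j hj]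
      split_ifs <;> simp
    rw [Finset.sum_congr rfl h1, Finset.sum_ite_eq S j]
    by_cases hjS : j ∈ S
    · rw [if_pos hjS, hmn j hj]
    · rw [if_neg hjS, mul_zero]
      by_contra hne
      exact hjS ((hmemS j).mpr ⟨hj, fun h0 => hne h0.symm⟩)
  have hu₁0 : u / g₀ ^ m ≠ 0 := div_ne_zero hu (pow_ne_zero _ hg₀0)
  have hord₁ : ∀ j, σι j ≠ j → ord j (u / g₀ ^ m) = 0 := by
    intro j hj
    rw [ls_ord_div ord hmul j hu (pow_ne_zero _ hg₀0), ls_ord_pow ord hmul j hg₀0,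
      hordg j hj, sub_self]
  refine ⟨g₀, hg₀0, hord₁, fun j => ?_⟩
  rw [ls_ord_div ord hmul j ((map_ne_zero σ).mpr hu₁0) hu₁0]
  have h2 : ord j (σ (u / g₀ ^ m)) = ord (σι.symm j) (u / g₀ ^ m) := by
    have := hσ (σι.symm j) (u / g₀ ^ m) hu₁0
    rwa [Equiv.apply_symm_apply] at this
  rw [h2]
  by_cases hj : σι j = j
  · have : σι.symm j = j := by
      rw [Equiv.symm_apply_eq]; exact hj.symm
    rw [this, sub_self]
  · have hj' : σι (σι.symm j) ≠ σι.symm j := by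
      rw [Equiv.apply_symm_apply]
      intro h
      apply hj
      have h' := congrArg σι h
      rw [Equiv.apply_symm_apply] at h'
      exact h' 
    rw [hord₁ j hj, hord₁ _ hj', sub_self]

end Tube

section Shape

variable {F : Type*} [Field F]

/-- **Step 1, the shape.**  `R ⊆ F` the local ring at `𝔫`, `τ` trivial modulo `π` on `R`.  If
`σ u / u = e · (σ g₀ / g₀) ^ m` with `e ∈ R^×`, then
`w := (τ − 1)(σ − 1) u = ε · h ^ m`, `ε := τ e / e ∈ R^×`, `ε − 1 ∈ π R`,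
`h := (τ − 1)(σ − 1) g₀`. -/
theorem ls_shape (R : Subring F) (π : F) (hπ : π ∈ R) (σ τ : F →+* F)
    (hτ : ∀ x ∈ R, ∃ c ∈ R, τ x - x = π * c)
    {u g₀ e : F} (hu : u ≠ 0) (hg₀ : g₀ ≠ 0) (m : ℕ)
    (he : e ∈ R) (he' : e⁻¹ ∈ R) (hfac : σ (u / g₀ ^ m) / (u / g₀ ^ m) = e) :
    ∃ ε : F, ε ∈ R ∧ ε⁻¹ ∈ R ∧ (∃ c ∈ R, ε - 1 = π * c) ∧
      τ (σ u / u) / (σ u / u) = ε * (τ (σ g₀ / g₀) / (σ g₀ / g₀)) ^ m := by
  have hσu : σ u ≠ 0 := (map_ne_zero σ).mpr hu
  have hσg : σ g₀ ≠ 0 := (map_ne_zero σ).mpr hg₀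
  have he0 : e ≠ 0 := by
    rw [← hfac]
    exact div_ne_zero ((map_ne_zero σ).mpr (div_ne_zero hu (pow_ne_zero _ hg₀)))
      (div_ne_zero hu (pow_ne_zero _ hg₀))
  have hτe0 : τ e ≠ 0 := (map_ne_zero τ).mpr he0
  have hτR : ∀ x ∈ R, τ x ∈ R := by
    intro x hx
    obtain ⟨c, hc, hxc⟩ := hτ x hx
    have : τ x = x + π * c := by rw [← hxc]; ring
    rw [this]
    exact R.add_mem hx (R.mul_mem hπ hc)
  have hsu : σ u / u = e * (σ g₀ / g₀) ^ m := by
    rw [← hfac, map_div₀, map_pow, div_pow]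
    field_simp
  refine ⟨τ e / e, ?_, ?_, ?_, ?_⟩
  · rw [div_eq_mul_inv]
    exact R.mul_mem (hτR e he) he'
  · rw [inv_div, div_eq_mul_inv, ← map_inv₀]
    exact R.mul_mem he (hτR _ he')
  · obtain ⟨c, hc, hec⟩ := hτ e he
    refine ⟨c * e⁻¹, R.mul_mem hc he', ?_⟩
    have : τ e / e - 1 = (τ e - e) * e⁻¹ := by field_simp
    rw [this, hec]
    ring
  · rw [hsu, map_mul, map_pow]
    have hx : (σ g₀ / g₀) ≠ 0 := div_ne_zero hσg hg₀
    have hτx : τ (σ g₀ / g₀) ≠ 0 := (map_ne_zero τ).mpr hx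
    generalize σ g₀ / g₀ = x at hx hτx ⊢
    rw [div_pow]
    field_simp

/-- **Step 1, the shape**, version with an ideal `J` of the local ring `R` on which `τ` acts
trivially modulo `J` (no uniformizer). -/
theorem ls_shape_ideal (R : Subring F) (J : Ideal R) (σ τ : F →+* F)
    (hτ : ∀ x : R, ∃ h : τ (x : F) ∈ R, (⟨τ (x : F), h⟩ - x : R) ∈ J)
    {u g₀ e : F} (hu : u ≠ 0) (hg₀ : g₀ ≠ 0) (m : ℕ)
    (he : e ∈ R) (he' : e⁻¹ ∈ R) (hfac : σ (u / g₀ ^ m) / (u / g₀ ^ m) = e) :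
    ∃ ε : F, ∃ hε : ε ∈ R, (⟨ε, hε⟩ - 1 : R) ∈ J ∧
      τ (σ u / u) / (σ u / u) = ε * (τ (σ g₀ / g₀) / (σ g₀ / g₀)) ^ m := by
  have hσu : σ u ≠ 0 := (map_ne_zero σ).mpr hu
  have hσg : σ g₀ ≠ 0 := (map_ne_zero σ).mpr hg₀
  have he0 : e ≠ 0 := by
    rw [← hfac]
    exact div_ne_zero ((map_ne_zero σ).mpr (div_ne_zero hu (pow_ne_zero _ hg₀)))
      (div_ne_zero hu (pow_ne_zero _ hg₀))
  have hτe0 : τ e ≠ 0 := (map_ne_zero τ).mpr he0
  have hsu : σ u / u = e * (σ g₀ / g₀) ^ m := by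
    rw [← hfac, map_div₀, map_pow, div_pow]
    field_simp
  obtain ⟨hτe, hJ⟩ := hτ ⟨e, he⟩
  have hε : τ e / e ∈ R := by
    rw [div_eq_mul_inv]
    exact R.mul_mem hτe he'
  refine ⟨τ e / e, hε, ?_, ?_⟩
  · have h1 : (⟨τ e / e, hε⟩ - 1 : R) = (⟨τ e, hτe⟩ - ⟨e, he⟩) * ⟨e⁻¹, he'⟩ := by
      apply Subtype.ext
      push_cast
      field_simp
    rw [h1]
    exact Ideal.mul_mem_right _ _ hJ
  · rw [hsu, map_mul, map_pow]
    have hx : (σ g₀ / g₀) ≠ 0 := div_ne_zero hσg hg₀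
    have hτx : τ (σ g₀ / g₀) ≠ 0 := (map_ne_zero τ).mpr hx
    generalize σ g₀ / g₀ = x at hx hτx ⊢
    rw [div_pow]
    field_simp

end Shape

section Pwi

variable {F : Type*} [Field F] {κ ι : Type*}

/-- **D3, output = input of D5 / D4.**  `V c` the vertical valuation rings, `O i` the local rings of
the closed points, `J i = π′ O i`.  Assume
* `σ` preserves the valuations `V c` and `τ` is trivial on their residue fields;
* `τ` is trivial modulo `J i` on `O i`;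
* at every closed point `i` there is `g₀` with `σ u₁ / u₁ ∈ (O i)^×`, `u₁ := u / g₀ ^ m`
  (`ls_tube_factor` + Lemma U).
Then `w := (τ − 1)(σ − 1) u` has the local shape for the exponent `m`; moreover the `γ` of the
shape is `≡ 1` at ALL vertical valuations. -/
theorem ls_pwiShape (V : κ → ValuationSubring F) (O : ι → Subring F) (J : ∀ i, Ideal (O i))
    (inc : ι → κ → Prop) (σ τ : F →+* F)
    (hσV : ∀ c (f : F), f ≠ 0 → (V c).valuation (σ f / f) = 1)
    (hτV : ∀ c (x : F), x ∈ V c → τ x - x ∈ (V c).nonunits)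
    (hτO : ∀ i (x : O i), ∃ h : τ (x : F) ∈ O i, (⟨τ (x : F), h⟩ - x : O i) ∈ J i)
    (m : ℕ) {u : F} (hu : u ≠ 0)
    (hloc : ∀ i, ∃ g₀ e : F, g₀ ≠ 0 ∧ e ∈ O i ∧ e⁻¹ ∈ O i ∧
      σ (u / g₀ ^ m) / (u / g₀ ^ m) = e) :
    PwiShape V O J inc m (τ (σ u / u) / (σ u / u)) := by
  have hτV' : ∀ c (x : F), x ∈ V c → (V c).valuation (τ x - x) < 1 := fun c x hx =>
    (ValuationSubring.mem_nonunits_iff (V c)).mp (hτV c x hx)
  have hcheap : ∀ c (f : F), f ≠ 0 →
      τ (σ f / f) / (σ f / f) - 1 ∈ (V c).nonunits := fun c f hf =>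
    (ValuationSubring.mem_nonunits_iff (V c)).mpr (ls_cheap (V c) σ τ (hτV' c) (hσV c f hf))
  refine ⟨fun c => hcheap c u hu, fun i => ?_⟩
  obtain ⟨g₀, e, hg₀, he, he', hfac⟩ := hloc i
  obtain ⟨ε, hε, hεJ, hw⟩ := ls_shape_ideal (O i) (J i) σ τ (hτO i) hu hg₀ m he he' hfac
  exact ⟨ε, τ (σ g₀ / g₀) / (σ g₀ / g₀), hε, hεJ, fun c _ => hcheap c g₀ hg₀, hw⟩

/-- **D3 = Step 1, abstract theorem.**  As `ls_pwiShape`, with the local factorisations produced
from coordinates in the tubes: for every closed point `i` a tube `T i` (the height-one primes of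
`O i`) with order functions, the permutation induced by `σ`, coordinate functions at the points
of the support of `u` moved by `σ` (Lemma N), and the unit criterion (Lemma U). -/
theorem ls_pwiShape_of_tube (V : κ → ValuationSubring F) (O : ι → Subring F)
    (J : ∀ i, Ideal (O i)) (inc : ι → κ → Prop) (σ τ : F →+* F)
    (hσV : ∀ c (f : F), f ≠ 0 → (V c).valuation (σ f / f) = 1)
    (hτV : ∀ c (x : F), x ∈ V c → τ x - x ∈ (V c).nonunits)
    (hτO : ∀ i (x : O i), ∃ h : τ (x : F) ∈ O i, (⟨τ (x : F), h⟩ - x : O i) ∈ J i)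
    (m : ℕ) {u : F} (hu : u ≠ 0)
    {T : ι → Type*} (ord : ∀ i, T i → F → ℤ)
    (hmul : ∀ i (j : T i) (x y : F), x ≠ 0 → y ≠ 0 → ord i j (x * y) = ord i j x + ord i j y)
    (σT : ∀ i, Equiv.Perm (T i))
    (hσT : ∀ i (j : T i) (x : F), x ≠ 0 → ord i (σT i j) (σ x) = ord i j x)
    (hfin : ∀ i, {j | σT i j ≠ j ∧ ord i j u ≠ 0}.Finite)
    (hm : ∀ i (j : T i), σT i j ≠ j → (m : ℤ) ∣ ord i j u)
    (hcoord : ∀ i (j : T i), σT i j ≠ j → ord i j u ≠ 0 →
      ∃ f : F, f ≠ 0 ∧ ord i j f = 1 ∧ ∀ j', σT i j' ≠ j' → j' ≠ j → ord i j' f = 0)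
    (hU : ∀ i (x : F), x ≠ 0 → (∀ j, ord i j x = 0) →
      (∀ c, inc i c → (V c).valuation x = 1) → x ∈ O i ∧ x⁻¹ ∈ O i) :
    PwiShape V O J inc m (τ (σ u / u) / (σ u / u)) := by
  refine ls_pwiShape V O J inc σ τ hσV hτV hτO m hu fun i => ?_
  obtain ⟨g₀, hg₀, -, hord⟩ := ls_tube_factor σ (ord i) (hmul i) (σT i) (hσT i) hu m (hfin i)
    (hm i) (hcoord i)
  have hu₁ : u / g₀ ^ m ≠ 0 := div_ne_zero hu (pow_ne_zero _ hg₀)
  have he0 : σ (u / g₀ ^ m) / (u / g₀ ^ m) ≠ 0 := div_ne_zero ((map_ne_zero σ).mpr hu₁) hu₁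
  obtain ⟨he, he'⟩ := hU i _ he0 hord fun c _ => hσV c _ hu₁
  exact ⟨g₀, _, hg₀, he, he', rfl⟩

end Pwi

section Local

variable {F : Type*} [Field F] {B : Type*} [CommRing B] [Algebra B F]

/-- The local ring `B_𝔫` of a chart `B` at a prime `𝔫`, as a subring of `F`:
`{x | ∃ b s, s ∉ 𝔫 ∧ s x = b}`. -/
def ls_localSubring (𝔫 : Ideal B) [h𝔫 : 𝔫.IsPrime] : Subring F where
  carrier := {x | ∃ b s : B, s ∉ 𝔫 ∧ algebraMap B F s * x = algebraMap B F b}
  mul_mem' := by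
    rintro x y ⟨b, s, hs, hx⟩ ⟨b', s', hs', hy⟩
    refine ⟨b * b', s * s', fun h => ?_, ?_⟩
    · rcases h𝔫.mem_or_mem h with h' | h'
      · exact hs h'
      · exact hs' h'
    · rw [map_mul, map_mul, ← hx, ← hy]; ring
  one_mem' := ⟨1, 1, fun h => h𝔫.ne_top ((Ideal.eq_top_iff_one 𝔫).mpr h), by simp⟩
  add_mem' := by
    rintro x y ⟨b, s, hs, hx⟩ ⟨b', s', hs', hy⟩
    refine ⟨b * s' + b' * s, s * s', fun h => ?_, ?_⟩
    · rcases h𝔫.mem_or_mem h with h' | h'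
      · exact hs h'
      · exact hs' h'
    · rw [map_add, map_mul, map_mul, map_mul, ← hx, ← hy]; ring
  zero_mem' := ⟨0, 1, fun h => h𝔫.ne_top ((Ideal.eq_top_iff_one 𝔫).mpr h), by simp⟩
  neg_mem' := by
    rintro x ⟨b, s, hs, hx⟩
    exact ⟨-b, s, hs, by rw [map_neg, ← hx]; ring⟩

theorem ls_mem_localSubring (𝔫 : Ideal B) [𝔫.IsPrime] {x : F} :
    x ∈ ls_localSubring (F := F) 𝔫 ↔
      ∃ b s : B, s ∉ 𝔫 ∧ algebraMap B F s * x = algebraMap B F b :=
  Iff.rfl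

theorem ls_algebraMap_mem (𝔫 : Ideal B) [h𝔫 : 𝔫.IsPrime] (b : B) :
    algebraMap B F b ∈ ls_localSubring (F := F) 𝔫 :=
  ⟨b, 1, fun h => h𝔫.ne_top ((Ideal.eq_top_iff_one 𝔫).mpr h), by simp⟩

/-- The output of Lemma U (`s ε = t`, `s, t ∉ 𝔫`) says that `ε` is a unit of `B_𝔫`. -/
theorem ls_unit_mem_localSubring (hinj : Function.Injective (algebraMap B F))
    (𝔫 : Ideal B) [𝔫.IsPrime] {ε : F} {s t : B} (hs : s ∉ 𝔫) (ht : t ∉ 𝔫)
    (h : algebraMap B F s * ε = algebraMap B F t) :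
    ε ∈ ls_localSubring (F := F) 𝔫 ∧ ε⁻¹ ∈ ls_localSubring (F := F) 𝔫 := by
  refine ⟨⟨t, s, hs, h⟩, ⟨s, t, ht, ?_⟩⟩
  have ht0 : algebraMap B F t ≠ 0 := fun h0 =>
    ht (by rw [hinj (h0.trans (map_zero _).symm)]; exact 𝔫.zero_mem)
  have hε : ε ≠ 0 := by
    rintro rfl
    rw [mul_zero] at h
    exact ht0 h.symm
  rw [← h]
  field_simp

/-- The ideal `ϖ · B_𝔫` of `B_𝔫`. -/
def ls_localIdeal (𝔫 : Ideal B) [𝔫.IsPrime] (ϖ : B) : Ideal (ls_localSubring (F := F) 𝔫) :=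
  Ideal.span {⟨algebraMap B F ϖ, ls_algebraMap_mem 𝔫 ϖ⟩}

theorem ls_mem_localIdeal (𝔫 : Ideal B) [𝔫.IsPrime] (ϖ : B)
    {x : ls_localSubring (F := F) 𝔫} :
    x ∈ ls_localIdeal (F := F) 𝔫 ϖ ↔
      ∃ y ∈ ls_localSubring (F := F) 𝔫, (x : F) = algebraMap B F ϖ * y := by
  rw [ls_localIdeal, Ideal.mem_span_singleton']
  constructor
  · rintro ⟨a, ha⟩
    refine ⟨a, a.2, ?_⟩
    rw [← ha]
    push_cast
    ring
  · rintro ⟨y, hy, hxy⟩
    refine ⟨⟨y, hy⟩, Subtype.ext ?_⟩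
    push_cast
    rw [hxy]
    ring

/-- If `τ` is trivial modulo `ϖ` on the chart `B` and `ϖ ∈ 𝔫`, then `τ` preserves `B_𝔫` and is
trivial modulo `ϖ B_𝔫`. -/
theorem ls_tau_localSubring (hinj : Function.Injective (algebraMap B F))
    (𝔫 : Ideal B) [h𝔫 : 𝔫.IsPrime] (ϖ : B) (hϖ : ϖ ∈ 𝔫) (τ : F →+* F)
    (hτB : ∀ b : B, ∃ c : B, τ (algebraMap B F b) = algebraMap B F (b + ϖ * c))
    (x : ls_localSubring (F := F) 𝔫) :
    ∃ h : τ (x : F) ∈ ls_localSubring (F := F) 𝔫,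
      (⟨τ (x : F), h⟩ - x : ls_localSubring (F := F) 𝔫) ∈ ls_localIdeal (F := F) 𝔫 ϖ := by
  obtain ⟨x, b, s, hs, hx⟩ := x
  obtain ⟨cs, hcs⟩ := hτB s
  obtain ⟨cb, hcb⟩ := hτB b
  have hs' : s + ϖ * cs ∉ 𝔫 := fun h => hs (by
    have h2 : s = (s + ϖ * cs) - ϖ * cs := by ring
    rw [h2]
    exact 𝔫.sub_mem h (𝔫.mul_mem_right _ hϖ))
  have hτx : algebraMap B F (s + ϖ * cs) * τ x = algebraMap B F (b + ϖ * cb) := by
    rw [← hcs, ← hcb, ← map_mul, hx]
  have hmem : τ x ∈ ls_localSubring (F := F) 𝔫 := ⟨_, _, hs', hτx⟩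
  refine ⟨hmem, ?_⟩
  have hss' : s * (s + ϖ * cs) ∉ 𝔫 := fun h => by
    rcases h𝔫.mem_or_mem h with h' | h'
    · exact hs h'
    · exact hs' h'
  have hne : algebraMap B F (s * (s + ϖ * cs)) ≠ 0 := fun h0 =>
    hss' (by rw [hinj (h0.trans (map_zero _).symm)]; exact 𝔫.zero_mem)
  rw [ls_mem_localIdeal]
  refine ⟨algebraMap B F (s * cb - cs * b) / algebraMap B F (s * (s + ϖ * cs)),
    ⟨s * cb - cs * b, s * (s + ϖ * cs), hss', by field_simp⟩, ?_⟩
  show τ x - x = _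
  have h1 : algebraMap B F (s * (s + ϖ * cs)) * (τ x - x)
      = algebraMap B F ϖ * algebraMap B F (s * cb - cs * b) := by
    have e1 : algebraMap B F (s * (s + ϖ * cs)) * (τ x - x)
        = algebraMap B F s * (algebraMap B F (s + ϖ * cs) * τ x)
          - algebraMap B F (s + ϖ * cs) * (algebraMap B F s * x) := by
      rw [map_mul]; ring
    rw [e1, hτx, hx, ← map_mul, ← map_mul, ← map_sub, ← map_mul]
    congr 1
    ring
  field_simp
  linear_combination h1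

end Local

section Kummer

variable {F : Type*} [Field F] {B : Type*} [CommRing B] [Algebra B F]
  {L : Type*} [Field L] [Algebra F L] [Algebra B L] [IsScalarTower B F L]

/-- **Step 1 ⇒ input of Step 2.**  `w = ε · γ ^ m` in `F` with `ε ∈ B_𝔫`, and `y ∈ L ⊇ F` with
`y ^ m = w`: there are `s ∈ B ∖ 𝔫` and `T ∈ L` integral over `B` with `T = s · y / γ`, so
`s · y − T = T · (γ − 1)`. -/
theorem ls_kummer_local (𝔫 : Ideal B) [𝔫.IsPrime] {m : ℕ} (hm : m ≠ 0)
    {w ε γ : F} (hγ : γ ≠ 0) (hε : ε ∈ ls_localSubring (F := F) 𝔫) (hw : w = ε * γ ^ m)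
    {y : L} (hy : y ^ m = algebraMap F L w) :
    ∃ s : B, s ∉ 𝔫 ∧ ∃ T : L, IsIntegral B T ∧
      T * algebraMap F L γ = algebraMap B L s * y ∧
      algebraMap B L s * y - T = T * (algebraMap F L γ - 1) := by
  obtain ⟨b, s, hs, hsε⟩ := hε
  have hγL : algebraMap F L γ ≠ 0 := (map_ne_zero _).mpr hγ
  refine ⟨s, hs, algebraMap B L s * y / algebraMap F L γ, ?_, by field_simp, by field_simp⟩
  -- `T ^ m = s ^ (m - 1) * b`
  have hT : (algebraMap B L s * y / algebraMap F L γ) ^ m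
      = algebraMap B L (s ^ (m - 1) * b) := by
    have h1 : algebraMap B L b = algebraMap B L s * algebraMap F L ε := by
      rw [IsScalarTower.algebraMap_apply B F L, IsScalarTower.algebraMap_apply B F L, ← hsε,
        map_mul]
    have h2 : algebraMap B L s ^ m = algebraMap B L s ^ (m - 1) * algebraMap B L s := by
      rw [← pow_succ, Nat.sub_add_cancel (Nat.one_le_iff_ne_zero.mpr hm)]
    rw [div_pow, mul_pow, hy, hw, map_mul, map_pow, map_mul, map_pow, h1, h2]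
    field_simp
  refine ⟨Polynomial.X ^ m - Polynomial.C (s ^ (m - 1) * b),
    Polynomial.monic_X_pow_sub_C _ hm, ?_⟩
  rw [Polynomial.eval₂_sub, Polynomial.eval₂_pow, Polynomial.eval₂_X, Polynomial.eval₂_C, hT,
    sub_self]

end Kummer

end Fermat.Agent.UNIP
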