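/-
UNIP / U8 (helper16), bridge from "totally ramified" to "Eisenstein".

`A₀` a DVR with uniformizer `π`, `A'` a domain over `A₀`, `π' ∈ A'` a nonzero nonunit with
`π' ^ e ∣ π` (ramification index at least `e`).  If `π'` is a root of a monic `g ∈ A₀[X]` of
degree `≤ e`, then `deg g = e` and `g` is Eisenstein at `(π)`.
-/
import Mathlib

set_option autoImplicit false

open Polynomial

namespace Fermat.Agent.UNIP

section Ram

variable {A₀ A' : Type*} [CommRing A₀] [IsDomain A₀] [IsDiscreteValuationRing A₀]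
  [CommRing A'] [IsDomain A'] [Algebra A₀ A']

omit [IsDomain A'] in
/-- In a DVR, an element not divisible by the uniformizer is a unit. -/
theorem nbc_isUnit_of_not_dvd {π : A₀} (hπ : Irreducible π) {a : A₀} (h : ¬ π ∣ a) :
    IsUnit a := by
  by_contra hu
  have hm : a ∈ IsLocalRing.maximalIdeal A₀ := (IsLocalRing.mem_maximalIdeal a).2 hu
  rw [Irreducible.maximalIdeal_eq hπ] at hm
  exact h (Ideal.mem_span_singleton.1 hm)

/-- All lower coefficients of `g` are divisible by `π`. -/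
theorem nbc_ram_dvd_coeff {π : A₀} (hπ : Irreducible π) {π' : A'} (hπ'0 : π' ≠ 0)
    (hπ'u : ¬ IsUnit π') {e : ℕ} (hram : π' ^ e ∣ algebraMap A₀ A' π)
    (g : A₀[X]) (hroot : aeval π' g = 0) (hdeg : g.natDegree ≤ e) :
    ∀ i, i < g.natDegree → π ∣ g.coeff i := by
  classical
  by_contra hcon
  push Not at hcon
  have hex : ∃ j, j < g.natDegree ∧ ¬ π ∣ g.coeff j := hcon
  set j := Nat.find hex with hj
  obtain ⟨hjm, hjn⟩ := Nat.find_spec hex
  have hmin : ∀ i, i < j → π ∣ g.coeff i := by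
    intro i hi
    by_contra h
    exact Nat.find_min hex hi ⟨lt_trans hi hjm, h⟩
  -- the sum
  have hsum : ∑ i ∈ Finset.range (g.natDegree + 1), algebraMap A₀ A' (g.coeff i) * π' ^ i = 0 := by
    rw [← hroot, aeval_eq_sum_range]
    simp [Algebra.smul_def]
  have hjmem : j ∈ Finset.range (g.natDegree + 1) := Finset.mem_range.2 (by omega)
  rw [← Finset.add_sum_erase _ _ hjmem] at hsum
  have hdvd : π' ^ (j + 1) ∣
      ∑ i ∈ (Finset.range (g.natDegree + 1)).erase j, algebraMap A₀ A' (g.coeff i) * π' ^ i := by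
    apply Finset.dvd_sum
    intro i hi
    rw [Finset.mem_erase, Finset.mem_range] at hi
    rcases lt_or_gt_of_ne hi.1 with h | h
    · -- `i < j`
      obtain ⟨c, hc⟩ := hmin i h
      rw [hc, map_mul]
      refine Dvd.dvd.mul_right (Dvd.dvd.mul_right (dvd_trans (pow_dvd_pow _ ?_) hram) _) _
      omega
    · -- `j < i`
      exact Dvd.dvd.mul_left (pow_dvd_pow _ (by omega)) _
  have h1 : π' ^ (j + 1) ∣ algebraMap A₀ A' (g.coeff j) * π' ^ j := by
    have : algebraMap A₀ A' (g.coeff j) * π' ^ j =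
        -∑ i ∈ (Finset.range (g.natDegree + 1)).erase j,
          algebraMap A₀ A' (g.coeff i) * π' ^ i := by
      linear_combination hsum
    rw [this]
    exact (dvd_neg).2 hdvd
  rw [pow_succ, mul_comm (algebraMap A₀ A' (g.coeff j))] at h1
  have h2 : π' ∣ algebraMap A₀ A' (g.coeff j) :=
    (mul_dvd_mul_iff_left (pow_ne_zero j hπ'0)).1 h1
  have h3 : IsUnit (algebraMap A₀ A' (g.coeff j)) := (nbc_isUnit_of_not_dvd hπ hjn).map _
  exact hπ'u (isUnit_of_dvd_unit h2 h3)

/-- **Bridge**: a monic polynomial of degree `≤ e` with root `π'`, where `π' ^ e ∣ π`, has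
degree exactly `e` and is Eisenstein at `(π)`. -/
theorem nbc_ram_isEisensteinAt {π : A₀} (hπ : Irreducible π) {π' : A'} (hπ'0 : π' ≠ 0)
    (hπ'u : ¬ IsUnit π') {e : ℕ} (hram : π' ^ e ∣ algebraMap A₀ A' π)
    (g : A₀[X]) (hgm : g.Monic) (hroot : aeval π' g = 0) (hdeg : g.natDegree ≤ e) :
    g.IsEisensteinAt (Ideal.span {π}) ∧ g.natDegree = e := by
  classical
  have hcoeff := nbc_ram_dvd_coeff hπ hπ'0 hπ'u hram g hroot hdeg
  have hm1 : 0 < g.natDegree := by
    rcases Nat.eq_zero_or_pos g.natDegree with h0 | h0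
    · exfalso
      have h1 : g = 1 := hgm.natDegree_eq_zero.1 h0
      rw [h1] at hroot
      simp at hroot
    · exact h0
  have hsum : ∑ i ∈ Finset.range (g.natDegree + 1), algebraMap A₀ A' (g.coeff i) * π' ^ i = 0 := by
    rw [← hroot, aeval_eq_sum_range]
    simp [Algebra.smul_def]
  obtain ⟨m', hm'⟩ : ∃ m', g.natDegree = m' + 1 := ⟨g.natDegree - 1, by omega⟩
  have hlead : g.coeff (m' + 1) = 1 := by rw [← hm']; exact hgm.coeff_natDegree
  rw [hm', Finset.sum_range_succ, Finset.sum_range_succ', hlead, map_one, one_mul, pow_zero,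
    mul_one] at hsum
  -- the middle terms are divisible by `π' ^ (m + 1)`
  have hmid : π' ^ (m' + 2) ∣
      ∑ i ∈ Finset.range m', algebraMap A₀ A' (g.coeff (i + 1)) * π' ^ (i + 1) := by
    apply Finset.dvd_sum
    intro i hi
    rw [Finset.mem_range] at hi
    obtain ⟨c, hc⟩ := hcoeff (i + 1) (by omega)
    rw [hc, map_mul]
    obtain ⟨d, hd⟩ := hram
    rw [hd]
    have : π' ^ e * d * algebraMap A₀ A' c * π' ^ (i + 1) =
        π' ^ (e + (i + 1)) * (d * algebraMap A₀ A' c) := by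
      rw [pow_add]; ring
    rw [this]
    exact Dvd.dvd.mul_right (pow_dvd_pow _ (by omega)) _
  have hkey : π' ^ (m' + 2) ∣ algebraMap A₀ A' (g.coeff 0) + π' ^ (m' + 1) := by
    have : algebraMap A₀ A' (g.coeff 0) + π' ^ (m' + 1) =
        -∑ i ∈ Finset.range m', algebraMap A₀ A' (g.coeff (i + 1)) * π' ^ (i + 1) := by
      linear_combination hsum
    rw [this]
    exact (dvd_neg).2 hmid
  -- a contradiction from `π' ^ (m' + 2) ∣ g.coeff 0`
  have hcontra : ¬ π' ^ (m' + 2) ∣ algebraMap A₀ A' (g.coeff 0) := by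
    intro h
    have h2 : π' ^ (m' + 2) ∣ π' ^ (m' + 1) := (dvd_add_right h).1 hkey
    have := (pow_dvd_pow_iff hπ'0 hπ'u).1 h2
    omega
  obtain ⟨c0, hc0⟩ := hcoeff 0 (by omega)
  have hdege : g.natDegree = e := by
    by_contra hne
    apply hcontra
    rw [hc0, map_mul]
    exact Dvd.dvd.mul_right (dvd_trans (pow_dvd_pow _ (by omega)) hram) _
  refine ⟨⟨?_, fun {n} hn => Ideal.mem_span_singleton.2 (hcoeff n hn), ?_⟩, hdege⟩
  · rw [hgm.leadingCoeff, Ideal.mem_span_singleton]
    exact fun h => hπ.not_isUnit (isUnit_of_dvd_one h)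
  · rw [Ideal.span_singleton_pow, Ideal.mem_span_singleton]
    rintro ⟨c, hc⟩
    apply hcontra
    rw [hc, map_mul, map_pow]
    have h2 : π' ^ (e * 2) ∣ algebraMap A₀ A' π ^ 2 := by
      rw [pow_mul]
      exact pow_dvd_pow_of_dvd hram 2
    exact Dvd.dvd.mul_right (dvd_trans (pow_dvd_pow _ (by omega)) h2) _

end Ram

end Fermat.Agent.UNIP
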