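/-
UNIP / U8 (helper16), consumer form: totally ramified base change.

`A₀ ⊂ A'` with `π' ^ e ∣ π` and `π'` a root of a monic `g ∈ A₀[X]` of degree `≤ e`
(e.g. `A'` a DVR, finite and totally ramified over `A₀`, `e = [E' : E₀]`, `g` the minimal
polynomial of the uniformizer `π'`).  `R ⊇ A₀` integrally closed with `R / π` reduced,
`K = Frac R`, `L = K(π')`.  Then the integral closure of `R` in `L` is `R[π']`, `[L : K] = e`,
and `R[π'] / π' ≅ R / π`.
-/
import Fermat.Agent.UNIP.NormalBC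
import Fermat.Agent.UNIP.NormalBCRam

set_option autoImplicit false

open Polynomial

namespace Fermat.Agent.UNIP

section Tot

variable {A₀ A' R K L : Type*} [CommRing A₀] [IsDomain A₀] [IsDiscreteValuationRing A₀]
  [CommRing A'] [IsDomain A'] [Algebra A₀ A']
  [CommRing R] [IsDomain R] [IsIntegrallyClosed R] [Algebra A₀ R]
  [Field K] [Algebra R K] [IsFractionRing R K] [Algebra A₀ K] [IsScalarTower A₀ R K]
  [Field L] [Algebra K L] [Algebra R L] [IsScalarTower R K L] [Algebra A₀ L]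
  [IsScalarTower A₀ K L] [IsScalarTower A₀ R L] [Algebra A' L] [IsScalarTower A₀ A' L]

omit [IsDomain R] [IsIntegrallyClosed R] [IsFractionRing R K] [IsScalarTower A₀ R K]
  [IsScalarTower R K L] [IsScalarTower A₀ K L] [IsScalarTower A₀ R L] [Algebra A₀ R]
  [Algebra R K] [Algebra A₀ K] [Algebra K L] [Algebra R L] [Field K] [CommRing R]
  [IsDomain A₀] [IsDiscreteValuationRing A₀] [IsDomain A'] in
/-- Transport of the root to `L`. -/
theorem nbc_aeval_algebraMap_eq_zero {π' : A'} (g : A₀[X]) (hroot : aeval π' g = 0) :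
    aeval (algebraMap A' L π') g = 0 := by
  rw [aeval_algebraMap_apply, hroot, map_zero]

/-- **U8, consumer form (normality).** -/
theorem normalBC_tot {π : A₀} (hπ : Irreducible π)
    (hπ0 : algebraMap A₀ R π ≠ 0) (hπu : ¬ IsUnit (algebraMap A₀ R π))
    (hred : ∀ c : R, algebraMap A₀ R π ∣ c ^ 2 → algebraMap A₀ R π ∣ c)
    {π' : A'} (hπ'0 : π' ≠ 0) (hπ'u : ¬ IsUnit π') {e : ℕ}
    (hram : π' ^ e ∣ algebraMap A₀ A' π)
    (g : A₀[X]) (hgm : g.Monic) (hroot : aeval π' g = 0) (hdeg : g.natDegree ≤ e)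
    (B : PowerBasis K L) (hB : B.gen = algebraMap A' L π') [Algebra.IsSeparable K L] :
    integralClosure R L = Algebra.adjoin R ({algebraMap A' L π'} : Set L) ∧ B.dim = e := by
  obtain ⟨hE, hge⟩ := nbc_ram_isEisensteinAt hπ hπ'0 hπ'u hram g hgm hroot hdeg
  have hrootL : aeval B.gen g = 0 := by
    rw [hB]; exact nbc_aeval_algebraMap_eq_zero g hroot
  refine ⟨?_, ?_⟩
  · rw [← hB]
    exact normalBC_integralClosure_eq hπ hπ0 hπu hred B g hgm hE hrootL
  · rw [← hge]
    exact (normalBC_natDegree_eq (R := R) hπ hπ0 hπu hred B g hgm hE hrootL).symm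

/-- **U8, consumer form (special fibre)**: `R / π ≃+* R[π'] / π'`. -/
noncomputable def normalBC_tot_fibreEquiv {π : A₀} (hπ : Irreducible π)
    (hπ0 : algebraMap A₀ R π ≠ 0) (hπu : ¬ IsUnit (algebraMap A₀ R π))
    (hred : ∀ c : R, algebraMap A₀ R π ∣ c ^ 2 → algebraMap A₀ R π ∣ c)
    {π' : A'} (hπ'0 : π' ≠ 0) (hπ'u : ¬ IsUnit π') {e : ℕ}
    (hram : π' ^ e ∣ algebraMap A₀ A' π)
    (g : A₀[X]) (hgm : g.Monic) (hroot : aeval π' g = 0) (hdeg : g.natDegree ≤ e) :
    R ⧸ Ideal.span {algebraMap A₀ R π} ≃+*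
      Algebra.adjoin R ({algebraMap A' L π'} : Set L) ⧸
        Ideal.span {nbcGen R (algebraMap A' L π')} :=
  normalBC_fibreEquiv K hπ hπ0 hπu hred g hgm
    (nbc_ram_isEisensteinAt hπ hπ'0 hπ'u hram g hgm hroot hdeg).1
    (by
      rcases Nat.eq_zero_or_pos g.natDegree with h0 | h0
      · exfalso
        have h1 : g = 1 := hgm.natDegree_eq_zero.1 h0
        rw [h1] at hroot
        simp at hroot
      · exact h0)
    (nbc_aeval_algebraMap_eq_zero g hroot)

end Tot

end Fermat.Agent.UNIP
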