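/-
UNIP / MG-4 (helper16), abstract part: the chart over the ramified base.

`R` (= the chart `B₀` over `A₀`), `α ∈ L` (= the uniformizer `π'` of `A'`), `R' = R[α] ⊆ L`
(= the chart `B'` over `A'`, by U8), `p ∈ R` (= `q`) with `α ∣ p` in `R'` and
`R / p ≅ R' / α` (U8 `normalBC_fibreEquiv`).

* `mgcExt φ ρ hρ : R' →+* S` : the extension of `ρ : R →+* S`, `ρ p = 0`, with `α ↦ 0`
  (the restriction map to a component of the special fibre, over `A'`);
* `mgc_ker` (SS1)' : `ρ' x = 0 → ρ₀' x = 0 → α ∣ x`;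
* `mgc_comap_isMaximal`, `mgc_mem_comap` : a maximal ideal `𝔫' ∋ α` of `R'` lies over a maximal
  ideal `𝔫 ∋ p` of `R`;
* `mgc_locGen` (SS2)'/(SS3)' : `NodesLocGen 𝔫 (insert p T) → NodesLocGen 𝔫' (insert α T)`.
-/
import Fermat.Agent.UNIP.NormalBCTot
import Fermat.Agent.UNIP.NodesMain

set_option autoImplicit false

namespace Fermat.Agent.UNIP

section Abstract

variable {R L : Type*} [CommRing R] [CommRing L] [Algebra R L]

/-- The chart over the ramified base: `R' = R[α]`. -/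
abbrev MgcChart (R : Type*) {L : Type*} [CommRing R] [CommRing L] [Algebra R L] (α : L) :
    Subalgebra R L :=
  Algebra.adjoin R ({α} : Set L)

/-- Every element of `R[α]` is `c + α * z`. -/
theorem mgc_exists_eq_add_mul (α : L) (x : MgcChart R α) :
    ∃ (c : R) (z : MgcChart R α), x = algebraMap R (MgcChart R α) c + nbcGen R α * z := by
  obtain ⟨c, z', hz', h⟩ := nbc_exists_eq_add_mul α x.2
  exact ⟨c, ⟨z', hz'⟩, Subtype.ext h⟩

/-- **(SS2)'/(SS3)'**: local generators over the ramified base. -/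
theorem mgc_locGen (α : L) {p : R}
    (hp : nbcGen R α ∣ algebraMap R (MgcChart R α) p)
    {𝔫' : Ideal (MgcChart R α)} (hα : nbcGen R α ∈ 𝔫') (T : Set R)
    (h : NodesLocGen (𝔫'.comap (algebraMap R (MgcChart R α))) (insert p T)) :
    NodesLocGen 𝔫' (insert (nbcGen R α) (algebraMap R (MgcChart R α) '' T)) := by
  intro b hb
  obtain ⟨c, z, rfl⟩ := mgc_exists_eq_add_mul α b
  have hc : c ∈ 𝔫'.comap (algebraMap R (MgcChart R α)) := by
    rw [Ideal.mem_comap]
    have : algebraMap R (MgcChart R α) c =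
        (algebraMap R (MgcChart R α) c + nbcGen R α * z) - nbcGen R α * z := by ring
    rw [this]
    exact 𝔫'.sub_mem hb (𝔫'.mul_mem_right _ hα)
  obtain ⟨u, hu, huc⟩ := h c hc
  refine ⟨algebraMap R (MgcChart R α) u, fun hu' => hu (Ideal.mem_comap.2 hu'), ?_⟩
  rw [mul_add]
  refine Ideal.add_mem _ ?_ ?_
  · rw [← map_mul]
    have h1 : algebraMap R (MgcChart R α) (u * c) ∈
        Ideal.map (algebraMap R (MgcChart R α)) (Ideal.span (insert p T)) :=
      Ideal.mem_map_of_mem _ huc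
    rw [Ideal.map_span] at h1
    refine (Ideal.span_le.2 ?_) h1
    rintro _ ⟨t, ht, rfl⟩
    rcases ht with rfl | ht
    · obtain ⟨w, hw⟩ := hp
      rw [SetLike.mem_coe, hw]
      exact Ideal.mul_mem_right _ _ (Ideal.subset_span (Set.mem_insert _ _))
    · exact Ideal.subset_span (Set.mem_insert_of_mem _ ⟨t, ht, rfl⟩)
  · rw [mul_left_comm]
    exact Ideal.mul_mem_right _ _ (Ideal.subset_span (Set.mem_insert _ _))

/-- `p` lies in the contraction of an ideal containing `α`. -/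
theorem mgc_mem_comap (α : L) {p : R}
    (hp : nbcGen R α ∣ algebraMap R (MgcChart R α) p)
    {𝔫' : Ideal (MgcChart R α)} (hα : nbcGen R α ∈ 𝔫') :
    p ∈ 𝔫'.comap (algebraMap R (MgcChart R α)) := by
  obtain ⟨w, hw⟩ := hp
  rw [Ideal.mem_comap, hw]
  exact Ideal.mul_mem_right _ _ hα

/-- `R[α]` is integral over `R` if `α` is. -/
theorem mgc_isIntegral {α : L} (hα : IsIntegral R α) : Algebra.IsIntegral R (MgcChart R α) :=
  le_integralClosure_iff_isIntegral.1 (_root_.adjoin_le_integralClosure hα)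

/-- The contraction of a maximal ideal of `R[α]` is maximal. -/
theorem mgc_comap_isMaximal {α : L} (hα : IsIntegral R α)
    (𝔫' : Ideal (MgcChart R α)) [h𝔫 : 𝔫'.IsMaximal] :
    (𝔫'.comap (algebraMap R (MgcChart R α))).IsMaximal := by
  have := mgc_isIntegral hα
  exact Ideal.isMaximal_comap_of_isIntegral_of_isMaximal (R := R) 𝔫'

section Ext

variable {S : Type*} [CommRing S] {α : L} {p : R}

/-- The extension of `ρ : R →+* S` (`ρ p = 0`) to `R[α]` with `α ↦ 0`. -/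
noncomputable def mgcExt
    (φ : R ⧸ Ideal.span {p} ≃+* MgcChart R α ⧸ Ideal.span {nbcGen R α})
    (ρ : R →+* S) (hρ : ρ p = 0) : MgcChart R α →+* S :=
  (Ideal.Quotient.lift (Ideal.span {p}) ρ (fun a ha => by
    obtain ⟨b, rfl⟩ := Ideal.mem_span_singleton.1 ha
    rw [map_mul, hρ, zero_mul])).comp
    ((φ.symm : _ →+* _).comp (Ideal.Quotient.mk (Ideal.span {nbcGen R α})))

theorem mgcExt_algebraMap
    (φ : R ⧸ Ideal.span {p} ≃+* MgcChart R α ⧸ Ideal.span {nbcGen R α})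
    (hφ : ∀ c : R, φ (Ideal.Quotient.mk _ c) =
      Ideal.Quotient.mk _ (algebraMap R (MgcChart R α) c))
    (ρ : R →+* S) (hρ : ρ p = 0) (c : R) :
    mgcExt φ ρ hρ (algebraMap R (MgcChart R α) c) = ρ c := by
  unfold mgcExt
  rw [RingHom.comp_apply, RingHom.comp_apply, ← hφ c]
  simp

theorem mgcExt_gen
    (φ : R ⧸ Ideal.span {p} ≃+* MgcChart R α ⧸ Ideal.span {nbcGen R α})
    (ρ : R →+* S) (hρ : ρ p = 0) :
    mgcExt φ ρ hρ (nbcGen R α) = 0 := by
  unfold mgcExt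
  rw [RingHom.comp_apply, RingHom.comp_apply,
    Ideal.Quotient.eq_zero_iff_mem.2 (Ideal.mem_span_singleton_self _), map_zero, map_zero]

theorem mgcExt_add_mul
    (φ : R ⧸ Ideal.span {p} ≃+* MgcChart R α ⧸ Ideal.span {nbcGen R α})
    (hφ : ∀ c : R, φ (Ideal.Quotient.mk _ c) =
      Ideal.Quotient.mk _ (algebraMap R (MgcChart R α) c))
    (ρ : R →+* S) (hρ : ρ p = 0) (c : R) (z : MgcChart R α) :
    mgcExt φ ρ hρ (algebraMap R (MgcChart R α) c + nbcGen R α * z) = ρ c := by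
  rw [map_add, map_mul, mgcExt_gen, zero_mul, add_zero, mgcExt_algebraMap φ hφ]

/-- **(SS1)'**: the two components over the ramified base cut out `(α)`. -/
theorem mgc_ker
    (φ : R ⧸ Ideal.span {p} ≃+* MgcChart R α ⧸ Ideal.span {nbcGen R α})
    (hφ : ∀ c : R, φ (Ideal.Quotient.mk _ c) =
      Ideal.Quotient.mk _ (algebraMap R (MgcChart R α) c))
    (hp : nbcGen R α ∣ algebraMap R (MgcChart R α) p)
    {f g : R →+* S} (hf : f p = 0) (hg : g p = 0)
    (hker : ∀ x : R, f x = 0 → g x = 0 → p ∣ x)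
    (x : MgcChart R α) (hfx : mgcExt φ f hf x = 0) (hgx : mgcExt φ g hg x = 0) :
    nbcGen R α ∣ x := by
  obtain ⟨c, z, rfl⟩ := mgc_exists_eq_add_mul α x
  rw [mgcExt_add_mul φ hφ] at hfx hgx
  obtain ⟨d, rfl⟩ := hker c hfx hgx
  rw [map_mul]
  exact dvd_add (Dvd.dvd.mul_right hp _) (dvd_mul_right _ _)

/-- The kernel of the extension lies in `𝔫'` as soon as the kernel of `ρ` lies in `𝔫' ∩ R`. -/
theorem mgc_ker_le
    (φ : R ⧸ Ideal.span {p} ≃+* MgcChart R α ⧸ Ideal.span {nbcGen R α})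
    (hφ : ∀ c : R, φ (Ideal.Quotient.mk _ c) =
      Ideal.Quotient.mk _ (algebraMap R (MgcChart R α) c))
    {f : R →+* S} (hf : f p = 0)
    {𝔫' : Ideal (MgcChart R α)} (hα : nbcGen R α ∈ 𝔫')
    (h : ∀ x : R, f x = 0 → x ∈ 𝔫'.comap (algebraMap R (MgcChart R α)))
    (x : MgcChart R α) (hfx : mgcExt φ f hf x = 0) : x ∈ 𝔫' := by
  obtain ⟨c, z, rfl⟩ := mgc_exists_eq_add_mul α x
  rw [mgcExt_add_mul φ hφ] at hfx
  exact 𝔫'.add_mem (Ideal.mem_comap.1 (h c hfx)) (𝔫'.mul_mem_right _ hα)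

/-- Conversely. -/
theorem mgc_ker_le_comap
    (φ : R ⧸ Ideal.span {p} ≃+* MgcChart R α ⧸ Ideal.span {nbcGen R α})
    (hφ : ∀ c : R, φ (Ideal.Quotient.mk _ c) =
      Ideal.Quotient.mk _ (algebraMap R (MgcChart R α) c))
    {f : R →+* S} (hf : f p = 0)
    {𝔫' : Ideal (MgcChart R α)}
    (h : ∀ x : MgcChart R α, mgcExt φ f hf x = 0 → x ∈ 𝔫')
    (x : R) (hfx : f x = 0) : x ∈ 𝔫'.comap (algebraMap R (MgcChart R α)) := by
  rw [Ideal.mem_comap]
  exact h _ (by rw [mgcExt_algebraMap φ hφ, hfx])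

end Ext

end Abstract

end Fermat.Agent.UNIP
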