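import Fermat.Agent.INJ.PlaceExt
import Fermat.Agent.INJ.NFEmb
import Fermat.Prelude.Def_ModularCurve_ArithmeticGalois

/-!
# UNIP MG-2 (modular glue, places): places of `F_N(K₀)` versus places of `F_N(ℚ̄)`

`K₀ ⊆ ℚ̄` an intermediate field (e.g. a number field `E′`), `F_N(K₀) := modularFunctionFieldFullC K₀ N`,
`F := modularFunctionFieldBar N`, `nfEmb K₀ N : F_N(K₀) →+* F`.

* `mgRingAut N s`, `mgGal N : (K ≃+* K) →* SemilinearAut K F_N(K)` : a ring automorphism `s` of the
  constant field acts on `F_N(K)` coefficientwise (any field `K`); hence it acts on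
  `Place K F_N(K)` (prelude `SemilinearAut` action) and `mg_ord_smul`:
  `(mgGal N s • v).ord (mgGal N s • x) = v.ord x`.
* `mg_nfEmb_smul` : if `σ ∈ Gal(ℚ̄/ℚ)` restricts to `s` on `K₀` then
  `nfEmb (s • x) = arithmeticGalois σ • nfEmb x`;  `mg_exists_restrict` : such an `s` exists when
  `K₀ / ℚ` is normal.
* `mg_place_extend`, `mg_place_restrict` : places of `F_N(K₀) / K₀` extend to / are restrictions of
  places of `F / ℚ̄`, with the same `ord` (unramified).
* `mg_dvd_ord` : `(∀ P, m ∣ ord_P (nfEmb u₀)) → ∀ P₀, m ∣ ord_{P₀} u₀`, and the converse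
  `mg_dvd_ord_bar`.
* `mg_restrict_smul` : restriction of places is compatible with the two Galois actions.
-/

set_option autoImplicit false
set_option linter.unusedSectionVars false
set_option linter.style.haveILetI false

noncomputable section

namespace Fermat.Agent.UNIP

open ModularCurve AlgebraicCurve Fermat.Agent.INJ

section General

variable {K : Type*} [Field K] (N : ℕ)

/-- The coefficientwise action of a ring automorphism of `K` on `F_N(K)`. -/
def mgRingAut (s : K ≃+* K) :
    modularFunctionFieldFullC K N ≃+* modularFunctionFieldFullC K N where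
  toFun x := ⟨coeffMap (s : K →+* K) (x : LaurentSeries K), nf_coeffMap_mem_fullC _ N x.2⟩
  invFun x := ⟨coeffMap (s.symm : K →+* K) (x : LaurentSeries K),
    nf_coeffMap_mem_fullC _ N x.2⟩
  left_inv x := Subtype.ext <| by
    show coeffMap (s.symm : K →+* K) (coeffMap (s : K →+* K) (x : LaurentSeries K))
      = (x : LaurentSeries K)
    rw [coeffMap_coeffMap,
      coeffMap_congr (g := RingHom.id K) (RingHom.ext fun a => s.symm_apply_apply a)
        (x : LaurentSeries K),
      coeffMap_id]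
  right_inv x := Subtype.ext <| by
    show coeffMap (s : K →+* K) (coeffMap (s.symm : K →+* K) (x : LaurentSeries K))
      = (x : LaurentSeries K)
    rw [coeffMap_coeffMap,
      coeffMap_congr (g := RingHom.id K) (RingHom.ext fun a => s.apply_symm_apply a)
        (x : LaurentSeries K),
      coeffMap_id]
  map_mul' x y :=
    Subtype.ext (map_mul (coeffMap (s : K →+* K)) (x : LaurentSeries K) (y : LaurentSeries K))
  map_add' x y :=
    Subtype.ext (map_add (coeffMap (s : K →+* K)) (x : LaurentSeries K) (y : LaurentSeries K))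

@[simp]
theorem coe_mgRingAut_apply (s : K ≃+* K) (x : modularFunctionFieldFullC K N) :
    (mgRingAut N s x : LaurentSeries K) = coeffMap (s : K →+* K) (x : LaurentSeries K) :=
  rfl

theorem mgRingAut_algebraMap (s : K ≃+* K) (a : K) :
    mgRingAut N s (algebraMap K (modularFunctionFieldFullC K N) a)
      = algebraMap K (modularFunctionFieldFullC K N) (s a) :=
  Subtype.ext (nf_coeffMap_algebraMap (s : K →+* K) a)

/-- The semilinear action of `Aut(K)` on `F_N(K)`. -/
def mgGal : (K ≃+* K) →* SemilinearAut K (modularFunctionFieldFullC K N) where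
  toFun s := ⟨(mgRingAut N s, s), fun a => mgRingAut_algebraMap N s a⟩
  map_one' := by
    refine Subtype.ext (Prod.ext (RingEquiv.ext fun x => Subtype.ext ?_) rfl)
    show coeffMap ((1 : K ≃+* K) : K →+* K) (x : LaurentSeries K) = (x : LaurentSeries K)
    rw [show ((1 : K ≃+* K) : K →+* K) = RingHom.id K from RingHom.ext fun _ => rfl,
      coeffMap_id]
  map_mul' s t := by
    refine Subtype.ext (Prod.ext (RingEquiv.ext fun x => Subtype.ext ?_) rfl)
    show coeffMap ((s * t : K ≃+* K) : K →+* K) (x : LaurentSeries K)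
      = coeffMap (s : K →+* K) (coeffMap (t : K →+* K) (x : LaurentSeries K))
    rw [coeffMap_coeffMap]
    exact coeffMap_congr (RingHom.ext fun _ => rfl) _

@[simp]
theorem toRingAut_mgGal (s : K ≃+* K) :
    SemilinearAut.toRingAut (mgGal N s) = mgRingAut N s := rfl

@[simp]
theorem baseAut_mgGal (s : K ≃+* K) : SemilinearAut.baseAut (mgGal N s) = s := rfl

theorem coe_mgGal_smul (s : K ≃+* K) (x : modularFunctionFieldFullC K N) :
    ((mgGal N s • x : modularFunctionFieldFullC K N) : LaurentSeries K)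
      = coeffMap (s : K →+* K) (x : LaurentSeries K) :=
  rfl

/-- The Galois action on places of `F_N(K) / K` preserves orders. -/
theorem mg_ord_smul (s : K ≃+* K) (v : Place K (modularFunctionFieldFullC K N))
    (x : modularFunctionFieldFullC K N) :
    (mgGal N s • v).ord (mgGal N s • x) = v.ord x :=
  SemilinearAut.ord_smul (mgGal N s) v x

theorem mg_ord_smul' (s : K ≃+* K) (v : Place K (modularFunctionFieldFullC K N))
    (x : modularFunctionFieldFullC K N) :
    (mgGal N s • v).ord x = v.ord ((mgGal N s)⁻¹ • x) := by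
  have h := mg_ord_smul N s v ((mgGal N s)⁻¹ • x)
  rwa [smul_inv_smul] at h

end General

section NumberField

variable (K₀ : IntermediateField ℚ NfQb) (N : ℕ)

/-- If `σ ∈ Gal(ℚ̄/ℚ)` restricts to `s` on `K₀`, then `nfEmb` intertwines the coefficient action of
`s` on `F_N(K₀)` and the arithmetic Galois action of `σ` on `F_N(ℚ̄)`. -/
theorem mg_nfEmb_smul (σ : NfQb ≃ₐ[ℚ] NfQb) (s : K₀ ≃+* K₀)
    (h : ∀ a : K₀, σ (a : NfQb) = ((s a : K₀) : NfQb))
    (x : modularFunctionFieldFullC K₀ N) :
    nfEmb K₀ N (mgGal N s • x)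
      = arithmeticGalois (modularFunctionFieldFull N) σ • nfEmb K₀ N x := by
  apply Subtype.ext
  rw [coe_arithmeticGalois_smul, nfEmb_coe, nfEmb_coe, coe_mgGal_smul, coeffMap_coeffMap,
    coeffMap_coeffMap]
  refine coeffMap_congr (RingHom.ext fun a => ?_) _
  exact (h a).symm

/-- For `K₀ / ℚ` normal every `σ ∈ Gal(ℚ̄/ℚ)` restricts to an automorphism of `K₀`. -/
theorem mg_exists_restrict [Normal ℚ K₀] (σ : NfQb ≃ₐ[ℚ] NfQb) :
    ∃ s : K₀ ≃ₐ[ℚ] K₀, ∀ a : K₀, σ (a : NfQb) = ((s a : K₀) : NfQb) :=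
  ⟨σ.restrictNormal K₀, fun a => (AlgEquiv.restrictNormal_commutes σ K₀ a).symm⟩

theorem mg_isAlgebraic : Algebra.IsAlgebraic K₀ NfQb := by
  haveI : Algebra.IsAlgebraic ℚ NfQb := AlgebraicClosure.isAlgebraic ℚ
  exact Algebra.IsAlgebraic.tower_top (K := ℚ) K₀

/-- Every place of `F_N(K₀) / K₀` extends to a place of `F_N(ℚ̄) / ℚ̄` with the same `ord`. -/
theorem mg_place_extend (Q : Place K₀ (modularFunctionFieldFullC K₀ N)) :
    ∃ v : Place NfQb (modularFunctionFieldBar N), ∀ y : modularFunctionFieldFullC K₀ N,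
      v.ord (nfEmb K₀ N y) = Q.ord y := by
  letI : Algebra (modularFunctionFieldFullC K₀ N) (modularFunctionFieldBar N) :=
    (nfEmb K₀ N).toAlgebra
  haveI : IsScalarTower K₀ (modularFunctionFieldFullC K₀ N) (modularFunctionFieldBar N) :=
    IsScalarTower.of_algebraMap_eq fun c => (nfEmb_algebraMap K₀ N c).symm
  haveI := mg_isAlgebraic K₀
  exact PlaceExt.exists_place_extend_charZero (E := K₀) (K := NfQb)
    (L' := modularFunctionFieldBar N) (nfEmb_adjoin_range K₀ N) Q

/-- Every place of `F_N(ℚ̄) / ℚ̄` restricts to a place of `F_N(K₀) / K₀` with the same `ord`. -/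
theorem mg_place_restrict (v : Place NfQb (modularFunctionFieldBar N)) :
    ∃ Q : Place K₀ (modularFunctionFieldFullC K₀ N), ∀ y : modularFunctionFieldFullC K₀ N,
      v.ord (nfEmb K₀ N y) = Q.ord y := by
  letI : Algebra (modularFunctionFieldFullC K₀ N) (modularFunctionFieldBar N) :=
    (nfEmb K₀ N).toAlgebra
  haveI : IsScalarTower K₀ (modularFunctionFieldFullC K₀ N) (modularFunctionFieldBar N) :=
    IsScalarTower.of_algebraMap_eq fun c => (nfEmb_algebraMap K₀ N c).symm
  haveI := mg_isAlgebraic K₀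
  exact PlaceExt.exists_place_restrict_const (E := K₀) (K := NfQb)
    (L' := modularFunctionFieldBar N) (PlaceExt.adjoin_range_swap (nfEmb_adjoin_range K₀ N)) v

/-- Divisibility of the divisor descends from `F_N(ℚ̄)` to `F_N(K₀)`. -/
theorem mg_dvd_ord (m : ℤ) (u₀ : modularFunctionFieldFullC K₀ N)
    (h : ∀ P : Place NfQb (modularFunctionFieldBar N), m ∣ P.ord (nfEmb K₀ N u₀))
    (Q : Place K₀ (modularFunctionFieldFullC K₀ N)) : m ∣ Q.ord u₀ := by
  obtain ⟨v, hv⟩ := mg_place_extend K₀ N Q
  rw [← hv u₀]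
  exact h v

/-- Divisibility of the divisor ascends from `F_N(K₀)` to `F_N(ℚ̄)`. -/
theorem mg_dvd_ord_bar (m : ℤ) (u₀ : modularFunctionFieldFullC K₀ N)
    (h : ∀ Q : Place K₀ (modularFunctionFieldFullC K₀ N), m ∣ Q.ord u₀)
    (P : Place NfQb (modularFunctionFieldBar N)) : m ∣ P.ord (nfEmb K₀ N u₀) := by
  obtain ⟨Q, hQ⟩ := mg_place_restrict K₀ N P
  rw [hQ u₀]
  exact h Q

/-- Restriction of places is compatible with the Galois actions. -/
theorem mg_restrict_smul (σ : NfQb ≃ₐ[ℚ] NfQb) (s : K₀ ≃+* K₀)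
    (h : ∀ a : K₀, σ (a : NfQb) = ((s a : K₀) : NfQb))
    (v : Place NfQb (modularFunctionFieldBar N))
    (Q : Place K₀ (modularFunctionFieldFullC K₀ N))
    (hvQ : ∀ y : modularFunctionFieldFullC K₀ N, v.ord (nfEmb K₀ N y) = Q.ord y)
    (y : modularFunctionFieldFullC K₀ N) :
    (arithmeticGalois (modularFunctionFieldFull N) σ • v).ord (nfEmb K₀ N y)
      = (mgGal N s • Q).ord y := by
  rw [mg_ord_smul', ← hvQ]
  have e : nfEmb K₀ N y = arithmeticGalois (modularFunctionFieldFull N) σ •
      nfEmb K₀ N ((mgGal N s)⁻¹ • y) := by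
    rw [← mg_nfEmb_smul K₀ N σ s h, smul_inv_smul]
  conv_lhs => rw [e]
  exact SemilinearAut.ord_smul _ v _

end NumberField

end Fermat.Agent.UNIP
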