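import Fermat.Agent.UNIP.MGSetup
import Fermat.Agent.UNIP.MGPlaces
import Fermat.Agent.UNIP.MGCharts
import Fermat.Agent.UNIP.Beta0Abs
import Fermat.Agent.UNIP.LocalShape

/-!
# UNIP, piece MG-3 (`GalAct`): the action of inertia on `F_N(E′)` and on the chart `B₀[π′]`

`NfQb = ℚ̄`, `A ⊂ NfQb` a valuation subring, `I = A.inertiaSubgroupIn ℚ`, `E₀ = beta0Field A = NfQb^I`,
`E′` an intermediate field stable under `σ`, `F_N(K) = modularFunctionFieldFullC K N`.
Built on MG-1 (`MGSetup`: `mgRestrict`, `mgAct`, `nfEmb_mgAct`), MG-2 (`MGPlaces`: `mgRingAut`,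
`mgGal`) and MG-4 (`MGCharts`: `MgcChart R α = R[α]`, `nbcGen R α`).  All names here: `mga*`.

* `mgaCoeffHom f N : F_N(K) →+* F_N(K')` : the coefficientwise map of a ring homomorphism of fields
  (`mgaCoeffHom_comp`, `_id`, `_congr`, `_algebraMap`, `_injective`), `mgaCoeffEquiv`;
  `mgaConst K N : K →+* F_N(K)` (`= algebraMap`); `mgaIncl h N : F_N(K₀) →+* F_N(K₁)` for
  `K₀ ≤ K₁`, `nfEmb_mgaIncl : nfEmb K₁ ∘ mgaIncl = nfEmb K₀`.
* `mgRestrict` is bijective (`mga_restrict_bijective`), `mgaRestrictEquiv K₀ σ hσ : K₀ ≃+* K₀`,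
  `mga_stable_symm`; `mgAct = mgRingAut (mgaRestrictEquiv)` (`mga_act_eq_mgRingAut`,
  `mgGal_mgaRestrictEquiv_smul`), `mgaActEquiv`, `mga_act_bijective`, `mgAct_mgaConst`.
* stability criteria: `mga_stable_of_normal`, `mga_stable_sup`, `mga_stable_of_fix`,
  `mga_stable_beta0`, `mga_stable_beta0_sup` (`E′ = E₀ ⊔ K`, `K/ℚ` normal), `mga_stable_of_roots`
  (`E′/E₀` normal in the form "all conjugates over `E₀` stay in `E′`").
* `mgAct_mgaIncl` : `σ` fixing `E₀` pointwise ⇒ `mgAct σ` is the identity on the image of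
  `F_N(E₀)`.
* `mga_inertia_sub_eq_mul` : `σ ∈ I`, `π′` a uniformizer of `A ∩ E′` ⇒ `σ a − a ∈ π′ (A ∩ E′)` for
  `a ∈ A ∩ E′`;  `mga_inertia_unif_mem` : `(σ π′ − π′) / π′ ∈ A ∩ E′`.
* `mga_adjoin_tau`, `mga_adjoin_hτB`, `mga_adjoin_hτB_const` (abstract): `τ` fixes `R`,
  `τ α = α + α c₀`, `c₀ ∈ R[α]` ⇒ `τ b = b + α c` on `R[α]`  (the hypothesis `hτB` of
  `ls_tau_localSubring`); `mga_adjoin_tau_mem` : `τ (R[α]) ⊆ R[α]`.
* `mga_galAct_chart` : the instantiation for `τ = mgAct σ`, `σ ∈ I`, `R → F_N(E′)` with image in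
  the image of `F_N(E₀)`, `α = π′`.
* `mga_galAct_hτO` : the resulting hypothesis `hτO` of `ls_pwiShape` at a prime `𝔫 ∋ π′` of
  `R[π′]` (via `ls_tau_localSubring`).
-/

set_option autoImplicit false
set_option linter.style.haveILetI false
set_option linter.unusedSectionVars false

open ModularCurve

namespace Fermat.Agent.UNIP

open Fermat.Agent.INJ

section Generic

variable {K K' K'' : Type*} [Field K] [Field K'] [Field K'']

/-- The coefficientwise map `F_N(K) → F_N(K')` of a ring homomorphism `K → K'`. -/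
noncomputable def mgaCoeffHom (f : K →+* K') (N : ℕ) :
    modularFunctionFieldFullC K N →+* modularFunctionFieldFullC K' N where
  toFun x := ⟨coeffMap f x, nf_coeffMap_mem_fullC f N x.2⟩
  map_one' := by ext1; simp
  map_mul' x y := by ext1; simp
  map_zero' := by ext1; simp
  map_add' x y := by ext1; simp

@[simp]
theorem mgaCoeffHom_coe (f : K →+* K') (N : ℕ) (x : modularFunctionFieldFullC K N) :
    ((mgaCoeffHom f N x : modularFunctionFieldFullC K' N) : LaurentSeries K')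
      = coeffMap f (x : LaurentSeries K) := rfl

theorem mgaCoeffHom_comp (g : K' →+* K'') (f : K →+* K') (N : ℕ)
    (x : modularFunctionFieldFullC K N) :
    mgaCoeffHom g N (mgaCoeffHom f N x) = mgaCoeffHom (g.comp f) N x := by
  ext1
  exact coeffMap_coeffMap g f _

theorem mgaCoeffHom_congr {f g : K →+* K'} (h : ∀ a, f a = g a) (N : ℕ)
    (x : modularFunctionFieldFullC K N) : mgaCoeffHom f N x = mgaCoeffHom g N x := by
  ext1
  exact coeffMap_congr (RingHom.ext h) _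

theorem mgaCoeffHom_id (N : ℕ) (x : modularFunctionFieldFullC K N) :
    mgaCoeffHom (RingHom.id K) N x = x := by
  ext1
  exact coeffMap_id _

theorem mgaCoeffHom_injective (f : K →+* K') (N : ℕ) : Function.Injective (mgaCoeffHom f N) :=
  (mgaCoeffHom f N).injective

theorem mgaCoeffHom_algebraMap (f : K →+* K') (N : ℕ) (c : K) :
    mgaCoeffHom f N (algebraMap K (modularFunctionFieldFullC K N) c)
      = algebraMap K' (modularFunctionFieldFullC K' N) (f c) := by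
  ext1
  show coeffMap f (algebraMap K (LaurentSeries K) c) = algebraMap K' (LaurentSeries K') (f c)
  exact nf_coeffMap_algebraMap f c

/-- The constants `K → F_N(K)` as a ring homomorphism (`= algebraMap`; a name for it avoids
expensive instance searches in contexts with many local instances). -/
noncomputable def mgaConst (K : Type*) [Field K] (N : ℕ) :
    K →+* modularFunctionFieldFullC K N :=
  algebraMap K (modularFunctionFieldFullC K N)

theorem mgaConst_apply (N : ℕ) (c : K) :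
    mgaConst K N c = algebraMap K (modularFunctionFieldFullC K N) c := rfl

@[simp]
theorem mgaConst_coe (N : ℕ) (c : K) :
    ((mgaConst K N c : modularFunctionFieldFullC K N) : LaurentSeries K)
      = algebraMap K (LaurentSeries K) c := rfl

theorem mgaCoeffHom_mgaConst (f : K →+* K') (N : ℕ) (c : K) :
    mgaCoeffHom f N (mgaConst K N c) = mgaConst K' N (f c) :=
  mgaCoeffHom_algebraMap f N c

/-- The coefficientwise isomorphism `F_N(K) ≃ F_N(K')` of an isomorphism `K ≃ K'`. -/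
noncomputable def mgaCoeffEquiv (e : K ≃+* K') (N : ℕ) :
    modularFunctionFieldFullC K N ≃+* modularFunctionFieldFullC K' N :=
  RingEquiv.ofRingHom (mgaCoeffHom (e : K →+* K') N) (mgaCoeffHom (e.symm : K' →+* K) N)
    (RingHom.ext fun x => by
      show mgaCoeffHom _ N (mgaCoeffHom _ N x) = x
      rw [mgaCoeffHom_comp,
        mgaCoeffHom_congr (g := RingHom.id K') (fun a => e.apply_symm_apply a), mgaCoeffHom_id])
    (RingHom.ext fun x => by
      show mgaCoeffHom _ N (mgaCoeffHom _ N x) = x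
      rw [mgaCoeffHom_comp,
        mgaCoeffHom_congr (g := RingHom.id K) (fun a => e.symm_apply_apply a), mgaCoeffHom_id])

@[simp]
theorem mgaCoeffEquiv_apply (e : K ≃+* K') (N : ℕ) (x : modularFunctionFieldFullC K N) :
    mgaCoeffEquiv e N x = mgaCoeffHom (e : K →+* K') N x := rfl

@[simp]
theorem mgaCoeffEquiv_symm_apply (e : K ≃+* K') (N : ℕ) (x : modularFunctionFieldFullC K' N) :
    (mgaCoeffEquiv e N).symm x = mgaCoeffHom (e.symm : K' →+* K) N x := rfl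

theorem mgRingAut_eq_mgaCoeffHom (s : K ≃+* K) (N : ℕ) (x : modularFunctionFieldFullC K N) :
    mgRingAut N s x = mgaCoeffHom (s : K →+* K) N x := rfl

end Generic

section Chart

variable {R L : Type*} [CommRing R] [Field L] [Algebra R L]

/-- **Abstract chart lemma.**  If `τ` fixes `R` and `τ α = α + α c₀` with `c₀ ∈ R[α]`, then
`τ b − b ∈ α R[α]` for every `b ∈ R[α]`. -/
theorem mga_adjoin_tau (τ : L →+* L) (α : L)
    (hR : ∀ r : R, τ (algebraMap R L r) = algebraMap R L r)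
    (hα : ∃ c ∈ Algebra.adjoin R ({α} : Set L), τ α = α + α * c) :
    ∀ b ∈ Algebra.adjoin R ({α} : Set L),
      ∃ c ∈ Algebra.adjoin R ({α} : Set L), τ b = b + α * c := by
  have hαm : α ∈ Algebra.adjoin R ({α} : Set L) := Algebra.self_mem_adjoin_singleton R α
  intro b hb
  induction hb using Algebra.adjoin_induction with
  | mem x hx =>
      rw [Set.mem_singleton_iff] at hx
      subst hx
      exact hα
  | algebraMap r => exact ⟨0, zero_mem _, by rw [hR, mul_zero, add_zero]⟩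
  | add x y _ _ hx hy =>
      obtain ⟨c, hc, hxc⟩ := hx
      obtain ⟨d, hd, hyd⟩ := hy
      exact ⟨c + d, add_mem hc hd, by rw [map_add, hxc, hyd]; ring⟩
  | mul x y hxm hym hx hy =>
      obtain ⟨c, hc, hxc⟩ := hx
      obtain ⟨d, hd, hyd⟩ := hy
      refine ⟨c * y + x * d + α * (c * d),
        add_mem (add_mem (mul_mem hc hym) (mul_mem hxm hd)) (mul_mem hαm (mul_mem hc hd)), ?_⟩
      rw [map_mul, hxc, hyd]
      ring

/-- The same in the shape of the hypothesis `hτB` of `ls_tau_localSubring`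
(`B = R[α] = MgcChart R α`, `ϖ = nbcGen R α`). -/
theorem mga_adjoin_hτB (τ : L →+* L) (α : L)
    (hR : ∀ r : R, τ (algebraMap R L r) = algebraMap R L r)
    (hα : ∃ c ∈ Algebra.adjoin R ({α} : Set L), τ α = α + α * c)
    (b : MgcChart R α) :
    ∃ c : MgcChart R α,
      τ (algebraMap (MgcChart R α) L b) = algebraMap (MgcChart R α) L (b + nbcGen R α * c) := by
  obtain ⟨c, hc, h⟩ := mga_adjoin_tau τ α hR hα b b.2
  exact ⟨⟨c, hc⟩, h⟩

/-- `τ` maps `R[α]` into itself. -/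
theorem mga_adjoin_tau_mem (τ : L →+* L) (α : L)
    (hR : ∀ r : R, τ (algebraMap R L r) = algebraMap R L r)
    (hα : ∃ c ∈ Algebra.adjoin R ({α} : Set L), τ α = α + α * c)
    {b : L} (hb : b ∈ Algebra.adjoin R ({α} : Set L)) :
    τ b ∈ Algebra.adjoin R ({α} : Set L) := by
  obtain ⟨c, hc, h⟩ := mga_adjoin_tau τ α hR hα b hb
  rw [h]
  exact add_mem hb (mul_mem (Algebra.self_mem_adjoin_singleton R α) hc)

/-- Abstract form of the chart statement with a field of constants `ι : E → L`: `τ` is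
`s`-semilinear on the constants, fixes `R`, and `(s π′ − π′) / π′ ∈ R[π′]`. -/
theorem mga_adjoin_hτB_const {E : Type*} [Field E] (ι : E →+* L)
    (τ : L →+* L) (s : E →+* E) (hτs : ∀ c : E, τ (ι c) = ι (s c))
    (hR : ∀ r : R, τ (algebraMap R L r) = algebraMap R L r)
    (π' : E) (hπ'0 : π' ≠ 0)
    (hc : ι ((s π' - π') / π') ∈ Algebra.adjoin R ({ι π'} : Set L))
    (b : MgcChart R (ι π')) :
    ∃ c : MgcChart R (ι π'),
      τ (algebraMap (MgcChart R (ι π')) L b)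
        = algebraMap (MgcChart R (ι π')) L (b + nbcGen R (ι π') * c) := by
  refine mga_adjoin_hτB τ _ hR ⟨_, hc, ?_⟩ b
  rw [hτs, ← map_mul, ← map_add]
  congr 1
  field_simp
  ring

end Chart

section Restrict

variable (K₀ : IntermediateField ℚ NfQb) (σ : NfQb ≃ₐ[ℚ] NfQb)

theorem mga_restrict_bijective (h : ∀ x ∈ K₀, σ x ∈ K₀) :
    Function.Bijective (mgRestrict K₀ σ h) := by
  haveI : Algebra.IsAlgebraic ℚ NfQb := AlgebraicClosure.isAlgebraic ℚ
  haveI : Algebra.IsAlgebraic ℚ K₀ :=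
    Algebra.IsAlgebraic.of_injective K₀.val Subtype.val_injective
  let f : K₀ →ₐ[ℚ] K₀ :=
    AlgHom.codRestrict ((σ : NfQb →ₐ[ℚ] NfQb).comp K₀.val) K₀.toSubalgebra (fun x => h x x.2)
  exact Algebra.IsAlgebraic.algHom_bijective f

/-- A `σ`-stable intermediate field of `ℚ̄` is `σ⁻¹`-stable. -/
theorem mga_stable_symm (h : ∀ x ∈ K₀, σ x ∈ K₀) : ∀ x ∈ K₀, σ.symm x ∈ K₀ := by
  intro x hx
  obtain ⟨y, hy⟩ := (mga_restrict_bijective K₀ σ h).2 ⟨x, hx⟩
  have h1 : σ (y : NfQb) = x := congrArg Subtype.val hy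
  rw [← h1, AlgEquiv.symm_apply_apply]
  exact y.2

/-- The restriction of `σ` to a `σ`-stable intermediate field, as an automorphism. -/
noncomputable def mgaRestrictEquiv (h : ∀ x ∈ K₀, σ x ∈ K₀) : K₀ ≃+* K₀ :=
  RingEquiv.ofBijective (mgRestrict K₀ σ h) (mga_restrict_bijective K₀ σ h)

@[simp]
theorem mgaRestrictEquiv_coe (h : ∀ x ∈ K₀, σ x ∈ K₀) (x : K₀) :
    ((mgaRestrictEquiv K₀ σ h x : K₀) : NfQb) = σ (x : NfQb) := rfl

theorem mgaRestrictEquiv_apply (h : ∀ x ∈ K₀, σ x ∈ K₀) (x : K₀) :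
    mgaRestrictEquiv K₀ σ h x = mgRestrict K₀ σ h x := rfl

/-- the hypothesis `h` of MG-2 (`mg_nfEmb_smul`, `mg_restrict_smul`) -/
theorem mgaRestrictEquiv_spec (h : ∀ x ∈ K₀, σ x ∈ K₀) (a : K₀) :
    σ (a : NfQb) = ((mgaRestrictEquiv K₀ σ h a : K₀) : NfQb) := rfl

theorem mgaRestrictEquiv_symm_coe (h : ∀ x ∈ K₀, σ x ∈ K₀) (x : K₀) :
    (((mgaRestrictEquiv K₀ σ h).symm x : K₀) : NfQb) = σ.symm (x : NfQb) := by
  have h1 : σ (((mgaRestrictEquiv K₀ σ h).symm x : K₀) : NfQb) = x := by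
    rw [← mgaRestrictEquiv_coe K₀ σ h, RingEquiv.apply_symm_apply]
  rw [← h1, AlgEquiv.symm_apply_apply]

variable (N : ℕ)

theorem mgAct_eq_mgaCoeffHom (h : ∀ x ∈ K₀, σ x ∈ K₀) (x : modularFunctionFieldFullC K₀ N) :
    mgAct K₀ N σ h x = mgaCoeffHom (mgRestrict K₀ σ h) N x := rfl

/-- MG-1's action is MG-2's action of the restricted automorphism. -/
theorem mga_act_eq_mgRingAut (h : ∀ x ∈ K₀, σ x ∈ K₀) (x : modularFunctionFieldFullC K₀ N) :
    mgAct K₀ N σ h x = mgRingAut N (mgaRestrictEquiv K₀ σ h) x := rfl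

theorem mgGal_mgaRestrictEquiv_smul (h : ∀ x ∈ K₀, σ x ∈ K₀)
    (x : modularFunctionFieldFullC K₀ N) :
    mgGal N (mgaRestrictEquiv K₀ σ h) • x = mgAct K₀ N σ h x := rfl

/-- **The action of `σ` on `F_N(E′)` is a ring automorphism.** -/
noncomputable def mgaActEquiv (h : ∀ x ∈ K₀, σ x ∈ K₀) :
    modularFunctionFieldFullC K₀ N ≃+* modularFunctionFieldFullC K₀ N :=
  mgRingAut N (mgaRestrictEquiv K₀ σ h)

@[simp]
theorem mgaActEquiv_apply (h : ∀ x ∈ K₀, σ x ∈ K₀) (x : modularFunctionFieldFullC K₀ N) :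
    mgaActEquiv K₀ σ N h x = mgAct K₀ N σ h x := rfl

theorem mgaActEquiv_symm_apply (h : ∀ x ∈ K₀, σ x ∈ K₀) (x : modularFunctionFieldFullC K₀ N) :
    (mgaActEquiv K₀ σ N h).symm x = mgAct K₀ N σ.symm (mga_stable_symm K₀ σ h) x := by
  apply Subtype.ext
  show coeffMap ((mgaRestrictEquiv K₀ σ h).symm : K₀ →+* K₀) (x : LaurentSeries K₀)
    = coeffMap (mgRestrict K₀ σ.symm (mga_stable_symm K₀ σ h)) (x : LaurentSeries K₀)
  refine coeffMap_congr (RingHom.ext fun a => Subtype.ext ?_) _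
  exact mgaRestrictEquiv_symm_coe K₀ σ h a

theorem mga_act_bijective (h : ∀ x ∈ K₀, σ x ∈ K₀) : Function.Bijective (mgAct K₀ N σ h) :=
  (mgaActEquiv K₀ σ N h).bijective

theorem mgAct_mgaConst (h : ∀ x ∈ K₀, σ x ∈ K₀) (c : K₀) :
    mgAct K₀ N σ h (mgaConst K₀ N c) = mgaConst K₀ N (mgRestrict K₀ σ h c) :=
  mgAct_algebraMap K₀ N σ h c

end Restrict

section Inclusion

variable {K₀ K₁ : IntermediateField ℚ NfQb}

/-- The inclusion `F_N(K₀) → F_N(K₁)` for `K₀ ≤ K₁`. -/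
noncomputable def mgaIncl (h : K₀ ≤ K₁) (N : ℕ) :
    modularFunctionFieldFullC K₀ N →+* modularFunctionFieldFullC K₁ N :=
  mgaCoeffHom (IntermediateField.inclusion h).toRingHom N

@[simp]
theorem mgaIncl_coe (h : K₀ ≤ K₁) (N : ℕ) (x : modularFunctionFieldFullC K₀ N) :
    ((mgaIncl h N x : modularFunctionFieldFullC K₁ N) : LaurentSeries K₁)
      = coeffMap (IntermediateField.inclusion h).toRingHom (x : LaurentSeries K₀) := rfl

theorem mgaIncl_injective (h : K₀ ≤ K₁) (N : ℕ) : Function.Injective (mgaIncl h N) :=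
  (mgaIncl h N).injective

theorem mgaIncl_mgaConst (h : K₀ ≤ K₁) (N : ℕ) (c : K₀) :
    mgaIncl h N (mgaConst K₀ N c) = mgaConst K₁ N (IntermediateField.inclusion h c) :=
  mgaCoeffHom_mgaConst _ N c

/-- `nfEmb K₁ ∘ (F_N(K₀) → F_N(K₁)) = nfEmb K₀`. -/
theorem nfEmb_mgaIncl (h : K₀ ≤ K₁) (N : ℕ) (x : modularFunctionFieldFullC K₀ N) :
    nfEmb K₁ N (mgaIncl h N x) = nfEmb K₀ N x := by
  apply Subtype.ext
  rw [nfEmb_coe, nfEmb_coe, mgaIncl_coe]
  exact nf_coeffMap_inclusion h _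

/-- The inclusions are compatible with the Galois actions. -/
theorem mgAct_mgaIncl_comm (h : K₀ ≤ K₁) (σ : NfQb ≃ₐ[ℚ] NfQb) (hσ₀ : ∀ x ∈ K₀, σ x ∈ K₀)
    (hσ₁ : ∀ x ∈ K₁, σ x ∈ K₁) (N : ℕ) (x : modularFunctionFieldFullC K₀ N) :
    mgAct K₁ N σ hσ₁ (mgaIncl h N x) = mgaIncl h N (mgAct K₀ N σ hσ₀ x) := by
  rw [mgAct_eq_mgaCoeffHom, mgAct_eq_mgaCoeffHom, mgaIncl, mgaCoeffHom_comp, mgaCoeffHom_comp]
  exact mgaCoeffHom_congr (fun a => Subtype.ext rfl) N x

/-- **`σ` is the identity on the image of `F_N(E₀)`** when it fixes `E₀` pointwise. -/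
theorem mgAct_mgaIncl (h : K₀ ≤ K₁) (σ : NfQb ≃ₐ[ℚ] NfQb) (hσ : ∀ x ∈ K₁, σ x ∈ K₁)
    (hfix : ∀ x ∈ K₀, σ x = x) (N : ℕ) (x : modularFunctionFieldFullC K₀ N) :
    mgAct K₁ N σ hσ (mgaIncl h N x) = mgaIncl h N x := by
  rw [mgAct_eq_mgaCoeffHom, mgaIncl, mgaCoeffHom_comp]
  refine mgaCoeffHom_congr (fun a => ?_) N x
  apply Subtype.ext
  exact hfix a a.2

end Inclusion

section Stable

variable (σ : NfQb ≃ₐ[ℚ] NfQb)

/-- A normal extension of `ℚ` inside `ℚ̄` is stable under every automorphism. -/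
theorem mga_stable_of_normal (K : IntermediateField ℚ NfQb) [Normal ℚ K] :
    ∀ x ∈ K, σ x ∈ K := by
  intro x hx
  have := AlgEquiv.restrictNormal_commutes σ K ⟨x, hx⟩
  rw [IntermediateField.algebraMap_apply, IntermediateField.algebraMap_apply] at this
  rw [← this]
  exact (AlgEquiv.restrictNormal σ K ⟨x, hx⟩).2

/-- A pointwise fixed intermediate field is stable. -/
theorem mga_stable_of_fix {K : IntermediateField ℚ NfQb} (hfix : ∀ x ∈ K, σ x = x) :
    ∀ x ∈ K, σ x ∈ K := fun x hx => by rw [hfix x hx]; exact hx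

/-- The compositum of two stable intermediate fields is stable. -/
theorem mga_stable_sup {K₁ K₂ : IntermediateField ℚ NfQb} (h₁ : ∀ x ∈ K₁, σ x ∈ K₁)
    (h₂ : ∀ x ∈ K₂, σ x ∈ K₂) : ∀ x ∈ K₁ ⊔ K₂, σ x ∈ K₁ ⊔ K₂ := by
  have hle : K₁ ⊔ K₂ ≤ (K₁ ⊔ K₂).comap (σ : NfQb →ₐ[ℚ] NfQb) := by
    refine sup_le (fun x hx => ?_) (fun x hx => ?_)
    · exact (le_sup_left : K₁ ≤ K₁ ⊔ K₂) (h₁ x hx)
    · exact (le_sup_right : K₂ ≤ K₁ ⊔ K₂) (h₂ x hx)
  exact fun x hx => hle hx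

/-- Inertia fixes `E₀` pointwise. -/
theorem mga_fix_beta0 {A : ValuationSubring NfQb} {σ : NfQb ≃ₐ[ℚ] NfQb}
    (hσ : σ ∈ A.inertiaSubgroupIn ℚ) : ∀ x ∈ beta0Field A, σ x = x :=
  fun _ hx => mem_beta0Field.mp hx σ hσ

theorem mga_stable_beta0 {A : ValuationSubring NfQb} {σ : NfQb ≃ₐ[ℚ] NfQb}
    (hσ : σ ∈ A.inertiaSubgroupIn ℚ) : ∀ x ∈ beta0Field A, σ x ∈ beta0Field A :=
  mga_stable_of_fix σ (mga_fix_beta0 hσ)

/-- `E′ = E₀ ⊔ K` with `K/ℚ` normal is stable under inertia. -/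
theorem mga_stable_beta0_sup {A : ValuationSubring NfQb} {σ : NfQb ≃ₐ[ℚ] NfQb}
    (hσ : σ ∈ A.inertiaSubgroupIn ℚ) (K : IntermediateField ℚ NfQb) [Normal ℚ K] :
    ∀ x ∈ beta0Field A ⊔ K, σ x ∈ beta0Field A ⊔ K :=
  mga_stable_sup σ (mga_stable_beta0 hσ) (mga_stable_of_normal σ K)

/-- `E′/E₀` normal (every `E₀`-conjugate of an element of `E′` lies in `E′`) and `σ` fixes `E₀`
pointwise ⇒ `E′` is `σ`-stable. -/
theorem mga_stable_of_roots {E₀ E' : IntermediateField ℚ NfQb}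
    (hfix : ∀ x ∈ E₀, σ x = x)
    (hN : ∀ x ∈ E', ∀ y : NfQb, Polynomial.aeval y (minpoly E₀ x) = 0 → y ∈ E') :
    ∀ x ∈ E', σ x ∈ E' := by
  intro x hx
  refine hN x hx (σ x) ?_
  let σ' : NfQb →ₐ[E₀] NfQb :=
    { (σ : NfQb →+* NfQb) with
      commutes' := fun c => hfix c c.2 }
  have h1 : Polynomial.aeval (σ' x) (minpoly E₀ x) = σ' (Polynomial.aeval x (minpoly E₀ x)) :=
    Polynomial.aeval_algHom_apply σ' x _
  rw [minpoly.aeval, map_zero] at h1
  exact h1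

end Stable

section Inertia

variable {A : ValuationSubring NfQb} {σ : NfQb ≃ₐ[ℚ] NfQb}

/-- **Inertia is trivial modulo the uniformizer of `A ∩ E′`.** -/
theorem mga_inertia_sub_eq_mul (hσ : σ ∈ A.inertiaSubgroupIn ℚ)
    (E' : IntermediateField ℚ NfQb) (hE' : ∀ x ∈ E', σ x ∈ E')
    {π' : NfQb} (hπ'E : π' ∈ E') (hπ'0 : π' ≠ 0)
    (hunif : ∀ x ∈ E', x ∈ A.nonunits → x / π' ∈ A)
    {a : NfQb} (haE : a ∈ E') (haA : a ∈ A) :
    ∃ c ∈ E', c ∈ A ∧ σ a - a = π' * c := by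
  refine ⟨(σ a - a) / π', E'.div_mem (E'.sub_mem (hE' a haE) haE) hπ'E, ?_, ?_⟩
  · exact hunif _ (E'.sub_mem (hE' a haE) haE)
      (Fermat.Agent.S05.inertia_apply_sub_mem_nonunits hσ haA)
  · field_simp

/-- **Inertia moves a uniformizer of `A ∩ E′` by a unit**: `(σ π′ − π′) / π′ ∈ A ∩ E′`. -/
theorem mga_inertia_unif_mem (hσ : σ ∈ A.inertiaSubgroupIn ℚ)
    {E' : IntermediateField ℚ NfQb} (hE' : ∀ x ∈ E', σ x ∈ E')
    (π' : E') (hπ'A : (π' : NfQb) ∈ A)
    (hunif : ∀ x : E', (x : NfQb) ∈ A.nonunits → ((x / π' : E') : NfQb) ∈ A) :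
    (((mgRestrict E' σ hE' π' - π') / π' : E') : NfQb) ∈ A :=
  hunif _ (Fermat.Agent.S05.inertia_apply_sub_mem_nonunits hσ hπ'A)

end Inertia

section ChartConcrete

variable {A : ValuationSubring NfQb} {σ : NfQb ≃ₐ[ℚ] NfQb}

/-- **MG-3, chart form.**  `σ ∈ I`, `E₀ ≤ E′` with `σ` fixing `E₀` pointwise and stabilising `E′`,
`π′` a uniformizer of `A ∩ E′`, `R → F_N(E′)` with image in the image of `F_N(E₀)`, and the
constants `A ∩ E′` contained in `R[π′]`: then `σ b − b ∈ π′ R[π′]` for every `b ∈ R[π′]`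
(the hypothesis `hτB` of `ls_tau_localSubring` for `B = R[π′]`, `ϖ = π′`). -/
theorem mga_galAct_chart (hσ : σ ∈ A.inertiaSubgroupIn ℚ)
    {E₀ E' : IntermediateField ℚ NfQb} (hE₀ : E₀ ≤ E') (hfix : ∀ x ∈ E₀, σ x = x)
    (hE' : ∀ x ∈ E', σ x ∈ E') (N : ℕ)
    (π' : E') (hπ'0 : π' ≠ 0) (hπ'A : (π' : NfQb) ∈ A)
    (hunif : ∀ x : E', (x : NfQb) ∈ A.nonunits → ((x / π' : E') : NfQb) ∈ A)
    {R : Type*} [CommRing R] [Algebra R (modularFunctionFieldFullC E' N)]
    (hR : ∀ r : R, algebraMap R (modularFunctionFieldFullC E' N) r ∈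
        Set.range (mgaIncl hE₀ N))
    (hA' : ∀ c : E', (c : NfQb) ∈ A → mgaConst E' N c ∈ MgcChart R (mgaConst E' N π'))
    (b : MgcChart R (mgaConst E' N π')) :
    ∃ c : MgcChart R (mgaConst E' N π'),
      mgAct E' N σ hE' (algebraMap _ (modularFunctionFieldFullC E' N) b)
        = algebraMap _ (modularFunctionFieldFullC E' N)
            (b + nbcGen R (mgaConst E' N π') * c) := by
  have hR' : ∀ r : R, mgAct E' N σ hE' (algebraMap R (modularFunctionFieldFullC E' N) r)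
      = algebraMap R (modularFunctionFieldFullC E' N) r := by
    intro r
    obtain ⟨x, hx⟩ := hR r
    exact (congrArg _ hx.symm).trans ((mgAct_mgaIncl hE₀ σ hE' hfix N x).trans hx)
  exact mga_adjoin_hτB_const (mgaConst E' N) (mgAct E' N σ hE') (mgRestrict E' σ hE')
    (fun c => mgAct_mgaConst E' σ N hE' c) hR' π' hπ'0
    (hA' _ (mga_inertia_unif_mem hσ hE' π' hπ'A hunif)) b

/-- **MG-3, local form** (`hτO` of `ls_pwiShape`): at a prime `𝔫 ∋ π′` of the chart `R[π′]`,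
`σ ∈ I` preserves the local ring `R[π′]_𝔫` and is trivial modulo `π′ R[π′]_𝔫`. -/
theorem mga_galAct_hτO (hσ : σ ∈ A.inertiaSubgroupIn ℚ)
    {E₀ E' : IntermediateField ℚ NfQb} (hE₀ : E₀ ≤ E') (hfix : ∀ x ∈ E₀, σ x = x)
    (hE' : ∀ x ∈ E', σ x ∈ E') (N : ℕ)
    (π' : E') (hπ'0 : π' ≠ 0) (hπ'A : (π' : NfQb) ∈ A)
    (hunif : ∀ x : E', (x : NfQb) ∈ A.nonunits → ((x / π' : E') : NfQb) ∈ A)
    {R : Type*} [CommRing R] [Algebra R (modularFunctionFieldFullC E' N)]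
    (hR : ∀ r : R, algebraMap R (modularFunctionFieldFullC E' N) r ∈
        Set.range (mgaIncl hE₀ N))
    (hA' : ∀ c : E', (c : NfQb) ∈ A → mgaConst E' N c ∈ MgcChart R (mgaConst E' N π'))
    (𝔫 : Ideal (MgcChart R (mgaConst E' N π'))) [𝔫.IsPrime]
    (hϖ : nbcGen R (mgaConst E' N π') ∈ 𝔫)
    (x : ls_localSubring (F := modularFunctionFieldFullC E' N) 𝔫) :
    ∃ h : mgAct E' N σ hE' (x : modularFunctionFieldFullC E' N) ∈
          ls_localSubring (F := modularFunctionFieldFullC E' N) 𝔫,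
      (⟨_, h⟩ - x : ls_localSubring (F := modularFunctionFieldFullC E' N) 𝔫) ∈
        ls_localIdeal (F := modularFunctionFieldFullC E' N) 𝔫 (nbcGen R (mgaConst E' N π')) :=
  ls_tau_localSubring (F := modularFunctionFieldFullC E' N) Subtype.val_injective 𝔫 _ hϖ _
    (mga_galAct_chart hσ hE₀ hfix hE' N π' hπ'0 hπ'A hunif hR hA') x

end ChartConcrete

end Fermat.Agent.UNIP
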