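import Fermat.Agent.UNIP.MGSetup

/-!
# UNIP MG-7: prime powers suffice

* `mg_pow_of_prime_powers` : in a field, an element which is a `p ^ r`-th power for every prime
  power `p ^ r` dividing `m ≠ 0` is an `m`-th power (Bézout).
* `StmtUnipKummerAtPP N q` : `StmtUnipKummerAt N q` for exponents `m = p ^ r`, `p ≠ q` prime;
  `unipKummerAt_of_primePow : StmtUnipKummerAtPP N q → StmtUnipKummerAt N q`.
* `StmtUnipFieldPP N q` : the statement over a field of definition (`MGSetup.lean`) for prime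
  power exponents — THE TARGET OF MG-5;  `stmtUnipKummer_of_fieldPP`.
-/

set_option autoImplicit false

noncomputable section

namespace Fermat.Agent.UNIP

open ModularCurve AlgebraicCurve Fermat.Agent.ES Fermat.Agent.ES.G2 Fermat.Agent.INJ

/-- coprime exponents: `w = x ^ a = y ^ b`, `gcd a b = 1` ⇒ `w` is an `a b`-th power. -/
theorem mg_pow_mul_of_coprime {F : Type*} [Field F] {w x y : F} {a b : ℕ}
    (hab : Nat.Coprime a b) (hx : x ^ a = w) (hy : y ^ b = w) : ∃ h : F, h ^ (a * b) = w := by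
  by_cases hw : w = 0
  · by_cases ha : a = 0
    · subst ha
      rw [pow_zero] at hx
      exact absurd hw (hx ▸ one_ne_zero)
    · by_cases hb : b = 0
      · subst hb
        rw [pow_zero] at hy
        exact absurd hw (hy ▸ one_ne_zero)
      · exact ⟨0, by rw [zero_pow (Nat.mul_ne_zero ha hb), hw]⟩
  · -- Bézout
    have hbez : (a : ℤ) * Nat.gcdA a b + (b : ℤ) * Nat.gcdB a b = 1 := by
      have := Nat.gcd_eq_gcd_ab a b
      rw [hab.gcd_eq_one] at this
      exact_mod_cast this.symm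
    refine ⟨y ^ (Nat.gcdA a b) * x ^ (Nat.gcdB a b), ?_⟩
    have ey : (y ^ (Nat.gcdA a b)) ^ (a * b) = (y ^ b) ^ ((a : ℤ) * Nat.gcdA a b) := by
      rw [← zpow_natCast (y ^ Nat.gcdA a b) (a * b), ← zpow_mul, ← zpow_natCast y b, ← zpow_mul]
      congr 1
      push_cast
      ring
    have ex : (x ^ (Nat.gcdB a b)) ^ (a * b) = (x ^ a) ^ ((b : ℤ) * Nat.gcdB a b) := by
      rw [← zpow_natCast (x ^ Nat.gcdB a b) (a * b), ← zpow_mul, ← zpow_natCast x a, ← zpow_mul]
      congr 1
      push_cast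
      ring
    rw [mul_pow, ey, ex, hx, hy, ← zpow_add₀ hw, hbez, zpow_one]

/-- An element which is a `p ^ r`-th power for every prime power dividing `m` is an `m`-th
power. -/
theorem mg_pow_of_prime_powers {F : Type*} [Field F] (w : F) (m : ℕ)
    (h : ∀ p r : ℕ, p.Prime → p ^ r ∣ m → ∃ h : F, h ^ (p ^ r) = w) (hm : m ≠ 0) :
    ∃ h : F, h ^ m = w := by
  induction m using Nat.recOnPosPrimePosCoprime with
  | prime_pow p n hp hn => exact h p n hp dvd_rfl
  | zero => exact absurd rfl hm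
  | one => exact ⟨w, pow_one w⟩
  | coprime a b ha hb hab iha ihb =>
    obtain ⟨x, hx⟩ := iha (fun p r hp hd => h p r hp (hd.mul_right b)) (by omega)
    obtain ⟨y, hy⟩ := ihb (fun p r hp hd => h p r hp (hd.mul_left a)) (by omega)
    exact mg_pow_mul_of_coprime hab hx hy

/-- (UNIP) in Kummer form at level `N` and prime `q`, for prime power exponents only. -/
def StmtUnipKummerAtPP (N : ℕ) [NeZero N] (q : ℕ) : Prop :=
  ∀ A : ValuationSubring Qb, A.LiesOverPrime q →
    ∀ p : ℕ, p.Prime → p ≠ q → ∀ r : ℕ,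
      ∀ σ ∈ A.inertiaSubgroupIn ℚ, ∀ τ ∈ A.inertiaSubgroupIn ℚ,
        ∀ u : modularFunctionFieldBar N, u ≠ 0 →
          (∀ P : Place Qb (modularFunctionFieldBar N), ((p ^ r : ℕ) : ℤ) ∣ P.ord u) →
            ∃ h : modularFunctionFieldBar N,
              h ^ (p ^ r) =
                (arithmeticGalois (modularFunctionFieldFull N) τ •
                    ((arithmeticGalois (modularFunctionFieldFull N) σ • u) / u)) /
                  ((arithmeticGalois (modularFunctionFieldFull N) σ • u) / u)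

/-- MG-7: prime power exponents suffice. -/
theorem unipKummerAt_of_primePow (N : ℕ) [NeZero N] (q : ℕ) (hq : q.Prime)
    (h : StmtUnipKummerAtPP N q) : StmtUnipKummerAt N q := by
  intro A hA m hm σ hσ τ hτ u hu hdiv
  have hm0 : m ≠ 0 := by
    rintro rfl
    exact hm (dvd_zero q)
  refine mg_pow_of_prime_powers _ m (fun p r hp hd => ?_) hm0
  by_cases hr : r = 0
  · subst hr
    exact ⟨_, pow_one _⟩
  have hpq : p ≠ q := by
    rintro rfl
    exact hm (dvd_trans (dvd_pow_self p hr) hd)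
  refine h A hA p hp hpq r σ hσ τ hτ u hu (fun P => ?_)
  have h1 : ((p ^ r : ℕ) : ℤ) ∣ (m : ℤ) := by exact_mod_cast hd
  exact dvd_trans h1 (hdiv P)

/-- **Target of MG-5.**  (UNIP) over a field of definition `K₀` of `u` (chosen by the prover,
depending on `u`; in the application `E′ = ℚ̄^I · K₁`), for prime power exponents. -/
def StmtUnipFieldPP (N : ℕ) [NeZero N] (q : ℕ) : Prop :=
  ∀ A : ValuationSubring Qb, A.LiesOverPrime q →
    ∀ p : ℕ, p.Prime → p ≠ q → ∀ r : ℕ,
      ∀ σ ∈ A.inertiaSubgroupIn ℚ, ∀ τ ∈ A.inertiaSubgroupIn ℚ,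
        ∀ u : modularFunctionFieldBar N, u ≠ 0 →
          (∀ P : Place Qb (modularFunctionFieldBar N), ((p ^ r : ℕ) : ℤ) ∣ P.ord u) →
            ∃ (K₀ : IntermediateField ℚ Qb)
              (hσ : ∀ x ∈ K₀, σ x ∈ K₀) (hτ : ∀ x ∈ K₀, τ x ∈ K₀)
              (u₀ : modularFunctionFieldFullC K₀ N),
              nfEmb K₀ N u₀ = u ∧
                ∃ k : modularFunctionFieldFullC K₀ N, k ^ (p ^ r) = mgDD K₀ N σ τ hσ hτ u₀

theorem unipKummerAtPP_of_field (N : ℕ) [NeZero N] (q : ℕ) (h : StmtUnipFieldPP N q) :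
    StmtUnipKummerAtPP N q := by
  intro A hA p hp hpq r σ hσ τ hτ u hu hdiv
  obtain ⟨K₀, hσK, hτK, u₀, hu₀, k, hk⟩ := h A hA p hp hpq r σ hσ τ hτ u hu hdiv
  refine ⟨nfEmb K₀ N k, ?_⟩
  rw [← map_pow, hk, nfEmb_mgDD, hu₀]

/-- MG-1 + MG-7 + U11: `StmtUnipKummer` from the prime-power statement over fields of
definition at the levels where the base line of the INJ/KEY route exists. -/
theorem stmtUnipKummer_of_fieldPP
    (h : ∀ (N : ℕ) [NeZero N] (q : ℕ), q.Prime → q ∣ N → ¬ q ^ 2 ∣ N →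
      (q = 2 → 3 ∣ N) → (q = 3 → 2 ∣ N) → StmtUnipFieldPP N q) : StmtUnipKummer :=
  stmtUnipKummer_of_aux fun N _ q hq hqN hq2 h2 h3 =>
    unipKummerAt_of_primePow N q hq (unipKummerAtPP_of_field N q (h N q hq hqN hq2 h2 h3))

end Fermat.Agent.UNIP
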