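import Fermat.Agent.UNIP.AbstractT
import Fermat.Agent.UNIP.MGGalAct
import Fermat.Agent.UNIP.Beta0Inst
import Fermat.Agent.UNIP.MGPrimePow
import Fermat.Agent.INJ.BGFin
import Fermat.Agent.INJ.BGConstJ
import Fermat.Agent.S24.PlaceBasic
import Fermat.Agent.ES.HModular

/-!
# UNIP MG-5, part 1: the CONCRETE setting of the final instantiation of `at_main_two`

`A` a valuation subring of `ℚ̄` over `q`, `K₁` a number field (Galois over `ℚ`) in `ℚ̄`.

* `mgcE A K₁  = beta0Field A ⊔ K₁`                     (`E′`, an intermediate field of `ℚ̄/ℚ`)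
* `mgcA A K₁  = beta0Ring A (mgcE A K₁)`               (`A′ = A ∩ E′`, a `ValuationSubring ↥E′`)
* `mgcF A K₁ N = modularFunctionFieldFullC ↥E′ N`      (`F′ = F_N(E′)`)
* `mgcT A K₁ N = bgJ ↥E′ N`                            (the coordinate `j`)
* `mgcGal N σ hσ = mgGal N (mgaRestrictEquiv E′ σ hσ) : SemilinearAut ↥E′ ↥F′`

## Instances (IMPORTANT)

For `E : IntermediateField ℚ ℚ̄` the instance problems `Algebra ↥E ↥F_N(E)`, `Module …`,
`Algebra ↥(A ∩ E) ↥F_N(E)`, … are SLOW (they time out at the default `synthInstance` limit: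
the instances of `IntermediateField` for `↥E → ℚ̄ → X` are tried first).  This file registers
the instances found by Lean for a GENERIC field `K` (`mgcAlgGen`, …) at `K := ↥E` with high
priority (`mgcInstAlgebra`, `mgcInstModule`, `mgcInstSMul`, `mgcInstAlgebraA`, `mgcInstSMulA`,
`mgcInstModuleA`, `mgcInstTower`).  So: NO `letI` is needed for the algebra structures of the
concrete setting, and every generic lemma applies verbatim at `K := ↥E`.

The hypotheses of `at_main_two` which do not depend on the special fibre: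
`mgc_transcendental`, `mgc_finiteDimensional`, `mgc_hcl`, `mgc_smul_T`.
-/

set_option autoImplicit false
set_option linter.style.haveILetI false
set_option linter.unusedSectionVars false
set_option linter.unusedVariables false

noncomputable section

namespace Fermat.Agent.UNIP

open ModularCurve AlgebraicCurve Fermat.Agent.ES Fermat.Agent.ES.G2 Fermat.Agent.INJ
open IntermediateField

/-! ### the generic instances, named -/

section Generic

variable (K : Type*) [Field K] (N : ℕ)

/-- the `K`-algebra structure of `F_N(K)` (the one Lean finds) -/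
@[reducible] def mgcAlgGen : Algebra K ↥(modularFunctionFieldFullC K N) := inferInstance

/-- the `K`-module structure of `F_N(K)` (the one Lean finds) -/
@[reducible] def mgcModGen : Module K ↥(modularFunctionFieldFullC K N) := inferInstance

/-- the scalar multiplication of `K` on `F_N(K)` (the one Lean finds) -/
@[reducible] def mgcSMulGen : SMul K ↥(modularFunctionFieldFullC K N) := inferInstance

variable {K}

/-- the `A′`-algebra structure of `F_N(K)`, `A′` a valuation subring of `K` -/
@[reducible] def mgcAlgAGen (A' : ValuationSubring K) :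
    Algebra ↥A' ↥(modularFunctionFieldFullC K N) := inferInstance

set_option synthInstance.maxHeartbeats 400000 in
/-- the `A′`-module structure of `F_N(K)` -/
@[reducible] def mgcModAGen (A' : ValuationSubring K) :
    Module ↥A' ↥(modularFunctionFieldFullC K N) := inferInstance

set_option synthInstance.maxHeartbeats 400000 in
/-- the scalar multiplication of `A′` on `F_N(K)` -/
@[reducible] def mgcSMulAGen (A' : ValuationSubring K) :
    SMul ↥A' ↥(modularFunctionFieldFullC K N) := inferInstance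

set_option synthInstance.maxHeartbeats 400000 in
theorem mgcTowerGen (A' : ValuationSubring K) :
    IsScalarTower ↥A' K ↥(modularFunctionFieldFullC K N) := inferInstance

theorem mgcAlgAGen_algebraMap (A' : ValuationSubring K) (a : ↥A') :
    algebraMap ↥A' ↥(modularFunctionFieldFullC K N) a
      = algebraMap K ↥(modularFunctionFieldFullC K N) (a : K) := rfl

end Generic

/-! ### the fast instances for intermediate fields of `ℚ̄ / ℚ` -/

section Inst

variable (E : IntermediateField ℚ Qb) (N : ℕ)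

instance (priority := 100000) mgcInstAlgebra :
    Algebra ↥E ↥(modularFunctionFieldFullC ↥E N) := mgcAlgGen ↥E N

instance (priority := 100000) mgcInstModule :
    Module ↥E ↥(modularFunctionFieldFullC ↥E N) := mgcModGen ↥E N

instance (priority := 100000) mgcInstSMul :
    SMul ↥E ↥(modularFunctionFieldFullC ↥E N) := mgcSMulGen ↥E N

variable {E}

instance (priority := 100000) mgcInstAlgebraA (A' : ValuationSubring ↥E) :
    Algebra ↥A' ↥(modularFunctionFieldFullC ↥E N) := mgcAlgAGen N A'

instance (priority := 100000) mgcInstModuleA (A' : ValuationSubring ↥E) :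
    Module ↥A' ↥(modularFunctionFieldFullC ↥E N) := mgcModAGen N A'

instance (priority := 100000) mgcInstSMulA (A' : ValuationSubring ↥E) :
    SMul ↥A' ↥(modularFunctionFieldFullC ↥E N) := mgcSMulAGen N A'

instance (priority := 100000) mgcInstTower (A' : ValuationSubring ↥E) :
    IsScalarTower ↥A' ↥E ↥(modularFunctionFieldFullC ↥E N) := mgcTowerGen N A'

end Inst

section Concrete

variable (A : ValuationSubring Qb) (K₁ : IntermediateField ℚ Qb) (N : ℕ)

/-- `E′ = ℚ̄^I · K₁` -/
abbrev mgcE : IntermediateField ℚ Qb := beta0Field A ⊔ K₁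

/-- `A′ = A ∩ E′` -/
abbrev mgcA : ValuationSubring ↥(mgcE A K₁) := beta0Ring A (mgcE A K₁)

/-- `F′ = F_N(E′)` -/
abbrev mgcF : IntermediateField ↥(mgcE A K₁) (LaurentSeries ↥(mgcE A K₁)) :=
  modularFunctionFieldFullC ↥(mgcE A K₁) N

/-- the coordinate `j` of `F′` -/
def mgcT : ↥(mgcF A K₁ N) := bgJ ↥(mgcE A K₁) N

theorem mgcT_coe : ((mgcT A K₁ N : ↥(mgcF A K₁ N)) : LaurentSeries ↥(mgcE A K₁))
    = jqModC ↥(mgcE A K₁) := rfl

theorem mgc_transcendental : Transcendental ↥(mgcE A K₁) (mgcT A K₁ N) :=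
  bgConst_transcendental_bgJ ↥(mgcE A K₁) N

theorem mgc_finiteDimensional [NeZero N] :
    FiniteDimensional (↥(mgcE A K₁))⟮mgcT A K₁ N⟯ ↥(mgcF A K₁ N) :=
  bgFin_finiteDimensional_full (E := ↥(mgcE A K₁)) (N := N)

theorem mgc_hcl (x : ↥(mgcF A K₁ N)) (hx : IsAlgebraic ↥(mgcE A K₁) x) :
    x ∈ (algebraMap ↥(mgcE A K₁) ↥(mgcF A K₁ N)).range :=
  bgConst_mem_range_of_isAlgebraic (mgcF A K₁ N) x hx

variable {A K₁}

/-- the semilinear automorphism of `F′` induced by `σ` -/
def mgcGal (σ : Qb ≃ₐ[ℚ] Qb) (hσ : ∀ x ∈ mgcE A K₁, σ x ∈ mgcE A K₁) :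
    SemilinearAut ↥(mgcE A K₁) ↥(mgcF A K₁ N) :=
  mgGal N (mgaRestrictEquiv (mgcE A K₁) σ hσ)

theorem mgcGal_smul (σ : Qb ≃ₐ[ℚ] Qb) (hσ : ∀ x ∈ mgcE A K₁, σ x ∈ mgcE A K₁)
    (x : ↥(mgcF A K₁ N)) : mgcGal N σ hσ • x = mgAct (mgcE A K₁) N σ hσ x := rfl

/-- `σ̂ j = j` -/
theorem mgc_smul_T (σ : Qb ≃ₐ[ℚ] Qb) (hσ : ∀ x ∈ mgcE A K₁, σ x ∈ mgcE A K₁) :
    mgcGal N σ hσ • mgcT A K₁ N = mgcT A K₁ N := by
  rw [mgcGal_smul]
  apply Subtype.ext
  rw [mgAct_coe]
  exact coeffMap_jqModC _

/-- the conclusion of `at_main_two` is `mgDD` -/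
theorem mgc_mgDD_eq (σ τ : Qb ≃ₐ[ℚ] Qb) (hσ : ∀ x ∈ mgcE A K₁, σ x ∈ mgcE A K₁)
    (hτ : ∀ x ∈ mgcE A K₁, τ x ∈ mgcE A K₁) (u : ↥(mgcF A K₁ N)) :
    (mgcGal N τ hτ • (mgcGal N σ hσ • u / u)) / (mgcGal N σ hσ • u / u)
      = mgDD (mgcE A K₁) N σ τ hσ hτ u := rfl

end Concrete

end Fermat.Agent.UNIP
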