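import Fermat.Agent.UNIP.NodesFrob
import Fermat.Agent.S28.PrimeLevel

/-!
# UNIP, piece U5-Fr, part 2 (helper25): the inputs `hT`, `hne`, `hG4` of
`nodesHomData_of_frobenius` and transcendence, for a reduced coordinate `T ∈ k((Q))` of order `±1`

`Fr := qExpand k q : k((Q)) →+* k((Q))` (already a ring homomorphism).

* `nodesFrobU_G4`   : `∑ i : Fin q, Fr (a i) * T ^ i = 0 → ∀ i, a i = 0` if `ord T` is prime to `q`;
* `nodesFrobU_hne`  : `(T ^ q) ^ q ≠ T` if `ord T ≠ 0`, `2 ≤ q`;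
* `nodesFrobU_transcendental` : `T` is transcendental over `k` if `ord T ≠ 0`;
* instances `T = j̄` (reduction of `J`, order `-1`) and `T = j̄⁻¹` (reduction of `J⁻¹`, order `1`),
  with `hT : Fr T = T ^ q` in characteristic `q`.
-/

set_option autoImplicit false

noncomputable section

namespace Fermat.Agent.UNIP

open ModularCurve Polynomial IntermediateField Fermat.Agent.INJ

section Series

variable {k : Type*} [Field k]

/-- **(hG4)**, `Fin q`-shape, for any `T ≠ 0` whose order is prime to `q` -/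
theorem nodesFrobU_G4 (q : ℕ) [NeZero q] {T : LaurentSeries k} (hT0 : T ≠ 0)
    (hcop : IsCoprime T.order (q : ℤ)) (a : Fin q → LaurentSeries k)
    (h : ∑ i, qExpand k q (a i) * T ^ (i : ℕ) = 0) : ∀ i, a i = 0 := by
  set a' : ℕ → LaurentSeries k := fun n => if h : n < q then a ⟨n, h⟩ else 0 with ha'
  have h2 : ∑ n ∈ Finset.range q, qExpand k q (a' n) * T ^ n = 0 := by
    rw [← h, ← Fin.sum_univ_eq_sum_range (fun n => qExpand k q (a' n) * T ^ n) q]
    refine Finset.sum_congr rfl fun i _ => ?_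
    simp only [ha', dif_pos i.2]
  intro i
  have h3 := Fermat.Agent.S28.eq_zero_of_sum_qExpand_mul_pow_eq_zero hT0 hcop a' h2 i i.2
  simpa only [ha', dif_pos i.2] using h3

theorem nodesFrobU_ne_zero_of_order {T : LaurentSeries k} (hord : T.order ≠ 0) : T ≠ 0 := by
  rintro rfl
  exact hord HahnSeries.order_zero

/-- **(hne)**: `(T ^ q) ^ q ≠ T` if `ord T ≠ 0` and `2 ≤ q` -/
theorem nodesFrobU_hne {q : ℕ} (hq : 2 ≤ q) {T : LaurentSeries k} (hord : T.order ≠ 0) :
    (T ^ q) ^ q ≠ T := by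
  intro h
  have h1 := congrArg HahnSeries.order h
  rw [HahnSeries.order_pow, HahnSeries.order_pow, nsmul_eq_mul, nsmul_eq_mul] at h1
  have h2 : ((q : ℤ) * q - 1) * T.order = 0 := by linear_combination h1
  rcases mul_eq_zero.mp h2 with h3 | h3
  · have hq' : (2 : ℤ) ≤ q := by exact_mod_cast hq
    nlinarith
  · exact hord h3

theorem nodesFrobU_order_inv {T : LaurentSeries k} (hT0 : T ≠ 0) : (T⁻¹).order = -T.order := by
  have h1 := HahnSeries.order_mul hT0 (inv_ne_zero hT0)
  rw [mul_inv_cancel₀ hT0, HahnSeries.order_one] at h1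
  linarith

/-- **transcendence**: a series of nonzero order is transcendental over `k` -/
theorem nodesFrobU_transcendental {T : LaurentSeries k} (hord : T.order ≠ 0) :
    Transcendental k T := by
  have hT0 := nodesFrobU_ne_zero_of_order hord
  rcases lt_or_gt_of_ne hord with hneg | hpos
  · rw [transcendental_iff_injective]
    exact Fermat.Agent.S28.aeval_injective_of_order_neg hneg
  · have h1 : Transcendental k T⁻¹ := by
      rw [transcendental_iff_injective]
      refine Fermat.Agent.S28.aeval_injective_of_order_neg ?_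
      rw [nodesFrobU_order_inv hT0]
      linarith
    intro halg
    exact h1 halg.inv

/-- `Fr (T⁻¹) = (T⁻¹) ^ q` if `Fr T = T ^ q` -/
theorem nodesFrobU_hT_inv (q : ℕ) [NeZero q] {T : LaurentSeries k}
    (hT : qExpand k q T = T ^ q) : qExpand k q T⁻¹ = T⁻¹ ^ q := by
  rw [map_inv₀, hT, inv_pow]

/-- coprimality for order `-1` -/
theorem nodesFrobU_isCoprime_neg_one (q : ℕ) : IsCoprime (-1 : ℤ) (q : ℤ) :=
  (isCoprime_one_left (x := (q : ℤ))).neg_left

/-- coprimality for order `1` -/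
theorem nodesFrobU_isCoprime_one (q : ℕ) : IsCoprime (1 : ℤ) (q : ℤ) := isCoprime_one_left

end Series

/-! ## The two coordinates: `j̄` and `j̄⁻¹` -/

section Instances

variable (k : Type*) [Field k]

theorem nodesFrobU_order_j : (jqModC k).order = -1 := nodesFrob_order_jqModC

theorem nodesFrobU_order_jinv : ((jqModC k)⁻¹).order = 1 := by
  rw [nodesFrobU_order_inv (jqModC_ne_zero_of_nontrivial k), nodesFrob_order_jqModC, neg_neg]

theorem nodesFrobU_hT_j (q : ℕ) [hq : Fact q.Prime] [CharP k q] :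
    haveI : NeZero q := ⟨hq.out.ne_zero⟩
    qExpand k q (jqModC k) = jqModC k ^ q := by
  haveI : NeZero q := ⟨hq.out.ne_zero⟩
  have h2 := nodesFrob_qExpand_int (k := k) q (jqModC ℤ)
  rw [coeffMap_jqModC] at h2
  exact h2

theorem nodesFrobU_hT_jinv (q : ℕ) [hq : Fact q.Prime] [CharP k q] :
    haveI : NeZero q := ⟨hq.out.ne_zero⟩
    qExpand k q (jqModC k)⁻¹ = (jqModC k)⁻¹ ^ q := by
  haveI : NeZero q := ⟨hq.out.ne_zero⟩
  exact nodesFrobU_hT_inv q (nodesFrobU_hT_j k q)

theorem nodesFrobU_hne_j {q : ℕ} (hq : 2 ≤ q) : (jqModC k ^ q) ^ q ≠ jqModC k :=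
  nodesFrobU_hne hq (by rw [nodesFrobU_order_j]; norm_num)

theorem nodesFrobU_hne_jinv {q : ℕ} (hq : 2 ≤ q) :
    ((jqModC k)⁻¹ ^ q) ^ q ≠ (jqModC k)⁻¹ :=
  nodesFrobU_hne hq (by rw [nodesFrobU_order_jinv]; norm_num)

theorem nodesFrobU_G4_j (q : ℕ) [NeZero q] (a : Fin q → LaurentSeries k)
    (h : ∑ i, qExpand k q (a i) * jqModC k ^ (i : ℕ) = 0) : ∀ i, a i = 0 :=
  nodesFrobU_G4 q (jqModC_ne_zero_of_nontrivial k)
    (by rw [nodesFrobU_order_j]; exact nodesFrobU_isCoprime_neg_one q) a h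

theorem nodesFrobU_G4_jinv (q : ℕ) [NeZero q] (a : Fin q → LaurentSeries k)
    (h : ∑ i, qExpand k q (a i) * (jqModC k)⁻¹ ^ (i : ℕ) = 0) : ∀ i, a i = 0 :=
  nodesFrobU_G4 q (inv_ne_zero (jqModC_ne_zero_of_nontrivial k))
    (by rw [nodesFrobU_order_jinv]; exact nodesFrobU_isCoprime_one q) a h

theorem nodesFrobU_transcendental_j : Transcendental k (jqModC k) :=
  nodesFrobU_transcendental (by rw [nodesFrobU_order_j]; norm_num)

theorem nodesFrobU_transcendental_jinv : Transcendental k (jqModC k)⁻¹ :=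
  nodesFrobU_transcendental (by rw [nodesFrobU_order_jinv]; norm_num)

end Instances

/-! ## The reductions of `J` and `J⁻¹` -/

section Red

variable {A E k : Type*} [CommRing A] [IsDomain A] [Field E] [Algebra A E] [IsFractionRing A E]
  [Field k] (r : A →+* k)

/-- `j ∈ E((Q))` lies in the Gauss ring -/
theorem nodesFrobU_j_mem : jqModC E ∈ gaussRing (algebraMap A E) r := by
  rw [nodesFrobJ_coe' (A := A)]
  exact coeffMap_mem_gaussRing _ r _

/-- the reduction of `j` is `j̄` (for any proof of membership) -/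
theorem nodesFrobU_gaussRed_j (h : jqModC E ∈ gaussRing (algebraMap A E) r) :
    gaussRed r (IsFractionRing.injective A E) ⟨jqModC E, h⟩ = jqModC k := by
  have h1 : (⟨jqModC E, h⟩ : gaussRing (algebraMap A E) r) =
      ⟨coeffMap (algebraMap A E) (jqModC A), coeffMap_mem_gaussRing _ r _⟩ :=
    Subtype.ext (nodesFrobJ_coe' (A := A))
  rw [h1, gaussRed_coeffMap, coeffMap_jqModC]

/-- `j⁻¹ ∈ E((Q))` lies in the Gauss ring -/
theorem nodesFrobU_jinv_mem : (jqModC E)⁻¹ ∈ gaussRing (algebraMap A E) r := by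
  refine inv_mem_gaussRing r (IsFractionRing.injective A E) ⟨jqModC E, nodesFrobU_j_mem r⟩ ?_
  rw [nodesFrobU_gaussRed_j]
  exact jqModC_ne_zero_of_nontrivial k

/-- the reduction of `j⁻¹` is `j̄⁻¹` (for any proof of membership) -/
theorem nodesFrobU_gaussRed_jinv (h : (jqModC E)⁻¹ ∈ gaussRing (algebraMap A E) r) :
    gaussRed r (IsFractionRing.injective A E) ⟨(jqModC E)⁻¹, h⟩ = (jqModC k)⁻¹ := by
  have h1 := gaussRed_inv r (IsFractionRing.injective A E) ⟨jqModC E, nodesFrobU_j_mem r⟩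
    (by rw [nodesFrobU_gaussRed_j]; exact jqModC_ne_zero_of_nontrivial k)
  exact h1.trans (congrArg (fun z : LaurentSeries k => z⁻¹) (nodesFrobU_gaussRed_j r _))

/-- `j(Q^n) ∈ E((Q))` lies in the Gauss ring -/
theorem nodesFrobU_jn_mem (n : ℕ) [NeZero n] :
    qExpand E n (jqModC E) ∈ gaussRing (algebraMap A E) r :=
  nodesFrob_qExpand_mem r n (nodesFrobU_j_mem r)

/-- the reduction of `j(Q^n)` is `j̄(Q^n)` (for any proof of membership) -/
theorem nodesFrobU_gaussRed_jn (n : ℕ) [NeZero n]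
    (h : qExpand E n (jqModC E) ∈ gaussRing (algebraMap A E) r) :
    gaussRed r (IsFractionRing.injective A E) ⟨qExpand E n (jqModC E), h⟩ =
      qExpand k n (jqModC k) := by
  have h1 := nodesFrob_gaussRed_qExpand r n ⟨jqModC E, nodesFrobU_j_mem r⟩
  rw [nodesFrobU_gaussRed_j] at h1
  exact h1

/-- `j(Q^n)⁻¹ ∈ E((Q))` lies in the Gauss ring -/
theorem nodesFrobU_jninv_mem (n : ℕ) [NeZero n] :
    (qExpand E n (jqModC E))⁻¹ ∈ gaussRing (algebraMap A E) r := by
  rw [← map_inv₀]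
  exact nodesFrob_qExpand_mem r n (nodesFrobU_jinv_mem r)

/-- the reduction of `j(Q^n)⁻¹` is `j̄(Q^n)⁻¹` (for any proof of membership) -/
theorem nodesFrobU_gaussRed_jninv (n : ℕ) [NeZero n]
    (h : (qExpand E n (jqModC E))⁻¹ ∈ gaussRing (algebraMap A E) r) :
    gaussRed r (IsFractionRing.injective A E) ⟨(qExpand E n (jqModC E))⁻¹, h⟩ =
      (qExpand k n (jqModC k))⁻¹ := by
  have h1 := gaussRed_inv r (IsFractionRing.injective A E)
    ⟨qExpand E n (jqModC E), nodesFrobU_jn_mem r n⟩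
    (by
      rw [nodesFrobU_gaussRed_jn]
      exact (map_ne_zero_iff _ (qExpand_injective n)).mpr (jqModC_ne_zero_of_nontrivial k))
  exact h1.trans (congrArg (fun z : LaurentSeries k => z⁻¹) (nodesFrobU_gaussRed_jn r n _))

end Red

end Fermat.Agent.UNIP
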