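import Fermat.Agent.UNIP.NodesSwap
import Fermat.Agent.UNIP.NodesFrobU

/-!
# UNIP / U5 (Nodes), piece SWAP, part 2 (helper6): the chart `j`

Setting of `NodesSwap.lean`: `F = modularFunctionFieldFullC E (M * q)`, `w = AL.atkinLehner`,
`J = nodesFrobJ E M q`, `Jq = nodesFrobJq E M q`, `G = gaussRing (algebraMap A E) r`.

* `nodesSwap_isIntegral_Jq : IsIntegral A[J] Jq`, `nodesSwap_isIntegral_J : IsIntegral A[Jq] J`;
* `nodesSwap_w_algebraMap`, `nodesSwap_isIntegral_w` : `x` integral over `A[t]` ⟹ `w x` integral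
  over `A[w t]`;
* `nodesSwap_chartJ : IsIntegral A[J] x → IsIntegral A[J] (w x)` (`w_q` preserves the chart `j`);
* `nodesSwap_J_mem`, `nodesSwap_Jq_mem`, `nodesSwap_wJ_mem` : `J, Jq, w J ∈ G`;
* `nodesSwap_swap_J` : **(SWAP) on the chart `j`**, for every coordinate `t : F` whose series is
  `j` and any proofs `ht : t ∈ G`, `hwt : w t ∈ G`:
  `∀ b : B_t, ∃ b' : B_t, ρ b' = ρ₀ b ∧ ρ₀ b' = ρ b` with `ρ = nodesFrobChartRed … t ht`,
  `ρ₀ = nodesSwapRho₀ … w t hwt` (`b' = w b`);
* `nodesSwap_swapGen_J` : the generator form used by `nodesHomData_of_frobenius`: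
  `b₁ = Jq ∈ B_t` with `ρ b₁ = ρ₀ t`, `ρ₀ b₁ = ρ t`.
-/

set_option autoImplicit false
set_option linter.unusedSectionVars false

noncomputable section

namespace Fermat.Agent.UNIP

open ModularCurve Polynomial IntermediateField Fermat.Agent.INJ Fermat.Agent.AL Fermat.Agent.S28

section ChartJ

variable {A E k : Type*} [CommRing A] [IsDomain A] [Field E] [Algebra A E] [IsFractionRing A E]
  [Field k] (r : A →+* k) (ιC : E →+* ℂ) {π : A}
  {q M : ℕ} [NeZero q] [NeZero M] [NeZero (M * q)] (hq : q.Prime) (hqM : ¬ q ∣ M)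
  [Algebra A (modularFunctionFieldFullC E (M * q))]
  [IsScalarTower A E (modularFunctionFieldFullC E (M * q))]

/-- `Jq = j(Q^q)` is integral over `A[J]`. -/
theorem nodesSwap_isIntegral_Jq (hq : q.Prime) :
    IsIntegral (Algebra.adjoin A {nodesFrobJ E M q}) (nodesFrobJq E M q) :=
  nodesSwap_isIntegral_of_evalInt (A := A) (S := modularFunctionFieldFullC E (M * q))
    (nodesSwapPhi_monic q hq) (nodesSwapPhi_eval q hq E M)

/-- `J = j` is integral over `A[Jq]`. -/
theorem nodesSwap_isIntegral_J (hq : q.Prime) :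
    IsIntegral (Algebra.adjoin A {nodesFrobJq E M q}) (nodesFrobJ E M q) :=
  nodesSwap_isIntegral_of_evalInt (A := A) (S := modularFunctionFieldFullC E (M * q))
    (nodesSwapPhi_monic q hq) (nodesSwapPhi_eval' q hq E M)

/-- `w_q` fixes the constants of `A`. -/
theorem nodesSwap_w_algebraMap (a : A) :
    atkinLehner E ιC hq hqM (algebraMap A (modularFunctionFieldFullC E (M * q)) a) =
      algebraMap A (modularFunctionFieldFullC E (M * q)) a := by
  rw [IsScalarTower.algebraMap_apply A E (modularFunctionFieldFullC E (M * q)),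
    AlgEquiv.commutes]

/-- `x` integral over `A[t]` ⟹ `w x` integral over `A[w t]`. -/
theorem nodesSwap_isIntegral_w {t x : modularFunctionFieldFullC E (M * q)}
    (hx : IsIntegral (Algebra.adjoin A {t}) x) :
    IsIntegral (Algebra.adjoin A {atkinLehner E ιC hq hqM t}) (atkinLehner E ιC hq hqM x) :=
  cusp_isIntegral_adjoin_map (A := A) (S := modularFunctionFieldFullC E (M * q))
    (S' := modularFunctionFieldFullC E (M * q))
    ((atkinLehner E ιC hq hqM).toRingEquiv.toRingHom)
    (fun c => nodesSwap_w_algebraMap (A := A) (E := E) (M := M) (q := q) ιC hq hqM c)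
    (u := t) (y := x) hx

/-- **`w_q` preserves the chart `j`.** -/
theorem nodesSwap_chartJ {x : modularFunctionFieldFullC E (M * q)}
    (hx : IsIntegral (Algebra.adjoin A {nodesFrobJ E M q}) x) :
    IsIntegral (Algebra.adjoin A {nodesFrobJ E M q}) (atkinLehner E ιC hq hqM x) := by
  have h1 := nodesSwap_isIntegral_w (A := A) (E := E) (M := M) (q := q) ιC hq hqM
    (t := nodesFrobJ E M q) (x := x) hx
  rw [nodesFrob_atkinLehner_J] at h1
  exact cusp_isIntegral_adjoin_trans (A := A) (F := modularFunctionFieldFullC E (M * q))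
    (u := nodesFrobJ E M q) (T := nodesFrobJq E M q)
    (nodesSwap_isIntegral_Jq (A := A) (E := E) (M := M) (q := q) hq) h1

/-- `J` lies in the Gauss ring. -/
theorem nodesSwap_J_mem :
    ((nodesFrobJ E M q : modularFunctionFieldFullC E (M * q)) : LaurentSeries E) ∈
      gaussRing (algebraMap A E) r :=
  nodesFrobU_j_mem (A := A) (E := E) r

/-- `Jq` lies in the Gauss ring. -/
theorem nodesSwap_Jq_mem :
    ((nodesFrobJq E M q : modularFunctionFieldFullC E (M * q)) : LaurentSeries E) ∈
      gaussRing (algebraMap A E) r :=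
  nodesFrobU_jn_mem (A := A) (E := E) r q

/-- `w J` lies in the Gauss ring. -/
theorem nodesSwap_wJ_mem :
    (((atkinLehner E ιC hq hqM).toAlgHom (nodesFrobJ E M q) :
      modularFunctionFieldFullC E (M * q)) : LaurentSeries E) ∈ gaussRing (algebraMap A E) r := by
  show ((atkinLehner E ιC hq hqM (nodesFrobJ E M q) : modularFunctionFieldFullC E (M * q)) :
    LaurentSeries E) ∈ gaussRing (algebraMap A E) r
  rw [nodesFrob_atkinLehner_J]
  exact nodesSwap_Jq_mem (A := A) (E := E) (M := M) (q := q) r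

set_option synthInstance.maxHeartbeats 400000 in
/-- **(SWAP) on the chart `j`**: `b' = w_q b`. -/
theorem nodesSwap_swap_J [WfDvdMonoid A] (hπ0 : π ≠ 0) (hπ : ¬ IsUnit π)
    (hr : ∀ a, r a = 0 → π ∣ a) (hrπ : r π = 0)
    (t : modularFunctionFieldFullC E (M * q)) (htj : (t : LaurentSeries E) = jqModC E)
    (ht : (t : LaurentSeries E) ∈ gaussRing (algebraMap A E) r)
    (hwt : (((atkinLehner E ιC hq hqM).toAlgHom t :
      modularFunctionFieldFullC E (M * q)) : LaurentSeries E) ∈ gaussRing (algebraMap A E) r)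
    (b : integralClosure (Algebra.adjoin A {t}) (modularFunctionFieldFullC E (M * q))) :
    ∃ b' : integralClosure (Algebra.adjoin A {t}) (modularFunctionFieldFullC E (M * q)),
      nodesFrobChartRed (A := A) (E := E) r hπ0 hπ hr hrπ
          (nodesFrob_full_le (A := A) (E := E) (M * q)) t ht b' =
        nodesSwapRho₀ (A := A) (E := E) r hπ0 hπ hr hrπ
          (nodesFrob_full_le (A := A) (E := E) (M * q))
          (atkinLehner E ιC hq hqM).toAlgHom t hwt b ∧
      nodesSwapRho₀ (A := A) (E := E) r hπ0 hπ hr hrπ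
          (nodesFrob_full_le (A := A) (E := E) (M * q))
          (atkinLehner E ιC hq hqM).toAlgHom t hwt b' =
        nodesFrobChartRed (A := A) (E := E) r hπ0 hπ hr hrπ
          (nodesFrob_full_le (A := A) (E := E) (M * q)) t ht b := by
  obtain rfl : t = nodesFrobJ E M q := Subtype.ext htj
  refine ⟨⟨atkinLehner E ιC hq hqM (b : modularFunctionFieldFullC E (M * q)),
    nodesSwap_chartJ (A := A) (E := E) (M := M) (q := q) ιC hq hqM b.2⟩, rfl, ?_⟩
  have hw : atkinLehner E ιC hq hqM (atkinLehner E ιC hq hqM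
      (b : modularFunctionFieldFullC E (M * q))) = (b : modularFunctionFieldFullC E (M * q)) :=
    atkinLehner_invol E ιC hq hqM _
  show gaussRed r (IsFractionRing.injective A E)
      ⟨((atkinLehner E ιC hq hqM (atkinLehner E ιC hq hqM
        (b : modularFunctionFieldFullC E (M * q))) : modularFunctionFieldFullC E (M * q)) :
          LaurentSeries E), _⟩ =
    gaussRed r (IsFractionRing.injective A E)
      ⟨((b : modularFunctionFieldFullC E (M * q)) : LaurentSeries E), _⟩
  congr 1
  exact Subtype.ext (congrArg (fun z : modularFunctionFieldFullC E (M * q) =>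
    (z : LaurentSeries E)) hw)

set_option synthInstance.maxHeartbeats 400000 in
/-- **(SWAP) of the coordinate, chart `j`**: `b₁ = Jq` lies in the chart, `ρ b₁ = ρ₀ t` and
`ρ₀ b₁ = ρ t` (the input `b₁, hb₁, hb₁'` of `nodesHomData_of_frobenius`). -/
theorem nodesSwap_swapGen_J [WfDvdMonoid A] (hπ0 : π ≠ 0) (hπ : ¬ IsUnit π)
    (hr : ∀ a, r a = 0 → π ∣ a) (hrπ : r π = 0)
    (t : modularFunctionFieldFullC E (M * q)) (htj : (t : LaurentSeries E) = jqModC E)
    (ht : (t : LaurentSeries E) ∈ gaussRing (algebraMap A E) r)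
    (hwt : (((atkinLehner E ιC hq hqM).toAlgHom t :
      modularFunctionFieldFullC E (M * q)) : LaurentSeries E) ∈ gaussRing (algebraMap A E) r) :
    ∃ b₁ : integralClosure (Algebra.adjoin A {t}) (modularFunctionFieldFullC E (M * q)),
      ((b₁ : modularFunctionFieldFullC E (M * q)) : LaurentSeries E) = qExpand E q (jqModC E) ∧
      nodesFrobChartRed (A := A) (E := E) r hπ0 hπ hr hrπ
          (nodesFrob_full_le (A := A) (E := E) (M * q)) t ht b₁ = qExpand k q (jqModC k) ∧
      nodesSwapRho₀ (A := A) (E := E) r hπ0 hπ hr hrπ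
          (nodesFrob_full_le (A := A) (E := E) (M * q))
          (atkinLehner E ιC hq hqM).toAlgHom t hwt b₁ = jqModC k := by
  obtain rfl : t = nodesFrobJ E M q := Subtype.ext htj
  refine ⟨⟨nodesFrobJq E M q,
    nodesSwap_isIntegral_Jq (A := A) (E := E) (M := M) (q := q) hq⟩, rfl, ?_, ?_⟩
  · exact nodesFrobU_gaussRed_jn (A := A) (E := E) r q _
  · have hw : atkinLehner E ιC hq hqM (nodesFrobJq E M q) = nodesFrobJ E M q :=
      nodesFrob_atkinLehner_Jq ιC hq hqM
    have h1 : ((atkinLehner E ιC hq hqM (nodesFrobJq E M q) :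
        modularFunctionFieldFullC E (M * q)) : LaurentSeries E) = jqModC E := by
      rw [hw]; rfl
    show gaussRed r (IsFractionRing.injective A E)
      ⟨((atkinLehner E ιC hq hqM (nodesFrobJq E M q) :
        modularFunctionFieldFullC E (M * q)) : LaurentSeries E), _⟩ = jqModC k
    have h2 : jqModC E ∈ gaussRing (algebraMap A E) r := nodesFrobU_j_mem (A := A) (E := E) r
    rw [← nodesFrobU_gaussRed_j (A := A) (E := E) r h2]
    congr 1
    exact Subtype.ext h1

end ChartJ

end Fermat.Agent.UNIP
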