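import Fermat.Agent.UNIP.MGVertInertia
import Fermat.Agent.UNIP.NodesSwapJ
import Fermat.Agent.RED.ResField

/-!
# UNIP MG-8b (helper3): `hne` (`V_∞ ≠ V_0`), the separating elements, and the abstract `hVloc`

* `mgvl_pow_mul_mem`, `mgvl_vloc_abs` (generic, Mathlib only): `B` = the elements of a field `F`
  integral over `R`, `V₁ V₂ ⊇ B` valuation subrings, `p` a uniformizer of `V₁` on `B`, (SS1)
  `B ∩ 𝔪(V₁) ∩ 𝔪(V₂) ⊆ p B`, a separating element `s ∈ B ∩ 𝔪(V₂)`, `s ∉ 𝔪(V₁)`, `F = Frac B`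
  ⟹ every `x ∈ V₁` has a denominator in `B ∖ 𝔪(V₁)` (the shape of `hVloc` of `at_main_two`).
* generic base `hB : VtBase (algebraMap A E) r π`, residue characteristic `q`, level `M q`:
  `c = nodesFrobC E M q = j(Q^q) − j^q`:
  `mgvl_C_mem_true : c ∈ 𝔪(V_∞)`, `mgvl_C_not_mem_false : c ∉ 𝔪(V_0)`,
  `mgvl_wC_mem_false : w_q c ∈ 𝔪(V_0)`, `mgvl_wC_not_mem_true : w_q c ∉ 𝔪(V_∞)`,
  `mgvl_isIntegral_C`, `mgvl_isIntegral_wC` (both are integral over `A[j]`),
  **`mgvl_vtFam_ne : vtFam hB ιC hq hqM true ≠ vtFam hB ιC hq hqM false`**.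
* concrete setting of `MGVertInertia.lean` (`A ∩ K₀` a DVR, `A` over `q`):
  `mgvl_charP`, **`mgvl_hne : mgvV hπ ιC hq hqM true ≠ mgvV hπ ιC hq hqM false`**,
  `mgvl_hsep`, `mgvl_hsep'`.
-/

set_option autoImplicit false
set_option linter.unusedSectionVars false
set_option linter.style.haveILetI false

noncomputable section

namespace Fermat.Agent.UNIP

open ModularCurve AlgebraicCurve Fermat.Agent.ES Fermat.Agent.ES.G2 Fermat.Agent.INJ
open Fermat.Agent.AL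

section Abs

variable {R F : Type*} [CommRing R] [Field F] [Algebra R F]

/-- a product with a non-unit factor (the other factor in `V`) is a non-unit -/
theorem mgvl_mul_mem_nonunits (V : ValuationSubring F) {a b : F} (ha : a ∈ V)
    (hb : b ∈ V.nonunits) : a * b ∈ V.nonunits := by
  rw [ValuationSubring.mem_nonunits_iff, map_mul]
  have h1 := (V.valuation_le_one_iff a).2 ha
  have h2 := (ValuationSubring.mem_nonunits_iff (A := V)).1 hb
  calc V.valuation a * V.valuation b ≤ 1 * V.valuation b := by gcongr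
    _ = V.valuation b := one_mul _
    _ < 1 := h2

/-- **Key induction.**  `B` = the elements of `F` integral over `R`, `V₁ V₂ ⊇ B`, `p ∈ 𝔪(V₁)`,
(SS1) `B ∩ 𝔪(V₁) ∩ 𝔪(V₂) ⊆ p B`, `s ∈ B ∩ 𝔪(V₂)`: for `y ∈ B` with `y / p ^ n ∈ V₁`,
`y * s ^ n ∈ p ^ n B`. -/
theorem mgvl_pow_mul_mem (V₁ V₂ : ValuationSubring F) {p s : F}
    (hBV₁ : ∀ b : F, IsIntegral R b → b ∈ V₁) (hBV₂ : ∀ b : F, IsIntegral R b → b ∈ V₂)
    (hp0 : p ≠ 0) (hp₁ : p ∈ V₁.nonunits)
    (hSS1 : ∀ b : F, IsIntegral R b → b ∈ V₁.nonunits → b ∈ V₂.nonunits →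
      ∃ b' : F, IsIntegral R b' ∧ b = p * b')
    (hs : IsIntegral R s) (hs₂ : s ∈ V₂.nonunits) :
    ∀ (n : ℕ) (y : F), IsIntegral R y → y / p ^ n ∈ V₁ →
      ∃ y' : F, IsIntegral R y' ∧ y * s ^ n = p ^ n * y' := by
  intro n
  induction n with
  | zero =>
    intro y hy _
    exact ⟨y, hy, by simp⟩
  | succ n ih =>
    intro y hy hyV
    -- `y ∈ 𝔪(V₁)`
    have hy₁ : y ∈ V₁.nonunits := by
      have e : y = y / p ^ (n + 1) * p ^ n * p := by
        field_simp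
        ring
      rw [e]
      exact mgvl_mul_mem_nonunits V₁
        (V₁.mul_mem _ _ hyV (V₁.pow_mem (V₁.nonunits_le hp₁) n)) hp₁
    have hys : IsIntegral R (y * s) := hy.mul hs
    have h1 : y * s ∈ V₁.nonunits := by
      rw [mul_comm]
      exact mgvl_mul_mem_nonunits V₁ (hBV₁ s hs) hy₁
    have h2 : y * s ∈ V₂.nonunits := mgvl_mul_mem_nonunits V₂ (hBV₂ y hy) hs₂
    obtain ⟨z, hz, hyz⟩ := hSS1 _ hys h1 h2
    have hzV : z / p ^ n ∈ V₁ := by
      have e : z / p ^ n = y / p ^ (n + 1) * s := by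
        have : z = y * s / p := by rw [hyz]; field_simp
        rw [this]
        field_simp
        ring
      rw [e]
      exact V₁.mul_mem _ _ hyV (hBV₁ s hs)
    obtain ⟨z', hz', hzz'⟩ := ih z hz hzV
    refine ⟨z', hz', ?_⟩
    calc y * s ^ (n + 1) = (y * s) * s ^ n := by ring
      _ = p * (z * s ^ n) := by rw [hyz]; ring
      _ = p ^ (n + 1) * z' := by rw [hzz']; ring

/-- **MG-8b, abstract form of `hVloc`.**  `B` = the elements of `F` integral over `R`,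
`V₁ V₂ ⊇ B` valuation subrings, `p ∈ B ∩ 𝔪(V₁)` a uniformizer of `V₁` on `B`
(`hunif`), (SS1) `B ∩ 𝔪(V₁) ∩ 𝔪(V₂) ⊆ p B`, a separating element `s ∈ B ∩ 𝔪(V₂)`,
`s ∉ 𝔪(V₁)`, and `F = Frac B` (`hfrac`).  Then every `x ∈ V₁` has a denominator in
`B ∖ 𝔪(V₁)`. -/
theorem mgvl_vloc_abs (V₁ V₂ : ValuationSubring F) {p s : F}
    (hBV₁ : ∀ b : F, IsIntegral R b → b ∈ V₁) (hBV₂ : ∀ b : F, IsIntegral R b → b ∈ V₂)
    (hp0 : p ≠ 0) (hp₁ : p ∈ V₁.nonunits)
    (hSS1 : ∀ b : F, IsIntegral R b → b ∈ V₁.nonunits → b ∈ V₂.nonunits →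
      ∃ b' : F, IsIntegral R b' ∧ b = p * b')
    (hs : IsIntegral R s) (hs₂ : s ∈ V₂.nonunits) (hs₁ : s ∉ V₁.nonunits)
    (hunif : ∀ b : F, IsIntegral R b → b ≠ 0 → ∃ n : ℕ, V₁.valuation (b / p ^ n) = 1)
    (hfrac : ∀ x : F, ∃ a b : F, IsIntegral R a ∧ IsIntegral R b ∧ b ≠ 0 ∧ b * x = a)
    {x : F} (hx : x ∈ V₁) :
    ∃ b t : F, IsIntegral R b ∧ IsIntegral R t ∧ t ∉ V₁.nonunits ∧ t * x = b := by
  obtain ⟨a, b, ha, hb, hb0, hbx⟩ := hfrac x
  obtain ⟨n, hn⟩ := hunif b hb hb0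
  have hsV : s ∈ V₁ := hBV₁ s hs
  have hs1 : V₁.valuation s = 1 := by
    have h1 := (V₁.valuation_le_one_iff s).2 hsV
    have h2 : ¬ V₁.valuation s < 1 := fun h =>
      hs₁ ((ValuationSubring.mem_nonunits_iff (A := V₁)).2 h)
    exact le_antisymm h1 (not_lt.1 h2)
  have hbV : b / p ^ n ∈ V₁ := (V₁.valuation_le_one_iff _).1 hn.le
  obtain ⟨bn, hbn, hbbn⟩ := mgvl_pow_mul_mem V₁ V₂ hBV₁ hBV₂ hp0 hp₁ hSS1 hs hs₂ n b hb hbV
  have hpn0 : p ^ n ≠ 0 := pow_ne_zero _ hp0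
  -- `bn = (b / p ^ n) * s ^ n` is a unit of `V₁`
  have hbn_eq : bn = b / p ^ n * s ^ n := by
    field_simp
    rw [hbbn]; ring
  have hbn1 : V₁.valuation bn = 1 := by
    rw [hbn_eq, map_mul, map_pow, hn, hs1, one_pow, one_mul]
  -- `y = a * s ^ n`, `y / p ^ n = x * bn ∈ V₁`
  have hy : IsIntegral R (a * s ^ n) := ha.mul (hs.pow n)
  have hyV : a * s ^ n / p ^ n ∈ V₁ := by
    have e : a * s ^ n / p ^ n = x * bn := by
      rw [hbn_eq, ← hbx]
      field_simp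
    rw [e]
    exact V₁.mul_mem _ _ hx ((V₁.valuation_le_one_iff _).1 hbn1.le)
  obtain ⟨y', hy', hyy'⟩ := mgvl_pow_mul_mem V₁ V₂ hBV₁ hBV₂ hp0 hp₁ hSS1 hs hs₂ n _ hy hyV
  refine ⟨y', bn * s ^ n, hy', hbn.mul (hs.pow n), ?_, ?_⟩
  · rw [ValuationSubring.mem_nonunits_iff, map_mul, map_pow, hbn1, hs1, one_pow, one_mul]
    exact lt_irrefl _
  · have e : bn * s ^ n * x = a * s ^ n * s ^ n / p ^ n := by
      rw [hbn_eq, ← hbx]
      field_simp
    rw [e, hyy']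
    field_simp

end Abs

section Sep

variable {A E k : Type*} [CommRing A] [IsDomain A] [Field E] [Algebra A E] [IsFractionRing A E]
  [Field k] {r : A →+* k} {π : A} (hB : VtBase (algebraMap A E) r π) (ιC : E →+* ℂ)
  {q M : ℕ} [NeZero q] [NeZero M] [NeZero (M * q)] (hq : q.Prime) (hqM : ¬ q ∣ M)

/-- `w_q (j − j(Q^q)^q) = j(Q^q) − j^q` -/
theorem mgvl_atkinLehner_wC :
    atkinLehner E ιC hq hqM (atkinLehner E ιC hq hqM (nodesFrobC E M q)) = nodesFrobC E M q := by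
  rw [nodesFrob_atkinLehner_C, map_sub, map_pow, nodesFrob_atkinLehner_J,
    nodesFrob_atkinLehner_Jq]
  rfl

variable [Fact q.Prime] [CharP k q]

/-- **(sep)** `c = j(Q^q) − j^q ∈ 𝔪(V_∞)` (Kronecker's congruence) -/
theorem mgvl_C_mem_true : nodesFrobC E M q ∈ (vtFam hB ιC hq hqM true).nonunits := by
  rw [vtFam_mem_nonunits_iff]
  exact ⟨nodesFrobC_mem r, nodesFrob_G5_infty r⟩

/-- **(sep)** `c = j(Q^q) − j^q ∉ 𝔪(V_0)` -/
theorem mgvl_C_not_mem_false : nodesFrobC E M q ∉ (vtFam hB ιC hq hqM false).nonunits := by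
  rw [vtFam_mem_nonunits_iff]
  rintro ⟨h, h0⟩
  exact nodesFrob_G5_zero r ιC hq hqM h0

/-- **(sep)** `w_q c = j − j(Q^q)^q ∈ 𝔪(V_0)` -/
theorem mgvl_wC_mem_false :
    atkinLehner E ιC hq hqM (nodesFrobC E M q) ∈ (vtFam hB ιC hq hqM false).nonunits := by
  rw [vtFam_mem_nonunits_iff]
  have e : vtEmbFam ιC hq hqM false (atkinLehner E ιC hq hqM (nodesFrobC E M q)) =
      ((nodesFrobC E M q : modularFunctionFieldFullC E (M * q)) : LaurentSeries E) := by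
    show ((atkinLehner E ιC hq hqM (atkinLehner E ιC hq hqM (nodesFrobC E M q)) :
      modularFunctionFieldFullC E (M * q)) : LaurentSeries E) = _
    rw [mgvl_atkinLehner_wC]
  have hmem : vtEmbFam ιC hq hqM false (atkinLehner E ιC hq hqM (nodesFrobC E M q)) ∈
      gaussRing (algebraMap A E) r := by
    rw [e]; exact nodesFrobC_mem r
  refine ⟨hmem, ?_⟩
  have e2 : (⟨_, hmem⟩ : gaussRing (algebraMap A E) r) =
      ⟨_, nodesFrobC_mem (E := E) (M := M) (q := q) r⟩ := Subtype.ext e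
  rw [e2]
  exact nodesFrob_G5_infty r

/-- **(sep)** `w_q c = j − j(Q^q)^q ∉ 𝔪(V_∞)` -/
theorem mgvl_wC_not_mem_true :
    atkinLehner E ιC hq hqM (nodesFrobC E M q) ∉ (vtFam hB ιC hq hqM true).nonunits := by
  rw [vtFam_mem_nonunits_iff]
  rintro ⟨h, h0⟩
  exact nodesFrob_G5_zero r ιC hq hqM h0

/-- **hne** (generic base): the two vertical valuation rings are different -/
theorem mgvl_vtFam_ne : vtFam hB ιC hq hqM true ≠ vtFam hB ιC hq hqM false := by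
  intro h
  have h1 := mgvl_C_mem_true hB ιC hq hqM
  rw [h] at h1
  exact mgvl_C_not_mem_false hB ιC hq hqM h1

end Sep

section Integral

variable {A E : Type*} [CommRing A] [IsDomain A] [Field E] [Algebra A E] [IsFractionRing A E]
  (ιC : E →+* ℂ) {q M : ℕ} [NeZero q] [NeZero M] [NeZero (M * q)] (hq : q.Prime) (hqM : ¬ q ∣ M)
  [Algebra A (modularFunctionFieldFullC E (M * q))]
  [IsScalarTower A E (modularFunctionFieldFullC E (M * q))]

theorem mgvl_isIntegral_J :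
    IsIntegral (Algebra.adjoin A {nodesFrobJ E M q}) (nodesFrobJ E M q) :=
  isIntegral_algebraMap (R := Algebra.adjoin A {nodesFrobJ E M q})
    (x := ⟨nodesFrobJ E M q, Algebra.subset_adjoin (Set.mem_singleton _)⟩)

include hq in
/-- `c = j(Q^q) − j^q` is integral over `A[j]` -/
theorem mgvl_isIntegral_C :
    IsIntegral (Algebra.adjoin A {nodesFrobJ E M q}) (nodesFrobC E M q) :=
  (nodesSwap_isIntegral_Jq (A := A) (E := E) (M := M) (q := q) hq).sub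
    ((mgvl_isIntegral_J (A := A) (E := E) (M := M) (q := q)).pow q)

/-- `w_q c = j − j(Q^q)^q` is integral over `A[j]` -/
theorem mgvl_isIntegral_wC :
    IsIntegral (Algebra.adjoin A {nodesFrobJ E M q})
      (atkinLehner E ιC hq hqM (nodesFrobC E M q)) := by
  rw [nodesFrob_atkinLehner_C]
  exact (mgvl_isIntegral_J (A := A) (E := E) (M := M) (q := q)).sub
    ((nodesSwap_isIntegral_Jq (A := A) (E := E) (M := M) (q := q) hq).pow q)

end Integral

section Concrete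

variable {A : ValuationSubring Qb} {K₀ : IntermediateField ℚ Qb}

/-- the residue field of `A ∩ K₀` has characteristic `q` -/
theorem mgvl_charP {q : ℕ} (hq : q.Prime) (hA : A.LiesOverPrime q) :
    CharP (IsLocalRing.ResidueField ↥(beta0Ring A K₀)) q := by
  apply Fermat.Agent.RED.charP_residueField (beta0Ring A K₀) hq
  rw [vt_mem_nonunits_comap, map_natCast]
  exact hA

variable [IsDiscreteValuationRing ↥(beta0Ring A K₀)] {π : ↥(beta0Ring A K₀)}
  (hπ : Irreducible π) (ιC : ↥K₀ →+* ℂ) {q M : ℕ} [NeZero q] [NeZero M] [NeZero (M * q)]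
  (hq : q.Prime) (hqM : ¬ q ∣ M)

/-- **hne** in the concrete setting: `V_∞ ≠ V_0`. -/
theorem mgvl_hne (hA : A.LiesOverPrime q) :
    mgvV hπ ιC hq hqM true ≠ mgvV hπ ιC hq hqM false := by
  haveI : Fact q.Prime := ⟨hq⟩
  haveI : CharP (IsLocalRing.ResidueField ↥(beta0Ring A K₀)) q := mgvl_charP hq hA
  exact mgvl_vtFam_ne (vtBase_residue hπ) ιC hq hqM

/-- the separating element `c = j(Q^q) − j^q`: `c ∈ 𝔪(V_∞)`, `c ∉ 𝔪(V_0)` -/
theorem mgvl_hsep (hA : A.LiesOverPrime q) :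
    nodesFrobC ↥K₀ M q ∈ (mgvV hπ ιC hq hqM true).nonunits ∧
      nodesFrobC ↥K₀ M q ∉ (mgvV hπ ιC hq hqM false).nonunits := by
  haveI : Fact q.Prime := ⟨hq⟩
  haveI : CharP (IsLocalRing.ResidueField ↥(beta0Ring A K₀)) q := mgvl_charP hq hA
  exact ⟨mgvl_C_mem_true (vtBase_residue hπ) ιC hq hqM,
    mgvl_C_not_mem_false (vtBase_residue hπ) ιC hq hqM⟩

/-- the mirrored separating element `w_q c = j − j(Q^q)^q`: `∈ 𝔪(V_0)`, `∉ 𝔪(V_∞)` -/
theorem mgvl_hsep' (hA : A.LiesOverPrime q) :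
    atkinLehner ↥K₀ ιC hq hqM (nodesFrobC ↥K₀ M q) ∈ (mgvV hπ ιC hq hqM false).nonunits ∧
      atkinLehner ↥K₀ ιC hq hqM (nodesFrobC ↥K₀ M q) ∉ (mgvV hπ ιC hq hqM true).nonunits := by
  haveI : Fact q.Prime := ⟨hq⟩
  haveI : CharP (IsLocalRing.ResidueField ↥(beta0Ring A K₀)) q := mgvl_charP hq hA
  exact ⟨mgvl_wC_mem_false (vtBase_residue hπ) ιC hq hqM,
    mgvl_wC_not_mem_true (vtBase_residue hπ) ιC hq hqM⟩

end Concrete

end Fermat.Agent.UNIP
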