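import Fermat.Agent.ES.G2.Unram
import Fermat.Agent.S34.Plan

/-!
# UNIP: the modular target `StmtUnipKummer` and the glue to `S34.ESUnip`

`F_N = modularFunctionFieldBar N`, `q ∥ N`, `A ⊂ ℚ̄` a valuation subring over `q`, `σ, τ` in the
inertia group of `A`, `m` prime to `q`.

* `StmtUnipKummer` : for `u ∈ F_N^×` with `m ∣ ord_P u` at every place, the function
  `(τ − 1)(σ − 1) u = τ(σu / u) / (σu / u)` is an `m`-th power in `F_N`.
  (Target of the direct route of `NOTES/S34-plan.md`: Lemma N, Lemma U, explicit idempotents.)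
* `esUnip_of_stmtUnipKummer` : `StmtUnipKummer → S34.ESUnip N p (JZero N)`.
-/

set_option autoImplicit false

noncomputable section

namespace Fermat.Agent.UNIP

open ModularCurve AlgebraicCurve Fermat.Agent.ES Fermat.Agent.ES.G2

/-- **(UNIP)** in Kummer form.  `q ∥ N`, `q ∤ m`, `σ, τ` inertia at `A ∣ q`, `u ∈ F_N^×` with
divisor in `m · Div`: then `(τ − 1)(σ − 1) u` is an `m`-th power. -/
def StmtUnipKummer : Prop :=
  ∀ (N : ℕ) [NeZero N] (q : ℕ), q.Prime → q ∣ N → ¬ q ^ 2 ∣ N →
    ∀ A : ValuationSubring Qb, A.LiesOverPrime q →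
      ∀ m : ℕ, ¬ q ∣ m →
        ∀ σ ∈ A.inertiaSubgroupIn ℚ, ∀ τ ∈ A.inertiaSubgroupIn ℚ,
          ∀ u : modularFunctionFieldBar N, u ≠ 0 →
            (∀ P : Place Qb (modularFunctionFieldBar N), (m : ℤ) ∣ P.ord u) →
              ∃ h : modularFunctionFieldBar N,
                h ^ m =
                  (arithmeticGalois (modularFunctionFieldFull N) τ •
                      ((arithmeticGalois (modularFunctionFieldFull N) σ • u) / u)) /
                    ((arithmeticGalois (modularFunctionFieldFull N) σ • u) / u)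

end Fermat.Agent.UNIP
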