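/-
UNIP (item 34, S34/S35), piece U11 "Descent" (helper20).

`StmtUnipKummerAt N q` : the body of `StmtUnipKummer` (`UNIP/Stmt.lean`) at a fixed level `N` and a
fixed prime `q`.
* `stmtUnipKummer_iff` : `StmtUnipKummer ↔ ∀ N q, q prime, q ∥ N → StmtUnipKummerAt N q`.
* `unipKummerAt_descent` : if `q' ∤ N` is a prime with `q' + 1 = q ^ k`, then
  `StmtUnipKummerAt (N * q') q → StmtUnipKummerAt N q`  (norm descent: `[F_{Nq'} : F_N] = q' + 1` is
  prime to every `m` prime to `q`).
* `stmtUnipKummer_of_aux` : it is enough to prove `StmtUnipKummerAt N q` for the levels `N` with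
  `q ∥ N`, `(q = 2 → 3 ∣ N)` and `(q = 3 → 2 ∣ N)`  (the levels where the base line of the INJ/KEY
  route is available: `j`-line for `q ≥ 5`, `X₀(2)`-line for `q = 3`, `X₀(3)`-line for `q = 2`).
-/
import Fermat.Agent.UNIP.Stmt
import Fermat.Agent.ES.G2.HeckeDeg
import Fermat.Agent.INJ.Descent

set_option autoImplicit false

noncomputable section

namespace Fermat.Agent.UNIP

open ModularCurve AlgebraicCurve Fermat.Agent.ES Fermat.Agent.ES.G2

/-- (UNIP) in Kummer form at a fixed level `N` and prime `q`. -/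
def StmtUnipKummerAt (N : ℕ) [NeZero N] (q : ℕ) : Prop :=
  ∀ A : ValuationSubring Qb, A.LiesOverPrime q →
    ∀ m : ℕ, ¬ q ∣ m →
      ∀ σ ∈ A.inertiaSubgroupIn ℚ, ∀ τ ∈ A.inertiaSubgroupIn ℚ,
        ∀ u : modularFunctionFieldBar N, u ≠ 0 →
          (∀ P : Place Qb (modularFunctionFieldBar N), (m : ℤ) ∣ P.ord u) →
            ∃ h : modularFunctionFieldBar N,
              h ^ m =
                (arithmeticGalois (modularFunctionFieldFull N) τ •
                    ((arithmeticGalois (modularFunctionFieldFull N) σ • u) / u)) /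
                  ((arithmeticGalois (modularFunctionFieldFull N) σ • u) / u)

theorem stmtUnipKummer_iff :
    StmtUnipKummer ↔
      ∀ (N : ℕ) [NeZero N] (q : ℕ), q.Prime → q ∣ N → ¬ q ^ 2 ∣ N → StmtUnipKummerAt N q :=
  Iff.rfl

section Generic

variable {k E : Type*} [Field k] [Field E] [Algebra k E]

theorem unip_finite_extendScalars {A B : IntermediateField k E} (h : A ≤ B)
    (hfin : A.relfinrank B ≠ 0) : FiniteDimensional A (IntermediateField.extendScalars h) := by
  have h1 : A.relrank B < Cardinal.aleph0 := by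
    by_contra hge
    exact hfin (by
      rw [IntermediateField.relfinrank_eq_toNat_relrank, Cardinal.toNat_eq_zero]
      exact Or.inr (not_lt.mp hge))
  rw [IntermediateField.relrank_eq_rank_of_le h] at h1
  exact Module.rank_lt_aleph0_iff.mp h1

/-- norm descent for `A ≤ B` in terms of `relfinrank` -/
theorem unip_descent_generic {A B : IntermediateField k E} (h : A ≤ B)
    (hfin : A.relfinrank B ≠ 0) {m : ℕ} (hcop : Nat.Coprime (A.relfinrank B) m)
    (u h' : E) (hu : u ∈ A) (hh : h' ∈ B) (huh : u = h' ^ m) : ∃ g ∈ A, u = g ^ m := by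
  haveI := unip_finite_extendScalars h hfin
  refine Fermat.Agent.INJ.descent_pow_intermediate A B h ?_ u h' hu hh huh
  rw [← IntermediateField.relfinrank_eq_finrank_of_le h]
  exact hcop

end Generic

theorem unip_isIntegral_of_finite {R S : Type*} [Field R] [Field S] (f : R →+* S)
    (h : letI := f.toAlgebra; FiniteDimensional R S) : f.IsIntegral := by
  letI := f.toAlgebra
  intro x
  exact Algebra.IsIntegral.isIntegral (R := R) x

/-- the `q`-expansion of `(τ − 1)(σ − 1) u` -/
theorem unip_coe_double (N : ℕ) (σ τ : Qb ≃ₐ[ℚ] Qb) (u : modularFunctionFieldBar N) :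
    (((arithmeticGalois (modularFunctionFieldFull N) τ •
        ((arithmeticGalois (modularFunctionFieldFull N) σ • u) / u)) /
          ((arithmeticGalois (modularFunctionFieldFull N) σ • u) / u) :
            modularFunctionFieldBar N) : LaurentSeries Qb) =
      coeffMap (τ : Qb →+* Qb)
          (coeffMap (σ : Qb →+* Qb) (u : LaurentSeries Qb) / (u : LaurentSeries Qb)) /
        (coeffMap (σ : Qb →+* Qb) (u : LaurentSeries Qb) / (u : LaurentSeries Qb)) := rfl

/-- divisibility of the orders pulls back along `F_N ⊂ F_{N q'}` -/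
theorem unip_dvd_ord_pullback (N q' : ℕ) [NeZero N] [NeZero q'] [NeZero (N * q')]
    (hq' : q'.Prime) (hq'N : ¬ q' ∣ N) (m : ℕ) (u : modularFunctionFieldBar N)
    (hdvd : ∀ P : Place Qb (modularFunctionFieldBar N), (m : ℤ) ∣ P.ord u)
    (P : Place Qb (modularFunctionFieldBar (N * q'))) :
    (m : ℤ) ∣ P.ord (heckeAlphaBar Qb N q' u) := by
  have hαint : (heckeAlphaBar Qb N q').toRingHom.IsIntegral :=
    unip_isIntegral_of_finite _ (hdeg_finiteDimensional N q' hq' hq'N)
  rw [Place.ord_restrictAlong (heckeAlphaBar Qb N q') hαint P u]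
  exact Dvd.dvd.mul_left (hdvd _) _

/-- the `q`-expansion of `(τ − 1)(σ − 1) (α u)` is that of `(τ − 1)(σ − 1) u` -/
theorem unip_coe_double_alpha (N q' : ℕ) [NeZero N] [NeZero q'] (σ τ : Qb ≃ₐ[ℚ] Qb) (u : modularFunctionFieldBar N) :
    (((arithmeticGalois (modularFunctionFieldFull (N * q')) τ •
        ((arithmeticGalois (modularFunctionFieldFull (N * q')) σ • (heckeAlphaBar Qb N q' u)) /
          (heckeAlphaBar Qb N q' u))) /
          ((arithmeticGalois (modularFunctionFieldFull (N * q')) σ • (heckeAlphaBar Qb N q' u)) /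
            (heckeAlphaBar Qb N q' u)) :
            modularFunctionFieldBar (N * q')) : LaurentSeries Qb) =
      coeffMap (τ : Qb →+* Qb)
          (coeffMap (σ : Qb →+* Qb) (u : LaurentSeries Qb) / (u : LaurentSeries Qb)) /
        (coeffMap (σ : Qb →+* Qb) (u : LaurentSeries Qb) / (u : LaurentSeries Qb)) := by
  rw [unip_coe_double, coe_heckeAlphaBar]

/-- **Norm descent of (UNIP)** along `F_N ⊂ F_{N'}`, `N' = N * q'`, when the degree `q' + 1` is a
power of `q`. -/
theorem unipKummerAt_descent (N q q' : ℕ) [NeZero N] [NeZero q'] [NeZero (N * q')]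
    (hq : q.Prime) (hq' : q'.Prime) (hq'N : ¬ q' ∣ N) (k : ℕ) (hk : q' + 1 = q ^ k)
    (H : StmtUnipKummerAt (N * q') q) : StmtUnipKummerAt N q := by
  intro A hA m hm σ hσ τ hτ u hu hdvd
  have hle : modularFunctionFieldBar N ≤ modularFunctionFieldBar (N * q') := hdeg_bar_le N q'
  have hrel : (modularFunctionFieldBar N).relfinrank (modularFunctionFieldBar (N * q')) = q' + 1 :=
    hdeg_relfinrank N q' hq' hq'N
  have hαu : heckeAlphaBar Qb N q' u ≠ 0 :=
    (map_ne_zero_iff _ (heckeAlphaBar Qb N q').toRingHom.injective).mpr hu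
  obtain ⟨h', hh'⟩ := H A hA m hm σ hσ τ hτ (heckeAlphaBar Qb N q' u) hαu
    (unip_dvd_ord_pullback N q' hq' hq'N m u hdvd)
  -- descend
  have hcop : Nat.Coprime ((modularFunctionFieldBar N).relfinrank
      (modularFunctionFieldBar (N * q'))) m := by
    rw [hrel, hk]
    exact Nat.Coprime.pow_left k ((Nat.Prime.coprime_iff_not_dvd hq).mpr hm)
  have hw' : coeffMap (τ : Qb →+* Qb)
          (coeffMap (σ : Qb →+* Qb) (u : LaurentSeries Qb) / (u : LaurentSeries Qb)) /
        (coeffMap (σ : Qb →+* Qb) (u : LaurentSeries Qb) / (u : LaurentSeries Qb)) =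
      (h' : LaurentSeries Qb) ^ m := by
    rw [← unip_coe_double_alpha N q' σ τ u, ← hh']
    exact SubmonoidClass.coe_pow h' m
  have hwmem : coeffMap (τ : Qb →+* Qb)
          (coeffMap (σ : Qb →+* Qb) (u : LaurentSeries Qb) / (u : LaurentSeries Qb)) /
        (coeffMap (σ : Qb →+* Qb) (u : LaurentSeries Qb) / (u : LaurentSeries Qb)) ∈
      modularFunctionFieldBar N := by
    rw [← unip_coe_double N σ τ u]
    exact Subtype.property _
  obtain ⟨g, hg, hgw⟩ := unip_descent_generic hle
    (by rw [hrel]; exact Nat.succ_ne_zero q') hcop _ (h' : LaurentSeries Qb) hwmem h'.2 hw'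
  refine ⟨⟨g, hg⟩, ?_⟩
  apply Subtype.ext
  rw [unip_coe_double, hgw]
  exact (SubmonoidClass.coe_pow (⟨g, hg⟩ : modularFunctionFieldBar N) m).symm

/-- **U11.** It is enough to prove (UNIP) at the levels where the base line of the KEY route is
available. -/
theorem stmtUnipKummer_of_aux
    (H : ∀ (N : ℕ) [NeZero N] (q : ℕ), q.Prime → q ∣ N → ¬ q ^ 2 ∣ N →
      (q = 2 → 3 ∣ N) → (q = 3 → 2 ∣ N) → StmtUnipKummerAt N q) :
    StmtUnipKummer := by
  rw [stmtUnipKummer_iff]
  intro N _ q hq hqN hq2
  by_cases h2 : q = 2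
  · subst h2
    by_cases h3 : 3 ∣ N
    · exact H N 2 hq hqN hq2 (fun _ => h3) (fun h => absurd h (by decide))
    · have : NeZero (N * 3) := ⟨Nat.mul_ne_zero (NeZero.ne N) (by decide)⟩
      refine unipKummerAt_descent N 2 3 hq (by decide) h3 2 (by norm_num) ?_
      refine H (N * 3) 2 hq (Dvd.dvd.mul_right hqN 3) ?_ (fun _ => Dvd.intro_left N rfl)
        (fun h => absurd h (by decide))
      intro h4
      have hc : Nat.Coprime (2 ^ 2) 3 := by decide
      exact hq2 (hc.dvd_of_dvd_mul_right h4)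
  · by_cases h3 : q = 3
    · subst h3
      by_cases h2' : 2 ∣ N
      · exact H N 3 hq hqN hq2 (fun h => absurd h (by decide)) (fun _ => h2')
      · have : NeZero (N * 2) := ⟨Nat.mul_ne_zero (NeZero.ne N) (by decide)⟩
        refine unipKummerAt_descent N 3 2 hq (by decide) h2' 1 (by norm_num) ?_
        refine H (N * 2) 3 hq (Dvd.dvd.mul_right hqN 2) ?_ (fun h => absurd h (by decide))
          (fun _ => Dvd.intro_left N rfl)
        intro h4
        have hc : Nat.Coprime (3 ^ 2) 2 := by decide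
        exact hq2 (hc.dvd_of_dvd_mul_right h4)
    · exact H N q hq hqN hq2 (fun h => absurd h h2) (fun h => absurd h h3)

end Fermat.Agent.UNIP
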