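import Fermat.Agent.INJ.PlaceBridge

/-!
# UNIP / D2 — Lemma U (unit criterion on a normal arithmetic surface chart)

Setting of `INJ/PlaceBridge.lean`: `A₀` a DVR with uniformizer `π`, `E = Frac A₀` of characteristic
`0`, `Lf / E(τ)` finite, and `B` *any* commutative ring with an injective `algebraMap B Lf` whose
image is the integral closure of `A₀[τ]` in `Lf` (e.g. `integralClosure (Algebra.adjoin A₀ {τ}) Lf`,
`INJ.zchClosure {τ}`, or a tensor product that has been shown to be normal).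

`𝔫` a prime of `B`, `vert` a finite set of primes of `B` containing `π` with `πB = ⋂ vert`
(the vertical primes, (SS1)).

**Lemma U (one-sided)** `unip_unitCrit_mem`: if `ε ∈ Lf` has `ord_P ε ≥ 0` at every place `P` of
`Lf / E` with `ord_P τ ≥ 0` whose centre on `B` lies in `𝔫` (horizontal primes through `𝔫`), and
`ε ∈ B_𝔭` for every `𝔭 ∈ vert` with `𝔭 ≤ 𝔫`, then `ε ∈ B_𝔫`, i.e. `s ε ∈ B` for some `s ∉ 𝔫`.

**Lemma U (units)** `unip_unitCrit_unit`: if moreover the orders are `0` and `ε` is a unit of `B_𝔭`,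
then `s ε = t` with `s, t ∈ B ∖ 𝔫`.
-/

set_option autoImplicit false
set_option linter.style.haveILetI false
set_option linter.unusedSectionVars false

namespace Fermat.Agent.UNIP

open AlgebraicCurve IntermediateField Polynomial Fermat.Agent.S24 Fermat.Agent.INJ

section Dedekind

variable {R F : Type*} [CommRing R] [IsDedekindDomain R] [Field F] [Algebra R F]
  [IsFractionRing R F]

/-- **Denominators avoid a multiplicative set.**  `R` Dedekind with fraction field `F`, `S` a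
submonoid of `R`.  If `ε ∈ F` is integral at every nonzero prime of `R` that is disjoint from `S`,
then `s ε ∈ R` for some `s ∈ S`. -/
theorem unip_exists_mem_submonoid_mul_mem (S : Submonoid R) (ε : F)
    (h : ∀ w : IsDedekindDomain.HeightOneSpectrum R, Disjoint (w.asIdeal : Set R) S →
      w.valuation F ε ≤ 1) :
    ∃ s ∈ S, ∃ r : R, algebraMap R F s * ε = algebraMap R F r := by
  classical
  -- the denominator ideal
  let D : Ideal R :=
    { carrier := {x | ∃ r : R, algebraMap R F x * ε = algebraMap R F r}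
      add_mem' := by
        rintro a b ⟨r₁, h₁⟩ ⟨r₂, h₂⟩
        exact ⟨r₁ + r₂, by rw [map_add, add_mul, h₁, h₂, map_add]⟩
      zero_mem' := ⟨0, by simp⟩
      smul_mem' := by
        rintro c a ⟨r, hr⟩
        exact ⟨c * r, by rw [smul_eq_mul, map_mul, mul_assoc, hr, map_mul]⟩ }
  have hD : ∀ x : R, x ∈ D ↔ ∃ r : R, algebraMap R F x * ε = algebraMap R F r := fun _ => Iff.rfl
  by_contra hcon
  have hdisj : Disjoint (D : Set R) S := by
    rw [Set.disjoint_left]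
    intro x hxD hxS
    obtain ⟨r, hr⟩ := (hD x).mp hxD
    exact hcon ⟨x, hxS, r, hr⟩
  obtain ⟨p, hp, hDp, hpS⟩ := Ideal.exists_le_prime_disjoint D S hdisj
  -- `D ≠ ⊥`
  obtain ⟨a, d, hdmem, hd⟩ := IsFractionRing.div_surjective (A := R) ε
  have hd0 : (d : R) ≠ 0 := nonZeroDivisors.ne_zero hdmem
  have hdF : algebraMap R F d ≠ 0 := by
    intro h0
    exact hd0 ((IsFractionRing.injective R F) (by rw [h0, map_zero]))
  have hdD : d ∈ D := (hD d).mpr ⟨a, by rw [← hd]; field_simp⟩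
  have hp0 : p ≠ ⊥ := by
    rintro rfl
    exact hd0 (by simpa using hDp hdD)
  let w : IsDedekindDomain.HeightOneSpectrum R := ⟨p, hp, hp0⟩
  obtain ⟨n, ⟨x, hx⟩, hnx⟩ := w.exists_primeCompl_mul_eq_of_integer (K := F) ε (h w hpS)
  have hxD : x ∈ D := (hD x).mpr ⟨n, by rw [mul_comm]; exact hnx⟩
  exact hx (hDp hxD)

end Dedekind

section Horizontal

variable {A₀ E Lf B : Type*} [CommRing A₀] [IsDomain A₀] [IsDiscreteValuationRing A₀]
  [Field E] [CharZero E] [Algebra A₀ E] [IsFractionRing A₀ E]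
  [Field Lf] [Algebra E Lf] [Algebra A₀ Lf] [IsScalarTower A₀ E Lf]
  [CommRing B] [Algebra B Lf]

/-- `A₀[τ]` is contained in the integral closure of `E[τ]`. -/
theorem unip_adjoin_le_intClosure (τ : Lf) :
    ∀ r ∈ Algebra.adjoin A₀ {τ}, r ∈ intClosure (K := E) τ := by
  letI := polyAlgebra (K := E) τ
  intro r hr
  induction hr using Algebra.adjoin_induction with
  | mem x hx =>
    rw [Set.mem_singleton_iff] at hx
    rw [hx]
    have h := (intClosure (K := E) τ).algebraMap_mem (X : E[X])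
    rwa [polyAlgebra_algebraMap_apply, aeval_X] at h
  | algebraMap a =>
    have h := (intClosure (K := E) τ).algebraMap_mem (C (algebraMap A₀ E a) : E[X])
    rwa [polyAlgebra_algebraMap_apply, aeval_C, ← IsScalarTower.algebraMap_apply A₀ E Lf] at h
  | add x y _ _ hx hy => exact Subalgebra.add_mem _ hx hy
  | mul x y _ _ hx hy => exact Subalgebra.mul_mem _ hx hy

/-- integrality over `A₀[τ]` implies integrality over `E[X]` (acting through `X ↦ τ`). -/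
theorem unip_isIntegral_poly_of_adjoin (τ x : Lf)
    (hx : IsIntegral (Algebra.adjoin A₀ {τ}) x) :
    letI := polyAlgebra (K := E) τ
    IsIntegral E[X] x := by
  letI := polyAlgebra (K := E) τ
  obtain ⟨p, hp, hpx⟩ := hx
  let ι : Algebra.adjoin A₀ {τ} →+* intClosure (K := E) τ :=
    (algebraMap (Algebra.adjoin A₀ {τ}) Lf).codRestrict (intClosure (K := E) τ).toSubring
      (fun r => unip_adjoin_le_intClosure (E := E) τ r.1 r.2)
  have hint : IsIntegral (intClosure (K := E) τ) x := by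
    refine ⟨p.map ι, hp.map ι, ?_⟩
    rw [Polynomial.eval₂_map]
    exact hpx
  have h2 : x ∈ integralClosure (intClosure (K := E) τ) Lf := hint
  rw [integralClosure_idem] at h2
  obtain ⟨y, hy⟩ := Algebra.mem_bot.mp h2
  rw [← hy]
  exact y.2

/-- **Lemma U, horizontal step.**  If `ε` has nonnegative order at all places with `0 ≤ ord τ`
centred in `𝔫`, then `π ^ k * (s * ε) ∈ B` for some `s ∉ 𝔫` and some `k`. -/
theorem unip_unitCrit_horizontal {π : A₀} (hπ : Irreducible π) (τ : Lf)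
    (hτ : Transcendental E τ) [FiniteDimensional E⟮τ⟯ Lf]
    (hB : ∀ x : Lf, x ∈ (algebraMap B Lf).range ↔ IsIntegral (Algebra.adjoin A₀ {τ}) x)
    (𝔫 : Ideal B) [𝔫.IsPrime] (ε : Lf)
    (hH : ∀ P : Place E Lf, 0 ≤ P.ord τ →
      (∀ b : B, 0 < P.ord (algebraMap B Lf b) → b ∈ 𝔫) → 0 ≤ P.ord ε) :
    ∃ (s : B) (k : ℕ), s ∉ 𝔫 ∧
      algebraMap A₀ Lf π ^ k * (algebraMap B Lf s * ε) ∈ (algebraMap B Lf).range := by
  classical
  letI := polyAlgebra (K := E) τ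
  obtain ⟨hDed, hFrac, -⟩ := intClosure_facts (K := E) τ hτ
  haveI := hDed
  haveI := hFrac
  have hK : ∀ a : E, ∃ r : intClosure (K := E) τ,
      algebraMap (intClosure (K := E) τ) Lf r = algebraMap E Lf a := by
    intro a
    refine ⟨algebraMap E[X] (intClosure (K := E) τ) (C a), ?_⟩
    rw [← IsScalarTower.algebraMap_apply E[X] (intClosure (K := E) τ) Lf,
      polyAlgebra_algebraMap_apply, aeval_C]
  have hτ0 : τ ≠ 0 := fun h => hτ (h ▸ isAlgebraic_zero)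
  have hτB : ∀ w : IsDedekindDomain.HeightOneSpectrum (intClosure (K := E) τ),
      w.valuation Lf τ ≤ 1 := by
    intro w
    have : algebraMap (intClosure (K := E) τ) Lf
        (algebraMap E[X] (intClosure (K := E) τ) X) = τ := by
      rw [← IsScalarTower.algebraMap_apply E[X] (intClosure (K := E) τ) Lf,
        polyAlgebra_algebraMap_apply, aeval_X]
    have h := w.valuation_le_one (K := Lf) (algebraMap E[X] (intClosure (K := E) τ) X)
    exact le_of_eq_of_le (congrArg (w.valuation Lf) this.symm) h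
  -- the multiplicative set `B ∖ 𝔫` inside the integral closure of `E[τ]`
  let S : Submonoid (intClosure (K := E) τ) :=
    { carrier := {x | ∃ b : B, b ∉ 𝔫 ∧
        algebraMap B Lf b = algebraMap (intClosure (K := E) τ) Lf x}
      one_mem' := ⟨1, fun h => (Ideal.IsPrime.ne_top inferInstance)
        ((Ideal.eq_top_iff_one 𝔫).mpr h), by simp⟩
      mul_mem' := by
        rintro x y ⟨b, hb, hbx⟩ ⟨c, hc, hcy⟩
        refine ⟨b * c, fun h => ?_, by rw [map_mul, map_mul, hbx, hcy]⟩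
        rcases Ideal.IsPrime.mem_or_mem inferInstance h with h | h
        · exact hb h
        · exact hc h }
  have hS : ∀ x : intClosure (K := E) τ, x ∈ S ↔ ∃ b : B, b ∉ 𝔫 ∧
      algebraMap B Lf b = algebraMap (intClosure (K := E) τ) Lf x := fun _ => Iff.rfl
  obtain ⟨s, hsS, r, hsr⟩ := unip_exists_mem_submonoid_mul_mem (F := Lf) S ε (fun w hw => by
    have h1 : 0 ≤ (placeOfPrime (K := E) hK w).ord τ := by
      rw [PlaceAux.ord_nonneg_iff _ hτ0, placeOfPrime_toValuationSubring,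
        Valuation.mem_valuationSubring_iff]
      exact hτB w
    have h2 : ∀ b : B, 0 < (placeOfPrime (K := E) hK w).ord (algebraMap B Lf b) → b ∈ 𝔫 := by
      intro b hb
      by_contra hbn
      have hb0 : algebraMap B Lf b ≠ 0 := by
        intro h0
        rw [h0, Place.ord_zero] at hb
        exact lt_irrefl _ hb
      have hbint : algebraMap B Lf b ∈ intClosure (K := E) τ :=
        unip_isIntegral_poly_of_adjoin (E := E) τ _ ((hB _).mp ⟨b, rfl⟩)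
      let x : intClosure (K := E) τ := ⟨algebraMap B Lf b, hbint⟩
      have hxS : x ∈ S := (hS x).mpr ⟨b, hbn, rfl⟩
      have hxw : x ∈ w.asIdeal := by
        rw [← w.valuation_lt_one_iff_mem (K := Lf)]
        change w.valuation Lf (algebraMap B Lf b) < 1
        obtain ⟨-, h4⟩ := (PlaceAux.ord_pos_iff _ hb0).mp hb
        rw [placeOfPrime_toValuationSubring, Valuation.mem_valuationSubring_iff, map_inv₀,
          not_le] at h4
        have hv0 : 0 < w.valuation Lf (algebraMap B Lf b) :=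
          zero_lt_iff.mpr ((Valuation.ne_zero_iff _).mpr hb0)
        exact (one_lt_inv₀ hv0).mp h4
      exact Set.disjoint_left.mp hw hxw hxS
    have h3 := hH _ h1 h2
    have h4 := PlaceAux.mem_of_ord_nonneg _ h3
    rwa [placeOfPrime_toValuationSubring, Valuation.mem_valuationSubring_iff] at h4)
  obtain ⟨b, hbn, hbs⟩ := (hS s).mp hsS
  have hint : IsIntegral E[X] (algebraMap B Lf b * ε) := by
    rw [hbs, hsr]
    exact r.2
  obtain ⟨k, hk⟩ := exists_pow_mul_isIntegral hπ τ _ hint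
  exact ⟨b, k, hbn, (hB _).mpr hk⟩

end Horizontal

section Vertical

variable {A₀ Lf B : Type*} [CommRing A₀] [Field Lf] [Algebra A₀ Lf] [CommRing B] [Algebra B Lf]

/-- A multiplier outside the prime `𝔫` lying in every member of `vert` that is not contained
in `𝔫`. -/
theorem unip_exists_multiplier (𝔫 : Ideal B) [𝔫.IsPrime] (vert : Finset (Ideal B)) :
    ∃ c : B, c ∉ 𝔫 ∧ ∀ 𝔭 ∈ vert, ¬ 𝔭 ≤ 𝔫 → c ∈ 𝔭 := by
  classical
  have h1 : (1 : B) ∉ 𝔫 := fun h =>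
    (Ideal.IsPrime.ne_top inferInstance) ((Ideal.eq_top_iff_one 𝔫).mpr h)
  induction vert using Finset.induction_on with
  | empty => exact ⟨1, h1, fun 𝔭 h𝔭 => absurd h𝔭 (Finset.notMem_empty 𝔭)⟩
  | insert 𝔮 s _ ih =>
    obtain ⟨c, hc, hcs⟩ := ih
    by_cases h : 𝔮 ≤ 𝔫
    · refine ⟨c, hc, fun 𝔭 h𝔭 hn => ?_⟩
      rcases Finset.mem_insert.mp h𝔭 with rfl | h'
      · exact absurd h hn
      · exact hcs 𝔭 h' hn
    · obtain ⟨d, hd𝔮, hd𝔫⟩ := SetLike.not_le_iff_exists.mp h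
      refine ⟨c * d, fun hcd => ?_, fun 𝔭 h𝔭 hn => ?_⟩
      · rcases Ideal.IsPrime.mem_or_mem inferInstance hcd with h' | h'
        · exact hc h'
        · exact hd𝔫 h'
      · rcases Finset.mem_insert.mp h𝔭 with rfl | h'
        · exact Ideal.mul_mem_left _ _ hd𝔮
        · exact Ideal.mul_mem_right _ _ (hcs 𝔭 h' hn)

/-- **Lemma U, vertical step.**  Under (SS1) `πB = ⋂ vert`, an element `x` with `π ^ k x ∈ B`
which lies in `B_𝔭` for every vertical prime `𝔭 ≤ 𝔫` lies in `B_𝔫`. -/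
theorem unip_unitCrit_vertical (hinj : Function.Injective (algebraMap B Lf))
    {π : A₀} (hπ0 : algebraMap A₀ Lf π ≠ 0) (ϖ : B) (hϖ : algebraMap B Lf ϖ = algebraMap A₀ Lf π)
    (𝔫 : Ideal B) [𝔫.IsPrime]
    (vert : Finset (Ideal B)) (hprime : ∀ 𝔭 ∈ vert, 𝔭.IsPrime) (hϖv : ∀ 𝔭 ∈ vert, ϖ ∈ 𝔭)
    (hSS1 : ∀ y : B, (∀ 𝔭 ∈ vert, y ∈ 𝔭) → ϖ ∣ y) :
    ∀ (k : ℕ) (x : Lf),
      (∀ 𝔭 ∈ vert, 𝔭 ≤ 𝔫 → ∃ s : B, s ∉ 𝔭 ∧ algebraMap B Lf s * x ∈ (algebraMap B Lf).range) →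
      algebraMap A₀ Lf π ^ k * x ∈ (algebraMap B Lf).range →
      ∃ c : B, c ∉ 𝔫 ∧ algebraMap B Lf c * x ∈ (algebraMap B Lf).range := by
  classical
  have h1 : (1 : B) ∉ 𝔫 := fun h =>
    (Ideal.IsPrime.ne_top inferInstance) ((Ideal.eq_top_iff_one 𝔫).mpr h)
  obtain ⟨c₀, hc₀, hc₀v⟩ := unip_exists_multiplier 𝔫 vert
  intro k
  induction k with
  | zero =>
    intro x _ hx
    refine ⟨1, h1, ?_⟩
    simpa using hx
  | succ k ih =>
    intro x hV hx
    obtain ⟨y, hy⟩ := hx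
    -- `c₀ * y` lies in every vertical prime
    have hmem : ∀ 𝔭 ∈ vert, c₀ * y ∈ 𝔭 := by
      intro 𝔭 h𝔭
      by_cases hle : 𝔭 ≤ 𝔫
      · obtain ⟨s, hs, b, hb⟩ := hV 𝔭 h𝔭 hle
        have hsy : s * y = ϖ ^ (k + 1) * b := by
          apply hinj
          rw [map_mul, map_mul, map_pow, hy, hϖ, hb]
          ring
        have h2 : s * y ∈ 𝔭 := by
          rw [hsy, pow_succ]
          exact Ideal.mul_mem_right _ _ (Ideal.mul_mem_left _ _ (hϖv 𝔭 h𝔭))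
        have hy𝔭 : y ∈ 𝔭 :=
          (Ideal.IsPrime.mem_or_mem (hprime 𝔭 h𝔭) h2).resolve_left hs
        exact Ideal.mul_mem_left _ _ hy𝔭
      · exact Ideal.mul_mem_right _ _ (hc₀v 𝔭 h𝔭 hle)
    obtain ⟨z, hz⟩ := hSS1 _ hmem
    -- `π ^ k * (c₀ x) = z`
    have hz' : algebraMap A₀ Lf π ^ k * (algebraMap B Lf c₀ * x) = algebraMap B Lf z := by
      have h3 := congrArg (algebraMap B Lf) hz
      rw [map_mul, map_mul, hy, hϖ] at h3
      apply mul_left_cancel₀ hπ0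
      rw [← h3, pow_succ]
      ring
    obtain ⟨c, hc, hcx⟩ := ih (algebraMap B Lf c₀ * x) (fun 𝔭 h𝔭 hle => by
      obtain ⟨s, hs, b, hb⟩ := hV 𝔭 h𝔭 hle
      exact ⟨s, hs, c₀ * b, by rw [map_mul, hb]; ring⟩) ⟨z, hz'.symm⟩
    refine ⟨c * c₀, fun h => ?_, ?_⟩
    · rcases Ideal.IsPrime.mem_or_mem inferInstance h with h' | h'
      · exact hc h'
      · exact hc₀ h'
    · rw [map_mul, mul_assoc]
      exact hcx

end Vertical

section Main

variable {A₀ E Lf B : Type*} [CommRing A₀] [IsDomain A₀] [IsDiscreteValuationRing A₀]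
  [Field E] [CharZero E] [Algebra A₀ E] [IsFractionRing A₀ E]
  [Field Lf] [Algebra E Lf] [Algebra A₀ Lf] [IsScalarTower A₀ E Lf]
  [CommRing B] [Algebra B Lf]

/-- `π ≠ 0` in `Lf`. -/
theorem unip_algebraMap_irreducible_ne_zero (E : Type*) {A₀ Lf : Type*} [CommRing A₀]
    [Field E] [Algebra A₀ E] [IsFractionRing A₀ E]
    [Field Lf] [Algebra E Lf] [Algebra A₀ Lf] [IsScalarTower A₀ E Lf]
    {π : A₀} (hπ : Irreducible π) :
    algebraMap A₀ Lf π ≠ 0 := by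
  rw [IsScalarTower.algebraMap_apply A₀ E Lf]
  intro h
  have h1 : algebraMap A₀ E π = 0 := (algebraMap E Lf).injective (by rw [h, map_zero])
  exact hπ.ne_zero ((IsFractionRing.injective A₀ E) (by rw [h1, map_zero]))

/-- **Lemma U (one-sided).**  `B` the integral closure of `A₀[τ]` in `Lf`, `𝔫` a prime of `B`,
`vert` the vertical primes ((SS1): `πB = ⋂ vert`).  If `ε` has nonnegative order at every
horizontal place through `𝔫` and lies in `B_𝔭` for every vertical prime `𝔭 ≤ 𝔫`, then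
`ε ∈ B_𝔫`. -/
theorem unip_unitCrit_mem {π : A₀} (hπ : Irreducible π) (τ : Lf)
    (hτ : Transcendental E τ) [FiniteDimensional E⟮τ⟯ Lf]
    (hinj : Function.Injective (algebraMap B Lf))
    (hB : ∀ x : Lf, x ∈ (algebraMap B Lf).range ↔ IsIntegral (Algebra.adjoin A₀ {τ}) x)
    (ϖ : B) (hϖ : algebraMap B Lf ϖ = algebraMap A₀ Lf π)
    (𝔫 : Ideal B) [𝔫.IsPrime]
    (vert : Finset (Ideal B)) (hprime : ∀ 𝔭 ∈ vert, 𝔭.IsPrime) (hϖv : ∀ 𝔭 ∈ vert, ϖ ∈ 𝔭)
    (hSS1 : ∀ y : B, (∀ 𝔭 ∈ vert, y ∈ 𝔭) → ϖ ∣ y)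
    (ε : Lf)
    (hH : ∀ P : Place E Lf, 0 ≤ P.ord τ →
      (∀ b : B, 0 < P.ord (algebraMap B Lf b) → b ∈ 𝔫) → 0 ≤ P.ord ε)
    (hV : ∀ 𝔭 ∈ vert, 𝔭 ≤ 𝔫 →
      ∃ s : B, s ∉ 𝔭 ∧ algebraMap B Lf s * ε ∈ (algebraMap B Lf).range) :
    ∃ s : B, s ∉ 𝔫 ∧ algebraMap B Lf s * ε ∈ (algebraMap B Lf).range := by
  obtain ⟨s, k, hs, hsk⟩ := unip_unitCrit_horizontal hπ τ hτ hB 𝔫 ε hH
  obtain ⟨c, hc, hcx⟩ := unip_unitCrit_vertical hinj
    (unip_algebraMap_irreducible_ne_zero E hπ) ϖ hϖ 𝔫 vert hprime hϖv hSS1 k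
    (algebraMap B Lf s * ε) (fun 𝔭 h𝔭 hle => by
      obtain ⟨s', hs', b, hb⟩ := hV 𝔭 h𝔭 hle
      exact ⟨s', hs', s * b, by rw [map_mul, hb]; ring⟩) hsk
  refine ⟨c * s, fun h => ?_, ?_⟩
  · rcases Ideal.IsPrime.mem_or_mem inferInstance h with h' | h'
    · exact hc h'
    · exact hs h'
  · rw [map_mul, mul_assoc]
    exact hcx

/-- **Lemma U (units).**  If `ε ≠ 0` has order `0` at every horizontal place through `𝔫` and is a
unit of `B_𝔭` for every vertical prime `𝔭 ≤ 𝔫`, then `ε` is a unit of `B_𝔫`: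
`s ε = t` with `s, t ∈ B ∖ 𝔫`. -/
theorem unip_unitCrit_unit {π : A₀} (hπ : Irreducible π) (τ : Lf)
    (hτ : Transcendental E τ) [FiniteDimensional E⟮τ⟯ Lf]
    (hinj : Function.Injective (algebraMap B Lf))
    (hB : ∀ x : Lf, x ∈ (algebraMap B Lf).range ↔ IsIntegral (Algebra.adjoin A₀ {τ}) x)
    (ϖ : B) (hϖ : algebraMap B Lf ϖ = algebraMap A₀ Lf π)
    (𝔫 : Ideal B) [𝔫.IsPrime]
    (vert : Finset (Ideal B)) (hprime : ∀ 𝔭 ∈ vert, 𝔭.IsPrime) (hϖv : ∀ 𝔭 ∈ vert, ϖ ∈ 𝔭)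
    (hSS1 : ∀ y : B, (∀ 𝔭 ∈ vert, y ∈ 𝔭) → ϖ ∣ y)
    (ε : Lf) (hε : ε ≠ 0)
    (hH : ∀ P : Place E Lf, 0 ≤ P.ord τ →
      (∀ b : B, 0 < P.ord (algebraMap B Lf b) → b ∈ 𝔫) → P.ord ε = 0)
    (hV : ∀ 𝔭 ∈ vert, 𝔭 ≤ 𝔫 →
      ∃ s t : B, s ∉ 𝔭 ∧ t ∉ 𝔭 ∧ algebraMap B Lf s * ε = algebraMap B Lf t) :
    ∃ s t : B, s ∉ 𝔫 ∧ t ∉ 𝔫 ∧ algebraMap B Lf s * ε = algebraMap B Lf t := by
  obtain ⟨s₁, hs₁, b₁, hb₁⟩ := unip_unitCrit_mem hπ τ hτ hinj hB ϖ hϖ 𝔫 vert hprime hϖv hSS1 ε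
    (fun P hP hc => (hH P hP hc).ge)
    (fun 𝔭 h𝔭 hle => by
      obtain ⟨s, t, hs, -, hst⟩ := hV 𝔭 h𝔭 hle
      exact ⟨s, hs, t, hst.symm⟩)
  obtain ⟨s₂, hs₂, b₂, hb₂⟩ := unip_unitCrit_mem hπ τ hτ hinj hB ϖ hϖ 𝔫 vert hprime hϖv hSS1 ε⁻¹
    (fun P hP hc => by rw [Place.ord_inv, hH P hP hc]; simp)
    (fun 𝔭 h𝔭 hle => by
      obtain ⟨s, t, -, ht, hst⟩ := hV 𝔭 h𝔭 hle
      refine ⟨t, ht, s, ?_⟩
      rw [← hst]
      field_simp)
  refine ⟨s₁, b₁, hs₁, fun hb => ?_, hb₁.symm⟩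
  have hprod : b₁ * b₂ = s₁ * s₂ := by
    apply hinj
    rw [map_mul, map_mul, hb₁, hb₂]
    field_simp
  have h3 : s₁ * s₂ ∈ 𝔫 := by
    rw [← hprod]
    exact Ideal.mul_mem_right _ _ hb
  rcases Ideal.IsPrime.mem_or_mem inferInstance h3 with h' | h'
  · exact hs₁ h'
  · exact hs₂ h'

/-- The hypothesis `hB` for `B = integralClosure A₀[τ] Lf`. -/
theorem unip_range_integralClosure_iff (τ x : Lf) :
    x ∈ (algebraMap (integralClosure (Algebra.adjoin A₀ {τ}) Lf) Lf).range ↔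
      IsIntegral (Algebra.adjoin A₀ {τ}) x :=
  ⟨fun ⟨b, hb⟩ => hb ▸ b.2, fun h => ⟨⟨x, h⟩, rfl⟩⟩

/-- The hypothesis `hB` for `B` an `A₀`-subalgebra of `Lf` whose elements are exactly the elements
integral over `A₀[τ]` (e.g. `INJ.zchClosure {τ}`). -/
theorem unip_range_subalgebra_iff (τ : Lf) (C : Subalgebra A₀ Lf)
    (hC : ∀ x : Lf, x ∈ C ↔ IsIntegral (Algebra.adjoin A₀ {τ}) x) (x : Lf) :
    x ∈ (algebraMap C Lf).range ↔ IsIntegral (Algebra.adjoin A₀ {τ}) x :=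
  ⟨fun ⟨b, hb⟩ => hb ▸ (hC _).mp b.2, fun h => ⟨⟨x, (hC _).mpr h⟩, rfl⟩⟩

/-- **Lemma U (units)** for the concrete chart `B = integralClosure A₀[τ] Lf`, `ϖ = π`. -/
theorem unip_unitCrit_unit_integralClosure {π : A₀} (hπ : Irreducible π) (τ : Lf)
    (hτ : Transcendental E τ) [FiniteDimensional E⟮τ⟯ Lf]
    (𝔫 : Ideal (integralClosure (Algebra.adjoin A₀ {τ}) Lf)) [𝔫.IsPrime]
    (vert : Finset (Ideal (integralClosure (Algebra.adjoin A₀ {τ}) Lf)))
    (hprime : ∀ 𝔭 ∈ vert, 𝔭.IsPrime)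
    (hϖv : ∀ 𝔭 ∈ vert, algebraMap A₀ (integralClosure (Algebra.adjoin A₀ {τ}) Lf) π ∈ 𝔭)
    (hSS1 : ∀ y : integralClosure (Algebra.adjoin A₀ {τ}) Lf, (∀ 𝔭 ∈ vert, y ∈ 𝔭) →
      algebraMap A₀ (integralClosure (Algebra.adjoin A₀ {τ}) Lf) π ∣ y)
    (ε : Lf) (hε : ε ≠ 0)
    (hH : ∀ P : Place E Lf, 0 ≤ P.ord τ →
      (∀ b : integralClosure (Algebra.adjoin A₀ {τ}) Lf, 0 < P.ord (b : Lf) → b ∈ 𝔫) →
        P.ord ε = 0)
    (hV : ∀ 𝔭 ∈ vert, 𝔭 ≤ 𝔫 →
      ∃ s t : integralClosure (Algebra.adjoin A₀ {τ}) Lf, s ∉ 𝔭 ∧ t ∉ 𝔭 ∧ (s : Lf) * ε = t) :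
    ∃ s t : integralClosure (Algebra.adjoin A₀ {τ}) Lf, s ∉ 𝔫 ∧ t ∉ 𝔫 ∧ (s : Lf) * ε = t :=
  unip_unitCrit_unit hπ τ hτ Subtype.val_injective (unip_range_integralClosure_iff τ)
    (algebraMap A₀ (integralClosure (Algebra.adjoin A₀ {τ}) Lf) π) rfl 𝔫 vert hprime hϖv hSS1
    ε hε hH hV

end Main

end Fermat.Agent.UNIP
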