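/-
UNIP (S34/S35), direct route, piece D3 "LocalShape", chart assembly (helper84).

Setting of D2 (`UNIP/UnitCrit.lean`): `A₀` a DVR with uniformizer `π`, `E = Frac A₀` of
characteristic `0`, `Lf / E(t)` finite, `B` a chart (`algebraMap B Lf` injective with image the
integral closure of `A₀[t]`), `𝔫` a prime of `B`, `vert` the vertical primes ((SS1)).
`g : SemilinearAut E Lf` (an element of the inertia group acting on coefficients) fixing `t` and
preserving `B`, `𝔫`.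

* `LsTube B t 𝔫 P`      : the place `P` of `Lf / E` has its centre on `B` inside `𝔫`.
* `ls_tubePerm`          : the permutation of the tube induced by `g`.
* `ls_local_factor_chart`: Step 1 at the point `𝔫`: if the places of the tube in the support of `u`
  that are moved by `g` have multiplicity divisible by `m` and coordinate functions (Lemma N), and
  `g` preserves the valuations of the vertical primes through `𝔫`, then `u = u₁ · g₀ ^ m` with
  `g u₁ / u₁ ∈ (B_𝔫)^×`   (Lemma U = `unip_unitCrit_unit`).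
* `ls_localSubring_isLocalRing`, `ls_localIdeal_ne_top`, `ls_isIntegral_mem_localSubring`: the
  hypotheses `hloc`, `hJ`, `hic` of `pwi_exists_pow_eq` for `O i = ls_localSubring 𝔫`.
-/
import Fermat.Agent.UNIP.LocalShape
import Fermat.Agent.UNIP.UnitCrit
import Fermat.Prelude.Def_AlgebraicCurve_BaseChangeGalois

set_option autoImplicit false
set_option linter.unusedSectionVars false

namespace Fermat.Agent.UNIP

open AlgebraicCurve IntermediateField

section Tube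

variable {E Lf B : Type*} [Field E] [Field Lf] [Algebra E Lf] [CommRing B] [Algebra B Lf]

/-- The place `P` lies in the tube of the prime `𝔫` of the chart `B` (coordinate `t`):
`B ⊆ O_P` and `𝔪_P ∩ B ⊆ 𝔫`. -/
def LsTube (B : Type*) [CommRing B] [Algebra B Lf] (t : Lf) (𝔫 : Ideal B) (P : Place E Lf) :
    Prop :=
  0 ≤ P.ord t ∧ ∀ b : B, 0 < P.ord (algebraMap B Lf b) → b ∈ 𝔫

/-- `g` maps the tube of `𝔫` to itself, if `g` fixes `t`, `g⁻¹` maps `B` to `B` and `g` maps `𝔫`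
into `𝔫`. -/
theorem LsTube.smul (hinj : Function.Injective (algebraMap B Lf)) {t : Lf} {𝔫 : Ideal B}
    (g : SemilinearAut E Lf) (hgt : g • t = t)
    (hgB : ∀ b : B, b ∈ 𝔫 → ∃ b' : B, b' ∈ 𝔫 ∧ g • algebraMap B Lf b = algebraMap B Lf b')
    (hgB' : ∀ b : B, ∃ b' : B, g⁻¹ • algebraMap B Lf b = algebraMap B Lf b')
    {P : Place E Lf} (hP : LsTube B t 𝔫 P) : LsTube B t 𝔫 (g • P) := by
  refine ⟨?_, fun b hb => ?_⟩
  · have h := SemilinearAut.ord_smul g P t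
    rw [hgt] at h
    rw [h]
    exact hP.1
  · obtain ⟨b', hb'⟩ := hgB' b
    have h1 : (g • P).ord (algebraMap B Lf b) = P.ord (algebraMap B Lf b') := by
      have h := SemilinearAut.ord_smul g P (g⁻¹ • algebraMap B Lf b)
      rw [smul_inv_smul] at h
      rw [h, hb']
    rw [h1] at hb
    have hb'n : b' ∈ 𝔫 := hP.2 b' hb
    obtain ⟨b'', hb''n, hb''⟩ := hgB b' hb'n
    have h2 : algebraMap B Lf b = algebraMap B Lf b'' := by
      rw [← hb'', ← hb', smul_inv_smul]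
    rw [hinj h2]
    exact hb''n

/-- The permutation of the tube of `𝔫` induced by `g`. -/
def ls_tubePerm (hinj : Function.Injective (algebraMap B Lf)) (t : Lf) (𝔫 : Ideal B)
    (g : SemilinearAut E Lf) (hgt : g • t = t)
    (hgB : ∀ b : B, b ∈ 𝔫 → ∃ b' : B, b' ∈ 𝔫 ∧ g • algebraMap B Lf b = algebraMap B Lf b')
    (hgB' : ∀ b : B, b ∈ 𝔫 → ∃ b' : B, b' ∈ 𝔫 ∧ g⁻¹ • algebraMap B Lf b = algebraMap B Lf b')
    (hgB₀ : ∀ b : B, ∃ b' : B, g • algebraMap B Lf b = algebraMap B Lf b')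
    (hgB₀' : ∀ b : B, ∃ b' : B, g⁻¹ • algebraMap B Lf b = algebraMap B Lf b') :
    Equiv.Perm {P : Place E Lf // LsTube B t 𝔫 P} where
  toFun P := ⟨g • P.1, LsTube.smul hinj g hgt hgB hgB₀' P.2⟩
  invFun P := ⟨g⁻¹ • P.1, LsTube.smul hinj g⁻¹
    (by rw [inv_smul_eq_iff, hgt]) hgB' (by simpa using hgB₀) P.2⟩
  left_inv P := Subtype.ext (inv_smul_smul g P.1)
  right_inv P := Subtype.ext (smul_inv_smul g P.1)

end Tube

section Main

variable {A₀ E Lf B : Type*} [CommRing A₀] [IsDomain A₀] [IsDiscreteValuationRing A₀]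
  [Field E] [CharZero E] [Algebra A₀ E] [IsFractionRing A₀ E]
  [Field Lf] [Algebra E Lf] [Algebra A₀ Lf] [IsScalarTower A₀ E Lf]
  [CommRing B] [Algebra B Lf]

/-- **Step 1 at a closed point of a chart.**  `B` a chart, `𝔫` a prime of `B`, `g` an automorphism
(semilinear over `E`) fixing the coordinate `t`, preserving `B` and `𝔫` (together with `g⁻¹`), and
preserving the valuations of the vertical primes through `𝔫` (`hgV`).  Let `u ≠ 0`.  Assume that
every place `P` of the tube of `𝔫` with `g P ≠ P` and `ord_P u ≠ 0` has `m ∣ ord_P u` and a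
coordinate function (Lemma N).  Then `u = u₁ · g₀ ^ m` with `g u₁ / u₁` a unit of `B_𝔫`. -/
theorem ls_local_factor_chart {π : A₀} (hπ : Irreducible π) (t : Lf)
    (ht : Transcendental E t) [FiniteDimensional E⟮t⟯ Lf]
    (hinj : Function.Injective (algebraMap B Lf))
    (hB : ∀ x : Lf, x ∈ (algebraMap B Lf).range ↔ IsIntegral (Algebra.adjoin A₀ {t}) x)
    (ϖ : B) (hϖ : algebraMap B Lf ϖ = algebraMap A₀ Lf π)
    (𝔫 : Ideal B) [𝔫.IsPrime]
    (vert : Finset (Ideal B)) (hprime : ∀ 𝔭 ∈ vert, 𝔭.IsPrime) (hϖv : ∀ 𝔭 ∈ vert, ϖ ∈ 𝔭)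
    (hSS1 : ∀ y : B, (∀ 𝔭 ∈ vert, y ∈ 𝔭) → ϖ ∣ y)
    (g : SemilinearAut E Lf) (hgt : g • t = t)
    (hgB : ∀ b : B, b ∈ 𝔫 → ∃ b' : B, b' ∈ 𝔫 ∧ g • algebraMap B Lf b = algebraMap B Lf b')
    (hgB' : ∀ b : B, b ∈ 𝔫 → ∃ b' : B, b' ∈ 𝔫 ∧ g⁻¹ • algebraMap B Lf b = algebraMap B Lf b')
    (hgB₀ : ∀ b : B, ∃ b' : B, g • algebraMap B Lf b = algebraMap B Lf b')
    (hgB₀' : ∀ b : B, ∃ b' : B, g⁻¹ • algebraMap B Lf b = algebraMap B Lf b')
    (hgV : ∀ 𝔭 ∈ vert, 𝔭 ≤ 𝔫 → ∀ f : Lf, f ≠ 0 →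
      ∃ s s' : B, s ∉ 𝔭 ∧ s' ∉ 𝔭 ∧ algebraMap B Lf s * (g • f / f) = algebraMap B Lf s')
    {u : Lf} (hu : u ≠ 0) (m : ℕ)
    (hfin : {P : Place E Lf | LsTube B t 𝔫 P ∧ g • P ≠ P ∧ P.ord u ≠ 0}.Finite)
    (hm : ∀ P : Place E Lf, LsTube B t 𝔫 P → g • P ≠ P → (m : ℤ) ∣ P.ord u)
    (hcoord : ∀ P : Place E Lf, LsTube B t 𝔫 P → g • P ≠ P → P.ord u ≠ 0 →
      ∃ f : Lf, f ≠ 0 ∧ P.ord f = 1 ∧
        ∀ Q : Place E Lf, LsTube B t 𝔫 Q → g • Q ≠ Q → Q ≠ P → Q.ord f = 0) :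
    ∃ g₀ e : Lf, g₀ ≠ 0 ∧ e ∈ ls_localSubring (F := Lf) 𝔫 ∧ e⁻¹ ∈ ls_localSubring (F := Lf) 𝔫 ∧
      (g • (u / g₀ ^ m)) / (u / g₀ ^ m) = e := by
  classical
  set T := {P : Place E Lf // LsTube B t 𝔫 P} with hT
  set σT : Equiv.Perm T := ls_tubePerm hinj t 𝔫 g hgt hgB hgB' hgB₀ hgB₀' with hσT
  have hσT_ne : ∀ P : T, σT P ≠ P ↔ g • P.1 ≠ P.1 := fun P => by
    rw [not_iff_not]
    exact ⟨fun h => congrArg Subtype.val h, fun h => Subtype.ext h⟩
  set σ : Lf →+* Lf := (SemilinearAut.toRingAut g : Lf ≃+* Lf).toRingHom with hσ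
  have hσ_apply : ∀ x : Lf, σ x = g • x := fun x => rfl
  obtain ⟨g₀, hg₀, -, hord⟩ := ls_tube_factor (F := Lf) (ι := T) σ (fun P x => P.1.ord x)
    (fun P x y hx hy => Place.ord_mul P.1 hx hy) σT
    (fun P x _ => by
      show (g • P.1).ord (σ x) = P.1.ord x
      rw [hσ_apply]
      exact SemilinearAut.ord_smul g P.1 x)
    hu m
    (by
      refine Set.Finite.of_finite_image (f := Subtype.val) (hfin.subset ?_)
        Subtype.val_injective.injOn
      rintro _ ⟨P, ⟨h1, h2⟩, rfl⟩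
      exact ⟨P.2, (hσT_ne P).mp h1, h2⟩)
    (fun P hP => hm P.1 P.2 ((hσT_ne P).mp hP))
    (fun P hP hPu => by
      obtain ⟨f, hf0, hf1, hf⟩ := hcoord P.1 P.2 ((hσT_ne P).mp hP) hPu
      exact ⟨f, hf0, hf1, fun Q hQ hQP =>
        hf Q.1 Q.2 ((hσT_ne Q).mp hQ) fun h => hQP (Subtype.ext h)⟩)
  have hu₁ : u / g₀ ^ m ≠ 0 := div_ne_zero hu (pow_ne_zero _ hg₀)
  have hσu₁ : g • (u / g₀ ^ m) ≠ 0 := by
    rw [← hσ_apply]
    exact (map_ne_zero σ).mpr hu₁
  have he0 : (g • (u / g₀ ^ m)) / (u / g₀ ^ m) ≠ 0 := div_ne_zero hσu₁ hu₁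
  obtain ⟨s, s', hs, hs', hss'⟩ := unip_unitCrit_unit hπ t ht hinj hB ϖ hϖ 𝔫 vert hprime hϖv
    hSS1 ((g • (u / g₀ ^ m)) / (u / g₀ ^ m)) he0
    (fun P hP hc => hord ⟨P, hP, hc⟩)
    (fun 𝔭 h𝔭 hle => hgV 𝔭 h𝔭 hle _ hu₁)
  obtain ⟨he, he'⟩ := ls_unit_mem_localSubring hinj 𝔫 hs hs' hss'
  exact ⟨g₀, _, hg₀, he, he', rfl⟩

end Main

section LocalRing

variable {F : Type*} [Field F] {B : Type*} [CommRing B] [Algebra B F]

/-- An element `b / s` of `B_𝔫` with `b ∉ 𝔫` is a unit of `B_𝔫`. -/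
theorem ls_isUnit_of_not_mem (hinj : Function.Injective (algebraMap B F))
    (𝔫 : Ideal B) [𝔫.IsPrime] (x : ls_localSubring (F := F) 𝔫) {b s : B} (hb : b ∉ 𝔫)
    (hs : s ∉ 𝔫) (h : algebraMap B F s * (x : F) = algebraMap B F b) : IsUnit x := by
  obtain ⟨-, hx'⟩ := ls_unit_mem_localSubring hinj 𝔫 hs hb h
  have hb0 : algebraMap B F b ≠ 0 := fun h0 =>
    hb (by rw [hinj (h0.trans (map_zero _).symm)]; exact 𝔫.zero_mem)
  have hx0 : (x : F) ≠ 0 := by
    intro h0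
    rw [h0, mul_zero] at h
    exact hb0 h.symm
  exact IsUnit.of_mul_eq_one ⟨(x : F)⁻¹, hx'⟩ (Subtype.ext (mul_inv_cancel₀ hx0))

/-- `B_𝔫` is a local ring (hypothesis `hloc` of `pwi_exists_pow_eq`). -/
theorem ls_localSubring_isLocalRing (hinj : Function.Injective (algebraMap B F))
    (𝔫 : Ideal B) [𝔫.IsPrime] : IsLocalRing (ls_localSubring (F := F) 𝔫) := by
  refine IsLocalRing.of_isUnit_or_isUnit_one_sub_self fun x => ?_
  obtain ⟨b, s, hs, hx⟩ := x.2
  by_cases hb : b ∈ 𝔫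
  · right
    refine ls_isUnit_of_not_mem hinj 𝔫 (1 - x) (b := s - b) (s := s) (fun h => hs ?_) hs ?_
    · have h2 : s = (s - b) + b := by ring
      rw [h2]
      exact 𝔫.add_mem h hb
    · show algebraMap B F s * ((1 : F) - (x : F)) = _
      rw [mul_sub, hx, mul_one, map_sub]
  · left
    exact ls_isUnit_of_not_mem hinj 𝔫 x hb hs hx

/-- `ϖ B_𝔫` is a proper ideal if `ϖ ∈ 𝔫` (hypothesis `hJ` of `pwi_exists_pow_eq`). -/
theorem ls_localIdeal_ne_top (hinj : Function.Injective (algebraMap B F))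
    (𝔫 : Ideal B) [𝔫.IsPrime] (ϖ : B) (hϖ : ϖ ∈ 𝔫) :
    ls_localIdeal (F := F) 𝔫 ϖ ≠ ⊤ := by
  intro htop
  have h1 : (1 : ls_localSubring (F := F) 𝔫) ∈ ls_localIdeal (F := F) 𝔫 ϖ := by
    rw [htop]; exact Submodule.mem_top
  obtain ⟨y, ⟨b, s, hs, hy⟩, h1y⟩ := (ls_mem_localIdeal 𝔫 ϖ).mp h1
  apply hs
  have h2 : algebraMap B F s = algebraMap B F (ϖ * b) := by
    have : algebraMap B F s = algebraMap B F s * ((1 : ls_localSubring (F := F) 𝔫) : F) := by
      push_cast; ring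
    rw [this, h1y, map_mul, ← hy]
    ring
  rw [hinj h2]
  exact 𝔫.mul_mem_right _ hϖ

/-- The elements of `ϖ B_𝔫` lie in `𝔫 B_𝔫`: if `x ∈ ϖ B_𝔫` then `s x = b` with `s ∉ 𝔫`,
`b ∈ 𝔫`. -/
theorem ls_exists_of_mem_localIdeal (𝔫 : Ideal B) [h𝔫 : 𝔫.IsPrime] (ϖ : B)
    {x : ls_localSubring (F := F) 𝔫} (hx : x ∈ ls_localIdeal (F := F) 𝔫 ϖ) :
    ∃ c s : B, s ∉ 𝔫 ∧ algebraMap B F s * (x : F) = algebraMap B F (ϖ * c) := by
  obtain ⟨y, ⟨b, s, hs, hy⟩, hxy⟩ := (ls_mem_localIdeal 𝔫 ϖ).mp hx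
  refine ⟨b, s, hs, ?_⟩
  rw [hxy, map_mul, ← hy]
  ring

/-- `B_𝔫` is integrally closed in `F` if `B` is (hypothesis `hic` of `pwi_exists_pow_eq`). -/
theorem ls_isIntegral_mem_localSubring
    (hBic : ∀ x : F, IsIntegral B x → x ∈ (algebraMap B F).range)
    (𝔫 : Ideal B) [h𝔫 : 𝔫.IsPrime] (x : F) (hx : IsIntegral (ls_localSubring (F := F) 𝔫) x) :
    x ∈ ls_localSubring (F := F) 𝔫 := by
  classical
  obtain ⟨p, hp, hpx⟩ := hx
  -- a common denominator of the coefficients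
  have hden : ∀ i : ℕ, ∃ b s : B, s ∉ 𝔫 ∧
      algebraMap B F s * ((p.coeff i : ls_localSubring (F := F) 𝔫) : F) = algebraMap B F b :=
    fun i => (p.coeff i).2
  choose b s hs hbs using hden
  set d : B := ∏ i ∈ Finset.range p.natDegree, s i with hd
  have hd𝔫 : d ∉ 𝔫 := by
    rw [hd]
    intro h
    obtain ⟨i, -, hi⟩ := (Ideal.IsPrime.prod_mem_iff).mp h
    exact hs i hi
  have hdc : ∀ i ∈ Finset.range p.natDegree, ∃ c : B,
      algebraMap B F d * ((p.coeff i : ls_localSubring (F := F) 𝔫) : F) = algebraMap B F c := by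
    intro i hi
    refine ⟨(∏ j ∈ (Finset.range p.natDegree).erase i, s j) * b i, ?_⟩
    rw [hd, ← Finset.mul_prod_erase _ _ hi, map_mul, map_mul, ← hbs i]
    ring
  -- `d x` is integral over `B`
  have hint : IsIntegral B (algebraMap B F d * x) := by
    have hx' : Polynomial.eval₂ (algebraMap (ls_localSubring (F := F) 𝔫) F) x p = 0 := hpx
    rw [Polynomial.eval₂_eq_sum_range] at hx'
    have hn : p.natDegree = p.natDegree := rfl
    choose! c hc using hdc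
    refine ⟨Polynomial.X ^ p.natDegree +
      ∑ i ∈ Finset.range p.natDegree, Polynomial.C (d ^ (p.natDegree - 1 - i) * c i) *
        Polynomial.X ^ i, ?_, ?_⟩
    · refine Polynomial.monic_X_pow_add ?_
      refine lt_of_le_of_lt (Polynomial.degree_sum_le _ _) ?_
      rw [Finset.sup_lt_iff (by exact WithBot.bot_lt_coe _)]
      intro i hi
      refine lt_of_le_of_lt (Polynomial.degree_C_mul_X_pow_le _ _) ?_
      exact_mod_cast Finset.mem_range.mp hi
    · rw [Polynomial.eval₂_add, Polynomial.eval₂_pow, Polynomial.eval₂_X,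
        Polynomial.eval₂_finsetSum]
      simp only [Polynomial.eval₂_mul, Polynomial.eval₂_C, Polynomial.eval₂_pow,
        Polynomial.eval₂_X]
      rw [Finset.sum_range_succ, hp.coeff_natDegree] at hx'
      have key : ∀ i ∈ Finset.range p.natDegree,
          algebraMap B F (d ^ (p.natDegree - 1 - i) * c i) * (algebraMap B F d * x) ^ i
            = algebraMap B F d ^ p.natDegree *
              (algebraMap (ls_localSubring (F := F) 𝔫) F (p.coeff i) * x ^ i) := by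
        intro i hi
        have hi' : i < p.natDegree := Finset.mem_range.mp hi
        have e1 : p.natDegree = (p.natDegree - 1 - i) + 1 + i := by omega
        rw [map_mul, map_pow, ← hc i hi, mul_pow]
        have e2 : algebraMap B F d ^ p.natDegree
            = algebraMap B F d ^ (p.natDegree - 1 - i) * algebraMap B F d *
              algebraMap B F d ^ i := by
          conv_lhs => rw [e1, pow_add, pow_succ]
        rw [e2]
        show _ = _ * (((p.coeff i : ls_localSubring (F := F) 𝔫) : F) * x ^ i)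
        ring
      rw [Finset.sum_congr rfl key, ← Finset.mul_sum, mul_pow, ← mul_add, add_comm]
      have hx'' : ∑ i ∈ Finset.range p.natDegree,
          algebraMap (ls_localSubring (F := F) 𝔫) F (p.coeff i) * x ^ i + x ^ p.natDegree = 0 := by
        simpa using hx'
      rw [hx'', mul_zero]
  obtain ⟨b', hb'⟩ := hBic _ hint
  exact ⟨b', d, hd𝔫, hb'.symm⟩

/-- **Vertical units from a valuation ring.**  `W` a valuation ring of `F` with `W ⊆ B_𝔭`
(`hW`).  Every unit `x` of `W` is a unit of `B_𝔭`: `s x = s'` with `s, s' ∉ 𝔭`.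
(This turns `hσV` of `ls_pwiShape` into `hgV` of `ls_local_factor_chart`.) -/
theorem ls_vertical_unit_of_valuation (hinj : Function.Injective (algebraMap B F))
    (𝔭 : Ideal B) [h𝔭 : 𝔭.IsPrime] (W : ValuationSubring F)
    (hW : ∀ x : F, x ∈ W → ∃ b s : B, s ∉ 𝔭 ∧ algebraMap B F s * x = algebraMap B F b)
    {x : F} (hx : W.valuation x = 1) :
    ∃ s s' : B, s ∉ 𝔭 ∧ s' ∉ 𝔭 ∧ algebraMap B F s * x = algebraMap B F s' := by
  have hx0 : x ≠ 0 := by
    intro h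
    rw [h, map_zero] at hx
    exact zero_ne_one hx
  have hxW : x ∈ W := (W.valuation_le_one_iff x).mp hx.le
  have hxW' : x⁻¹ ∈ W := by
    rw [← W.valuation_le_one_iff, map_inv₀, hx, inv_one]
  obtain ⟨b, s, hs, hbs⟩ := hW x hxW
  obtain ⟨b₂, s₂, hs₂, hbs₂⟩ := hW x⁻¹ hxW'
  refine ⟨s, b, hs, fun hb => ?_, hbs⟩
  have hprod : b * b₂ = s * s₂ := by
    apply hinj
    rw [map_mul, map_mul, ← hbs, ← hbs₂]
    field_simp
  have h3 : s * s₂ ∈ 𝔭 := by
    rw [← hprod]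
    exact 𝔭.mul_mem_right _ hb
  rcases h𝔭.mem_or_mem h3 with h' | h'
  · exact hs h'
  · exact hs₂ h'

end LocalRing

end Fermat.Agent.UNIP
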