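import Mathlib
import Fermat.Agent.INJ.ZariskiCharts
import Fermat.Agent.INJ.TorsionFree
import Fermat.Agent.INJ.ChartBasics

/-!
# UNIP D4: explicit idempotents (Step 2 (b)–(d) of the direct route for S34)

Setting of `Fermat.Agent.INJ.zariski_connected_charts`: `A₀` a DVR with uniformizer `π` and
fraction field `E` (char 0), `L / E(t)` finite, `E` algebraically closed in `L`;
`C₁ = zchClosure {t}`, `C₂ = zchClosure {t⁻¹}` the integral closures of `A₀[t]`, `A₀[t⁻¹]` in `L`.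

For a transcendental `u` (`u = t` or `u = t⁻¹`):
* `eiLoc hu hπ : Subring L` is the semilocal ring `C(u)_(π)` = elements `z` with `s z` integral
  over `A₀[u]` for some `s ∈ A₀[u]` not divisible by `π`;
* `EIPiLoc hu hπ x` says `x ∈ π · C(u)_(π)` ("`x` vanishes on the special fibre").

Main results
* `ei_isIntegral_of_mem_loc` (A1): `z ∈ C(u)_(π)` and `π z` integral ⇒ `z` integral.
* `ei_exists_global` (b): local approximations of `y` at all closed points of the special fibre of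
  a chart give a global `y' ∈ C(u)` with `y − y' ∈ π C(u)_(π)`.
* `ei_dichotomy` (c)+(d): if `yⁿ ≡ 1` on the special fibre (`n` invertible in `A₀`) and `y` has
  local approximations on both charts, then `y ≡ 1` or `1 + y + … + y^{n−1} ≡ 0` on the special
  fibre.
* `ei_false_of_aut`: if moreover a ring endomorphism `ρ` of `L` fixes `A₀` and `t` and
  `ρ y = ζ y` with `ζ ∈ A₀` a primitive `n`-th root of unity, `1 < n`, this is impossible.
-/

set_option autoImplicit false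
set_option linter.unusedSectionVars false
set_option linter.style.haveILetI false

namespace Fermat.Agent.UNIP

open Polynomial IntermediateField Fermat.Agent.INJ

section Loc

variable {A₀ E L : Type*} [CommRing A₀] [IsDomain A₀] [IsDiscreteValuationRing A₀]
  [Field E] [Algebra A₀ E] [IsFractionRing A₀ E] [CharZero E]
  [Field L] [Algebra E L] [Algebra A₀ L] [IsScalarTower A₀ E L]
  {π : A₀} {u : L}

/-- `s ∈ A₀[u]` is not divisible by `π` in `A₀[u]` (statement inside `L`). -/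
def EIPrimeTo (π : A₀) (u : L) (s : L) : Prop :=
  s ∈ Algebra.adjoin A₀ {u} ∧ ∀ r ∈ Algebra.adjoin A₀ {u}, s ≠ algebraMap A₀ L π * r

theorem eiPrimeTo_iff {s : L} (hs : s ∈ Algebra.adjoin A₀ {u}) :
    EIPrimeTo π u s ↔
      ¬ (algebraMap A₀ ↥(Algebra.adjoin A₀ {u}) π ∣ (⟨s, hs⟩ : ↥(Algebra.adjoin A₀ {u}))) := by
  constructor
  · rintro ⟨-, h⟩ ⟨r, hr⟩
    exact h r r.2 (congrArg Subtype.val hr)
  · intro h
    refine ⟨hs, fun r hr hsr => h ⟨⟨r, hr⟩, Subtype.ext hsr⟩⟩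

theorem eiPrimeTo_one (hu : Transcendental E u) (hπ : Irreducible π) : EIPrimeTo π u 1 := by
  have hs : (1 : L) ∈ Algebra.adjoin A₀ {u} := Subalgebra.one_mem _
  rw [eiPrimeTo_iff hs]
  intro h
  have hp := chart_prime (A₀ := A₀) (E := E) hu hπ
  exact hp.not_isUnit (isUnit_of_dvd_one h)

theorem eiPrimeTo_mul (hu : Transcendental E u) (hπ : Irreducible π) {s s' : L}
    (h : EIPrimeTo π u s) (h' : EIPrimeTo π u s') : EIPrimeTo π u (s * s') := by
  have hs := h.1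
  have hs' := h'.1
  have hss' : s * s' ∈ Algebra.adjoin A₀ {u} := Subalgebra.mul_mem _ hs hs'
  rw [eiPrimeTo_iff hs] at h
  rw [eiPrimeTo_iff hs'] at h'
  rw [eiPrimeTo_iff hss']
  intro hd
  have hp := chart_prime (A₀ := A₀) (E := E) hu hπ
  have : (⟨s * s', hss'⟩ : ↥(Algebra.adjoin A₀ {u})) = ⟨s, hs⟩ * ⟨s', hs'⟩ := rfl
  rw [this] at hd
  rcases hp.dvd_or_dvd hd with h1 | h1
  · exact h h1
  · exact h' h1

/-- The uniformizer does not divide `u` in `A₀[u]`. -/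
theorem eiPrimeTo_self (hu : Transcendental E u) (hπ : Irreducible π) : EIPrimeTo π u u := by
  have hs : u ∈ Algebra.adjoin A₀ {u} := Algebra.subset_adjoin (Set.mem_singleton u)
  rw [eiPrimeTo_iff hs]
  intro hd
  have h1 := map_dvd (chartEquiv (A₀ := A₀) (E := E) hu).symm hd
  have h2 : (chartEquiv (A₀ := A₀) (E := E) hu).symm (algebraMap A₀ _ π) = C π := by
    rw [← chartEquiv_C hu, AlgEquiv.symm_apply_apply]
  have h3 : (chartEquiv (A₀ := A₀) (E := E) hu).symm ⟨u, hs⟩ = X := by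
    apply (chartEquiv (A₀ := A₀) (E := E) hu).injective
    rw [AlgEquiv.apply_symm_apply]
    exact Subtype.ext (chartEquiv_X hu).symm
  rw [h2, h3, C_dvd_iff_dvd_coeff] at h1
  have h4 := h1 1
  rw [coeff_X_one] at h4
  exact hπ.not_isUnit (isUnit_of_dvd_one h4)

theorem eiPrimeTo_pow (hu : Transcendental E u) (hπ : Irreducible π) {s : L}
    (h : EIPrimeTo π u s) (k : ℕ) : EIPrimeTo π u (s ^ k) := by
  induction k with
  | zero => rw [pow_zero]; exact eiPrimeTo_one hu hπ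
  | succ k ih => rw [pow_succ]; exact eiPrimeTo_mul hu hπ ih h

/-- The semilocal ring `C(u)_(π)`, as a subring of `L`. -/
def eiLoc (hu : Transcendental E u) (hπ : Irreducible π) : Subring L where
  carrier := {z | ∃ s, EIPrimeTo π u s ∧ IsIntegral (Algebra.adjoin A₀ {u}) (s * z)}
  mul_mem' := by
    rintro a b ⟨s, hs, ha⟩ ⟨s', hs', hb⟩
    refine ⟨s * s', eiPrimeTo_mul hu hπ hs hs', ?_⟩
    have : s * s' * (a * b) = (s * a) * (s' * b) := by ring
    rw [this]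
    exact ha.mul hb
  one_mem' := ⟨1, eiPrimeTo_one hu hπ, by rw [mul_one]; exact isIntegral_one⟩
  add_mem' := by
    rintro a b ⟨s, hs, ha⟩ ⟨s', hs', hb⟩
    refine ⟨s * s', eiPrimeTo_mul hu hπ hs hs', ?_⟩
    have : s * s' * (a + b) = (algebraMap ↥(Algebra.adjoin A₀ {u}) L ⟨s', hs'.1⟩) * (s * a) +
        (algebraMap ↥(Algebra.adjoin A₀ {u}) L ⟨s, hs.1⟩) * (s' * b) := by
      show s * s' * (a + b) = s' * (s * a) + s * (s' * b)
      ring
    rw [this]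
    exact (isIntegral_algebraMap.mul ha).add (isIntegral_algebraMap.mul hb)
  zero_mem' := ⟨1, eiPrimeTo_one hu hπ, by rw [mul_zero]; exact isIntegral_zero⟩
  neg_mem' := by
    rintro a ⟨s, hs, ha⟩
    refine ⟨s, hs, ?_⟩
    rw [mul_neg]
    exact ha.neg

theorem mem_eiLoc (hu : Transcendental E u) (hπ : Irreducible π) {z : L} :
    z ∈ eiLoc hu hπ ↔ ∃ s, EIPrimeTo π u s ∧ IsIntegral (Algebra.adjoin A₀ {u}) (s * z) :=
  Iff.rfl

theorem eiLoc_of_isIntegral (hu : Transcendental E u) (hπ : Irreducible π) {z : L}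
    (hz : IsIntegral (Algebra.adjoin A₀ {u}) z) : z ∈ eiLoc hu hπ :=
  ⟨1, eiPrimeTo_one hu hπ, by rwa [one_mul]⟩

theorem eiLoc_algebraMap (hu : Transcendental E u) (hπ : Irreducible π) (a : A₀) :
    algebraMap A₀ L a ∈ eiLoc hu hπ :=
  eiLoc_of_isIntegral hu hπ
    (isIntegral_algebraMap (R := ↥(Algebra.adjoin A₀ {u}))
      (x := algebraMap A₀ ↥(Algebra.adjoin A₀ {u}) a))

/-- `x ∈ π · C(u)_(π)`. -/
def EIPiLoc (hu : Transcendental E u) (hπ : Irreducible π) (x : L) : Prop :=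
  ∃ z ∈ eiLoc hu hπ, x = algebraMap A₀ L π * z

/-- `x ∈ π · C(u)`. -/
def EIPiInt (π : A₀) (u : L) (x : L) : Prop :=
  ∃ c : L, IsIntegral (Algebra.adjoin A₀ {u}) c ∧ x = algebraMap A₀ L π * c


include E in
theorem ei_algebraMap_ne_zero (hπ : Irreducible π) : algebraMap A₀ L π ≠ 0 :=
  (map_ne_zero_iff _ (zch_algebraMap_injective (A₀ := A₀) (E := E) (L := L))).mpr hπ.ne_zero

/-- `π⁻¹` is not integral over `A₀[u]`. -/
theorem ei_mul_ne_one (hu : Transcendental E u) (hπ : Irreducible π) {z : L}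
    (hz : IsIntegral (Algebra.adjoin A₀ {u}) z) : algebraMap A₀ L π * z ≠ 1 := by
  intro h
  have hp := chart_prime (A₀ := A₀) (E := E) hu hπ
  haveI hP : (Ideal.span {algebraMap A₀ ↥(Algebra.adjoin A₀ {u}) π}).IsPrime :=
    (Ideal.span_singleton_prime hp.ne_zero).mpr hp
  have hker : RingHom.ker (algebraMap ↥(Algebra.adjoin A₀ {u})
      ↥(integralClosure ↥(Algebra.adjoin A₀ {u}) L)) ≤
      Ideal.span {algebraMap A₀ ↥(Algebra.adjoin A₀ {u}) π} := by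
    intro x hx
    rw [RingHom.mem_ker] at hx
    have hx0 : x = 0 := by
      have := congrArg Subtype.val hx
      exact Subtype.ext this
    rw [hx0]
    exact Ideal.zero_mem _
  obtain ⟨Q, hQ, hQP⟩ := Ideal.exists_ideal_over_prime_of_isIntegral_of_isDomain
    (S := ↥(integralClosure ↥(Algebra.adjoin A₀ {u}) L))
    (Ideal.span {algebraMap A₀ ↥(Algebra.adjoin A₀ {u}) π}) hker
  have hmem : algebraMap ↥(Algebra.adjoin A₀ {u}) ↥(integralClosure ↥(Algebra.adjoin A₀ {u}) L)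
      (algebraMap A₀ ↥(Algebra.adjoin A₀ {u}) π) ∈ Q := by
    have h1 : algebraMap A₀ ↥(Algebra.adjoin A₀ {u}) π ∈
        Q.comap (algebraMap ↥(Algebra.adjoin A₀ {u})
          ↥(integralClosure ↥(Algebra.adjoin A₀ {u}) L)) := by
      rw [hQP]; exact Ideal.mem_span_singleton_self _
    exact h1
  have h1 : (1 : ↥(integralClosure ↥(Algebra.adjoin A₀ {u}) L)) ∈ Q := by
    have h2 := Q.mul_mem_right ⟨z, hz⟩ hmem
    have h3 : algebraMap ↥(Algebra.adjoin A₀ {u}) ↥(integralClosure ↥(Algebra.adjoin A₀ {u}) L)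
      (algebraMap A₀ ↥(Algebra.adjoin A₀ {u}) π) * ⟨z, hz⟩ = 1 := Subtype.ext h
    rwa [h3] at h2
  exact hQ.ne_top ((Ideal.eq_top_iff_one _).mpr h1)

/-- **A1** in the chart: `z ∈ C(u)_(π)` and `π z` integral imply `z` integral. -/
theorem ei_isIntegral_of_mem_loc (hu : Transcendental E u) (hπ : Irreducible π) {z : L}
    (hz : z ∈ eiLoc hu hπ)
    (hπz : IsIntegral (Algebra.adjoin A₀ {u}) (algebraMap A₀ L π * z)) :
    IsIntegral (Algebra.adjoin A₀ {u}) z := by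
  obtain ⟨s, hs, hsz⟩ := hz
  haveI := chart_isIntegrallyClosed (A₀ := A₀) (E := E) hu
  have hp := chart_prime (A₀ := A₀) (E := E) hu hπ
  have hnd := (eiPrimeTo_iff hs.1).mp hs
  have hπ0 : algebraMap A₀ L π ≠ 0 := ei_algebraMap_ne_zero (E := E) hπ
  have key : (⟨s, hs.1⟩ : ↥(Algebra.adjoin A₀ {u})) • (algebraMap A₀ L π * z) =
      (algebraMap A₀ ↥(Algebra.adjoin A₀ {u}) π) • (s * z) := by
    rw [Algebra.smul_def, Algebra.smul_def]
    show s * (algebraMap A₀ L π * z) = algebraMap A₀ L π * (s * z)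
    ring
  obtain ⟨z', hz', hxz⟩ := exists_isIntegral_smul_eq hp hnd hπz hsz key
  have hzz' : z = z' := by
    rw [Algebra.smul_def] at hxz
    exact mul_left_cancel₀ hπ0 hxz
  rw [hzz']
  exact hz'

/-- `f ∈ A₀[u]`, `f = π c` with `c` integral over `A₀[u]` ⇒ `π ∣ f` in `A₀[u]`. -/
theorem ei_not_primeTo_of_eq_mul (hu : Transcendental E u) (hπ : Irreducible π) {f c : L}
    (hc : IsIntegral (Algebra.adjoin A₀ {u}) c) (hfc : f = algebraMap A₀ L π * c) :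
    ¬ EIPrimeTo π u f := by
  intro hf
  have hπ0 : algebraMap A₀ L π ≠ 0 := ei_algebraMap_ne_zero (E := E) hπ
  have hz : (algebraMap A₀ L π)⁻¹ ∈ eiLoc hu hπ := by
    refine ⟨f, hf, ?_⟩
    rw [hfc, mul_comm (algebraMap A₀ L π) c, mul_assoc, mul_inv_cancel₀ hπ0, mul_one]
    exact hc
  have h1 : IsIntegral (Algebra.adjoin A₀ {u}) (algebraMap A₀ L π * (algebraMap A₀ L π)⁻¹) := by
    rw [mul_inv_cancel₀ hπ0]; exact isIntegral_one
  have h2 := ei_isIntegral_of_mem_loc hu hπ hz h1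
  exact ei_mul_ne_one hu hπ h2 (mul_inv_cancel₀ hπ0)

/-- `1 ∉ π · C(u)_(π)`. -/
theorem ei_not_piLoc_one (hu : Transcendental E u) (hπ : Irreducible π) :
    ¬ EIPiLoc hu hπ (1 : L) := by
  rintro ⟨z, ⟨s, hs, hsz⟩, h1⟩
  refine ei_not_primeTo_of_eq_mul hu hπ hsz ?_ hs
  rw [mul_left_comm, ← h1, mul_one]

theorem EIPiLoc.add (hu : Transcendental E u) (hπ : Irreducible π) {x x' : L}
    (h : EIPiLoc hu hπ x) (h' : EIPiLoc hu hπ x') : EIPiLoc hu hπ (x + x') := by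
  obtain ⟨z, hz, rfl⟩ := h
  obtain ⟨z', hz', rfl⟩ := h'
  exact ⟨z + z', Subring.add_mem _ hz hz', by ring⟩

theorem EIPiLoc.neg (hu : Transcendental E u) (hπ : Irreducible π) {x : L}
    (h : EIPiLoc hu hπ x) : EIPiLoc hu hπ (-x) := by
  obtain ⟨z, hz, rfl⟩ := h
  exact ⟨-z, Subring.neg_mem _ hz, by ring⟩

theorem EIPiLoc.sub (hu : Transcendental E u) (hπ : Irreducible π) {x x' : L}
    (h : EIPiLoc hu hπ x) (h' : EIPiLoc hu hπ x') : EIPiLoc hu hπ (x - x') := by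
  obtain ⟨z, hz, rfl⟩ := h
  obtain ⟨z', hz', rfl⟩ := h'
  exact ⟨z - z', Subring.sub_mem _ hz hz', by ring⟩

theorem EIPiLoc.mul_left (hu : Transcendental E u) (hπ : Irreducible π) {x c : L}
    (hc : c ∈ eiLoc hu hπ) (h : EIPiLoc hu hπ x) : EIPiLoc hu hπ (c * x) := by
  obtain ⟨z, hz, rfl⟩ := h
  exact ⟨c * z, Subring.mul_mem _ hc hz, by ring⟩

theorem EIPiLoc.mul_right (hu : Transcendental E u) (hπ : Irreducible π) {x c : L}
    (hc : c ∈ eiLoc hu hπ) (h : EIPiLoc hu hπ x) : EIPiLoc hu hπ (x * c) := by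
  rw [mul_comm]; exact h.mul_left hu hπ hc

theorem eiPiLoc_zero (hu : Transcendental E u) (hπ : Irreducible π) : EIPiLoc hu hπ (0 : L) :=
  ⟨0, Subring.zero_mem _, by rw [mul_zero]⟩

theorem EIPiLoc.mem_loc (hu : Transcendental E u) (hπ : Irreducible π) {x : L}
    (h : EIPiLoc hu hπ x) : x ∈ eiLoc hu hπ := by
  obtain ⟨z, hz, rfl⟩ := h
  exact Subring.mul_mem _ (eiLoc_algebraMap hu hπ π) hz

theorem EIPiInt.piLoc (hu : Transcendental E u) (hπ : Irreducible π) {x : L}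
    (h : EIPiInt π u x) : EIPiLoc hu hπ x := by
  obtain ⟨c, hc, rfl⟩ := h
  exact ⟨c, eiLoc_of_isIntegral hu hπ hc, rfl⟩

/-- **A1**, second form: `C(u) ∩ π C(u)_(π) = π C(u)`. -/
theorem EIPiLoc.piInt (hu : Transcendental E u) (hπ : Irreducible π) {x : L}
    (h : EIPiLoc hu hπ x) (hx : IsIntegral (Algebra.adjoin A₀ {u}) x) : EIPiInt π u x := by
  obtain ⟨z, hz, rfl⟩ := h
  exact ⟨z, ei_isIntegral_of_mem_loc hu hπ hz hx, rfl⟩

/-- Explicit form of `EIPiLoc`. -/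
theorem eiPiLoc_iff (hu : Transcendental E u) (hπ : Irreducible π) {x : L} :
    EIPiLoc hu hπ x ↔ ∃ s, EIPrimeTo π u s ∧ EIPiInt π u (s * x) := by
  have hπ0 : algebraMap A₀ L π ≠ 0 := ei_algebraMap_ne_zero (E := E) hπ
  constructor
  · rintro ⟨z, ⟨s, hs, hsz⟩, rfl⟩
    exact ⟨s, hs, s * z, hsz, by ring⟩
  · rintro ⟨s, hs, c, hc, hsc⟩
    refine ⟨(algebraMap A₀ L π)⁻¹ * x, ⟨s, hs, ?_⟩, ?_⟩
    · have : s * ((algebraMap A₀ L π)⁻¹ * x) = c := by
        rw [mul_left_comm, hsc, inv_mul_cancel_left₀ hπ0]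
      rw [this]; exact hc
    · rw [mul_inv_cancel_left₀ hπ0]

theorem EIPiLoc.sum (hu : Transcendental E u) (hπ : Irreducible π) {ι : Type*}
    (s : Finset ι) (f : ι → L) (h : ∀ i ∈ s, EIPiLoc hu hπ (f i)) :
    EIPiLoc hu hπ (∑ i ∈ s, f i) := by
  classical
  induction s using Finset.induction_on with
  | empty => simpa using eiPiLoc_zero hu hπ
  | insert a s ha ih =>
    rw [Finset.sum_insert ha]
    exact (h a (Finset.mem_insert_self a s)).add hu hπ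
      (ih (fun i hi => h i (Finset.mem_insert_of_mem hi)))

theorem EIPiLoc.pow_sub_pow (hu : Transcendental E u) (hπ : Irreducible π) {y y' : L}
    (h : EIPiLoc hu hπ (y - y')) (hy' : y' ∈ eiLoc hu hπ) (k : ℕ) :
    EIPiLoc hu hπ (y ^ k - y' ^ k) := by
  have hy : y ∈ eiLoc hu hπ := by
    have := Subring.add_mem _ (h.mem_loc hu hπ) hy'
    simpa using this
  rw [← geom_sum₂_mul]
  refine h.mul_left hu hπ (Subring.sum_mem _ (fun i _ => ?_))
  exact Subring.mul_mem _ (Subring.pow_mem _ hy _) (Subring.pow_mem _ hy' _)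

/-- `yⁿ ≡ 1` on the special fibre ⇒ `y ∈ C(u)_(π)`. -/
theorem ei_mem_loc_of_pow (hu : Transcendental E u) (hπ : Irreducible π) {n : ℕ} (hn : 0 < n)
    {y : L} (hy : EIPiLoc hu hπ (y ^ n - 1)) : y ∈ eiLoc hu hπ := by
  have h1 : y ^ n ∈ eiLoc hu hπ := by
    have := Subring.add_mem _ (hy.mem_loc hu hπ) (Subring.one_mem _)
    simpa using this
  obtain ⟨s, hs, hsy⟩ := h1
  refine ⟨s, hs, IsIntegral.of_pow hn ?_⟩
  obtain ⟨m, rfl⟩ : ∃ m, n = m + 1 := ⟨n - 1, by omega⟩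
  have : (s * y) ^ (m + 1) =
      algebraMap ↥(Algebra.adjoin A₀ {u}) L (⟨s, hs.1⟩ ^ m) * (s * y ^ (m + 1)) := by
    show (s * y) ^ (m + 1) = s ^ m * (s * y ^ (m + 1))
    ring
  rw [this]
  exact isIntegral_algebraMap.mul hsy

/-- **Step 2 (b)**: local approximations at all closed points of the special fibre of the chart
give a global approximation. -/
theorem ei_exists_global (hu : Transcendental E u) (hπ : Irreducible π) {y : L}
    (hy : y ∈ eiLoc hu hπ)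
    (hloc : ∀ 𝔑 : Ideal ↥(zchClosure (A₀ := A₀) ({u} : Set L)), 𝔑.IsMaximal →
      algebraMap A₀ ↥(zchClosure (A₀ := A₀) ({u} : Set L)) π ∈ 𝔑 →
      ∃ b T : ↥(zchClosure (A₀ := A₀) ({u} : Set L)),
        b ∉ 𝔑 ∧ EIPiLoc hu hπ ((b : L) * y - (T : L))) :
    ∃ y' : L, IsIntegral (Algebra.adjoin A₀ {u}) y' ∧ EIPiLoc hu hπ (y - y') := by
  let 𝔞 : Ideal ↥(zchClosure (A₀ := A₀) ({u} : Set L)) :=
    { carrier := {b | ∃ T : ↥(zchClosure (A₀ := A₀) ({u} : Set L)),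
        EIPiLoc hu hπ ((b : L) * y - (T : L))}
      add_mem' := by
        rintro a b ⟨T, hT⟩ ⟨T', hT'⟩
        refine ⟨T + T', ?_⟩
        have := hT.add hu hπ hT'
        have e : ((a + b : ↥(zchClosure (A₀ := A₀) ({u} : Set L))) : L) * y -
            ((T + T' : ↥(zchClosure (A₀ := A₀) ({u} : Set L))) : L) =
            ((a : L) * y - (T : L)) + ((b : L) * y - (T' : L)) := by
          push_cast; ring
        rw [e]; exact this
      zero_mem' := ⟨0, by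
        have e : ((0 : ↥(zchClosure (A₀ := A₀) ({u} : Set L))) : L) * y -
            ((0 : ↥(zchClosure (A₀ := A₀) ({u} : Set L))) : L) = 0 := by
          push_cast; ring
        rw [e]; exact eiPiLoc_zero hu hπ⟩
      smul_mem' := by
        rintro c b ⟨T, hT⟩
        refine ⟨c * T, ?_⟩
        have := hT.mul_left hu hπ (eiLoc_of_isIntegral hu hπ (mem_zchClosure.mp c.2))
        have e : ((c • b : ↥(zchClosure (A₀ := A₀) ({u} : Set L))) : L) * y -
            ((c * T : ↥(zchClosure (A₀ := A₀) ({u} : Set L))) : L) =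
            (c : L) * ((b : L) * y - (T : L)) := by
          rw [smul_eq_mul]; push_cast; ring
        rw [e]; exact this }
  have hπ𝔞 : algebraMap A₀ ↥(zchClosure (A₀ := A₀) ({u} : Set L)) π ∈ 𝔞 := by
    refine ⟨0, y, hy, ?_⟩
    show algebraMap A₀ L π * y - 0 = _
    rw [sub_zero]
  have htop : 𝔞 = ⊤ := by
    by_contra hne
    obtain ⟨𝔑, h𝔑, hle⟩ := Ideal.exists_le_maximal 𝔞 hne
    obtain ⟨b, T, hb, hbT⟩ := hloc 𝔑 h𝔑 (hle hπ𝔞)
    exact hb (hle ⟨T, hbT⟩)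
  have h1 : (1 : ↥(zchClosure (A₀ := A₀) ({u} : Set L))) ∈ 𝔞 := by
    rw [htop]; exact Submodule.mem_top
  obtain ⟨T, hT⟩ := h1
  refine ⟨T, mem_zchClosure.mp T.2, ?_⟩
  have e : ((1 : ↥(zchClosure (A₀ := A₀) ({u} : Set L))) : L) * y - (T : L) = y - T := by
    push_cast; ring
  rwa [e] at hT

/-- **Step 2 (c)**, first half: a global approximation `y'` of `y` satisfies `y'ⁿ ≡ 1` mod `π C`. -/
theorem ei_pow_sub_one_piInt (hu : Transcendental E u) (hπ : Irreducible π) {n : ℕ}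
    {y y' : L} (hy : EIPiLoc hu hπ (y ^ n - 1))
    (hy' : IsIntegral (Algebra.adjoin A₀ {u}) y') (h : EIPiLoc hu hπ (y - y')) :
    EIPiInt π u (y' ^ n - 1) := by
  have h1 := h.pow_sub_pow hu hπ (eiLoc_of_isIntegral hu hπ hy') n
  have h2 := hy.sub hu hπ h1
  have e : y ^ n - 1 - (y ^ n - y' ^ n) = y' ^ n - 1 := by ring
  rw [e] at h2
  exact h2.piInt hu hπ ((hy'.pow n).sub isIntegral_one)

/-- An element of `A₀[u]` prime to `π` is not in `π C₁₂`. -/
theorem ei_primeTo_overlap (hu : Transcendental E u) (hπ : Irreducible π) {s r : L}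
    (hs : EIPrimeTo π u s) (hr : IsIntegral (Algebra.adjoin A₀ {u, u⁻¹}) r) :
    s ≠ algebraMap A₀ L π * r := by
  intro hsr
  have hu0 : u ≠ 0 := by
    rintro rfl
    exact hu isAlgebraic_zero
  obtain ⟨k, hk⟩ := zch_exists_pow_mul_isIntegral (mul_inv_cancel₀ hu0) hr
  have h1 : EIPrimeTo π u (u ^ k * s) :=
    eiPrimeTo_mul hu hπ (eiPrimeTo_pow hu hπ (eiPrimeTo_self hu hπ) k) hs
  refine ei_not_primeTo_of_eq_mul hu hπ hk ?_ h1
  rw [hsr]; ring

end Loc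

section Overlap

variable {A₀ E L : Type*} [CommRing A₀] [IsDomain A₀] [IsDiscreteValuationRing A₀]
  [Field E] [Algebra A₀ E] [IsFractionRing A₀ E] [CharZero E]
  [Field L] [Algebra E L] [Algebra A₀ L] [IsScalarTower A₀ E L]
  {π : A₀} {t : L}

theorem ei_adjoin_inv_pair (t : L) :
    Algebra.adjoin A₀ ({t⁻¹, t⁻¹⁻¹} : Set L) = Algebra.adjoin A₀ {t, t⁻¹} := by
  rw [inv_inv, Set.pair_comm]

theorem ei_adjoin_le_pair_left (t : L) :
    Algebra.adjoin A₀ ({t} : Set L) ≤ Algebra.adjoin A₀ {t, t⁻¹} :=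
  Algebra.adjoin_mono (by intro x hx; exact Or.inl hx)

theorem ei_adjoin_le_pair_right (t : L) :
    Algebra.adjoin A₀ ({t⁻¹} : Set L) ≤ Algebra.adjoin A₀ {t, t⁻¹} :=
  Algebra.adjoin_mono (by intro x hx; exact Or.inr hx)

theorem ei_inv_mem_pair (t : L) : t⁻¹ ∈ Algebra.adjoin A₀ ({t, t⁻¹} : Set L) :=
  Algebra.subset_adjoin (Set.mem_insert_of_mem _ (Set.mem_singleton _))

/-- Transport of an element of `A₀[t⁻¹]` prime to `π` into `A₀[t]`. -/
theorem ei_primeTo_transport (ht : Transcendental E t) (hπ : Irreducible π) {s : L}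
    (hs : EIPrimeTo π t⁻¹ s) {k : ℕ} (hk : t ^ k * s ∈ Algebra.adjoin A₀ {t}) :
    EIPrimeTo π t (t ^ k * s) := by
  have ht0 : t ≠ 0 := by
    rintro rfl
    exact ht isAlgebraic_zero
  refine ⟨hk, fun r hr hsr => ?_⟩
  have hr' : IsIntegral (Algebra.adjoin A₀ ({t⁻¹, t⁻¹⁻¹} : Set L)) ((t⁻¹) ^ k * r) := by
    rw [ei_adjoin_inv_pair]
    refine isIntegral_algebraMap (R := ↥(Algebra.adjoin A₀ {t, t⁻¹}))
      (x := ⟨(t⁻¹) ^ k * r, Subalgebra.mul_mem _ (Subalgebra.pow_mem _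
        (ei_inv_mem_pair t) _) (ei_adjoin_le_pair_left t hr)⟩)
  refine ei_primeTo_overlap (zch_transcendental_inv ht) hπ hs hr' ?_
  have : s = (t⁻¹) ^ k * (t ^ k * s) := by
    rw [← mul_assoc, ← mul_pow, inv_mul_cancel₀ ht0, one_pow, one_mul]
  rw [this, hsr]; ring

/-- A common exponent moving three data of the chart at `∞` into the chart at `0`. -/
theorem ei_common_exp (ht : Transcendental E t) {s c y₂ : L}
    (hs : s ∈ Algebra.adjoin A₀ {t⁻¹})
    (hc : IsIntegral (Algebra.adjoin A₀ {t⁻¹}) c)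
    (hy₂ : IsIntegral (Algebra.adjoin A₀ {t⁻¹}) y₂) :
    ∃ K : ℕ, t ^ K * s ∈ Algebra.adjoin A₀ {t} ∧
      IsIntegral (Algebra.adjoin A₀ {t}) (t ^ K * c) ∧
      IsIntegral (Algebra.adjoin A₀ {t}) (t ^ K * y₂) := by
  have ht0 : t ≠ 0 := by
    rintro rfl
    exact ht isAlgebraic_zero
  have htt' : t * t⁻¹ = 1 := mul_inv_cancel₀ ht0
  have htR : t ∈ Algebra.adjoin A₀ {t} := Algebra.subset_adjoin (Set.mem_singleton t)
  obtain ⟨k₁, hk₁⟩ := zch_pow_mul_mem (A₀ := A₀) htt' (ei_adjoin_le_pair_right t hs)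
  obtain ⟨k₂, hk₂⟩ := zch_exists_pow_mul_isIntegral (A₀ := A₀) htt'
    (zch_isIntegral_mono (ei_adjoin_le_pair_right t) hc)
  obtain ⟨k₃, hk₃⟩ := zch_exists_pow_mul_isIntegral (A₀ := A₀) htt'
    (zch_isIntegral_mono (ei_adjoin_le_pair_right t) hy₂)
  have hpow : ∀ j : ℕ, IsIntegral (Algebra.adjoin A₀ {t}) (t ^ j) := fun j =>
    isIntegral_algebraMap (R := ↥(Algebra.adjoin A₀ {t}))
      (x := ⟨t ^ j, Subalgebra.pow_mem _ htR j⟩)
  refine ⟨k₁ + k₂ + k₃, hk₁ _ (by omega), ?_, ?_⟩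
  · have : t ^ (k₁ + k₂ + k₃) * c = t ^ (k₁ + k₃) * (t ^ k₂ * c) := by
      rw [← mul_assoc, ← pow_add]; congr 2; omega
    rw [this]; exact (hpow _).mul hk₂
  · have : t ^ (k₁ + k₂ + k₃) * y₂ = t ^ (k₁ + k₂) * (t ^ k₃ * y₂) := by
      rw [← mul_assoc, ← pow_add]
    rw [this]; exact (hpow _).mul hk₃

/-- **Overlap**: approximations of the same `y` on the two charts agree modulo `π C₁₂`. -/
theorem ei_overlap (ht : Transcendental E t) (hπ : Irreducible π) {y₁ y₂ z₁ z₂ : L}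
    (hy₁ : IsIntegral (Algebra.adjoin A₀ {t}) y₁)
    (hy₂ : IsIntegral (Algebra.adjoin A₀ {t⁻¹}) y₂)
    (hz₁ : z₁ ∈ eiLoc ht hπ) (hz₂ : z₂ ∈ eiLoc (zch_transcendental_inv ht) hπ)
    (h : y₁ - y₂ = algebraMap A₀ L π * (z₂ - z₁)) :
    ∃ c : L, IsIntegral (Algebra.adjoin A₀ {t, t⁻¹}) c ∧ y₁ - y₂ = algebraMap A₀ L π * c := by
  have ht0 : t ≠ 0 := by
    rintro rfl
    exact ht isAlgebraic_zero
  have htR : t ∈ Algebra.adjoin A₀ {t} := Algebra.subset_adjoin (Set.mem_singleton t)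
  obtain ⟨s₁, hs₁, hc₁⟩ := hz₁
  obtain ⟨s₂, hs₂, hc₂⟩ := hz₂
  obtain ⟨K, hK₁, hK₂, hK₃⟩ := ei_common_exp (A₀ := A₀) ht hs₂.1 hc₂ hy₂
  have hpow : ∀ j : ℕ, IsIntegral (Algebra.adjoin A₀ {t}) (t ^ j) := fun j =>
    isIntegral_algebraMap (R := ↥(Algebra.adjoin A₀ {t}))
      (x := ⟨t ^ j, Subalgebra.pow_mem _ htR j⟩)
  have hS : EIPrimeTo π t (s₁ * (t ^ K * s₂)) :=
    eiPrimeTo_mul ht hπ hs₁ (ei_primeTo_transport ht hπ hs₂ hK₁)
  have hW : t ^ K * (z₂ - z₁) ∈ eiLoc ht hπ := by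
    refine ⟨_, hS, ?_⟩
    have e : s₁ * (t ^ K * s₂) * (t ^ K * (z₂ - z₁)) =
        algebraMap ↥(Algebra.adjoin A₀ {t}) L ⟨s₁, hs₁.1⟩ * (t ^ K * (t ^ K * (s₂ * z₂))) -
        algebraMap ↥(Algebra.adjoin A₀ {t}) L ⟨t ^ K * s₂, hK₁⟩ * (t ^ K * (s₁ * z₁)) := by
      show s₁ * (t ^ K * s₂) * (t ^ K * (z₂ - z₁)) =
        s₁ * (t ^ K * (t ^ K * (s₂ * z₂))) - (t ^ K * s₂) * (t ^ K * (s₁ * z₁))
      ring
    rw [e]
    exact (isIntegral_algebraMap.mul ((hpow K).mul hK₂)).sub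
      (isIntegral_algebraMap.mul ((hpow K).mul hc₁))
  have hπW : IsIntegral (Algebra.adjoin A₀ {t}) (algebraMap A₀ L π * (t ^ K * (z₂ - z₁))) := by
    have e : algebraMap A₀ L π * (t ^ K * (z₂ - z₁)) = t ^ K * y₁ - t ^ K * y₂ := by
      rw [mul_left_comm, ← h]; ring
    rw [e]
    exact ((hpow K).mul hy₁).sub hK₃
  have hWint := ei_isIntegral_of_mem_loc ht hπ hW hπW
  refine ⟨z₂ - z₁, ?_, h⟩
  have e : z₂ - z₁ = (t⁻¹) ^ K * (t ^ K * (z₂ - z₁)) := by
    rw [← mul_assoc, ← mul_pow, inv_mul_cancel₀ ht0, one_pow, one_mul]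
  rw [e]
  refine IsIntegral.mul ?_ (zch_isIntegral_mono (ei_adjoin_le_pair_left t) hWint)
  exact isIntegral_algebraMap (R := ↥(Algebra.adjoin A₀ {t, t⁻¹}))
    (x := ⟨(t⁻¹) ^ K, Subalgebra.pow_mem _ (ei_inv_mem_pair t) _⟩)

/-- The semilocal rings of the two charts coincide (one inclusion). -/
theorem eiLoc_le_inv (ht : Transcendental E t) (hπ : Irreducible π) :
    eiLoc (zch_transcendental_inv ht) hπ ≤ eiLoc ht hπ := by
  rintro z ⟨s, hs, hc⟩
  have htR : t ∈ Algebra.adjoin A₀ {t} := Algebra.subset_adjoin (Set.mem_singleton t)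
  obtain ⟨K, hK₁, hK₂, -⟩ := ei_common_exp (A₀ := A₀) ht hs.1 hc hc
  refine ⟨t ^ K * (t ^ K * s), eiPrimeTo_mul ht hπ
    (eiPrimeTo_pow ht hπ (eiPrimeTo_self ht hπ) K) (ei_primeTo_transport ht hπ hs hK₁), ?_⟩
  have e : t ^ K * (t ^ K * s) * z =
      algebraMap ↥(Algebra.adjoin A₀ {t}) L ⟨t ^ K, Subalgebra.pow_mem _ htR K⟩ *
        (t ^ K * (s * z)) := by
    show t ^ K * (t ^ K * s) * z = t ^ K * (t ^ K * (s * z))
    ring
  rw [e]
  exact isIntegral_algebraMap.mul hK₂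

theorem eiLoc_congr {u u' : L} (h : u = u') (hu : Transcendental E u)
    (hu' : Transcendental E u') (hπ : Irreducible π) : eiLoc hu hπ = eiLoc hu' hπ := by
  subst h
  rfl

/-- The semilocal rings of the two charts coincide. -/
theorem eiLoc_inv_eq (ht : Transcendental E t) (hπ : Irreducible π) :
    eiLoc (zch_transcendental_inv ht) hπ = eiLoc ht hπ := by
  refine le_antisymm (eiLoc_le_inv ht hπ) ?_
  have h := eiLoc_le_inv (zch_transcendental_inv ht) hπ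
  rwa [eiLoc_congr (inv_inv t) (zch_transcendental_inv (zch_transcendental_inv ht)) ht hπ] at h

theorem eiPiLoc_inv_iff (ht : Transcendental E t) (hπ : Irreducible π) {x : L} :
    EIPiLoc (zch_transcendental_inv ht) hπ x ↔ EIPiLoc ht hπ x := by
  unfold EIPiLoc
  rw [eiLoc_inv_eq ht hπ]

end Overlap

section Identities

variable {R : Type*} [CommRing R]

/-- `S² − n S = T · (yⁿ − 1)` for `S = Σ_{j<n} y^j`, `T = Σ_{j<n} Σ_{i<j} y^i`. -/
theorem ei_geom_sq (y : R) (n : ℕ) :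
    (∑ j ∈ Finset.range n, y ^ j) * (∑ j ∈ Finset.range n, y ^ j) -
      (n : R) * (∑ j ∈ Finset.range n, y ^ j) =
    (∑ j ∈ Finset.range n, ∑ i ∈ Finset.range j, y ^ i) * (y ^ n - 1) := by
  have hS : (∑ j ∈ Finset.range n, y ^ j) * (y - 1) = y ^ n - 1 := geom_sum_mul y n
  have hT : (∑ j ∈ Finset.range n, ∑ i ∈ Finset.range j, y ^ i) * (y - 1) =
      (∑ j ∈ Finset.range n, y ^ j) - (n : R) := by
    rw [Finset.sum_mul]
    simp_rw [geom_sum_mul]
    rw [Finset.sum_sub_distrib]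
    simp
  linear_combination (∑ j ∈ Finset.range n, ∑ i ∈ Finset.range j, y ^ i) * hS -
    (∑ j ∈ Finset.range n, y ^ j) * hT

/-- `S(y₁) − S(y₂) = D · (y₁ − y₂)`. -/
theorem ei_geom_sub (y₁ y₂ : R) (n : ℕ) :
    (∑ j ∈ Finset.range n, y₁ ^ j) - (∑ j ∈ Finset.range n, y₂ ^ j) =
    (∑ j ∈ Finset.range n, ∑ i ∈ Finset.range j, y₁ ^ i * y₂ ^ (j - 1 - i)) * (y₁ - y₂) := by
  rw [Finset.sum_mul, ← Finset.sum_sub_distrib]
  refine Finset.sum_congr rfl (fun j _ => ?_)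
  exact (geom_sum₂_mul y₁ y₂ j).symm

end Identities

section Main

variable {A₀ E L : Type*} [CommRing A₀] [IsDomain A₀] [IsDiscreteValuationRing A₀]
  [Field E] [Algebra A₀ E] [IsFractionRing A₀ E] [CharZero E]
  [Field L] [Algebra E L] [Algebra A₀ L] [IsScalarTower A₀ E L]
  {π : A₀} {t : L}

/-- **Step 2 (c)+(d), integral form.**  `y₁ ∈ C₁`, `y₂ ∈ C₂` with `y_iⁿ ≡ 1 mod π C_i`,
`y₁ ≡ y₂ mod π C₁₂`, `n` invertible in `A₀`.  Then `y₁ ≡ 1` or `1 + y₁ + ⋯ + y₁^{n−1} ≡ 0`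
modulo `π C₁`. -/
theorem ei_dichotomy (hπ : Irreducible π) (ht : Transcendental E t)
    [FiniteDimensional (IntermediateField.adjoin E {t}) L]
    (hcl : ∀ x : L, IsAlgebraic E x → x ∈ (algebraMap E L).range)
    {n : ℕ} {ν : A₀} (hν : ν * (n : A₀) = 1) {y₁ y₂ : L}
    (hy₁ : IsIntegral (Algebra.adjoin A₀ {t}) y₁)
    (hy₂ : IsIntegral (Algebra.adjoin A₀ {t⁻¹}) y₂)
    (h₁ : EIPiInt π t (y₁ ^ n - 1)) (h₂ : EIPiInt π t⁻¹ (y₂ ^ n - 1))
    (h₁₂ : ∃ c : L, IsIntegral (Algebra.adjoin A₀ {t, t⁻¹}) c ∧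
      y₁ - y₂ = algebraMap A₀ L π * c) :
    EIPiInt π t (y₁ - 1) ∨ EIPiInt π t (∑ j ∈ Finset.range n, y₁ ^ j) := by
  obtain ⟨c₁, hc₁, hc₁e⟩ := h₁
  obtain ⟨c₂, hc₂, hc₂e⟩ := h₂
  obtain ⟨c, hc, hce⟩ := h₁₂
  have hνL : algebraMap A₀ L ν * (n : L) = 1 := by
    have := congrArg (algebraMap A₀ L) hν
    simpa using this
  -- integrality of constants
  have hconst : ∀ (S : Set L) (a : A₀), IsIntegral (Algebra.adjoin A₀ S) (algebraMap A₀ L a) :=
    fun S a => isIntegral_algebraMap (R := ↥(Algebra.adjoin A₀ S))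
      (x := algebraMap A₀ ↥(Algebra.adjoin A₀ S) a)
  have hT : ∀ (S : Set L) (y : L), IsIntegral (Algebra.adjoin A₀ S) y →
      IsIntegral (Algebra.adjoin A₀ S) (∑ j ∈ Finset.range n, ∑ i ∈ Finset.range j, y ^ i) :=
    fun S y hy => IsIntegral.sum _ (fun j _ => IsIntegral.sum _ (fun i _ => hy.pow i))
  have hSint : ∀ (S : Set L) (y : L), IsIntegral (Algebra.adjoin A₀ S) y →
      IsIntegral (Algebra.adjoin A₀ S) (∑ j ∈ Finset.range n, y ^ j) :=
    fun S y hy => IsIntegral.sum _ (fun j _ => hy.pow j)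
  -- the idempotents
  have hid : ∀ (S : Set L) (y c : L), IsIntegral (Algebra.adjoin A₀ S) y →
      IsIntegral (Algebra.adjoin A₀ S) c → y ^ n - 1 = algebraMap A₀ L π * c →
      ∃ c' : L, IsIntegral (Algebra.adjoin A₀ S) c' ∧
        (algebraMap A₀ L ν * ∑ j ∈ Finset.range n, y ^ j) *
          (algebraMap A₀ L ν * ∑ j ∈ Finset.range n, y ^ j) -
          (algebraMap A₀ L ν * ∑ j ∈ Finset.range n, y ^ j) = algebraMap A₀ L π * c' := by
    intro S y c hy hc hyc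
    refine ⟨algebraMap A₀ L ν * algebraMap A₀ L ν *
      (∑ j ∈ Finset.range n, ∑ i ∈ Finset.range j, y ^ i) * c,
      (((hconst S ν).mul (hconst S ν)).mul (hT S y hy)).mul hc, ?_⟩
    have key := ei_geom_sq y n
    rw [hyc] at key
    linear_combination (algebraMap A₀ L ν * algebraMap A₀ L ν) * key +
      (algebraMap A₀ L ν * ∑ j ∈ Finset.range n, y ^ j) * hνL
  have hcomp : ∃ c' : L, IsIntegral (Algebra.adjoin A₀ {t, t⁻¹}) c' ∧
      (algebraMap A₀ L ν * ∑ j ∈ Finset.range n, y₁ ^ j) -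
        (algebraMap A₀ L ν * ∑ j ∈ Finset.range n, y₂ ^ j) = algebraMap A₀ L π * c' := by
    have hy₁' := zch_isIntegral_mono (ei_adjoin_le_pair_left (A₀ := A₀) t) hy₁
    have hy₂' := zch_isIntegral_mono (ei_adjoin_le_pair_right (A₀ := A₀) t) hy₂
    refine ⟨algebraMap A₀ L ν *
      (∑ j ∈ Finset.range n, ∑ i ∈ Finset.range j, y₁ ^ i * y₂ ^ (j - 1 - i)) * c,
      ((hconst _ ν).mul (IsIntegral.sum _ (fun j _ => IsIntegral.sum _
        (fun i _ => (hy₁'.pow i).mul (hy₂'.pow _))))).mul hc, ?_⟩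
    have key := ei_geom_sub y₁ y₂ n
    rw [hce] at key
    linear_combination (algebraMap A₀ L ν) * key
  rcases zariski_connected_charts hπ ht hcl
    ((hconst _ ν).mul (hSint _ y₁ hy₁)) ((hconst _ ν).mul (hSint _ y₂ hy₂))
    (hid _ y₁ c₁ hy₁ hc₁ hc₁e) (hid _ y₂ c₂ hy₂ hc₂ hc₂e) hcomp with ⟨z, hz, hze⟩ | ⟨z, hz, hze⟩
  · right
    refine ⟨(n : L) * z, ?_, ?_⟩
    · have : (n : L) = algebraMap A₀ L (n : A₀) := by simp
      rw [this]; exact (hconst _ _).mul hz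
    · linear_combination (n : L) * hze - (∑ j ∈ Finset.range n, y₁ ^ j) * hνL
  · left
    refine ⟨algebraMap A₀ L ν * c₁ - (y₁ - 1) * z,
      ((hconst _ ν).mul hc₁).sub ((hy₁.sub isIntegral_one).mul hz), ?_⟩
    have hS : (∑ j ∈ Finset.range n, y₁ ^ j) * (y₁ - 1) = y₁ ^ n - 1 := geom_sum_mul y₁ n
    rw [hc₁e] at hS
    linear_combination (algebraMap A₀ L ν) * hS - (y₁ - 1) * hze

/-- **Step 2 (b)+(c)+(d).**  If `yⁿ ≡ 1` on the special fibre (`n` invertible in `A₀`) and `y`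
has local approximations at every closed point of the special fibre of both charts, then
`y ≡ 1` or `1 + y + ⋯ + y^{n−1} ≡ 0` on the special fibre. -/
theorem ei_main (hπ : Irreducible π) (ht : Transcendental E t)
    [FiniteDimensional (IntermediateField.adjoin E {t}) L]
    (hcl : ∀ x : L, IsAlgebraic E x → x ∈ (algebraMap E L).range)
    {n : ℕ} (hn : IsUnit (n : A₀)) {y : L}
    (hy1 : EIPiLoc ht hπ (y ^ n - 1))
    (hloc₁ : ∀ 𝔑 : Ideal ↥(zchClosure (A₀ := A₀) ({t} : Set L)), 𝔑.IsMaximal →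
      algebraMap A₀ ↥(zchClosure (A₀ := A₀) ({t} : Set L)) π ∈ 𝔑 →
      ∃ b T : ↥(zchClosure (A₀ := A₀) ({t} : Set L)),
        b ∉ 𝔑 ∧ EIPiLoc ht hπ ((b : L) * y - (T : L)))
    (hloc₂ : ∀ 𝔑 : Ideal ↥(zchClosure (A₀ := A₀) ({t⁻¹} : Set L)), 𝔑.IsMaximal →
      algebraMap A₀ ↥(zchClosure (A₀ := A₀) ({t⁻¹} : Set L)) π ∈ 𝔑 →
      ∃ b T : ↥(zchClosure (A₀ := A₀) ({t⁻¹} : Set L)),
        b ∉ 𝔑 ∧ EIPiLoc (zch_transcendental_inv ht) hπ ((b : L) * y - (T : L))) :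
    EIPiLoc ht hπ (y - 1) ∨ EIPiLoc ht hπ (∑ j ∈ Finset.range n, y ^ j) := by
  have ht' := zch_transcendental_inv ht
  have hn0 : 0 < n := by
    rcases Nat.eq_zero_or_pos n with h | h
    · subst h
      simp at hn
    · exact h
  obtain ⟨ν', hν'⟩ := hn
  have hν : (↑ν'⁻¹ : A₀) * (n : A₀) = 1 := by
    rw [← hν']; exact ν'.inv_mul
  -- `yⁿ ≡ 1` on the chart at `∞` as well
  have hy : EIPiLoc ht' hπ (y ^ n - 1) := (eiPiLoc_inv_iff ht hπ).mpr hy1
  have hyloc₁ := ei_mem_loc_of_pow ht hπ hn0 hy1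
  have hyloc₂ := ei_mem_loc_of_pow ht' hπ hn0 hy
  obtain ⟨y₁, hy₁, hd₁⟩ := ei_exists_global ht hπ hyloc₁ hloc₁
  obtain ⟨y₂, hy₂, hd₂⟩ := ei_exists_global ht' hπ hyloc₂ hloc₂
  have hp₁ := ei_pow_sub_one_piInt ht hπ hy1 hy₁ hd₁
  have hp₂ := ei_pow_sub_one_piInt ht' hπ hy hy₂ hd₂
  have hov : ∃ c : L, IsIntegral (Algebra.adjoin A₀ {t, t⁻¹}) c ∧
      y₁ - y₂ = algebraMap A₀ L π * c := by
    obtain ⟨z₁, hz₁, hz₁e⟩ := hd₁
    obtain ⟨z₂, hz₂, hz₂e⟩ := hd₂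
    refine ei_overlap ht hπ hy₁ hy₂ hz₁ hz₂ ?_
    linear_combination hz₂e - hz₁e
  rcases ei_dichotomy hπ ht hcl hν hy₁ hy₂ hp₁ hp₂ hov with h | h
  · left
    have := hd₁.add ht hπ (h.piLoc ht hπ)
    have e : y - y₁ + (y₁ - 1) = y - 1 := by ring
    rwa [e] at this
  · right
    have h1 : EIPiLoc ht hπ
        ((∑ j ∈ Finset.range n, y ^ j) - (∑ j ∈ Finset.range n, y₁ ^ j)) := by
      rw [← Finset.sum_sub_distrib]
      exact EIPiLoc.sum ht hπ _ _
        (fun j _ => hd₁.pow_sub_pow ht hπ (eiLoc_of_isIntegral ht hπ hy₁) j)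
    have := h1.add ht hπ (h.piLoc ht hπ)
    have e : (∑ j ∈ Finset.range n, y ^ j) - (∑ j ∈ Finset.range n, y₁ ^ j) +
        (∑ j ∈ Finset.range n, y₁ ^ j) = ∑ j ∈ Finset.range n, y ^ j := by ring
    rwa [e] at this

/-- A ring endomorphism fixing `A₀` and `t` preserves `π · C_(π)`. -/
theorem EIPiLoc.map (ht : Transcendental E t) (hπ : Irreducible π) (ρ : L →+* L)
    (hρA : ∀ a : A₀, ρ (algebraMap A₀ L a) = algebraMap A₀ L a) (hρt : ρ t = t) {x : L}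
    (hx : EIPiLoc ht hπ x) : EIPiLoc ht hπ (ρ x) := by
  have hfix : ∀ r ∈ Algebra.adjoin A₀ ({t} : Set L), ρ r = r := by
    intro r hr
    induction hr using Algebra.adjoin_induction with
    | mem x hx =>
      rw [Set.mem_singleton_iff] at hx
      rw [hx]; exact hρt
    | algebraMap a => exact hρA a
    | add x y _ _ hx hy => rw [map_add, hx, hy]
    | mul x y _ _ hx hy => rw [map_mul, hx, hy]
  let ρ' : L →ₐ[↥(Algebra.adjoin A₀ ({t} : Set L))] L :=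
    { ρ with commutes' := fun r => hfix r.1 r.2 }
  obtain ⟨z, ⟨s, hs, hsz⟩, rfl⟩ := hx
  refine ⟨ρ z, ⟨s, hs, ?_⟩, ?_⟩
  · have h1 : IsIntegral ↥(Algebra.adjoin A₀ ({t} : Set L)) (ρ' (s * z)) := hsz.map ρ'
    have h2 : ρ' (s * z) = s * ρ z := by
      show ρ (s * z) = s * ρ z
      rw [map_mul, hfix s hs.1]
    rwa [h2] at h1
  · rw [map_mul, hρA]

/-- **Step 2, final form.**  In the setting of `ei_main`, a ring endomorphism `ρ` of `L` fixing
`A₀` and `t` with `ρ y = ζ y`, `ζ ∈ A₀` a primitive `n`-th root of unity, `1 < n`, cannot exist. -/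
theorem ei_false_of_aut (hπ : Irreducible π) (ht : Transcendental E t)
    [FiniteDimensional (IntermediateField.adjoin E {t}) L]
    (hcl : ∀ x : L, IsAlgebraic E x → x ∈ (algebraMap E L).range)
    {n : ℕ} (hn : IsUnit (n : A₀)) (hn1 : 1 < n) {y : L}
    (hy1 : EIPiLoc ht hπ (y ^ n - 1))
    (hloc₁ : ∀ 𝔑 : Ideal ↥(zchClosure (A₀ := A₀) ({t} : Set L)), 𝔑.IsMaximal →
      algebraMap A₀ ↥(zchClosure (A₀ := A₀) ({t} : Set L)) π ∈ 𝔑 →
      ∃ b T : ↥(zchClosure (A₀ := A₀) ({t} : Set L)),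
        b ∉ 𝔑 ∧ EIPiLoc ht hπ ((b : L) * y - (T : L)))
    (hloc₂ : ∀ 𝔑 : Ideal ↥(zchClosure (A₀ := A₀) ({t⁻¹} : Set L)), 𝔑.IsMaximal →
      algebraMap A₀ ↥(zchClosure (A₀ := A₀) ({t⁻¹} : Set L)) π ∈ 𝔑 →
      ∃ b T : ↥(zchClosure (A₀ := A₀) ({t⁻¹} : Set L)),
        b ∉ 𝔑 ∧ EIPiLoc (zch_transcendental_inv ht) hπ ((b : L) * y - (T : L)))
    (ρ : L →+* L) (hρA : ∀ a : A₀, ρ (algebraMap A₀ L a) = algebraMap A₀ L a) (hρt : ρ t = t)
    {ζ : A₀} (hζ : IsPrimitiveRoot (algebraMap A₀ L ζ) n)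
    (hρy : ρ y = algebraMap A₀ L ζ * y) : False := by
  -- the iterates of `ρ`
  have hiter : ∀ i : ℕ, (∀ a : A₀, (ρ ^ i) (algebraMap A₀ L a) = algebraMap A₀ L a) ∧
      (ρ ^ i) t = t ∧ (ρ ^ i) y = algebraMap A₀ L ζ ^ i * y := by
    intro i
    induction i with
    | zero => exact ⟨fun a => rfl, rfl, by rw [pow_zero, pow_zero, one_mul]; rfl⟩
    | succ i ih =>
      obtain ⟨h1, h2, h3⟩ := ih
      refine ⟨fun a => ?_, ?_, ?_⟩
      · rw [pow_succ', RingHom.mul_def, RingHom.comp_apply, h1, hρA]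
      · rw [pow_succ', RingHom.mul_def, RingHom.comp_apply, h2, hρt]
      · rw [pow_succ', RingHom.mul_def, RingHom.comp_apply, h3, map_mul, map_pow, hρA, hρy]
        ring
  have hnorm : ∀ x : L, EIPiLoc ht hπ x →
      EIPiLoc ht hπ (∑ i ∈ Finset.range n, (ρ ^ i) x) := fun x hx =>
    EIPiLoc.sum ht hπ _ _ (fun i _ => hx.map ht hπ (ρ ^ i) (hiter i).1 (hiter i).2.1)
  -- in both cases `n ∈ π C_(π)`
  have hnmem : EIPiLoc ht hπ (n : L) := by
    rcases ei_main hπ ht hcl hn hy1 hloc₁ hloc₂ with h | h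
    · have h1 := (hnorm _ h).neg ht hπ
      have e : -(∑ i ∈ Finset.range n, (ρ ^ i) (y - 1)) = (n : L) := by
        have : ∀ i ∈ Finset.range n, (ρ ^ i) (y - 1) = algebraMap A₀ L ζ ^ i * y - 1 := by
          intro i _
          rw [map_sub, map_one, (hiter i).2.2]
        rw [Finset.sum_congr rfl this, Finset.sum_sub_distrib, ← Finset.sum_mul,
          hζ.geom_sum_eq_zero hn1]
        simp
      rwa [e] at h1
    · have h1 := hnorm _ h
      have e : (∑ i ∈ Finset.range n, (ρ ^ i) (∑ j ∈ Finset.range n, y ^ j)) = (n : L) := by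
        have h2 : ∀ i ∈ Finset.range n, (ρ ^ i) (∑ j ∈ Finset.range n, y ^ j) =
            ∑ j ∈ Finset.range n, (algebraMap A₀ L ζ ^ j) ^ i * y ^ j := by
          intro i _
          rw [map_sum]
          refine Finset.sum_congr rfl (fun j _ => ?_)
          rw [map_pow, (hiter i).2.2, mul_pow, ← pow_mul, ← pow_mul, mul_comm i j]
        rw [Finset.sum_congr rfl h2, Finset.sum_comm]
        have h3 : ∀ j ∈ Finset.range n, (∑ i ∈ Finset.range n,
            (algebraMap A₀ L ζ ^ j) ^ i * y ^ j) = if j = 0 then (n : L) else 0 := by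
          intro j hj
          rw [← Finset.sum_mul]
          split_ifs with hj0
          · subst hj0
            simp
          · have hne : algebraMap A₀ L ζ ^ j ≠ 1 :=
              hζ.pow_ne_one_of_pos_of_lt hj0 (Finset.mem_range.mp hj)
            have hz : (∑ i ∈ Finset.range n, (algebraMap A₀ L ζ ^ j) ^ i) *
                (algebraMap A₀ L ζ ^ j - 1) = 0 := by
              rw [geom_sum_mul, ← pow_mul, mul_comm, pow_mul, hζ.pow_eq_one, one_pow, sub_self]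
            rcases mul_eq_zero.mp hz with h0 | h0
            · rw [h0, zero_mul]
            · exact absurd (sub_eq_zero.mp h0) hne
        rw [Finset.sum_congr rfl h3, Finset.sum_ite_eq' (Finset.range n) 0 (fun _ => (n : L))]
        rw [if_pos (Finset.mem_range.mpr (by omega))]
      rwa [e] at h1
  obtain ⟨ν', hν'⟩ := hn
  have h1 : EIPiLoc ht hπ (algebraMap A₀ L (↑ν'⁻¹ : A₀) * (n : L)) :=
    hnmem.mul_left ht hπ (eiLoc_algebraMap ht hπ _)
  have e : algebraMap A₀ L (↑ν'⁻¹ : A₀) * (n : L) = 1 := by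
    have h2 : (↑ν'⁻¹ : A₀) * (n : A₀) = 1 := by rw [← hν']; exact ν'.inv_mul
    have := congrArg (algebraMap A₀ L) h2
    simpa using this
  rw [e] at h1
  exact ei_not_piLoc_one ht hπ h1

end Main

end Fermat.Agent.UNIP
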