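import Mathlib
import Fermat.Agent.UNIP.ExplicitIdem

/-!
# UNIP D4, Kummer glue (S34 / S35, direct route of `NOTES/S34-plan.md`) — helper76

`ks_main`: in the chart setting of `INJ.zariski_connected_charts` for a field `F`
(`A₀` DVR, `π`, `E = Frac A₀`, `t : F` transcendental, `F / E(t)` finite, `E` algebraically closed
in `F`), let `p` be a prime invertible in `A₀`, `ζ ∈ A₀` a primitive `p`-th root of unity and
`w ∈ F^×` with

* (G) `w ≡ 1` on the special fibre (`EIPiLoc (w − 1)`),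
* (L) at every closed point `𝔫 ∋ π` of both charts of `F`: `w = ε · h ^ p` with `s ε` integral for
  some `s ∉ 𝔫` and `h ≡ 1` on the special fibre (the output of D3 `LocalShape`).

Then `w = c · h ^ p` with a constant `c ∈ E^×`.  (`ks_main_pow`: `w = h ^ p` if the constants
occurring are `p`-th powers.)

Proof: if `X ^ p − w` is irreducible, `L := F[X]/(X ^ p − w)`, `y` the root, `ρ : y ↦ ζ y`.
* `ks_dichotomy` (pure field theory): either `E` is algebraically closed in `L`, or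
  `w = c · h ^ p` (isotypic components `a_j y^j` of an element algebraic over `E` are algebraic).
* in the first case the local data are transported to `L` (`T := s y / h`) and
  `ei_false_of_aut` (helper91, `ExplicitIdem.lean`) gives a contradiction.
-/

set_option autoImplicit false
set_option linter.unusedSectionVars false
set_option linter.style.haveILetI false

namespace Fermat.Agent.UNIP

open Polynomial IntermediateField Fermat.Agent.INJ

section Roots

variable {K : Type*} [Field K]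

/-- orthogonality of characters of `ℤ/p`: `∑_k (ω^i / ω^j)^k = p·δ_ij`. -/
theorem ks_sum_pow {p : ℕ} {ω : K} (hω : IsPrimitiveRoot ω p) {i j : ℕ} (hi : i < p)
    (hj : j < p) :
    ∑ k ∈ Finset.range p, (ω ^ i * (ω ^ j)⁻¹) ^ k = if i = j then (p : K) else 0 := by
  have hω0 : ω ≠ 0 := hω.ne_zero (by omega)
  split_ifs with hij
  · subst hij
    rw [mul_inv_cancel₀ (pow_ne_zero _ hω0)]
    simp
  · have hη1 : ω ^ i * (ω ^ j)⁻¹ ≠ 1 := by
      intro h
      apply hij
      apply hω.pow_inj hi hj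
      have := congrArg (· * ω ^ j) h
      simpa [mul_assoc, inv_mul_cancel₀ (pow_ne_zero j hω0)] using this
    have hηp : (ω ^ i * (ω ^ j)⁻¹) ^ p = 1 := by
      rw [mul_pow, inv_pow, ← pow_mul, ← pow_mul, mul_comm i p, mul_comm j p, pow_mul, pow_mul,
        hω.pow_eq_one, one_pow, one_pow, inv_one, mul_one]
    have h := mul_geom_sum (ω ^ i * (ω ^ j)⁻¹) p
    rw [hηp, sub_self] at h
    rcases mul_eq_zero.mp h with h0 | h0
    · exact absurd (sub_eq_zero.mp h0) hη1
    · exact h0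

end Roots

section Dichotomy

variable {E F L : Type*} [Field E] [Field F] [Field L] [Algebra E F] [Algebra F L] [Algebra E L]
  [IsScalarTower E F L]

/-- powers of the Kummer automorphism on the generator. -/
theorem ks_rho_pow_apply (ρ : L →ₐ[F] L) {y : L} {ζF : F}
    (hρ : ρ y = algebraMap F L ζF * y) (k : ℕ) :
    (ρ ^ k) y = algebraMap F L ζF ^ k * y := by
  induction k with
  | zero => simp
  | succ k ih =>
    rw [pow_succ', AlgHom.mul_apply, ih, map_mul, map_pow, AlgHom.commutes, hρ]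
    ring

/-- the isotypic component `a_j y^j` of `x = ∑ a_i y^i` is `p⁻¹ ∑_k ζ^{-jk} ρ^k x`. -/
theorem ks_component (ρ : L →ₐ[F] L) {p : ℕ} {ζF : F} (hζ : IsPrimitiveRoot ζF p) {y : L}
    (hρ : ρ y = algebraMap F L ζF * y) (a : ℕ → F) {j : ℕ} (hj : j < p) :
    ∑ k ∈ Finset.range p, (algebraMap F L ζF ^ (j * k))⁻¹ *
        (ρ ^ k) (∑ i ∈ Finset.range p, algebraMap F L (a i) * y ^ i)
      = (p : L) * (algebraMap F L (a j) * y ^ j) := by
  set ω := algebraMap F L ζF with hω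
  have hωL : IsPrimitiveRoot ω p := hζ.map_of_injective (algebraMap F L).injective
  have h1 : ∀ k, (ρ ^ k) (∑ i ∈ Finset.range p, algebraMap F L (a i) * y ^ i)
      = ∑ i ∈ Finset.range p, algebraMap F L (a i) * (ω ^ k * y) ^ i := by
    intro k
    rw [map_sum]
    refine Finset.sum_congr rfl fun i _ => ?_
    rw [map_mul, map_pow, AlgHom.commutes, ks_rho_pow_apply ρ hρ k]
  simp_rw [h1, Finset.mul_sum]
  rw [Finset.sum_comm]
  have h2 : ∀ i ∈ Finset.range p,
      ∑ k ∈ Finset.range p, (ω ^ (j * k))⁻¹ * (algebraMap F L (a i) * (ω ^ k * y) ^ i)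
        = if i = j then (p : L) * (algebraMap F L (a i) * y ^ i) else 0 := by
    intro i hi
    have h3 : ∀ k ∈ Finset.range p,
        (ω ^ (j * k))⁻¹ * (algebraMap F L (a i) * (ω ^ k * y) ^ i)
          = (algebraMap F L (a i) * y ^ i) * (ω ^ i * (ω ^ j)⁻¹) ^ k := by
      intro k _
      rw [mul_pow, mul_pow, inv_pow, ← pow_mul, ← pow_mul, ← pow_mul, mul_comm k i]
      ring
    rw [Finset.sum_congr rfl h3, ← Finset.mul_sum, ks_sum_pow hωL (Finset.mem_range.mp hi) hj]
    split_ifs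
    · ring
    · ring
  rw [Finset.sum_congr rfl h2, Finset.sum_ite_eq' (Finset.range p) j, if_pos (Finset.mem_range.mpr hj)]

/-- **Kummer dichotomy** (pure field theory).  `E` algebraically closed in `F`, `ζ ∈ E` a primitive
`p`-th root of unity, `L = F(y)`, `y ^ p = w ∈ F^×`, `ρ ∈ Aut(L/F)` with `ρ y = ζ y`.  Then either
`E` is algebraically closed in `L`, or `w = c · h ^ p` with `c ∈ E^×`, `h ∈ F`. -/
theorem ks_dichotomy
    (hclF : ∀ x : F, IsAlgebraic E x → x ∈ (algebraMap E F).range)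
    {p : ℕ} (hp : p.Prime) {ζ : E} (hζ : IsPrimitiveRoot ζ p)
    {w : F} (hw : w ≠ 0) {y : L} (hy : y ^ p = algebraMap F L w)
    (hgen : ∀ x : L, ∃ a : ℕ → F, x = ∑ i ∈ Finset.range p, algebraMap F L (a i) * y ^ i)
    (ρ : L →ₐ[F] L) (hρ : ρ y = algebraMap E L ζ * y) :
    (∀ x : L, IsAlgebraic E x → x ∈ (algebraMap E L).range) ∨
      ∃ c : E, c ≠ 0 ∧ ∃ h : F, w = algebraMap E F c * h ^ p := by
  classical
  by_cases hcl : ∀ x : L, IsAlgebraic E x → x ∈ (algebraMap E L).range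
  · exact Or.inl hcl
  right
  simp only [not_forall] at hcl
  obtain ⟨x, hxalg, hxE⟩ := hcl
  obtain ⟨a, hxa⟩ := hgen x
  have hFL : Function.Injective (algebraMap F L) := (algebraMap F L).injective
  haveI : NeZero p := ⟨hp.ne_zero⟩
  set ζF : F := algebraMap E F ζ with hζF
  have hζFp : IsPrimitiveRoot ζF p := hζ.map_of_injective (algebraMap E F).injective
  have hωe : algebraMap F L ζF = algebraMap E L ζ := by
    rw [hζF, ← IsScalarTower.algebraMap_apply]
  have hρ' : ρ y = algebraMap F L ζF * y := by rw [hωe, hρ]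
  have hωL : IsPrimitiveRoot (algebraMap F L ζF) p := hζFp.map_of_injective hFL
  have hpL : (p : L) ≠ 0 := (hωL.neZero').out
  -- the components are algebraic over `E`
  have hcomp : ∀ j < p, IsAlgebraic E (algebraMap F L (a j) * y ^ j) := by
    intro j hj
    have hsum := ks_component ρ hζFp hρ' a hj
    rw [← hxa] at hsum
    have hint : IsIntegral E (∑ k ∈ Finset.range p,
        (algebraMap F L ζF ^ (j * k))⁻¹ * (ρ ^ k) x) := by
      refine IsIntegral.sum _ fun k _ => ?_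
      refine IsIntegral.mul ?_ ?_
      · rw [hωe]
        exact (isIntegral_algebraMap.pow _).inv
      · exact (isAlgebraic_iff_isIntegral.mp hxalg).map ((ρ ^ k).restrictScalars E)
    rw [hsum] at hint
    have hp' : IsIntegral E ((p : L)⁻¹) := by
      have : (p : L) = algebraMap E L (p : E) := by rw [map_natCast]
      rw [this]
      exact isIntegral_algebraMap.inv
    have := hp'.mul hint
    rw [inv_mul_cancel_left₀ hpL] at this
    exact isAlgebraic_iff_isIntegral.mpr this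
  -- some component with `j ≥ 1` is nonzero
  have hex : ∃ j, 0 < j ∧ j < p ∧ a j ≠ 0 := by
    by_contra hne
    simp only [not_exists, not_and, not_not] at hne
    have hx0 : x = algebraMap F L (a 0) := by
      rw [hxa, Finset.sum_eq_single 0]
      · rw [pow_zero, mul_one]
      · intro i hi hi0
        rw [hne i (Nat.pos_of_ne_zero hi0) (Finset.mem_range.mp hi), map_zero, zero_mul]
      · intro h0
        exact absurd (Finset.mem_range.mpr hp.pos) h0
    have h1 : IsAlgebraic E (a 0) := by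
      rw [hx0] at hxalg
      exact (isAlgebraic_algebraMap_iff hFL).mp hxalg
    obtain ⟨e, he⟩ := hclF _ h1
    exact hxE ⟨e, by rw [hx0, ← he, ← IsScalarTower.algebraMap_apply]⟩
  obtain ⟨j, hj0, hjp, haj⟩ := hex
  have h1 : IsAlgebraic E (a j ^ p * w ^ j) := by
    have h2 := (hcomp j hjp).pow p
    rw [mul_pow, ← pow_mul, mul_comm j p, pow_mul, hy, ← map_pow, ← map_pow, ← map_mul] at h2
    exact (isAlgebraic_algebraMap_iff hFL).mp h2
  obtain ⟨c₁, hc₁⟩ := hclF _ h1
  have hcop : Nat.Coprime j p :=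
    ((Nat.Prime.coprime_iff_not_dvd hp).mpr (Nat.not_dvd_of_pos_of_lt hj0 hjp)).symm
  obtain ⟨m, -, hm⟩ := Nat.exists_mul_mod_eq_one_of_coprime hcop hp.one_lt
  set k := j * m / p with hk
  have hjm : j * m = 1 + p * k := by
    have := Nat.div_add_mod (j * m) p
    rw [hm] at this
    rw [← this, add_comm]
  have hne : a j ^ m * w ^ k ≠ 0 := mul_ne_zero (pow_ne_zero _ haj) (pow_ne_zero _ hw)
  have hpow : (a j ^ p * w ^ j) ^ m = w * (a j ^ m * w ^ k) ^ p := by
    rw [mul_pow, ← pow_mul, ← pow_mul, hjm, pow_add, pow_one, mul_pow, ← pow_mul, ← pow_mul]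
    ring
  refine ⟨c₁ ^ m, ?_, (a j ^ m * w ^ k)⁻¹, ?_⟩
  · apply pow_ne_zero
    intro h0
    rw [h0, map_zero] at hc₁
    exact (mul_ne_zero (pow_ne_zero _ haj) (pow_ne_zero _ hw)) hc₁.symm
  · rw [map_pow, hc₁, hpow, inv_pow, mul_assoc, mul_inv_cancel₀ (pow_ne_zero _ hne), mul_one]

end Dichotomy

section Transport

variable {A₀ E F L : Type*} [CommRing A₀] [IsDomain A₀] [IsDiscreteValuationRing A₀]
  [Field E] [Algebra A₀ E] [IsFractionRing A₀ E] [CharZero E]
  [Field F] [Algebra E F] [Algebra A₀ F] [IsScalarTower A₀ E F]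
  [Field L] [Algebra E L] [Algebra A₀ L] [IsScalarTower A₀ E L]
  [Algebra F L] [IsScalarTower E F L] [IsScalarTower A₀ F L]
  {π : A₀} {u : F}

theorem ks_transcendental (hu : Transcendental E u) : Transcendental E (algebraMap F L u) :=
  (transcendental_algebraMap_iff (algebraMap F L).injective).mpr hu

theorem ks_map_adjoin (u : F) :
    (Algebra.adjoin A₀ ({u} : Set F)).map (IsScalarTower.toAlgHom A₀ F L)
      = Algebra.adjoin A₀ {algebraMap F L u} := by
  rw [AlgHom.map_adjoin, Set.image_singleton, IsScalarTower.toAlgHom_apply]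

theorem ks_mem_adjoin {x : F} (hx : x ∈ Algebra.adjoin A₀ {u}) :
    algebraMap F L x ∈ Algebra.adjoin A₀ {algebraMap F L u} := by
  rw [← ks_map_adjoin (A₀ := A₀) (L := L) u]
  exact ⟨x, hx, rfl⟩

theorem ks_exists_of_mem_adjoin {r : L} (hr : r ∈ Algebra.adjoin A₀ {algebraMap F L u}) :
    ∃ r' ∈ Algebra.adjoin A₀ {u}, algebraMap F L r' = r := by
  rw [← ks_map_adjoin (A₀ := A₀) (L := L) u] at hr
  obtain ⟨r', hr', h⟩ := hr
  exact ⟨r', hr', h⟩

/-- the ring homomorphism `A₀[u] → A₀[φ u]` induced by `φ : F → L`. -/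
noncomputable def ksAdjoinMap (u : F) :
    ↥(Algebra.adjoin A₀ ({u} : Set F)) →+* ↥(Algebra.adjoin A₀ ({algebraMap F L u} : Set L)) where
  toFun a := ⟨algebraMap F L a, ks_mem_adjoin a.2⟩
  map_one' := Subtype.ext (map_one _)
  map_mul' _ _ := Subtype.ext (map_mul _ _ _)
  map_zero' := Subtype.ext (map_zero _)
  map_add' _ _ := Subtype.ext (map_add _ _ _)

theorem ks_isIntegral {x : F} (hx : IsIntegral (Algebra.adjoin A₀ {u}) x) :
    IsIntegral (Algebra.adjoin A₀ {algebraMap F L u}) (algebraMap F L x) :=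
  IsIntegral.map_of_comp_eq (ksAdjoinMap (A₀ := A₀) (L := L) u) (algebraMap F L)
    (by ext a; rfl) hx

theorem ks_algebraMap_comm (a : A₀) : algebraMap F L (algebraMap A₀ F a) = algebraMap A₀ L a :=
  (IsScalarTower.algebraMap_apply A₀ F L a).symm

theorem ks_primeTo {s : F} (hs : EIPrimeTo π u s) :
    EIPrimeTo π (algebraMap F L u) (algebraMap F L s) := by
  refine ⟨ks_mem_adjoin hs.1, fun r hr h => ?_⟩
  obtain ⟨r', hr', rfl⟩ := ks_exists_of_mem_adjoin hr
  apply hs.2 r' hr'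
  apply (algebraMap F L).injective
  rw [h, map_mul, ks_algebraMap_comm]

theorem ks_mem_eiLoc (hu : Transcendental E u) (hπ : Irreducible π) {z : F}
    (hz : z ∈ eiLoc hu hπ) :
    algebraMap F L z ∈ eiLoc (ks_transcendental (L := L) hu) hπ := by
  obtain ⟨s, hs, hsz⟩ := hz
  refine ⟨algebraMap F L s, ks_primeTo hs, ?_⟩
  rw [← map_mul]
  exact ks_isIntegral hsz

theorem ks_piLoc (hu : Transcendental E u) (hπ : Irreducible π) {x : F}
    (hx : EIPiLoc hu hπ x) :
    EIPiLoc (ks_transcendental (L := L) hu) hπ (algebraMap F L x) := by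
  obtain ⟨z, hz, rfl⟩ := hx
  exact ⟨algebraMap F L z, ks_mem_eiLoc hu hπ hz, by rw [map_mul, ks_algebraMap_comm]⟩

theorem ks_finiteDimensional (t : F) [FiniteDimensional (IntermediateField.adjoin E {t}) F]
    [FiniteDimensional F L] :
    FiniteDimensional (IntermediateField.adjoin E {algebraMap F L t}) L := by
  have hmap : (IntermediateField.adjoin E ({t} : Set F)).map (IsScalarTower.toAlgHom E F L)
      = IntermediateField.adjoin E {algebraMap F L t} := by
    rw [IntermediateField.adjoin_map, Set.image_singleton, IsScalarTower.toAlgHom_apply]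
  haveI : Module.Finite (IntermediateField.adjoin E ({t} : Set F)) L := Module.Finite.trans F L
  exact Module.Finite.of_equiv_equiv
    (((IntermediateField.equivMap (IntermediateField.adjoin E ({t} : Set F))
      (IsScalarTower.toAlgHom E F L)).trans (IntermediateField.equivOfEq hmap)).toRingEquiv)
    (RingEquiv.refl L) (by ext x; rfl)

/-- the ring homomorphism `C_F(u) → C_L(φ u)` induced by `φ : F → L`. -/
noncomputable def ksClosureMap (u : F) :
    ↥(zchClosure (A₀ := A₀) ({u} : Set F)) →+*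
      ↥(zchClosure (A₀ := A₀) ({algebraMap F L u} : Set L)) where
  toFun x := ⟨algebraMap F L x, mem_zchClosure.mpr (ks_isIntegral (mem_zchClosure.mp x.2))⟩
  map_one' := Subtype.ext (map_one _)
  map_mul' _ _ := Subtype.ext (map_mul _ _ _)
  map_zero' := Subtype.ext (map_zero _)
  map_add' _ _ := Subtype.ext (map_add _ _ _)

theorem ksClosureMap_coe (u : F) (x : ↥(zchClosure (A₀ := A₀) ({u} : Set F))) :
    ((ksClosureMap (L := L) u x : ↥(zchClosure (A₀ := A₀) ({algebraMap F L u} : Set L))) : L)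
      = algebraMap F L (x : F) := rfl

/-- **The local hypothesis (L)** at the chart `u` of `F` (the output of D3 `LocalShape`): at every
closed point `𝔫 ∋ π` of the chart, `w = ε · h ^ p` with `s ε` integral for some `s ∉ 𝔫` and
`h ≡ 1` on the special fibre. -/
def KSLocal (hu : Transcendental E u) (hπ : Irreducible π) (p : ℕ) (w : F) : Prop :=
  ∀ 𝔫 : Ideal ↥(zchClosure (A₀ := A₀) ({u} : Set F)), 𝔫.IsMaximal →
    algebraMap A₀ ↥(zchClosure (A₀ := A₀) ({u} : Set F)) π ∈ 𝔫 →
    ∃ s : ↥(zchClosure (A₀ := A₀) ({u} : Set F)), s ∉ 𝔫 ∧ ∃ ε h : F, w = ε * h ^ p ∧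
      IsIntegral (Algebra.adjoin A₀ {u}) ((s : F) * ε) ∧ EIPiLoc hu hπ (h - 1)

/-- Transport of the local data from `F` to `L = F(y)`, `y ^ p = w`: the hypothesis `hloc` of
`ei_exists_global` / `ei_main` holds for `y`, with `b := s`, `T := s y / h`. -/
theorem ks_local (hu : Transcendental E u) (hπ : Irreducible π) {p : ℕ} (hp : 0 < p) {w : F}
    (hw : w ≠ 0) (hloc : KSLocal hu hπ p w) {y : L} (hy : y ^ p = algebraMap F L w)
    {uL : L} (huL : algebraMap F L u = uL) (huLt : Transcendental E uL) :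
    ∀ 𝔑 : Ideal ↥(zchClosure (A₀ := A₀) ({uL} : Set L)), 𝔑.IsMaximal →
      algebraMap A₀ ↥(zchClosure (A₀ := A₀) ({uL} : Set L)) π ∈ 𝔑 →
      ∃ b T : ↥(zchClosure (A₀ := A₀) ({uL} : Set L)),
        b ∉ 𝔑 ∧ EIPiLoc huLt hπ ((b : L) * y - (T : L)) := by
  subst huL
  intro 𝔑 h𝔑 hπ𝔑
  have hne : 𝔑.comap (ksClosureMap (A₀ := A₀) (L := L) u) ≠ ⊤ :=
    Ideal.comap_ne_top _ h𝔑.ne_top
  obtain ⟨𝔫, h𝔫, hle⟩ := Ideal.exists_le_maximal _ hne
  have hπ𝔫 : algebraMap A₀ ↥(zchClosure (A₀ := A₀) ({u} : Set F)) π ∈ 𝔫 := by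
    apply hle
    rw [Ideal.mem_comap]
    have : ksClosureMap (A₀ := A₀) (L := L) u
        (algebraMap A₀ ↥(zchClosure (A₀ := A₀) ({u} : Set F)) π)
        = algebraMap A₀ ↥(zchClosure (A₀ := A₀) ({algebraMap F L u} : Set L)) π :=
      Subtype.ext (ks_algebraMap_comm π)
    rw [this]
    exact hπ𝔑
  obtain ⟨s, hs, ε, h, hwεh, hsε, hh⟩ := hloc 𝔫 h𝔫 hπ𝔫
  have hh0 : h ≠ 0 := by
    rintro rfl
    apply hw
    rw [hwεh, zero_pow hp.ne', mul_zero]
  have hφh : algebraMap F L h ≠ 0 := (_root_.map_ne_zero _).mpr hh0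
  set T₀ : L := algebraMap F L (s : F) * y * (algebraMap F L h)⁻¹ with hT₀
  have hT₀p : T₀ ^ p = algebraMap F L ((s : F) ^ (p - 1) * ((s : F) * ε)) := by
    have e1 : (s : F) ^ (p - 1) * ((s : F) * ε) = (s : F) ^ p * ε := by
      rw [← mul_assoc, ← pow_succ, Nat.sub_add_cancel hp]
    rw [e1, hT₀, mul_pow, mul_pow, hy, hwεh, inv_pow, map_mul, map_mul, map_pow, map_pow]
    field_simp
  have hT₀int : IsIntegral (Algebra.adjoin A₀ {algebraMap F L u}) T₀ := by
    refine IsIntegral.of_pow hp ?_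
    rw [hT₀p]
    exact ks_isIntegral ((IsIntegral.pow (mem_zchClosure.mp s.2) _).mul hsε)
  refine ⟨ksClosureMap (A₀ := A₀) (L := L) u s, ⟨T₀, mem_zchClosure.mpr hT₀int⟩, ?_, ?_⟩
  · intro hmem
    exact hs (hle (Ideal.mem_comap.mpr hmem))
  · have e2 : algebraMap F L (s : F) * y - T₀ = T₀ * algebraMap F L (h - 1) := by
      rw [map_sub, map_one, mul_sub, mul_one, hT₀, inv_mul_cancel_right₀ hφh]
    change EIPiLoc huLt hπ (algebraMap F L (s : F) * y - T₀)
    rw [e2]
    exact (ks_piLoc hu hπ hh).mul_left _ hπ (eiLoc_of_isIntegral _ hπ hT₀int)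

/-- **The local hypothesis (L'), weak form**: at every closed point `𝔫 ∋ π` of the chart there are
`s ∉ 𝔫` and `g ∈ F` with `g ^ p · w` integral and `s ≡ g` on the special fibre.
(From a datum `w = ε γ ^ p`, `s₁ ε` integral, `γ ≡ 1` only at the vertical primes through `𝔫`:
`s := b₀ s₁` with `b₀ ∉ 𝔫` vanishing to high order on the other vertical primes, `g := s / γ`.) -/
def KSLocal' (hu : Transcendental E u) (hπ : Irreducible π) (p : ℕ) (w : F) : Prop :=
  ∀ 𝔫 : Ideal ↥(zchClosure (A₀ := A₀) ({u} : Set F)), 𝔫.IsMaximal →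
    algebraMap A₀ ↥(zchClosure (A₀ := A₀) ({u} : Set F)) π ∈ 𝔫 →
    ∃ s : ↥(zchClosure (A₀ := A₀) ({u} : Set F)), s ∉ 𝔫 ∧ ∃ g : F,
      IsIntegral (Algebra.adjoin A₀ {u}) (g ^ p * w) ∧ EIPiLoc hu hπ ((s : F) - g)

/-- Transport of the weak local data from `F` to `L = F(y)`, `y ^ p = w`: `b := s`, `T := g y`. -/
theorem ks_local' (hu : Transcendental E u) (hπ : Irreducible π) {p : ℕ} (hp : 0 < p) {w : F}
    (hG : EIPiLoc hu hπ (w - 1))
    (hloc : KSLocal' hu hπ p w) {y : L} (hy : y ^ p = algebraMap F L w)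
    {uL : L} (huL : algebraMap F L u = uL) (huLt : Transcendental E uL) :
    ∀ 𝔑 : Ideal ↥(zchClosure (A₀ := A₀) ({uL} : Set L)), 𝔑.IsMaximal →
      algebraMap A₀ ↥(zchClosure (A₀ := A₀) ({uL} : Set L)) π ∈ 𝔑 →
      ∃ b T : ↥(zchClosure (A₀ := A₀) ({uL} : Set L)),
        b ∉ 𝔑 ∧ EIPiLoc huLt hπ ((b : L) * y - (T : L)) := by
  subst huL
  intro 𝔑 h𝔑 hπ𝔑
  have hne : 𝔑.comap (ksClosureMap (A₀ := A₀) (L := L) u) ≠ ⊤ :=
    Ideal.comap_ne_top _ h𝔑.ne_top
  obtain ⟨𝔫, h𝔫, hle⟩ := Ideal.exists_le_maximal _ hne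
  have hπ𝔫 : algebraMap A₀ ↥(zchClosure (A₀ := A₀) ({u} : Set F)) π ∈ 𝔫 := by
    apply hle
    rw [Ideal.mem_comap]
    have : ksClosureMap (A₀ := A₀) (L := L) u
        (algebraMap A₀ ↥(zchClosure (A₀ := A₀) ({u} : Set F)) π)
        = algebraMap A₀ ↥(zchClosure (A₀ := A₀) ({algebraMap F L u} : Set L)) π :=
      Subtype.ext (ks_algebraMap_comm π)
    rw [this]
    exact hπ𝔑
  obtain ⟨s, hs, g, hgw, hsg⟩ := hloc 𝔫 h𝔫 hπ𝔫
  have hy1 : EIPiLoc huLt hπ (y ^ p - 1) := by
    have := ks_piLoc (L := L) hu hπ hG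
    rwa [map_sub, map_one, ← hy] at this
  have hyloc : y ∈ eiLoc huLt hπ := ei_mem_loc_of_pow huLt hπ hp hy1
  have hT₀int : IsIntegral (Algebra.adjoin A₀ {algebraMap F L u}) (algebraMap F L g * y) := by
    refine IsIntegral.of_pow hp ?_
    rw [mul_pow, hy, ← map_pow, ← map_mul]
    exact ks_isIntegral hgw
  refine ⟨ksClosureMap (A₀ := A₀) (L := L) u s,
    ⟨algebraMap F L g * y, mem_zchClosure.mpr hT₀int⟩, ?_, ?_⟩
  · intro hmem
    exact hs (hle (Ideal.mem_comap.mpr hmem))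
  · have e2 : algebraMap F L (s : F) * y - algebraMap F L g * y
        = algebraMap F L ((s : F) - g) * y := by
      rw [map_sub, sub_mul]
    change EIPiLoc huLt hπ (algebraMap F L (s : F) * y - algebraMap F L g * y)
    rw [e2]
    exact (ks_piLoc hu hπ hsg).mul_right _ hπ hyloc

end Transport

section Main

variable {A₀ E F : Type*} [CommRing A₀] [IsDomain A₀] [IsDiscreteValuationRing A₀]
  [Field E] [Algebra A₀ E] [IsFractionRing A₀ E] [CharZero E]
  [Field F] [Algebra E F] [Algebra A₀ F] [IsScalarTower A₀ E F]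
  {π : A₀} {t : F}

/-- every element of `F[X]/(X^p − w)` is `∑_{i<p} a_i y^i`. -/
theorem ks_gen {p : ℕ} (hp : 0 < p) (w : F) (x : AdjoinRoot (X ^ p - C w : F[X])) :
    ∃ a : ℕ → F, x = ∑ i ∈ Finset.range p,
      algebraMap F (AdjoinRoot (X ^ p - C w : F[X])) (a i) *
        AdjoinRoot.root (X ^ p - C w : F[X]) ^ i := by
  have hmonic : (X ^ p - C w : F[X]).Monic := monic_X_pow_sub_C w hp.ne'
  have hdeg : (X ^ p - C w : F[X]).natDegree = p := natDegree_X_pow_sub_C
  have hne1 : (X ^ p - C w : F[X]) ≠ 1 := by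
    intro h
    have := congrArg natDegree h
    rw [hdeg, natDegree_one] at this
    omega
  obtain ⟨g, rfl⟩ := AdjoinRoot.mk_surjective x
  set r := g %ₘ (X ^ p - C w : F[X]) with hr
  have hgr : AdjoinRoot.mk (X ^ p - C w : F[X]) g = AdjoinRoot.mk (X ^ p - C w : F[X]) r := by
    rw [AdjoinRoot.mk_eq_mk, hr, modByMonic_eq_sub_mul_div, sub_sub_cancel]
    exact dvd_mul_right _ _
  have hrdeg : r.natDegree < p := by
    have := natDegree_modByMonic_lt g hmonic hne1
    rwa [hdeg] at this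
  refine ⟨fun i => r.coeff i, ?_⟩
  rw [hgr]
  conv_lhs => rw [as_sum_range' r p hrdeg]
  rw [map_sum]
  refine Finset.sum_congr rfl fun i _ => ?_
  rw [← C_mul_X_pow_eq_monomial, map_mul, map_pow, AdjoinRoot.mk_C, AdjoinRoot.mk_X,
    AdjoinRoot.algebraMap_eq]

/-- **Kummer glue.**  In the chart setting for `F`, with `p` a prime invertible in `A₀` and
`ζ ∈ A₀` a primitive `p`-th root of unity: a function `w ∈ F^×` which is `≡ 1` on the special
fibre and has the local shape `(ε integral near 𝔫) · (h ≡ 1) ^ p` at every closed point of the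
special fibre of both charts is a constant times a `p`-th power. -/
theorem ks_main_gen (hπ : Irreducible π) (ht : Transcendental E t)
    [FiniteDimensional (IntermediateField.adjoin E {t}) F]
    (hcl : ∀ x : F, IsAlgebraic E x → x ∈ (algebraMap E F).range)
    {p : ℕ} (hp : p.Prime) (hpu : IsUnit (p : A₀)) {ζ : A₀} (hζ : IsPrimitiveRoot ζ p)
    {w : F} (hw : w ≠ 0)
    (hG : EIPiLoc ht hπ (w - 1))
    (hL₁ : KSLocal ht hπ p w ∨ KSLocal' ht hπ p w)
    (hL₂ : KSLocal (zch_transcendental_inv ht) hπ p w ∨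
      KSLocal' (zch_transcendental_inv ht) hπ p w) :
    ∃ c : E, c ≠ 0 ∧ ∃ h : F, w = algebraMap E F c * h ^ p := by
  classical
  by_cases hirr : Irreducible (X ^ p - C w : F[X])
  swap
  · rw [X_pow_sub_C_irreducible_iff_of_prime hp] at hirr
    simp only [not_forall, not_not] at hirr
    obtain ⟨b, hb⟩ := hirr
    exact ⟨1, one_ne_zero, b, by rw [map_one, one_mul, hb]⟩
  haveI : Fact (Irreducible (X ^ p - C w : F[X])) := ⟨hirr⟩
  have hy : AdjoinRoot.root (X ^ p - C w : F[X]) ^ p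
      = algebraMap F (AdjoinRoot (X ^ p - C w : F[X])) w := by
    rw [root_X_pow_sub_C_pow, AdjoinRoot.algebraMap_eq]
  have hζE : IsPrimitiveRoot (algebraMap A₀ E ζ) p :=
    hζ.map_of_injective (IsFractionRing.injective A₀ E)
  have hζF : IsPrimitiveRoot (algebraMap E F (algebraMap A₀ E ζ)) p :=
    hζE.map_of_injective (algebraMap E F).injective
  -- the Kummer automorphism
  have hρwd : (X ^ p - C w : F[X]).eval₂ (Algebra.ofId F (AdjoinRoot (X ^ p - C w : F[X])))
      (algebraMap F (AdjoinRoot (X ^ p - C w : F[X])) (algebraMap E F (algebraMap A₀ E ζ)) *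
        AdjoinRoot.root (X ^ p - C w : F[X])) = 0 := by
    rw [eval₂_sub, eval₂_pow, eval₂_X, eval₂_C, mul_pow, hy, ← map_pow, hζF.pow_eq_one, map_one,
      one_mul]
    exact sub_self _
  set ρ : AdjoinRoot (X ^ p - C w : F[X]) →ₐ[F] AdjoinRoot (X ^ p - C w : F[X]) :=
    AdjoinRoot.liftAlgHom (X ^ p - C w : F[X])
      (Algebra.ofId F (AdjoinRoot (X ^ p - C w : F[X])))
      (algebraMap F (AdjoinRoot (X ^ p - C w : F[X])) (algebraMap E F (algebraMap A₀ E ζ)) *
        AdjoinRoot.root (X ^ p - C w : F[X])) hρwd with hρdef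
  have hρ : ρ (AdjoinRoot.root (X ^ p - C w : F[X]))
      = algebraMap E (AdjoinRoot (X ^ p - C w : F[X])) (algebraMap A₀ E ζ) *
        AdjoinRoot.root (X ^ p - C w : F[X]) := by
    rw [hρdef, AdjoinRoot.liftAlgHom_root, ← IsScalarTower.algebraMap_apply]
  rcases ks_dichotomy hcl hp hζE hw hy (ks_gen hp.pos w) ρ hρ with hclL | hres
  swap
  · exact hres
  exfalso
  haveI : FiniteDimensional F (AdjoinRoot (X ^ p - C w : F[X])) :=
    (AdjoinRoot.powerBasis hirr.ne_zero).finite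
  haveI := ks_finiteDimensional (E := E) (L := AdjoinRoot (X ^ p - C w : F[X])) t
  have htL := ks_transcendental (L := AdjoinRoot (X ^ p - C w : F[X])) ht
  have hinjA : Function.Injective (algebraMap A₀ (AdjoinRoot (X ^ p - C w : F[X]))) :=
    zch_algebraMap_injective (A₀ := A₀) (E := E)
  refine ei_false_of_aut hπ htL hclL hpu hp.one_lt
    (y := AdjoinRoot.root (X ^ p - C w : F[X])) ?_ ?_ ?_ ρ.toRingHom ?_ ?_ (ζ := ζ)
    (hζ.map_of_injective hinjA) ?_
  · -- `y ^ p ≡ 1`
    have := ks_piLoc (L := AdjoinRoot (X ^ p - C w : F[X])) ht hπ hG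
    rwa [map_sub, map_one, ← hy] at this
  · rcases hL₁ with hL₁ | hL₁
    · exact ks_local ht hπ hp.pos hw hL₁ hy rfl htL
    · exact ks_local' ht hπ hp.pos hG hL₁ hy rfl htL
  · have hG' : EIPiLoc (zch_transcendental_inv ht) hπ (w - 1) := (eiPiLoc_inv_iff ht hπ).mpr hG
    rcases hL₂ with hL₂ | hL₂
    · exact ks_local (zch_transcendental_inv ht) hπ hp.pos hw hL₂ hy (map_inv₀ _ t)
        (zch_transcendental_inv htL)
    · exact ks_local' (zch_transcendental_inv ht) hπ hp.pos hG' hL₂ hy (map_inv₀ _ t)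
        (zch_transcendental_inv htL)
  · intro a
    change ρ (algebraMap A₀ (AdjoinRoot (X ^ p - C w : F[X])) a) = _
    rw [IsScalarTower.algebraMap_apply A₀ F (AdjoinRoot (X ^ p - C w : F[X])), AlgHom.commutes]
  · change ρ (algebraMap F (AdjoinRoot (X ^ p - C w : F[X])) t) = _
    rw [AlgHom.commutes]
  · change ρ (AdjoinRoot.root (X ^ p - C w : F[X])) = _
    rw [hρ, ← IsScalarTower.algebraMap_apply]

/-- **Kummer glue** with the strong local hypothesis `KSLocal` on both charts. -/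
theorem ks_main (hπ : Irreducible π) (ht : Transcendental E t)
    [FiniteDimensional (IntermediateField.adjoin E {t}) F]
    (hcl : ∀ x : F, IsAlgebraic E x → x ∈ (algebraMap E F).range)
    {p : ℕ} (hp : p.Prime) (hpu : IsUnit (p : A₀)) {ζ : A₀} (hζ : IsPrimitiveRoot ζ p)
    {w : F} (hw : w ≠ 0)
    (hG : EIPiLoc ht hπ (w - 1))
    (hL₁ : KSLocal ht hπ p w) (hL₂ : KSLocal (zch_transcendental_inv ht) hπ p w) :
    ∃ c : E, c ≠ 0 ∧ ∃ h : F, w = algebraMap E F c * h ^ p :=
  ks_main_gen hπ ht hcl hp hpu hζ hw hG (Or.inl hL₁) (Or.inl hL₂)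

/-- **Kummer glue** with the weak local hypothesis `KSLocal'` on both charts. -/
theorem ks_main' (hπ : Irreducible π) (ht : Transcendental E t)
    [FiniteDimensional (IntermediateField.adjoin E {t}) F]
    (hcl : ∀ x : F, IsAlgebraic E x → x ∈ (algebraMap E F).range)
    {p : ℕ} (hp : p.Prime) (hpu : IsUnit (p : A₀)) {ζ : A₀} (hζ : IsPrimitiveRoot ζ p)
    {w : F} (hw : w ≠ 0)
    (hG : EIPiLoc ht hπ (w - 1))
    (hL₁ : KSLocal' ht hπ p w) (hL₂ : KSLocal' (zch_transcendental_inv ht) hπ p w) :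
    ∃ c : E, c ≠ 0 ∧ ∃ h : F, w = algebraMap E F c * h ^ p :=
  ks_main_gen hπ ht hcl hp hpu hζ hw hG (Or.inr hL₁) (Or.inr hL₂)

/-- **Kummer glue, exact form** (the input `hP` of D5 `PowerInd`): if the constants that can occur
are `p`-th powers in `E`, then `w` is a `p`-th power in `F`. -/
theorem ks_main_pow (hπ : Irreducible π) (ht : Transcendental E t)
    [FiniteDimensional (IntermediateField.adjoin E {t}) F]
    (hcl : ∀ x : F, IsAlgebraic E x → x ∈ (algebraMap E F).range)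
    {p : ℕ} (hp : p.Prime) (hpu : IsUnit (p : A₀)) {ζ : A₀} (hζ : IsPrimitiveRoot ζ p)
    (hconst : ∀ c : E, c ≠ 0 →
      (∃ h : F, EIPiLoc ht hπ (algebraMap E F c * h ^ p - 1)) → ∃ d : E, d ^ p = c)
    {w : F} (hw : w ≠ 0)
    (hG : EIPiLoc ht hπ (w - 1))
    (hL₁ : KSLocal ht hπ p w) (hL₂ : KSLocal (zch_transcendental_inv ht) hπ p w) :
    ∃ h : F, h ^ p = w := by
  obtain ⟨c, hc, h, hwch⟩ := ks_main hπ ht hcl hp hpu hζ hw hG hL₁ hL₂
  obtain ⟨d, hd⟩ := hconst c hc ⟨h, by rw [← hwch]; exact hG⟩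
  exact ⟨algebraMap E F d * h, by rw [mul_pow, ← map_pow, hd, hwch]⟩

/-- **Kummer glue, exact form**, with the weak local hypothesis `KSLocal'`. -/
theorem ks_main_pow' (hπ : Irreducible π) (ht : Transcendental E t)
    [FiniteDimensional (IntermediateField.adjoin E {t}) F]
    (hcl : ∀ x : F, IsAlgebraic E x → x ∈ (algebraMap E F).range)
    {p : ℕ} (hp : p.Prime) (hpu : IsUnit (p : A₀)) {ζ : A₀} (hζ : IsPrimitiveRoot ζ p)
    (hconst : ∀ c : E, c ≠ 0 →
      (∃ h : F, EIPiLoc ht hπ (algebraMap E F c * h ^ p - 1)) → ∃ d : E, d ^ p = c)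
    {w : F} (hw : w ≠ 0)
    (hG : EIPiLoc ht hπ (w - 1))
    (hL₁ : KSLocal' ht hπ p w) (hL₂ : KSLocal' (zch_transcendental_inv ht) hπ p w) :
    ∃ h : F, h ^ p = w := by
  obtain ⟨c, hc, h, hwch⟩ := ks_main' hπ ht hcl hp hpu hζ hw hG hL₁ hL₂
  obtain ⟨d, hd⟩ := hconst c hc ⟨h, by rw [← hwch]; exact hG⟩
  exact ⟨algebraMap E F d * h, by rw [mul_pow, ← map_pow, hd, hwch]⟩

end Main

end Fermat.Agent.UNIP
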