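/-
UNIP (S34/S35), direct route, piece AT-a "ADAPTER" D5 → D4 (helper84).

Chart setting of `INJ.zariski_connected_charts` for the field `F` itself: `A₀` a DVR, `π`,
`E = Frac A₀` (char 0), `u : F` transcendental over `E` (`u = t` or `t⁻¹`), `F / E(u)` finite,
`B_u = zchClosure {u}` the integral closure of `A₀[u]` in `F`.
`V : κ → ValuationSubring F` the vertical valuation rings (`κ` finite).

* `ad_exists_primeTo_pow_mul_isIntegral` : every `x ∈ F` has a denominator `π ^ k · s`, `π ∤ s`.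
* `ad_piLoc_of_vertical` (DICTIONARY): `x ∈ 𝔪(V c)` for all `c` ⇒ `EIPiLoc hu hπ x`
  (`x ∈ π · B_(π)`), from (SS1) `B_u ∩ ⋂ 𝔪(V c) = π B_u` and `B_u ⊆ V c`.
* `ad_arch_of_isDiscreteValuationRing` : a discrete valuation ring is archimedean.
* `ad_ksLocal` (ADAPTER): a datum `w = ε · γ ^ p` of `PwiShape` at a closed point `𝔫` (where `γ ≡ 1`
  only at the `V c` through `𝔫`) gives the local hypothesis of the Kummer glue:
  `∃ s ∉ 𝔫, ∃ g, g ^ p · w ∈ B_u ∧ EIPiLoc (s − g)`  (`T := g · y`, `b := s`).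
* `ad_global` : `PwiShape … w` ⇒ (G) `EIPiLoc (w − 1)`.
-/
import Fermat.Agent.UNIP.KummerSplit
import Fermat.Agent.UNIP.PowerInd

set_option autoImplicit false
set_option linter.unusedSectionVars false
set_option linter.style.haveILetI false

namespace Fermat.Agent.UNIP

open Polynomial IntermediateField Fermat.Agent.INJ

section Denominators

variable {A₀ E F : Type*} [CommRing A₀] [IsDomain A₀] [IsDiscreteValuationRing A₀]
  [Field E] [Algebra A₀ E] [IsFractionRing A₀ E] [CharZero E]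
  [Field F] [Algebra E F] [Algebra A₀ F] [IsScalarTower A₀ E F]
  {π : A₀} {u : F}

theorem ad_mem_adjoinSimple (u : F) {x : F} (hx : x ∈ Algebra.adjoin A₀ {u}) :
    x ∈ E⟮u⟯ := by
  induction hx using Algebra.adjoin_induction with
  | mem x hx =>
    rw [Set.mem_singleton_iff] at hx
    rw [hx]
    exact mem_adjoin_simple_self E u
  | algebraMap r =>
    rw [IsScalarTower.algebraMap_apply A₀ E F]
    exact E⟮u⟯.algebraMap_mem _
  | add x y _ _ hx hy => exact E⟮u⟯.add_mem hx hy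
  | mul x y _ _ hx hy => exact E⟮u⟯.mul_mem hx hy

/-- the inclusion `A₀[u] → E(u)` -/
noncomputable def adIncl (u : F) : ↥(Algebra.adjoin A₀ {u}) →+* E⟮u⟯ where
  toFun x := ⟨x.1, ad_mem_adjoinSimple u x.2⟩
  map_one' := rfl
  map_mul' _ _ := rfl
  map_zero' := rfl
  map_add' _ _ := rfl

/-- Every `x ∈ F` is algebraic over `A₀[u]`. -/
theorem ad_isAlgebraic (u : F) [FiniteDimensional E⟮u⟯ F] (x : F) :
    IsAlgebraic ↥(Algebra.adjoin A₀ {u}) x := by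
  letI : Algebra ↥(Algebra.adjoin A₀ {u}) E⟮u⟯ := (adIncl (A₀ := A₀) (E := E) u).toAlgebra
  haveI : IsScalarTower ↥(Algebra.adjoin A₀ {u}) E⟮u⟯ F :=
    IsScalarTower.of_algebraMap_eq (fun _ => rfl)
  haveI : FaithfulSMul ↥(Algebra.adjoin A₀ {u}) E⟮u⟯ :=
    (faithfulSMul_iff_algebraMap_injective _ _).2 (fun x y h => by
      apply Subtype.ext
      exact congrArg (fun z : E⟮u⟯ => (z : F)) h)
  haveI : IsFractionRing ↥(Algebra.adjoin A₀ {u}) E⟮u⟯ :=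
    IsFractionRing.of_field _ _ (fun z => by
      obtain ⟨x, y, hxy⟩ := zch_exists_div (A₀ := A₀) u z.2
      have hx : aeval u x ∈ Algebra.adjoin A₀ ({u} : Set F) := by
        rw [Algebra.adjoin_singleton_eq_range_aeval]; exact ⟨x, rfl⟩
      have hy : aeval u y ∈ Algebra.adjoin A₀ ({u} : Set F) := by
        rw [Algebra.adjoin_singleton_eq_range_aeval]; exact ⟨y, rfl⟩
      refine ⟨⟨_, hx⟩, ⟨_, hy⟩, Subtype.ext ?_⟩
      rw [hxy]
      rfl)
  rw [IsFractionRing.isAlgebraic_iff ↥(Algebra.adjoin A₀ {u}) E⟮u⟯ F]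
  exact IsAlgebraic.of_finite E⟮u⟯ x

/-- **Denominators.**  Every `x ∈ F` becomes integral over `A₀[u]` after multiplication by
`π ^ k · s` with `s ∈ A₀[u]` prime to `π`. -/
theorem ad_exists_primeTo_pow_mul_isIntegral (hu : Transcendental E u) (hπ : Irreducible π)
    [FiniteDimensional E⟮u⟯ F] (x : F) :
    ∃ (k : ℕ) (s : F), EIPrimeTo π u s ∧
      IsIntegral ↥(Algebra.adjoin A₀ {u}) (algebraMap A₀ F π ^ k * s * x) := by
  obtain ⟨y, hy0, hy⟩ := (ad_isAlgebraic (A₀ := A₀) (E := E) u x).exists_integral_multiple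
  haveI := chart_ufm (A₀ := A₀) (E := E) hu
  have hprime := chart_prime (A₀ := A₀) (E := E) hu hπ
  obtain ⟨k, s, hs, hys⟩ := WfDvdMonoid.max_power_factor hy0 hprime.irreducible
  refine ⟨k, (s : F), (eiPrimeTo_iff s.2).mpr hs, ?_⟩
  have e : algebraMap A₀ F π ^ k * (s : F) * x = y • x := by
    rw [Algebra.smul_def, hys]
    rfl
  rw [e]
  exact hy

/-- **DICTIONARY.**  `V c` the vertical valuation rings, `B_u ⊆ V c`, and (SS1):
`B_u ∩ ⋂_c 𝔪(V c) = π B_u`.  Then every `x ∈ ⋂_c 𝔪(V c)` lies in `π · (B_u)_(π)`. -/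
theorem ad_piLoc_of_vertical (hu : Transcendental E u) (hπ : Irreducible π)
    [FiniteDimensional E⟮u⟯ F] {κ : Type*} (V : κ → ValuationSubring F)
    (hBV : ∀ c (b : F), IsIntegral ↥(Algebra.adjoin A₀ {u}) b → b ∈ V c)
    (hSS1 : ∀ b : F, IsIntegral ↥(Algebra.adjoin A₀ {u}) b → (∀ c, b ∈ (V c).nonunits) →
      ∃ b' : F, IsIntegral ↥(Algebra.adjoin A₀ {u}) b' ∧ b = algebraMap A₀ F π * b')
    {x : F} (hx : ∀ c, x ∈ (V c).nonunits) : EIPiLoc hu hπ x := by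
  have hπ0 : algebraMap A₀ F π ≠ 0 := ei_algebraMap_ne_zero (E := E) hπ
  obtain ⟨k, s, hs, hint⟩ := ad_exists_primeTo_pow_mul_isIntegral (E := E) hu hπ x
  have hsint : IsIntegral ↥(Algebra.adjoin A₀ {u}) s :=
    isIntegral_algebraMap (R := ↥(Algebra.adjoin A₀ {u})) (x := ⟨s, hs.1⟩)
  have hπint : IsIntegral ↥(Algebra.adjoin A₀ {u}) (algebraMap A₀ F π) :=
    isIntegral_algebraMap (R := ↥(Algebra.adjoin A₀ {u}))
      (x := algebraMap A₀ ↥(Algebra.adjoin A₀ {u}) π)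
  -- multiples of `x` by integral elements are in all `𝔪(V c)`
  have hmul : ∀ a : F, IsIntegral ↥(Algebra.adjoin A₀ {u}) a → ∀ c, a * x ∈ (V c).nonunits :=
    fun a ha c => pwi_mul_mem_nonunits (V c) (hBV c a ha) (hx c)
  -- descend the exponent of `π`
  have key : ∀ k : ℕ, IsIntegral ↥(Algebra.adjoin A₀ {u}) (algebraMap A₀ F π ^ k * s * x) →
      EIPiInt π u (s * x) := by
    intro k
    induction k with
    | zero =>
      intro h
      rw [pow_zero, one_mul] at h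
      exact hSS1 _ h (hmul s hsint)
    | succ k ih =>
      intro h
      obtain ⟨b', hb', hbb'⟩ := hSS1 _ h
        (fun c => hmul _ ((hπint.pow (k + 1)).mul hsint) c)
      apply ih
      have e : algebraMap A₀ F π ^ k * s * x = b' := by
        apply mul_left_cancel₀ hπ0
        rw [← hbb']
        ring
      rw [e]
      exact hb'
  exact (eiPiLoc_iff hu hπ).mpr ⟨s, hs, key k hint⟩

end Denominators

section Arch

variable {F : Type*} [Field F]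

/-- A discrete valuation ring `W` of `F` is archimedean: for `a ∈ 𝔪` and any `x ∈ F`, some
`a ^ N · x` lies in `𝔪`. -/
theorem ad_arch_of_isDiscreteValuationRing (W : ValuationSubring F)
    [IsDiscreteValuationRing W] {a : F} (ha : a ∈ W.nonunits) (x : F) :
    ∃ N : ℕ, a ^ N * x ∈ W.nonunits := by
  by_cases hxW : x ∈ W
  · exact ⟨1, by rw [pow_one, mul_comm]; exact pwi_mul_mem_nonunits W hxW ha⟩
  have hx0 : x ≠ 0 := fun h => hxW (h ▸ W.zero_mem)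
  have hyW : x⁻¹ ∈ W := (W.mem_or_inv_mem x).resolve_left hxW
  by_cases ha0 : a = 0
  · exact ⟨1, by rw [ha0, pow_one, zero_mul]; exact W.nonunits.zero_mem⟩
  have haW : a ∈ W := by
    rw [← W.valuation_le_one_iff]
    exact ((ValuationSubring.mem_nonunits_iff W).mp ha).le
  -- Krull: `x⁻¹ ∉ 𝔪 ^ N` for some `N`
  set y : W := ⟨x⁻¹, hyW⟩ with hy
  set a' : W := ⟨a, haW⟩ with ha'
  have hy0 : y ≠ 0 := fun h => inv_ne_zero hx0 (congrArg Subtype.val h)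
  have ha'm : a' ∈ IsLocalRing.maximalIdeal W := by
    rw [ValuationSubring.valuation_lt_one_iff]
    exact (ValuationSubring.mem_nonunits_iff W).mp ha
  have hN : ∃ N : ℕ, y ∉ IsLocalRing.maximalIdeal W ^ N := by
    by_contra hcon
    push Not at hcon
    have : y ∈ (⨅ N : ℕ, IsLocalRing.maximalIdeal W ^ N : Ideal W) := by
      rw [Ideal.mem_iInf]; exact hcon
    rw [Ideal.iInf_pow_eq_bot_of_isLocalRing _ Ideal.IsPrime.ne_top'] at this
    exact hy0 (by simpa using this)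
  obtain ⟨N, hN⟩ := hN
  -- `a ^ N ∈ 𝔪 ^ N`, so `y ∤`-comparison in the valuation ring gives `a ^ N = y * v`
  have haN : a' ^ N ∈ IsLocalRing.maximalIdeal W ^ N := Ideal.pow_mem_pow ha'm N
  have hdvd : y ∣ a' ^ N := by
    rcases ValuationRing.dvd_total y (a' ^ N) with h | h
    · exact h
    · exfalso
      obtain ⟨v, hv⟩ := h
      exact hN (by rw [hv]; exact Ideal.mul_mem_right _ _ haN)
  obtain ⟨v, hv⟩ := hdvd
  refine ⟨N + 1, ?_⟩
  have e : a ^ (N + 1) * x = a * (v : F) := by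
    have h1 : a ^ N = x⁻¹ * (v : F) := by
      have := congrArg Subtype.val hv
      simpa using this
    rw [pow_succ, h1]
    field_simp
  rw [e, mul_comm]
  exact pwi_mul_mem_nonunits W v.2 ha

end Arch

section Adapter

variable {A₀ E F : Type*} [CommRing A₀] [IsDomain A₀] [IsDiscreteValuationRing A₀]
  [Field E] [Algebra A₀ E] [IsFractionRing A₀ E] [CharZero E]
  [Field F] [Algebra E F] [Algebra A₀ F] [IsScalarTower A₀ E F]
  {π : A₀} {u : F} {κ ι : Type*}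

/-- **ADAPTER at one closed point.**  `𝔫` a prime of the chart `B_u`, `thr c` = "the component
`c` passes through `𝔫`"; for the other components there is `b ∈ B_u ∖ 𝔫` vanishing on `c`.
A datum `w = ε · γ ^ p` with `ε ∈ B_𝔫` and `γ ≡ 1` at the components through `𝔫` gives
`s ∉ 𝔫` and `g` with `g ^ p · w` integral and `s ≡ g` at ALL components. -/
theorem ad_ksLocal_point (hu : Transcendental E u) (hπ : Irreducible π)
    [Finite κ] (V : κ → ValuationSubring F)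
    (hBV : ∀ c (b : F), IsIntegral ↥(Algebra.adjoin A₀ {u}) b → b ∈ V c)
    (hdict : ∀ x : F, (∀ c, x ∈ (V c).nonunits) → EIPiLoc hu hπ x)
    (harch : ∀ c (a x : F), a ∈ (V c).nonunits → ∃ N : ℕ, a ^ N * x ∈ (V c).nonunits)
    (𝔫 : Ideal ↥(zchClosure (A₀ := A₀) ({u} : Set F))) [h𝔫 : 𝔫.IsPrime]
    (thr : κ → Prop)
    (hthr : ∀ c, ¬ thr c →
      ∃ b : ↥(zchClosure (A₀ := A₀) ({u} : Set F)), b ∉ 𝔫 ∧ (b : F) ∈ (V c).nonunits)
    {p : ℕ} (hp : 0 < p) {w ε γ : F} (hγ0 : γ ≠ 0)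
    (hε : ∃ b s₁ : ↥(zchClosure (A₀ := A₀) ({u} : Set F)), s₁ ∉ 𝔫 ∧ (s₁ : F) * ε = b)
    (hγ : ∀ c, thr c → γ - 1 ∈ (V c).nonunits) (hw : w = ε * γ ^ p) :
    ∃ s : ↥(zchClosure (A₀ := A₀) ({u} : Set F)), s ∉ 𝔫 ∧ ∃ g : F,
      IsIntegral ↥(Algebra.adjoin A₀ {u}) (g ^ p * w) ∧ EIPiLoc hu hπ ((s : F) - g) := by
  classical
  haveI : Fintype κ := Fintype.ofFinite κ
  obtain ⟨b, s₁, hs₁, hsb⟩ := hε
  have h1𝔫 : (1 : ↥(zchClosure (A₀ := A₀) ({u} : Set F))) ∉ 𝔫 := fun h =>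
    h𝔫.ne_top ((Ideal.eq_top_iff_one 𝔫).mpr h)
  -- the multipliers
  have hmult : ∀ c, ∃ bc : ↥(zchClosure (A₀ := A₀) ({u} : Set F)), bc ∉ 𝔫 ∧
      (bc : F) * ((γ - 1) / γ) ∈ (V c).nonunits := by
    intro c
    by_cases hc : thr c
    · refine ⟨1, h1𝔫, ?_⟩
      have h1 := hγ c hc
      have h2 : (V c).valuation γ = 1 := pwi_val_eq_one (V c) h1
      rw [ValuationSubring.mem_nonunits_iff] at h1 ⊢
      push_cast
      rw [one_mul, map_div₀, h2, div_one]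
      exact h1
    · obtain ⟨b', hb', hb'V⟩ := hthr c hc
      obtain ⟨N, hN⟩ := harch c (b' : F) ((γ - 1) / γ) hb'V
      refine ⟨b' ^ N, fun h => hb' (h𝔫.mem_of_pow_mem N h), ?_⟩
      push_cast
      exact hN
  choose bc hbc hbcV using hmult
  set b₀ : ↥(zchClosure (A₀ := A₀) ({u} : Set F)) := ∏ c, bc c with hb₀
  have hb₀𝔫 : b₀ ∉ 𝔫 := by
    intro h
    obtain ⟨c, -, hc⟩ := (Ideal.IsPrime.prod_mem_iff).mp h
    exact hbc c hc
  have hmemV : ∀ (x : ↥(zchClosure (A₀ := A₀) ({u} : Set F))) (c : κ), (x : F) ∈ V c :=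
    fun x c => hBV c _ (mem_zchClosure.mp x.2)
  refine ⟨b₀ * s₁, fun h => ?_, ((b₀ * s₁ : ↥(zchClosure (A₀ := A₀) ({u} : Set F))) : F) / γ,
    ?_, ?_⟩
  · rcases h𝔫.mem_or_mem h with h' | h'
    · exact hb₀𝔫 h'
    · exact hs₁ h'
  · -- `g ^ p * w = b₀ ^ p * s₁ ^ (p - 1) * b`
    have e : (((b₀ * s₁ : ↥(zchClosure (A₀ := A₀) ({u} : Set F))) : F) / γ) ^ p * w
        = ((b₀ ^ p * s₁ ^ (p - 1) * b : ↥(zchClosure (A₀ := A₀) ({u} : Set F))) : F) := by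
      have h2 : (s₁ : F) ^ p = (s₁ : F) ^ (p - 1) * (s₁ : F) := by
        rw [← pow_succ, Nat.sub_add_cancel hp]
      push_cast
      rw [hw, div_pow, mul_pow, h2, ← hsb]
      field_simp
    rw [e]
    exact mem_zchClosure.mp (b₀ ^ p * s₁ ^ (p - 1) * b).2
  · apply hdict
    intro c
    have e : ((b₀ * s₁ : ↥(zchClosure (A₀ := A₀) ({u} : Set F))) : F)
          - ((b₀ * s₁ : ↥(zchClosure (A₀ := A₀) ({u} : Set F))) : F) / γ
        = ((s₁ * ∏ c' ∈ Finset.univ.erase c, bc c' :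
            ↥(zchClosure (A₀ := A₀) ({u} : Set F))) : F) * ((bc c : F) * ((γ - 1) / γ)) := by
      have hprod : b₀ = bc c * ∏ c' ∈ Finset.univ.erase c, bc c' := by
        rw [hb₀, Finset.mul_prod_erase _ _ (Finset.mem_univ c)]
      rw [hprod]
      push_cast
      field_simp
    rw [e]
    exact pwi_mul_mem_nonunits (V c) (hmemV _ c) (hbcV c)

/-- **ADAPTER** `PwiShape ⇒ KSLocal'` at the chart `u`.  `hcov`: every maximal ideal `𝔫 ∋ π` of
`B_u` is a point `i` of the shape, with `O i ⊆ B_𝔫`, and every component `c` with `¬ inc i c`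
carries some `b ∈ B_u ∖ 𝔫` vanishing on `c`. -/
theorem ad_ksLocal' (hu : Transcendental E u) (hπ : Irreducible π)
    [Finite κ] (V : κ → ValuationSubring F) (O : ι → Subring F) (J : ∀ i, Ideal (O i))
    (inc : ι → κ → Prop)
    (hBV : ∀ c (b : F), IsIntegral ↥(Algebra.adjoin A₀ {u}) b → b ∈ V c)
    (hdict : ∀ x : F, (∀ c, x ∈ (V c).nonunits) → EIPiLoc hu hπ x)
    (harch : ∀ c (a x : F), a ∈ (V c).nonunits → ∃ N : ℕ, a ^ N * x ∈ (V c).nonunits)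
    (hcov : ∀ 𝔫 : Ideal ↥(zchClosure (A₀ := A₀) ({u} : Set F)), 𝔫.IsMaximal →
      algebraMap A₀ ↥(zchClosure (A₀ := A₀) ({u} : Set F)) π ∈ 𝔫 → ∃ i : ι,
        (∀ x ∈ O i, ∃ b s : ↥(zchClosure (A₀ := A₀) ({u} : Set F)), s ∉ 𝔫 ∧ (s : F) * x = b) ∧
        (∀ c, ¬ inc i c →
          ∃ b : ↥(zchClosure (A₀ := A₀) ({u} : Set F)), b ∉ 𝔫 ∧ (b : F) ∈ (V c).nonunits))
    {p : ℕ} (hp : 0 < p) {w : F} (hw0 : w ≠ 0) (hw : PwiShape V O J inc p w) :
    KSLocal' hu hπ p w := by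
  intro 𝔫 h𝔫 hπ𝔫
  haveI := h𝔫.isPrime
  obtain ⟨i, hOi, hinc⟩ := hcov 𝔫 h𝔫 hπ𝔫
  obtain ⟨ε, γ, hε, -, hγ, hwε⟩ := hw.2 i
  have hγ0 : γ ≠ 0 := by
    rintro rfl
    rw [zero_pow hp.ne', mul_zero] at hwε
    exact hw0 hwε
  exact ad_ksLocal_point hu hπ V hBV hdict harch 𝔫 (inc i) hinc hp hγ0 (hOi ε hε) hγ hwε

/-- **hP of D5 from the Kummer glue.**  In the chart setting for `F` (charts `t`, `t⁻¹`), under
the dictionary hypotheses, every `w` of shape `p` is a `p`-th power. -/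
theorem ad_hP (hπ : Irreducible π) {t : F} (ht : Transcendental E t)
    [FiniteDimensional E⟮t⟯ F]
    (hcl : ∀ x : F, IsAlgebraic E x → x ∈ (algebraMap E F).range)
    {p : ℕ} (hp : p.Prime) (hpu : IsUnit (p : A₀)) {ζ : A₀} (hζ : IsPrimitiveRoot ζ p)
    (hconst : ∀ c : E, c ≠ 0 →
      (∃ h : F, EIPiLoc ht hπ (algebraMap E F c * h ^ p - 1)) → ∃ d : E, d ^ p = c)
    [Finite κ] (V : κ → ValuationSubring F) (O : ι → Subring F) (J : ∀ i, Ideal (O i))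
    (inc : ι → κ → Prop)
    (hBV₁ : ∀ c (b : F), IsIntegral ↥(Algebra.adjoin A₀ {t}) b → b ∈ V c)
    (hBV₂ : ∀ c (b : F), IsIntegral ↥(Algebra.adjoin A₀ {t⁻¹}) b → b ∈ V c)
    (hSS1 : ∀ b : F, IsIntegral ↥(Algebra.adjoin A₀ {t}) b → (∀ c, b ∈ (V c).nonunits) →
      ∃ b' : F, IsIntegral ↥(Algebra.adjoin A₀ {t}) b' ∧ b = algebraMap A₀ F π * b')
    (harch : ∀ c (a x : F), a ∈ (V c).nonunits → ∃ N : ℕ, a ^ N * x ∈ (V c).nonunits)
    (hcov₁ : ∀ 𝔫 : Ideal ↥(zchClosure (A₀ := A₀) ({t} : Set F)), 𝔫.IsMaximal →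
      algebraMap A₀ ↥(zchClosure (A₀ := A₀) ({t} : Set F)) π ∈ 𝔫 → ∃ i : ι,
        (∀ x ∈ O i, ∃ b s : ↥(zchClosure (A₀ := A₀) ({t} : Set F)), s ∉ 𝔫 ∧ (s : F) * x = b) ∧
        (∀ c, ¬ inc i c →
          ∃ b : ↥(zchClosure (A₀ := A₀) ({t} : Set F)), b ∉ 𝔫 ∧ (b : F) ∈ (V c).nonunits))
    (hcov₂ : ∀ 𝔫 : Ideal ↥(zchClosure (A₀ := A₀) ({t⁻¹} : Set F)), 𝔫.IsMaximal →
      algebraMap A₀ ↥(zchClosure (A₀ := A₀) ({t⁻¹} : Set F)) π ∈ 𝔫 → ∃ i : ι,
        (∀ x ∈ O i, ∃ b s : ↥(zchClosure (A₀ := A₀) ({t⁻¹} : Set F)), s ∉ 𝔫 ∧ (s : F) * x = b) ∧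
        (∀ c, ¬ inc i c →
          ∃ b : ↥(zchClosure (A₀ := A₀) ({t⁻¹} : Set F)), b ∉ 𝔫 ∧ (b : F) ∈ (V c).nonunits))
    (w : F) (hw : PwiShape V O J inc p w) : ∃ h : F, h ^ p = w := by
  by_cases hw0 : w = 0
  · exact ⟨0, by rw [hw0, zero_pow hp.ne_zero]⟩
  have hdict₁ : ∀ x : F, (∀ c, x ∈ (V c).nonunits) → EIPiLoc ht hπ x := fun x hx =>
    ad_piLoc_of_vertical ht hπ V hBV₁ hSS1 hx
  have hdict₂ : ∀ x : F, (∀ c, x ∈ (V c).nonunits) →
      EIPiLoc (zch_transcendental_inv ht) hπ x := fun x hx =>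
    (eiPiLoc_inv_iff ht hπ).mpr (hdict₁ x hx)
  exact ks_main_pow' hπ ht hcl hp hpu hζ hconst hw0 (hdict₁ _ hw.1)
    (ad_ksLocal' ht hπ V O J inc hBV₁ hdict₁ harch hcov₁ hp.pos hw0 hw)
    (ad_ksLocal' (zch_transcendental_inv ht) hπ V O J inc hBV₂ hdict₂ harch hcov₂ hp.pos hw0 hw)

end Adapter

end Fermat.Agent.UNIP
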