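import Mathlib
import Fermat.Agent.UNIP.KummerSplit

/-!
# UNIP D4, Kummer glue: the constants (helper76)

Discharges the hypothesis `hconst` of `ks_main_pow` / `ks_main_pow'` (KummerSplit.lean):

`ks_const_pow`: in the chart setting (`A₀` DVR, `π`, `E = Frac A₀`, `t : F`), assume
* (`hunit`) every unit of `A₀` is a `p`-th power in `A₀` (true for `A₀ = A ∩ E'`, `E' ⊇ ℚ̄^I`),
* (`hred`)  the special fibre is reduced, in the form `z ∈ C_(π)`, `z ^ p ∈ π C_(π)` ⇒ `z ∈ π C_(π)`.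
Then every constant `c ∈ E^×` such that `c · h ^ p ≡ 1` on the special fibre for some `h ∈ F` is
a `p`-th power in `E`.

Proof: `c = π^r · d^p` with `0 ≤ r < p` (`ks_const_decomp`); if `r ≥ 1`, then `h₁ := d h` has
`π^r h₁^p ≡ 1`, and by (`hred`) `π^i h₁ ∈ C_(π)` for `i = r, r − 1, …, 0`; so `1 ∈ π C_(π)`.
-/

set_option autoImplicit false
set_option linter.unusedSectionVars false
set_option linter.style.haveILetI false

namespace Fermat.Agent.UNIP

open Polynomial IntermediateField Fermat.Agent.INJ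

section Const

variable {A₀ E : Type*} [CommRing A₀] [IsDomain A₀] [IsDiscreteValuationRing A₀]
  [Field E] [Algebra A₀ E] [IsFractionRing A₀ E]

/-- In the fraction field of a DVR whose units are `p`-th powers, every nonzero element is
`π ^ r · d ^ p` with `r < p`. -/
theorem ks_const_decomp {π : A₀} (hπ : Irreducible π) {p : ℕ} (hp : 0 < p)
    (hunit : ∀ a : A₀, IsUnit a → ∃ d : A₀, d ^ p = a) {c : E} (hc : c ≠ 0) :
    ∃ (d : E) (r : ℕ), r < p ∧ algebraMap A₀ E π ^ r * d ^ p = c := by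
  obtain ⟨x, y, hy, hxy⟩ := IsFractionRing.div_surjective (A := A₀) c
  have hy0 : y ≠ 0 := nonZeroDivisors.ne_zero hy
  have hx0 : x ≠ 0 := by
    rintro rfl
    rw [map_zero, zero_div] at hxy
    exact hc hxy.symm
  obtain ⟨m, u₁, hx⟩ := IsDiscreteValuationRing.eq_unit_mul_pow_irreducible hx0 hπ
  obtain ⟨n, u₂, hy'⟩ := IsDiscreteValuationRing.eq_unit_mul_pow_irreducible hy0 hπ
  obtain ⟨d₀, hd₀⟩ := hunit ((u₁ * u₂⁻¹ : A₀ˣ) : A₀) (Units.isUnit _)
  have hinj : Function.Injective (algebraMap A₀ E) := IsFractionRing.injective A₀ E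
  set P : E := algebraMap A₀ E π with hP
  have hP0 : P ≠ 0 := (map_ne_zero_iff _ hinj).mpr hπ.ne_zero
  have hu₂ : algebraMap A₀ E (u₂ : A₀) ≠ 0 := (map_ne_zero_iff _ hinj).mpr u₂.ne_zero
  obtain ⟨p', rfl⟩ : ∃ p', p = p' + 1 := ⟨p - 1, by omega⟩
  set M := m + n * p' with hM
  refine ⟨algebraMap A₀ E d₀ * P ^ (M / (p' + 1)) / P ^ n, M % (p' + 1), Nat.mod_lt _ hp, ?_⟩
  have hdiv := Nat.div_add_mod M (p' + 1)
  have hD : algebraMap A₀ E d₀ ^ (p' + 1) * algebraMap A₀ E (u₂ : A₀)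
      = algebraMap A₀ E (u₁ : A₀) := by
    rw [← map_pow, hd₀, ← map_mul]
    congr 1
    rw [Units.val_mul, mul_assoc, Units.inv_mul, mul_one]
  have hpow : P ^ (M % (p' + 1)) * (P ^ (M / (p' + 1))) ^ (p' + 1) * P ^ n
      = P ^ m * (P ^ n) ^ (p' + 1) := by
    rw [← pow_mul, ← pow_mul, ← pow_add, ← pow_add, ← pow_add]
    congr 1
    have h1 : M / (p' + 1) * (p' + 1) = (p' + 1) * (M / (p' + 1)) := mul_comm _ _
    rw [h1]
    have h2 : n * (p' + 1) = n * p' + n := by ring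
    rw [h2]
    omega
  rw [← hxy, hx, hy', map_mul, map_mul, map_pow, map_pow, ← hP, ← hD, div_pow, mul_pow]
  field_simp
  linear_combination (algebraMap A₀ E d₀ ^ (p' + 1)) * hpow

end Const

section Chart

variable {A₀ E F : Type*} [CommRing A₀] [IsDomain A₀] [IsDiscreteValuationRing A₀]
  [Field E] [Algebra A₀ E] [IsFractionRing A₀ E] [CharZero E]
  [Field F] [Algebra E F] [Algebra A₀ F] [IsScalarTower A₀ E F]
  {π : A₀} {u : F}

/-- `C(u)_(π)` is integrally closed in `F` for powers: `z ^ n ∈ C(u)_(π)` ⇒ `z ∈ C(u)_(π)`. -/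
theorem ks_mem_eiLoc_of_pow (hu : Transcendental E u) (hπ : Irreducible π) {n : ℕ} (hn : 0 < n)
    {z : F} (h : z ^ n ∈ eiLoc hu hπ) : z ∈ eiLoc hu hπ := by
  obtain ⟨s, hs, hsz⟩ := h
  refine ⟨s, hs, IsIntegral.of_pow hn ?_⟩
  obtain ⟨m, rfl⟩ : ∃ m, n = m + 1 := ⟨n - 1, by omega⟩
  have : (s * z) ^ (m + 1) =
      algebraMap ↥(Algebra.adjoin A₀ {u}) F (⟨s, hs.1⟩ ^ m) * (s * z ^ (m + 1)) := by
    show (s * z) ^ (m + 1) = s ^ m * (s * z ^ (m + 1))
    ring
  rw [this]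
  exact isIntegral_algebraMap.mul hsz

/-- If the special fibre is reduced, `π ^ r · h ^ p ≡ 1` is impossible for `0 < r < p`. -/
theorem ks_const_false (hu : Transcendental E u) (hπ : Irreducible π) {p : ℕ}
    (hred : ∀ z : F, z ∈ eiLoc hu hπ → EIPiLoc hu hπ (z ^ p) → EIPiLoc hu hπ z)
    {r : ℕ} (hr0 : 0 < r) (hrp : r < p) {h : F}
    (hw : EIPiLoc hu hπ (algebraMap A₀ F π ^ r * h ^ p - 1)) : False := by
  have hp : 0 < p := by omega
  set ϖ : F := algebraMap A₀ F π with hϖ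
  have hϖ0 : ϖ ≠ 0 := ei_algebraMap_ne_zero (E := E) hπ
  have hϖloc : ϖ ∈ eiLoc hu hπ := eiLoc_algebraMap hu hπ π
  have hwloc : ϖ ^ r * h ^ p ∈ eiLoc hu hπ := by
    have := Subring.add_mem _ (hw.mem_loc hu hπ) (Subring.one_mem _)
    simpa using this
  -- `ϖ^(r-k) h ∈ C_(π)` for all `k ≤ r`
  have hstep : ∀ k, k ≤ r → ϖ ^ (r - k) * h ∈ eiLoc hu hπ := by
    intro k
    induction k with
    | zero =>
      intro _
      refine ks_mem_eiLoc_of_pow hu hπ hp ?_
      have e : (ϖ ^ (r - 0) * h) ^ p = ϖ ^ (r * (p - 1)) * (ϖ ^ r * h ^ p) := by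
        rw [Nat.sub_zero, mul_pow, ← pow_mul, ← mul_assoc, ← pow_add]
        congr 2
        obtain ⟨p', rfl⟩ : ∃ p', p = p' + 1 := ⟨p - 1, by omega⟩
        rw [Nat.add_sub_cancel]
        ring
      rw [e]
      exact Subring.mul_mem _ (Subring.pow_mem _ hϖloc _) hwloc
    | succ k ih =>
      intro hk
      have hi := ih (by omega)
      obtain ⟨i, hi1⟩ : ∃ i, r - k = i + 1 := ⟨r - k - 1, by omega⟩
      have hi2 : r - (k + 1) = i := by omega
      rw [hi1] at hi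
      rw [hi2]
      -- `(ϖ^(i+1) h)^p = ϖ · (ϖ^((i+1) p - r - 1) · (ϖ^r h^p))`
      have hle : r + 1 ≤ (i + 1) * p := by nlinarith
      obtain ⟨e₀, he₀⟩ : ∃ e₀, (i + 1) * p = 1 + e₀ + r := ⟨(i + 1) * p - r - 1, by omega⟩
      have e : (ϖ ^ (i + 1) * h) ^ p = ϖ * (ϖ ^ e₀ * (ϖ ^ r * h ^ p)) := by
        rw [mul_pow, ← pow_mul, he₀, pow_add, pow_add, pow_one]
        ring
      have hpi : EIPiLoc hu hπ ((ϖ ^ (i + 1) * h) ^ p) := by
        rw [e]
        exact ⟨_, Subring.mul_mem _ (Subring.pow_mem _ hϖloc _) hwloc, rfl⟩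
      obtain ⟨z, hz, hzeq⟩ := hred _ hi hpi
      have : ϖ ^ i * h = z := by
        apply mul_left_cancel₀ hϖ0
        rw [← hzeq, pow_succ]
        ring
      rw [this]
      exact hz
  have hh : h ∈ eiLoc hu hπ := by
    have := hstep r le_rfl
    rwa [Nat.sub_self, pow_zero, one_mul] at this
  obtain ⟨r', rfl⟩ : ∃ r', r = r' + 1 := ⟨r - 1, by omega⟩
  have hpi : EIPiLoc hu hπ (ϖ ^ (r' + 1) * h ^ p) :=
    ⟨ϖ ^ r' * h ^ p, Subring.mul_mem _ (Subring.pow_mem _ hϖloc _) (Subring.pow_mem _ hh _), by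
      rw [pow_succ]; ring⟩
  have h1 : EIPiLoc hu hπ (1 : F) := by
    have := hpi.sub hu hπ hw
    simpa using this
  exact ei_not_piLoc_one hu hπ h1

/-- **The constants are `p`-th powers** (the hypothesis `hconst` of `ks_main_pow`). -/
theorem ks_const_pow (hu : Transcendental E u) (hπ : Irreducible π) {p : ℕ} (hp : 0 < p)
    (hunit : ∀ a : A₀, IsUnit a → ∃ d : A₀, d ^ p = a)
    (hred : ∀ z : F, z ∈ eiLoc hu hπ → EIPiLoc hu hπ (z ^ p) → EIPiLoc hu hπ z) :
    ∀ c : E, c ≠ 0 →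
      (∃ h : F, EIPiLoc hu hπ (algebraMap E F c * h ^ p - 1)) → ∃ d : E, d ^ p = c := by
  intro c hc ⟨h, hh⟩
  obtain ⟨d, r, hrp, hd⟩ := ks_const_decomp hπ hp hunit hc
  rcases Nat.eq_zero_or_pos r with hr0 | hr0
  · subst hr0
    exact ⟨d, by rw [← hd, pow_zero, one_mul]⟩
  · exfalso
    refine ks_const_false hu hπ hred hr0 hrp (h := algebraMap E F d * h) ?_
    have e : algebraMap A₀ F π ^ r * (algebraMap E F d * h) ^ p
        = algebraMap E F c * h ^ p := by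
      rw [← hd, map_mul, map_pow, map_pow, mul_pow, ← IsScalarTower.algebraMap_apply]
      ring
    rw [e]
    exact hh

end Chart

section Final

variable {A₀ E F : Type*} [CommRing A₀] [IsDomain A₀] [IsDiscreteValuationRing A₀]
  [Field E] [Algebra A₀ E] [IsFractionRing A₀ E] [CharZero E]
  [Field F] [Algebra E F] [Algebra A₀ F] [IsScalarTower A₀ E F]
  {π : A₀} {t : F}

/-- **Kummer glue, final chart form.**  Units of `A₀` are `p`-th powers, the special fibre is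
reduced, `w ≡ 1` on the special fibre and `w` has the weak local shape `KSLocal'` at every closed
point of both charts: then `w` is a `p`-th power in `F`. -/
theorem ks_pow_of_local' (hπ : Irreducible π) (ht : Transcendental E t)
    [FiniteDimensional (IntermediateField.adjoin E {t}) F]
    (hcl : ∀ x : F, IsAlgebraic E x → x ∈ (algebraMap E F).range)
    {p : ℕ} (hp : p.Prime) (hpu : IsUnit (p : A₀)) {ζ : A₀} (hζ : IsPrimitiveRoot ζ p)
    (hunit : ∀ a : A₀, IsUnit a → ∃ d : A₀, d ^ p = a)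
    (hred : ∀ z : F, z ∈ eiLoc ht hπ → EIPiLoc ht hπ (z ^ p) → EIPiLoc ht hπ z)
    {w : F} (hw : w ≠ 0)
    (hG : EIPiLoc ht hπ (w - 1))
    (hL₁ : KSLocal' ht hπ p w) (hL₂ : KSLocal' (zch_transcendental_inv ht) hπ p w) :
    ∃ h : F, h ^ p = w :=
  ks_main_pow' hπ ht hcl hp hpu hζ (ks_const_pow ht hπ hp.pos hunit hred) hw hG hL₁ hL₂

/-- The same with the strong local shape `KSLocal`. -/
theorem ks_pow_of_local (hπ : Irreducible π) (ht : Transcendental E t)
    [FiniteDimensional (IntermediateField.adjoin E {t}) F]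
    (hcl : ∀ x : F, IsAlgebraic E x → x ∈ (algebraMap E F).range)
    {p : ℕ} (hp : p.Prime) (hpu : IsUnit (p : A₀)) {ζ : A₀} (hζ : IsPrimitiveRoot ζ p)
    (hunit : ∀ a : A₀, IsUnit a → ∃ d : A₀, d ^ p = a)
    (hred : ∀ z : F, z ∈ eiLoc ht hπ → EIPiLoc ht hπ (z ^ p) → EIPiLoc ht hπ z)
    {w : F} (hw : w ≠ 0)
    (hG : EIPiLoc ht hπ (w - 1))
    (hL₁ : KSLocal ht hπ p w) (hL₂ : KSLocal (zch_transcendental_inv ht) hπ p w) :
    ∃ h : F, h ^ p = w :=
  ks_main_pow hπ ht hcl hp hpu hζ (ks_const_pow ht hπ hp.pos hunit hred) hw hG hL₁ hL₂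

end Final

end Fermat.Agent.UNIP
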