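import Mathlib
import Fermat.Agent.UNIP.KummerConst
import Fermat.Agent.UNIP.LocalShape
import Fermat.Agent.UNIP.Adapter

/-!
# UNIP AT-c: the small lemmas of the assembly (helper76)

Per-point lemmas feeding the hypotheses of D5 `pwi_exists_pow_eq` and of the adapter `ad_hP`
for `O i = ls_localSubring 𝔫`, `J i = ls_localIdeal 𝔫 ϖ`, `inc i c := 𝔪(V c) ∩ B ⊆ 𝔫`.

Generic (`B` any commutative ring with `Algebra B F`, `𝔫` a prime of `B`):
* `ats_hJV`  : `c` through `𝔫` ⇒ `J ⊆ 𝔪(V c)`                       (hypothesis `hJV`)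
* `ats_hpt`  : every point lies on a component, from (SS1)          (hypothesis `hpt`)
* `ats_cov`  : a component not through `𝔫` has a function vanishing on it and not at `𝔫`.
Roots of unity (`ζ ∈ A₀` primitive `p`-th root, `p ∈ A₀^×`):
* `ats_isUnit_pow_sub_one`, `ats_hζO`, `ats_hζu`, `ats_hζV`          (hypotheses `hζO hζu hζV`)
Chart (`B = zchClosure {u}`):
* `ats_SS1_inv` : (SS1) on the chart `t` implies (SS1) on the chart `t⁻¹`.
* `ats_hred`    : (SS1) ⇒ the special fibre is reduced in the form needed by `ks_const_pow`.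
* `ats_hconst`  : units of `A₀` are `p`-th powers + (SS1) ⇒ the hypothesis `hconst` of `ad_hP`.
-/

set_option autoImplicit false
set_option linter.unusedSectionVars false
set_option linter.style.haveILetI false

namespace Fermat.Agent.UNIP

open Polynomial IntermediateField Fermat.Agent.INJ

section Generic

variable {F : Type*} [Field F] {B : Type*} [CommRing B] [Algebra B F] {κ : Type*}

/-- an element of `W` which is not in `𝔪_W` has valuation `1`. -/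
theorem ats_valuation_eq_one (W : ValuationSubring F) {x : F} (hx : x ∈ W)
    (hx' : x ∉ W.nonunits) : W.valuation x = 1 :=
  le_antisymm ((W.valuation_le_one_iff x).mpr hx)
    (not_lt.mp fun h => hx' ((ValuationSubring.mem_nonunits_iff W).mpr h))

/-- **`hJV`**: if the component `W` passes through `𝔫` (`𝔪_W ∩ B ⊆ 𝔫`) and `ϖ ∈ 𝔪_W`, then
`ϖ B_𝔫 ⊆ 𝔪_W`. -/
theorem ats_hJV (W : ValuationSubring F) (hBW : ∀ b : B, algebraMap B F b ∈ W)
    (𝔫 : Ideal B) [𝔫.IsPrime] (ϖ : B) (hϖW : algebraMap B F ϖ ∈ W.nonunits)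
    (hinc : ∀ b : B, algebraMap B F b ∈ W.nonunits → b ∈ 𝔫)
    (x : ls_localSubring (F := F) 𝔫) (hx : x ∈ ls_localIdeal (F := F) 𝔫 ϖ) :
    (x : F) ∈ W.nonunits := by
  obtain ⟨y, ⟨b, s, hs, hy⟩, hxy⟩ := (ls_mem_localIdeal 𝔫 ϖ).mp hx
  have hs1 : W.valuation (algebraMap B F s) = 1 :=
    ats_valuation_eq_one W (hBW s) fun h => hs (hinc s h)
  have hy1 : W.valuation y ≤ 1 := by
    have h := congrArg W.valuation hy
    rw [map_mul, hs1, one_mul] at h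
    rw [h]
    exact (W.valuation_le_one_iff _).mpr (hBW b)
  rw [ValuationSubring.mem_nonunits_iff] at hϖW ⊢
  rw [hxy, map_mul]
  exact mul_lt_one_of_lt_of_le hϖW hy1

/-- **`hpt`**: every closed point of the special fibre lies on a component, by (SS1). -/
theorem ats_hpt [Finite κ] (V : κ → ValuationSubring F)
    (hBV : ∀ c (b : B), algebraMap B F b ∈ V c)
    (𝔫 : Ideal B) [h𝔫 : 𝔫.IsPrime] (ϖ : B) (hϖ : ϖ ∈ 𝔫)
    (hSS1 : ∀ b : B, (∀ c, algebraMap B F b ∈ (V c).nonunits) → ∃ b' : B, b = ϖ * b') :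
    ∃ c, ∀ b : B, algebraMap B F b ∈ (V c).nonunits → b ∈ 𝔫 := by
  classical
  by_contra hcon
  simp only [not_exists, not_forall] at hcon
  choose f hf hf' using hcon
  haveI : Fintype κ := Fintype.ofFinite κ
  have hprod : ∀ c, algebraMap B F (∏ c' : κ, f c') ∈ (V c).nonunits := by
    intro c
    rw [← Finset.mul_prod_erase Finset.univ f (Finset.mem_univ c), map_mul, mul_comm]
    exact pwi_mul_mem_nonunits (V c) (hBV c _) (hf c)
  obtain ⟨b', hb'⟩ := hSS1 _ hprod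
  have hmem : ∏ c' : κ, f c' ∈ 𝔫 := by
    rw [hb']
    exact 𝔫.mul_mem_right _ hϖ
  obtain ⟨c, -, hc⟩ := Ideal.IsPrime.prod_mem_iff.mp hmem
  exact hf' c hc

/-- a component not through `𝔫` has a function vanishing on it and not at `𝔫`. -/
theorem ats_cov (W : ValuationSubring F) (𝔫 : Ideal B)
    (h : ¬ ∀ b : B, algebraMap B F b ∈ W.nonunits → b ∈ 𝔫) :
    ∃ b : B, b ∉ 𝔫 ∧ algebraMap B F b ∈ W.nonunits := by
  simp only [not_forall] at h
  obtain ⟨b, hb, hb'⟩ := h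
  exact ⟨b, hb', hb⟩

end Generic

section Roots

variable {A₀ : Type*} [CommRing A₀] [IsDomain A₀]

/-- `ζ ^ k − 1` is a unit of `A₀` for `0 < k < p` if `p` is. -/
theorem ats_isUnit_pow_sub_one {p : ℕ} (hpu : IsUnit (p : A₀)) {ζ : A₀}
    (hζ : IsPrimitiveRoot ζ p) {k : ℕ} (hk0 : 0 < k) (hkp : k < p) : IsUnit (ζ ^ k - 1) := by
  obtain ⟨n, rfl⟩ : ∃ n, p = n + 1 := ⟨p - 1, by omega⟩
  obtain ⟨j, rfl⟩ : ∃ j, k = j + 1 := ⟨k - 1, by omega⟩
  have hprod := hζ.prod_one_sub_pow_eq_order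
  have hj : j ∈ Finset.range n := Finset.mem_range.mpr (by omega)
  have hdvd : (1 - ζ ^ (j + 1)) ∣ ((n : A₀) + 1) := by
    rw [← hprod]
    exact Finset.dvd_prod_of_mem _ hj
  have hu : IsUnit (1 - ζ ^ (j + 1)) := by
    refine isUnit_of_dvd_unit hdvd ?_
    have : ((n + 1 : ℕ) : A₀) = (n : A₀) + 1 := by push_cast; ring
    rwa [this] at hpu
  have : ζ ^ (j + 1) - 1 = -(1 - ζ ^ (j + 1)) := by ring
  rw [this]
  exact hu.neg

variable {F : Type*} [Field F] [Algebra A₀ F] {B : Type*} [CommRing B] [Algebra B F]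
  [Algebra A₀ B] [IsScalarTower A₀ B F]

/-- **`hζO`**. -/
theorem ats_hζO (𝔫 : Ideal B) [𝔫.IsPrime] (ζ : A₀) :
    algebraMap A₀ F ζ ∈ ls_localSubring (F := F) 𝔫 := by
  rw [IsScalarTower.algebraMap_apply A₀ B F]
  exact ls_algebraMap_mem 𝔫 _

/-- **`hζu`**. -/
theorem ats_hζu (𝔫 : Ideal B) [𝔫.IsPrime] {p : ℕ} (hpu : IsUnit (p : A₀)) {ζ : A₀}
    (hζ : IsPrimitiveRoot ζ p) {k : ℕ} (hk0 : 0 < k) (hkp : k < p) :
    (algebraMap A₀ F ζ ^ k - 1)⁻¹ ∈ ls_localSubring (F := F) 𝔫 := by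
  obtain ⟨a, ha⟩ := ats_isUnit_pow_sub_one hpu hζ hk0 hkp
  have h1 : algebraMap A₀ F ζ ^ k - 1 = algebraMap A₀ F (a : A₀) := by
    rw [ha, map_sub, map_pow, map_one]
  have h2 : (algebraMap A₀ F (a : A₀))⁻¹ = algebraMap A₀ F ((a⁻¹ : A₀ˣ) : A₀) := by
    apply inv_eq_of_mul_eq_one_right
    rw [← map_mul, Units.mul_inv, map_one]
  rw [h1, h2]
  exact ats_hζO 𝔫 _

/-- **`hζV`**. -/
theorem ats_hζV (W : ValuationSubring F) (hAW : ∀ a : A₀, algebraMap A₀ F a ∈ W) {p : ℕ}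
    (hpu : IsUnit (p : A₀)) {ζ : A₀} (hζ : IsPrimitiveRoot ζ p) {k : ℕ} (hk0 : 0 < k)
    (hkp : k < p) : algebraMap A₀ F ζ ^ k - 1 ∉ W.nonunits := by
  obtain ⟨a, ha⟩ := ats_isUnit_pow_sub_one hpu hζ hk0 hkp
  have h1 : algebraMap A₀ F ζ ^ k - 1 = algebraMap A₀ F (a : A₀) := by
    rw [ha, map_sub, map_pow, map_one]
  rw [h1, ValuationSubring.mem_nonunits_iff]
  intro hlt
  have h3 : W.valuation (algebraMap A₀ F (a : A₀)) * W.valuation (algebraMap A₀ F ((a⁻¹ : A₀ˣ) : A₀))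
      = 1 := by
    rw [← map_mul, ← map_mul, Units.mul_inv, map_one, map_one]
  have h4 : W.valuation (algebraMap A₀ F ((a⁻¹ : A₀ˣ) : A₀)) ≤ 1 :=
    (W.valuation_le_one_iff _).mpr (hAW _)
  have h5 := mul_lt_one_of_lt_of_le hlt h4
  rw [h3] at h5
  exact lt_irrefl _ h5

end Roots

section Chart

variable {A₀ E F : Type*} [CommRing A₀] [IsDomain A₀] [IsDiscreteValuationRing A₀]
  [Field E] [Algebra A₀ E] [IsFractionRing A₀ E] [CharZero E]
  [Field F] [Algebra E F] [Algebra A₀ F] [IsScalarTower A₀ E F]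
  {π : A₀} {κ : Type*}

/-- a power in `𝔪_W` forces the element into `𝔪_W`. -/
theorem ats_mem_nonunits_of_pow (W : ValuationSubring F) {x : F} {n : ℕ}
    (h : x ^ n ∈ W.nonunits) : x ∈ W.nonunits := by
  rw [ValuationSubring.mem_nonunits_iff] at h ⊢
  rw [map_pow] at h
  by_contra hx
  exact absurd h (not_lt.mpr (one_le_pow₀ (not_lt.mp hx)))

/-- **`hred`** from (SS1): the special fibre of the chart `u` is reduced, in the form needed by
`ks_const_pow`. -/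
theorem ats_hred {u : F} (hu : Transcendental E u) (hπ : Irreducible π)
    (V : κ → ValuationSubring F)
    (hBV : ∀ c (b : F), IsIntegral ↥(Algebra.adjoin A₀ {u}) b → b ∈ V c)
    (hπV : ∀ c, algebraMap A₀ F π ∈ (V c).nonunits)
    (hSS1 : ∀ b : F, IsIntegral ↥(Algebra.adjoin A₀ {u}) b → (∀ c, b ∈ (V c).nonunits) →
      ∃ b' : F, IsIntegral ↥(Algebra.adjoin A₀ {u}) b' ∧ b = algebraMap A₀ F π * b')
    {p : ℕ} (z : F) (hz : z ∈ eiLoc hu hπ) (hzp : EIPiLoc hu hπ (z ^ p)) :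
    EIPiLoc hu hπ z := by
  obtain ⟨s, hs, hsz⟩ := hz
  have hsloc : s ∈ eiLoc hu hπ :=
    eiLoc_of_isIntegral hu hπ
      (isIntegral_algebraMap (R := ↥(Algebra.adjoin A₀ {u})) (x := ⟨s, hs.1⟩))
  -- `b := s z` is integral and `b ^ p ∈ π C_(π)`, hence `b ^ p ∈ π C`
  have hbp : EIPiLoc hu hπ ((s * z) ^ p) := by
    rw [mul_pow]
    exact hzp.mul_left hu hπ (Subring.pow_mem _ hsloc p)
  obtain ⟨c, hc, hbc⟩ := hbp.piInt hu hπ (hsz.pow p)
  have hbV : ∀ c', s * z ∈ (V c').nonunits := by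
    intro c'
    apply ats_mem_nonunits_of_pow (V c') (n := p)
    rw [hbc, mul_comm]
    exact pwi_mul_mem_nonunits (V c') (hBV c' c hc) (hπV c')
  obtain ⟨b', hb', hsb'⟩ := hSS1 _ hsz hbV
  exact (eiPiLoc_iff hu hπ).mpr ⟨s, hs, b', hb', hsb'⟩

/-- **`hconst`**: if the units of `A₀` are `p`-th powers and (SS1) holds on the chart `u`, the
constants `c ∈ E^×` with `c h ^ p ≡ 1` on the special fibre are `p`-th powers. -/
theorem ats_hconst {u : F} (hu : Transcendental E u) (hπ : Irreducible π)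
    (V : κ → ValuationSubring F)
    (hBV : ∀ c (b : F), IsIntegral ↥(Algebra.adjoin A₀ {u}) b → b ∈ V c)
    (hπV : ∀ c, algebraMap A₀ F π ∈ (V c).nonunits)
    (hSS1 : ∀ b : F, IsIntegral ↥(Algebra.adjoin A₀ {u}) b → (∀ c, b ∈ (V c).nonunits) →
      ∃ b' : F, IsIntegral ↥(Algebra.adjoin A₀ {u}) b' ∧ b = algebraMap A₀ F π * b')
    {p : ℕ} (hp : 0 < p) (hunit : ∀ a : A₀, IsUnit a → ∃ d : A₀, d ^ p = a) :
    ∀ c : E, c ≠ 0 →
      (∃ h : F, EIPiLoc hu hπ (algebraMap E F c * h ^ p - 1)) → ∃ d : E, d ^ p = c :=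
  ks_const_pow hu hπ hp hunit (fun z hz hzp => ats_hred hu hπ V hBV hπV hSS1 z hz hzp)

/-- **(SS1) on the chart `t⁻¹` from (SS1) on the chart `t`** (dictionary + A1). -/
theorem ats_SS1_inv {t : F} (ht : Transcendental E t) (hπ : Irreducible π)
    [FiniteDimensional E⟮t⟯ F] (V : κ → ValuationSubring F)
    (hBV : ∀ c (b : F), IsIntegral ↥(Algebra.adjoin A₀ {t}) b → b ∈ V c)
    (hSS1 : ∀ b : F, IsIntegral ↥(Algebra.adjoin A₀ {t}) b → (∀ c, b ∈ (V c).nonunits) →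
      ∃ b' : F, IsIntegral ↥(Algebra.adjoin A₀ {t}) b' ∧ b = algebraMap A₀ F π * b') :
    ∀ b : F, IsIntegral ↥(Algebra.adjoin A₀ {t⁻¹}) b → (∀ c, b ∈ (V c).nonunits) →
      ∃ b' : F, IsIntegral ↥(Algebra.adjoin A₀ {t⁻¹}) b' ∧ b = algebraMap A₀ F π * b' := by
  intro b hb hbV
  have h1 : EIPiLoc ht hπ b := ad_piLoc_of_vertical ht hπ V hBV hSS1 hbV
  have h2 : EIPiLoc (zch_transcendental_inv ht) hπ b := (eiPiLoc_inv_iff ht hπ).mpr h1
  exact h2.piInt (zch_transcendental_inv ht) hπ hb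

/-- **`hpt` in chart form**: every closed point `𝔫 ∋ π` of the chart `u` lies on a component. -/
theorem ats_hpt_chart [Finite κ] {u : F} (V : κ → ValuationSubring F)
    (hBV : ∀ c (b : F), IsIntegral ↥(Algebra.adjoin A₀ {u}) b → b ∈ V c)
    (hSS1 : ∀ b : F, IsIntegral ↥(Algebra.adjoin A₀ {u}) b → (∀ c, b ∈ (V c).nonunits) →
      ∃ b' : F, IsIntegral ↥(Algebra.adjoin A₀ {u}) b' ∧ b = algebraMap A₀ F π * b')
    (𝔫 : Ideal ↥(zchClosure (A₀ := A₀) ({u} : Set F))) [𝔫.IsPrime]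
    (hπ𝔫 : algebraMap A₀ ↥(zchClosure (A₀ := A₀) ({u} : Set F)) π ∈ 𝔫) :
    ∃ c, ∀ b : ↥(zchClosure (A₀ := A₀) ({u} : Set F)), (b : F) ∈ (V c).nonunits → b ∈ 𝔫 := by
  refine ats_hpt (B := ↥(zchClosure (A₀ := A₀) ({u} : Set F))) V
    (fun c b => hBV c _ (mem_zchClosure.mp b.2)) 𝔫 _ hπ𝔫 ?_
  intro b hb
  obtain ⟨b', hb', hbb'⟩ := hSS1 _ (mem_zchClosure.mp b.2) hb
  exact ⟨⟨b', mem_zchClosure.mpr hb'⟩, Subtype.ext hbb'⟩

/-- **`hJV` in chart form.** -/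
theorem ats_hJV_chart {u : F} (W : ValuationSubring F)
    (hBW : ∀ b : F, IsIntegral ↥(Algebra.adjoin A₀ {u}) b → b ∈ W)
    (hπW : algebraMap A₀ F π ∈ W.nonunits)
    (𝔫 : Ideal ↥(zchClosure (A₀ := A₀) ({u} : Set F))) [𝔫.IsPrime]
    (hinc : ∀ b : ↥(zchClosure (A₀ := A₀) ({u} : Set F)), (b : F) ∈ W.nonunits → b ∈ 𝔫)
    (x : ls_localSubring (F := F) 𝔫)
    (hx : x ∈ ls_localIdeal (F := F) 𝔫
      (algebraMap A₀ ↥(zchClosure (A₀ := A₀) ({u} : Set F)) π)) :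
    (x : F) ∈ W.nonunits :=
  ats_hJV (B := ↥(zchClosure (A₀ := A₀) ({u} : Set F))) W
    (fun b => hBW _ (mem_zchClosure.mp b.2)) 𝔫 _ hπW hinc x hx

end Chart

end Fermat.Agent.UNIP
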