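/-
UNIP (item 34, S34/S35), piece D7 "Crossing" (helper20): the two components of the special fibre
meet.

Setting of `INJ/ZariskiCharts.lean`: `A₀` a DVR with uniformizer `π`, `E = Frac A₀` (char 0), `L/E(t)`
finite, `E` algebraically closed in `L`; charts `C₁, C₂` = integral closures of `A₀[t]`, `A₀[t⁻¹]`
in `L`.  `Vinf, V0` two valuation subrings of `L` (the two vertical valuations) containing `A₀`, `t`,
`t⁻¹`, with `π` a nonunit of both, such that on each of the two charts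
`𝔭_∞ ∩ 𝔭_0 = π C`  (SS1), where `𝔭_• := 𝔪(V_•) ∩ C`.

* `crossing_not_comax` : it is impossible that `𝔭_∞ + 𝔭_0 = (1)` in BOTH charts
  (else `e_i := a_i` with `a_i + b_i = 1` are idempotents mod `π` agreeing on the overlap, and
  `zariski_connected_charts` makes `e₁ ≡ 0` or `e₁ ≡ 1`, i.e. `1 ∈ 𝔭_0` or `1 ∈ 𝔭_∞`).
* `crossing_exists_maximal` : hence one of the two charts has a maximal ideal `𝔫` containing
  `𝔭_∞` and `𝔭_0` (a crossing point; this is `hconn` of D5 `pwi_exists_pow_eq`).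
-/
import Fermat.Agent.INJ.ZariskiCharts

set_option autoImplicit false
set_option linter.unusedSectionVars false
set_option linter.unusedVariables false

namespace Fermat.Agent.UNIP

open Polynomial IntermediateField Fermat.Agent.INJ

section Val

variable {A₀ L : Type*} [CommRing A₀] [Field L] [Algebra A₀ L]

/-- a valuation subring containing a subalgebra contains its integral closure -/
theorem crossing_mem_of_isIntegral (V : ValuationSubring L) (S : Subalgebra A₀ L)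
    (hS : ∀ x ∈ S, x ∈ V) {x : L} (hx : IsIntegral S x) : x ∈ V := by
  obtain ⟨p, hp, hpx⟩ := hx
  let f : S →+* V :=
    { toFun := fun s => ⟨(s : L), hS s s.2⟩
      map_one' := rfl
      map_mul' := fun _ _ => rfl
      map_zero' := rfl
      map_add' := fun _ _ => rfl }
  have hx' : IsIntegral V x := by
    refine ⟨p.map f, hp.map f, ?_⟩
    rw [eval₂_map]
    exact hpx
  obtain ⟨y, rfl⟩ := IsIntegrallyClosed.isIntegral_iff.mp hx'
  exact y.2

theorem crossing_mul_mem_nonunits (V : ValuationSubring L) {x y : L} (hx : x ∈ V)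
    (hy : y ∈ V.nonunits) : x * y ∈ V.nonunits := by
  rw [ValuationSubring.mem_nonunits_iff] at hy ⊢
  rw [map_mul]
  have hx1 : V.valuation x ≤ 1 := (V.valuation_le_one_iff x).2 hx
  calc V.valuation x * V.valuation y ≤ 1 * V.valuation y := by gcongr
    _ = V.valuation y := one_mul _
    _ < 1 := hy

theorem crossing_one_not_mem_nonunits (V : ValuationSubring L) : (1 : L) ∉ V.nonunits := by
  rw [ValuationSubring.mem_nonunits_iff, map_one]
  exact lt_irrefl _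

/-- `A₀[S] ⊆ V` if `A₀ ⊆ V` and `S ⊆ V` -/
theorem crossing_adjoin_le (V : ValuationSubring L) (hA : ∀ a : A₀, algebraMap A₀ L a ∈ V)
    (S : Set L) (hS : ∀ s ∈ S, s ∈ V) : ∀ x ∈ Algebra.adjoin A₀ S, x ∈ V := by
  intro x hx
  induction hx using Algebra.adjoin_induction with
  | mem x hx => exact hS x hx
  | algebraMap a => exact hA a
  | add x y _ _ hx hy => exact V.add_mem _ _ hx hy
  | mul x y _ _ hx hy => exact V.mul_mem _ _ hx hy

end Val

section Main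

variable {A₀ E L : Type*} [CommRing A₀] [IsDomain A₀] [IsDiscreteValuationRing A₀]
  [Field E] [Algebra A₀ E] [IsFractionRing A₀ E] [CharZero E]
  [Field L] [Algebra E L] [Algebra A₀ L] [IsScalarTower A₀ E L]

/-- **D7, element form.**  The two components cannot be disjoint on both charts. -/
theorem crossing_not_comax
    {π : A₀} (hπ : Irreducible π)
    {t : L} (ht : Transcendental E t)
    [FiniteDimensional (IntermediateField.adjoin E {t}) L]
    (hcl : ∀ x : L, IsAlgebraic E x → x ∈ (algebraMap E L).range)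
    (Vinf V0 : ValuationSubring L)
    (hAinf : ∀ a : A₀, algebraMap A₀ L a ∈ Vinf) (hA0 : ∀ a : A₀, algebraMap A₀ L a ∈ V0)
    (htinf : t ∈ Vinf) (htinf' : t⁻¹ ∈ Vinf) (ht0 : t ∈ V0) (ht0' : t⁻¹ ∈ V0)
    (hπinf : algebraMap A₀ L π ∈ Vinf.nonunits) (hπ0 : algebraMap A₀ L π ∈ V0.nonunits)
    (hSS1 : ∀ x : L, IsIntegral (Algebra.adjoin A₀ {t}) x → x ∈ Vinf.nonunits → x ∈ V0.nonunits →
      ∃ c : L, IsIntegral (Algebra.adjoin A₀ {t}) c ∧ x = algebraMap A₀ L π * c)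
    (hSS1' : ∀ x : L, IsIntegral (Algebra.adjoin A₀ {t⁻¹}) x → x ∈ Vinf.nonunits →
      x ∈ V0.nonunits → ∃ c : L, IsIntegral (Algebra.adjoin A₀ {t⁻¹}) c ∧
        x = algebraMap A₀ L π * c)
    (a₁ b₁ a₂ b₂ : L)
    (ha₁ : IsIntegral (Algebra.adjoin A₀ {t}) a₁) (hb₁ : IsIntegral (Algebra.adjoin A₀ {t}) b₁)
    (ha₂ : IsIntegral (Algebra.adjoin A₀ {t⁻¹}) a₂)
    (hb₂ : IsIntegral (Algebra.adjoin A₀ {t⁻¹}) b₂)
    (ha₁inf : a₁ ∈ Vinf.nonunits) (hb₁0 : b₁ ∈ V0.nonunits)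
    (ha₂inf : a₂ ∈ Vinf.nonunits) (hb₂0 : b₂ ∈ V0.nonunits)
    (h₁ : a₁ + b₁ = 1) (h₂ : a₂ + b₂ = 1) : False := by
  have ht0ne : t ≠ 0 := by
    rintro rfl
    exact ht isAlgebraic_zero
  have htt' : t * t⁻¹ = 1 := mul_inv_cancel₀ ht0ne
  -- the charts lie in the valuation rings
  have hC₁inf : ∀ x : L, IsIntegral (Algebra.adjoin A₀ {t}) x → x ∈ Vinf := fun x hx =>
    crossing_mem_of_isIntegral Vinf _ (crossing_adjoin_le Vinf hAinf {t} (by
      rintro s rfl; exact htinf)) hx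
  have hC₁0 : ∀ x : L, IsIntegral (Algebra.adjoin A₀ {t}) x → x ∈ V0 := fun x hx =>
    crossing_mem_of_isIntegral V0 _ (crossing_adjoin_le V0 hA0 {t} (by
      rintro s rfl; exact ht0)) hx
  have hC₂inf : ∀ x : L, IsIntegral (Algebra.adjoin A₀ {t⁻¹}) x → x ∈ Vinf := fun x hx =>
    crossing_mem_of_isIntegral Vinf _ (crossing_adjoin_le Vinf hAinf {t⁻¹} (by
      rintro s rfl; exact htinf')) hx
  have hC₂0 : ∀ x : L, IsIntegral (Algebra.adjoin A₀ {t⁻¹}) x → x ∈ V0 := fun x hx =>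
    crossing_mem_of_isIntegral V0 _ (crossing_adjoin_le V0 hA0 {t⁻¹} (by
      rintro s rfl; exact ht0')) hx
  have hsub₁ : Algebra.adjoin A₀ ({t} : Set L) ≤ Algebra.adjoin A₀ {t, t⁻¹} :=
    Algebra.adjoin_mono (by intro x hx; exact Or.inl hx)
  have hsub₂ : Algebra.adjoin A₀ ({t⁻¹} : Set L) ≤ Algebra.adjoin A₀ {t, t⁻¹} :=
    Algebra.adjoin_mono (by intro x hx; exact Or.inr hx)
  -- (SS1) on the overlap
  have hSS12 : ∀ x : L, IsIntegral (Algebra.adjoin A₀ {t, t⁻¹}) x → x ∈ Vinf.nonunits →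
      x ∈ V0.nonunits → ∃ c : L, IsIntegral (Algebra.adjoin A₀ {t, t⁻¹}) c ∧
        x = algebraMap A₀ L π * c := by
    intro x hx hxinf hx0
    obtain ⟨s, hs⟩ := zch_exists_pow_mul_isIntegral (A₀ := A₀) htt' hx
    obtain ⟨c, hc, hxc⟩ := hSS1 (t ^ s * x) hs
      (crossing_mul_mem_nonunits Vinf (Vinf.pow_mem htinf s) hxinf)
      (crossing_mul_mem_nonunits V0 (V0.pow_mem ht0 s) hx0)
    refine ⟨t⁻¹ ^ s * c, ?_, ?_⟩
    · refine IsIntegral.mul ?_ (zch_isIntegral_mono hsub₁ hc)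
      refine IsIntegral.pow ?_ s
      exact isIntegral_algebraMap (R := Algebra.adjoin A₀ ({t, t⁻¹} : Set L))
        (x := ⟨t⁻¹, Algebra.subset_adjoin (Or.inr rfl)⟩)
    · have h1 : t⁻¹ ^ s * (t ^ s * x) = x := by
        rw [← mul_assoc, ← mul_pow, inv_mul_cancel₀ ht0ne, one_pow, one_mul]
      rw [← h1, hxc]
      ring
  -- the idempotents
  have hid₁ : ∃ c₁ : L, IsIntegral (Algebra.adjoin A₀ {t}) c₁ ∧
      a₁ * a₁ - a₁ = algebraMap A₀ L π * c₁ := by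
    have e : a₁ * a₁ - a₁ = -(a₁ * b₁) := by
      have : b₁ = 1 - a₁ := by rw [← h₁]; ring
      rw [this]; ring
    rw [e]
    refine hSS1 _ (IsIntegral.neg (IsIntegral.mul ha₁ hb₁)) ?_ ?_
    · refine Vinf.nonunits.neg_mem ?_
      rw [mul_comm]
      exact crossing_mul_mem_nonunits Vinf (hC₁inf b₁ hb₁) ha₁inf
    · refine V0.nonunits.neg_mem ?_
      exact crossing_mul_mem_nonunits V0 (hC₁0 a₁ ha₁) hb₁0
  have hid₂ : ∃ c₂ : L, IsIntegral (Algebra.adjoin A₀ {t⁻¹}) c₂ ∧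
      a₂ * a₂ - a₂ = algebraMap A₀ L π * c₂ := by
    have e : a₂ * a₂ - a₂ = -(a₂ * b₂) := by
      have : b₂ = 1 - a₂ := by rw [← h₂]; ring
      rw [this]; ring
    rw [e]
    refine hSS1' _ (IsIntegral.neg (IsIntegral.mul ha₂ hb₂)) ?_ ?_
    · refine Vinf.nonunits.neg_mem ?_
      rw [mul_comm]
      exact crossing_mul_mem_nonunits Vinf (hC₂inf b₂ hb₂) ha₂inf
    · refine V0.nonunits.neg_mem ?_
      exact crossing_mul_mem_nonunits V0 (hC₂0 a₂ ha₂) hb₂0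
  have hcomp : ∃ c : L, IsIntegral (Algebra.adjoin A₀ {t, t⁻¹}) c ∧
      a₁ - a₂ = algebraMap A₀ L π * c := by
    refine hSS12 _ (IsIntegral.sub (zch_isIntegral_mono hsub₁ ha₁)
      (zch_isIntegral_mono hsub₂ ha₂)) (Vinf.nonunits.sub_mem ha₁inf ha₂inf) ?_
    have e : a₁ - a₂ = b₂ - b₁ := by
      have e1 : a₁ = 1 - b₁ := by rw [← h₁]; ring
      have e2 : a₂ = 1 - b₂ := by rw [← h₂]; ring
      rw [e1, e2]; ring
    rw [e]
    exact V0.nonunits.sub_mem hb₂0 hb₁0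
  rcases zariski_connected_charts hπ ht hcl ha₁ ha₂ hid₁ hid₂ hcomp with
    ⟨y, hy, hy1⟩ | ⟨y, hy, hy1⟩
  · -- `a₁ ∈ π C₁ ⊂ 𝔭_0`, so `1 = a₁ + b₁ ∈ 𝔭_0`
    apply crossing_one_not_mem_nonunits V0
    rw [← h₁, hy1]
    refine V0.nonunits.add_mem ?_ hb₁0
    rw [mul_comm]
    exact crossing_mul_mem_nonunits V0 (hC₁0 y hy) hπ0
  · -- `b₁ = 1 − a₁ ∈ π C₁ ⊂ 𝔭_∞`, so `1 = a₁ + b₁ ∈ 𝔭_∞`
    apply crossing_one_not_mem_nonunits Vinf
    have hb : b₁ = -(algebraMap A₀ L π * y) := by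
      rw [← hy1, ← h₁]; ring
    rw [← h₁, hb]
    refine Vinf.nonunits.add_mem ha₁inf (Vinf.nonunits.neg_mem ?_)
    rw [mul_comm]
    exact crossing_mul_mem_nonunits Vinf (hC₁inf y hy) hπinf

/-- the trace of the maximal ideal of a valuation subring on a chart -/
def crossingIdeal (S : Set L) (V : ValuationSubring L)
    (hV : ∀ x : L, IsIntegral (Algebra.adjoin A₀ S) x → x ∈ V) :
    Ideal (zchClosure (A₀ := A₀) S) where
  carrier := {x | (x : L) ∈ V.nonunits}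
  zero_mem' := V.nonunits.zero_mem
  add_mem' := fun {x y} hx hy => V.nonunits.add_mem hx hy
  smul_mem' := fun c x hx => crossing_mul_mem_nonunits V (hV c c.2) hx

theorem mem_crossingIdeal {S : Set L} {V : ValuationSubring L}
    {hV : ∀ x : L, IsIntegral (Algebra.adjoin A₀ S) x → x ∈ V}
    {x : zchClosure (A₀ := A₀) S} :
    x ∈ crossingIdeal S V hV ↔ (x : L) ∈ V.nonunits := Iff.rfl

/-- **D7.**  One of the two charts has a maximal ideal containing both components (a crossing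
point of the special fibre). -/
theorem crossing_exists_maximal
    {π : A₀} (hπ : Irreducible π)
    {t : L} (ht : Transcendental E t)
    [FiniteDimensional (IntermediateField.adjoin E {t}) L]
    (hcl : ∀ x : L, IsAlgebraic E x → x ∈ (algebraMap E L).range)
    (Vinf V0 : ValuationSubring L)
    (hAinf : ∀ a : A₀, algebraMap A₀ L a ∈ Vinf) (hA0 : ∀ a : A₀, algebraMap A₀ L a ∈ V0)
    (htinf : t ∈ Vinf) (htinf' : t⁻¹ ∈ Vinf) (ht0 : t ∈ V0) (ht0' : t⁻¹ ∈ V0)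
    (hπinf : algebraMap A₀ L π ∈ Vinf.nonunits) (hπ0 : algebraMap A₀ L π ∈ V0.nonunits)
    (hSS1 : ∀ x : L, IsIntegral (Algebra.adjoin A₀ {t}) x → x ∈ Vinf.nonunits → x ∈ V0.nonunits →
      ∃ c : L, IsIntegral (Algebra.adjoin A₀ {t}) c ∧ x = algebraMap A₀ L π * c)
    (hSS1' : ∀ x : L, IsIntegral (Algebra.adjoin A₀ {t⁻¹}) x → x ∈ Vinf.nonunits →
      x ∈ V0.nonunits → ∃ c : L, IsIntegral (Algebra.adjoin A₀ {t⁻¹}) c ∧
        x = algebraMap A₀ L π * c) :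
    (∃ 𝔫 : Ideal (zchClosure (A₀ := A₀) ({t} : Set L)), 𝔫.IsMaximal ∧
      (∀ x : zchClosure (A₀ := A₀) ({t} : Set L), (x : L) ∈ Vinf.nonunits → x ∈ 𝔫) ∧
      (∀ x : zchClosure (A₀ := A₀) ({t} : Set L), (x : L) ∈ V0.nonunits → x ∈ 𝔫)) ∨
    (∃ 𝔫 : Ideal (zchClosure (A₀ := A₀) ({t⁻¹} : Set L)), 𝔫.IsMaximal ∧
      (∀ x : zchClosure (A₀ := A₀) ({t⁻¹} : Set L), (x : L) ∈ Vinf.nonunits → x ∈ 𝔫) ∧
      (∀ x : zchClosure (A₀ := A₀) ({t⁻¹} : Set L), (x : L) ∈ V0.nonunits → x ∈ 𝔫)) := by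
  have hC₁inf : ∀ x : L, IsIntegral (Algebra.adjoin A₀ {t}) x → x ∈ Vinf := fun x hx =>
    crossing_mem_of_isIntegral Vinf _ (crossing_adjoin_le Vinf hAinf {t} (by
      rintro s rfl; exact htinf)) hx
  have hC₁0 : ∀ x : L, IsIntegral (Algebra.adjoin A₀ {t}) x → x ∈ V0 := fun x hx =>
    crossing_mem_of_isIntegral V0 _ (crossing_adjoin_le V0 hA0 {t} (by
      rintro s rfl; exact ht0)) hx
  have hC₂inf : ∀ x : L, IsIntegral (Algebra.adjoin A₀ {t⁻¹}) x → x ∈ Vinf := fun x hx =>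
    crossing_mem_of_isIntegral Vinf _ (crossing_adjoin_le Vinf hAinf {t⁻¹} (by
      rintro s rfl; exact htinf')) hx
  have hC₂0 : ∀ x : L, IsIntegral (Algebra.adjoin A₀ {t⁻¹}) x → x ∈ V0 := fun x hx =>
    crossing_mem_of_isIntegral V0 _ (crossing_adjoin_le V0 hA0 {t⁻¹} (by
      rintro s rfl; exact ht0')) hx
  by_cases hc₁ : crossingIdeal (A₀ := A₀) {t} Vinf hC₁inf ⊔ crossingIdeal (A₀ := A₀) {t} V0 hC₁0 = ⊤
  · by_cases hc₂ : crossingIdeal (A₀ := A₀) {t⁻¹} Vinf hC₂inf ⊔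
        crossingIdeal (A₀ := A₀) {t⁻¹} V0 hC₂0 = ⊤
    · exfalso
      have h1 : (1 : zchClosure (A₀ := A₀) ({t} : Set L)) ∈
          crossingIdeal (A₀ := A₀) {t} Vinf hC₁inf ⊔ crossingIdeal (A₀ := A₀) {t} V0 hC₁0 := by
        rw [hc₁]; exact Submodule.mem_top
      have h2 : (1 : zchClosure (A₀ := A₀) ({t⁻¹} : Set L)) ∈
          crossingIdeal (A₀ := A₀) {t⁻¹} Vinf hC₂inf ⊔ crossingIdeal (A₀ := A₀) {t⁻¹} V0 hC₂0 := by
        rw [hc₂]; exact Submodule.mem_top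
      obtain ⟨a₁, ha₁, b₁, hb₁, hab₁⟩ := Submodule.mem_sup.mp h1
      obtain ⟨a₂, ha₂, b₂, hb₂, hab₂⟩ := Submodule.mem_sup.mp h2
      exact crossing_not_comax hπ ht hcl Vinf V0 hAinf hA0 htinf htinf' ht0 ht0' hπinf hπ0 hSS1 hSS1'
        (a₁ : L) (b₁ : L) (a₂ : L) (b₂ : L) a₁.2 b₁.2 a₂.2 b₂.2 ha₁ hb₁ ha₂ hb₂
        (congrArg Subtype.val hab₁) (congrArg Subtype.val hab₂)
    · right
      obtain ⟨𝔫, h𝔫, hle⟩ := Ideal.exists_le_maximal _ hc₂
      exact ⟨𝔫, h𝔫, fun x hx => hle (Ideal.mem_sup_left hx),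
        fun x hx => hle (Ideal.mem_sup_right hx)⟩
  · left
    obtain ⟨𝔫, h𝔫, hle⟩ := Ideal.exists_le_maximal _ hc₁
    exact ⟨𝔫, h𝔫, fun x hx => hle (Ideal.mem_sup_left hx),
      fun x hx => hle (Ideal.mem_sup_right hx)⟩

end Main

end Fermat.Agent.UNIP
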