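/-
UNIP (S34/S35), direct route, piece AT-c1 "ASSEMBLY" (helper84): the abstract theorem (T′).

Chart setting for the function field `F / E(t)` over the DVR `A₀` (uniformizer `π`,
`E = Frac A₀` of characteristic `0`, `E` algebraically closed in `F`); charts
`B_t = zchClosure {t}`, `B_{t⁻¹} = zchClosure {t⁻¹}` (integral closures of `A₀[t]`, `A₀[t⁻¹]`);
`V : κ → ValuationSubring F` the vertical valuation rings (components of the special fibre).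

* `AtPt π u`        : the closed points of the special fibre of the chart `u` (maximal `𝔫 ∋ π`).
* `atO`, `atJ`, `atInc` : the data `O i = (B_u)_𝔫`, `J i = π (B_u)_𝔫`, `inc i c := 𝔪(V c) ∩ B_u ⊆ 𝔫`
  of `PwiShape` on `ι = AtPt π t ⊕ AtPt π t⁻¹`.
* `at_local_factor` : Step 1 at a closed point of a chart (`ls_local_factor_chart` for the chart
  `zchClosure {u}` with `vert` = the traces of the `V c`).
* `at_pwiShape`     : `(τ − 1)(σ − 1) u` has the shape `PwiShape V atO atJ atInc m`.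
* `at_hP`           : every `w` of shape `p` is a `p`-th power (`ad_hP`).
* `at_pow_of_shape` : shape `p ^ r` ⇒ `p ^ r`-th power (connected special fibre).
* `at_main`         : **(T′)**  `∃ h, h ^ (p ^ r) = τ (σ u / u) / (σ u / u)`, for a connected special
  fibre (`hconn`).
* `at_main_two`     : the same for two components `Vinf`, `V0` (`hconn` from D7 Crossing).
-/
import Fermat.Agent.UNIP.Adapter
import Fermat.Agent.UNIP.LocalShapeChart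
import Fermat.Agent.UNIP.Crossing
import Fermat.Agent.UNIP.ATSmall

set_option autoImplicit false
set_option linter.unusedSectionVars false
set_option linter.unusedVariables false
set_option linter.style.haveILetI false

namespace Fermat.Agent.UNIP

open Polynomial IntermediateField Fermat.Agent.INJ AlgebraicCurve

section Chart

variable {A₀ E F : Type*} [CommRing A₀] [IsDomain A₀] [IsDiscreteValuationRing A₀]
  [Field E] [Algebra A₀ E] [IsFractionRing A₀ E] [CharZero E]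
  [Field F] [Algebra E F] [Algebra A₀ F] [IsScalarTower A₀ E F]
  {π : A₀} {κ : Type*}

/-- The trace of the maximal ideal of a valuation ring on a chart is a prime ideal. -/
theorem at_crossingIdeal_isPrime {S : Set F} (W : ValuationSubring F)
    (hW : ∀ x : F, IsIntegral (Algebra.adjoin A₀ S) x → x ∈ W) :
    (crossingIdeal (A₀ := A₀) S W hW).IsPrime := by
  refine ⟨fun h => ?_, fun {x y} hxy => ?_⟩
  · have h1 : (1 : zchClosure (A₀ := A₀) S) ∈ crossingIdeal (A₀ := A₀) S W hW := by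
      rw [h]; exact Submodule.mem_top
    exact crossing_one_not_mem_nonunits W h1
  · by_contra hcon
    rw [not_or] at hcon
    obtain ⟨hx, hy⟩ := hcon
    have hx1 : W.valuation (x : F) = 1 := ats_valuation_eq_one W (hW _ x.2) hx
    have hy1 : W.valuation (y : F) = 1 := ats_valuation_eq_one W (hW _ y.2) hy
    have hxy' : W.valuation ((x : F) * (y : F)) < 1 :=
      (ValuationSubring.mem_nonunits_iff W).mp hxy
    rw [map_mul, hx1, hy1, one_mul] at hxy'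
    exact lt_irrefl _ hxy'

/-- **(T′b) Step 1 at a closed point of the chart `u`, general automorphism.**  `𝔫` a prime of
`B_u = zchClosure {u}` containing `π`; `g` fixes `u`, preserves `B_u` and `𝔫` (together with
`g⁻¹`), and preserves the vertical valuations.  If the places of the tube of `𝔫` moved by `g` in
the support of `x` have multiplicity divisible by `m` and coordinate functions, then
`x = x₁ · g₀ ^ m` with `g x₁ / x₁` a unit of `(B_u)_𝔫`. -/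
theorem at_local_factor (hπ : Irreducible π) {u : F} (hu : Transcendental E u)
    [FiniteDimensional E⟮u⟯ F] [Finite κ] (V : κ → ValuationSubring F)
    (hBV : ∀ c (b : F), IsIntegral ↥(Algebra.adjoin A₀ {u}) b → b ∈ V c)
    (hπV : ∀ c, algebraMap A₀ F π ∈ (V c).nonunits)
    (hSS1 : ∀ b : F, IsIntegral ↥(Algebra.adjoin A₀ {u}) b → (∀ c, b ∈ (V c).nonunits) →
      ∃ b' : F, IsIntegral ↥(Algebra.adjoin A₀ {u}) b' ∧ b = algebraMap A₀ F π * b')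
    (hVloc : ∀ c (x : F), x ∈ V c → ∃ b s : F, IsIntegral ↥(Algebra.adjoin A₀ {u}) b ∧
      IsIntegral ↥(Algebra.adjoin A₀ {u}) s ∧ s ∉ (V c).nonunits ∧ s * x = b)
    (g : SemilinearAut E F) (hgu : g • u = u)
    (𝔫 : Ideal ↥(zchClosure (A₀ := A₀) ({u} : Set F))) [𝔫.IsPrime]
    (hgB : ∀ b : ↥(zchClosure (A₀ := A₀) ({u} : Set F)), b ∈ 𝔫 →
      ∃ b' : ↥(zchClosure (A₀ := A₀) ({u} : Set F)), b' ∈ 𝔫 ∧ g • (b : F) = b')
    (hgB' : ∀ b : ↥(zchClosure (A₀ := A₀) ({u} : Set F)), b ∈ 𝔫 →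
      ∃ b' : ↥(zchClosure (A₀ := A₀) ({u} : Set F)), b' ∈ 𝔫 ∧ g⁻¹ • (b : F) = b')
    (hgB₀ : ∀ b : F, IsIntegral ↥(Algebra.adjoin A₀ {u}) b →
      IsIntegral ↥(Algebra.adjoin A₀ {u}) (g • b))
    (hgB₀' : ∀ b : F, IsIntegral ↥(Algebra.adjoin A₀ {u}) b →
      IsIntegral ↥(Algebra.adjoin A₀ {u}) (g⁻¹ • b))
    (hgV : ∀ c (f : F), f ≠ 0 → (V c).valuation (g • f / f) = 1)
    {x : F} (hx : x ≠ 0) (m : ℕ)
    (hfin : {P : Place E F | LsTube ↥(zchClosure (A₀ := A₀) ({u} : Set F)) u 𝔫 P ∧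
      g • P ≠ P ∧ P.ord x ≠ 0}.Finite)
    (hm : ∀ P : Place E F, LsTube ↥(zchClosure (A₀ := A₀) ({u} : Set F)) u 𝔫 P → g • P ≠ P →
      (m : ℤ) ∣ P.ord x)
    (hcoord : ∀ P : Place E F, LsTube ↥(zchClosure (A₀ := A₀) ({u} : Set F)) u 𝔫 P →
      g • P ≠ P → P.ord x ≠ 0 → ∃ f : F, f ≠ 0 ∧ P.ord f = 1 ∧
        ∀ Q : Place E F, LsTube ↥(zchClosure (A₀ := A₀) ({u} : Set F)) u 𝔫 Q → g • Q ≠ Q →
          Q ≠ P → Q.ord f = 0) :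
    ∃ g₀ e : F, g₀ ≠ 0 ∧ e ∈ ls_localSubring (F := F) 𝔫 ∧ e⁻¹ ∈ ls_localSubring (F := F) 𝔫 ∧
      (g • (x / g₀ ^ m)) / (x / g₀ ^ m) = e := by
  classical
  haveI : Fintype κ := Fintype.ofFinite κ
  set B := ↥(zchClosure (A₀ := A₀) ({u} : Set F)) with hBdef
  have hinj : Function.Injective (algebraMap B F) := Subtype.val_injective
  have hB : ∀ y : F, y ∈ (algebraMap B F).range ↔ IsIntegral (Algebra.adjoin A₀ {u}) y := by
    intro y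
    constructor
    · rintro ⟨b, rfl⟩
      exact mem_zchClosure.mp b.2
    · intro hy
      exact ⟨⟨y, mem_zchClosure.mpr hy⟩, rfl⟩
  set ϖ : B := algebraMap A₀ B π with hϖdef
  have hϖ : algebraMap B F ϖ = algebraMap A₀ F π := rfl
  set vert : Finset (Ideal B) :=
    Finset.univ.image (fun c : κ => crossingIdeal (A₀ := A₀) {u} (V c) (hBV c)) with hvert
  have hvert_mem : ∀ 𝔭 ∈ vert, ∃ c : κ, 𝔭 = crossingIdeal (A₀ := A₀) {u} (V c) (hBV c) := by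
    intro 𝔭 h𝔭
    obtain ⟨c, -, hc⟩ := Finset.mem_image.mp h𝔭
    exact ⟨c, hc.symm⟩
  have hprime : ∀ 𝔭 ∈ vert, 𝔭.IsPrime := by
    intro 𝔭 h𝔭
    obtain ⟨c, rfl⟩ := hvert_mem 𝔭 h𝔭
    exact at_crossingIdeal_isPrime (V c) (hBV c)
  have hϖv : ∀ 𝔭 ∈ vert, ϖ ∈ 𝔭 := by
    intro 𝔭 h𝔭
    obtain ⟨c, rfl⟩ := hvert_mem 𝔭 h𝔭
    exact hπV c
  have hSS1' : ∀ y : B, (∀ 𝔭 ∈ vert, y ∈ 𝔭) → ϖ ∣ y := by
    intro y hy
    obtain ⟨b', hb', hyb'⟩ := hSS1 (y : F) (mem_zchClosure.mp y.2) (fun c =>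
      hy _ (Finset.mem_image.mpr ⟨c, Finset.mem_univ c, rfl⟩))
    exact ⟨⟨b', mem_zchClosure.mpr hb'⟩, Subtype.ext hyb'⟩
  have hgB₁ : ∀ b : B, ∃ b' : B, g • algebraMap B F b = algebraMap B F b' := fun b =>
    ⟨⟨g • (b : F), mem_zchClosure.mpr (hgB₀ _ (mem_zchClosure.mp b.2))⟩, rfl⟩
  have hgB₁' : ∀ b : B, ∃ b' : B, g⁻¹ • algebraMap B F b = algebraMap B F b' := fun b =>
    ⟨⟨g⁻¹ • (b : F), mem_zchClosure.mpr (hgB₀' _ (mem_zchClosure.mp b.2))⟩, rfl⟩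
  have hgV' : ∀ 𝔭 ∈ vert, 𝔭 ≤ 𝔫 → ∀ f : F, f ≠ 0 →
      ∃ s s' : B, s ∉ 𝔭 ∧ s' ∉ 𝔭 ∧ algebraMap B F s * (g • f / f) = algebraMap B F s' := by
    intro 𝔭 h𝔭 _ f hf
    obtain ⟨c, rfl⟩ := hvert_mem 𝔭 h𝔭
    haveI := at_crossingIdeal_isPrime (A₀ := A₀) (S := {u}) (V c) (hBV c)
    refine ls_vertical_unit_of_valuation hinj _ (V c) ?_ (hgV c f hf)
    intro y hy
    obtain ⟨b, s, hb, hs, hsV, hsy⟩ := hVloc c y hy
    exact ⟨⟨b, mem_zchClosure.mpr hb⟩, ⟨s, mem_zchClosure.mpr hs⟩, hsV, hsy⟩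
  exact ls_local_factor_chart hπ u hu hinj hB ϖ hϖ 𝔫 vert hprime hϖv hSS1' g hgu hgB hgB'
    hgB₁ hgB₁' hgV' hx m hfin hm hcoord

/-- `g` is trivial modulo `π` on the chart `u`: `g b = b + π c` for `b ∈ B_u` (with `c ∈ B_u`). -/
def AtTrivMod (π : A₀) (u : F) (g : SemilinearAut E F) : Prop :=
  ∀ b : F, IsIntegral ↥(Algebra.adjoin A₀ {u}) b →
    ∃ c : F, IsIntegral ↥(Algebra.adjoin A₀ {u}) c ∧ g • b = b + algebraMap A₀ F π * c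

theorem AtTrivMod.isIntegral {u : F} {g : SemilinearAut E F} (hg : AtTrivMod π u g) {b : F}
    (hb : IsIntegral ↥(Algebra.adjoin A₀ {u}) b) :
    IsIntegral ↥(Algebra.adjoin A₀ {u}) (g • b) := by
  obtain ⟨c, hc, hgc⟩ := hg b hb
  rw [hgc]
  exact (zchClosure (A₀ := A₀) ({u} : Set F)).add_mem (mem_zchClosure.mpr hb)
    ((zchClosure (A₀ := A₀) ({u} : Set F)).mul_mem
      ((zchClosure (A₀ := A₀) ({u} : Set F)).algebraMap_mem π) (mem_zchClosure.mpr hc))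

theorem AtTrivMod.mem {u : F} {g : SemilinearAut E F} (hg : AtTrivMod π u g)
    (𝔫 : Ideal ↥(zchClosure (A₀ := A₀) ({u} : Set F)))
    (hπ𝔫 : algebraMap A₀ ↥(zchClosure (A₀ := A₀) ({u} : Set F)) π ∈ 𝔫)
    (b : ↥(zchClosure (A₀ := A₀) ({u} : Set F))) (hb : b ∈ 𝔫) :
    ∃ b' : ↥(zchClosure (A₀ := A₀) ({u} : Set F)), b' ∈ 𝔫 ∧ g • (b : F) = b' := by
  obtain ⟨c, hc, hgc⟩ := hg (b : F) (mem_zchClosure.mp b.2)
  exact ⟨b + algebraMap A₀ ↥(zchClosure (A₀ := A₀) ({u} : Set F)) π *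
      (⟨c, mem_zchClosure.mpr hc⟩ : ↥(zchClosure (A₀ := A₀) ({u} : Set F))),
    𝔫.add_mem hb (𝔫.mul_mem_right _ hπ𝔫), hgc⟩

/-- a trivial-mod-`π` automorphism, in the form `hτB` of `ls_tau_localSubring` -/
theorem AtTrivMod.chart {u : F} {g : SemilinearAut E F} (hg : AtTrivMod π u g)
    (b : ↥(zchClosure (A₀ := A₀) ({u} : Set F))) :
    ∃ c : ↥(zchClosure (A₀ := A₀) ({u} : Set F)),
      (SemilinearAut.toRingAut g : F ≃+* F).toRingHom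
          (algebraMap ↥(zchClosure (A₀ := A₀) ({u} : Set F)) F b) =
        algebraMap ↥(zchClosure (A₀ := A₀) ({u} : Set F)) F
          (b + algebraMap A₀ ↥(zchClosure (A₀ := A₀) ({u} : Set F)) π * c) := by
  obtain ⟨c, hc, hgc⟩ := hg (b : F) (mem_zchClosure.mp b.2)
  exact ⟨⟨c, mem_zchClosure.mpr hc⟩, hgc⟩

/-- `AtTrivMod` for the inverse chart: if `g` fixes `t` it fixes `t⁻¹`. -/
theorem at_smul_inv {t : F} {g : SemilinearAut E F} (hgt : g • t = t) : g • t⁻¹ = t⁻¹ := by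
  rw [smul_inv'' g t, hgt]

end Chart

section Main

variable {A₀ E F : Type*} [CommRing A₀] [IsDomain A₀] [IsDiscreteValuationRing A₀]
  [Field E] [Algebra A₀ E] [IsFractionRing A₀ E] [CharZero E]
  [Field F] [Algebra E F] [Algebra A₀ F] [IsScalarTower A₀ E F]
  {κ : Type*}

/-- The closed points of the special fibre of the chart `u`: the maximal ideals `𝔫 ∋ π` of
`B_u = zchClosure {u}`. -/
def AtPt (π : A₀) (u : F) : Type _ :=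
  {𝔫 : Ideal ↥(zchClosure (A₀ := A₀) ({u} : Set F)) //
    𝔫.IsMaximal ∧ algebraMap A₀ ↥(zchClosure (A₀ := A₀) ({u} : Set F)) π ∈ 𝔫}

/-- The local ring `(B_u)_𝔫 ⊆ F` at a closed point. -/
def atLoc {π : A₀} {u : F} (𝔫 : AtPt (F := F) π u) : Subring F :=
  ls_localSubring (F := F) (h𝔫 := 𝔫.2.1.isPrime) 𝔫.1

/-- The ideal `π (B_u)_𝔫`. -/
def atLocIdeal {π : A₀} {u : F} (𝔫 : AtPt (F := F) π u) : Ideal (atLoc 𝔫) :=
  haveI := 𝔫.2.1.isPrime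
  ls_localIdeal (F := F) 𝔫.1 (algebraMap A₀ ↥(zchClosure (A₀ := A₀) ({u} : Set F)) π)

/-- The component `W` passes through the closed point `𝔫`: `𝔪_W ∩ B_u ⊆ 𝔫`. -/
def atThrough {π : A₀} {u : F} (𝔫 : AtPt (F := F) π u) (W : ValuationSubring F) : Prop :=
  ∀ b : ↥(zchClosure (A₀ := A₀) ({u} : Set F)), (b : F) ∈ W.nonunits → b ∈ 𝔫.1

/-- `O i` of `PwiShape` on `ι = AtPt π t ⊕ AtPt π t⁻¹`. -/
def atO (π : A₀) (t : F) : AtPt (F := F) π t ⊕ AtPt (F := F) π t⁻¹ → Subring F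
  | Sum.inl 𝔫 => atLoc 𝔫
  | Sum.inr 𝔫 => atLoc 𝔫

/-- `J i` of `PwiShape`. -/
def atJ (π : A₀) (t : F) : (i : AtPt (F := F) π t ⊕ AtPt (F := F) π t⁻¹) → Ideal (atO π t i)
  | Sum.inl 𝔫 => atLocIdeal 𝔫
  | Sum.inr 𝔫 => atLocIdeal 𝔫

/-- `inc i c` of `PwiShape`. -/
def atInc (π : A₀) (t : F) (V : κ → ValuationSubring F) :
    AtPt (F := F) π t ⊕ AtPt (F := F) π t⁻¹ → κ → Prop
  | Sum.inl 𝔫, c => atThrough 𝔫 (V c)
  | Sum.inr 𝔫, c => atThrough 𝔫 (V c)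

variable {π : A₀}

/-- `F / E(t⁻¹)` is finite. -/
theorem at_finiteDimensional_of_eq {K K' : IntermediateField E F} (h : K = K')
    [FiniteDimensional K F] : FiniteDimensional K' F := by
  subst h; infer_instance

theorem at_finiteDimensional_inv (t : F) [FiniteDimensional E⟮t⟯ F] :
    FiniteDimensional E⟮t⁻¹⟯ F :=
  at_finiteDimensional_of_eq (zch_adjoin_inv t)

/-- the chart `B_u` is integrally closed in `F` -/
theorem at_chart_integrallyClosed (u : F) (x : F)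
    (hx : IsIntegral ↥(zchClosure (A₀ := A₀) ({u} : Set F)) x) :
    x ∈ (algebraMap ↥(zchClosure (A₀ := A₀) ({u} : Set F)) F).range := by
  have h1 : IsIntegral ↥(integralClosure ↥(Algebra.adjoin A₀ ({u} : Set F)) F) x := by
    obtain ⟨q, hq, hqx⟩ := hx
    let f : ↥(zchClosure (A₀ := A₀) ({u} : Set F)) →+*
        ↥(integralClosure ↥(Algebra.adjoin A₀ ({u} : Set F)) F) :=
      { toFun := fun b => ⟨b.1, b.2⟩
        map_one' := rfl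
        map_mul' := fun _ _ => rfl
        map_zero' := rfl
        map_add' := fun _ _ => rfl }
    refine ⟨q.map f, hq.map f, ?_⟩
    rw [eval₂_map]
    exact hqx
  have h2 : IsIntegral ↥(Algebra.adjoin A₀ ({u} : Set F)) x := isIntegral_trans x h1
  exact ⟨⟨x, mem_zchClosure.mpr h2⟩, rfl⟩

/-- **The shape.**  `(τ − 1)(σ − 1) u` has the shape `PwiShape V atO atJ atInc m`. -/
theorem at_pwiShape (hπ : Irreducible π) {t : F} (ht : Transcendental E t)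
    [FiniteDimensional E⟮t⟯ F] [Finite κ] (V : κ → ValuationSubring F)
    (hBV₁ : ∀ c (b : F), IsIntegral ↥(Algebra.adjoin A₀ {t}) b → b ∈ V c)
    (hBV₂ : ∀ c (b : F), IsIntegral ↥(Algebra.adjoin A₀ {t⁻¹}) b → b ∈ V c)
    (hπV : ∀ c, algebraMap A₀ F π ∈ (V c).nonunits)
    (hSS1 : ∀ b : F, IsIntegral ↥(Algebra.adjoin A₀ {t}) b → (∀ c, b ∈ (V c).nonunits) →
      ∃ b' : F, IsIntegral ↥(Algebra.adjoin A₀ {t}) b' ∧ b = algebraMap A₀ F π * b')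
    (hVloc₁ : ∀ c (x : F), x ∈ V c → ∃ b s : F, IsIntegral ↥(Algebra.adjoin A₀ {t}) b ∧
      IsIntegral ↥(Algebra.adjoin A₀ {t}) s ∧ s ∉ (V c).nonunits ∧ s * x = b)
    (hVloc₂ : ∀ c (x : F), x ∈ V c → ∃ b s : F, IsIntegral ↥(Algebra.adjoin A₀ {t⁻¹}) b ∧
      IsIntegral ↥(Algebra.adjoin A₀ {t⁻¹}) s ∧ s ∉ (V c).nonunits ∧ s * x = b)
    (σ τ : SemilinearAut E F) (hσt : σ • t = t)
    (hσB₁ : AtTrivMod π t σ) (hσB₁' : AtTrivMod π t σ⁻¹)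
    (hσB₂ : AtTrivMod π t⁻¹ σ) (hσB₂' : AtTrivMod π t⁻¹ σ⁻¹)
    (hτB₁ : AtTrivMod π t τ) (hτB₂ : AtTrivMod π t⁻¹ τ)
    (hσV : ∀ c (f : F), f ≠ 0 → (V c).valuation (σ • f / f) = 1)
    (hτV : ∀ c (x : F), x ∈ V c → τ • x - x ∈ (V c).nonunits)
    {u : F} (hu : u ≠ 0) (m : ℕ)
    (hfin₁ : ∀ 𝔫 : AtPt (F := F) π t, {P : Place E F |
      LsTube ↥(zchClosure (A₀ := A₀) ({t} : Set F)) t 𝔫.1 P ∧ σ • P ≠ P ∧ P.ord u ≠ 0}.Finite)
    (hm₁ : ∀ 𝔫 : AtPt (F := F) π t, ∀ P : Place E F,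
      LsTube ↥(zchClosure (A₀ := A₀) ({t} : Set F)) t 𝔫.1 P → σ • P ≠ P → (m : ℤ) ∣ P.ord u)
    (hcoord₁ : ∀ 𝔫 : AtPt (F := F) π t, ∀ P : Place E F,
      LsTube ↥(zchClosure (A₀ := A₀) ({t} : Set F)) t 𝔫.1 P → σ • P ≠ P → P.ord u ≠ 0 →
      ∃ f : F, f ≠ 0 ∧ P.ord f = 1 ∧ ∀ Q : Place E F,
        LsTube ↥(zchClosure (A₀ := A₀) ({t} : Set F)) t 𝔫.1 Q → σ • Q ≠ Q → Q ≠ P →
          Q.ord f = 0)
    (hfin₂ : ∀ 𝔫 : AtPt (F := F) π t⁻¹, {P : Place E F |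
      LsTube ↥(zchClosure (A₀ := A₀) ({t⁻¹} : Set F)) t⁻¹ 𝔫.1 P ∧ σ • P ≠ P ∧
        P.ord u ≠ 0}.Finite)
    (hm₂ : ∀ 𝔫 : AtPt (F := F) π t⁻¹, ∀ P : Place E F,
      LsTube ↥(zchClosure (A₀ := A₀) ({t⁻¹} : Set F)) t⁻¹ 𝔫.1 P → σ • P ≠ P →
        (m : ℤ) ∣ P.ord u)
    (hcoord₂ : ∀ 𝔫 : AtPt (F := F) π t⁻¹, ∀ P : Place E F,
      LsTube ↥(zchClosure (A₀ := A₀) ({t⁻¹} : Set F)) t⁻¹ 𝔫.1 P → σ • P ≠ P → P.ord u ≠ 0 →
      ∃ f : F, f ≠ 0 ∧ P.ord f = 1 ∧ ∀ Q : Place E F,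
        LsTube ↥(zchClosure (A₀ := A₀) ({t⁻¹} : Set F)) t⁻¹ 𝔫.1 Q → σ • Q ≠ Q → Q ≠ P →
          Q.ord f = 0) :
    PwiShape V (atO π t) (atJ π t) (atInc π t V) m ((τ • (σ • u / u)) / (σ • u / u)) := by
  haveI : FiniteDimensional E⟮t⁻¹⟯ F := at_finiteDimensional_inv t
  have ht' : Transcendental E t⁻¹ := zch_transcendental_inv ht
  have hσt' : σ • t⁻¹ = t⁻¹ := at_smul_inv hσt
  have hSS1' := ats_SS1_inv ht hπ V hBV₁ hSS1
  refine ls_pwiShape V (atO π t) (atJ π t) (atInc π t V)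
    (SemilinearAut.toRingAut σ : F ≃+* F).toRingHom
    (SemilinearAut.toRingAut τ : F ≃+* F).toRingHom hσV hτV ?_ m hu ?_
  · rintro (𝔫 | 𝔫) x
    · haveI := 𝔫.2.1.isPrime
      exact ls_tau_localSubring Subtype.val_injective 𝔫.1 _ 𝔫.2.2 _ hτB₁.chart x
    · haveI := 𝔫.2.1.isPrime
      exact ls_tau_localSubring Subtype.val_injective 𝔫.1 _ 𝔫.2.2 _ hτB₂.chart x
  · rintro (𝔫 | 𝔫)
    · haveI := 𝔫.2.1.isPrime
      exact at_local_factor hπ ht V hBV₁ hπV hSS1 hVloc₁ σ hσt 𝔫.1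
        (hσB₁.mem 𝔫.1 𝔫.2.2) (hσB₁'.mem 𝔫.1 𝔫.2.2) (fun b hb => hσB₁.isIntegral hb)
        (fun b hb => hσB₁'.isIntegral hb) hσV hu m (hfin₁ 𝔫) (hm₁ 𝔫) (hcoord₁ 𝔫)
    · haveI := 𝔫.2.1.isPrime
      exact at_local_factor hπ ht' V hBV₂ hπV hSS1' hVloc₂ σ hσt' 𝔫.1
        (hσB₂.mem 𝔫.1 𝔫.2.2) (hσB₂'.mem 𝔫.1 𝔫.2.2) (fun b hb => hσB₂.isIntegral hb)
        (fun b hb => hσB₂'.isIntegral hb) hσV hu m (hfin₂ 𝔫) (hm₂ 𝔫) (hcoord₂ 𝔫)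

/-- **`hP`.**  Every `w` of shape `p` is a `p`-th power. -/
theorem at_hP (hπ : Irreducible π) {t : F} (ht : Transcendental E t)
    [FiniteDimensional E⟮t⟯ F]
    (hcl : ∀ x : F, IsAlgebraic E x → x ∈ (algebraMap E F).range)
    {p : ℕ} (hp : p.Prime) (hpu : IsUnit (p : A₀)) {ζ : A₀} (hζ : IsPrimitiveRoot ζ p)
    (hunit : ∀ a : A₀, IsUnit a → ∃ d : A₀, d ^ p = a)
    [Finite κ] (V : κ → ValuationSubring F)
    (hBV₁ : ∀ c (b : F), IsIntegral ↥(Algebra.adjoin A₀ {t}) b → b ∈ V c)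
    (hBV₂ : ∀ c (b : F), IsIntegral ↥(Algebra.adjoin A₀ {t⁻¹}) b → b ∈ V c)
    (hπV : ∀ c, algebraMap A₀ F π ∈ (V c).nonunits)
    (hSS1 : ∀ b : F, IsIntegral ↥(Algebra.adjoin A₀ {t}) b → (∀ c, b ∈ (V c).nonunits) →
      ∃ b' : F, IsIntegral ↥(Algebra.adjoin A₀ {t}) b' ∧ b = algebraMap A₀ F π * b')
    (harch : ∀ c (a x : F), a ∈ (V c).nonunits → ∃ N : ℕ, a ^ N * x ∈ (V c).nonunits)
    (w : F) (hw : PwiShape V (atO π t) (atJ π t) (atInc π t V) p w) : ∃ h : F, h ^ p = w := by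
  refine ad_hP hπ ht hcl hp hpu hζ (ats_hconst ht hπ V hBV₁ hπV hSS1 hp.pos hunit) V
    (atO π t) (atJ π t) (atInc π t V) hBV₁ hBV₂ hSS1 harch ?_ ?_ w hw
  · intro 𝔫 h𝔫 hπ𝔫
    refine ⟨Sum.inl ⟨𝔫, h𝔫, hπ𝔫⟩, fun x hx => ?_, fun c hc => ats_cov (V c) 𝔫 hc⟩
    obtain ⟨b, s, hs, hsx⟩ := hx
    exact ⟨b, s, hs, hsx⟩
  · intro 𝔫 h𝔫 hπ𝔫
    refine ⟨Sum.inr ⟨𝔫, h𝔫, hπ𝔫⟩, fun x hx => ?_, fun c hc => ats_cov (V c) 𝔫 hc⟩
    obtain ⟨b, s, hs, hsx⟩ := hx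
    exact ⟨b, s, hs, hsx⟩

/-- **Shape ⇒ power** (the second half of (T′), also used by phase 2).  In the chart setting with
connected special fibre, every `w` of shape `PwiShape V atO atJ atInc (p ^ r)` is a `p ^ r`-th power
in `F`. -/
theorem at_pow_of_shape (hπ : Irreducible π) {t : F} (ht : Transcendental E t)
    [FiniteDimensional E⟮t⟯ F]
    (hcl : ∀ x : F, IsAlgebraic E x → x ∈ (algebraMap E F).range)
    {p : ℕ} (hp : p.Prime) (hpu : IsUnit (p : A₀)) {ζ : A₀} (hζ : IsPrimitiveRoot ζ p)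
    (hunit : ∀ a : A₀, IsUnit a → ∃ d : A₀, d ^ p = a)
    [Finite κ] (V : κ → ValuationSubring F)
    (hBV₁ : ∀ c (b : F), IsIntegral ↥(Algebra.adjoin A₀ {t}) b → b ∈ V c)
    (hBV₂ : ∀ c (b : F), IsIntegral ↥(Algebra.adjoin A₀ {t⁻¹}) b → b ∈ V c)
    (hπV : ∀ c, algebraMap A₀ F π ∈ (V c).nonunits)
    (hSS1 : ∀ b : F, IsIntegral ↥(Algebra.adjoin A₀ {t}) b → (∀ c, b ∈ (V c).nonunits) →
      ∃ b' : F, IsIntegral ↥(Algebra.adjoin A₀ {t}) b' ∧ b = algebraMap A₀ F π * b')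
    (harch : ∀ c (a x : F), a ∈ (V c).nonunits → ∃ N : ℕ, a ^ N * x ∈ (V c).nonunits)
    (hconn : ∀ c c' : κ, Relation.ReflTransGen
      (fun a b => ∃ i, atInc π t V i a ∧ atInc π t V i b) c c')
    (r : ℕ) (w : F) (hw : PwiShape V (atO π t) (atJ π t) (atInc π t V) (p ^ r) w) :
    ∃ h : F, h ^ (p ^ r) = w := by
  have hSS1' := ats_SS1_inv ht hπ V hBV₁ hSS1
  have hAV : ∀ c (a : A₀), algebraMap A₀ F a ∈ V c := fun c a =>
    hBV₁ c _ (mem_zchClosure.mp ((zchClosure (A₀ := A₀) ({t} : Set F)).algebraMap_mem a))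
  have hζF : IsPrimitiveRoot (algebraMap A₀ F ζ) p :=
    hζ.map_of_injective (zch_algebraMap_injective (A₀ := A₀) (E := E) (L := F))
  refine pwi_exists_pow_eq (V := V) (O := atO π t) (J := atJ π t) (inc := atInc π t V)
    ?_ ?_ ?_ ?_ ?_ hconn hp.pos hζF ?_ ?_ ?_
    (at_hP hπ ht hcl hp hpu hζ hunit V hBV₁ hBV₂ hπV hSS1 harch) r w hw
  · rintro (𝔫 | 𝔫)
    · haveI := 𝔫.2.1.isPrime
      exact ls_localSubring_isLocalRing Subtype.val_injective 𝔫.1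
    · haveI := 𝔫.2.1.isPrime
      exact ls_localSubring_isLocalRing Subtype.val_injective 𝔫.1
  · rintro (𝔫 | 𝔫)
    · haveI := 𝔫.2.1.isPrime
      exact ls_localIdeal_ne_top Subtype.val_injective 𝔫.1 _ 𝔫.2.2
    · haveI := 𝔫.2.1.isPrime
      exact ls_localIdeal_ne_top Subtype.val_injective 𝔫.1 _ 𝔫.2.2
  · rintro (𝔫 | 𝔫)
    · haveI := 𝔫.2.1.isPrime
      exact ls_isIntegral_mem_localSubring (at_chart_integrallyClosed _) 𝔫.1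
    · haveI := 𝔫.2.1.isPrime
      exact ls_isIntegral_mem_localSubring (at_chart_integrallyClosed _) 𝔫.1
  · rintro (𝔫 | 𝔫) c hinc x hx
    · haveI := 𝔫.2.1.isPrime
      exact ats_hJV_chart (V c) (hBV₁ c) (hπV c) 𝔫.1 hinc x hx
    · haveI := 𝔫.2.1.isPrime
      exact ats_hJV_chart (V c) (hBV₂ c) (hπV c) 𝔫.1 hinc x hx
  · rintro (𝔫 | 𝔫)
    · haveI := 𝔫.2.1.isPrime
      exact ats_hpt_chart V hBV₁ hSS1 𝔫.1 𝔫.2.2
    · haveI := 𝔫.2.1.isPrime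
      exact ats_hpt_chart V hBV₂ hSS1' 𝔫.1 𝔫.2.2
  · rintro (𝔫 | 𝔫)
    · haveI := 𝔫.2.1.isPrime
      exact ats_hζO 𝔫.1 ζ
    · haveI := 𝔫.2.1.isPrime
      exact ats_hζO 𝔫.1 ζ
  · rintro (𝔫 | 𝔫) k hk0 hkp
    · haveI := 𝔫.2.1.isPrime
      exact ats_hζu 𝔫.1 hpu hζ hk0 hkp
    · haveI := 𝔫.2.1.isPrime
      exact ats_hζu 𝔫.1 hpu hζ hk0 hkp
  · intro c k hk0 hkp
    exact ats_hζV (V c) (hAV c) hpu hζ hk0 hkp

/-- **(T′), general form.**  Chart setting for `F / E(t)` over the DVR `A₀`, vertical valuation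
rings `V c` (`c ∈ κ` finite) with (SS1) on the chart `t`, `V c = (B_u)_{𝔭_c}` on both charts
(`hVloc`), connected special fibre (`hconn`); `p` a prime invertible in `A₀`, `ζ ∈ A₀` a primitive
`p`-th root of unity, the units of `A₀` are `p`-th powers.  `σ`, `τ` semilinear automorphisms
fixing `t`, trivial modulo `π` on the charts, `σ` preserving the vertical valuations and `τ` trivial
on their residue fields.  If `u ≠ 0` has, at every closed point `𝔫` of the special fibre, in the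
tube of `𝔫`: finitely many places moved by `σ` in its support, all of multiplicity divisible by
`p ^ r` and all with a coordinate function (`hcoord`), then `(τ − 1)(σ − 1) u` is a `p ^ r`-th
power in `F`. -/
theorem at_main (hπ : Irreducible π) {t : F} (ht : Transcendental E t)
    [FiniteDimensional E⟮t⟯ F]
    (hcl : ∀ x : F, IsAlgebraic E x → x ∈ (algebraMap E F).range)
    {p : ℕ} (hp : p.Prime) (hpu : IsUnit (p : A₀)) {ζ : A₀} (hζ : IsPrimitiveRoot ζ p)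
    (hunit : ∀ a : A₀, IsUnit a → ∃ d : A₀, d ^ p = a)
    [Finite κ] (V : κ → ValuationSubring F)
    (hBV₁ : ∀ c (b : F), IsIntegral ↥(Algebra.adjoin A₀ {t}) b → b ∈ V c)
    (hBV₂ : ∀ c (b : F), IsIntegral ↥(Algebra.adjoin A₀ {t⁻¹}) b → b ∈ V c)
    (hπV : ∀ c, algebraMap A₀ F π ∈ (V c).nonunits)
    (hSS1 : ∀ b : F, IsIntegral ↥(Algebra.adjoin A₀ {t}) b → (∀ c, b ∈ (V c).nonunits) →
      ∃ b' : F, IsIntegral ↥(Algebra.adjoin A₀ {t}) b' ∧ b = algebraMap A₀ F π * b')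
    (harch : ∀ c (a x : F), a ∈ (V c).nonunits → ∃ N : ℕ, a ^ N * x ∈ (V c).nonunits)
    (hVloc₁ : ∀ c (x : F), x ∈ V c → ∃ b s : F, IsIntegral ↥(Algebra.adjoin A₀ {t}) b ∧
      IsIntegral ↥(Algebra.adjoin A₀ {t}) s ∧ s ∉ (V c).nonunits ∧ s * x = b)
    (hVloc₂ : ∀ c (x : F), x ∈ V c → ∃ b s : F, IsIntegral ↥(Algebra.adjoin A₀ {t⁻¹}) b ∧
      IsIntegral ↥(Algebra.adjoin A₀ {t⁻¹}) s ∧ s ∉ (V c).nonunits ∧ s * x = b)
    (hconn : ∀ c c' : κ, Relation.ReflTransGen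
      (fun a b => ∃ i, atInc π t V i a ∧ atInc π t V i b) c c')
    (σ τ : SemilinearAut E F) (hσt : σ • t = t)
    (hσB₁ : AtTrivMod π t σ) (hσB₁' : AtTrivMod π t σ⁻¹)
    (hσB₂ : AtTrivMod π t⁻¹ σ) (hσB₂' : AtTrivMod π t⁻¹ σ⁻¹)
    (hτB₁ : AtTrivMod π t τ) (hτB₂ : AtTrivMod π t⁻¹ τ)
    (hσV : ∀ c (f : F), f ≠ 0 → (V c).valuation (σ • f / f) = 1)
    (hτV : ∀ c (x : F), x ∈ V c → τ • x - x ∈ (V c).nonunits)
    {u : F} (hu : u ≠ 0) (r : ℕ)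
    (hfin₁ : ∀ 𝔫 : AtPt (F := F) π t, {P : Place E F |
      LsTube ↥(zchClosure (A₀ := A₀) ({t} : Set F)) t 𝔫.1 P ∧ σ • P ≠ P ∧ P.ord u ≠ 0}.Finite)
    (hm₁ : ∀ 𝔫 : AtPt (F := F) π t, ∀ P : Place E F,
      LsTube ↥(zchClosure (A₀ := A₀) ({t} : Set F)) t 𝔫.1 P → σ • P ≠ P →
        ((p ^ r : ℕ) : ℤ) ∣ P.ord u)
    (hcoord₁ : ∀ 𝔫 : AtPt (F := F) π t, ∀ P : Place E F,
      LsTube ↥(zchClosure (A₀ := A₀) ({t} : Set F)) t 𝔫.1 P → σ • P ≠ P → P.ord u ≠ 0 →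
      ∃ f : F, f ≠ 0 ∧ P.ord f = 1 ∧ ∀ Q : Place E F,
        LsTube ↥(zchClosure (A₀ := A₀) ({t} : Set F)) t 𝔫.1 Q → σ • Q ≠ Q → Q ≠ P →
          Q.ord f = 0)
    (hfin₂ : ∀ 𝔫 : AtPt (F := F) π t⁻¹, {P : Place E F |
      LsTube ↥(zchClosure (A₀ := A₀) ({t⁻¹} : Set F)) t⁻¹ 𝔫.1 P ∧ σ • P ≠ P ∧
        P.ord u ≠ 0}.Finite)
    (hm₂ : ∀ 𝔫 : AtPt (F := F) π t⁻¹, ∀ P : Place E F,
      LsTube ↥(zchClosure (A₀ := A₀) ({t⁻¹} : Set F)) t⁻¹ 𝔫.1 P → σ • P ≠ P →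
        ((p ^ r : ℕ) : ℤ) ∣ P.ord u)
    (hcoord₂ : ∀ 𝔫 : AtPt (F := F) π t⁻¹, ∀ P : Place E F,
      LsTube ↥(zchClosure (A₀ := A₀) ({t⁻¹} : Set F)) t⁻¹ 𝔫.1 P → σ • P ≠ P → P.ord u ≠ 0 →
      ∃ f : F, f ≠ 0 ∧ P.ord f = 1 ∧ ∀ Q : Place E F,
        LsTube ↥(zchClosure (A₀ := A₀) ({t⁻¹} : Set F)) t⁻¹ 𝔫.1 Q → σ • Q ≠ Q → Q ≠ P →
          Q.ord f = 0) :
    ∃ h : F, h ^ (p ^ r) = (τ • (σ • u / u)) / (σ • u / u) :=
  at_pow_of_shape hπ ht hcl hp hpu hζ hunit V hBV₁ hBV₂ hπV hSS1 harch hconn r _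
    (at_pwiShape hπ ht V hBV₁ hBV₂ hπV hSS1 hVloc₁ hVloc₂ σ τ hσt hσB₁ hσB₁' hσB₂ hσB₂'
      hτB₁ hτB₂ hσV hτV hu (p ^ r) hfin₁ hm₁ hcoord₁ hfin₂ hm₂ hcoord₂)

/-- **`hconn` for two components** (D7 Crossing): if `κ = {c∞, c0}`, the two components meet at a
closed point of one of the two charts. -/
theorem at_hconn_two (hπ : Irreducible π) {t : F} (ht : Transcendental E t)
    [FiniteDimensional E⟮t⟯ F]
    (hcl : ∀ x : F, IsAlgebraic E x → x ∈ (algebraMap E F).range)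
    (V : κ → ValuationSubring F)
    (hBV₁ : ∀ c (b : F), IsIntegral ↥(Algebra.adjoin A₀ {t}) b → b ∈ V c)
    (hBV₂ : ∀ c (b : F), IsIntegral ↥(Algebra.adjoin A₀ {t⁻¹}) b → b ∈ V c)
    (hπV : ∀ c, algebraMap A₀ F π ∈ (V c).nonunits)
    (hSS1 : ∀ b : F, IsIntegral ↥(Algebra.adjoin A₀ {t}) b → (∀ c, b ∈ (V c).nonunits) →
      ∃ b' : F, IsIntegral ↥(Algebra.adjoin A₀ {t}) b' ∧ b = algebraMap A₀ F π * b')
    (c₁ c₂ : κ) (hκ : ∀ c, c = c₁ ∨ c = c₂) :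
    ∀ c c' : κ, Relation.ReflTransGen
      (fun a b => ∃ i, atInc π t V i a ∧ atInc π t V i b) c c' := by
  have hSS1' := ats_SS1_inv ht hπ V hBV₁ hSS1
  have hA : ∀ c (a : A₀), algebraMap A₀ F a ∈ V c := fun c a =>
    hBV₁ c _ (mem_zchClosure.mp ((zchClosure (A₀ := A₀) ({t} : Set F)).algebraMap_mem a))
  have htV : ∀ c, t ∈ V c := fun c =>
    hBV₁ c _ (isIntegral_algebraMap (R := ↥(Algebra.adjoin A₀ ({t} : Set F)))
      (x := ⟨t, Algebra.subset_adjoin (Set.mem_singleton t)⟩))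
  have htV' : ∀ c, t⁻¹ ∈ V c := fun c =>
    hBV₂ c _ (isIntegral_algebraMap (R := ↥(Algebra.adjoin A₀ ({t⁻¹} : Set F)))
      (x := ⟨t⁻¹, Algebra.subset_adjoin (Set.mem_singleton t⁻¹)⟩))
  have hall : ∀ {x : F}, x ∈ (V c₁).nonunits → x ∈ (V c₂).nonunits →
      ∀ c, x ∈ (V c).nonunits := by
    intro x h1 h2 c
    rcases hκ c with rfl | rfl
    · exact h1
    · exact h2
  have hcross := crossing_exists_maximal hπ ht hcl (V c₁) (V c₂) (hA c₁) (hA c₂) (htV c₁)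
    (htV' c₁) (htV c₂) (htV' c₂) (hπV c₁) (hπV c₂)
    (fun x hx h1 h2 => hSS1 x hx (hall h1 h2)) (fun x hx h1 h2 => hSS1' x hx (hall h1 h2))
  have key : ∃ i, atInc π t V i c₁ ∧ atInc π t V i c₂ := by
    rcases hcross with ⟨𝔫, h𝔫, h1, h2⟩ | ⟨𝔫, h𝔫, h1, h2⟩
    · exact ⟨Sum.inl ⟨𝔫, h𝔫, h1 _ (hπV c₁)⟩, h1, h2⟩
    · exact ⟨Sum.inr ⟨𝔫, h𝔫, h1 _ (hπV c₁)⟩, h1, h2⟩
  obtain ⟨i, hi1, hi2⟩ := key
  have hi : ∀ c, atInc π t V i c := by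
    intro c
    rcases hκ c with rfl | rfl
    · exact hi1
    · exact hi2
  intro c c'
  exact Relation.ReflTransGen.single ⟨i, hi c, hi c'⟩

/-- **(T′) for two components**, with the global hypotheses on `div u`: finite support and
`p ^ r ∣ ord_P u` at every place. -/
theorem at_main_two (hπ : Irreducible π) {t : F} (ht : Transcendental E t)
    [FiniteDimensional E⟮t⟯ F]
    (hcl : ∀ x : F, IsAlgebraic E x → x ∈ (algebraMap E F).range)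
    {p : ℕ} (hp : p.Prime) (hpu : IsUnit (p : A₀)) {ζ : A₀} (hζ : IsPrimitiveRoot ζ p)
    (hunit : ∀ a : A₀, IsUnit a → ∃ d : A₀, d ^ p = a)
    [Finite κ] (V : κ → ValuationSubring F) (c₁ c₂ : κ) (hκ : ∀ c, c = c₁ ∨ c = c₂)
    (hBV₁ : ∀ c (b : F), IsIntegral ↥(Algebra.adjoin A₀ {t}) b → b ∈ V c)
    (hBV₂ : ∀ c (b : F), IsIntegral ↥(Algebra.adjoin A₀ {t⁻¹}) b → b ∈ V c)
    (hπV : ∀ c, algebraMap A₀ F π ∈ (V c).nonunits)
    (hSS1 : ∀ b : F, IsIntegral ↥(Algebra.adjoin A₀ {t}) b → (∀ c, b ∈ (V c).nonunits) →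
      ∃ b' : F, IsIntegral ↥(Algebra.adjoin A₀ {t}) b' ∧ b = algebraMap A₀ F π * b')
    (harch : ∀ c (a x : F), a ∈ (V c).nonunits → ∃ N : ℕ, a ^ N * x ∈ (V c).nonunits)
    (hVloc₁ : ∀ c (x : F), x ∈ V c → ∃ b s : F, IsIntegral ↥(Algebra.adjoin A₀ {t}) b ∧
      IsIntegral ↥(Algebra.adjoin A₀ {t}) s ∧ s ∉ (V c).nonunits ∧ s * x = b)
    (hVloc₂ : ∀ c (x : F), x ∈ V c → ∃ b s : F, IsIntegral ↥(Algebra.adjoin A₀ {t⁻¹}) b ∧
      IsIntegral ↥(Algebra.adjoin A₀ {t⁻¹}) s ∧ s ∉ (V c).nonunits ∧ s * x = b)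
    (σ τ : SemilinearAut E F) (hσt : σ • t = t)
    (hσB₁ : AtTrivMod π t σ) (hσB₁' : AtTrivMod π t σ⁻¹)
    (hσB₂ : AtTrivMod π t⁻¹ σ) (hσB₂' : AtTrivMod π t⁻¹ σ⁻¹)
    (hτB₁ : AtTrivMod π t τ) (hτB₂ : AtTrivMod π t⁻¹ τ)
    (hσV : ∀ c (f : F), f ≠ 0 → (V c).valuation (σ • f / f) = 1)
    (hτV : ∀ c (x : F), x ∈ V c → τ • x - x ∈ (V c).nonunits)
    {u : F} (hu : u ≠ 0) (r : ℕ)
    (hfin : {P : Place E F | P.ord u ≠ 0}.Finite)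
    (hm : ∀ P : Place E F, ((p ^ r : ℕ) : ℤ) ∣ P.ord u)
    (hcoord₁ : ∀ 𝔫 : AtPt (F := F) π t, ∀ P : Place E F,
      LsTube ↥(zchClosure (A₀ := A₀) ({t} : Set F)) t 𝔫.1 P → σ • P ≠ P → P.ord u ≠ 0 →
      ∃ f : F, f ≠ 0 ∧ P.ord f = 1 ∧ ∀ Q : Place E F,
        LsTube ↥(zchClosure (A₀ := A₀) ({t} : Set F)) t 𝔫.1 Q → σ • Q ≠ Q → Q ≠ P →
          Q.ord f = 0)
    (hcoord₂ : ∀ 𝔫 : AtPt (F := F) π t⁻¹, ∀ P : Place E F,
      LsTube ↥(zchClosure (A₀ := A₀) ({t⁻¹} : Set F)) t⁻¹ 𝔫.1 P → σ • P ≠ P → P.ord u ≠ 0 →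
      ∃ f : F, f ≠ 0 ∧ P.ord f = 1 ∧ ∀ Q : Place E F,
        LsTube ↥(zchClosure (A₀ := A₀) ({t⁻¹} : Set F)) t⁻¹ 𝔫.1 Q → σ • Q ≠ Q → Q ≠ P →
          Q.ord f = 0) :
    ∃ h : F, h ^ (p ^ r) = (τ • (σ • u / u)) / (σ • u / u) :=
  at_main hπ ht hcl hp hpu hζ hunit V hBV₁ hBV₂ hπV hSS1 harch hVloc₁ hVloc₂
    (at_hconn_two hπ ht hcl V hBV₁ hBV₂ hπV hSS1 c₁ c₂ hκ) σ τ hσt hσB₁ hσB₁' hσB₂ hσB₂'
    hτB₁ hτB₂ hσV hτV hu r
    (fun 𝔫 => hfin.subset fun P hP => hP.2.2) (fun 𝔫 P _ _ => hm P) hcoord₁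
    (fun 𝔫 => hfin.subset fun P hP => hP.2.2) (fun 𝔫 P _ _ => hm P) hcoord₂

end Main

end Fermat.Agent.UNIP
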