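/-
UNIP (item 34, S34/S35), complement of "FrStab" (helper20): the Frobenius lift on `A₀ = A ∩ E₀`.

`A` a valuation subring of `L` (think `L = ℚ̄`) over the prime `ℓ`, `τ` a Frobenius element at `A`,
`E₀ ⊆ L` an intermediate field stable under `σ` (in the application `σ = τ⁻¹`).
`A₀ := A.comap (algebraMap E₀ L)` (`= A ∩ E₀`, a valuation subring of `E₀`), `k₀` its residue field.

* `frobLiftField σ hE : E₀ →+* E₀`, `frobLiftRing σ hσ hE : A₀ →+* A₀` : the restrictions of `σ`;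
* `frobLift_residue_pow` : `residue (τ⁻¹ a) ^ ℓ = residue a` in `k₀`;
* `frobLift_residue` : `residue (τ⁻¹ a) = θ (residue a)` for every `θ : k₀ →+* k₀` with
  `(θ x) ^ ℓ = x` (the inverse of the Frobenius of `k₀`);
* `frobLift_charP` : `k₀` has characteristic `ℓ`.
These are the hypotheses `hψ`, `hθ` of `UNIP/FrStab.lean` for `ψE = frobLiftField`,
`ψA = frobLiftRing`, `ι = algebraMap A₀ E₀ = Subtype.val`, `r = residue`.
-/
import Fermat.Agent.ES.Kronecker

set_option autoImplicit false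
set_option linter.unusedSectionVars false
set_option linter.unusedVariables false

noncomputable section

namespace Fermat.Agent.UNIP

open Fermat.Agent.ES

variable {K L : Type*} [Field K] [Field L] [Algebra K L] (A : ValuationSubring L)
  (E₀ : IntermediateField K L)

/-- restriction of `σ` to a `σ`-stable intermediate field -/
def frobLiftField (σ : L ≃ₐ[K] L) (hE : ∀ x ∈ E₀, σ x ∈ E₀) : E₀ →+* E₀ where
  toFun x := ⟨σ x, hE x x.2⟩
  map_one' := Subtype.ext (map_one σ)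
  map_mul' x y := Subtype.ext (map_mul σ _ _)
  map_zero' := Subtype.ext (map_zero σ)
  map_add' x y := Subtype.ext (map_add σ _ _)

@[simp] theorem frobLiftField_coe (σ : L ≃ₐ[K] L) (hE : ∀ x ∈ E₀, σ x ∈ E₀) (x : E₀) :
    ((frobLiftField E₀ σ hE x : E₀) : L) = σ x := rfl

theorem frobLift_mem (σ : L ≃ₐ[K] L) (hσ : σ ∈ A.decompositionSubgroup K)
    (hE : ∀ x ∈ E₀, σ x ∈ E₀) (a : A.comap (algebraMap E₀ L)) :
    frobLiftField E₀ σ hE (a : E₀) ∈ A.comap (algebraMap E₀ L) := by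
  rw [ValuationSubring.mem_comap]
  have ha : ((a : E₀) : L) ∈ A := a.2
  exact (kronDecompHom σ hσ ⟨_, ha⟩).2

/-- restriction of `σ` (in the decomposition group of `A`) to `A₀ = A ∩ E₀` -/
def frobLiftRing (σ : L ≃ₐ[K] L) (hσ : σ ∈ A.decompositionSubgroup K)
    (hE : ∀ x ∈ E₀, σ x ∈ E₀) :
    A.comap (algebraMap E₀ L) →+* A.comap (algebraMap E₀ L) where
  toFun a := ⟨frobLiftField E₀ σ hE (a : E₀), frobLift_mem A E₀ σ hσ hE a⟩
  map_one' := Subtype.ext (map_one (frobLiftField E₀ σ hE))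
  map_mul' x y := Subtype.ext (map_mul (frobLiftField E₀ σ hE) _ _)
  map_zero' := Subtype.ext (map_zero (frobLiftField E₀ σ hE))
  map_add' x y := Subtype.ext (map_add (frobLiftField E₀ σ hE) _ _)

@[simp] theorem frobLiftRing_coe (σ : L ≃ₐ[K] L) (hσ : σ ∈ A.decompositionSubgroup K)
    (hE : ∀ x ∈ E₀, σ x ∈ E₀) (a : A.comap (algebraMap E₀ L)) :
    ((frobLiftRing A E₀ σ hσ hE a : A.comap (algebraMap E₀ L)) : E₀) =
      frobLiftField E₀ σ hE (a : E₀) := rfl

/-- compatibility `hψ` of `FrStab`: `ψE (ι a) = ι (ψA a)` -/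
theorem frobLift_compat (σ : L ≃ₐ[K] L) (hσ : σ ∈ A.decompositionSubgroup K)
    (hE : ∀ x ∈ E₀, σ x ∈ E₀) (a : A.comap (algebraMap E₀ L)) :
    frobLiftField E₀ σ hE ((A.comap (algebraMap E₀ L)).subtype a) =
      (A.comap (algebraMap E₀ L)).subtype (frobLiftRing A E₀ σ hσ hE a) := rfl

/-- the inclusion `A₀ → A` -/
def frobLiftIncl : A.comap (algebraMap E₀ L) →+* A where
  toFun a := ⟨((a : E₀) : L), a.2⟩
  map_one' := rfl
  map_mul' _ _ := rfl
  map_zero' := rfl
  map_add' _ _ := rfl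

theorem frobLiftIncl_coe (a : A.comap (algebraMap E₀ L)) :
    ((frobLiftIncl A E₀ a : A) : L) = ((a : E₀) : L) := rfl

instance frobLiftIncl_isLocalHom : IsLocalHom (frobLiftIncl A E₀) := by
  constructor
  intro a ha
  obtain ⟨u, hu⟩ := ha
  have hinv : ((u⁻¹ : Aˣ) : A) * frobLiftIncl A E₀ a = 1 := by
    rw [← hu]; exact u.inv_mul
  have hL : (((u⁻¹ : Aˣ) : A) : L) * ((a : E₀) : L) = 1 := by
    exact congrArg (Subtype.val) hinv
  have ha0 : ((a : E₀) : L) ≠ 0 := right_ne_zero_of_mul_eq_one hL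
  have ha0' : (a : E₀) ≠ 0 := fun h => ha0 (by rw [h]; rfl)
  have hval : (((u⁻¹ : Aˣ) : A) : L) = ((a : E₀) : L)⁻¹ := eq_inv_of_mul_eq_one_left hL
  have hmem : (a : E₀)⁻¹ ∈ A.comap (algebraMap E₀ L) := by
    rw [ValuationSubring.mem_comap]
    show (((a : E₀)⁻¹ : E₀) : L) ∈ A
    rw [IntermediateField.coe_inv, ← hval]
    exact ((u⁻¹ : Aˣ) : A).2
  refine isUnit_iff_exists_inv.mpr ⟨⟨(a : E₀)⁻¹, hmem⟩, ?_⟩
  apply Subtype.ext
  show (a : E₀) * (a : E₀)⁻¹ = 1
  exact mul_inv_cancel₀ ha0'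

/-- `k₀ → k_A` -/
def frobLiftResMap : IsLocalRing.ResidueField (A.comap (algebraMap E₀ L)) →+*
    IsLocalRing.ResidueField A :=
  IsLocalRing.ResidueField.map (frobLiftIncl A E₀)

theorem frobLiftResMap_residue (a : A.comap (algebraMap E₀ L)) :
    frobLiftResMap A E₀ (IsLocalRing.residue _ a) = IsLocalRing.residue A (frobLiftIncl A E₀ a) :=
  rfl

theorem frobLiftResMap_injective : Function.Injective (frobLiftResMap A E₀) :=
  (frobLiftResMap A E₀).injective

/-- the residue field of `A₀` has characteristic `ℓ` -/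
theorem frobLift_charP {ℓ : ℕ} (hℓ : ℓ.Prime) (hA : A.LiesOverPrime ℓ) :
    CharP (IsLocalRing.ResidueField (A.comap (algebraMap E₀ L))) ℓ := by
  have := kron_charP_residueField (A := A) hℓ hA
  exact (frobLiftResMap A E₀).charP (frobLiftResMap_injective A E₀) ℓ

/-- `residue (τ⁻¹ a) ^ ℓ = residue a` in the residue field of `A₀` -/
theorem frobLift_residue_pow {ℓ : ℕ} (τ : L ≃ₐ[K] L) (hτ : A.IsFrobeniusAt τ ℓ)
    (hE : ∀ x ∈ E₀, τ.symm x ∈ E₀) (a : A.comap (algebraMap E₀ L)) :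
    (IsLocalRing.residue _ (frobLiftRing A E₀ τ.symm
      (kron_symm_mem_decomposition hτ.mem_decompositionSubgroup) hE a)) ^ ℓ =
      IsLocalRing.residue _ a := by
  apply frobLiftResMap_injective A E₀
  rw [map_pow, frobLiftResMap_residue, frobLiftResMap_residue]
  have h := kron_residue_frobenius τ hτ (frobLiftIncl A E₀ (frobLiftRing A E₀ τ.symm
      (kron_symm_mem_decomposition hτ.mem_decompositionSubgroup) hE a))
  rw [← h]
  congr 1
  apply Subtype.ext
  show τ (τ.symm ((a : E₀) : L)) = ((a : E₀) : L)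
  exact τ.apply_symm_apply _

/-- hypothesis `hθ` of `FrStab`: `r (ψA a) = θ (r a)` for the inverse Frobenius `θ` of `k₀` -/
theorem frobLift_residue {ℓ : ℕ} (hℓ : ℓ.Prime) (hA : A.LiesOverPrime ℓ) (τ : L ≃ₐ[K] L)
    (hτ : A.IsFrobeniusAt τ ℓ) (hE : ∀ x ∈ E₀, τ.symm x ∈ E₀)
    (θ : IsLocalRing.ResidueField (A.comap (algebraMap E₀ L)) →+*
      IsLocalRing.ResidueField (A.comap (algebraMap E₀ L)))
    (hθ : ∀ x, θ x ^ ℓ = x) (a : A.comap (algebraMap E₀ L)) :
    IsLocalRing.residue _ (frobLiftRing A E₀ τ.symm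
      (kron_symm_mem_decomposition hτ.mem_decompositionSubgroup) hE a) =
      θ (IsLocalRing.residue _ a) := by
  have := frobLift_charP A E₀ hℓ hA
  have : Fact ℓ.Prime := ⟨hℓ⟩
  apply frobenius_inj (IsLocalRing.ResidueField (A.comap (algebraMap E₀ L))) ℓ
  rw [frobenius_def, frobenius_def, frobLift_residue_pow A E₀ τ hτ hE a, hθ]

end Fermat.Agent.UNIP
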