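import Fermat.Agent.UNIP.NodesSwapKron

/-!
# UNIP / U5 (Nodes), piece SWAP, part 4 (helper6): the chart `1/j`

Setting of `NodesSwap.lean` / `NodesSwapJ.lean`; `u = J⁻¹`, `T = Jq⁻¹ = w u`,
`ℓ = cuspEll Φ_q ∈ ℤ[X]` (the reverse of `Φ_q(X, 0)`), `L = ℓ(u) = nodesSwapL E M q hq`.

* `nodesSwap_L_isIntegral`, `nodesSwap_LT_isIntegral` : `L` and `L · Jq⁻¹` are integral over
  `A[J⁻¹]` (`cusp_isIntegral_ell_mul_int` of helper92);
* `nodesSwap_chartInv : IsIntegral A[J⁻¹] x → ∃ N, IsIntegral A[J⁻¹] (L ^ N * w x)`;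
* `nodesSwapL_mem`, `nodesSwap_gaussRed_L`, `nodesSwap_wL_mem`, `nodesSwap_gaussRed_wL` :
  `L, w L ∈ G`, `ρ L = 1 = ρ (w L)` in residue characteristic `q`;
* `nodesSwap_swap_Jinv` : **(SWAP) on the chart `1/j`**, for every coordinate `t : F` whose series
  is `j⁻¹`: `∀ b : B_t, ∃ b' : B_t, ρ b' = ρ₀ b ∧ ρ₀ b' = ρ b` (`b' = L ^ N * w b`);
* `nodesSwap_swapGen_Jinv` : the generator form: `b₁ ∈ B_t` with `ρ b₁ = j̄(Q^q)⁻¹ (= ρ₀ t)`,
  `ρ₀ b₁ = j̄⁻¹ (= ρ t)`.
-/

set_option autoImplicit false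
set_option linter.unusedSectionVars false
set_option linter.style.haveILetI false

noncomputable section

namespace Fermat.Agent.UNIP

open ModularCurve Polynomial IntermediateField Fermat.Agent.INJ Fermat.Agent.AL Fermat.Agent.S28

section ChartInv

variable {A E k : Type*} [CommRing A] [IsDomain A] [Field E] [Algebra A E] [IsFractionRing A E]
  [Field k] (r : A →+* k) (ιC : E →+* ℂ) {π : A}
  {q M : ℕ} [NeZero q] [NeZero M] [NeZero (M * q)] (hq : q.Prime) (hqM : ¬ q ∣ M)
  [Algebra A (modularFunctionFieldFullC E (M * q))]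
  [IsScalarTower A E (modularFunctionFieldFullC E (M * q))]

/-- `L = ℓ(1/j) ∈ F_{Mq}`, `ℓ` the reverse of `Φ_q(X, 0)`. -/
def nodesSwapL (E : Type*) [Field E] (M q : ℕ) [NeZero q] [NeZero M] [NeZero (M * q)]
    (hq : q.Prime) : modularFunctionFieldFullC E (M * q) :=
  (cuspEll (nodesSwapPhi q hq)).eval₂ (Int.castRingHom (modularFunctionFieldFullC E (M * q)))
    (nodesFrobJ E M q)⁻¹

theorem nodesSwapL_coe :
    ((nodesSwapL E M q hq : modularFunctionFieldFullC E (M * q)) : LaurentSeries E) =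
      (cuspEll (nodesSwapPhi q hq)).eval₂ (Int.castRingHom (LaurentSeries E)) (jqModC E)⁻¹ :=
  nodesSwap_map_eval₂_int (modularFunctionFieldFullC E (M * q)).val.toRingHom
    (nodesFrobJ E M q)⁻¹ (cuspEll (nodesSwapPhi q hq))

theorem nodesSwap_w_L :
    atkinLehner E ιC hq hqM (nodesSwapL E M q hq) =
      (cuspEll (nodesSwapPhi q hq)).eval₂
        (Int.castRingHom (modularFunctionFieldFullC E (M * q))) (nodesFrobJq E M q)⁻¹ := by
  have h := nodesSwap_map_eval₂_int (atkinLehner E ιC hq hqM).toRingEquiv.toRingHom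
    (nodesFrobJ E M q)⁻¹ (cuspEll (nodesSwapPhi q hq))
  have h2 : (atkinLehner E ιC hq hqM).toRingEquiv.toRingHom (nodesFrobJ E M q)⁻¹ =
      (nodesFrobJq E M q)⁻¹ := by
    show atkinLehner E ιC hq hqM (nodesFrobJ E M q)⁻¹ = (nodesFrobJq E M q)⁻¹
    rw [map_inv₀, nodesFrob_atkinLehner_J]
  rw [h2] at h
  exact h

theorem nodesSwap_w_L_coe :
    ((atkinLehner E ιC hq hqM (nodesSwapL E M q hq) : modularFunctionFieldFullC E (M * q)) :
      LaurentSeries E) =
      (cuspEll (nodesSwapPhi q hq)).eval₂ (Int.castRingHom (LaurentSeries E))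
        (qExpand E q (jqModC E))⁻¹ := by
  rw [nodesSwap_w_L]
  exact nodesSwap_map_eval₂_int (modularFunctionFieldFullC E (M * q)).val.toRingHom
    (nodesFrobJq E M q)⁻¹ (cuspEll (nodesSwapPhi q hq))

theorem nodesSwap_J_ne_zero : nodesFrobJ E M q ≠ 0 := by
  intro h
  have h1 := congrArg (fun z : modularFunctionFieldFullC E (M * q) => (z : LaurentSeries E)) h
  exact jqModC_ne_zero_of_nontrivial E h1

theorem nodesSwap_Jq_ne_zero : nodesFrobJq E M q ≠ 0 := by
  intro h
  have h1 := congrArg (fun z : modularFunctionFieldFullC E (M * q) => (z : LaurentSeries E)) h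
  have h2 : qExpand E q (jqModC E) = 0 := h1
  exact jqModC_ne_zero_of_nontrivial E ((map_eq_zero_iff _ (qExpand E q).injective).mp h2)

/-- `L` is integral over `A[J⁻¹]`. -/
theorem nodesSwap_L_isIntegral :
    IsIntegral (Algebra.adjoin A {(nodesFrobJ E M q)⁻¹}) (nodesSwapL E M q hq) :=
  nodesSwap_eval₂_int_isIntegral (A := A) (S := modularFunctionFieldFullC E (M * q))
    (nodesFrobJ E M q)⁻¹ (cuspEll (nodesSwapPhi q hq))

/-- `L · Jq⁻¹` is integral over `A[J⁻¹]`. -/
theorem nodesSwap_LT_isIntegral :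
    IsIntegral (Algebra.adjoin A {(nodesFrobJ E M q)⁻¹})
      (nodesSwapL E M q hq * (nodesFrobJq E M q)⁻¹) := by
  have h := cusp_isIntegral_ell_mul_int (A := A) (F := modularFunctionFieldFullC E (M * q))
    (nodesSwapPhi q hq) (evalInt (nodesFrobJq E M q)) (b := nodesFrobJ E M q)
    (by rw [evalInt_X]; exact nodesSwap_Jq_ne_zero (E := E) (M := M) (q := q))
    (nodesSwap_J_ne_zero (E := E) (M := M) (q := q)) (nodesSwapPhi_eval' q hq E M)
  rw [evalInt_X, nodesSwap_aeval_int_eq] at h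
  exact h

/-- **The chart `1/j`**: `x` integral over `A[J⁻¹]` ⟹ `L ^ N · w x` integral over `A[J⁻¹]`. -/
theorem nodesSwap_chartInv {x : modularFunctionFieldFullC E (M * q)}
    (hx : IsIntegral (Algebra.adjoin A {(nodesFrobJ E M q)⁻¹}) x) :
    ∃ N : ℕ, IsIntegral (Algebra.adjoin A {(nodesFrobJ E M q)⁻¹})
      (nodesSwapL E M q hq ^ N * atkinLehner E ιC hq hqM x) := by
  have h1 := nodesSwap_isIntegral_w (A := A) (E := E) (M := M) (q := q) ιC hq hqM
    (t := (nodesFrobJ E M q)⁻¹) (x := x) hx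
  rw [map_inv₀, nodesFrob_atkinLehner_J] at h1
  exact cusp_exists_pow_mul_isIntegral (A := A) (F := modularFunctionFieldFullC E (M * q))
    (nodesFrobJ E M q)⁻¹ (nodesFrobJq E M q)⁻¹ (nodesSwapL E M q hq)
    (nodesSwap_L_isIntegral (A := A) (E := E) (M := M) (q := q) hq)
    (nodesSwap_LT_isIntegral (A := A) (E := E) (M := M) (q := q) hq) h1

/-- `L` lies in the Gauss ring. -/
theorem nodesSwapL_mem :
    ((nodesSwapL E M q hq : modularFunctionFieldFullC E (M * q)) : LaurentSeries E) ∈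
      gaussRing (algebraMap A E) r := by
  rw [nodesSwapL_coe]
  exact nodesSwap_eval₂_mem_gaussRing (A := A) (E := E) r
    (nodesFrobU_jinv_mem (A := A) (E := E) r) _

/-- `w L` lies in the Gauss ring. -/
theorem nodesSwap_wL_mem :
    ((atkinLehner E ιC hq hqM (nodesSwapL E M q hq) : modularFunctionFieldFullC E (M * q)) :
      LaurentSeries E) ∈ gaussRing (algebraMap A E) r := by
  rw [nodesSwap_w_L_coe]
  exact nodesSwap_eval₂_mem_gaussRing (A := A) (E := E) r
    (nodesFrobU_jninv_mem (A := A) (E := E) r q) _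

/-- **`ρ L = 1`** in residue characteristic `q`. -/
theorem nodesSwap_gaussRed_L [CharP k q]
    (h : ((nodesSwapL E M q hq : modularFunctionFieldFullC E (M * q)) : LaurentSeries E) ∈
      gaussRing (algebraMap A E) r) :
    gaussRed r (IsFractionRing.injective A E) ⟨_, h⟩ = 1 := by
  have hmem : (cuspEll (nodesSwapPhi q hq)).eval₂ (Int.castRingHom (LaurentSeries E))
      (jqModC E)⁻¹ ∈ gaussRing (algebraMap A E) r :=
    nodesSwap_eval₂_mem_gaussRing (A := A) (E := E) r (nodesFrobU_jinv_mem (A := A) (E := E) r) _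
  rw [← nodesSwap_gaussRed_cuspEll (A := A) (E := E) r q hq
    (nodesFrobU_jinv_mem (A := A) (E := E) r) hmem]
  congr 1
  exact Subtype.ext (nodesSwapL_coe (E := E) (M := M) (q := q) hq)

/-- **`ρ (w L) = 1`** in residue characteristic `q`. -/
theorem nodesSwap_gaussRed_wL [CharP k q]
    (h : ((atkinLehner E ιC hq hqM (nodesSwapL E M q hq) : modularFunctionFieldFullC E (M * q)) :
      LaurentSeries E) ∈ gaussRing (algebraMap A E) r) :
    gaussRed r (IsFractionRing.injective A E) ⟨_, h⟩ = 1 := by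
  have hmem : (cuspEll (nodesSwapPhi q hq)).eval₂ (Int.castRingHom (LaurentSeries E))
      (qExpand E q (jqModC E))⁻¹ ∈ gaussRing (algebraMap A E) r :=
    nodesSwap_eval₂_mem_gaussRing (A := A) (E := E) r
      (nodesFrobU_jninv_mem (A := A) (E := E) r q) _
  rw [← nodesSwap_gaussRed_cuspEll (A := A) (E := E) r q hq
    (nodesFrobU_jninv_mem (A := A) (E := E) r q) hmem]
  congr 1
  exact Subtype.ext (nodesSwap_w_L_coe (E := E) (M := M) (q := q) ιC hq hqM)

set_option synthInstance.maxHeartbeats 400000 in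
/-- **(SWAP) on the chart `1/j`**: `b' = L ^ N * w_q b`. -/
theorem nodesSwap_swap_Jinv [WfDvdMonoid A] [CharP k q] (hπ0 : π ≠ 0) (hπ : ¬ IsUnit π)
    (hr : ∀ a, r a = 0 → π ∣ a) (hrπ : r π = 0)
    (t : modularFunctionFieldFullC E (M * q)) (htj : (t : LaurentSeries E) = (jqModC E)⁻¹)
    (ht : (t : LaurentSeries E) ∈ gaussRing (algebraMap A E) r)
    (hwt : (((atkinLehner E ιC hq hqM).toAlgHom t :
      modularFunctionFieldFullC E (M * q)) : LaurentSeries E) ∈ gaussRing (algebraMap A E) r)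
    (b : integralClosure (Algebra.adjoin A {t}) (modularFunctionFieldFullC E (M * q))) :
    ∃ b' : integralClosure (Algebra.adjoin A {t}) (modularFunctionFieldFullC E (M * q)),
      nodesFrobChartRed (A := A) (E := E) r hπ0 hπ hr hrπ
          (nodesFrob_full_le (A := A) (E := E) (M * q)) t ht b' =
        nodesSwapRho₀ (A := A) (E := E) r hπ0 hπ hr hrπ
          (nodesFrob_full_le (A := A) (E := E) (M * q))
          (atkinLehner E ιC hq hqM).toAlgHom t hwt b ∧
      nodesSwapRho₀ (A := A) (E := E) r hπ0 hπ hr hrπ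
          (nodesFrob_full_le (A := A) (E := E) (M * q))
          (atkinLehner E ιC hq hqM).toAlgHom t hwt b' =
        nodesFrobChartRed (A := A) (E := E) r hπ0 hπ hr hrπ
          (nodesFrob_full_le (A := A) (E := E) (M * q)) t ht b := by
  obtain rfl : t = (nodesFrobJ E M q)⁻¹ := Subtype.ext htj
  obtain ⟨N, hN⟩ := nodesSwap_chartInv (A := A) (E := E) (M := M) (q := q) ιC hq hqM b.2
  have hbG : (((b : modularFunctionFieldFullC E (M * q)) : LaurentSeries E)) ∈
      gaussRing (algebraMap A E) r :=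
    nodesFrob_G1_id (A := A) (E := E) r hπ0 hπ hr hrπ
      (nodesFrob_full_le (A := A) (E := E) (M * q)) (nodesFrobJ E M q)⁻¹ ht b.2
  have hwbG : ((atkinLehner E ιC hq hqM (b : modularFunctionFieldFullC E (M * q)) :
      modularFunctionFieldFullC E (M * q)) : LaurentSeries E) ∈ gaussRing (algebraMap A E) r :=
    nodesFrob_G1 (A := A) (E := E) r hπ0 hπ hr hrπ
      (nodesFrob_full_le (A := A) (E := E) (M * q)) (atkinLehner E ιC hq hqM).toAlgHom
      (nodesFrobJ E M q)⁻¹ hwt b.2
  have hLG := nodesSwapL_mem (A := A) (E := E) (M := M) (q := q) r hq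
  have hwLG := nodesSwap_wL_mem (A := A) (E := E) (M := M) (q := q) r ιC hq hqM
  refine ⟨⟨nodesSwapL E M q hq ^ N * atkinLehner E ιC hq hqM
    (b : modularFunctionFieldFullC E (M * q)), hN⟩, ?_, ?_⟩
  · have e : ∀ h, (⟨((nodesSwapL E M q hq ^ N * atkinLehner E ιC hq hqM
        (b : modularFunctionFieldFullC E (M * q)) : modularFunctionFieldFullC E (M * q)) :
          LaurentSeries E), h⟩ : gaussRing (algebraMap A E) r) =
        ⟨_, hLG⟩ ^ N * ⟨_, hwbG⟩ := fun h => Subtype.ext rfl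
    show gaussRed r (IsFractionRing.injective A E)
        ⟨((nodesSwapL E M q hq ^ N * atkinLehner E ιC hq hqM
          (b : modularFunctionFieldFullC E (M * q)) : modularFunctionFieldFullC E (M * q)) :
            LaurentSeries E), _⟩ =
      gaussRed r (IsFractionRing.injective A E) ⟨_, hwbG⟩
    rw [e, map_mul, map_pow, nodesSwap_gaussRed_L (A := A) (E := E) (M := M) (q := q) r hq hLG,
      one_pow, one_mul]
  · have hw : atkinLehner E ιC hq hqM (nodesSwapL E M q hq ^ N * atkinLehner E ιC hq hqM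
        (b : modularFunctionFieldFullC E (M * q))) =
        atkinLehner E ιC hq hqM (nodesSwapL E M q hq) ^ N *
          (b : modularFunctionFieldFullC E (M * q)) := by
      rw [map_mul, map_pow, atkinLehner_invol]
    have e : ∀ h, (⟨((atkinLehner E ιC hq hqM (nodesSwapL E M q hq ^ N *
        atkinLehner E ιC hq hqM (b : modularFunctionFieldFullC E (M * q))) :
          modularFunctionFieldFullC E (M * q)) : LaurentSeries E), h⟩ :
          gaussRing (algebraMap A E) r) = ⟨_, hwLG⟩ ^ N * ⟨_, hbG⟩ := fun h =>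
      Subtype.ext (congrArg (fun z : modularFunctionFieldFullC E (M * q) =>
        (z : LaurentSeries E)) hw)
    show gaussRed r (IsFractionRing.injective A E)
        ⟨((atkinLehner E ιC hq hqM (nodesSwapL E M q hq ^ N *
          atkinLehner E ιC hq hqM (b : modularFunctionFieldFullC E (M * q))) :
            modularFunctionFieldFullC E (M * q)) : LaurentSeries E), _⟩ =
      gaussRed r (IsFractionRing.injective A E) ⟨_, hbG⟩
    rw [e, map_mul, map_pow,
      nodesSwap_gaussRed_wL (A := A) (E := E) (M := M) (q := q) r ιC hq hqM hwLG,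
      one_pow, one_mul]

set_option synthInstance.maxHeartbeats 400000 in
/-- **(SWAP) of the coordinate, chart `1/j`**: there is `b₁` in the chart with
`ρ b₁ = j̄(Q^q)⁻¹ (= ρ₀ t)` and `ρ₀ b₁ = j̄⁻¹ (= ρ t)`. -/
theorem nodesSwap_swapGen_Jinv [WfDvdMonoid A] [CharP k q] (hπ0 : π ≠ 0) (hπ : ¬ IsUnit π)
    (hr : ∀ a, r a = 0 → π ∣ a) (hrπ : r π = 0)
    (t : modularFunctionFieldFullC E (M * q)) (htj : (t : LaurentSeries E) = (jqModC E)⁻¹)
    (ht : (t : LaurentSeries E) ∈ gaussRing (algebraMap A E) r)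
    (hwt : (((atkinLehner E ιC hq hqM).toAlgHom t :
      modularFunctionFieldFullC E (M * q)) : LaurentSeries E) ∈ gaussRing (algebraMap A E) r) :
    ∃ b₁ : integralClosure (Algebra.adjoin A {t}) (modularFunctionFieldFullC E (M * q)),
      nodesFrobChartRed (A := A) (E := E) r hπ0 hπ hr hrπ
          (nodesFrob_full_le (A := A) (E := E) (M * q)) t ht b₁ =
        (qExpand k q (jqModC k))⁻¹ ∧
      nodesSwapRho₀ (A := A) (E := E) r hπ0 hπ hr hrπ
          (nodesFrob_full_le (A := A) (E := E) (M * q))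
          (atkinLehner E ιC hq hqM).toAlgHom t hwt b₁ = (jqModC k)⁻¹ := by
  have htB : IsIntegral (Algebra.adjoin A {t}) t := by
    have h : t = algebraMap (Algebra.adjoin A {t}) (modularFunctionFieldFullC E (M * q))
        ⟨t, Algebra.subset_adjoin rfl⟩ := rfl
    rw [h]
    exact isIntegral_algebraMap
  obtain ⟨b₁, h1, h2⟩ := nodesSwap_swap_Jinv (A := A) (E := E) (M := M) (q := q) r ιC hq hqM
    hπ0 hπ hr hrπ t htj ht hwt ⟨t, htB⟩
  refine ⟨b₁, ?_, ?_⟩
  · rw [h1]
    have hw : ((atkinLehner E ιC hq hqM t : modularFunctionFieldFullC E (M * q)) :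
        LaurentSeries E) = (qExpand E q (jqModC E))⁻¹ := by
      obtain rfl : t = (nodesFrobJ E M q)⁻¹ := Subtype.ext htj
      rw [map_inv₀, nodesFrob_atkinLehner_J]
      rfl
    have hm : (qExpand E q (jqModC E))⁻¹ ∈ gaussRing (algebraMap A E) r :=
      nodesFrobU_jninv_mem (A := A) (E := E) r q
    rw [← nodesFrobU_gaussRed_jninv (A := A) (E := E) r q hm]
    show gaussRed r (IsFractionRing.injective A E)
      ⟨((atkinLehner E ιC hq hqM t : modularFunctionFieldFullC E (M * q)) :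
        LaurentSeries E), _⟩ = _
    congr 1
    exact Subtype.ext hw
  · rw [h2]
    have hm : (jqModC E)⁻¹ ∈ gaussRing (algebraMap A E) r :=
      nodesFrobU_jinv_mem (A := A) (E := E) r
    rw [← nodesFrobU_gaussRed_jinv (A := A) (E := E) r hm]
    show gaussRed r (IsFractionRing.injective A E) ⟨(t : LaurentSeries E), _⟩ = _
    congr 1
    exact Subtype.ext htj

end ChartInv

end Fermat.Agent.UNIP
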