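import Fermat.Agent.UNIP.MGVertInertia
import Fermat.Agent.UNIP.NodesSwapJ
import Fermat.Agent.UNIP.NodesSwapInv
import Fermat.Agent.UNIP.NodesFrobU
import Fermat.Agent.UNIP.FrobLift

/-!
# UNIP MG-8 "Vert", part 3: `V c` is the localisation of the charts (`hVloc₁`, `hVloc₂`)

* `vtSubRed hB e hfrac : ↥(vtSub hB e hfrac) →+* k((Q))` : the reduction map of the vertical
  valuation ring, `vtSubRed_eq_zero_iff` (kernel = maximal ideal);
* `vt_hVloc_of_ss1` : **abstract step** — chart `B_u` (integral closure of `A₀[u]`), two valuation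
  rings `V true`, `V false ⊇ B_u`, (SS1), primitive polynomials in `u` are units of `V c`, and
  separating elements `z_c ∈ B_u`, `z_c ∈ 𝔪(V (!c)) ∖ 𝔪(V c)`; then every `x ∈ V c` is `b / s`,
  `b, s ∈ B_u`, `s ∉ 𝔪(V c)`;
* `vtSub_prim` : primitive polynomials in `u` are units of `V c` if the reduction of `u` is
  transcendental;
* `vt_sep_of_red` : separating elements from a swap pair `(t, b₁)`;
* `mgv_hVloc₁`, `mgv_hVloc₂` : the hypotheses `hVloc₁`, `hVloc₂` of `mgc_main` for `V = mgvV`,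
  from (SS1) on the chart `j`.
-/

set_option autoImplicit false
set_option linter.unusedSectionVars false
set_option linter.style.haveILetI false

noncomputable section

namespace Fermat.Agent.UNIP

open ModularCurve AlgebraicCurve Fermat.Agent.ES Fermat.Agent.ES.G2 Fermat.Agent.INJ
open Fermat.Agent.AL Polynomial IntermediateField

section Red

variable {A E k : Type*} [CommRing A] [Field E] [Field k]
  {ι : A →+* E} {r : A →+* k} {π : A} {F : Type*} [Field F]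
  (hB : VtBase ι r π) (e : F →+* LaurentSeries E) (hfrac : ∀ x : F, VtFrac ι (e x))

/-- The reduction map of the vertical valuation ring. -/
def vtSubRed : ↥(vtSub hB e hfrac) →+* LaurentSeries k :=
  (gaussRed r hB.inj).comp
    ((e.comp (vtSub hB e hfrac).subtype).codRestrict (gaussRing ι r) (fun x => x.2))

theorem vtSubRed_apply (x : ↥(vtSub hB e hfrac)) :
    vtSubRed hB e hfrac x = gaussRed r hB.inj ⟨e (x : F), x.2⟩ := rfl

/-- the kernel of the reduction is the maximal ideal -/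
theorem vtSubRed_eq_zero_iff (x : ↥(vtSub hB e hfrac)) :
    vtSubRed hB e hfrac x = 0 ↔ (x : F) ∈ (vtSub hB e hfrac).nonunits := by
  rw [vtSub_mem_nonunits_iff]
  exact ⟨fun h => ⟨x.2, h⟩, fun ⟨_, h⟩ => h⟩

theorem vtSubRed_of_eq {x : ↥(vtSub hB e hfrac)} {y : LaurentSeries E}
    (hxy : e (x : F) = y) (hy : y ∈ gaussRing ι r) :
    vtSubRed hB e hfrac x = gaussRed r hB.inj ⟨y, hy⟩ := by
  rw [vtSubRed_apply]
  congr 1
  exact Subtype.ext hxy

end Red

section Units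

variable {F : Type*} [Field F]

theorem vt_not_mem_nonunits_mul (V : ValuationSubring F) {a b : F} (ha : a ∈ V)
    (ha' : a ∉ V.nonunits) (hb : b ∈ V) (hb' : b ∉ V.nonunits) : a * b ∉ V.nonunits := by
  have h1 : V.valuation a = 1 := by
    rw [ValuationSubring.mem_nonunits_iff, not_lt] at ha'
    exact le_antisymm ((V.valuation_le_one_iff a).mpr ha) ha'
  have h2 : V.valuation b = 1 := by
    rw [ValuationSubring.mem_nonunits_iff, not_lt] at hb'
    exact le_antisymm ((V.valuation_le_one_iff b).mpr hb) hb'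
  rw [ValuationSubring.mem_nonunits_iff, map_mul, h1, h2, one_mul]
  exact lt_irrefl _

theorem vt_one_not_mem_nonunits (V : ValuationSubring F) : (1 : F) ∉ V.nonunits := by
  rw [ValuationSubring.mem_nonunits_iff, map_one]
  exact lt_irrefl _

end Units

section Abstract

variable {A₀ E F : Type*} [CommRing A₀] [IsDomain A₀] [IsDiscreteValuationRing A₀]
  [Field E] [Algebra A₀ E] [IsFractionRing A₀ E] [CharZero E]
  [Field F] [Algebra E F] [Algebra A₀ F] [IsScalarTower A₀ E F]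
  {π : A₀} {u : F}

/-- **hVloc, abstract step.**  Every element of `V c` is a quotient `b / s` of elements of the
chart `B_u` with `s ∉ 𝔪(V c)`. -/
theorem vt_hVloc_of_ss1 (hu : Transcendental E u) (hπ : Irreducible π)
    [FiniteDimensional E⟮u⟯ F] (V : Bool → ValuationSubring F)
    (hBV : ∀ c (b : F), IsIntegral ↥(Algebra.adjoin A₀ {u}) b → b ∈ V c)
    (hπV : ∀ c, algebraMap A₀ F π ∈ (V c).nonunits)
    (hSS1 : ∀ b : F, IsIntegral ↥(Algebra.adjoin A₀ {u}) b → (∀ c, b ∈ (V c).nonunits) →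
      ∃ b' : F, IsIntegral ↥(Algebra.adjoin A₀ {u}) b' ∧ b = algebraMap A₀ F π * b')
    (hprim : ∀ c (s : F), EIPrimeTo π u s → s ∉ (V c).nonunits)
    (hz : ∀ c, ∃ z : F, IsIntegral ↥(Algebra.adjoin A₀ {u}) z ∧ z ∉ (V c).nonunits ∧
      z ∈ (V (!c)).nonunits) :
    ∀ c (x : F), x ∈ V c → ∃ b s : F, IsIntegral ↥(Algebra.adjoin A₀ {u}) b ∧
      IsIntegral ↥(Algebra.adjoin A₀ {u}) s ∧ s ∉ (V c).nonunits ∧ s * x = b := by
  intro c x hx
  have hπ0 : algebraMap A₀ F π ≠ 0 := ei_algebraMap_ne_zero (E := E) hπ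
  obtain ⟨k, s, hs, hint⟩ := ad_exists_primeTo_pow_mul_isIntegral (E := E) hu hπ x
  have hsint : IsIntegral ↥(Algebra.adjoin A₀ {u}) s :=
    isIntegral_algebraMap (R := ↥(Algebra.adjoin A₀ {u})) (x := ⟨s, hs.1⟩)
  have hπint : IsIntegral ↥(Algebra.adjoin A₀ {u}) (algebraMap A₀ F π) :=
    isIntegral_algebraMap (R := ↥(Algebra.adjoin A₀ {u}))
      (x := algebraMap A₀ ↥(Algebra.adjoin A₀ {u}) π)
  obtain ⟨z, hzint, hzc, hzc'⟩ := hz c
  have hzV : z ∈ V c := hBV c z hzint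
  -- descend the exponent of `π`
  have key : ∀ (k : ℕ) (y : F), y ∈ V c →
      IsIntegral ↥(Algebra.adjoin A₀ {u}) (algebraMap A₀ F π ^ k * y) →
      ∃ s' : F, IsIntegral ↥(Algebra.adjoin A₀ {u}) s' ∧ s' ∉ (V c).nonunits ∧
        IsIntegral ↥(Algebra.adjoin A₀ {u}) (s' * y) := by
    intro k
    induction k with
    | zero =>
      intro y _ h
      rw [pow_zero, one_mul] at h
      exact ⟨1, isIntegral_one, vt_one_not_mem_nonunits _, by rwa [one_mul]⟩
    | succ k ih =>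
      intro y hy h
      have hb₀V : ∀ c', algebraMap A₀ F π ^ (k + 1) * y ∈ V c' := fun c' => hBV c' _ h
      have hzb : IsIntegral ↥(Algebra.adjoin A₀ {u}) (z * (algebraMap A₀ F π ^ (k + 1) * y)) :=
        hzint.mul h
      have hall : ∀ c', z * (algebraMap A₀ F π ^ (k + 1) * y) ∈ (V c').nonunits := by
        intro c'
        by_cases hc' : c' = c
        · subst hc'
          refine vt_mul_mem_nonunits _ hzV ?_
          have e1 : algebraMap A₀ F π ^ (k + 1) * y =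
              (algebraMap A₀ F π ^ k * y) * algebraMap A₀ F π := by ring
          rw [e1]
          refine vt_mul_mem_nonunits _ ((V c').mul_mem _ _ ((V c').pow_mem
            (vt_mem_of_mem_nonunits _ (hπV c')) k) hy) (hπV c')
        · have hc'' : c' = !c := by
            cases c <;> cases c' <;> simp_all
          subst hc''
          rw [mul_comm]
          exact vt_mul_mem_nonunits _ (hb₀V _) hzc'
      obtain ⟨b', hb', hbb'⟩ := hSS1 _ hzb hall
      have e2 : algebraMap A₀ F π ^ k * (z * y) = b' := by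
        apply mul_left_cancel₀ hπ0
        rw [← hbb']
        ring
      obtain ⟨s'', hs''int, hs''V, hs''y⟩ := ih (z * y) ((V c).mul_mem _ _ hzV hy)
        (by rw [e2]; exact hb')
      refine ⟨s'' * z, hs''int.mul hzint,
        vt_not_mem_nonunits_mul _ (hBV c _ hs''int) hs''V hzV hzc, ?_⟩
      rw [mul_assoc]
      exact hs''y
  have hsV : s ∈ V c := hBV c s hsint
  obtain ⟨s', hs'int, hs'V, hs'y⟩ := key k (s * x) ((V c).mul_mem _ _ hsV hx)
    (by rw [← mul_assoc]; exact hint)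
  exact ⟨s' * (s * x), s' * s, hs'y, hs'int.mul hsint,
    vt_not_mem_nonunits_mul _ (hBV c _ hs'int) hs'V hsV (hprim c s hs), by ring⟩

end Abstract

section Prim

variable {A E k : Type*} [CommRing A] [IsDomain A] [Field E] [Algebra A E] [IsFractionRing A E]
  [Field k] {r : A →+* k} {π : A} {F : Type*} [Field F] [Algebra A F]
  (hB : VtBase (algebraMap A E) r π) (e : F →+* LaurentSeries E)
  (hfrac : ∀ x : F, VtFrac (algebraMap A E) (e x))

/-- **Primitive polynomials in `u` are units of the vertical valuation** when the reduction of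
(the expansion of) `u` is transcendental over the residue field. -/
theorem vtSub_prim (he : ∀ a : A, e (algebraMap A F a) = HahnSeries.C (algebraMap A E a))
    {u : F} (hu : e u ∈ gaussRing (algebraMap A E) r)
    (htr : Transcendental k (gaussRed r (IsFractionRing.injective A E) ⟨e u, hu⟩))
    {s : F} (hs : EIPrimeTo π u s) : s ∉ (vtSub hB e hfrac).nonunits := by
  obtain ⟨hs, hnd⟩ := hs
  rw [Algebra.adjoin_singleton_eq_range_aeval] at hs
  obtain ⟨P, rfl⟩ := hs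
  intro hmem
  obtain ⟨hG, h0⟩ := (vtSub_mem_nonunits_iff hB e hfrac).mp hmem
  have hcoe : e (aeval u P) = P.eval₂ (HahnSeries.C.comp (algebraMap A E)) (e u) := by
    rw [aeval_def, Polynomial.hom_eval₂]
    congr 1
    exact RingHom.ext he
  have hPG : P.eval₂ (HahnSeries.C.comp (algebraMap A E)) (e u) ∈
      gaussRing (algebraMap A E) r := by
    rw [← hcoe]; exact hG
  have h3 : gaussRed r (IsFractionRing.injective A E) ⟨_, hPG⟩ = 0 := by
    rw [← h0]
    congr 1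
    exact Subtype.ext hcoe.symm
  rw [nodesFrob_gaussRed_eval₂ r ⟨_, hu⟩ P hPG] at h3
  have hP0 : P.map r = 0 := transcendental_iff.mp htr _ h3
  have hCdvd : Polynomial.C π ∣ P := by
    rw [Polynomial.C_dvd_iff_dvd_coeff]
    intro m
    have h5 := congrArg (fun q : Polynomial k => q.coeff m) hP0
    simp only [Polynomial.coeff_map, Polynomial.coeff_zero] at h5
    exact hB.ker _ h5
  obtain ⟨P', rfl⟩ := hCdvd
  refine hnd (aeval u P') ?_ ?_
  · rw [Algebra.adjoin_singleton_eq_range_aeval]; exact ⟨P', rfl⟩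
  · show (aeval u (Polynomial.C π * P') : F) = algebraMap A F π * aeval u P'
    rw [map_mul, Polynomial.aeval_C]

end Prim

section Sep

variable {F K : Type*} [Field F] [Field K]

/-- **Separating elements from a swap pair.**  `ρ, ρ'` the reductions of two valuation rings
`V, V'`; `t, b₁ ∈ V ∩ V'` with `ρ t = T`, `ρ b₁ = T ^ q`, `ρ' t = T ^ q`, `ρ' b₁ = T` and
`(T ^ q) ^ q ≠ T`.  Then `t - b₁ ^ q ∈ 𝔪(V') ∖ 𝔪(V)` and `b₁ - t ^ q ∈ 𝔪(V) ∖ 𝔪(V')`. -/
theorem vt_sep_of_red {V V' : ValuationSubring F} (ρ : ↥V →+* K) (ρ' : ↥V' →+* K)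
    (hρ : ∀ x : ↥V, ρ x = 0 ↔ (x : F) ∈ V.nonunits)
    (hρ' : ∀ x : ↥V', ρ' x = 0 ↔ (x : F) ∈ V'.nonunits)
    {t b₁ : F} (htV : t ∈ V) (htV' : t ∈ V') (hbV : b₁ ∈ V) (hbV' : b₁ ∈ V')
    {T : K} {q : ℕ} (h1 : ρ ⟨t, htV⟩ = T) (h2 : ρ ⟨b₁, hbV⟩ = T ^ q)
    (h3 : ρ' ⟨t, htV'⟩ = T ^ q) (h4 : ρ' ⟨b₁, hbV'⟩ = T) (hne : (T ^ q) ^ q ≠ T) :
    (t - b₁ ^ q ∉ V.nonunits ∧ t - b₁ ^ q ∈ V'.nonunits) ∧
      (b₁ - t ^ q ∈ V.nonunits ∧ b₁ - t ^ q ∉ V'.nonunits) := by
  have e1 : ρ (⟨t, htV⟩ - ⟨b₁, hbV⟩ ^ q) = T - (T ^ q) ^ q := by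
    rw [map_sub, map_pow, h1, h2]
  have e2 : ρ' (⟨t, htV'⟩ - ⟨b₁, hbV'⟩ ^ q) = 0 := by
    rw [map_sub, map_pow, h3, h4, sub_self]
  have e3 : ρ (⟨b₁, hbV⟩ - ⟨t, htV⟩ ^ q) = 0 := by
    rw [map_sub, map_pow, h1, h2, sub_self]
  have e4 : ρ' (⟨b₁, hbV'⟩ - ⟨t, htV'⟩ ^ q) = T - (T ^ q) ^ q := by
    rw [map_sub, map_pow, h3, h4]
  have hne' : T - (T ^ q) ^ q ≠ 0 := fun h => hne (sub_eq_zero.mp h).symm
  refine ⟨⟨fun h => ?_, ?_⟩, ?_, fun h => ?_⟩
  · exact hne' (e1 ▸ (hρ (⟨t, htV⟩ - ⟨b₁, hbV⟩ ^ q)).mpr h)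
  · exact (hρ' (⟨t, htV'⟩ - ⟨b₁, hbV'⟩ ^ q)).mp e2
  · exact (hρ (⟨b₁, hbV⟩ - ⟨t, htV⟩ ^ q)).mp e3
  · exact hne' (e4 ▸ (hρ' (⟨b₁, hbV'⟩ - ⟨t, htV'⟩ ^ q)).mpr h)

end Sep

section Concrete

variable {A : ValuationSubring Qb} {K₀ : IntermediateField ℚ Qb}
  [IsDiscreteValuationRing ↥(beta0Ring A K₀)] {π : ↥(beta0Ring A K₀)} (hπ : Irreducible π)
  (ιC : ↥K₀ →+* ℂ) {q M : ℕ} [NeZero q] [NeZero M] [NeZero (M * q)]
  (hq : q.Prime) (hqM : ¬ q ∣ M)

/-- the reduction map of `mgvV … c` -/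
def mgvRed (c : Bool) : ↥(mgvV hπ ιC hq hqM c) →+*
    LaurentSeries (IsLocalRing.ResidueField ↥(beta0Ring A K₀)) :=
  vtSubRed (vtBase_residue hπ) (vtEmbFam ιC hq hqM c)
    (vt_frac_fam (vtBase_residue hπ) ιC hq hqM c)

theorem mgvRed_eq_zero_iff (c : Bool) (x : ↥(mgvV hπ ιC hq hqM c)) :
    mgvRed hπ ιC hq hqM c x = 0 ↔
      (x : ↥(modularFunctionFieldFullC ↥K₀ (M * q))) ∈ (mgvV hπ ιC hq hqM c).nonunits :=
  vtSubRed_eq_zero_iff _ _ _ x

/-- computing the reduction from the expansion -/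
theorem mgvRed_of_eq (c : Bool) {x : ↥(modularFunctionFieldFullC ↥K₀ (M * q))}
    (hx : x ∈ mgvV hπ ιC hq hqM c) {y : LaurentSeries ↥K₀}
    (hxy : vtEmbFam ιC hq hqM c x = y)
    (hy : y ∈ gaussRing (algebraMap ↥(beta0Ring A K₀) ↥K₀)
      (IsLocalRing.residue ↥(beta0Ring A K₀))) :
    mgvRed hπ ιC hq hqM c ⟨x, hx⟩ =
      gaussRed (IsLocalRing.residue ↥(beta0Ring A K₀))
        (IsFractionRing.injective ↥(beta0Ring A K₀) ↥K₀) ⟨y, hy⟩ :=
  vtSubRed_of_eq (vtBase_residue hπ) _ _ hxy hy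

/-- constants -/
theorem mgv_emb_algebraMap (c : Bool) (a : ↥(beta0Ring A K₀)) :
    vtEmbFam ιC hq hqM c
        (algebraMap ↥(beta0Ring A K₀) ↥(modularFunctionFieldFullC ↥K₀ (M * q)) a) =
      HahnSeries.C (algebraMap ↥(beta0Ring A K₀) ↥K₀ a) :=
  vtEmbFam_const ιC hq hqM c _

/-! ### the expansions of `j` and `j(Q^q)` at the two cusps -/

/-- `j(Q^q)` as an element of `F_{Mq}` -/
def mgvJq (K₀ : IntermediateField ℚ Qb) (M q : ℕ) [NeZero q] [NeZero M] [NeZero (M * q)] :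
    ↥(modularFunctionFieldFullC ↥K₀ (M * q)) := nodesFrobJq ↥K₀ M q

theorem mgv_emb_J_true :
    vtEmbFam ιC hq hqM true (bgJ ↥K₀ (M * q)) = jqModC ↥K₀ := rfl

theorem mgv_emb_Jq_true :
    vtEmbFam ιC hq hqM true (mgvJq K₀ M q) = qExpand ↥K₀ q (jqModC ↥K₀) := rfl

theorem mgv_emb_J_false :
    vtEmbFam ιC hq hqM false (bgJ ↥K₀ (M * q)) = qExpand ↥K₀ q (jqModC ↥K₀) := by
  have h := nodesFrob_atkinLehner_J (E := ↥K₀) ιC hq hqM
  have e : bgJ ↥K₀ (M * q) = nodesFrobJ ↥K₀ M q := Subtype.ext rfl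
  rw [e, vtEmbFam_false, vtEmb0_apply, h]
  rfl

theorem mgv_emb_Jq_false :
    vtEmbFam ιC hq hqM false (mgvJq K₀ M q) = jqModC ↥K₀ := by
  have h := nodesFrob_atkinLehner_Jq (E := ↥K₀) ιC hq hqM
  rw [mgvJq, vtEmbFam_false, vtEmb0_apply, h]
  rfl

end Concrete

end Fermat.Agent.UNIP
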