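import Mathlib
import Fermat.Agent.INJ.GaussRing

/-!
# UNIP MG-8 "Vert", generic part: the Gauss valuation subring

`A` a discrete valuation ring (abstractly: `VtBase ι r π`), `ι : A →+* E` its fraction field,
`r : A →+* k` the residue map, `ker r = (π)`.  `gaussRing ι r ⊆ E((Q))` is the localisation of
`A((Q))` at the kernel of the reduction `r̂` (INJ/GaussRing).  For a field `F` with an embedding
`e : F →+* E((Q))` all of whose values are quotients of series over `A` (`VtFrac`):

* `vt_exists_prim` : every nonzero `T ∈ A((Q))` is `π ^ n · T₁`, `r̂ T₁ ≠ 0`;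
* `VtUnit ι r x` : `x` is a unit of the Gauss ring (`vtUnit_iff`: `gaussRed x ≠ 0`);
* `vt_exists_pow_mul` : `x ≠ 0` a quotient ⇒ `x = π ^ d · u` or `x⁻¹ = π ^ d · u`, `u` a unit;
* `vtSub hB e hfrac : ValuationSubring F` = `e ⁻¹ (gaussRing)`  — the vertical valuation;
* `vtSub_mem_nonunits_iff`, `vtSub_valuation_eq_one_iff`, `vtSub_const_mem_nonunits_iff`,
  `vtSub_ne_top`, `vt_mem_of_isIntegral`;
* compatible maps (`VtCompat`): base change and inertial automorphisms of the coefficients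
  preserve the Gauss ring and commute with the reduction; `vtSub_sub_mem_nonunits` (= `hτV`),
  `vtSub_valuation_div_eq_one` (= `hσV`), `vtSub_baseChange_mem_nonunits_iff`.
-/

set_option autoImplicit false
set_option linter.unusedSectionVars false
set_option linter.style.haveILetI false

noncomputable section

namespace Fermat.Agent.UNIP

open ModularCurve Fermat.Agent.INJ

section Base

variable {A E k : Type*} [CommRing A] [Field E] [Field k]

/-- The base: `ι : A → E` the fraction field of `A`, `r : A → k` with kernel `(π)`, `π ≠ 0`, and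
every nonzero element of `A` has finite `π`-adic order (a DVR with its residue map). -/
structure VtBase (ι : A →+* E) (r : A →+* k) (π : A) : Prop where
  inj : Function.Injective ι
  frac : ∀ x : E, ∃ a b : A, b ≠ 0 ∧ ι b * x = ι a
  rπ : r π = 0
  ker : ∀ a, r a = 0 → π ∣ a
  fin : ∀ a : A, a ≠ 0 → ∃ n : ℕ, ¬ π ^ n ∣ a
  ne : π ≠ 0

variable {ι : A →+* E} {r : A →+* k} {π : A}

theorem VtBase.ιπ_ne (hB : VtBase ι r π) : ι π ≠ 0 := fun h =>
  hB.ne (hB.inj (by rw [h, map_zero]))

theorem VtBase.Cιπ_ne (hB : VtBase ι r π) : (HahnSeries.C (ι π) : LaurentSeries E) ≠ 0 := by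
  intro h
  apply hB.ιπ_ne
  have := congrArg (fun z : LaurentSeries E => z.coeff 0) h
  simpa using this

theorem vt_coeffMap_ne_zero (hι : Function.Injective ι) {T : LaurentSeries A} (hT : T ≠ 0) :
    coeffMap ι T ≠ 0 := fun h =>
  hT (coeffMap_inj_of_injective ι hι (by rw [h, map_zero]))

theorem vt_ne_zero_of_coeffMap_ne_zero {T : LaurentSeries A} (hT : coeffMap r T ≠ 0) :
    T ≠ 0 := by
  rintro rfl
  exact hT (map_zero _)

/-- **Primitive part**: every nonzero series over `A` is `π ^ n` times a series with nonzero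
reduction. -/
theorem vt_exists_prim (hB : VtBase ι r π) (T : LaurentSeries A) (hT : T ≠ 0) :
    ∃ (n : ℕ) (T₁ : LaurentSeries A), T = HahnSeries.C π ^ n * T₁ ∧ coeffMap r T₁ ≠ 0 := by
  have hex : ∃ i, T.coeff i ≠ 0 := by
    by_contra hcon
    apply hT
    ext i
    by_contra hne
    exact hcon ⟨i, hne⟩
  obtain ⟨i, hi⟩ := hex
  obtain ⟨N, hN⟩ := hB.fin _ hi
  clear hT hi
  induction N generalizing T with
  | zero => exact absurd (by rw [pow_zero]; exact one_dvd _) hN
  | succ N ih =>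
    by_cases h : coeffMap r T = 0
    · obtain ⟨T', hT'⟩ := exists_eq_C_mul_of_coeffMap_eq_zero r hB.ker T h
      have hc : T.coeff i = π * T'.coeff i := by
        rw [hT', HahnSeries.C_mul_eq_smul, HahnSeries.coeff_smul, smul_eq_mul]
      have hN' : ¬ π ^ N ∣ T'.coeff i := by
        intro hd
        apply hN
        rw [hc, pow_succ']
        exact mul_dvd_mul_left π hd
      obtain ⟨n, T₁, h1, h2⟩ := ih T' hN'
      exact ⟨n + 1, T₁, by rw [hT', h1, pow_succ']; ring, h2⟩
    · exact ⟨0, T, by rw [pow_zero, one_mul], h⟩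

end Base

section Unit

variable {A E k : Type*} [CommRing A] [Field E] [Field k]

/-- `x ∈ E((Q))` is a unit of the Gauss ring: a quotient of two series over `A` with nonzero
reduction. -/
def VtUnit (ι : A →+* E) (r : A →+* k) (x : LaurentSeries E) : Prop :=
  ∃ T b : LaurentSeries A, coeffMap r T ≠ 0 ∧ coeffMap r b ≠ 0 ∧
    coeffMap ι b * x = coeffMap ι T

variable {ι : A →+* E} {r : A →+* k}

theorem VtUnit.mem {x : LaurentSeries E} (h : VtUnit ι r x) : x ∈ gaussRing ι r := by
  obtain ⟨T, b, -, hb, h⟩ := h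
  exact ⟨T, b, hb, h⟩

theorem VtUnit.ne_zero (hι : Function.Injective ι) {x : LaurentSeries E} (h : VtUnit ι r x) :
    x ≠ 0 := by
  obtain ⟨T, b, hT, -, h⟩ := h
  rintro rfl
  rw [mul_zero] at h
  exact vt_coeffMap_ne_zero hι (vt_ne_zero_of_coeffMap_ne_zero hT) h.symm

theorem VtUnit.inv (hι : Function.Injective ι) {x : LaurentSeries E} (h : VtUnit ι r x) :
    VtUnit ι r x⁻¹ := by
  have hx := h.ne_zero hι
  obtain ⟨T, b, hT, hb, h⟩ := h
  refine ⟨b, T, hb, hT, ?_⟩
  rw [← h, mul_assoc, mul_inv_cancel₀ hx, mul_one]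

theorem VtUnit.mul {x y : LaurentSeries E} (hx : VtUnit ι r x) (hy : VtUnit ι r y) :
    VtUnit ι r (x * y) := by
  obtain ⟨T, b, hT, hb, h⟩ := hx
  obtain ⟨T', b', hT', hb', h'⟩ := hy
  refine ⟨T * T', b * b', ?_, ?_, ?_⟩
  · rw [map_mul]; exact mul_ne_zero hT hT'
  · rw [map_mul]; exact mul_ne_zero hb hb'
  · rw [map_mul, map_mul, ← h, ← h']; ring

theorem VtUnit.one : VtUnit ι r (1 : LaurentSeries E) :=
  ⟨1, 1, by simp, by simp, by simp⟩

theorem VtUnit.pow {x : LaurentSeries E} (hx : VtUnit ι r x) (n : ℕ) : VtUnit ι r (x ^ n) := by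
  induction n with
  | zero => rw [pow_zero]; exact VtUnit.one
  | succ n ih => rw [pow_succ]; exact ih.mul hx

theorem VtUnit.div (hι : Function.Injective ι) {x y : LaurentSeries E} (hx : VtUnit ι r x)
    (hy : VtUnit ι r y) : VtUnit ι r (x / y) := by
  rw [div_eq_mul_inv]
  exact hx.mul (hy.inv hι)

/-- series over `A` with nonzero reduction are units -/
theorem vtUnit_coeffMap {T : LaurentSeries A} (hT : coeffMap r T ≠ 0) :
    VtUnit ι r (coeffMap ι T) :=
  ⟨T, 1, hT, by simp, by simp⟩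

/-- constants with nonzero reduction are units -/
theorem vtUnit_C {c : A} (hc : r c ≠ 0) : VtUnit ι r (HahnSeries.C (ι c) : LaurentSeries E) := by
  rw [← coeffMap_hahnC]
  refine vtUnit_coeffMap ?_
  rw [coeffMap_hahnC]
  intro h
  apply hc
  have := congrArg (fun z : LaurentSeries k => z.coeff 0) h
  simpa using this

/-- units of the Gauss ring = elements with nonzero reduction -/
theorem vtUnit_iff (hι : Function.Injective ι) {x : LaurentSeries E} :
    VtUnit ι r x ↔ ∃ h : x ∈ gaussRing ι r, gaussRed r hι ⟨x, h⟩ ≠ 0 := by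
  constructor
  · rintro ⟨T, b, hT, hb, h⟩
    refine ⟨⟨T, b, hb, h⟩, fun h0 => hT ?_⟩
    exact (gaussRed_eq_zero_iff r hι ⟨x, ⟨T, b, hb, h⟩⟩ T b hb h).mp h0
  · rintro ⟨⟨T, b, hb, h⟩, hne⟩
    refine ⟨T, b, fun h0 => hne ?_, hb, h⟩
    exact (gaussRed_eq_zero_iff r hι ⟨x, ⟨T, b, hb, h⟩⟩ T b hb h).mpr h0

/-- an element of the Gauss ring whose inverse is in the Gauss ring is a unit -/
theorem vtUnit_of_mem_of_inv_mem (hι : Function.Injective ι) {x : LaurentSeries E} (hx0 : x ≠ 0)
    (hx : x ∈ gaussRing ι r) (hx' : x⁻¹ ∈ gaussRing ι r) : VtUnit ι r x := by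
  rw [vtUnit_iff hι]
  refine ⟨hx, fun h0 => ?_⟩
  have h1 : (⟨x, hx⟩ : gaussRing ι r) * ⟨x⁻¹, hx'⟩ = 1 := Subtype.ext (mul_inv_cancel₀ hx0)
  have h2 := congrArg (gaussRed r hι) h1
  rw [map_mul, map_one, h0, zero_mul] at h2
  exact zero_ne_one h2

/-- a unit is not in the kernel of the reduction -/
theorem VtUnit.gaussRed_ne (hι : Function.Injective ι) {x : LaurentSeries E} (h : VtUnit ι r x)
    (hx : x ∈ gaussRing ι r) : gaussRed r hι ⟨x, hx⟩ ≠ 0 := by
  obtain ⟨_, h2⟩ := (vtUnit_iff hι).mp h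
  exact h2

end Unit

section Decomp

variable {A E k : Type*} [CommRing A] [Field E] [Field k]
  {ι : A →+* E} {r : A →+* k} {π : A}

/-- `x` is a quotient of two series over `A`. -/
def VtFrac (ι : A →+* E) (x : LaurentSeries E) : Prop :=
  ∃ T b : LaurentSeries A, b ≠ 0 ∧ coeffMap ι b * x = coeffMap ι T

theorem vt_one_ne_zero (ι : A →+* E) : (1 : LaurentSeries A) ≠ 0 := fun h =>
  one_ne_zero (α := LaurentSeries E) (by rw [← map_one (coeffMap ι), h, map_zero])

theorem VtFrac.zero : VtFrac ι (0 : LaurentSeries E) :=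
  ⟨0, 1, vt_one_ne_zero ι, by simp⟩

theorem VtFrac.one : VtFrac ι (1 : LaurentSeries E) :=
  ⟨1, 1, vt_one_ne_zero ι, by simp⟩

theorem vtFrac_coeffMap (T : LaurentSeries A) : VtFrac ι (coeffMap ι T) :=
  ⟨T, 1, vt_one_ne_zero ι, by simp⟩

theorem vt_mul_ne_zero (hι : Function.Injective ι) {b b' : LaurentSeries A} (hb : b ≠ 0)
    (hb' : b' ≠ 0) : b * b' ≠ 0 := by
  intro h
  have := congrArg (coeffMap ι) h
  rw [map_mul, map_zero] at this
  rcases mul_eq_zero.mp this with h1 | h1
  · exact vt_coeffMap_ne_zero hι hb h1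
  · exact vt_coeffMap_ne_zero hι hb' h1

theorem VtFrac.add (hι : Function.Injective ι) {x y : LaurentSeries E} (hx : VtFrac ι x)
    (hy : VtFrac ι y) : VtFrac ι (x + y) := by
  obtain ⟨T, b, hb, h⟩ := hx
  obtain ⟨T', b', hb', h'⟩ := hy
  refine ⟨T * b' + T' * b, b * b', vt_mul_ne_zero hι hb hb', ?_⟩
  rw [map_mul, map_add, map_mul, map_mul, ← h, ← h']; ring

theorem VtFrac.mul (hι : Function.Injective ι) {x y : LaurentSeries E} (hx : VtFrac ι x)
    (hy : VtFrac ι y) : VtFrac ι (x * y) := by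
  obtain ⟨T, b, hb, h⟩ := hx
  obtain ⟨T', b', hb', h'⟩ := hy
  refine ⟨T * T', b * b', vt_mul_ne_zero hι hb hb', ?_⟩
  rw [map_mul, map_mul, ← h, ← h']; ring

theorem VtFrac.neg {x : LaurentSeries E} (hx : VtFrac ι x) : VtFrac ι (-x) := by
  obtain ⟨T, b, hb, h⟩ := hx
  exact ⟨-T, b, hb, by rw [map_neg, ← h]; ring⟩

theorem VtFrac.inv (hι : Function.Injective ι) {x : LaurentSeries E} (hx : VtFrac ι x) :
    VtFrac ι x⁻¹ := by
  by_cases hx0 : x = 0
  · rw [hx0, inv_zero]; exact VtFrac.zero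
  obtain ⟨T, b, hb, h⟩ := hx
  have hT : T ≠ 0 := by
    rintro rfl
    rw [map_zero] at h
    rcases mul_eq_zero.mp h with h1 | h1
    · exact vt_coeffMap_ne_zero hι hb h1
    · exact hx0 h1
  refine ⟨b, T, hT, ?_⟩
  rw [← h, mul_assoc, mul_inv_cancel₀ hx0, mul_one]

/-- constants are quotients of series over `A` -/
theorem vtFrac_C (hfrac : ∀ x : E, ∃ a b : A, b ≠ 0 ∧ ι b * x = ι a) (c : E) :
    VtFrac ι (HahnSeries.C c : LaurentSeries E) := by
  obtain ⟨a, b, hb, h⟩ := hfrac c
  refine ⟨HahnSeries.C a, HahnSeries.C b, ?_, ?_⟩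
  · intro h0
    apply hb
    have := congrArg (fun z : LaurentSeries A => z.coeff 0) h0
    simpa using this
  · rw [coeffMap_hahnC, coeffMap_hahnC, ← map_mul, h]

/-- compatibility with maps of the coefficient fields -/
theorem VtFrac.of_unit {r : A →+* k} {x : LaurentSeries E} (hx : VtUnit ι r x) : VtFrac ι x := by
  obtain ⟨T, b, -, hb, h⟩ := hx
  exact ⟨T, b, vt_ne_zero_of_coeffMap_ne_zero hb, h⟩

/-- **Decomposition**: a nonzero quotient of series over `A` is `π ^ d · u` or the inverse of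
such an element, `u` a unit of the Gauss ring. -/
theorem vt_exists_pow_mul (hB : VtBase ι r π) {x : LaurentSeries E} (hx : x ≠ 0)
    (hfrac : VtFrac ι x) :
    ∃ (d : ℕ) (u : LaurentSeries E), VtUnit ι r u ∧
      (x = HahnSeries.C (ι π) ^ d * u ∨ x⁻¹ = HahnSeries.C (ι π) ^ d * u) := by
  obtain ⟨T, b, hb, h⟩ := hfrac
  have hbE : coeffMap ι b ≠ 0 := vt_coeffMap_ne_zero hB.inj hb
  have hT : T ≠ 0 := by
    rintro rfl
    rw [map_zero] at h
    rcases mul_eq_zero.mp h with h1 | h1
    · exact hbE h1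
    · exact hx h1
  obtain ⟨n, T₁, hT₁, hT₁r⟩ := vt_exists_prim hB T hT
  obtain ⟨m, b₁, hb₁, hb₁r⟩ := vt_exists_prim hB b hb
  have hb₁E : coeffMap ι b₁ ≠ 0 :=
    vt_coeffMap_ne_zero hB.inj (vt_ne_zero_of_coeffMap_ne_zero hb₁r)
  have hT₁E : coeffMap ι T₁ ≠ 0 :=
    vt_coeffMap_ne_zero hB.inj (vt_ne_zero_of_coeffMap_ne_zero hT₁r)
  have hC := hB.Cιπ_ne
  have key : HahnSeries.C (ι π) ^ m * coeffMap ι b₁ * x =
      HahnSeries.C (ι π) ^ n * coeffMap ι T₁ := by
    have := h
    rw [hT₁, hb₁, map_mul, map_mul, map_pow, map_pow, coeffMap_hahnC] at this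
    exact this
  have hu : VtUnit ι r (coeffMap ι T₁ / coeffMap ι b₁) :=
    (vtUnit_coeffMap hT₁r).div hB.inj (vtUnit_coeffMap hb₁r)
  rcases le_total m n with hmn | hmn
  · refine ⟨n - m, _, hu, Or.inl ?_⟩
    obtain ⟨d, rfl⟩ := Nat.exists_eq_add_of_le hmn
    rw [Nat.add_sub_cancel_left]
    rw [pow_add] at key
    have hCm : (HahnSeries.C (ι π) : LaurentSeries E) ^ m ≠ 0 := pow_ne_zero _ hC
    rw [← mul_div_assoc, eq_div_iff hb₁E]
    have : HahnSeries.C (ι π) ^ m * (x * coeffMap ι b₁) =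
        HahnSeries.C (ι π) ^ m * (HahnSeries.C (ι π) ^ d * coeffMap ι T₁) := by
      linear_combination key
    exact mul_left_cancel₀ hCm this
  · refine ⟨m - n, _, hu.inv hB.inj, Or.inr ?_⟩
    obtain ⟨d, rfl⟩ := Nat.exists_eq_add_of_le hmn
    rw [Nat.add_sub_cancel_left]
    rw [pow_add] at key
    have hCn : (HahnSeries.C (ι π) : LaurentSeries E) ^ n ≠ 0 := pow_ne_zero _ hC
    have h2 : HahnSeries.C (ι π) ^ d * coeffMap ι b₁ * x = coeffMap ι T₁ := by
      have : HahnSeries.C (ι π) ^ n * (HahnSeries.C (ι π) ^ d * coeffMap ι b₁ * x) =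
          HahnSeries.C (ι π) ^ n * coeffMap ι T₁ := by
        linear_combination key
      exact mul_left_cancel₀ hCn this
    rw [inv_div, ← mul_div_assoc, eq_div_iff hT₁E, ← h2]
    have h3 : x⁻¹ * x = 1 := inv_mul_cancel₀ hx
    linear_combination (HahnSeries.C (ι π) ^ d * coeffMap ι b₁) * h3

/-- a quotient of series over `A` or its inverse lies in the Gauss ring -/
theorem vt_mem_or_inv_mem (hB : VtBase ι r π) {x : LaurentSeries E} (hfrac : VtFrac ι x) :
    x ∈ gaussRing ι r ∨ x⁻¹ ∈ gaussRing ι r := by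
  by_cases hx : x = 0
  · left; rw [hx]; exact (gaussRing ι r).zero_mem
  obtain ⟨d, u, hu, h | h⟩ := vt_exists_pow_mul hB hx hfrac
  · left
    rw [h]
    exact (gaussRing ι r).mul_mem ((gaussRing ι r).pow_mem (hahnC_mem_gaussRing r π) d) hu.mem
  · right
    rw [h]
    exact (gaussRing ι r).mul_mem ((gaussRing ι r).pow_mem (hahnC_mem_gaussRing r π) d) hu.mem

end Decomp

section ValSub

variable {F : Type*} [Field F]

/-- nonunits of a valuation subring: `x = 0` or `x⁻¹ ∉ V` -/
theorem vt_mem_nonunits_iff (V : ValuationSubring F) (x : F) :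
    x ∈ V.nonunits ↔ x = 0 ∨ x⁻¹ ∉ V := by
  rw [ValuationSubring.mem_nonunits_iff]
  by_cases hx : x = 0
  · subst hx
    simp
  · have hv : V.valuation x ≠ 0 := (Valuation.ne_zero_iff _).mpr hx
    rw [← V.valuation_le_one_iff, map_inv₀, inv_le_one₀ (zero_lt_iff.mpr hv), not_le]
    exact ⟨Or.inr, fun h => h.resolve_left hx⟩

/-- `v x = 1` iff `x` and `x⁻¹` lie in `V`, `x ≠ 0` -/
theorem vt_valuation_eq_one_iff (V : ValuationSubring F) (x : F) :
    V.valuation x = 1 ↔ x ≠ 0 ∧ x ∈ V ∧ x⁻¹ ∈ V := by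
  by_cases hx : x = 0
  · subst hx
    simp
  · have hv : V.valuation x ≠ 0 := (Valuation.ne_zero_iff _).mpr hx
    rw [← V.valuation_le_one_iff, ← V.valuation_le_one_iff, map_inv₀,
      inv_le_one₀ (zero_lt_iff.mpr hv)]
    exact ⟨fun h => ⟨hx, h.le, h.ge⟩, fun h => le_antisymm h.2.1 h.2.2⟩

/-- a valuation subring containing the image of `R` contains the elements integral over `R` -/
theorem vt_mem_of_isIntegral {R : Type*} [CommRing R] [Algebra R F] (V : ValuationSubring F)
    (hR : ∀ a : R, algebraMap R F a ∈ V) {x : F} (hx : IsIntegral R x) : x ∈ V := by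
  obtain ⟨p, hp, hpx⟩ := hx
  let f : R →+* V := (algebraMap R F).codRestrict V.toSubring hR
  have hx' : IsIntegral V x := by
    refine ⟨p.map f, hp.map f, ?_⟩
    rw [Polynomial.eval₂_map]
    exact hpx
  obtain ⟨y, rfl⟩ := IsIntegrallyClosed.isIntegral_iff.mp hx'
  exact y.2

theorem vt_mul_mem_nonunits (V : ValuationSubring F) {x y : F} (hx : x ∈ V)
    (hy : y ∈ V.nonunits) : x * y ∈ V.nonunits := by
  rw [ValuationSubring.mem_nonunits_iff] at hy ⊢
  rw [map_mul]
  have hx1 : V.valuation x ≤ 1 := (V.valuation_le_one_iff x).2 hx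
  calc V.valuation x * V.valuation y ≤ 1 * V.valuation y := by gcongr
    _ = V.valuation y := one_mul _
    _ < 1 := hy

theorem vt_add_mem_nonunits (V : ValuationSubring F) {x y : F} (hx : x ∈ V.nonunits)
    (hy : y ∈ V.nonunits) : x + y ∈ V.nonunits := by
  rw [ValuationSubring.mem_nonunits_iff] at hx hy ⊢
  exact lt_of_le_of_lt (V.valuation.map_add x y) (max_lt hx hy)

theorem vt_neg_mem_nonunits (V : ValuationSubring F) {x : F} (hx : x ∈ V.nonunits) :
    -x ∈ V.nonunits := by
  rw [ValuationSubring.mem_nonunits_iff] at hx ⊢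
  rwa [Valuation.map_neg]

theorem vt_sub_mem_nonunits (V : ValuationSubring F) {x y : F} (hx : x ∈ V.nonunits)
    (hy : y ∈ V.nonunits) : x - y ∈ V.nonunits := by
  rw [sub_eq_add_neg]
  exact vt_add_mem_nonunits V hx (vt_neg_mem_nonunits V hy)

theorem vt_mem_of_mem_nonunits (V : ValuationSubring F) {x : F} (hx : x ∈ V.nonunits) :
    x ∈ V := by
  rw [ValuationSubring.mem_nonunits_iff] at hx
  exact (V.valuation_le_one_iff x).mp hx.le

end ValSub

section Sub

variable {A E k : Type*} [CommRing A] [Field E] [Field k]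
  {ι : A →+* E} {r : A →+* k} {π : A} {F : Type*} [Field F]

/-- **The vertical (Gauss) valuation subring** of a field `F` embedded in `E((Q))` all of whose
elements are quotients of series over `A`: the preimage of the Gauss ring. -/
def vtSub (hB : VtBase ι r π) (e : F →+* LaurentSeries E) (hfrac : ∀ x : F, VtFrac ι (e x)) :
    ValuationSubring F where
  toSubring := (gaussRing ι r).comap e
  mem_or_inv_mem' x := by
    have := vt_mem_or_inv_mem (r := r) hB (hfrac x)
    rw [← map_inv₀] at this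
    exact this

variable (hB : VtBase ι r π) (e : F →+* LaurentSeries E) (hfrac : ∀ x : F, VtFrac ι (e x))

theorem mem_vtSub {x : F} : x ∈ vtSub hB e hfrac ↔ e x ∈ gaussRing ι r := Iff.rfl

/-- **(V-max)** `v x = 1` iff `e x` is a unit of the Gauss ring. -/
theorem vtSub_valuation_eq_one_iff {x : F} :
    (vtSub hB e hfrac).valuation x = 1 ↔ VtUnit ι r (e x) := by
  rw [vt_valuation_eq_one_iff]
  constructor
  · rintro ⟨hx0, hx, hx'⟩
    rw [mem_vtSub, map_inv₀] at hx'
    exact vtUnit_of_mem_of_inv_mem hB.inj ((map_ne_zero e).mpr hx0) hx hx'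
  · intro h
    refine ⟨fun h0 => h.ne_zero hB.inj (by rw [h0, map_zero]), h.mem, ?_⟩
    rw [mem_vtSub, map_inv₀]
    exact (h.inv hB.inj).mem

/-- **(V-max)** the maximal ideal of the vertical valuation is the kernel of the reduction. -/
theorem vtSub_mem_nonunits_iff {x : F} :
    x ∈ (vtSub hB e hfrac).nonunits ↔
      ∃ h : e x ∈ gaussRing ι r, gaussRed r hB.inj ⟨e x, h⟩ = 0 := by
  constructor
  · intro hx
    have hxV : x ∈ vtSub hB e hfrac := vt_mem_of_mem_nonunits _ hx
    refine ⟨hxV, ?_⟩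
    by_contra hne
    have hu : VtUnit ι r (e x) := (vtUnit_iff hB.inj).mpr ⟨hxV, hne⟩
    have h1 := (vtSub_valuation_eq_one_iff hB e hfrac).mpr hu
    rw [ValuationSubring.mem_nonunits_iff, h1] at hx
    exact lt_irrefl _ hx
  · rintro ⟨h, h0⟩
    rw [ValuationSubring.mem_nonunits_iff]
    have hle : (vtSub hB e hfrac).valuation x ≤ 1 :=
      ((vtSub hB e hfrac).valuation_le_one_iff x).mpr h
    refine lt_of_le_of_ne hle fun h1 => ?_
    have hu := (vtSub_valuation_eq_one_iff hB e hfrac).mp h1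
    exact hu.gaussRed_ne hB.inj h h0

/-- the reduction of an element of `V` -/
theorem vtSub_not_mem_nonunits_iff {x : F} (hx : x ∈ vtSub hB e hfrac) :
    x ∉ (vtSub hB e hfrac).nonunits ↔ VtUnit ι r (e x) := by
  rw [← vtSub_valuation_eq_one_iff hB e hfrac, ValuationSubring.mem_nonunits_iff, not_lt]
  have hle : (vtSub hB e hfrac).valuation x ≤ 1 :=
    ((vtSub hB e hfrac).valuation_le_one_iff x).mpr hx
  exact ⟨fun h => le_antisymm hle h, fun h => h.ge⟩

/-- constants: the elements of `A` lie in `V` -/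
theorem vtSub_const_mem {c : F} {a : A} (hc : e c = HahnSeries.C (ι a)) :
    c ∈ vtSub hB e hfrac := by
  rw [mem_vtSub, hc]
  exact hahnC_mem_gaussRing r a

/-- constants: `a ∈ A` is in the maximal ideal of `V` iff `r a = 0` -/
theorem vtSub_const_mem_nonunits_iff {c : F} {a : A} (hc : e c = HahnSeries.C (ι a)) :
    c ∈ (vtSub hB e hfrac).nonunits ↔ r a = 0 := by
  have hcV := vtSub_const_mem hB e hfrac hc
  constructor
  · intro h
    by_contra hne
    have hu : VtUnit ι r (e c) := by rw [hc]; exact vtUnit_C hne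
    exact ((vtSub_not_mem_nonunits_iff hB e hfrac hcV).mpr hu) h
  · intro h
    by_contra hne
    have hu := (vtSub_not_mem_nonunits_iff hB e hfrac hcV).mp hne
    rw [hc] at hu
    obtain ⟨hmem, hred⟩ := (vtUnit_iff hB.inj).mp hu
    apply hred
    have h3 := gaussRed_coeffMap r hB.inj (HahnSeries.C a : LaurentSeries A)
    rw [coeffMap_hahnC r, h, map_zero] at h3
    rw [← h3]
    congr 1
    exact Subtype.ext (coeffMap_hahnC ι a).symm

/-- **(V-max)** the uniformizer of `A` lies in the maximal ideal of `V` -/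
theorem vtSub_unif_mem_nonunits {c : F} (hc : e c = HahnSeries.C (ι π)) :
    c ∈ (vtSub hB e hfrac).nonunits :=
  (vtSub_const_mem_nonunits_iff hB e hfrac hc).mpr hB.rπ

/-- **(V-max)** `V ≠ ⊤` -/
theorem vtSub_ne_top {c : F} (hc : e c = HahnSeries.C (ι π)) : vtSub hB e hfrac ≠ ⊤ := by
  intro htop
  have h1 := vtSub_unif_mem_nonunits hB e hfrac hc
  rw [vt_mem_nonunits_iff, htop] at h1
  rcases h1 with h1 | h1
  · have : e c = 0 := by rw [h1, map_zero]
    rw [hc] at this
    exact hB.Cιπ_ne this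
  · exact h1 trivial

/-- elements of `F` whose image is a series over `A` lie in `V` -/
theorem vtSub_mem_of_eq_coeffMap {x : F} {T : LaurentSeries A} (hx : e x = coeffMap ι T) :
    x ∈ vtSub hB e hfrac := by
  rw [mem_vtSub, hx]
  exact coeffMap_mem_gaussRing ι r T

/-- elements of `F` whose image is a series over `A` with nonzero reduction are units of `V` -/
theorem vtSub_valuation_eq_one_of_eq_coeffMap {x : F} {T : LaurentSeries A}
    (hx : e x = coeffMap ι T) (hT : coeffMap r T ≠ 0) :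
    (vtSub hB e hfrac).valuation x = 1 := by
  rw [vtSub_valuation_eq_one_iff, hx]
  exact vtUnit_coeffMap hT

/-- **(V-int)** elements integral over a ring whose image lies in `V` are in `V` -/
theorem vtSub_mem_of_isIntegral {R : Type*} [CommRing R] [Algebra R F]
    (hR : ∀ a : R, e (algebraMap R F a) ∈ gaussRing ι r) {x : F} (hx : IsIntegral R x) :
    x ∈ vtSub hB e hfrac :=
  vt_mem_of_isIntegral _ hR hx

/-- the valuation subring composed with a field endomorphism `w` is the vertical valuation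
subring of the embedding `e ∘ w` -/
theorem vtSub_comap (w : F →+* F) :
    (vtSub hB e hfrac).comap w = vtSub hB (e.comp w) (fun x => hfrac (w x)) := rfl

end Sub

section DVR

variable {A E k : Type*} [CommRing A] [IsDomain A] [IsDiscreteValuationRing A]
  [Field E] [Algebra A E] [IsFractionRing A E] [Field k]

/-- A discrete valuation ring with a uniformizer `π` and a map `r` with kernel `(π)` is a base. -/
theorem vtBase_of_dvr (r : A →+* k) {π : A} (hπ : Irreducible π)
    (hr : ∀ a, r a = 0 ↔ π ∣ a) : VtBase (algebraMap A E) r π where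
  inj := IsFractionRing.injective A E
  frac x := by
    obtain ⟨a, b, hb, h⟩ := IsFractionRing.div_surjective (A := A) x
    have hb0 : b ≠ 0 := nonZeroDivisors.ne_zero hb
    refine ⟨a, b, hb0, ?_⟩
    rw [← h]
    have : algebraMap A E b ≠ 0 := by
      intro h0
      exact hb0 (IsFractionRing.injective A E (by rw [h0, map_zero]))
    field_simp
  rπ := (hr π).mpr dvd_rfl
  ker a := (hr a).mp
  fin a ha := by
    obtain ⟨n, hn⟩ := FiniteMultiplicity.of_not_isUnit hπ.not_isUnit ha
    exact ⟨n + 1, hn⟩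
  ne := hπ.ne_zero

/-- A discrete valuation ring with a uniformizer `π` and its residue map. -/
theorem vtBase_residue {π : A} (hπ : Irreducible π) :
    VtBase (algebraMap A E) (IsLocalRing.residue A) π := by
  refine vtBase_of_dvr _ hπ fun a => ?_
  rw [IsLocalRing.residue_eq_zero_iff,
    (IsDiscreteValuationRing.irreducible_iff_uniformizer π).mp hπ, Ideal.mem_span_singleton]

end DVR

end Fermat.Agent.UNIP
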