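import Mathlib
import Fermat.Agent.UNIP.MGVertGauss

/-!
# UNIP MG-8 "Vert", generic part II: compatible maps of the coefficients

* `VtCompat ι r ι' r' ψ κ` : `ψ : E → E'` maps `A` into `A'` and induces `κ` on the residue
  fields (base change `A₀ → A'`; or `A = A'`, `κ = id`: an inertial automorphism);
* `vt_compat_mem`, `vt_compat_gaussRed`, `VtUnit.compat`, `vtUnit_of_compat`;
* `vtSub_comap_baseChange` : the vertical valuation of `F'` restricts to that of `F`;
* `vtSub_sub_mem_nonunits` (= `hτV`), `vtSub_valuation_div_eq_one` (= `hσV`),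
  `vt_unif_of_leftInverse`;
* `vt_ss1_baseChange` : (SS1) over the unramified base gives (SS1′) over the ramified base.
-/

set_option autoImplicit false
set_option linter.unusedSectionVars false
set_option linter.style.haveILetI false

noncomputable section

namespace Fermat.Agent.UNIP

open ModularCurve Fermat.Agent.INJ

section Compat

variable {A E k A' E' k' : Type*} [CommRing A] [Field E] [Field k]
  [CommRing A'] [Field E'] [Field k']

/-- `ψ : E → E'` and `κ : k → k'` are compatible with the integral structures: `ψ` maps `A` into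
`A'`, and induces `κ` on the residue fields.  (Base change `A₀ → A'`; or `A = A'`, `κ = id`:
an automorphism of `E` preserving `A` and acting trivially on the residue field.) -/
def VtCompat (ι : A →+* E) (r : A →+* k) (ι' : A' →+* E') (r' : A' →+* k')
    (ψ : E →+* E') (κ : k →+* k') : Prop :=
  ∀ a : A, ∃ a' : A', ι' a' = ψ (ι a) ∧ r' a' = κ (r a)

variable {ι : A →+* E} {r : A →+* k} {ι' : A' →+* E'} {r' : A' →+* k'}
  {ψ : E →+* E'} {κ : k →+* k'}

/-- lifting series -/
theorem vt_exists_lift (hc : VtCompat ι r ι' r' ψ κ) (T : LaurentSeries A) :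
    ∃ T' : LaurentSeries A', coeffMap ι' T' = coeffMap ψ (coeffMap ι T) ∧
      coeffMap r' T' = coeffMap κ (coeffMap r T) := by
  classical
  choose f hf using hc
  refine ⟨⟨fun n => if T.coeff n = 0 then 0 else f (T.coeff n), T.isPWO_support.mono ?_⟩, ?_, ?_⟩
  · intro n hn
    simp only [Function.mem_support, ne_eq, ite_eq_left_iff, not_forall] at hn
    obtain ⟨h, _⟩ := hn
    exact h
  · ext n
    show ι' (if T.coeff n = 0 then 0 else f (T.coeff n)) = ψ (ι (T.coeff n))
    split_ifs with h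
    · rw [h]; simp
    · exact (hf _).1
  · ext n
    show r' (if T.coeff n = 0 then 0 else f (T.coeff n)) = κ (r (T.coeff n))
    split_ifs with h
    · rw [h]; simp
    · exact (hf _).2

theorem vt_coeffMap_field_ne_zero (κ : k →+* k') {x : LaurentSeries k} (hx : x ≠ 0) :
    coeffMap κ x ≠ 0 := fun h =>
  hx (coeffMap_inj_of_injective κ κ.injective (by rw [h, map_zero]))

/-- compatible maps preserve the Gauss ring -/
theorem vt_compat_mem (hc : VtCompat ι r ι' r' ψ κ) {x : LaurentSeries E}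
    (hx : x ∈ gaussRing ι r) : coeffMap ψ x ∈ gaussRing ι' r' := by
  obtain ⟨T, b, hb, h⟩ := hx
  obtain ⟨T', hT', -⟩ := vt_exists_lift hc T
  obtain ⟨b', hb', hb'r⟩ := vt_exists_lift hc b
  refine ⟨T', b', ?_, ?_⟩
  · rw [hb'r]; exact vt_coeffMap_field_ne_zero κ hb
  · rw [hT', hb', ← h, map_mul]

/-- compatible maps commute with the reduction -/
theorem vt_compat_gaussRed (hc : VtCompat ι r ι' r' ψ κ) (hι : Function.Injective ι)
    (hι' : Function.Injective ι') {x : LaurentSeries E} (hx : x ∈ gaussRing ι r) :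
    gaussRed r' hι' ⟨coeffMap ψ x, vt_compat_mem hc hx⟩ =
      coeffMap κ (gaussRed r hι ⟨x, hx⟩) := by
  have hx2 := hx
  obtain ⟨T, b, hb, h⟩ := hx2
  obtain ⟨T', hT', hT'r⟩ := vt_exists_lift hc T
  obtain ⟨b', hb', hb'r⟩ := vt_exists_lift hc b
  have hb'0 : coeffMap r' b' ≠ 0 := by rw [hb'r]; exact vt_coeffMap_field_ne_zero κ hb
  have h' : coeffMap ι' b' * coeffMap ψ x = coeffMap ι' T' := by
    rw [hT', hb', ← h, map_mul]
  have e1 := gaussRed_eq r' hι' ⟨coeffMap ψ x, vt_compat_mem hc hx⟩ T' b' hb'0 h'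
  have e2 := gaussRed_eq r hι ⟨x, hx⟩ T b hb h
  rw [e1, e2, hT'r, hb'r, map_div₀]

/-- compatible maps preserve units of the Gauss ring -/
theorem VtUnit.compat (hc : VtCompat ι r ι' r' ψ κ) {x : LaurentSeries E}
    (hx : VtUnit ι r x) : VtUnit ι' r' (coeffMap ψ x) := by
  obtain ⟨T, b, hT, hb, h⟩ := hx
  obtain ⟨T', hT', hT'r⟩ := vt_exists_lift hc T
  obtain ⟨b', hb', hb'r⟩ := vt_exists_lift hc b
  refine ⟨T', b', ?_, ?_, ?_⟩
  · rw [hT'r]; exact vt_coeffMap_field_ne_zero κ hT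
  · rw [hb'r]; exact vt_coeffMap_field_ne_zero κ hb
  · rw [hT', hb', ← h, map_mul]

/-- compatible maps reflect units of the Gauss ring -/
theorem vtUnit_of_compat (hc : VtCompat ι r ι' r' ψ κ) (hι : Function.Injective ι)
    (hι' : Function.Injective ι') {x : LaurentSeries E} (hx : x ∈ gaussRing ι r)
    (hu : VtUnit ι' r' (coeffMap ψ x)) : VtUnit ι r x := by
  rw [vtUnit_iff hι]
  refine ⟨hx, fun h0 => ?_⟩
  have h1 := vt_compat_gaussRed hc hι hι' hx
  rw [h0, map_zero] at h1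
  exact hu.gaussRed_ne hι' _ h1

end Compat

section BaseChange

variable {A E k A' E' k' : Type*} [CommRing A] [Field E] [Field k]
  [CommRing A'] [Field E'] [Field k']
  {ι : A →+* E} {r : A →+* k} {π : A} {ι' : A' →+* E'} {r' : A' →+* k'} {π' : A'}
  {ψ : E →+* E'} {κ : k →+* k'} {F F' : Type*} [Field F] [Field F']
  (hB : VtBase ι r π) (hB' : VtBase ι' r' π')
  (e : F →+* LaurentSeries E) (hfrac : ∀ x : F, VtFrac ι (e x))
  (e' : F' →+* LaurentSeries E') (hfrac' : ∀ x : F', VtFrac ι' (e' x))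

/-- **Base change**: the vertical valuation of `F'` restricts to the vertical valuation of `F`. -/
theorem vtSub_comap_baseChange (hc : VtCompat ι r ι' r' ψ κ) (β : F →+* F')
    (hβ : ∀ x, e' (β x) = coeffMap ψ (e x)) :
    (vtSub hB' e' hfrac').comap β = vtSub hB e hfrac := by
  have hsub : ∀ x, x ∈ vtSub hB e hfrac → β x ∈ vtSub hB' e' hfrac' := by
    intro x hx
    rw [mem_vtSub, hβ]
    exact vt_compat_mem hc hx
  have hnon : ∀ x, x ∈ (vtSub hB e hfrac).nonunits → β x ∈ (vtSub hB' e' hfrac').nonunits := by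
    intro x hx
    obtain ⟨h, h0⟩ := (vtSub_mem_nonunits_iff hB e hfrac).mp hx
    rw [vtSub_mem_nonunits_iff]
    have h1 := vt_compat_gaussRed hc hB.inj hB'.inj h
    rw [h0, map_zero] at h1
    refine ⟨by rw [hβ]; exact vt_compat_mem hc h, ?_⟩
    rw [← h1]
    congr 1
    exact Subtype.ext (hβ x)
  ext x
  rw [ValuationSubring.mem_comap]
  refine ⟨fun hx => ?_, hsub x⟩
  by_contra hxV
  have hx0 : x ≠ 0 := by
    rintro rfl
    exact hxV (vtSub hB e hfrac).zero_mem
  have hinv : x⁻¹ ∈ (vtSub hB e hfrac).nonunits := by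
    rw [vt_mem_nonunits_iff, inv_inv]
    exact Or.inr hxV
  have h2 := hnon _ hinv
  rw [vt_mem_nonunits_iff, map_inv₀, inv_inv] at h2
  rcases h2 with h2 | h2
  · exact hx0 ((map_eq_zero β).mp (inv_eq_zero.mp h2))
  · exact h2 hx

/-- nonunits of a comap -/
theorem vt_mem_nonunits_comap {F F' : Type*} [Field F] [Field F'] (V' : ValuationSubring F')
    (β : F →+* F') (x : F) : x ∈ (V'.comap β).nonunits ↔ β x ∈ V'.nonunits := by
  rw [vt_mem_nonunits_iff, vt_mem_nonunits_iff, ValuationSubring.mem_comap, map_inv₀,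
    map_eq_zero]

/-- **Base change**, maximal ideals. -/
theorem vtSub_baseChange_mem_nonunits_iff (hc : VtCompat ι r ι' r' ψ κ) (β : F →+* F')
    (hβ : ∀ x, e' (β x) = coeffMap ψ (e x)) (x : F) :
    β x ∈ (vtSub hB' e' hfrac').nonunits ↔ x ∈ (vtSub hB e hfrac).nonunits := by
  rw [← vt_mem_nonunits_comap, vtSub_comap_baseChange hB hB' e hfrac e' hfrac' hc β hβ]

end BaseChange

section Inertia

variable {A E k : Type*} [CommRing A] [Field E] [Field k]
  {ι : A →+* E} {r : A →+* k} {π : A} {F : Type*} [Field F]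
  (hB : VtBase ι r π) (e : F →+* LaurentSeries E) (hfrac : ∀ x : F, VtFrac ι (e x))

/-- **(V-τ) = `hτV`**: an endomorphism of the coefficients which preserves `A` and is trivial on
the residue field is trivial modulo the maximal ideal of the vertical valuation. -/
theorem vtSub_sub_mem_nonunits {s : E →+* E} (hc : VtCompat ι r ι r s (RingHom.id k))
    (sF : F →+* F) (hsF : ∀ x, e (sF x) = coeffMap s (e x)) {x : F}
    (hx : x ∈ vtSub hB e hfrac) : sF x - x ∈ (vtSub hB e hfrac).nonunits := by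
  rw [vtSub_mem_nonunits_iff]
  have hx' : e x ∈ gaussRing ι r := hx
  have h1 : coeffMap s (e x) ∈ gaussRing ι r := vt_compat_mem hc hx'
  have h2 := vt_compat_gaussRed hc hB.inj hB.inj hx'
  rw [coeffMap_id] at h2
  have hmem : e (sF x - x) ∈ gaussRing ι r := by
    rw [map_sub, hsF]
    exact (gaussRing ι r).sub_mem h1 hx'
  refine ⟨hmem, ?_⟩
  have h3 : (⟨e (sF x - x), hmem⟩ : gaussRing ι r) = ⟨coeffMap s (e x), h1⟩ - ⟨e x, hx'⟩ :=
    Subtype.ext (by
      show e (sF x - x) = coeffMap s (e x) - e x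
      rw [map_sub, hsF])
  rw [h3, map_sub, h2, sub_self]

/-- an endomorphism preserving `A`, trivial on the residue field, maps the vertical valuation
ring into itself -/
theorem vtSub_map_mem {s : E →+* E} (hc : VtCompat ι r ι r s (RingHom.id k))
    (sF : F →+* F) (hsF : ∀ x, e (sF x) = coeffMap s (e x)) {x : F}
    (hx : x ∈ vtSub hB e hfrac) : sF x ∈ vtSub hB e hfrac := by
  rw [mem_vtSub, hsF]
  exact vt_compat_mem hc hx

include hB in
/-- the uniformizer is moved by a unit, if the endomorphism has a left inverse of the same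
kind -/
theorem vt_unif_of_leftInverse {s s' : E →+* E} (hc : VtCompat ι r ι r s (RingHom.id k))
    (hc' : VtCompat ι r ι r s' (RingHom.id k)) (hinv : ∀ x, s' (s x) = x) :
    ∃ c : A, s (ι π) = ι π * ι c ∧ r c ≠ 0 := by
  obtain ⟨a, ha, har⟩ := hc π
  rw [RingHom.id_apply, hB.rπ] at har
  obtain ⟨c, rfl⟩ := hB.ker a har
  refine ⟨c, by rw [← ha, map_mul], fun hrc => ?_⟩
  obtain ⟨c₂, rfl⟩ := hB.ker c hrc
  obtain ⟨b, hb, hbr⟩ := hc' π
  obtain ⟨c₃, hc₃, -⟩ := hc' c₂
  have h1 : ι π = ι (b * (b * c₃)) := by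
    have := hinv (ι π)
    rw [← ha, map_mul, map_mul, map_mul, map_mul, ← hb, ← hc₃] at this
    rw [map_mul, map_mul]
    exact this.symm
  have h2 := hB.inj h1
  rw [RingHom.id_apply, hB.rπ] at hbr
  obtain ⟨d, rfl⟩ := hB.ker b hbr
  have h3 : ι π * (1 - ι (d * (π * d) * c₃)) = 0 := by
    rw [mul_assoc] at h2
    have := congrArg ι h2
    simp only [map_mul] at this ⊢
    linear_combination this
  rcases mul_eq_zero.mp h3 with h4 | h4
  · exact hB.ιπ_ne h4
  · have h5 : ι (d * (π * d) * c₃) = ι 1 := by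
      rw [map_one]
      exact (sub_eq_zero.mp h4).symm
    have h6 := congrArg r (hB.inj h5)
    rw [map_mul, map_mul, map_mul, hB.rπ, map_one] at h6
    simp at h6

/-- **(V-σ) = `hσV`**: an automorphism of the coefficients which preserves `A`, is trivial on the
residue field and moves the uniformizer by a unit preserves the vertical valuation:
`v (σ f / f) = 1`. -/
theorem vtSub_valuation_div_eq_one {s : E →+* E} (hc : VtCompat ι r ι r s (RingHom.id k))
    (hsπ : ∃ c : A, s (ι π) = ι π * ι c ∧ r c ≠ 0)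
    (sF : F →+* F) (hsF : ∀ x, e (sF x) = coeffMap s (e x)) {f : F} (hf : f ≠ 0) :
    (vtSub hB e hfrac).valuation (sF f / f) = 1 := by
  rw [vtSub_valuation_eq_one_iff, map_div₀, hsF]
  obtain ⟨c, hcπ, hrc⟩ := hsπ
  have hef : e f ≠ 0 := (map_ne_zero e).mpr hf
  have hCπ := hB.Cιπ_ne
  -- the claim for elements of the form `π ^ d * u`
  have key : ∀ (d : ℕ) (u : LaurentSeries E), VtUnit ι r u →
      VtUnit ι r (coeffMap s (HahnSeries.C (ι π) ^ d * u) / (HahnSeries.C (ι π) ^ d * u)) := by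
    intro d u hu
    have hu0 := hu.ne_zero hB.inj
    have h1 : coeffMap s (HahnSeries.C (ι π) ^ d * u) / (HahnSeries.C (ι π) ^ d * u) =
        HahnSeries.C (ι c) ^ d * (coeffMap s u / u) := by
      rw [map_mul, map_pow, coeffMap_hahnC, hcπ, map_mul, mul_pow, div_eq_iff
        (mul_ne_zero (pow_ne_zero _ hCπ) hu0)]
      have h2 : coeffMap s u / u * u = coeffMap s u := div_mul_cancel₀ _ hu0
      linear_combination (-(HahnSeries.C (ι π) ^ d * HahnSeries.C (ι c) ^ d)) * h2
    rw [h1]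
    exact ((vtUnit_C hrc).pow d).mul ((hu.compat hc).div hB.inj hu)
  obtain ⟨d, u, hu, h | h⟩ := vt_exists_pow_mul hB hef (hfrac f)
  · rw [h]
    exact key d u hu
  · have h2 := (key d u hu).inv hB.inj
    rw [← h, map_inv₀, inv_div_inv, inv_div] at h2
    exact h2

end Inertia

section SS1

variable {F F' : Type*} [Field F] [Field F']

/-- **(V-SS1′), abstract form.**  `β : F → F'` the base change of the function fields, `V₁, V₂`
the two vertical valuation rings of `F` and `V₁', V₂'` those of `F'` (restricting to `V₁, V₂`),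
`R ⊆ F`, `R' ⊆ F'` the charts, `R' = R + α R'` (U8 / MG-4), `α ∣ q` in `R'`.  If
`𝔪(V₁) ∩ 𝔪(V₂) ∩ R = q R` ((SS1) over the unramified base), then
`𝔪(V₁') ∩ 𝔪(V₂') ∩ R' = α R'`. -/
theorem vt_ss1_baseChange (β : F →+* F') (V₁ V₂ : ValuationSubring F)
    (V₁' V₂' : ValuationSubring F') (h₁ : V₁'.comap β = V₁) (h₂ : V₂'.comap β = V₂)
    (R : Set F) (R' : Set F') (α : F') (q : F)
    (hα₁ : α ∈ V₁'.nonunits) (hα₂ : α ∈ V₂'.nonunits)
    (hR'₁ : ∀ x ∈ R', x ∈ V₁') (hR'₂ : ∀ x ∈ R', x ∈ V₂')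
    (hdec : ∀ x ∈ R', ∃ c ∈ R, ∃ z ∈ R', x = β c + α * z)
    (hq : ∀ d ∈ R, ∃ z ∈ R', β (q * d) = α * z)
    (hadd : ∀ x ∈ R', ∀ y ∈ R', x + y ∈ R')
    (hSS1 : ∀ c ∈ R, c ∈ V₁.nonunits → c ∈ V₂.nonunits → ∃ d ∈ R, c = q * d) :
    ∀ x ∈ R', x ∈ V₁'.nonunits → x ∈ V₂'.nonunits → ∃ y ∈ R', x = α * y := by
  intro x hx hx₁ hx₂
  obtain ⟨c, hc, z, hz, rfl⟩ := hdec x hx
  have e1 : β c = (β c + α * z) - α * z := by ring
  have hc₁ : c ∈ V₁.nonunits := by
    rw [← h₁, vt_mem_nonunits_comap, e1]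
    refine vt_sub_mem_nonunits _ hx₁ ?_
    rw [mul_comm]
    exact vt_mul_mem_nonunits _ (hR'₁ z hz) hα₁
  have hc₂ : c ∈ V₂.nonunits := by
    rw [← h₂, vt_mem_nonunits_comap, e1]
    refine vt_sub_mem_nonunits _ hx₂ ?_
    rw [mul_comm]
    exact vt_mul_mem_nonunits _ (hR'₂ z hz) hα₂
  obtain ⟨d, hd, rfl⟩ := hSS1 c hc hc₁ hc₂
  obtain ⟨z', hz', hqz⟩ := hq d hd
  exact ⟨z' + z, hadd _ hz' _ hz, by rw [hqz]; ring⟩

end SS1

end Fermat.Agent.UNIP
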