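import Fermat.Agent.UNIP.MGVert
import Fermat.Agent.UNIP.MGConcrete

/-!
# UNIP MG-8 "Vert", part 2: the vertical valuations in the concrete setting

`A` a valuation subring of `ℚ̄`, `K₀ ⊆ ℚ̄` an intermediate field such that `A′ = A ∩ K₀`
(`beta0Ring A K₀`) is a discrete valuation ring with uniformizer `π`, level `M q`.

* `vt_compat_of_inertia`, `vt_unif_of_inertia` : `σ` in the inertia group of `A`, `K₀` stable
  under `σ` ⇒ `mgRestrict K₀ σ` is an inertial automorphism of the base (`VtCompat`, `hsπ`);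
* `vt_compat_of_le` : the inclusion `K₀ ≤ K₁` is compatible (`VtCompat`) — base change;
* `mgvV hπ ιC hq hqM : Bool → ValuationSubring F_{Mq}(K₀)` : the two vertical valuations
  (`true ↦ V_∞`, `false ↦ V_0`) with
  `mgv_hκ`, `mgv_hBV₁`, `mgv_hBV₂`, `mgv_hπV`, `mgv_harch`, `mgv_hσV`, `mgv_hτV`
  = the hypotheses `hκ`, `hBV₁`, `hBV₂`, `hπV`, `harch`, `hσV`, `hτV` of `mgc_main`
  (`at_main_two`), and `mgv_hζV`.
-/

set_option autoImplicit false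
set_option linter.unusedSectionVars false
set_option linter.style.haveILetI false

noncomputable section

namespace Fermat.Agent.UNIP

open ModularCurve AlgebraicCurve Fermat.Agent.ES Fermat.Agent.ES.G2 Fermat.Agent.INJ
open Fermat.Agent.AL

section Arch

variable {A E k : Type*} [CommRing A] [Field E] [Field k]
  {ι : A →+* E} {r : A →+* k} {π : A} {F : Type*} [Field F]
  (hB : VtBase ι r π) (e : F →+* LaurentSeries E) (hfrac : ∀ x : F, VtFrac ι (e x))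

/-- **harch**: the vertical valuation is archimedean (it is discrete of rank one). -/
theorem vtSub_arch {a : F} (ha : a ∈ (vtSub hB e hfrac).nonunits) (x : F) :
    ∃ n : ℕ, a ^ n * x ∈ (vtSub hB e hfrac).nonunits := by
  by_cases hxV : x ∈ vtSub hB e hfrac
  · exact ⟨1, by rw [pow_one, mul_comm]; exact vt_mul_mem_nonunits _ hxV ha⟩
  have hx0 : x ≠ 0 := fun h => hxV (h ▸ (vtSub hB e hfrac).zero_mem)
  have hex0 : e x ≠ 0 := (map_ne_zero e).mpr hx0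
  obtain ⟨d, u, hu, h | h⟩ := vt_exists_pow_mul hB hex0 (hfrac x)
  · exfalso
    apply hxV
    rw [mem_vtSub, h]
    exact (gaussRing ι r).mul_mem ((gaussRing ι r).pow_mem (hahnC_mem_gaussRing r π) d) hu.mem
  · -- `e x = π ^ (-d) * u⁻¹`, `e a = π * y`
    obtain ⟨hmem, hred⟩ := (vtSub_mem_nonunits_iff hB e hfrac).mp ha
    obtain ⟨y, hy⟩ := (gaussRed_eq_zero_iff_dvd r hB.inj hB.rπ hB.ker ⟨e a, hmem⟩).mp hred
    have hy' : e a = HahnSeries.C (ι π) * (y : LaurentSeries E) := hy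
    have hCπ := hB.Cιπ_ne
    have hu0 := hu.ne_zero hB.inj
    have hx' : e x = (HahnSeries.C (ι π) ^ d)⁻¹ * u⁻¹ := by
      rw [← mul_inv, ← h, inv_inv]
    refine ⟨d + 1, ?_⟩
    rw [vtSub_mem_nonunits_iff]
    have hval : e (a ^ (d + 1) * x) =
        HahnSeries.C (ι π) * ((y : LaurentSeries E) ^ (d + 1) * u⁻¹) := by
      rw [map_mul, map_pow, hy', hx', mul_pow, pow_succ]
      have h1 : (HahnSeries.C (ι π) : LaurentSeries E) ^ d *
          ((HahnSeries.C (ι π) : LaurentSeries E) ^ d)⁻¹ = 1 :=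
        mul_inv_cancel₀ (pow_ne_zero _ hCπ)
      linear_combination (HahnSeries.C (ι π) * ((y : LaurentSeries E) ^ d * (y : LaurentSeries E))
        * u⁻¹) * h1
    have hz : (y : LaurentSeries E) ^ (d + 1) * u⁻¹ ∈ gaussRing ι r :=
      (gaussRing ι r).mul_mem ((gaussRing ι r).pow_mem y.2 _) (hu.inv hB.inj).mem
    have hmem' : e (a ^ (d + 1) * x) ∈ gaussRing ι r := by
      rw [hval]
      exact (gaussRing ι r).mul_mem (hahnC_mem_gaussRing r π) hz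
    refine ⟨hmem', ?_⟩
    exact (gaussRed_eq_zero_iff_dvd r hB.inj hB.rπ hB.ker ⟨_, hmem'⟩).mpr ⟨⟨_, hz⟩, hval⟩

end Arch

section Inertia

variable {A : ValuationSubring Qb} (K₀ : IntermediateField ℚ Qb)

/-- **Inertia is an inertial automorphism of the base**: for `σ` in the inertia group of `A` and
`K₀` stable under `σ`, the restriction of `σ` to `K₀` preserves `A ∩ K₀` and is trivial on its
residue field. -/
theorem vt_compat_of_inertia {σ : Qb ≃ₐ[ℚ] Qb} (hσ : σ ∈ A.inertiaSubgroupIn ℚ)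
    (hK : ∀ x ∈ K₀, σ x ∈ K₀) :
    VtCompat (algebraMap ↥(beta0Ring A K₀) ↥K₀) (IsLocalRing.residue ↥(beta0Ring A K₀))
      (algebraMap ↥(beta0Ring A K₀) ↥K₀) (IsLocalRing.residue ↥(beta0Ring A K₀))
      (mgRestrict K₀ σ hK) (RingHom.id _) := by
  intro a
  have ha : (((a : ↥K₀) : Qb)) ∈ A := a.2
  have hσa : σ (((a : ↥K₀) : Qb)) ∈ A := (Fermat.Agent.S05.inertia_apply_mem_iff hσ _).mpr ha
  refine ⟨⟨mgRestrict K₀ σ hK a, hσa⟩, rfl, ?_⟩
  rw [RingHom.id_apply, ← sub_eq_zero, ← map_sub, IsLocalRing.residue_eq_zero_iff,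
    beta0Ring_mem_maximalIdeal_iff]
  exact Fermat.Agent.S05.inertia_apply_sub_mem_nonunits hσ ha

/-- **Inertia moves the uniformizer by a unit.** -/
theorem vt_unif_of_inertia [IsDiscreteValuationRing ↥(beta0Ring A K₀)]
    {π : ↥(beta0Ring A K₀)} (hπ : Irreducible π)
    {σ : Qb ≃ₐ[ℚ] Qb} (hσ : σ ∈ A.inertiaSubgroupIn ℚ) (hK : ∀ x ∈ K₀, σ x ∈ K₀) :
    ∃ c : ↥(beta0Ring A K₀),
      mgRestrict K₀ σ hK (algebraMap ↥(beta0Ring A K₀) ↥K₀ π) =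
        algebraMap ↥(beta0Ring A K₀) ↥K₀ π * algebraMap ↥(beta0Ring A K₀) ↥K₀ c ∧
      IsLocalRing.residue ↥(beta0Ring A K₀) c ≠ 0 :=
  vt_unif_of_leftInverse (vtBase_residue hπ) (vt_compat_of_inertia K₀ hσ hK)
    (vt_compat_of_inertia K₀ (Fermat.Agent.S05.inv_mem_inertiaIn hσ) (mga_stable_symm K₀ σ hK))
    (fun x => Subtype.ext (σ.symm_apply_apply _))

end Inertia

section Incl

variable {A : ValuationSubring Qb} {K₀ K₁ : IntermediateField ℚ Qb}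

/-- **Base change**: the inclusion `K₀ ≤ K₁` maps `A ∩ K₀` into `A ∩ K₁` and induces a map of the
residue fields. -/
theorem vt_compat_of_le (h : K₀ ≤ K₁) :
    ∃ κ : IsLocalRing.ResidueField ↥(beta0Ring A K₀) →+*
        IsLocalRing.ResidueField ↥(beta0Ring A K₁),
      VtCompat (algebraMap ↥(beta0Ring A K₀) ↥K₀) (IsLocalRing.residue ↥(beta0Ring A K₀))
        (algebraMap ↥(beta0Ring A K₁) ↥K₁) (IsLocalRing.residue ↥(beta0Ring A K₁))
        (IntermediateField.inclusion h).toRingHom κ := by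
  haveI : IsLocalHom (beta0RingIncl (A := A) h) :=
    ⟨fun a ha => (beta0Ring_isUnit_iff a).mpr
      ((beta0Ring_isUnit_iff (beta0RingIncl (A := A) h a)).mp ha)⟩
  refine ⟨IsLocalRing.ResidueField.map (beta0RingIncl (A := A) h), fun a => ?_⟩
  exact ⟨beta0RingIncl h a, rfl, rfl⟩

end Incl

section Concrete

variable {A : ValuationSubring Qb} {K₀ : IntermediateField ℚ Qb}
  [IsDiscreteValuationRing ↥(beta0Ring A K₀)] {π : ↥(beta0Ring A K₀)} (hπ : Irreducible π)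
  (ιC : ↥K₀ →+* ℂ) {q M : ℕ} [NeZero q] [NeZero M] [NeZero (M * q)]
  (hq : q.Prime) (hqM : ¬ q ∣ M)

/-- **The two vertical valuation subrings of `F_{Mq}(K₀)`** over the discrete valuation ring
`A ∩ K₀`: `mgvV … true = V_∞` (Gauss valuation of the `Q`-expansion at `∞`),
`mgvV … false = V_0 = V_∞.comap w_q`. -/
def mgvV : Bool → ValuationSubring ↥(modularFunctionFieldFullC ↥K₀ (M * q)) :=
  vtFam (vtBase_residue hπ) ιC hq hqM

theorem mgvV_true : mgvV hπ ιC hq hqM true = vtInf (vtBase_residue hπ) (M * q) := rfl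

theorem mgvV_false :
    mgvV hπ ιC hq hqM false =
      (mgvV hπ ιC hq hqM true).comap (atkinLehner ↥K₀ ιC hq hqM).toRingEquiv.toRingHom := rfl

/-- **hκ** -/
theorem mgv_hκ (c : Bool) : c = true ∨ c = false := by
  cases c
  · exact Or.inr rfl
  · exact Or.inl rfl

theorem mgv_bgJ_eq :
    bgJ ↥K₀ (M * q) = ⟨qExpand ↥K₀ 1 (jqModC ↥K₀), jqModCd_mem_full ↥K₀ (M * q) (one_dvd _)⟩ :=
  Subtype.ext (qExpand_one_apply _).symm

/-- `j` is a unit of `V c` -/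
theorem mgv_T_valuation (c : Bool) : (mgvV hπ ιC hq hqM c).valuation (bgJ ↥K₀ (M * q)) = 1 := by
  rw [mgv_bgJ_eq]
  exact vtFam_gen_valuation (vtBase_residue hπ) ιC hq hqM c (one_dvd _)

theorem mgv_T_mem (c : Bool) : bgJ ↥K₀ (M * q) ∈ mgvV hπ ιC hq hqM c :=
  ((vt_valuation_eq_one_iff _ _).mp (mgv_T_valuation hπ ιC hq hqM c)).2.1

theorem mgv_T_inv_mem (c : Bool) : (bgJ ↥K₀ (M * q))⁻¹ ∈ mgvV hπ ιC hq hqM c :=
  ((vt_valuation_eq_one_iff _ _).mp (mgv_T_valuation hπ ιC hq hqM c)).2.2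

/-- **hBV₁**: the chart `j` lies in `V c` -/
theorem mgv_hBV₁ (c : Bool) (b : ↥(modularFunctionFieldFullC ↥K₀ (M * q)))
    (hb : IsIntegral ↥(Algebra.adjoin ↥(beta0Ring A K₀)
      ({bgJ ↥K₀ (M * q)} : Set ↥(modularFunctionFieldFullC ↥K₀ (M * q)))) b) :
    b ∈ mgvV hπ ιC hq hqM c :=
  vtFam_mem_of_isIntegral (vtBase_residue hπ) ιC hq hqM c (fun a => ⟨a, rfl⟩) _
    (by rintro s rfl; exact mgv_T_mem hπ ιC hq hqM c) hb

/-- **hBV₂**: the chart `1 / j` lies in `V c` -/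
theorem mgv_hBV₂ (c : Bool) (b : ↥(modularFunctionFieldFullC ↥K₀ (M * q)))
    (hb : IsIntegral ↥(Algebra.adjoin ↥(beta0Ring A K₀)
      ({(bgJ ↥K₀ (M * q))⁻¹} : Set ↥(modularFunctionFieldFullC ↥K₀ (M * q)))) b) :
    b ∈ mgvV hπ ιC hq hqM c :=
  vtFam_mem_of_isIntegral (vtBase_residue hπ) ιC hq hqM c (fun a => ⟨a, rfl⟩) _
    (by rintro s rfl; exact mgv_T_inv_mem hπ ιC hq hqM c) hb

/-- **hπV** -/
theorem mgv_hπV (c : Bool) :
    algebraMap ↥(beta0Ring A K₀) ↥(modularFunctionFieldFullC ↥K₀ (M * q)) π ∈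
      (mgvV hπ ιC hq hqM c).nonunits :=
  vtFam_unif_mem_nonunits (vtBase_residue hπ) ιC hq hqM c

/-- constants: `a ∈ A ∩ K₀` is in `𝔪(V c)` iff it is in the maximal ideal of `A` -/
theorem mgv_const_mem_nonunits_iff (c : Bool) (a : ↥(beta0Ring A K₀)) :
    algebraMap ↥(beta0Ring A K₀) ↥(modularFunctionFieldFullC ↥K₀ (M * q)) a ∈
      (mgvV hπ ιC hq hqM c).nonunits ↔ (((a : ↥K₀) : Qb)) ∈ A.nonunits := by
  rw [← beta0Ring_mem_maximalIdeal_iff, ← IsLocalRing.residue_eq_zero_iff]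
  exact vtFam_const_mem_nonunits_iff (vtBase_residue hπ) ιC hq hqM c a

/-- **harch** -/
theorem mgv_harch (c : Bool) (a x : ↥(modularFunctionFieldFullC ↥K₀ (M * q)))
    (ha : a ∈ (mgvV hπ ιC hq hqM c).nonunits) :
    ∃ n : ℕ, a ^ n * x ∈ (mgvV hπ ιC hq hqM c).nonunits :=
  vtSub_arch (vtBase_residue hπ) (vtEmbFam ιC hq hqM c)
    (vt_frac_fam (vtBase_residue hπ) ιC hq hqM c) ha x

/-- **hσV** -/
theorem mgv_hσV {σ : Qb ≃ₐ[ℚ] Qb} (hσ : σ ∈ A.inertiaSubgroupIn ℚ) (hK : ∀ x ∈ K₀, σ x ∈ K₀)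
    (c : Bool) (f : ↥(modularFunctionFieldFullC ↥K₀ (M * q))) (hf : f ≠ 0) :
    (mgvV hπ ιC hq hqM c).valuation (mgAct K₀ (M * q) σ hK f / f) = 1 :=
  vtFam_hσV (vtBase_residue hπ) ιC hq hqM (vt_compat_of_inertia K₀ hσ hK)
    (vt_unif_of_inertia K₀ hπ hσ hK) c hf

/-- **hτV** -/
theorem mgv_hτV {τ : Qb ≃ₐ[ℚ] Qb} (hτ : τ ∈ A.inertiaSubgroupIn ℚ) (hK : ∀ x ∈ K₀, τ x ∈ K₀)
    (c : Bool) (x : ↥(modularFunctionFieldFullC ↥K₀ (M * q)))
    (hx : x ∈ mgvV hπ ιC hq hqM c) :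
    mgAct K₀ (M * q) τ hK x - x ∈ (mgvV hπ ιC hq hqM c).nonunits :=
  vtFam_hτV (vtBase_residue hπ) ιC hq hqM (vt_compat_of_inertia K₀ hτ hK) c hx

/-- `V c` is stable under inertia -/
theorem mgv_act_mem {σ : Qb ≃ₐ[ℚ] Qb} (hσ : σ ∈ A.inertiaSubgroupIn ℚ) (hK : ∀ x ∈ K₀, σ x ∈ K₀)
    (c : Bool) (x : ↥(modularFunctionFieldFullC ↥K₀ (M * q)))
    (hx : x ∈ mgvV hπ ιC hq hqM c) : mgAct K₀ (M * q) σ hK x ∈ mgvV hπ ιC hq hqM c :=
  vtFam_map_mem (vtBase_residue hπ) ιC hq hqM (vt_compat_of_inertia K₀ hσ hK) c hx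

end Concrete

section ConcreteIncl

variable {A : ValuationSubring Qb} {K₀ K₁ : IntermediateField ℚ Qb}
  [IsDiscreteValuationRing ↥(beta0Ring A K₀)] {π₀ : ↥(beta0Ring A K₀)} (hπ₀ : Irreducible π₀)
  [IsDiscreteValuationRing ↥(beta0Ring A K₁)] {π₁ : ↥(beta0Ring A K₁)} (hπ₁ : Irreducible π₁)
  (ιC₀ : ↥K₀ →+* ℂ) (ιC₁ : ↥K₁ →+* ℂ) {q M : ℕ} [NeZero q] [NeZero M] [NeZero (M * q)]
  (hq : q.Prime) (hqM : ¬ q ∣ M)

/-- **Base change** `K₀ ≤ K₁`: the vertical valuations of `F_{Mq}(K₁)` restrict to those of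
`F_{Mq}(K₀)`. -/
theorem mgv_comap_incl (h : K₀ ≤ K₁) (c : Bool) :
    (mgvV hπ₁ ιC₁ hq hqM c).comap (mgaIncl h (M * q)) = mgvV hπ₀ ιC₀ hq hqM c := by
  obtain ⟨κ, hκ⟩ := vt_compat_of_le (A := A) h
  exact vtFam_comap_baseChange (vtBase_residue hπ₀) (vtBase_residue hπ₁) ιC₀ ιC₁ hq hqM hκ c

theorem mgv_incl_mem_nonunits_iff (h : K₀ ≤ K₁) (c : Bool)
    (x : ↥(modularFunctionFieldFullC ↥K₀ (M * q))) :
    mgaIncl h (M * q) x ∈ (mgvV hπ₁ ιC₁ hq hqM c).nonunits ↔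
      x ∈ (mgvV hπ₀ ιC₀ hq hqM c).nonunits := by
  rw [← vt_mem_nonunits_comap, mgv_comap_incl hπ₀ hπ₁ ιC₀ ιC₁ hq hqM h c]

theorem mgv_incl_mem_iff (h : K₀ ≤ K₁) (c : Bool)
    (x : ↥(modularFunctionFieldFullC ↥K₀ (M * q))) :
    mgaIncl h (M * q) x ∈ mgvV hπ₁ ιC₁ hq hqM c ↔ x ∈ mgvV hπ₀ ιC₀ hq hqM c := by
  rw [← ValuationSubring.mem_comap, mgv_comap_incl hπ₀ hπ₁ ιC₀ ιC₁ hq hqM h c]

end ConcreteIncl

end Fermat.Agent.UNIP
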