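import Fermat.Agent.UNIP.MGVertCompat
import Fermat.Agent.UNIP.MGGalAct
import Fermat.Agent.S34.ALMain

/-!
# UNIP MG-8 "Vert": the two vertical valuation subrings of `F_N(E)`, `N = M q`

`(A, ι, r, π)` a base (`VtBase ι r π`: a DVR `A` with fraction field `ι : A → E`, residue map
`r : A → k`, uniformizer `π`), `F = F_N(E) = modularFunctionFieldFullC E N ⊆ E((Q))`.

* `vt_frac_fullC` : every element of `F_N(E)` is a quotient of two series over `A`;
* `vtInf hB N : ValuationSubring F_N(E)` : `V_∞ = F ∩ gaussRing ι r`;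
* `vtZero hB ιC hq hqM : ValuationSubring F_{Mq}(E)` : `V_0 = V_∞.comap w_q`;
* `vtFam hB ιC hq hqM : Bool → ValuationSubring F_{Mq}(E)` : `true ↦ V_∞`, `false ↦ V_0`;
* (V-max) `vtFam_mem_nonunits_iff`, `vtFam_const_mem_nonunits_iff`, `vtFam_unif_mem_nonunits`,
  `vtFam_ne_top`;
* (V-int) `vtFam_const_mem`, `vtFam_gen_valuation`, `vtFam_mem_of_isIntegral`;
* (V-σ) `vtFam_hσV`, (V-τ) `vtFam_hτV` for `mgaCoeffHom s N`, `s` an inertial endomorphism of `E`;
* base change `vtFam_comap_baseChange`.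
-/

set_option autoImplicit false
set_option linter.unusedSectionVars false
set_option linter.style.haveILetI false

noncomputable section

namespace Fermat.Agent.UNIP

open ModularCurve Fermat.Agent.INJ Fermat.Agent.AL

section Frac

variable {A E k : Type*} [CommRing A] [Field E] [Field k]
  {ι : A →+* E} {r : A →+* k} {π : A}

/-- The embedding `F_N(E) ⊆ E((Q))` as a ring homomorphism. -/
def vtEmb (E : Type*) [Field E] (N : ℕ) : modularFunctionFieldFullC E N →+* LaurentSeries E :=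
  ((modularFunctionFieldFullC E N).val : _ →+* LaurentSeries E)

@[simp]
theorem vtEmb_apply (N : ℕ) (x : modularFunctionFieldFullC E N) :
    vtEmb E N x = (x : LaurentSeries E) := rfl

/-- **Every element of `F_N(E)` is a quotient of two series over `A`.** -/
theorem vt_frac_fullC (hB : VtBase ι r π) (N : ℕ) {x : LaurentSeries E}
    (hx : x ∈ modularFunctionFieldFullC E N) : VtFrac ι x := by
  have hx' : x ∈ Subfield.closure
      (Set.range (algebraMap E (LaurentSeries E)) ∪ divisorExpansionsC E N) := hx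
  clear hx
  induction hx' using Subfield.closure_induction with
  | mem y hy =>
      rcases hy with ⟨a, rfl⟩ | ⟨d, hd, hdN, rfl⟩
      · rw [algebraMap_laurentSeries_eq_single]
        exact vtFrac_C hB.frac a
      · have : coeffMap ι (qExpand A d (jqModC A)) = qExpand E d (jqModC E) :=
          coeffMap_jqNModC ι d
        rw [← this]
        exact vtFrac_coeffMap _
  | one => exact VtFrac.one
  | add x y _ _ hx hy => exact hx.add hB.inj hy
  | neg x _ hx => exact hx.neg
  | inv x _ hx => exact hx.inv hB.inj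
  | mul x y _ _ hx hy => exact hx.mul hB.inj hy

end Frac

section AtkinLehner

variable {K K' : Type*} [Field K] [Field K'] (ψ : K →+* K') (ιC : K →+* ℂ) (ιC' : K' →+* ℂ)
  {q M : ℕ} [NeZero q] [NeZero M] [NeZero (M * q)] (hq : q.Prime) (hqM : ¬ q ∣ M)

/-- **`w_q` commutes with the maps of the coefficient fields** (base change, Galois action). -/
theorem vt_atkinLehner_coeffHom (x : modularFunctionFieldFullC K (M * q)) :
    atkinLehner K' ιC' hq hqM (mgaCoeffHom ψ (M * q) x) =
      mgaCoeffHom ψ (M * q) (atkinLehner K ιC hq hqM x) := by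
  have key : ((atkinLehner K' ιC' hq hqM).toRingEquiv.toRingHom.comp (mgaCoeffHom ψ (M * q))) =
      (mgaCoeffHom ψ (M * q)).comp (atkinLehner K ιC hq hqM).toRingEquiv.toRingHom := by
    apply al_ringHom_ext K (M * q)
    · intro c
      show atkinLehner K' ιC' hq hqM (mgaCoeffHom ψ (M * q) (algebraMap K _ c)) =
        mgaCoeffHom ψ (M * q) (atkinLehner K ιC hq hqM (algebraMap K _ c))
      rw [AlgEquiv.commutes, mgaCoeffHom_algebraMap, AlgEquiv.commutes]
    · intro d _ hd
      show atkinLehner K' ιC' hq hqM (mgaCoeffHom ψ (M * q) ⟨qExpand K d (jqModC K), _⟩) =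
        mgaCoeffHom ψ (M * q) (atkinLehner K ιC hq hqM ⟨qExpand K d (jqModC K), _⟩)
      have e0 : (⟨qExpand K d (jqModC K), jqModCd_mem_full K (M * q) hd⟩ :
          modularFunctionFieldFullC K (M * q)) = ⟨alGen K (M * q) d, alGen_mem K d⟩ :=
        Subtype.ext (alGen_of_dvd K hd).symm
      have e1 : mgaCoeffHom ψ (M * q) ⟨alGen K (M * q) d, alGen_mem K d⟩ =
          ⟨alGen K' (M * q) d, alGen_mem K' d⟩ :=
        Subtype.ext (coeffMap_alGen ψ (M * q) d)
      rw [e0, e1]
      apply Subtype.ext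
      rw [atkinLehner_gen, mgaCoeffHom_coe, atkinLehner_gen, coeffMap_alGen]
  exact congrArg (fun φ : modularFunctionFieldFullC K (M * q) →+*
    modularFunctionFieldFullC K' (M * q) => φ x) key

end AtkinLehner

section Fam

variable {A E k : Type*} [CommRing A] [Field E] [Field k]
  {ι : A →+* E} {r : A →+* k} {π : A} (hB : VtBase ι r π)

/-- **`V_∞`**: the vertical valuation subring of `F_N(E)` at the component of the cusp `∞`
(the Gauss valuation of the `Q`-expansion). -/
def vtInf (N : ℕ) : ValuationSubring (modularFunctionFieldFullC E N) :=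
  vtSub hB (vtEmb E N) (fun x => vt_frac_fullC hB N x.2)

theorem mem_vtInf (N : ℕ) {x : modularFunctionFieldFullC E N} :
    x ∈ vtInf hB N ↔ (x : LaurentSeries E) ∈ gaussRing ι r := Iff.rfl

variable (ιC : E →+* ℂ) {q M : ℕ} [NeZero q] [NeZero M] [NeZero (M * q)]
  (hq : q.Prime) (hqM : ¬ q ∣ M)

/-- The `Q`-expansion at the cusp `0`: the embedding `F_{Mq}(E) ⊆ E((Q))` twisted by `w_q`. -/
def vtEmb0 : modularFunctionFieldFullC E (M * q) →+* LaurentSeries E :=
  (vtEmb E (M * q)).comp (atkinLehner E ιC hq hqM).toRingEquiv.toRingHom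

theorem vtEmb0_apply (x : modularFunctionFieldFullC E (M * q)) :
    vtEmb0 ιC hq hqM x =
      ((atkinLehner E ιC hq hqM x : modularFunctionFieldFullC E (M * q)) : LaurentSeries E) :=
  rfl

/-- The two `Q`-expansions: `true ↦` at `∞`, `false ↦` at `0`. -/
def vtEmbFam : Bool → (modularFunctionFieldFullC E (M * q) →+* LaurentSeries E)
  | true => vtEmb E (M * q)
  | false => vtEmb0 ιC hq hqM

theorem vtEmbFam_true : vtEmbFam ιC hq hqM true = vtEmb E (M * q) := rfl

theorem vtEmbFam_false : vtEmbFam ιC hq hqM false = vtEmb0 ιC hq hqM := rfl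

include hB in
theorem vt_frac_fam (c : Bool) (x : modularFunctionFieldFullC E (M * q)) :
    VtFrac ι (vtEmbFam ιC hq hqM c x) := by
  cases c
  · exact vt_frac_fullC hB (M * q) (atkinLehner E ιC hq hqM x).2
  · exact vt_frac_fullC hB (M * q) x.2

/-- **The two vertical valuation subrings** of `F_{Mq}(E)`: `vtFam true = V_∞`,
`vtFam false = V_0 = V_∞.comap w_q`. -/
def vtFam (c : Bool) : ValuationSubring (modularFunctionFieldFullC E (M * q)) :=
  vtSub hB (vtEmbFam ιC hq hqM c) (vt_frac_fam hB ιC hq hqM c)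

/-- **`V_0 = V_∞.comap w_q`**. -/
def vtZero : ValuationSubring (modularFunctionFieldFullC E (M * q)) :=
  vtFam hB ιC hq hqM false

theorem vtFam_true : vtFam hB ιC hq hqM true = vtInf hB (M * q) := rfl

theorem vtFam_false : vtFam hB ιC hq hqM false = vtZero hB ιC hq hqM := rfl

theorem vtZero_eq_comap :
    vtZero hB ιC hq hqM =
      (vtInf hB (M * q)).comap (atkinLehner E ιC hq hqM).toRingEquiv.toRingHom := rfl

theorem mem_vtFam {c : Bool} {x : modularFunctionFieldFullC E (M * q)} :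
    x ∈ vtFam hB ιC hq hqM c ↔ vtEmbFam ιC hq hqM c x ∈ gaussRing ι r := Iff.rfl

theorem mem_vtZero {x : modularFunctionFieldFullC E (M * q)} :
    x ∈ vtZero hB ιC hq hqM ↔ atkinLehner E ιC hq hqM x ∈ vtInf hB (M * q) := Iff.rfl

/-! ### The embeddings on constants and generators, and the action on coefficients -/

/-- constants -/
theorem vtEmbFam_const (c : Bool) (a : E) :
    vtEmbFam ιC hq hqM c (mgaConst E (M * q) a) = HahnSeries.C a := by
  cases c
  · show ((atkinLehner E ιC hq hqM (algebraMap E _ a) : modularFunctionFieldFullC E (M * q)) :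
      LaurentSeries E) = HahnSeries.C a
    rw [AlgEquiv.commutes]
    exact algebraMap_laurentSeries_eq_single E a
  · exact algebraMap_laurentSeries_eq_single E a

/-- generators: `j(Q^d) ↦ j(Q^{d'})` -/
theorem vtEmbFam_gen (c : Bool) {d : ℕ} [NeZero d] (hd : d ∣ M * q) :
    ∃ (d' : ℕ) (_ : NeZero d'),
      vtEmbFam ιC hq hqM c ⟨qExpand E d (jqModC E), jqModCd_mem_full E (M * q) hd⟩ =
        qExpand E d' (jqModC E) := by
  cases c
  · have hd' : alSwap q (M * q) d ∣ M * q := alSwap_dvd hq hqM hd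
    have hne : NeZero (alSwap q (M * q) d) :=
      ⟨fun h0 => NeZero.ne (M * q) (Nat.eq_zero_of_zero_dvd (h0 ▸ hd'))⟩
    refine ⟨alSwap q (M * q) d, hne, ?_⟩
    have e0 : (⟨qExpand E d (jqModC E), jqModCd_mem_full E (M * q) hd⟩ :
        modularFunctionFieldFullC E (M * q)) = ⟨alGen E (M * q) d, alGen_mem E d⟩ :=
      Subtype.ext (alGen_of_dvd E hd).symm
    rw [e0, vtEmbFam_false, vtEmb0_apply, atkinLehner_gen, alGen_of_dvd E hd']
  · exact ⟨d, inferInstance, rfl⟩

/-- the action of a ring homomorphism on the coefficients (base change, Galois action) -/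
theorem vtEmbFam_coeffHom {E' : Type*} [Field E'] (ψ : E →+* E') (ιC' : E' →+* ℂ) (c : Bool)
    (x : modularFunctionFieldFullC E (M * q)) :
    vtEmbFam ιC' hq hqM c (mgaCoeffHom ψ (M * q) x) = coeffMap ψ (vtEmbFam ιC hq hqM c x) := by
  cases c
  · show ((atkinLehner E' ιC' hq hqM (mgaCoeffHom ψ (M * q) x) :
      modularFunctionFieldFullC E' (M * q)) : LaurentSeries E') = _
    rw [vt_atkinLehner_coeffHom ψ ιC ιC' hq hqM x]
    rfl
  · rfl

/-! ### (V-max) -/

/-- **(V-max)** the maximal ideal of `V c` is the kernel of the reduction of the `Q`-expansion at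
the cusp `c`. -/
theorem vtFam_mem_nonunits_iff (c : Bool) {x : modularFunctionFieldFullC E (M * q)} :
    x ∈ (vtFam hB ιC hq hqM c).nonunits ↔
      ∃ h : vtEmbFam ιC hq hqM c x ∈ gaussRing ι r,
        gaussRed r hB.inj ⟨vtEmbFam ιC hq hqM c x, h⟩ = 0 :=
  vtSub_mem_nonunits_iff hB _ _

theorem vtFam_valuation_eq_one_iff (c : Bool) {x : modularFunctionFieldFullC E (M * q)} :
    (vtFam hB ιC hq hqM c).valuation x = 1 ↔ VtUnit ι r (vtEmbFam ιC hq hqM c x) :=
  vtSub_valuation_eq_one_iff hB _ _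

/-- **(V-int)** the constants of `A` lie in `V c` -/
theorem vtFam_const_mem (c : Bool) (a : A) :
    mgaConst E (M * q) (ι a) ∈ vtFam hB ιC hq hqM c :=
  vtSub_const_mem hB _ _ (vtEmbFam_const ιC hq hqM c (ι a))

/-- **(V-max)** a constant of `A` lies in the maximal ideal of `V c` iff it reduces to `0` -/
theorem vtFam_const_mem_nonunits_iff (c : Bool) (a : A) :
    mgaConst E (M * q) (ι a) ∈ (vtFam hB ιC hq hqM c).nonunits ↔ r a = 0 :=
  vtSub_const_mem_nonunits_iff hB _ _ (vtEmbFam_const ιC hq hqM c (ι a))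

/-- **(V-max)** `π ∈ 𝔪(V c)` -/
theorem vtFam_unif_mem_nonunits (c : Bool) :
    mgaConst E (M * q) (ι π) ∈ (vtFam hB ιC hq hqM c).nonunits :=
  vtSub_unif_mem_nonunits hB _ _ (vtEmbFam_const ιC hq hqM c (ι π))

/-- **(V-max)** `V c ≠ ⊤` -/
theorem vtFam_ne_top (c : Bool) : vtFam hB ιC hq hqM c ≠ ⊤ :=
  vtSub_ne_top hB _ _ (vtEmbFam_const ιC hq hqM c (ι π))

/-! ### (V-int) -/

/-- `j(Q^d)` has nonzero reduction -/
theorem vt_coeffMap_gen_ne_zero (r : A →+* k) (d : ℕ) [NeZero d] :
    coeffMap r (qExpand A d (jqModC A)) ≠ 0 := by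
  have h1 : coeffMap r (qExpand A d (jqModC A)) = qExpand k d (jqModC k) := coeffMap_jqNModC r d
  rw [h1]
  intro h0
  exact jqModC_ne_zero_of_nontrivial k (qExpand_injective d (by rw [h0, map_zero]))

/-- **(V-int)** the generators `j(Q^d)`, `d ∣ M q`, are units of `V c` -/
theorem vtFam_gen_valuation (c : Bool) {d : ℕ} [NeZero d] (hd : d ∣ M * q) :
    (vtFam hB ιC hq hqM c).valuation
      ⟨qExpand E d (jqModC E), jqModCd_mem_full E (M * q) hd⟩ = 1 := by
  obtain ⟨d', hd', he⟩ := vtEmbFam_gen ιC hq hqM c hd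
  have h1 : coeffMap ι (qExpand A d' (jqModC A)) = qExpand E d' (jqModC E) :=
    coeffMap_jqNModC ι d'
  exact vtSub_valuation_eq_one_of_eq_coeffMap hB _ _ (he.trans h1.symm)
    (vt_coeffMap_gen_ne_zero r d')

theorem vtFam_gen_mem (c : Bool) {d : ℕ} [NeZero d] (hd : d ∣ M * q) :
    (⟨qExpand E d (jqModC E), jqModCd_mem_full E (M * q) hd⟩ :
      modularFunctionFieldFullC E (M * q)) ∈ vtFam hB ιC hq hqM c :=
  ((vt_valuation_eq_one_iff _ _).mp (vtFam_gen_valuation hB ιC hq hqM c hd)).2.1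

theorem vtFam_gen_inv_mem (c : Bool) {d : ℕ} [NeZero d] (hd : d ∣ M * q) :
    (⟨qExpand E d (jqModC E), jqModCd_mem_full E (M * q) hd⟩ :
      modularFunctionFieldFullC E (M * q))⁻¹ ∈ vtFam hB ιC hq hqM c :=
  ((vt_valuation_eq_one_iff _ _).mp (vtFam_gen_valuation hB ιC hq hqM c hd)).2.2

theorem vtFam_gen_not_mem_nonunits (c : Bool) {d : ℕ} [NeZero d] (hd : d ∣ M * q) :
    (⟨qExpand E d (jqModC E), jqModCd_mem_full E (M * q) hd⟩ :
      modularFunctionFieldFullC E (M * q)) ∉ (vtFam hB ιC hq hqM c).nonunits := by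
  rw [ValuationSubring.mem_nonunits_iff, vtFam_gen_valuation hB ιC hq hqM c hd]
  exact lt_irrefl _

/-- **(V-int)** the charts lie in `V c`: an element of `F` integral over `R[S]`, where the image
of `R` consists of constants of `A` and `S ⊆ V c` (e.g. `S = {j}`, `{j⁻¹}`, `{j, j⁻¹}`), lies in
`V c`. -/
theorem vtFam_mem_of_isIntegral (c : Bool) {R : Type*} [CommRing R]
    [Algebra R (modularFunctionFieldFullC E (M * q))]
    (hR : ∀ a : R, ∃ a' : A,
      algebraMap R (modularFunctionFieldFullC E (M * q)) a = mgaConst E (M * q) (ι a'))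
    (S : Set (modularFunctionFieldFullC E (M * q))) (hS : ∀ s ∈ S, s ∈ vtFam hB ιC hq hqM c)
    {x : modularFunctionFieldFullC E (M * q)} (hx : IsIntegral (Algebra.adjoin R S) x) :
    x ∈ vtFam hB ιC hq hqM c := by
  refine vt_mem_of_isIntegral _ (fun y => ?_) hx
  show ((y : Algebra.adjoin R S) : modularFunctionFieldFullC E (M * q)) ∈ vtFam hB ιC hq hqM c
  obtain ⟨y, hy⟩ := y
  show y ∈ vtFam hB ιC hq hqM c
  induction hy using Algebra.adjoin_induction with
  | mem s hs => exact hS s hs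
  | algebraMap a =>
    obtain ⟨a', ha'⟩ := hR a
    rw [ha']
    exact vtFam_const_mem hB ιC hq hqM c a'
  | add s t _ _ hs ht => exact (vtFam hB ιC hq hqM c).add_mem _ _ hs ht
  | mul s t _ _ hs ht => exact (vtFam hB ιC hq hqM c).mul_mem _ _ hs ht

/-! ### (V-σ), (V-τ) -/

/-- **(V-τ) = `hτV`**: `τ x − x ∈ 𝔪(V c)` for `x ∈ V c`, `τ` an endomorphism of `E` preserving `A`
and trivial on the residue field. -/
theorem vtFam_hτV {s : E →+* E} (hc : VtCompat ι r ι r s (RingHom.id k)) (c : Bool)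
    {x : modularFunctionFieldFullC E (M * q)} (hx : x ∈ vtFam hB ιC hq hqM c) :
    mgaCoeffHom s (M * q) x - x ∈ (vtFam hB ιC hq hqM c).nonunits :=
  vtSub_sub_mem_nonunits hB _ _ hc (mgaCoeffHom s (M * q))
    (fun y => vtEmbFam_coeffHom ιC hq hqM s ιC c y) hx

/-- **(V-σ) = `hσV`**: `v_c (σ f / f) = 1` for `f ≠ 0`, `σ` an endomorphism of `E` preserving
`A`, trivial on the residue field, moving the uniformizer by a unit. -/
theorem vtFam_hσV {s : E →+* E} (hc : VtCompat ι r ι r s (RingHom.id k))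
    (hsπ : ∃ c : A, s (ι π) = ι π * ι c ∧ r c ≠ 0) (c : Bool)
    {f : modularFunctionFieldFullC E (M * q)} (hf : f ≠ 0) :
    (vtFam hB ιC hq hqM c).valuation (mgaCoeffHom s (M * q) f / f) = 1 :=
  vtSub_valuation_div_eq_one hB _ _ hc hsπ (mgaCoeffHom s (M * q))
    (fun y => vtEmbFam_coeffHom ιC hq hqM s ιC c y) hf

theorem vtFam_map_mem {s : E →+* E} (hc : VtCompat ι r ι r s (RingHom.id k)) (c : Bool)
    {x : modularFunctionFieldFullC E (M * q)} (hx : x ∈ vtFam hB ιC hq hqM c) :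
    mgaCoeffHom s (M * q) x ∈ vtFam hB ιC hq hqM c :=
  vtSub_map_mem hB _ _ hc (mgaCoeffHom s (M * q))
    (fun y => vtEmbFam_coeffHom ιC hq hqM s ιC c y) hx

end Fam

section BaseChangeFam

variable {A E k A' E' k' : Type*} [CommRing A] [Field E] [Field k]
  [CommRing A'] [Field E'] [Field k']
  {ι : A →+* E} {r : A →+* k} {π : A} {ι' : A' →+* E'} {r' : A' →+* k'} {π' : A'}
  (hB : VtBase ι r π) (hB' : VtBase ι' r' π')
  (ιC : E →+* ℂ) (ιC' : E' →+* ℂ) {q M : ℕ} [NeZero q] [NeZero M] [NeZero (M * q)]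
  (hq : q.Prime) (hqM : ¬ q ∣ M)

/-- **Base change**: the vertical valuations of `F_{Mq}(E')` restrict to those of `F_{Mq}(E)`. -/
theorem vtFam_comap_baseChange {ψ : E →+* E'} {κ : k →+* k'} (hc : VtCompat ι r ι' r' ψ κ)
    (c : Bool) :
    (vtFam hB' ιC' hq hqM c).comap (mgaCoeffHom ψ (M * q)) = vtFam hB ιC hq hqM c :=
  vtSub_comap_baseChange hB hB' _ _ _ _ hc (mgaCoeffHom ψ (M * q))
    (fun y => vtEmbFam_coeffHom ιC hq hqM ψ ιC' c y)

theorem vtFam_baseChange_mem_nonunits_iff {ψ : E →+* E'} {κ : k →+* k'}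
    (hc : VtCompat ι r ι' r' ψ κ) (c : Bool) (x : modularFunctionFieldFullC E (M * q)) :
    mgaCoeffHom ψ (M * q) x ∈ (vtFam hB' ιC' hq hqM c).nonunits ↔
      x ∈ (vtFam hB ιC hq hqM c).nonunits :=
  vtSub_baseChange_mem_nonunits_iff hB hB' _ _ _ _ hc (mgaCoeffHom ψ (M * q))
    (fun y => vtEmbFam_coeffHom ιC hq hqM ψ ιC' c y) x

end BaseChangeFam

end Fermat.Agent.UNIP
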