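import Mathlib

/-!
# UNIP U5-α1, abstract part: two valuations exhaust a fibre of degree `n + 1`

Pure algebra (Mathlib only).

* `unip_two_primes` : in a finite flat extension `S/R` of rank `n + 1`, two distinct primes over
  `p`, the second one of inertia degree `≥ n`, are the only primes over `p`; `e = 1` for both and
  `f = 1`, `f = n`.
* `UnipTwoVal R O₁ O₂ n` : the hypotheses in valuation form (`R` a DVR with fraction field `K`,
  `L/K` finite separable, `O₁`, `O₂` valuation rings of `L` dominating `R`).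
* `unip_twoVal_main` : if moreover `[L : K] = n + 1`, then
  (B1) `x ∈ O₁ ∩ O₂ → IsIntegral R x` and (B2) every `x ∈ O₁` is congruent to an element of `R`
  modulo the maximal ideal of `O₁` (residue degree one).
-/

set_option autoImplicit false

namespace Fermat.Agent.UNIP

open Module IsDedekindDomain IsLocalRing

/-- Two distinct primes over `p` in a finite flat extension of rank `n + 1`, the second one with
inertia degree `≥ n`, exhaust the fibre; both are unramified, with inertia degrees `1` and `n`. -/
theorem unip_two_primes {R S : Type*} [CommRing R] [IsDomain R] [CommRing S] [Algebra R S]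
    [Module.Finite R S] [Module.Flat R S] (p : Ideal R) [p.IsPrime]
    (P₁ P₂ : Ideal S) [P₁.IsPrime] [P₂.IsPrime] [P₁.LiesOver p] [P₂.LiesOver p] (hne : P₁ ≠ P₂)
    (n : ℕ) (hn : 0 < n) (hrank : Module.finrank R S = n + 1) (hf : n ≤ P₂.inertiaDeg R) :
    (∀ P : Ideal S, P.IsPrime → P.LiesOver p → P = P₁ ∨ P = P₂) ∧
      P₁.ramificationIdx R = 1 ∧ P₂.ramificationIdx R = 1 ∧
      P₁.inertiaDeg R = 1 ∧ P₂.inertiaDeg R = n := by
  classical
  let _ : Fintype (p.primesOver S) := (Algebra.QuasiFinite.finite_primesOver p).fintype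
  set g : p.primesOver S → ℕ := fun q => q.1.ramificationIdx R * q.1.inertiaDeg R with hg
  have hsum : ∑ q, g q = n + 1 := by
    rw [← hrank]
    exact Ideal.sum_ramification_inertia_eq_finrank p S
  have hpos : ∀ q : p.primesOver S, 1 ≤ g q := by
    intro q
    have := q.2.1
    exact Nat.mul_pos (Ideal.ramificationIdx_pos q.1 R) (Ideal.inertiaDeg_pos q.1 R)
  let Q₁ : p.primesOver S := ⟨P₁, ‹P₁.IsPrime›, ‹P₁.LiesOver p›⟩
  let Q₂ : p.primesOver S := ⟨P₂, ‹P₂.IsPrime›, ‹P₂.LiesOver p›⟩
  have hQ : Q₁ ≠ Q₂ := fun h => hne (congrArg Subtype.val h)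
  have he₂ : 1 ≤ P₂.ramificationIdx R := Ideal.ramificationIdx_pos P₂ R
  have he₁ : 1 ≤ P₁.ramificationIdx R := Ideal.ramificationIdx_pos P₁ R
  have hf₁ : 1 ≤ P₁.inertiaDeg R := Ideal.inertiaDeg_pos P₁ R
  have hg₂ : n ≤ g Q₂ := by
    show n ≤ P₂.ramificationIdx R * P₂.inertiaDeg R
    calc n ≤ P₂.inertiaDeg R := hf
      _ = 1 * P₂.inertiaDeg R := (one_mul _).symm
      _ ≤ _ := Nat.mul_le_mul_right _ he₂
  -- split the sum
  have hsplit : ∑ q, g q = g Q₁ + g Q₂ + ∑ q ∈ (Finset.univ.erase Q₁).erase Q₂, g q := by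
    rw [← Finset.add_sum_erase Finset.univ g (Finset.mem_univ Q₁),
      ← Finset.add_sum_erase (Finset.univ.erase Q₁) g
        (Finset.mem_erase.mpr ⟨hQ.symm, Finset.mem_univ Q₂⟩), add_assoc]
  have hrest : (Finset.univ.erase Q₁).erase Q₂ = ∅ := by
    by_contra hne'
    obtain ⟨q, hq⟩ := Finset.nonempty_iff_ne_empty.mpr hne'
    have h1 : g q ≤ ∑ q ∈ (Finset.univ.erase Q₁).erase Q₂, g q :=
      Finset.single_le_sum (f := g) (fun _ _ => Nat.zero_le _) hq
    have := hpos q
    have := hpos Q₁
    omega
  rw [hrest, Finset.sum_empty, add_zero] at hsplit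
  have hg₁ : g Q₁ = 1 := by have := hpos Q₁; omega
  have hg₂' : g Q₂ = n := by omega
  have h11 : P₁.ramificationIdx R * P₁.inertiaDeg R = 1 := hg₁
  have h22 : P₂.ramificationIdx R * P₂.inertiaDeg R = n := hg₂'
  refine ⟨?_, ?_, ?_, ?_, ?_⟩
  · intro P hP hPp
    by_contra hcon
    push Not at hcon
    have hmem : (⟨P, hP, hPp⟩ : p.primesOver S) ∈ (Finset.univ.erase Q₁).erase Q₂ := by
      refine Finset.mem_erase.mpr ⟨?_, Finset.mem_erase.mpr ⟨?_, Finset.mem_univ _⟩⟩
      · intro h; exact hcon.2 (congrArg Subtype.val h)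
      · intro h; exact hcon.1 (congrArg Subtype.val h)
    rw [hrest] at hmem
    exact absurd hmem (Finset.notMem_empty _)
  · exact (Nat.eq_one_of_mul_eq_one_right h11)
  · have h3 : P₂.inertiaDeg R ≤ n := by
      calc P₂.inertiaDeg R = 1 * P₂.inertiaDeg R := (one_mul _).symm
        _ ≤ P₂.ramificationIdx R * P₂.inertiaDeg R := Nat.mul_le_mul_right _ he₂
        _ = n := h22
    have h4 : P₂.inertiaDeg R = n := le_antisymm h3 hf
    rw [h4] at h22
    exact Nat.eq_of_mul_eq_mul_right hn (by rw [h22, one_mul])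
  · exact (Nat.eq_one_of_mul_eq_one_left h11)
  · have h3 : P₂.inertiaDeg R ≤ n := by
      calc P₂.inertiaDeg R = 1 * P₂.inertiaDeg R := (one_mul _).symm
        _ ≤ P₂.ramificationIdx R * P₂.inertiaDeg R := Nat.mul_le_mul_right _ he₂
        _ = n := h22
    exact le_antisymm h3 hf

/-- Hypotheses of the two-valuation theorem: two valuation rings `O₁`, `O₂` of `L` dominating the
local ring `R`, separated by an integral element, the second one with `n` integral elements whose
residues are independent over the residue field of `R`. -/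
structure UnipTwoVal (R : Type*) {L : Type*} [CommRing R] [IsLocalRing R] [Field L] [Algebra R L]
    (O₁ O₂ : ValuationSubring L) (n : ℕ) : Prop where
  le₁ : ∀ r : R, algebraMap R L r ∈ O₁
  le₂ : ∀ r : R, algebraMap R L r ∈ O₂
  dom₁ : ∀ r ∈ maximalIdeal R, algebraMap R L r ∈ O₁.nonunits
  dom₂ : ∀ r ∈ maximalIdeal R, algebraMap R L r ∈ O₂.nonunits
  sep : ∃ g : L, IsIntegral R g ∧ g ∈ O₁.nonunits ∧ g ∉ O₂.nonunits
  indep : ∃ y : Fin n → L, (∀ i, IsIntegral R (y i)) ∧
    ∀ c : Fin n → R, (∑ i, algebraMap R L (c i) * y i) ∈ O₂.nonunits →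
      ∀ i, c i ∈ maximalIdeal R

section Prime

variable {R L : Type*} [CommRing R] [Field L] [Algebra R L]

theorem unip_mem_of_isIntegral (O : ValuationSubring L) (hO : ∀ r : R, algebraMap R L r ∈ O)
    {s : L} (hs : IsIntegral R s) : s ∈ O := by
  let f : R →+* O := (algebraMap R L).codRestrict O.toSubring hO
  have h1 : (O.subtype.comp f).IsIntegralElem s := hs
  have h2 : IsIntegral O s := RingHom.IsIntegralElem.of_comp h1
  obtain ⟨y, hy⟩ := IsIntegrallyClosed.isIntegral_iff.mp h2
  rw [← hy]
  exact y.2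

/-- The inclusion of the integral closure in a valuation ring containing the base. -/
def unipIncl (O : ValuationSubring L) (hO : ∀ r : R, algebraMap R L r ∈ O) :
    integralClosure R L →+* O :=
  ((integralClosure R L).val : integralClosure R L →+* L).codRestrict O.toSubring
    (fun s => unip_mem_of_isIntegral O hO s.2)

/-- The prime of the integral closure cut out by a valuation ring. -/
def unipPrime (O : ValuationSubring L) (hO : ∀ r : R, algebraMap R L r ∈ O) :
    Ideal (integralClosure R L) :=
  (maximalIdeal O).comap (unipIncl O hO)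

theorem mem_unipPrime (O : ValuationSubring L) (hO : ∀ r : R, algebraMap R L r ∈ O)
    (s : integralClosure R L) : s ∈ unipPrime O hO ↔ (s : L) ∈ O.nonunits := by
  rw [unipPrime, Ideal.mem_comap, ValuationSubring.valuation_lt_one_iff,
    ValuationSubring.mem_nonunits_iff]
  rfl

instance unipPrime_isPrime (O : ValuationSubring L) (hO : ∀ r : R, algebraMap R L r ∈ O) :
    (unipPrime O hO).IsPrime :=
  Ideal.comap_isPrime _ _

theorem unipPrime_liesOver [IsLocalRing R] (O : ValuationSubring L)
    (hO : ∀ r : R, algebraMap R L r ∈ O)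
    (hdom : ∀ r ∈ maximalIdeal R, algebraMap R L r ∈ O.nonunits) :
    (unipPrime O hO).LiesOver (maximalIdeal R) := by
  constructor
  symm
  apply eq_maximalIdeal
  have hle : maximalIdeal R ≤ (unipPrime O hO).under R := by
    intro r hr
    rw [Ideal.mem_comap, mem_unipPrime]
    exact hdom r hr
  have hne : (unipPrime O hO).under R ≠ ⊤ := by
    have : ((unipPrime O hO).under R).IsPrime := Ideal.comap_isPrime _ _
    exact this.ne_top
  rw [← (maximalIdeal.isMaximal R).eq_of_le hne hle]
  exact maximalIdeal.isMaximal R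

end Prime

section Abs

variable {R K L : Type*} [CommRing R] [IsDomain R] [IsDiscreteValuationRing R]
  [Field K] [Field L] [Algebra R K] [IsFractionRing R K] [Algebra K L] [Algebra R L]
  [IsScalarTower R K L] [FiniteDimensional K L] [Algebra.IsSeparable K L]

include K in
set_option synthInstance.maxHeartbeats 400000 in
set_option maxHeartbeats 1600000 in
/-- The inertia degree of the prime cut out by `O₂` is at least `n`. -/
theorem unip_le_inertiaDeg {n : ℕ} (O : ValuationSubring L)
    (hO : ∀ r : R, algebraMap R L r ∈ O)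
    (hdom : ∀ r ∈ maximalIdeal R, algebraMap R L r ∈ O.nonunits)
    (y : Fin n → L) (hy : ∀ i, IsIntegral R (y i))
    (hind : ∀ c : Fin n → R, (∑ i, algebraMap R L (c i) * y i) ∈ O.nonunits →
      ∀ i, c i ∈ maximalIdeal R) :
    n ≤ (unipPrime O hO).inertiaDeg R := by
  classical
  set S := integralClosure R L with hS
  have : Module.Finite R S := IsIntegralClosure.finite R K L S
  have hlo : (unipPrime O hO).LiesOver (maximalIdeal R) := unipPrime_liesOver O hO hdom
  have : Algebra.IsIntegral R S := inferInstance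
  have hmax : (unipPrime O hO).IsMaximal := by
    apply Ideal.isMaximal_of_isIntegral_of_isMaximal_comap (R := R)
    have := hlo.over
    rw [Ideal.under] at this
    rw [← this]
    exact maximalIdeal.isMaximal R
  rw [Ideal.inertiaDeg_eq_of_isMaximal (maximalIdeal R) (unipPrime O hO)]
  let : Algebra (R ⧸ maximalIdeal R) (S ⧸ unipPrime O hO) :=
    Ideal.Quotient.algebraOfLiesOver _ _
  set b : Fin n → S ⧸ unipPrime O hO := fun i => Ideal.Quotient.mk _ ⟨y i, hy i⟩ with hb
  have hli : LinearIndependent (R ⧸ maximalIdeal R) b := by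
    rw [Fintype.linearIndependent_iff]
    intro c hc i
    choose c' hc' using fun i => Ideal.Quotient.mk_surjective (c i)
    have h1 : ∑ i, c i • b i = Ideal.Quotient.mk (unipPrime O hO)
        (∑ i, algebraMap R S (c' i) * ⟨y i, hy i⟩) := by
      rw [map_sum]
      refine Finset.sum_congr rfl fun i _ => ?_
      rw [map_mul, ← hc' i, Algebra.smul_def, Ideal.Quotient.algebraMap_mk_of_liesOver]
    rw [h1, Ideal.Quotient.eq_zero_iff_mem, mem_unipPrime] at hc
    have h2 : ((∑ i, algebraMap R S (c' i) * ⟨y i, hy i⟩ : S) : L) =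
        ∑ i, algebraMap R L (c' i) * y i := by
      rw [AddSubmonoidClass.coe_finsetSum]
      rfl
    rw [h2] at hc
    have h3 := hind c' hc i
    rw [← hc' i]
    exact Ideal.Quotient.eq_zero_iff_mem.mpr h3
  have := hli.fintype_card_le_finrank
  simpa using this

include K in
set_option synthInstance.maxHeartbeats 400000 in
set_option maxHeartbeats 1600000 in
/-- **Two-valuation theorem.**  In the situation `UnipTwoVal` with `[L : K] = n + 1`:
the integral closure of `R` in `L` is `O₁ ∩ O₂`, and the residue field of `O₁` is that of `R`. -/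
theorem unip_twoVal_main {n : ℕ} (hn : 0 < n) (hdeg : finrank K L = n + 1)
    {O₁ O₂ : ValuationSubring L} (h : UnipTwoVal R O₁ O₂ n) :
    (∀ x ∈ O₁, x ∈ O₂ → IsIntegral R x) ∧
      (∀ x ∈ O₁, ∃ c : R, x - algebraMap R L c ∈ O₁.nonunits) := by
  classical
  have : IsTorsionFree R L := .trans_faithfulSMul R K L
  have : IsDedekindDomain (integralClosure R L) := integralClosure.isDedekindDomain R K L
  have : IsFractionRing (integralClosure R L) L :=
    integralClosure.isFractionRing_of_finite_extension K L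
  have : Module.Finite R (integralClosure R L) :=
    IsIntegralClosure.finite R K L (integralClosure R L)
  have : IsTorsionFree R (integralClosure R L) := IsIntegralClosure.isTorsionFree R L
  have : Module.Flat R (integralClosure R L) := inferInstance
  have hrank : finrank R (integralClosure R L) = n + 1 := by
    rw [IsIntegralClosure.rank R K L (integralClosure R L), hdeg]
  set P₁ := unipPrime O₁ h.le₁ with hP₁
  set P₂ := unipPrime O₂ h.le₂ with hP₂
  have hlo₁ : P₁.LiesOver (maximalIdeal R) := unipPrime_liesOver O₁ h.le₁ h.dom₁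
  have hlo₂ : P₂.LiesOver (maximalIdeal R) := unipPrime_liesOver O₂ h.le₂ h.dom₂
  have hne : P₁ ≠ P₂ := by
    obtain ⟨g, hg, hg1, hg2⟩ := h.sep
    intro heq
    have h1 : (⟨g, hg⟩ : integralClosure R L) ∈ P₁ := (mem_unipPrime O₁ h.le₁ _).mpr hg1
    rw [heq] at h1
    exact hg2 ((mem_unipPrime O₂ h.le₂ _).mp h1)
  have hf : n ≤ P₂.inertiaDeg R := by
    obtain ⟨y, hy, hind⟩ := h.indep
    exact unip_le_inertiaDeg (K := K) O₂ h.le₂ h.dom₂ y hy hind
  obtain ⟨hall, -, -, hf₁, -⟩ := unip_two_primes (maximalIdeal R) P₁ P₂ hne n hn hrank hf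
  -- every height one prime is `P₁` or `P₂`
  have hv : ∀ v : HeightOneSpectrum (integralClosure R L), v.asIdeal = P₁ ∨ v.asIdeal = P₂ := by
    intro v
    have : v.asIdeal.IsMaximal := v.isMaximal
    have hmax : (v.asIdeal.comap (algebraMap R (integralClosure R L))).IsMaximal :=
      Ideal.isMaximal_comap_of_isIntegral_of_isMaximal (R := R) v.asIdeal
    exact hall v.asIdeal v.isPrime ⟨(eq_maximalIdeal hmax).symm⟩
  -- the key comparison
  have key : ∀ (O : ValuationSubring L) (hO : ∀ r : R, algebraMap R L r ∈ O)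
      (v : HeightOneSpectrum (integralClosure R L)), v.asIdeal = unipPrime O hO →
      ∀ x ∈ O, ∃ (a b : integralClosure R L), b ∉ v.asIdeal ∧ x * (b : L) = (a : L) := by
    intro O hO v hvO x hx
    obtain ⟨a, d, hd | hd⟩ := v.exists_primeCompl_mul_eq_or_mul_eq (K := L) x
    · exact ⟨a, d.1, d.2, hd⟩
    · -- `x * a = d`, `d` a unit of `O`: then `a` is a unit of `O` as well
      have hd' : (d.1 : L) ∉ O.nonunits := by
        intro hmem
        have hd2 : d.1 ∈ unipPrime O hO := (mem_unipPrime O hO d.1).mpr hmem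
        rw [← hvO] at hd2
        exact d.2 hd2
      have ha : a ∉ v.asIdeal := by
        intro hmem
        rw [hvO, mem_unipPrime] at hmem
        apply hd'
        have : (d.1 : L) = x * (a : L) := hd.symm
        rw [this, ValuationSubring.mem_nonunits_iff, map_mul]
        rw [ValuationSubring.mem_nonunits_iff] at hmem
        have hx1 : O.valuation x ≤ 1 := (ValuationSubring.valuation_le_one_iff O x).mpr hx
        calc O.valuation x * O.valuation (a : L) ≤ 1 * O.valuation (a : L) :=
              mul_le_mul_left hx1 _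
          _ = O.valuation (a : L) := one_mul _
          _ < 1 := hmem
      exact ⟨d.1, a, ha, hd⟩
  refine ⟨?_, ?_⟩
  · -- (B1)
    intro x hx₁ hx₂
    have hmem : x ∈ (algebraMap (integralClosure R L) L).range := by
      apply HeightOneSpectrum.mem_integers_of_valuation_le_one L x
      intro v
      have hvx : ∃ (a b : integralClosure R L), b ∉ v.asIdeal ∧ x * (b : L) = (a : L) := by
        rcases hv v with h1 | h2
        · exact key O₁ h.le₁ v h1 x hx₁
        · exact key O₂ h.le₂ v h2 x hx₂
      obtain ⟨a, b, hb, hab⟩ := hvx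
      have hb1 : v.valuation L (algebraMap (integralClosure R L) L b) = 1 :=
        (HeightOneSpectrum.valuation_eq_one_iff_notMem v).mpr hb
      have ha1 : v.valuation L (algebraMap (integralClosure R L) L a) ≤ 1 :=
        HeightOneSpectrum.valuation_le_one v a
      have h3 : v.valuation L x * v.valuation L (algebraMap (integralClosure R L) L b) =
          v.valuation L (algebraMap (integralClosure R L) L a) := by
        rw [← map_mul]
        exact congrArg _ hab
      rw [hb1, mul_one] at h3
      rw [h3]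
      exact ha1
    obtain ⟨s, hs⟩ := hmem
    rw [← hs]
    exact s.2
  · -- (B2)
    intro x hx
    have hP₁ne : P₁ ≠ ⊥ :=
      Ideal.ne_bot_of_liesOver_of_ne_bot (IsDiscreteValuationRing.not_a_field R) P₁
    obtain ⟨a, b, hb, hab⟩ := key O₁ h.le₁ ⟨P₁, inferInstance, hP₁ne⟩ rfl x hx
    have hmax : P₁.IsMaximal := by
      apply Ideal.isMaximal_of_isIntegral_of_isMaximal_comap (R := R)
      have := hlo₁.over
      rw [Ideal.under] at this
      rw [← this]
      exact maximalIdeal.isMaximal R
    rw [Ideal.inertiaDeg_eq_of_isMaximal (maximalIdeal R) P₁] at hf₁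
    let : Algebra (R ⧸ maximalIdeal R) (integralClosure R L ⧸ P₁) :=
      Ideal.Quotient.algebraOfLiesOver _ _
    have hone : (1 : integralClosure R L ⧸ P₁) ≠ 0 := by
      intro h0
      have h1 : (Ideal.Quotient.mk P₁) 1 = 0 := by rw [map_one]; exact h0
      rw [Ideal.Quotient.eq_zero_iff_mem] at h1
      exact hmax.ne_top ((Ideal.eq_top_iff_one _).mpr h1)
    let : Field (R ⧸ maximalIdeal R) := Ideal.Quotient.field _
    have hspan : ∀ w : integralClosure R L ⧸ P₁, ∃ c : R ⧸ maximalIdeal R, c • 1 = w :=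
      (finrank_eq_one_iff_of_nonzero' (1 : integralClosure R L ⧸ P₁) hone).mp hf₁
    -- lift residues
    have hlift : ∀ s : integralClosure R L, ∃ α : R,
        ((s : L) - algebraMap R L α) ∈ O₁.nonunits := by
      intro s
      obtain ⟨c, hc⟩ := hspan (Ideal.Quotient.mk P₁ s)
      obtain ⟨α, rfl⟩ := Ideal.Quotient.mk_surjective c
      refine ⟨α, ?_⟩
      rw [Algebra.smul_def, mul_one, Ideal.Quotient.algebraMap_mk_of_liesOver] at hc
      have h1 : s - algebraMap R (integralClosure R L) α ∈ P₁ :=
        Ideal.Quotient.eq.mp hc.symm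
      exact (mem_unipPrime O₁ h.le₁ _).mp h1
    obtain ⟨α, hα⟩ := hlift a
    obtain ⟨β, hβ⟩ := hlift b
    have hbO : (b : L) ∈ O₁ := unip_mem_of_isIntegral O₁ h.le₁ b.2
    have hbnon : (b : L) ∉ O₁.nonunits := fun hmem => hb ((mem_unipPrime O₁ h.le₁ b).mpr hmem)
    have hvb : O₁.valuation (b : L) = 1 := by
      rcases ValuationSubring.valuation_lt_one_or_eq_one O₁ ⟨(b : L), hbO⟩ with h1 | h1
      · exact absurd ((ValuationSubring.mem_nonunits_iff O₁).mpr h1) hbnon
      · exact h1
    have hβu : IsUnit β := by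
      rw [← notMem_maximalIdeal]
      intro hmem
      apply hbnon
      have h1 := h.dom₁ β hmem
      rw [ValuationSubring.mem_nonunits_iff] at h1 hβ ⊢
      have h2 := Valuation.map_add_lt O₁.valuation hβ h1
      rwa [sub_add_cancel] at h2
    obtain ⟨u, rfl⟩ := hβu
    refine ⟨α * ((u⁻¹ : Rˣ) : R), ?_⟩
    rw [ValuationSubring.mem_nonunits_iff] at hα hβ ⊢
    have hc1 : O₁.valuation (algebraMap R L (α * ((u⁻¹ : Rˣ) : R))) ≤ 1 :=
      (ValuationSubring.valuation_le_one_iff O₁ _).mpr (h.le₁ _)
    have hprod : (x - algebraMap R L (α * ((u⁻¹ : Rˣ) : R))) * (b : L) =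
        ((a : L) - algebraMap R L α) -
          algebraMap R L (α * ((u⁻¹ : Rˣ) : R)) * ((b : L) - algebraMap R L (u : R)) := by
      have h1 : algebraMap R L (α * ((u⁻¹ : Rˣ) : R)) * algebraMap R L (u : R) =
          algebraMap R L α := by
        rw [← map_mul, mul_assoc, Units.inv_mul, mul_one]
      rw [sub_mul, hab, mul_sub, h1]
      ring
    have h3 : O₁.valuation ((x - algebraMap R L (α * ((u⁻¹ : Rˣ) : R))) * (b : L)) < 1 := by
      rw [hprod]
      apply Valuation.map_sub_lt _ hα
      rw [map_mul]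
      calc O₁.valuation (algebraMap R L (α * ((u⁻¹ : Rˣ) : R))) *
            O₁.valuation ((b : L) - algebraMap R L (u : R))
          ≤ 1 * O₁.valuation ((b : L) - algebraMap R L (u : R)) := mul_le_mul_left hc1 _
        _ = O₁.valuation ((b : L) - algebraMap R L (u : R)) := one_mul _
        _ < 1 := hβ
    rwa [map_mul, hvb, mul_one] at h3

end Abs

end Fermat.Agent.UNIP
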