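import Fermat.Agent.UNIP.MGVertLoc

/-!
# UNIP MG-8 "Vert", part 3b: `hVloc₁`, `hVloc₂` for `V = mgvV`

Setting of `MGVertInertia.lean`: `A` a valuation subring of `ℚ̄` over the prime `q`, `K₀ ⊆ ℚ̄`
with `A ∩ K₀` a discrete valuation ring with uniformizer `π`, level `M q`, `q ∤ M`.

* `mgvRed_J_true`, … : the reductions of `j`, `j(Q^q)` at the two cusps (`T`, `T ^ q`, swapped);
* `mgv_prim_J`, `mgv_prim_Jinv` : primitive polynomials in `j` (resp. `1/j`) are units of `V c`;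
* `mgv_hz_J`, `mgv_hz_Jinv` : separating elements on the charts `j`, `1/j`;
* **`mgv_hVloc₁`**, **`mgv_hVloc₂`** : the hypotheses `hVloc₁`, `hVloc₂` of `mgc_main`
  (`at_main_two`) for `V = mgvV hπ ιC hq hqM`, from the hypothesis `hSS1` of `mgc_main`.
-/

set_option autoImplicit false
set_option linter.unusedSectionVars false
set_option linter.style.haveILetI false

noncomputable section

namespace Fermat.Agent.UNIP

open ModularCurve AlgebraicCurve Fermat.Agent.ES Fermat.Agent.ES.G2 Fermat.Agent.INJ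
open Fermat.Agent.AL Polynomial IntermediateField

section ConcreteLoc

variable {A : ValuationSubring Qb} {K₀ : IntermediateField ℚ Qb}
  [IsDiscreteValuationRing ↥(beta0Ring A K₀)] {π : ↥(beta0Ring A K₀)} (hπ : Irreducible π)
  (ιC : ↥K₀ →+* ℂ) {q M : ℕ} [NeZero q] [NeZero M] [NeZero (M * q)]
  (hq : q.Prime) (hqM : ¬ q ∣ M)

theorem mgv_Jq_mem (c : Bool) : mgvJq K₀ M q ∈ mgvV hπ ιC hq hqM c :=
  vtFam_gen_mem (vtBase_residue hπ) ιC hq hqM c (dvd_mul_left q M)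

/-! ### reductions -/

theorem mgvRed_J_true :
    mgvRed hπ ιC hq hqM true ⟨bgJ ↥K₀ (M * q), mgv_T_mem hπ ιC hq hqM true⟩ =
      jqModC (IsLocalRing.ResidueField ↥(beta0Ring A K₀)) :=
  (mgvRed_of_eq hπ ιC hq hqM true _ (mgv_emb_J_true ιC hq hqM)
    (nodesFrobU_j_mem _)).trans (nodesFrobU_gaussRed_j _ _)

theorem mgvRed_Jq_false :
    mgvRed hπ ιC hq hqM false ⟨mgvJq K₀ M q, mgv_Jq_mem hπ ιC hq hqM false⟩ =
      jqModC (IsLocalRing.ResidueField ↥(beta0Ring A K₀)) :=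
  (mgvRed_of_eq hπ ιC hq hqM false _ (mgv_emb_Jq_false ιC hq hqM)
    (nodesFrobU_j_mem _)).trans (nodesFrobU_gaussRed_j _ _)

variable [Fact q.Prime] [CharP (IsLocalRing.ResidueField ↥(beta0Ring A K₀)) q]

theorem mgvRed_Jq_true :
    mgvRed hπ ιC hq hqM true ⟨mgvJq K₀ M q, mgv_Jq_mem hπ ιC hq hqM true⟩ =
      jqModC (IsLocalRing.ResidueField ↥(beta0Ring A K₀)) ^ q :=
  ((mgvRed_of_eq hπ ιC hq hqM true _ (mgv_emb_Jq_true ιC hq hqM)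
    (nodesFrobU_jn_mem _ q)).trans (nodesFrobU_gaussRed_jn _ q _)).trans
      (nodesFrobU_hT_j _ q)

theorem mgvRed_J_false :
    mgvRed hπ ιC hq hqM false ⟨bgJ ↥K₀ (M * q), mgv_T_mem hπ ιC hq hqM false⟩ =
      jqModC (IsLocalRing.ResidueField ↥(beta0Ring A K₀)) ^ q :=
  ((mgvRed_of_eq hπ ιC hq hqM false _ (mgv_emb_J_false ιC hq hqM)
    (nodesFrobU_jn_mem _ q)).trans (nodesFrobU_gaussRed_jn _ q _)).trans
      (nodesFrobU_hT_j _ q)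

/-! ### the chart `j` -/

/-- separating elements on the chart `j` -/
theorem mgv_sep_J :
    (bgJ ↥K₀ (M * q) - mgvJq K₀ M q ^ q ∉ (mgvV hπ ιC hq hqM true).nonunits ∧
        bgJ ↥K₀ (M * q) - mgvJq K₀ M q ^ q ∈ (mgvV hπ ιC hq hqM false).nonunits) ∧
      (mgvJq K₀ M q - bgJ ↥K₀ (M * q) ^ q ∈ (mgvV hπ ιC hq hqM true).nonunits ∧
        mgvJq K₀ M q - bgJ ↥K₀ (M * q) ^ q ∉ (mgvV hπ ιC hq hqM false).nonunits) :=
  vt_sep_of_red (mgvRed hπ ιC hq hqM true) (mgvRed hπ ιC hq hqM false)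
    (mgvRed_eq_zero_iff hπ ιC hq hqM true) (mgvRed_eq_zero_iff hπ ιC hq hqM false)
    (mgv_T_mem hπ ιC hq hqM true) (mgv_T_mem hπ ιC hq hqM false)
    (mgv_Jq_mem hπ ιC hq hqM true) (mgv_Jq_mem hπ ιC hq hqM false)
    (mgvRed_J_true hπ ιC hq hqM) (mgvRed_Jq_true hπ ιC hq hqM)
    (mgvRed_J_false hπ ιC hq hqM) (mgvRed_Jq_false hπ ιC hq hqM)
    (nodesFrobU_hne_j _ hq.two_le)

theorem mgv_isIntegral_J :
    IsIntegral ↥(Algebra.adjoin ↥(beta0Ring A K₀)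
      ({bgJ ↥K₀ (M * q)} : Set ↥(modularFunctionFieldFullC ↥K₀ (M * q)))) (bgJ ↥K₀ (M * q)) :=
  isIntegral_algebraMap (R := ↥(Algebra.adjoin ↥(beta0Ring A K₀)
      ({bgJ ↥K₀ (M * q)} : Set ↥(modularFunctionFieldFullC ↥K₀ (M * q)))))
    (x := ⟨bgJ ↥K₀ (M * q), Algebra.subset_adjoin rfl⟩)

include hq in
theorem mgv_isIntegral_Jq :
    IsIntegral ↥(Algebra.adjoin ↥(beta0Ring A K₀)
      ({bgJ ↥K₀ (M * q)} : Set ↥(modularFunctionFieldFullC ↥K₀ (M * q)))) (mgvJq K₀ M q) := by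
  have h : IsIntegral ↥(Algebra.adjoin ↥(beta0Ring A K₀)
      ({nodesFrobJ ↥K₀ M q} : Set ↥(modularFunctionFieldFullC ↥K₀ (M * q))))
      (nodesFrobJq ↥K₀ M q) :=
    @nodesSwap_isIntegral_Jq ↥(beta0Ring A K₀) ↥K₀ _ _ _ _ _ q M _ _ _
      (mgcInstAlgebraA (M * q) _) (mgcInstTower (M * q) _) hq
  have e : nodesFrobJ ↥K₀ M q = bgJ ↥K₀ (M * q) := rfl
  rw [e] at h
  exact h

/-- **separating elements** on the chart `j` -/
theorem mgv_hz_J (c : Bool) :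
    ∃ z : ↥(modularFunctionFieldFullC ↥K₀ (M * q)),
      IsIntegral ↥(Algebra.adjoin ↥(beta0Ring A K₀)
        ({bgJ ↥K₀ (M * q)} : Set ↥(modularFunctionFieldFullC ↥K₀ (M * q)))) z ∧
      z ∉ (mgvV hπ ιC hq hqM c).nonunits ∧ z ∈ (mgvV hπ ιC hq hqM (!c)).nonunits := by
  obtain ⟨⟨h1, h2⟩, h3, h4⟩ := mgv_sep_J hπ ιC hq hqM
  have hJ := mgv_isIntegral_J (A := A) (K₀ := K₀) (M := M) (q := q)
  have hJq := mgv_isIntegral_Jq (A := A) (K₀ := K₀) (M := M) (q := q) hq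
  cases c
  · refine ⟨mgvJq K₀ M q - bgJ ↥K₀ (M * q) ^ q, ?_, h4, h3⟩
    exact IsIntegral.sub hJq (IsIntegral.pow hJ q)
  · refine ⟨bgJ ↥K₀ (M * q) - mgvJq K₀ M q ^ q, ?_, h1, h2⟩
    exact IsIntegral.sub hJ (IsIntegral.pow hJq q)

/-- **primitive polynomials in `j` are units of `V c`** -/
theorem mgv_prim_J (c : Bool) (s : ↥(modularFunctionFieldFullC ↥K₀ (M * q)))
    (hs : EIPrimeTo π (bgJ ↥K₀ (M * q)) s) : s ∉ (mgvV hπ ιC hq hqM c).nonunits := by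
  cases c
  · have hu : vtEmbFam ιC hq hqM false (bgJ ↥K₀ (M * q)) ∈
        gaussRing (algebraMap ↥(beta0Ring A K₀) ↥K₀) (IsLocalRing.residue ↥(beta0Ring A K₀)) := by
      rw [mgv_emb_J_false]; exact nodesFrobU_jn_mem _ q
    refine vtSub_prim (vtBase_residue hπ) (vtEmbFam ιC hq hqM false)
      (vt_frac_fam (vtBase_residue hπ) ιC hq hqM false)
      (mgv_emb_algebraMap ιC hq hqM false) hu ?_ hs
    have e1 : gaussRed (IsLocalRing.residue ↥(beta0Ring A K₀))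
        (IsFractionRing.injective ↥(beta0Ring A K₀) ↥K₀)
        ⟨vtEmbFam ιC hq hqM false (bgJ ↥K₀ (M * q)), hu⟩ =
        jqModC (IsLocalRing.ResidueField ↥(beta0Ring A K₀)) ^ q :=
      mgvRed_J_false hπ ιC hq hqM
    rw [e1]
    exact (nodesFrobU_transcendental_j _).pow hq.pos
  · have hu : vtEmbFam ιC hq hqM true (bgJ ↥K₀ (M * q)) ∈
        gaussRing (algebraMap ↥(beta0Ring A K₀) ↥K₀) (IsLocalRing.residue ↥(beta0Ring A K₀)) :=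
      nodesFrobU_j_mem _
    refine vtSub_prim (vtBase_residue hπ) (vtEmbFam ιC hq hqM true)
      (vt_frac_fam (vtBase_residue hπ) ιC hq hqM true)
      (mgv_emb_algebraMap ιC hq hqM true) hu ?_ hs
    have e1 : gaussRed (IsLocalRing.residue ↥(beta0Ring A K₀))
        (IsFractionRing.injective ↥(beta0Ring A K₀) ↥K₀)
        ⟨vtEmbFam ιC hq hqM true (bgJ ↥K₀ (M * q)), hu⟩ =
        jqModC (IsLocalRing.ResidueField ↥(beta0Ring A K₀)) :=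
      mgvRed_J_true hπ ιC hq hqM
    rw [e1]
    exact nodesFrobU_transcendental_j _

/-! ### the chart `1 / j` -/

omit [Fact q.Prime] [CharP (IsLocalRing.ResidueField ↥(beta0Ring A K₀)) q] in
/-- the reduction of an inverse -/
theorem mgvRed_inv (c : Bool) {x : ↥(modularFunctionFieldFullC ↥K₀ (M * q))}
    (hx : x ∈ mgvV hπ ιC hq hqM c) (hx' : x⁻¹ ∈ mgvV hπ ιC hq hqM c) (hx0 : x ≠ 0) :
    mgvRed hπ ιC hq hqM c ⟨x⁻¹, hx'⟩ = (mgvRed hπ ιC hq hqM c ⟨x, hx⟩)⁻¹ := by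
  have h1 : (⟨x⁻¹, hx'⟩ : ↥(mgvV hπ ιC hq hqM c)) * ⟨x, hx⟩ = 1 :=
    Subtype.ext (inv_mul_cancel₀ hx0)
  have h2 := congrArg (mgvRed hπ ιC hq hqM c) h1
  rw [map_mul, map_one] at h2
  exact eq_inv_of_mul_eq_one_left h2

omit [Fact q.Prime] [CharP (IsLocalRing.ResidueField ↥(beta0Ring A K₀)) q] in
theorem mgv_bgJ_ne_zero : bgJ ↥K₀ (M * q) ≠ 0 := by
  intro h
  have h1 := congrArg (fun z : ↥(modularFunctionFieldFullC ↥K₀ (M * q)) =>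
    (z : LaurentSeries ↥K₀)) h
  exact jqModC_ne_zero_of_nontrivial ↥K₀ h1

omit [Fact q.Prime] [CharP (IsLocalRing.ResidueField ↥(beta0Ring A K₀)) q] in
theorem mgvRed_Jinv_true :
    mgvRed hπ ιC hq hqM true ⟨(bgJ ↥K₀ (M * q))⁻¹, mgv_T_inv_mem hπ ιC hq hqM true⟩ =
      (jqModC (IsLocalRing.ResidueField ↥(beta0Ring A K₀)))⁻¹ := by
  rw [mgvRed_inv hπ ιC hq hqM true (mgv_T_mem hπ ιC hq hqM true) _ mgv_bgJ_ne_zero,
    mgvRed_J_true]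

theorem mgvRed_Jinv_false :
    mgvRed hπ ιC hq hqM false ⟨(bgJ ↥K₀ (M * q))⁻¹, mgv_T_inv_mem hπ ιC hq hqM false⟩ =
      (jqModC (IsLocalRing.ResidueField ↥(beta0Ring A K₀)))⁻¹ ^ q := by
  rw [mgvRed_inv hπ ιC hq hqM false (mgv_T_mem hπ ιC hq hqM false) _ mgv_bgJ_ne_zero,
    mgvRed_J_false, inv_pow]

/-- **primitive polynomials in `1 / j` are units of `V c`** -/
theorem mgv_prim_Jinv (c : Bool) (s : ↥(modularFunctionFieldFullC ↥K₀ (M * q)))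
    (hs : EIPrimeTo π (bgJ ↥K₀ (M * q))⁻¹ s) : s ∉ (mgvV hπ ιC hq hqM c).nonunits := by
  cases c
  · have hu : vtEmbFam ιC hq hqM false (bgJ ↥K₀ (M * q))⁻¹ ∈
        gaussRing (algebraMap ↥(beta0Ring A K₀) ↥K₀) (IsLocalRing.residue ↥(beta0Ring A K₀)) :=
      mgv_T_inv_mem hπ ιC hq hqM false
    refine vtSub_prim (vtBase_residue hπ) (vtEmbFam ιC hq hqM false)
      (vt_frac_fam (vtBase_residue hπ) ιC hq hqM false)
      (mgv_emb_algebraMap ιC hq hqM false) hu ?_ hs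
    have e1 : gaussRed (IsLocalRing.residue ↥(beta0Ring A K₀))
        (IsFractionRing.injective ↥(beta0Ring A K₀) ↥K₀)
        ⟨vtEmbFam ιC hq hqM false (bgJ ↥K₀ (M * q))⁻¹, hu⟩ =
        (jqModC (IsLocalRing.ResidueField ↥(beta0Ring A K₀)))⁻¹ ^ q :=
      mgvRed_Jinv_false hπ ιC hq hqM
    rw [e1]
    exact (nodesFrobU_transcendental_jinv _).pow hq.pos
  · have hu : vtEmbFam ιC hq hqM true (bgJ ↥K₀ (M * q))⁻¹ ∈
        gaussRing (algebraMap ↥(beta0Ring A K₀) ↥K₀) (IsLocalRing.residue ↥(beta0Ring A K₀)) :=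
      mgv_T_inv_mem hπ ιC hq hqM true
    refine vtSub_prim (vtBase_residue hπ) (vtEmbFam ιC hq hqM true)
      (vt_frac_fam (vtBase_residue hπ) ιC hq hqM true)
      (mgv_emb_algebraMap ιC hq hqM true) hu ?_ hs
    have e1 : gaussRed (IsLocalRing.residue ↥(beta0Ring A K₀))
        (IsFractionRing.injective ↥(beta0Ring A K₀) ↥K₀)
        ⟨vtEmbFam ιC hq hqM true (bgJ ↥K₀ (M * q))⁻¹, hu⟩ =
        (jqModC (IsLocalRing.ResidueField ↥(beta0Ring A K₀)))⁻¹ :=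
      mgvRed_Jinv_true hπ ιC hq hqM
    rw [e1]
    exact nodesFrobU_transcendental_jinv _

/-- the swap element on the chart `1 / j` -/
theorem mgv_exists_swap_Jinv :
    ∃ b₁ : ↥(modularFunctionFieldFullC ↥K₀ (M * q)),
      IsIntegral ↥(Algebra.adjoin ↥(beta0Ring A K₀)
        ({(bgJ ↥K₀ (M * q))⁻¹} : Set ↥(modularFunctionFieldFullC ↥K₀ (M * q)))) b₁ ∧
      ∃ (h : b₁ ∈ mgvV hπ ιC hq hqM true) (h' : b₁ ∈ mgvV hπ ιC hq hqM false),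
        mgvRed hπ ιC hq hqM true ⟨b₁, h⟩ =
          (jqModC (IsLocalRing.ResidueField ↥(beta0Ring A K₀)))⁻¹ ^ q ∧
        mgvRed hπ ιC hq hqM false ⟨b₁, h'⟩ =
          (jqModC (IsLocalRing.ResidueField ↥(beta0Ring A K₀)))⁻¹ := by
  have hB := vtBase_residue (E := ↥K₀) hπ
  obtain ⟨b₁, H1, H2⟩ := nodesSwap_swapGen_Jinv (A := ↥(beta0Ring A K₀)) (E := ↥K₀)
    (IsLocalRing.residue ↥(beta0Ring A K₀)) ιC hq hqM hπ.ne_zero hπ.not_isUnit hB.ker hB.rπ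
    (bgJ ↥K₀ (M * q))⁻¹ rfl (mgv_T_inv_mem hπ ιC hq hqM true) (mgv_T_inv_mem hπ ιC hq hqM false)
  have hint : IsIntegral ↥(Algebra.adjoin ↥(beta0Ring A K₀)
      ({(bgJ ↥K₀ (M * q))⁻¹} : Set ↥(modularFunctionFieldFullC ↥K₀ (M * q))))
      (b₁ : ↥(modularFunctionFieldFullC ↥K₀ (M * q))) := b₁.2
  refine ⟨b₁, hint, mgv_hBV₂ hπ ιC hq hqM true _ hint, mgv_hBV₂ hπ ιC hq hqM false _ hint, ?_, ?_⟩
  · refine Eq.trans ?_ (H1.trans ?_)
    · rfl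
    · rw [nodesFrobU_hT_j _ q, inv_pow]
  · exact Eq.trans rfl H2

/-- separating elements on the chart `1 / j` -/
theorem mgv_hz_Jinv (c : Bool) :
    ∃ z : ↥(modularFunctionFieldFullC ↥K₀ (M * q)),
      IsIntegral ↥(Algebra.adjoin ↥(beta0Ring A K₀)
        ({(bgJ ↥K₀ (M * q))⁻¹} : Set ↥(modularFunctionFieldFullC ↥K₀ (M * q)))) z ∧
      z ∉ (mgvV hπ ιC hq hqM c).nonunits ∧ z ∈ (mgvV hπ ιC hq hqM (!c)).nonunits := by
  obtain ⟨b₁, hb₁, hV, hV', h2, h4⟩ := mgv_exists_swap_Jinv hπ ιC hq hqM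
  obtain ⟨⟨h1', h2'⟩, h3', h4'⟩ := vt_sep_of_red (mgvRed hπ ιC hq hqM true)
    (mgvRed hπ ιC hq hqM false)
    (mgvRed_eq_zero_iff hπ ιC hq hqM true) (mgvRed_eq_zero_iff hπ ιC hq hqM false)
    (mgv_T_inv_mem hπ ιC hq hqM true) (mgv_T_inv_mem hπ ιC hq hqM false) hV hV'
    (mgvRed_Jinv_true hπ ιC hq hqM) h2 (mgvRed_Jinv_false hπ ιC hq hqM) h4
    (nodesFrobU_hne_jinv _ hq.two_le)
  have hT : IsIntegral ↥(Algebra.adjoin ↥(beta0Ring A K₀)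
      ({(bgJ ↥K₀ (M * q))⁻¹} : Set ↥(modularFunctionFieldFullC ↥K₀ (M * q))))
      (bgJ ↥K₀ (M * q))⁻¹ :=
    isIntegral_algebraMap (R := ↥(Algebra.adjoin ↥(beta0Ring A K₀)
        ({(bgJ ↥K₀ (M * q))⁻¹} : Set ↥(modularFunctionFieldFullC ↥K₀ (M * q)))))
      (x := ⟨(bgJ ↥K₀ (M * q))⁻¹, Algebra.subset_adjoin rfl⟩)
  cases c
  · refine ⟨b₁ - (bgJ ↥K₀ (M * q))⁻¹ ^ q, ?_, h4', h3'⟩
    exact IsIntegral.sub hb₁ (IsIntegral.pow hT q)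
  · refine ⟨(bgJ ↥K₀ (M * q))⁻¹ - b₁ ^ q, ?_, h1', h2'⟩
    exact IsIntegral.sub hT (IsIntegral.pow hb₁ q)

end ConcreteLoc

section Final

variable {A : ValuationSubring Qb} {K₀ : IntermediateField ℚ Qb}
  [IsDiscreteValuationRing ↥(beta0Ring A K₀)] {π : ↥(beta0Ring A K₀)} (hπ : Irreducible π)
  (ιC : ↥K₀ →+* ℂ) {q M : ℕ} [NeZero q] [NeZero M] [NeZero (M * q)]
  (hq : q.Prime) (hqM : ¬ q ∣ M)

/-- **hVloc₁**: on the chart `j`, `V c` is the localisation of the chart at `𝔪(V c) ∩ B`. -/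
theorem mgv_hVloc₁ (hA : A.LiesOverPrime q)
    (hSS1 : ∀ b : ↥(modularFunctionFieldFullC ↥K₀ (M * q)),
      IsIntegral ↥(Algebra.adjoin ↥(beta0Ring A K₀)
        ({bgJ ↥K₀ (M * q)} : Set ↥(modularFunctionFieldFullC ↥K₀ (M * q)))) b →
      (∀ c, b ∈ (mgvV hπ ιC hq hqM c).nonunits) →
      ∃ b' : ↥(modularFunctionFieldFullC ↥K₀ (M * q)),
        IsIntegral ↥(Algebra.adjoin ↥(beta0Ring A K₀)
          ({bgJ ↥K₀ (M * q)} : Set ↥(modularFunctionFieldFullC ↥K₀ (M * q)))) b' ∧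
        b = algebraMap ↥(beta0Ring A K₀) ↥(modularFunctionFieldFullC ↥K₀ (M * q)) π * b') :
    ∀ c (x : ↥(modularFunctionFieldFullC ↥K₀ (M * q))), x ∈ mgvV hπ ιC hq hqM c →
      ∃ b s : ↥(modularFunctionFieldFullC ↥K₀ (M * q)),
      IsIntegral ↥(Algebra.adjoin ↥(beta0Ring A K₀)
        ({bgJ ↥K₀ (M * q)} : Set ↥(modularFunctionFieldFullC ↥K₀ (M * q)))) b ∧
      IsIntegral ↥(Algebra.adjoin ↥(beta0Ring A K₀)
        ({bgJ ↥K₀ (M * q)} : Set ↥(modularFunctionFieldFullC ↥K₀ (M * q)))) s ∧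
      s ∉ (mgvV hπ ιC hq hqM c).nonunits ∧ s * x = b := by
  haveI : Fact q.Prime := ⟨hq⟩
  haveI : CharP (IsLocalRing.ResidueField ↥(beta0Ring A K₀)) q := frobLift_charP A K₀ hq hA
  haveI : FiniteDimensional (↥K₀)⟮bgJ ↥K₀ (M * q)⟯ ↥(modularFunctionFieldFullC ↥K₀ (M * q)) :=
    bgFin_finiteDimensional_full ↥K₀ (M * q)
  exact vt_hVloc_of_ss1 (bgConst_transcendental_bgJ ↥K₀ (M * q)) hπ (mgvV hπ ιC hq hqM)
    (mgv_hBV₁ hπ ιC hq hqM) (mgv_hπV hπ ιC hq hqM) hSS1 (mgv_prim_J hπ ιC hq hqM)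
    (mgv_hz_J hπ ιC hq hqM)

/-- **hVloc₂**: on the chart `1 / j`, `V c` is the localisation of the chart at `𝔪(V c) ∩ B`
(from (SS1) on the chart `j`). -/
theorem mgv_hVloc₂ (hA : A.LiesOverPrime q)
    (hSS1 : ∀ b : ↥(modularFunctionFieldFullC ↥K₀ (M * q)),
      IsIntegral ↥(Algebra.adjoin ↥(beta0Ring A K₀)
        ({bgJ ↥K₀ (M * q)} : Set ↥(modularFunctionFieldFullC ↥K₀ (M * q)))) b →
      (∀ c, b ∈ (mgvV hπ ιC hq hqM c).nonunits) →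
      ∃ b' : ↥(modularFunctionFieldFullC ↥K₀ (M * q)),
        IsIntegral ↥(Algebra.adjoin ↥(beta0Ring A K₀)
          ({bgJ ↥K₀ (M * q)} : Set ↥(modularFunctionFieldFullC ↥K₀ (M * q)))) b' ∧
        b = algebraMap ↥(beta0Ring A K₀) ↥(modularFunctionFieldFullC ↥K₀ (M * q)) π * b') :
    ∀ c (x : ↥(modularFunctionFieldFullC ↥K₀ (M * q))), x ∈ mgvV hπ ιC hq hqM c →
      ∃ b s : ↥(modularFunctionFieldFullC ↥K₀ (M * q)),
      IsIntegral ↥(Algebra.adjoin ↥(beta0Ring A K₀)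
        ({(bgJ ↥K₀ (M * q))⁻¹} : Set ↥(modularFunctionFieldFullC ↥K₀ (M * q)))) b ∧
      IsIntegral ↥(Algebra.adjoin ↥(beta0Ring A K₀)
        ({(bgJ ↥K₀ (M * q))⁻¹} : Set ↥(modularFunctionFieldFullC ↥K₀ (M * q)))) s ∧
      s ∉ (mgvV hπ ιC hq hqM c).nonunits ∧ s * x = b := by
  haveI : Fact q.Prime := ⟨hq⟩
  haveI : CharP (IsLocalRing.ResidueField ↥(beta0Ring A K₀)) q := frobLift_charP A K₀ hq hA
  haveI : FiniteDimensional (↥K₀)⟮bgJ ↥K₀ (M * q)⟯ ↥(modularFunctionFieldFullC ↥K₀ (M * q)) :=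
    bgFin_finiteDimensional_full ↥K₀ (M * q)
  haveI : FiniteDimensional (↥K₀)⟮(bgJ ↥K₀ (M * q))⁻¹⟯
      ↥(modularFunctionFieldFullC ↥K₀ (M * q)) :=
    at_finiteDimensional_inv (bgJ ↥K₀ (M * q))
  have ht := bgConst_transcendental_bgJ ↥K₀ (M * q)
  exact vt_hVloc_of_ss1 (zch_transcendental_inv ht) hπ (mgvV hπ ιC hq hqM)
    (mgv_hBV₂ hπ ιC hq hqM) (mgv_hπV hπ ιC hq hqM)
    (ats_SS1_inv ht hπ (mgvV hπ ιC hq hqM) (mgv_hBV₁ hπ ιC hq hqM) hSS1)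
    (mgv_prim_Jinv hπ ιC hq hqM) (mgv_hz_Jinv hπ ιC hq hqM)

end Final

end Fermat.Agent.UNIP
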