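import Fermat.Agent.ES.G2.HeckeDeg

/-!
# UNIP / U5, piece Deg (helper6): `[F_{Mq} : F_M] ≤ q + 1` in element form

`F_N = modularFunctionFieldFullC K N = K(j(q^d) : d ∣ N) ⊂ K((q))`, `K` any field of characteristic
`0`, `q` a prime, `q ∤ M`.

* `nodesDeg_finrank` : `finrank F_M F_{Mq} = q + 1` (`IntermediateField.extendScalars`),
  `nodesDeg_finiteDimensional`;
* `nodesDeg_dependent` : any family `x : ι → K((q))` of elements of `F_{Mq}` with
  `q + 1 < card ι` satisfies a nontrivial linear relation with coefficients in `F_M`;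
* `nodesDeg_dependent_fin` : the same for `ι = Fin (q + 2)`.

Source: `Fermat.Agent.ES.G2.hdeg_relfinrank_fullC` (Igusa's degree theorem, S28, + tower law).
-/

set_option autoImplicit false

noncomputable section

namespace Fermat.Agent.UNIP

open ModularCurve IntermediateField

variable (K : Type*) [Field K]

theorem nodesDeg_le (M q : ℕ) [NeZero M] [NeZero q] :
    modularFunctionFieldFullC K M ≤ modularFunctionFieldFullC K (M * q) :=
  Fermat.Agent.S28.UB.full_mono K (Dvd.intro _ rfl)

variable [CharZero K]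

/-- `[F_{Mq} : F_M] = q + 1`. -/
theorem nodesDeg_finrank (M q : ℕ) [NeZero M] [NeZero q] (hq : q.Prime) (hqM : ¬ q ∣ M) :
    Module.finrank (modularFunctionFieldFullC K M)
      (extendScalars (nodesDeg_le K M q)) = q + 1 := by
  rw [← relfinrank_eq_finrank_of_le (nodesDeg_le K M q)]
  exact Fermat.Agent.ES.G2.hdeg_relfinrank_fullC K M q hq hqM

theorem nodesDeg_finiteDimensional (M q : ℕ) [NeZero M] [NeZero q] (hq : q.Prime)
    (hqM : ¬ q ∣ M) :
    FiniteDimensional (modularFunctionFieldFullC K M) (extendScalars (nodesDeg_le K M q)) := by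
  apply Module.finite_of_finrank_pos
  rw [nodesDeg_finrank K M q hq hqM]
  exact Nat.succ_pos q

/-- **Deg**: more than `q + 1` elements of `F_{Mq}` are linearly dependent over `F_M`. -/
theorem nodesDeg_dependent (M q : ℕ) [NeZero M] [NeZero q] (hq : q.Prime) (hqM : ¬ q ∣ M)
    {ι : Type*} [Fintype ι] (hι : q + 1 < Fintype.card ι) (x : ι → LaurentSeries K)
    (hx : ∀ i, x i ∈ modularFunctionFieldFullC K (M * q)) :
    ∃ c : ι → LaurentSeries K, (∀ i, c i ∈ modularFunctionFieldFullC K M) ∧
      (∃ i, c i ≠ 0) ∧ ∑ i, c i * x i = 0 := by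
  classical
  have := nodesDeg_finiteDimensional K M q hq hqM
  let v : ι → extendScalars (nodesDeg_le K M q) := fun i => ⟨x i, hx i⟩
  have hdep : ¬ LinearIndependent (modularFunctionFieldFullC K M) v := by
    intro hli
    have := hli.fintype_card_le_finrank
    rw [nodesDeg_finrank K M q hq hqM] at this
    omega
  rw [Fintype.not_linearIndependent_iff] at hdep
  obtain ⟨g, hg, i, hi⟩ := hdep
  refine ⟨fun i => (g i : LaurentSeries K), fun i => (g i).2, ⟨i, ?_⟩, ?_⟩
  · intro h0
    apply hi
    exact Subtype.ext h0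
  · have h1 : (extendScalars (nodesDeg_le K M q)).val (∑ i, g i • v i) = 0 := by
      rw [hg, map_zero]
    rw [map_sum] at h1
    rw [← h1]
    rfl

/-- **Deg**, for `q + 2` elements. -/
theorem nodesDeg_dependent_fin (M q : ℕ) [NeZero M] [NeZero q] (hq : q.Prime) (hqM : ¬ q ∣ M)
    (x : Fin (q + 2) → LaurentSeries K)
    (hx : ∀ i, x i ∈ modularFunctionFieldFullC K (M * q)) :
    ∃ c : Fin (q + 2) → LaurentSeries K, (∀ i, c i ∈ modularFunctionFieldFullC K M) ∧
      (∃ i, c i ≠ 0) ∧ ∑ i, c i * x i = 0 :=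
  nodesDeg_dependent K M q hq hqM (by simp) x hx

end Fermat.Agent.UNIP
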