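import Fermat.Agent.UNIP.NodesFrob
import Fermat.Agent.UNIP.NodesCuspPoly
import Fermat.Agent.S28.PrimeHypMain
import Fermat.Agent.S28.IntegralJd

/-!
# UNIP / U5 (Nodes), piece SWAP, part 1 (helper6): `ρ₀` and the modular equation

Base convention of `NodesFrob.lean` (helper25): `A` a domain, `E = Frac A`, `r : A →+* k`,
`G = gaussRing (algebraMap A E) r`, `ρ = gaussRed`, `F = modularFunctionFieldFullC E (M * q)`,
`w = AL.atkinLehner E ιC hq hqM`, `J = nodesFrobJ`, `Jq = nodesFrobJq`.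

* `nodesSwapRho₀ r hπ0 hπ hr hrπ hF w t ht : integralClosure A[t] F →+* k((Q))`,
  `b ↦ ρ ⟨w b, _⟩`, for ANY `E`-endomorphism `w` of `F` and any `t` with `w t ∈ G`
  (`nodesSwapRho₀_apply`, by `rfl`); for `w = id` it is `nodesFrobChartRed`.
* `nodesSwapPhi q hq` : the integral modular polynomial `Φ ∈ ℤ[Y][X]` of level `q` (monic of
  `X`-degree `q + 1`), with `Φ(j(Q^q), j) = 0 = Φ(j, j(Q^q))` over every commutative ring
  (`nodesSwapPhi_series`, `nodesSwapPhi_series'`) and in `F` (`nodesSwapPhi_eval`,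
  `nodesSwapPhi_eval'`).
* `nodesSwap_isIntegral_of_evalInt` : `Φ ∈ ℤ[Y][X]` monic, `Φ(y, x) = 0` ⟹ `y` integral over `A[x]`.
The charts `j` and `1/j` are in `NodesSwapJ.lean` and `NodesSwapInv.lean`.
-/

set_option autoImplicit false

noncomputable section

namespace Fermat.Agent.UNIP

open ModularCurve Polynomial IntermediateField Fermat.Agent.INJ Fermat.Agent.AL Fermat.Agent.S28

/-! ## `ρ₀` as a ring homomorphism on a chart -/

section Rho0

set_option synthInstance.maxHeartbeats 400000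

variable {A E k : Type*} [CommRing A] [IsDomain A] [Field E] [Algebra A E] [IsFractionRing A E]
  [Field k] (r : A →+* k) {π : A}

/-- The reduction `ρ₀ = ρ ∘ w` on the chart `integralClosure A[t] F`, for an `E`-endomorphism `w`
of `F` and `t` with `w t` in the Gauss ring. -/
def nodesSwapRho₀ [WfDvdMonoid A] (hπ0 : π ≠ 0) (hπ : ¬ IsUnit π)
    (hr : ∀ a, r a = 0 → π ∣ a) (hrπ : r π = 0)
    {F : IntermediateField E (LaurentSeries E)} (hF : F ≤ nodesFrobFrac A E)
    [Algebra A F] [IsScalarTower A E F] (w : F →ₐ[E] F) (t : F)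
    (ht : ((w t : F) : LaurentSeries E) ∈ gaussRing (algebraMap A E) r) :
    integralClosure (Algebra.adjoin A {t}) F →+* LaurentSeries k :=
  (gaussRed r (IsFractionRing.injective A E)).comp
    (((F.val.toRingHom.comp w.toRingHom).comp
        (integralClosure (Algebra.adjoin A {t}) F).val.toRingHom).codRestrict
      (gaussRing (algebraMap A E) r)
      (fun x => nodesFrob_G1 r hπ0 hπ hr hrπ hF w t ht x.2))

theorem nodesSwapRho₀_apply [WfDvdMonoid A] (hπ0 : π ≠ 0) (hπ : ¬ IsUnit π)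
    (hr : ∀ a, r a = 0 → π ∣ a) (hrπ : r π = 0)
    {F : IntermediateField E (LaurentSeries E)} (hF : F ≤ nodesFrobFrac A E)
    [Algebra A F] [IsScalarTower A E F] (w : F →ₐ[E] F) (t : F)
    (ht : ((w t : F) : LaurentSeries E) ∈ gaussRing (algebraMap A E) r)
    (b : integralClosure (Algebra.adjoin A {t}) F)
    (hbG : ((w (b : F) : F) : LaurentSeries E) ∈ gaussRing (algebraMap A E) r) :
    nodesSwapRho₀ r hπ0 hπ hr hrπ hF w t ht b =
      gaussRed r (IsFractionRing.injective A E) ⟨_, hbG⟩ := rfl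

/-- For `w = id`, `ρ₀` is `ρ`. -/
theorem nodesSwapRho₀_id [WfDvdMonoid A] (hπ0 : π ≠ 0) (hπ : ¬ IsUnit π)
    (hr : ∀ a, r a = 0 → π ∣ a) (hrπ : r π = 0)
    {F : IntermediateField E (LaurentSeries E)} (hF : F ≤ nodesFrobFrac A E)
    [Algebra A F] [IsScalarTower A E F] (t : F)
    (ht : (t : LaurentSeries E) ∈ gaussRing (algebraMap A E) r) :
    nodesSwapRho₀ r hπ0 hπ hr hrπ hF (AlgHom.id E F) t ht =
      nodesFrobChartRed r hπ0 hπ hr hrπ hF t ht := rfl

end Rho0

/-! ## The integral modular equation -/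

section Phi

/-- The integral modular polynomial of prime level `q`: `Φ ∈ ℤ[Y][X]` (outer variable `X`). -/
def nodesSwapPhi (q : ℕ) [NeZero q] (hq : q.Prime) : Polynomial (Polynomial ℤ) :=
  Classical.choose (modEq_int q hq)

variable (q : ℕ) [NeZero q] (hq : q.Prime)

theorem nodesSwapPhi_monic : (nodesSwapPhi q hq).Monic :=
  (Classical.choose_spec (modEq_int q hq)).1

theorem nodesSwapPhi_natDegree : (nodesSwapPhi q hq).natDegree = q + 1 :=
  (Classical.choose_spec (modEq_int q hq)).2.1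

/-- `Φ(j(Q^q), j) = 0` over every commutative ring. -/
theorem nodesSwapPhi_series (R : Type*) [CommRing R] :
    (nodesSwapPhi q hq).eval₂ (evalInt (jqModC R)) (qExpand R q (jqModC R)) = 0 := by
  have h : (nodesSwapPhi q hq).eval₂ (Polynomial.aeval (R := ℤ) (jqModC ℤ)).toRingHom
      (qExpand ℤ q (jqModC ℤ)) = 0 := (Classical.choose_spec (modEq_int q hq)).2.2.1
  have e : (Polynomial.aeval (R := ℤ) (jqModC ℤ)).toRingHom = evalInt (jqModC ℤ) := by
    rw [ringHom_eq_evalInt (Polynomial.aeval (R := ℤ) (jqModC ℤ)).toRingHom]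
    congr 1
    simp
  rw [e] at h
  have h2 := congrArg (coeffMap (Int.castRingHom R)) h
  rw [map_eval₂_evalInt, map_zero, coeffMap_qExpand, coeffMap_jqModC] at h2
  exact h2

/-- `Φ(j, j(Q^q)) = 0` over every commutative ring. -/
theorem nodesSwapPhi_series' (R : Type*) [CommRing R] :
    (nodesSwapPhi q hq).eval₂ (evalInt (qExpand R q (jqModC R))) (jqModC R) = 0 := by
  have h : (nodesSwapPhi q hq).eval₂
      (Polynomial.aeval (R := ℤ) (qExpand ℤ q (jqModC ℤ))).toRingHom (jqModC ℤ) = 0 :=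
    (Classical.choose_spec (modEq_int q hq)).2.2.2
  have e : (Polynomial.aeval (R := ℤ) (qExpand ℤ q (jqModC ℤ))).toRingHom =
      evalInt (qExpand ℤ q (jqModC ℤ)) := by
    rw [ringHom_eq_evalInt (Polynomial.aeval (R := ℤ) (qExpand ℤ q (jqModC ℤ))).toRingHom]
    congr 1
    simp
  rw [e] at h
  have h2 := congrArg (coeffMap (Int.castRingHom R)) h
  rw [map_eval₂_evalInt, map_zero, coeffMap_qExpand, coeffMap_jqModC] at h2
  exact h2

variable (E : Type*) [Field E] (M : ℕ) [NeZero M] [NeZero (M * q)]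

/-- `Φ(Jq, J) = 0` in `F_{Mq}`. -/
theorem nodesSwapPhi_eval :
    (nodesSwapPhi q hq).eval₂ (evalInt (nodesFrobJ E M q)) (nodesFrobJq E M q) = 0 := by
  apply (modularFunctionFieldFullC E (M * q)).val.toRingHom.injective
  rw [map_eval₂_evalInt, map_zero]
  exact nodesSwapPhi_series q hq E

/-- `Φ(J, Jq) = 0` in `F_{Mq}`. -/
theorem nodesSwapPhi_eval' :
    (nodesSwapPhi q hq).eval₂ (evalInt (nodesFrobJq E M q)) (nodesFrobJ E M q) = 0 := by
  apply (modularFunctionFieldFullC E (M * q)).val.toRingHom.injective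
  rw [map_eval₂_evalInt, map_zero]
  exact nodesSwapPhi_series' q hq E

end Phi

/-! ## Integrality from a monic two-variable relation over `ℤ` -/

section Int

/-- If `Φ ∈ ℤ[Y][X]` is monic in `X` and `Φ(y, x) = 0`, then `y` is integral over `A[x]`. -/
theorem nodesSwap_isIntegral_of_evalInt {A S : Type*} [CommRing A] [CommRing S] [Algebra A S]
    {Φ : Polynomial (Polynomial ℤ)} (hΦ : Φ.Monic) {x y : S}
    (h : Φ.eval₂ (evalInt x) y = 0) : IsIntegral (Algebra.adjoin A {x}) y := by
  rw [cusp_isIntegral_adjoin_iff]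
  refine ⟨Φ.map (mapRingHom (Int.castRingHom A)), hΦ.map _, ?_⟩
  rw [eval₂_map]
  have e : (((aeval x : Polynomial A →ₐ[A] S) : Polynomial A →+* S)).comp
      (mapRingHom (Int.castRingHom A)) = evalInt x := by
    rw [ringHom_eq_evalInt ((((aeval x : Polynomial A →ₐ[A] S) : Polynomial A →+* S)).comp
      (mapRingHom (Int.castRingHom A)))]
    congr 1
    simp
  rw [e]
  exact h

end Int

end Fermat.Agent.UNIP
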