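/-
UNIP (S34/S35), direct route, piece MG-5a "chart hypotheses of (T′)", base (SS1) (helper16).

The hypothesis (SS1) AT THE BASE for the two vertical valuations `V_∞`, `V_0` of `F_{Mq}(K₀)`
(`vtFam` of `MGVert.lean`, `mgvV` of `MGVertInertia.lean`), from U5's kernel form
`ρ x = 0 → ρ₀ x = 0 → π ∣ x` (`nodesFull_ker_J`, `nodesFull_ker_Jinv`, `nodes_modular_ker`):

* `mgcb_gaussRing_congr`, `mgcb_vtFam_congr` : the Gauss ring and the vertical valuations only
  depend on the kernel of the reduction `r`;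
* `mgcb_rho_eq_zero_iff`  : `ρ x = 0 ↔ x ∈ 𝔪(V_∞)` on any chart (`ρ = nodesFrobChartRed`);
* `mgcb_rho₀_eq_zero_iff` : `ρ₀ x = 0 ↔ x ∈ 𝔪(V_0)` on any chart (`ρ₀ = nodesSwapRho₀` for
  `w = w_q`);
* `mgcb_SS1_vtFam` : (SS1) for `vtFam` from the kernel form, any base;
* `mgcb_SS1_base`  : (SS1) for `mgvV` over `A ∩ K₀` from the kernel form for ANY reduction `r`
  with kernel `(π)` (= the hypothesis `hSS1₀` of `mgcc_SS1`, `mgs_SS1`).
-/
import Fermat.Agent.UNIP.MGVertInertia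
import Fermat.Agent.UNIP.NodesSwap

set_option autoImplicit false
set_option linter.style.haveILetI false
set_option linter.unusedSectionVars false
set_option linter.unusedVariables false

noncomputable section

namespace Fermat.Agent.UNIP

open ModularCurve Polynomial IntermediateField Fermat.Agent.INJ Fermat.Agent.AL
open Fermat.Agent.ES Fermat.Agent.ES.G2

section Congr

variable {A E k k' : Type*} [CommRing A] [Field E] [Field k] [Field k']
  {ι : A →+* E} {r : A →+* k} {r' : A →+* k'}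

/-- the reduction of a series is zero iff all its coefficients are in the kernel -/
theorem mgcb_coeffMap_eq_zero_iff (r : A →+* k) (b : LaurentSeries A) :
    coeffMap r b = 0 ↔ ∀ n, r (b.coeff n) = 0 := by
  constructor
  · intro h0 n
    have := congrArg (fun z : LaurentSeries k => z.coeff n) h0
    simpa [coeffMap_coeff] using this
  · intro h0
    ext n
    rw [coeffMap_coeff, h0 n]
    rfl

/-- the reduction of a series is nonzero iff one of its coefficients is not in the kernel -/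
theorem mgcb_coeffMap_ne_zero_iff (h : ∀ a, r a = 0 ↔ r' a = 0) (b : LaurentSeries A) :
    coeffMap r b ≠ 0 ↔ coeffMap r' b ≠ 0 := by
  rw [Ne, Ne, mgcb_coeffMap_eq_zero_iff r, mgcb_coeffMap_eq_zero_iff r']
  exact not_congr (forall_congr' fun n => h _)

/-- **The Gauss ring only depends on the kernel of the reduction.** -/
theorem mgcb_gaussRing_congr (h : ∀ a, r a = 0 ↔ r' a = 0) :
    gaussRing ι r = gaussRing ι r' := by
  ext x
  constructor
  · rintro ⟨T, b, hb, hx⟩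
    exact ⟨T, b, (mgcb_coeffMap_ne_zero_iff h b).mp hb, hx⟩
  · rintro ⟨T, b, hb, hx⟩
    exact ⟨T, b, (mgcb_coeffMap_ne_zero_iff h b).mpr hb, hx⟩

variable {π π' : A} (hB : VtBase ι r π) (hB' : VtBase ι r' π')
  (ιC : E →+* ℂ) {q M : ℕ} [NeZero q] [NeZero M] [NeZero (M * q)]
  (hq : q.Prime) (hqM : ¬ q ∣ M)

/-- **The vertical valuations only depend on the kernel of the reduction.** -/
theorem mgcb_vtFam_congr (h : ∀ a, r a = 0 ↔ r' a = 0) (c : Bool) :
    vtFam hB ιC hq hqM c = vtFam hB' ιC hq hqM c := by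
  ext x
  rw [mem_vtFam, mem_vtFam, mgcb_gaussRing_congr (ι := ι) h]

/-- two reductions with kernel `(π)` have the same kernel -/
theorem mgcb_ker_congr (hB : VtBase ι r π) (hB' : VtBase ι r' π) (a : A) :
    r a = 0 ↔ r' a = 0 := by
  constructor
  · intro h0
    obtain ⟨c, rfl⟩ := hB.ker a h0
    rw [map_mul, hB'.rπ, zero_mul]
  · intro h0
    obtain ⟨c, rfl⟩ := hB'.ker a h0
    rw [map_mul, hB.rπ, zero_mul]

end Congr

section Abstract

variable {A E k : Type*} [CommRing A] [IsDomain A] [Field E] [Algebra A E] [IsFractionRing A E]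
  [Field k] (r : A →+* k) {π : A} [WfDvdMonoid A]
  (ιC : E →+* ℂ) {q M : ℕ} [NeZero q] [NeZero M] [NeZero (M * q)]
  (hq : q.Prime) (hqM : ¬ q ∣ M)
  [Algebra A (modularFunctionFieldFullC E (M * q))]
  [IsScalarTower A E (modularFunctionFieldFullC E (M * q))]

/-- **`ρ x = 0 ↔ x ∈ 𝔪(V_∞)`** on the chart `integralClosure A[t]` of `F_{Mq}(E)`. -/
theorem mgcb_rho_eq_zero_iff (hB : VtBase (algebraMap A E) r π)
    (hπ0 : π ≠ 0) (hπ : ¬ IsUnit π) (hr : ∀ a, r a = 0 → π ∣ a) (hrπ : r π = 0)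
    (t : modularFunctionFieldFullC E (M * q))
    (ht : (t : LaurentSeries E) ∈ gaussRing (algebraMap A E) r)
    (x : integralClosure (Algebra.adjoin A {t}) (modularFunctionFieldFullC E (M * q))) :
    nodesFrobChartRed r hπ0 hπ hr hrπ (nodesFrob_full_le (M * q)) t ht x = 0 ↔
      (x : modularFunctionFieldFullC E (M * q)) ∈ (vtFam hB ιC hq hqM true).nonunits := by
  rw [vtFam_mem_nonunits_iff]
  constructor
  · intro h
    exact ⟨nodesFrob_G1_id r hπ0 hπ hr hrπ (nodesFrob_full_le (M * q)) t ht x.2, h⟩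
  · rintro ⟨h, h0⟩
    exact h0

/-- **`ρ₀ x = 0 ↔ x ∈ 𝔪(V_0)`** on the chart `integralClosure A[t]` of `F_{Mq}(E)`. -/
theorem mgcb_rho₀_eq_zero_iff (hB : VtBase (algebraMap A E) r π)
    (hπ0 : π ≠ 0) (hπ : ¬ IsUnit π) (hr : ∀ a, r a = 0 → π ∣ a) (hrπ : r π = 0)
    (t : modularFunctionFieldFullC E (M * q))
    (hwt : (((atkinLehner E ιC hq hqM).toAlgHom t : modularFunctionFieldFullC E (M * q)) :
      LaurentSeries E) ∈ gaussRing (algebraMap A E) r)
    (x : integralClosure (Algebra.adjoin A {t}) (modularFunctionFieldFullC E (M * q))) :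
    nodesSwapRho₀ r hπ0 hπ hr hrπ (nodesFrob_full_le (M * q))
        (atkinLehner E ιC hq hqM).toAlgHom t hwt x = 0 ↔
      (x : modularFunctionFieldFullC E (M * q)) ∈ (vtFam hB ιC hq hqM false).nonunits := by
  rw [vtFam_mem_nonunits_iff]
  constructor
  · intro h
    exact ⟨nodesFrob_G1 r hπ0 hπ hr hrπ (nodesFrob_full_le (M * q))
      (atkinLehner E ιC hq hqM).toAlgHom t hwt x.2, h⟩
  · rintro ⟨h, h0⟩
    exact h0

/-- **(SS1) for the vertical valuations from the kernel form of U5**, any base, any chart. -/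
theorem mgcb_SS1_vtFam (hB : VtBase (algebraMap A E) r π)
    (hπ0 : π ≠ 0) (hπ : ¬ IsUnit π) (hr : ∀ a, r a = 0 → π ∣ a) (hrπ : r π = 0)
    (t : modularFunctionFieldFullC E (M * q))
    (ht : (t : LaurentSeries E) ∈ gaussRing (algebraMap A E) r)
    (hwt : (((atkinLehner E ιC hq hqM).toAlgHom t : modularFunctionFieldFullC E (M * q)) :
      LaurentSeries E) ∈ gaussRing (algebraMap A E) r)
    (hker : ∀ x : integralClosure (Algebra.adjoin A {t}) (modularFunctionFieldFullC E (M * q)),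
      nodesFrobChartRed r hπ0 hπ hr hrπ (nodesFrob_full_le (M * q)) t ht x = 0 →
      nodesSwapRho₀ r hπ0 hπ hr hrπ (nodesFrob_full_le (M * q))
        (atkinLehner E ιC hq hqM).toAlgHom t hwt x = 0 →
      algebraMap A (integralClosure (Algebra.adjoin A {t})
        (modularFunctionFieldFullC E (M * q))) π ∣ x)
    (x : integralClosure (Algebra.adjoin A {t}) (modularFunctionFieldFullC E (M * q)))
    (hx : ∀ c, (x : modularFunctionFieldFullC E (M * q)) ∈ (vtFam hB ιC hq hqM c).nonunits) :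
    algebraMap A (integralClosure (Algebra.adjoin A {t})
      (modularFunctionFieldFullC E (M * q))) π ∣ x :=
  hker x ((mgcb_rho_eq_zero_iff r ιC hq hqM hB hπ0 hπ hr hrπ t ht x).mpr (hx true))
    ((mgcb_rho₀_eq_zero_iff r ιC hq hqM hB hπ0 hπ hr hrπ t hwt x).mpr (hx false))

end Abstract

section Concrete

variable {A : ValuationSubring Qb} {K₀ : IntermediateField ℚ Qb}
  [IsDiscreteValuationRing ↥(beta0Ring A K₀)] {π : ↥(beta0Ring A K₀)} (hπ : Irreducible π)
  (ιC : ↥K₀ →+* ℂ) {q M : ℕ} [NeZero q] [NeZero M] [NeZero (M * q)]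
  (hq : q.Prime) (hqM : ¬ q ∣ M)

include hπ in
/-- a reduction with kernel `(π)` gives a base -/
theorem mgcb_vtBase {k : Type*} [Field k] (r : ↥(beta0Ring A K₀) →+* k)
    (hr : ∀ a, r a = 0 → π ∣ a) (hrπ : r π = 0) :
    VtBase (algebraMap ↥(beta0Ring A K₀) ↥K₀) r π :=
  { inj := (vtBase_residue (E := ↥K₀) hπ).inj
    frac := (vtBase_residue (E := ↥K₀) hπ).frac
    rπ := hrπ
    ker := hr
    fin := (vtBase_residue (E := ↥K₀) hπ).fin
    ne := hπ.ne_zero }

/-- `mgvV` for any reduction with kernel `(π)` -/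
theorem mgcb_mgvV_eq {k : Type*} [Field k] (r : ↥(beta0Ring A K₀) →+* k)
    (hr : ∀ a, r a = 0 → π ∣ a) (hrπ : r π = 0) (c : Bool) :
    mgvV hπ ιC hq hqM c = vtFam (mgcb_vtBase hπ r hr hrπ) ιC hq hqM c :=
  mgcb_vtFam_congr (vtBase_residue hπ) (mgcb_vtBase hπ r hr hrπ) ιC hq hqM
    (mgcb_ker_congr (vtBase_residue hπ) (mgcb_vtBase hπ r hr hrπ)) c

/-- **`ρ x = 0 ↔ x ∈ 𝔪(V_∞)`**, concrete. -/
theorem mgcb_rho_eq_zero_iff_mgvV {k : Type*} [Field k] (r : ↥(beta0Ring A K₀) →+* k)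
    (hr : ∀ a, r a = 0 → π ∣ a) (hrπ : r π = 0)
    (t : ↥(modularFunctionFieldFullC ↥K₀ (M * q)))
    (ht : (t : LaurentSeries ↥K₀) ∈ gaussRing (algebraMap ↥(beta0Ring A K₀) ↥K₀) r)
    (x : integralClosure (Algebra.adjoin ↥(beta0Ring A K₀) {t})
      ↥(modularFunctionFieldFullC ↥K₀ (M * q))) :
    nodesFrobChartRed r hπ.ne_zero hπ.not_isUnit hr hrπ (nodesFrob_full_le (M * q)) t ht x = 0 ↔
      (x : ↥(modularFunctionFieldFullC ↥K₀ (M * q))) ∈ (mgvV hπ ιC hq hqM true).nonunits := by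
  rw [mgcb_mgvV_eq hπ ιC hq hqM r hr hrπ]
  exact mgcb_rho_eq_zero_iff r ιC hq hqM (mgcb_vtBase hπ r hr hrπ) hπ.ne_zero hπ.not_isUnit
    hr hrπ t ht x

/-- **`ρ₀ x = 0 ↔ x ∈ 𝔪(V_0)`**, concrete. -/
theorem mgcb_rho₀_eq_zero_iff_mgvV {k : Type*} [Field k] (r : ↥(beta0Ring A K₀) →+* k)
    (hr : ∀ a, r a = 0 → π ∣ a) (hrπ : r π = 0)
    (t : ↥(modularFunctionFieldFullC ↥K₀ (M * q)))
    (hwt : (((atkinLehner ↥K₀ ιC hq hqM).toAlgHom t : ↥(modularFunctionFieldFullC ↥K₀ (M * q))) :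
      LaurentSeries ↥K₀) ∈ gaussRing (algebraMap ↥(beta0Ring A K₀) ↥K₀) r)
    (x : integralClosure (Algebra.adjoin ↥(beta0Ring A K₀) {t})
      ↥(modularFunctionFieldFullC ↥K₀ (M * q))) :
    nodesSwapRho₀ r hπ.ne_zero hπ.not_isUnit hr hrπ (nodesFrob_full_le (M * q))
        (atkinLehner ↥K₀ ιC hq hqM).toAlgHom t hwt x = 0 ↔
      (x : ↥(modularFunctionFieldFullC ↥K₀ (M * q))) ∈ (mgvV hπ ιC hq hqM false).nonunits := by
  rw [mgcb_mgvV_eq hπ ιC hq hqM r hr hrπ]
  exact mgcb_rho₀_eq_zero_iff r ιC hq hqM (mgcb_vtBase hπ r hr hrπ) hπ.ne_zero hπ.not_isUnit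
    hr hrπ t hwt x

/-- **(SS1) at the base for `mgvV`** (= `hSS1₀` of `mgcc_SS1` / `mgs_SS1`) from the kernel form
of U5 (`nodesFull_ker_J`, `nodesFull_ker_Jinv`, `nodes_modular_ker`), for ANY reduction `r` with
kernel `(π)` and any chart `t`. -/
theorem mgcb_SS1_base {k : Type*} [Field k] (r : ↥(beta0Ring A K₀) →+* k)
    (hr : ∀ a, r a = 0 → π ∣ a) (hrπ : r π = 0)
    (t : ↥(modularFunctionFieldFullC ↥K₀ (M * q)))
    (ht : (t : LaurentSeries ↥K₀) ∈ gaussRing (algebraMap ↥(beta0Ring A K₀) ↥K₀) r)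
    (hwt : (((atkinLehner ↥K₀ ιC hq hqM).toAlgHom t : ↥(modularFunctionFieldFullC ↥K₀ (M * q))) :
      LaurentSeries ↥K₀) ∈ gaussRing (algebraMap ↥(beta0Ring A K₀) ↥K₀) r)
    (hker : ∀ x : integralClosure (Algebra.adjoin ↥(beta0Ring A K₀) {t})
        ↥(modularFunctionFieldFullC ↥K₀ (M * q)),
      nodesFrobChartRed r hπ.ne_zero hπ.not_isUnit hr hrπ (nodesFrob_full_le (M * q)) t ht x = 0 →
      nodesSwapRho₀ r hπ.ne_zero hπ.not_isUnit hr hrπ (nodesFrob_full_le (M * q))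
        (atkinLehner ↥K₀ ιC hq hqM).toAlgHom t hwt x = 0 →
      algebraMap ↥(beta0Ring A K₀) (integralClosure (Algebra.adjoin ↥(beta0Ring A K₀) {t})
        ↥(modularFunctionFieldFullC ↥K₀ (M * q))) π ∣ x)
    (x : integralClosure (Algebra.adjoin ↥(beta0Ring A K₀) {t})
      ↥(modularFunctionFieldFullC ↥K₀ (M * q)))
    (hx : ∀ c, (x : ↥(modularFunctionFieldFullC ↥K₀ (M * q))) ∈
      (mgvV hπ ιC hq hqM c).nonunits) :
    algebraMap ↥(beta0Ring A K₀) (integralClosure (Algebra.adjoin ↥(beta0Ring A K₀) {t})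
      ↥(modularFunctionFieldFullC ↥K₀ (M * q))) π ∣ x :=
  hker x ((mgcb_rho_eq_zero_iff_mgvV hπ ιC hq hqM r hr hrπ t ht x).mpr (hx true))
    ((mgcb_rho₀_eq_zero_iff_mgvV hπ ιC hq hqM r hr hrπ t hwt x).mpr (hx false))

end Concrete

end Fermat.Agent.UNIP
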