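/-
UNIP (S34/S35), direct route, piece MG-5a "chart hypotheses of (T′)", U5 plugged in (helper16).

Setting of `MGVertInertia.lean` / `STB/FrobLift.lean`: `A` a valuation subring of `ℚ̄` over `q`,
`K₀ ⊆ ℚ̄` an intermediate field with `A₀ = beta0Ring A K₀ = A ∩ K₀` a discrete valuation ring,
uniformizer `π`, level `M q`, `V = mgvV hπ ιC hq hqM`.  From `h : RegChart π (bgJ K₀ M)`
(resp. `RegChart π (bgJ K₀ M)⁻¹`; `STB/FrobReg.lean`: `stb_regChart_conc_J/_Jinv`) and a Frobenius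
element `φ` at `A` with `φ K₀ ⊆ K₀`:

* `mgcb_reg_ker_J`, `mgcb_reg_ker_Jinv` : (SS1) on the charts `j`, `1/j` of `F_{Mq}(K₀)` for the
  vertical valuations: `(∀ c, x ∈ 𝔪(V c)) → π ∣ x`;
* `mgcb_reg_SS1_J`, `mgcb_reg_SS1_Jinv` : the same in the shape `hSS1` of `at_main_two` /
  `MgcData` / `StbdInputs`;
(the three U5 inputs `hπu`, `hred`, `hU5` are in `MGChartsBeta0RegU5.lean`).
-/
import Fermat.Agent.UNIP.MGChartsBeta0SS1
import Fermat.Agent.UNIP.MGChartsStage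
import Fermat.Agent.STB.FrobReg

set_option autoImplicit false
set_option linter.style.haveILetI false
set_option linter.unusedSectionVars false
set_option linter.unusedVariables false
set_option linter.style.longLine false
set_option synthInstance.maxHeartbeats 400000
set_option maxHeartbeats 1000000

noncomputable section

namespace Fermat.Agent.UNIP

open ModularCurve Polynomial IntermediateField Fermat.Agent.INJ Fermat.Agent.AL
open Fermat.Agent.ES Fermat.Agent.ES.G2 Fermat.Agent.STB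

section Reg

variable {A : ValuationSubring Qb} {K₀ : IntermediateField ℚ Qb}
  [IsDiscreteValuationRing ↥(beta0Ring A K₀)] {π : ↥(beta0Ring A K₀)} (hπ : Irreducible π)
  (ιC : ↥K₀ →+* ℂ) {q M : ℕ} [NeZero q] [NeZero M] [NeZero (M * q)]
  (hq : q.Prime) (hqM : ¬ q ∣ M)

/-- the chart `j` of level `M q` is the image of the chart `j` of level `M` -/
theorem mgcb_incl_bgJ : nodesInstIncl ↥K₀ M q (bgJ ↥K₀ M) = bgJ ↥K₀ (M * q) := rfl

/-- the chart `1 / j` of level `M q` is the image of the chart `1 / j` of level `M` -/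
theorem mgcb_incl_bgJ_inv :
    nodesInstIncl ↥K₀ M q (bgJ ↥K₀ M)⁻¹ = (bgJ ↥K₀ (M * q))⁻¹ := by
  rw [map_inv₀, mgcb_incl_bgJ]

include ιC hq hqM in
/-- `ρ π = 0` -/
theorem mgcb_rho_unif (t : ↥(modularFunctionFieldFullC ↥K₀ (M * q)))
    (ht : (t : LaurentSeries ↥K₀) ∈ gaussRing (algebraMap ↥(beta0Ring A K₀) ↥K₀)
      (IsLocalRing.residue ↥(beta0Ring A K₀))) :
    nodesFrobChartRed (IsLocalRing.residue ↥(beta0Ring A K₀)) hπ.ne_zero hπ.not_isUnit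
      (stb_residue_ker hπ) (stb_residue_pi hπ) (nodesFrob_full_le (M * q)) t ht
      (algebraMap ↥(beta0Ring A K₀) (integralClosure (Algebra.adjoin ↥(beta0Ring A K₀) {t})
        ↥(modularFunctionFieldFullC ↥K₀ (M * q))) π) = 0 :=
  (mgcb_rho_eq_zero_iff_mgvV hπ ιC hq hqM _ (stb_residue_ker hπ) (stb_residue_pi hπ) t ht _).mpr
    (mgv_hπV hπ ιC hq hqM true)

/-- `ρ₀ π = 0` -/
theorem mgcb_rho₀_unif (t : ↥(modularFunctionFieldFullC ↥K₀ (M * q)))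
    (hwt : (((atkinLehner ↥K₀ ιC hq hqM).toAlgHom t : ↥(modularFunctionFieldFullC ↥K₀ (M * q))) :
      LaurentSeries ↥K₀) ∈ gaussRing (algebraMap ↥(beta0Ring A K₀) ↥K₀)
        (IsLocalRing.residue ↥(beta0Ring A K₀))) :
    nodesSwapRho₀ (IsLocalRing.residue ↥(beta0Ring A K₀)) hπ.ne_zero hπ.not_isUnit
      (stb_residue_ker hπ) (stb_residue_pi hπ) (nodesFrob_full_le (M * q))
      (atkinLehner ↥K₀ ιC hq hqM).toAlgHom t hwt
      (algebraMap ↥(beta0Ring A K₀) (integralClosure (Algebra.adjoin ↥(beta0Ring A K₀) {t})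
        ↥(modularFunctionFieldFullC ↥K₀ (M * q))) π) = 0 :=
  (mgcb_rho₀_eq_zero_iff_mgvV hπ ιC hq hqM _ (stb_residue_ker hπ) (stb_residue_pi hπ) t hwt
    _).mpr (mgv_hπV hπ ιC hq hqM false)

/-! ### (SS1) -/

theorem mgcb_reg_ker_J_aux (hA : A.LiesOverPrime q) (h : RegChart (E := ↥K₀) π (bgJ ↥K₀ M))
    (t : ↥(modularFunctionFieldFullC ↥K₀ (M * q)))
    (e : nodesInstIncl ↥K₀ M q (bgJ ↥K₀ M) = t)
    (x : integralClosure (Algebra.adjoin ↥(beta0Ring A K₀) {t})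
      ↥(modularFunctionFieldFullC ↥K₀ (M * q)))
    (hx : ∀ c, (x : ↥(modularFunctionFieldFullC ↥K₀ (M * q))) ∈
      (mgvV hπ ιC hq hqM c).nonunits) :
    algebraMap ↥(beta0Ring A K₀) (integralClosure (Algebra.adjoin ↥(beta0Ring A K₀) {t})
      ↥(modularFunctionFieldFullC ↥K₀ (M * q))) π ∣ x := by
  subst e
  haveI : Fact q.Prime := ⟨hq⟩
  haveI : CharP (IsLocalRing.ResidueField ↥(beta0Ring A K₀)) q := frobLift_charP A K₀ hq hA
  exact mgcb_SS1_base hπ ιC hq hqM (IsLocalRing.residue ↥(beta0Ring A K₀))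
    (stb_residue_ker hπ) (stb_residue_pi hπ) _ _ _
    (fun y hy hy₀ => nodesReg_ker_J K₀ (IsLocalRing.residue ↥(beta0Ring A K₀)) ιC hq hqM hπ
      (stb_residue_ker hπ) (stb_residue_pi hπ) h y hy hy₀) x hx

theorem mgcb_reg_ker_Jinv_aux (hA : A.LiesOverPrime q)
    (h : RegChart (E := ↥K₀) π (bgJ ↥K₀ M)⁻¹)
    (t : ↥(modularFunctionFieldFullC ↥K₀ (M * q)))
    (e : nodesInstIncl ↥K₀ M q (bgJ ↥K₀ M)⁻¹ = t)
    (x : integralClosure (Algebra.adjoin ↥(beta0Ring A K₀) {t})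
      ↥(modularFunctionFieldFullC ↥K₀ (M * q)))
    (hx : ∀ c, (x : ↥(modularFunctionFieldFullC ↥K₀ (M * q))) ∈
      (mgvV hπ ιC hq hqM c).nonunits) :
    algebraMap ↥(beta0Ring A K₀) (integralClosure (Algebra.adjoin ↥(beta0Ring A K₀) {t})
      ↥(modularFunctionFieldFullC ↥K₀ (M * q))) π ∣ x := by
  subst e
  haveI : Fact q.Prime := ⟨hq⟩
  haveI : CharP (IsLocalRing.ResidueField ↥(beta0Ring A K₀)) q := frobLift_charP A K₀ hq hA
  exact mgcb_SS1_base hπ ιC hq hqM (IsLocalRing.residue ↥(beta0Ring A K₀))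
    (stb_residue_ker hπ) (stb_residue_pi hπ) _ _ _
    (fun y hy hy₀ => nodesReg_ker_Jinv K₀ (IsLocalRing.residue ↥(beta0Ring A K₀)) ιC hq hqM hπ
      (stb_residue_ker hπ) (stb_residue_pi hπ) h y hy hy₀) x hx

/-- **(SS1) on the chart `j`** of `F_{Mq}(K₀)` over `A ∩ K₀`, for the vertical valuations. -/
theorem mgcb_reg_ker_J (hA : A.LiesOverPrime q) (h : RegChart (E := ↥K₀) π (bgJ ↥K₀ M))
    (x : integralClosure (Algebra.adjoin ↥(beta0Ring A K₀) {bgJ ↥K₀ (M * q)})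
      ↥(modularFunctionFieldFullC ↥K₀ (M * q)))
    (hx : ∀ c, (x : ↥(modularFunctionFieldFullC ↥K₀ (M * q))) ∈
      (mgvV hπ ιC hq hqM c).nonunits) :
    algebraMap ↥(beta0Ring A K₀) (integralClosure
      (Algebra.adjoin ↥(beta0Ring A K₀) {bgJ ↥K₀ (M * q)})
      ↥(modularFunctionFieldFullC ↥K₀ (M * q))) π ∣ x :=
  mgcb_reg_ker_J_aux hπ ιC hq hqM hA h _ mgcb_incl_bgJ x hx

/-- **(SS1) on the chart `1 / j`** of `F_{Mq}(K₀)` over `A ∩ K₀`, for the vertical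
valuations. -/
theorem mgcb_reg_ker_Jinv (hA : A.LiesOverPrime q)
    (h : RegChart (E := ↥K₀) π (bgJ ↥K₀ M)⁻¹)
    (x : integralClosure (Algebra.adjoin ↥(beta0Ring A K₀) {(bgJ ↥K₀ (M * q))⁻¹})
      ↥(modularFunctionFieldFullC ↥K₀ (M * q)))
    (hx : ∀ c, (x : ↥(modularFunctionFieldFullC ↥K₀ (M * q))) ∈
      (mgvV hπ ιC hq hqM c).nonunits) :
    algebraMap ↥(beta0Ring A K₀) (integralClosure
      (Algebra.adjoin ↥(beta0Ring A K₀) {(bgJ ↥K₀ (M * q))⁻¹})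
      ↥(modularFunctionFieldFullC ↥K₀ (M * q))) π ∣ x :=
  mgcb_reg_ker_Jinv_aux hπ ιC hq hqM hA h _ mgcb_incl_bgJ_inv x hx

/-- **`hSS1` of `at_main_two` / `MgcData` / `StbdInputs`** (chart `j`), for ANY intermediate
field `K₀` with `A ∩ K₀` a discrete valuation ring, from `RegChart π (bgJ K₀ M)`. -/
theorem mgcb_reg_SS1_J (hA : A.LiesOverPrime q) (h : RegChart (E := ↥K₀) π (bgJ ↥K₀ M)) :
    ∀ b : ↥(modularFunctionFieldFullC ↥K₀ (M * q)),
      IsIntegral ↥(Algebra.adjoin ↥(beta0Ring A K₀)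
        ({bgJ ↥K₀ (M * q)} : Set ↥(modularFunctionFieldFullC ↥K₀ (M * q)))) b →
      (∀ c, b ∈ (mgvV hπ ιC hq hqM c).nonunits) →
      ∃ b' : ↥(modularFunctionFieldFullC ↥K₀ (M * q)),
        IsIntegral ↥(Algebra.adjoin ↥(beta0Ring A K₀)
          ({bgJ ↥K₀ (M * q)} : Set ↥(modularFunctionFieldFullC ↥K₀ (M * q)))) b' ∧
        b = algebraMap ↥(beta0Ring A K₀) ↥(modularFunctionFieldFullC ↥K₀ (M * q)) π * b' := by
  intro b hb hbV
  obtain ⟨c, hc⟩ := mgcb_reg_ker_J hπ ιC hq hqM hA h ⟨b, hb⟩ hbV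
  exact ⟨(c : ↥(modularFunctionFieldFullC ↥K₀ (M * q))), c.2, congrArg Subtype.val hc⟩

/-- **`hSS1`, chart `1 / j`.** -/
theorem mgcb_reg_SS1_Jinv (hA : A.LiesOverPrime q)
    (h : RegChart (E := ↥K₀) π (bgJ ↥K₀ M)⁻¹) :
    ∀ b : ↥(modularFunctionFieldFullC ↥K₀ (M * q)),
      IsIntegral ↥(Algebra.adjoin ↥(beta0Ring A K₀)
        ({(bgJ ↥K₀ (M * q))⁻¹} : Set ↥(modularFunctionFieldFullC ↥K₀ (M * q)))) b →
      (∀ c, b ∈ (mgvV hπ ιC hq hqM c).nonunits) →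
      ∃ b' : ↥(modularFunctionFieldFullC ↥K₀ (M * q)),
        IsIntegral ↥(Algebra.adjoin ↥(beta0Ring A K₀)
          ({(bgJ ↥K₀ (M * q))⁻¹} : Set ↥(modularFunctionFieldFullC ↥K₀ (M * q)))) b' ∧
        b = algebraMap ↥(beta0Ring A K₀) ↥(modularFunctionFieldFullC ↥K₀ (M * q)) π * b' := by
  intro b hb hbV
  obtain ⟨c, hc⟩ := mgcb_reg_ker_Jinv hπ ιC hq hqM hA h ⟨b, hb⟩ hbV
  exact ⟨(c : ↥(modularFunctionFieldFullC ↥K₀ (M * q))), c.2, congrArg Subtype.val hc⟩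

end Reg

end Fermat.Agent.UNIP
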