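import Fermat.Agent.UNIP.NodesInst
import Fermat.Agent.UNIP.NodesInstAlg
import Fermat.Agent.UNIP.NodesSwapJ

/-!
# UNIP / U5 (Nodes): `NodesHomData` in the shape of `nodes_modular_chart`; the chart `j`

* `nodesInst_hρ₀_of_hw` : `hρ₀` for `ρ₀ = nodesSwapRho₀ … w …`, `w` any coercion of `w_q`;
* `nodesInst_prime_of_isDomain` : `Prime π` in the chart from `IsDomain (C ⧸ (π))`;
* `nodesInst_homData_w` : `hd` of `nodes_modular_chart`, generic in the coordinate `t`;
* `nodesInst_homData_J` : `hd` of `nodes_modular_chart` on the chart `t = j`, with the only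
  remaining hypothesis `Prime π` (in the chart of level `M`);
* `nodesInst_swap_J` : `swap` of `nodes_modular_chart` on the chart `t = j`.
-/

set_option autoImplicit false
set_option linter.unusedSectionVars false
set_option linter.unusedVariables false
set_option synthInstance.maxHeartbeats 400000
set_option maxHeartbeats 1000000

noncomputable section

namespace Fermat.Agent.UNIP

open ModularCurve Fermat.Agent.INJ Fermat.Agent.AL IntermediateField

section W

variable {A E k : Type*} [CommRing A] [IsDomain A] [WfDvdMonoid A] [Field E] [Algebra A E]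
  [IsFractionRing A E] [Field k] (r : A →+* k) {π : A}
  (hπ0 : π ≠ 0) (hπ : ¬ IsUnit π) (hr : ∀ a, r a = 0 → π ∣ a) (hrπ : r π = 0)
  (M q : ℕ) [NeZero q] [NeZero M] [NeZero (M * q)]
  [Algebra A (modularFunctionFieldFullC E M)]
  [IsScalarTower A E (modularFunctionFieldFullC E M)]
  [Algebra A (modularFunctionFieldFullC E (M * q))]
  [IsScalarTower A E (modularFunctionFieldFullC E (M * q))]
  (t : modularFunctionFieldFullC E M)
  (ht : (t : LaurentSeries E) ∈ gaussRing (algebraMap A E) r)
  (ιC : E →+* ℂ) (hq : q.Prime) (hqM : ¬ q ∣ M)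
  (w : modularFunctionFieldFullC E (M * q) →ₐ[E] modularFunctionFieldFullC E (M * q))
  (hw : ∀ x, w x = atkinLehner E ιC hq hqM x)
  (hwt : ((w (nodesInstIncl E M q t) :
    modularFunctionFieldFullC E (M * q)) : LaurentSeries E) ∈ gaussRing (algebraMap A E) r)

include hw in
/-- `hρ₀` for `ρ₀ = nodesSwapRho₀ … w …`, `w` any coercion of `w_q`. -/
theorem nodesInst_hρ₀_of_hw
    (b : integralClosure (Algebra.adjoin A {nodesInstIncl E M q t})
        (modularFunctionFieldFullC E (M * q)))
    (hb : ((atkinLehner E ιC hq hqM (b : modularFunctionFieldFullC E (M * q)) :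
      modularFunctionFieldFullC E (M * q)) : LaurentSeries E) ∈ gaussRing (algebraMap A E) r) :
    nodesSwapRho₀ r hπ0 hπ hr hrπ (nodesFrob_full_le (M * q)) w (nodesInstIncl E M q t) hwt b =
      gaussRed r (IsFractionRing.injective A E) ⟨_, hb⟩ := by
  obtain rfl : w = (atkinLehner E ιC hq hqM).toAlgHom := AlgHom.ext hw
  rfl

include hπ0 in
/-- `π ≠ 0` in the chart. -/
theorem nodesInst_pi_ne_zero :
    algebraMap A (integralClosure (Algebra.adjoin A {t}) (modularFunctionFieldFullC E M)) π ≠
      0 := by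
  intro h0
  have h1 := congrArg (fun z : integralClosure (Algebra.adjoin A {t})
      (modularFunctionFieldFullC E M) =>
        ((z : modularFunctionFieldFullC E M) : LaurentSeries E)) h0
  have hπcoe : (((algebraMap A (integralClosure (Algebra.adjoin A {t})
      (modularFunctionFieldFullC E M)) π : integralClosure (Algebra.adjoin A {t})
        (modularFunctionFieldFullC E M)) : modularFunctionFieldFullC E M) : LaurentSeries E) =
      HahnSeries.C (algebraMap A E π) := nodesFrob_algebraMap_coe π
  simp only [hπcoe] at h1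
  have h2 : algebraMap A E π = 0 := HahnSeries.C_injective (by rw [h1, map_zero]; rfl)
  exact hπ0 ((IsFractionRing.injective A E) (by rw [h2, map_zero]))

include hπ0 in
/-- `Prime π` in the chart from `IsDomain (C ⧸ (π))`. -/
theorem nodesInst_prime_of_isDomain
    [hdom : IsDomain (integralClosure (Algebra.adjoin A {t}) (modularFunctionFieldFullC E M) ⧸
      Ideal.span {algebraMap A
        (integralClosure (Algebra.adjoin A {t}) (modularFunctionFieldFullC E M)) π})] :
    Prime (algebraMap A
      (integralClosure (Algebra.adjoin A {t}) (modularFunctionFieldFullC E M)) π) :=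
  (Ideal.span_singleton_prime (nodesInst_pi_ne_zero hπ0 M t)).1
    ((Ideal.Quotient.isDomain_iff_prime _).1 hdom)

include hw in
/-- **`hd` of `nodes_modular_chart`**, generic in the coordinate `t`. -/
theorem nodesInst_homData_w [CharZero E]
    (htr : Transcendental k (gaussRed r (IsFractionRing.injective A E) ⟨_, ht⟩))
    (hprime : Prime (algebraMap A
      (integralClosure (Algebra.adjoin A {t}) (modularFunctionFieldFullC E M)) π))
    (halg : ∀ x : modularFunctionFieldFullC E M, IsAlgebraic (Algebra.adjoin A {t}) x)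
    (swap : ∀ b : integralClosure (Algebra.adjoin A {nodesInstIncl E M q t})
        (modularFunctionFieldFullC E (M * q)),
      ∃ b' : integralClosure (Algebra.adjoin A {nodesInstIncl E M q t})
        (modularFunctionFieldFullC E (M * q)),
        nodesFrobChartRed r hπ0 hπ hr hrπ (nodesFrob_full_le (M * q))
          (nodesInstIncl E M q t) (nodesInst_ht' r M q t ht) b' =
          nodesSwapRho₀ r hπ0 hπ hr hrπ (nodesFrob_full_le (M * q)) w
            (nodesInstIncl E M q t) hwt b ∧
        nodesSwapRho₀ r hπ0 hπ hr hrπ (nodesFrob_full_le (M * q)) w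
            (nodesInstIncl E M q t) hwt b' =
          nodesFrobChartRed r hπ0 hπ hr hrπ (nodesFrob_full_le (M * q))
            (nodesInstIncl E M q t) (nodesInst_ht' r M q t ht) b)
    (hT : qExpand k q (gaussRed r (IsFractionRing.injective A E) ⟨_, ht⟩) =
      gaussRed r (IsFractionRing.injective A E) ⟨_, ht⟩ ^ q)
    (hne : (gaussRed r (IsFractionRing.injective A E) ⟨_, ht⟩ ^ q) ^ q ≠
      gaussRed r (IsFractionRing.injective A E) ⟨_, ht⟩)
    (hG4 : ∀ a : Fin q → LaurentSeries k,
      ∑ i, qExpand k q (a i) * gaussRed r (IsFractionRing.injective A E) ⟨_, ht⟩ ^ (i : ℕ) = 0 →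
        ∀ i, a i = 0) :
    NodesHomData (nodesPhi A M q t)
      (algebraMap A (integralClosure (Algebra.adjoin A {t}) (modularFunctionFieldFullC E M)) π)
      (nodesFrobChartRed r hπ0 hπ hr hrπ (nodesFrob_full_le (M * q))
        (nodesInstIncl E M q t) (nodesInst_ht' r M q t ht))
      (nodesSwapRho₀ r hπ0 hπ hr hrπ (nodesFrob_full_le (M * q)) w
        (nodesInstIncl E M q t) hwt) q :=
  nodesInst_homData_of_swap r hπ0 hπ hr hrπ M q t ht ιC hq hqM htr hprime halg _
    (nodesInst_hρ₀_of_hw r hπ0 hπ hr hrπ M q t ιC hq hqM w hw hwt) swap hT hne hG4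

end W

section J

variable {A E k : Type*} [CommRing A] [IsDomain A] [WfDvdMonoid A] [Field E] [Algebra A E]
  [IsFractionRing A E] [Field k] (r : A →+* k) {π : A}
  (hπ0 : π ≠ 0) (hπ : ¬ IsUnit π) (hr : ∀ a, r a = 0 → π ∣ a) (hrπ : r π = 0)
  (M q : ℕ) [NeZero q] [NeZero M] [NeZero (M * q)]
  [Algebra A (modularFunctionFieldFullC E M)]
  [IsScalarTower A E (modularFunctionFieldFullC E M)]
  [Algebra A (modularFunctionFieldFullC E (M * q))]
  [IsScalarTower A E (modularFunctionFieldFullC E (M * q))]
  (t : modularFunctionFieldFullC E M)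
  (htj : (t : LaurentSeries E) = jqModC E)
  (ht : (t : LaurentSeries E) ∈ gaussRing (algebraMap A E) r)
  (ιC : E →+* ℂ) (hq : q.Prime) (hqM : ¬ q ∣ M)
  (w : modularFunctionFieldFullC E (M * q) →ₐ[E] modularFunctionFieldFullC E (M * q))
  (hw : ∀ x, w x = atkinLehner E ιC hq hqM x)
  (hwt : ((w (nodesInstIncl E M q t) :
    modularFunctionFieldFullC E (M * q)) : LaurentSeries E) ∈ gaussRing (algebraMap A E) r)

include htj in
/-- The reduction of the coordinate `t = j` is `j̄`. -/
theorem nodesInst_red_J :
    gaussRed r (IsFractionRing.injective A E) ⟨(t : LaurentSeries E), ht⟩ = jqModC k := by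
  have h1 : (⟨(t : LaurentSeries E), ht⟩ : gaussRing (algebraMap A E) r) =
      ⟨jqModC E, nodesFrobU_j_mem r⟩ := Subtype.ext htj
  rw [h1]
  exact nodesFrobU_gaussRed_j r _

include htj hw in
/-- **`swap` of `nodes_modular_chart`** on the chart `t = j`. -/
theorem nodesInst_swap_J
    (b : integralClosure (Algebra.adjoin A {nodesInstIncl E M q t})
        (modularFunctionFieldFullC E (M * q))) :
    ∃ b' : integralClosure (Algebra.adjoin A {nodesInstIncl E M q t})
        (modularFunctionFieldFullC E (M * q)),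
      nodesFrobChartRed r hπ0 hπ hr hrπ (nodesFrob_full_le (M * q))
          (nodesInstIncl E M q t) (nodesInst_ht' r M q t ht) b' =
        nodesSwapRho₀ r hπ0 hπ hr hrπ (nodesFrob_full_le (M * q)) w
          (nodesInstIncl E M q t) hwt b ∧
      nodesSwapRho₀ r hπ0 hπ hr hrπ (nodesFrob_full_le (M * q)) w
          (nodesInstIncl E M q t) hwt b' =
        nodesFrobChartRed r hπ0 hπ hr hrπ (nodesFrob_full_le (M * q))
          (nodesInstIncl E M q t) (nodesInst_ht' r M q t ht) b := by
  obtain rfl : w = (atkinLehner E ιC hq hqM).toAlgHom := AlgHom.ext hw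
  exact nodesSwap_swap_J (A := A) (E := E) (M := M) (q := q) r ιC hq hqM hπ0 hπ hr hrπ
    (nodesInstIncl E M q t) (by rw [nodesInstIncl_coe]; exact htj)
    (nodesInst_ht' r M q t ht) hwt b

include htj hw in
/-- **`hd` of `nodes_modular_chart`** on the chart `t = j`. -/
theorem nodesInst_homData_J [CharZero E] [Fact q.Prime] [CharP k q]
    (hprime : Prime (algebraMap A
      (integralClosure (Algebra.adjoin A {t}) (modularFunctionFieldFullC E M)) π)) :
    NodesHomData (nodesPhi A M q t)
      (algebraMap A (integralClosure (Algebra.adjoin A {t}) (modularFunctionFieldFullC E M)) π)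
      (nodesFrobChartRed r hπ0 hπ hr hrπ (nodesFrob_full_le (M * q))
        (nodesInstIncl E M q t) (nodesInst_ht' r M q t ht))
      (nodesSwapRho₀ r hπ0 hπ hr hrπ (nodesFrob_full_le (M * q)) w
        (nodesInstIncl E M q t) hwt) q := by
  have hred := nodesInst_red_J r M t htj ht
  refine nodesInst_homData_w r hπ0 hπ hr hrπ M q t ht ιC hq hqM w hw hwt ?_ hprime
    (nodesInstAlg_halg_J A M t htj)
    (nodesInst_swap_J r hπ0 hπ hr hrπ M q t htj ht ιC hq hqM w hw hwt) ?_ ?_ ?_
  · rw [hred]; exact nodesFrobU_transcendental_j k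
  · rw [hred]; exact nodesFrobU_hT_j k q
  · rw [hred]; exact nodesFrobU_hne_j k hq.two_le
  · rw [hred]; exact nodesFrobU_G4_j k q

end J

section Jinv

variable {A E k : Type*} [CommRing A] [IsDomain A] [WfDvdMonoid A] [Field E] [Algebra A E]
  [IsFractionRing A E] [Field k] (r : A →+* k) {π : A}
  (hπ0 : π ≠ 0) (hπ : ¬ IsUnit π) (hr : ∀ a, r a = 0 → π ∣ a) (hrπ : r π = 0)
  (M q : ℕ) [NeZero q] [NeZero M] [NeZero (M * q)]
  [Algebra A (modularFunctionFieldFullC E M)]
  [IsScalarTower A E (modularFunctionFieldFullC E M)]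
  [Algebra A (modularFunctionFieldFullC E (M * q))]
  [IsScalarTower A E (modularFunctionFieldFullC E (M * q))]
  (t : modularFunctionFieldFullC E M)
  (htj : (t : LaurentSeries E) = (jqModC E)⁻¹)
  (ht : (t : LaurentSeries E) ∈ gaussRing (algebraMap A E) r)
  (ιC : E →+* ℂ) (hq : q.Prime) (hqM : ¬ q ∣ M)
  (w : modularFunctionFieldFullC E (M * q) →ₐ[E] modularFunctionFieldFullC E (M * q))
  (hw : ∀ x, w x = atkinLehner E ιC hq hqM x)
  (hwt : ((w (nodesInstIncl E M q t) :
    modularFunctionFieldFullC E (M * q)) : LaurentSeries E) ∈ gaussRing (algebraMap A E) r)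

include htj in
/-- The reduction of the coordinate `t = 1/j` is `1/j̄`. -/
theorem nodesInst_red_Jinv :
    gaussRed r (IsFractionRing.injective A E) ⟨(t : LaurentSeries E), ht⟩ = (jqModC k)⁻¹ := by
  have h1 : (⟨(t : LaurentSeries E), ht⟩ : gaussRing (algebraMap A E) r) =
      ⟨(jqModC E)⁻¹, nodesFrobU_jinv_mem r⟩ := Subtype.ext htj
  rw [h1]
  exact nodesFrobU_gaussRed_jinv r _

include htj hw in
/-- **`hd` of `nodes_modular_chart`** on the chart `t = 1/j`, from `swap`. -/
theorem nodesInst_homData_Jinv [CharZero E] [Fact q.Prime] [CharP k q]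
    (hprime : Prime (algebraMap A
      (integralClosure (Algebra.adjoin A {t}) (modularFunctionFieldFullC E M)) π))
    (swap : ∀ b : integralClosure (Algebra.adjoin A {nodesInstIncl E M q t})
        (modularFunctionFieldFullC E (M * q)),
      ∃ b' : integralClosure (Algebra.adjoin A {nodesInstIncl E M q t})
        (modularFunctionFieldFullC E (M * q)),
        nodesFrobChartRed r hπ0 hπ hr hrπ (nodesFrob_full_le (M * q))
          (nodesInstIncl E M q t) (nodesInst_ht' r M q t ht) b' =
          nodesSwapRho₀ r hπ0 hπ hr hrπ (nodesFrob_full_le (M * q)) w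
            (nodesInstIncl E M q t) hwt b ∧
        nodesSwapRho₀ r hπ0 hπ hr hrπ (nodesFrob_full_le (M * q)) w
            (nodesInstIncl E M q t) hwt b' =
          nodesFrobChartRed r hπ0 hπ hr hrπ (nodesFrob_full_le (M * q))
            (nodesInstIncl E M q t) (nodesInst_ht' r M q t ht) b) :
    NodesHomData (nodesPhi A M q t)
      (algebraMap A (integralClosure (Algebra.adjoin A {t}) (modularFunctionFieldFullC E M)) π)
      (nodesFrobChartRed r hπ0 hπ hr hrπ (nodesFrob_full_le (M * q))
        (nodesInstIncl E M q t) (nodesInst_ht' r M q t ht))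
      (nodesSwapRho₀ r hπ0 hπ hr hrπ (nodesFrob_full_le (M * q)) w
        (nodesInstIncl E M q t) hwt) q := by
  have hred := nodesInst_red_Jinv r M t htj ht
  refine nodesInst_homData_w r hπ0 hπ hr hrπ M q t ht ιC hq hqM w hw hwt ?_ hprime
    (nodesInstAlg_halg_Jinv A M t htj) swap ?_ ?_ ?_
  · rw [hred]; exact nodesFrobU_transcendental_jinv k
  · rw [hred]; exact nodesFrobU_hT_jinv k q
  · rw [hred]; exact nodesFrobU_hne_jinv k hq.two_le
  · rw [hred]; exact nodesFrobU_G4_jinv k q

end Jinv

end Fermat.Agent.UNIP
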