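import Fermat.Agent.UNIP.NodesInstJ
import Fermat.Agent.UNIP.NodesSwapInv

/-!
# UNIP / U5 (Nodes): `swap` and `hd` of `nodes_modular_chart` on the chart `t = 1/j`

* `nodesInst_swap_Jinv` : `swap` of `nodes_modular_chart` on the chart `t = 1/j`, `w` any coercion
  of `w_q`;
* `nodesInst_homData_Jinv_full` : `hd` of `nodes_modular_chart` on the chart `t = 1/j`, with the
  only remaining hypothesis `Prime π` (in the chart of level `M`).
-/

set_option autoImplicit false
set_option linter.unusedSectionVars false
set_option linter.unusedVariables false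
set_option synthInstance.maxHeartbeats 400000
set_option maxHeartbeats 1000000

noncomputable section

namespace Fermat.Agent.UNIP

open ModularCurve Fermat.Agent.INJ Fermat.Agent.AL IntermediateField

section JinvFull

variable {A E k : Type*} [CommRing A] [IsDomain A] [WfDvdMonoid A] [Field E] [Algebra A E]
  [IsFractionRing A E] [Field k] (r : A →+* k) {π : A}
  (hπ0 : π ≠ 0) (hπ : ¬ IsUnit π) (hr : ∀ a, r a = 0 → π ∣ a) (hrπ : r π = 0)
  (M q : ℕ) [NeZero q] [NeZero M] [NeZero (M * q)]
  [Algebra A (modularFunctionFieldFullC E M)]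
  [IsScalarTower A E (modularFunctionFieldFullC E M)]
  [Algebra A (modularFunctionFieldFullC E (M * q))]
  [IsScalarTower A E (modularFunctionFieldFullC E (M * q))]
  (t : modularFunctionFieldFullC E M)
  (htj : (t : LaurentSeries E) = (jqModC E)⁻¹)
  (ht : (t : LaurentSeries E) ∈ gaussRing (algebraMap A E) r)
  (ιC : E →+* ℂ) (hq : q.Prime) (hqM : ¬ q ∣ M)
  (w : modularFunctionFieldFullC E (M * q) →ₐ[E] modularFunctionFieldFullC E (M * q))
  (hw : ∀ x, w x = atkinLehner E ιC hq hqM x)
  (hwt : ((w (nodesInstIncl E M q t) :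
    modularFunctionFieldFullC E (M * q)) : LaurentSeries E) ∈ gaussRing (algebraMap A E) r)

include htj hw in
/-- **`swap` of `nodes_modular_chart`** on the chart `t = 1/j`. -/
theorem nodesInst_swap_Jinv [CharP k q]
    (b : integralClosure (Algebra.adjoin A {nodesInstIncl E M q t})
        (modularFunctionFieldFullC E (M * q))) :
    ∃ b' : integralClosure (Algebra.adjoin A {nodesInstIncl E M q t})
        (modularFunctionFieldFullC E (M * q)),
      nodesFrobChartRed r hπ0 hπ hr hrπ (nodesFrob_full_le (M * q))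
          (nodesInstIncl E M q t) (nodesInst_ht' r M q t ht) b' =
        nodesSwapRho₀ r hπ0 hπ hr hrπ (nodesFrob_full_le (M * q)) w
          (nodesInstIncl E M q t) hwt b ∧
      nodesSwapRho₀ r hπ0 hπ hr hrπ (nodesFrob_full_le (M * q)) w
          (nodesInstIncl E M q t) hwt b' =
        nodesFrobChartRed r hπ0 hπ hr hrπ (nodesFrob_full_le (M * q))
          (nodesInstIncl E M q t) (nodesInst_ht' r M q t ht) b := by
  obtain rfl : w = (atkinLehner E ιC hq hqM).toAlgHom := AlgHom.ext hw
  exact nodesSwap_swap_Jinv (A := A) (E := E) (M := M) (q := q) r ιC hq hqM hπ0 hπ hr hrπ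
    (nodesInstIncl E M q t) (by rw [nodesInstIncl_coe]; exact htj)
    (nodesInst_ht' r M q t ht) hwt b

include htj hw in
/-- **`hd` of `nodes_modular_chart`** on the chart `t = 1/j`. -/
theorem nodesInst_homData_Jinv_full [CharZero E] [Fact q.Prime] [CharP k q]
    (hprime : Prime (algebraMap A
      (integralClosure (Algebra.adjoin A {t}) (modularFunctionFieldFullC E M)) π)) :
    NodesHomData (nodesPhi A M q t)
      (algebraMap A (integralClosure (Algebra.adjoin A {t}) (modularFunctionFieldFullC E M)) π)
      (nodesFrobChartRed r hπ0 hπ hr hrπ (nodesFrob_full_le (M * q))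
        (nodesInstIncl E M q t) (nodesInst_ht' r M q t ht))
      (nodesSwapRho₀ r hπ0 hπ hr hrπ (nodesFrob_full_le (M * q)) w
        (nodesInstIncl E M q t) hwt) q :=
  nodesInst_homData_Jinv r hπ0 hπ hr hrπ M q t htj ht ιC hq hqM w hw hwt hprime
    (nodesInst_swap_Jinv r hπ0 hπ hr hrπ M q t htj ht ιC hq hqM w hw hwt)

end JinvFull

end Fermat.Agent.UNIP
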