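import Fermat.Agent.UNIP.RegInst
import Fermat.Agent.INJ.NormalSpecInv

/-!
# UNIP piece U5-RegInst, chart at infinity

The consequences of `TSHyp π t` for the chart `C₂ = integralClosure A₀[t⁻¹] Lf`:
`TSHyp.inv_prime`, `TSHyp.inv_isDomain`, `TSHyp.inv_isIntegrallyClosed`, `TSHyp.inv_locGen`
(and `TSHyp.inv_transc`, `TSHyp.inv_fd`, `TSHyp.normal`, `TSHyp.inv_normal`).
-/

set_option autoImplicit false
set_option linter.style.haveILetI false
set_option linter.unusedSectionVars false
set_option synthInstance.maxHeartbeats 400000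
set_option maxHeartbeats 1000000

namespace Fermat.Agent.UNIP.RegInst

open Polynomial AlgebraicCurve IntermediateField Fermat.Agent.S24 Fermat.Agent.INJ

universe u

variable {A₀ E Lf : Type u} [CommRing A₀] [IsDomain A₀] [IsDiscreteValuationRing A₀]
  [Field E] [Algebra A₀ E] [IsFractionRing A₀ E] [CharZero E]
  [Field Lf] [Algebra E Lf] [Algebra A₀ Lf] [IsScalarTower A₀ E Lf]
  {π : A₀} {t : Lf}

theorem TSHyp.ne_zero (h : TSHyp (E := E) π t) : t ≠ 0 := by
  rintro rfl
  exact h.transc isAlgebraic_zero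

theorem TSHyp.inv_transc (h : TSHyp (E := E) π t) : Transcendental E t⁻¹ :=
  zch_transcendental_inv h.transc

theorem TSHyp.inv_fd (h : TSHyp (E := E) π t) : FiniteDimensional E⟮t⁻¹⟯ Lf :=
  haveI := h.fd
  tsg_finiteDimensional_of_eq (zch_adjoin_inv t)

theorem TSHyp.inv_good (h : TSHyp (E := E) π t) : TSGoodBasis (E := E) π t⁻¹ :=
  haveI := h.fd
  ChartInv.tsGoodBasis_inv h.irr h.transc h.good

/-- the special fibre of the chart `t` is normal (element form) -/
theorem TSHyp.normal (h : TSHyp (E := E) π t) :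
    Norm.Normal (integralClosure (Algebra.adjoin A₀ {t}) Lf)
      (algebraMap A₀ (integralClosure (Algebra.adjoin A₀ {t}) Lf) π) := by
  haveI := h.fd
  obtain ⟨S, e, hS, hb, he, hζ, htame⟩ := h.ram
  exact Norm.tameSpec_normal π h.irr t h.transc h.good S hS hb e he hζ htame h.place

/-- the special fibre of the chart `t⁻¹` is normal (element form) -/
theorem TSHyp.inv_normal (h : TSHyp (E := E) π t) :
    Norm.Normal (integralClosure (Algebra.adjoin A₀ {t⁻¹}) Lf)
      (algebraMap A₀ (integralClosure (Algebra.adjoin A₀ {t⁻¹}) Lf) π) := by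
  haveI := h.fd
  haveI := h.inv_fd
  obtain ⟨S, e, hS, hb, he, hζ, htame⟩ := h.ram
  exact Norm.chart_inv_normal_of h.irr h.transc h.inv_transc h.normal
    (fun m hm hπm hσm => Norm.chart_inv_normalAt h.irr h.transc h.inv_transc h.inv_good S hb e he
      hζ htame.2 h.place m hm hπm hσm)

/-- (R1) at infinity: `π` is a prime element of the chart `C₂ = integralClosure A₀[t⁻¹] Lf`. -/
theorem TSHyp.inv_prime (h : TSHyp (E := E) π t) :
    Prime (algebraMap A₀ (integralClosure (Algebra.adjoin A₀ {t⁻¹}) Lf) π) :=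
  Norm.chart_inv_prime_of h.irr h.transc h.inv_transc h.prime

/-- (R1) at infinity: the special fibre `C₂ / π` is a domain. -/
theorem TSHyp.inv_isDomain (h : TSHyp (E := E) π t) :
    IsDomain (integralClosure (Algebra.adjoin A₀ {t⁻¹}) Lf ⧸
      Ideal.span {algebraMap A₀ (integralClosure (Algebra.adjoin A₀ {t⁻¹}) Lf) π}) := by
  have hp := h.inv_prime
  haveI : (Ideal.span {algebraMap A₀ (integralClosure (Algebra.adjoin A₀ {t⁻¹}) Lf) π}).IsPrime :=
    (Ideal.span_singleton_prime hp.ne_zero).mpr hp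
  exact Ideal.Quotient.isDomain _

/-- (R2) at infinity: the special fibre `C₂ / π` is integrally closed. -/
theorem TSHyp.inv_isIntegrallyClosed (h : TSHyp (E := E) π t) :
    IsIntegrallyClosed (integralClosure (Algebra.adjoin A₀ {t⁻¹}) Lf ⧸
      Ideal.span {algebraMap A₀ (integralClosure (Algebra.adjoin A₀ {t⁻¹}) Lf) π}) :=
  Norm.isIntegrallyClosed_quotient_of_normal h.inv_prime h.inv_normal

/-- **Reg at infinity**: every maximal ideal `𝔫 ∋ π` of the chart `C₂` is locally generated by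
`π` and one more element. -/
theorem TSHyp.inv_locGen (h : TSHyp (E := E) π t)
    (𝔫 : Ideal (integralClosure (Algebra.adjoin A₀ {t⁻¹}) Lf)) (h𝔫 : 𝔫.IsMaximal)
    (hπ𝔫 : algebraMap A₀ (integralClosure (Algebra.adjoin A₀ {t⁻¹}) Lf) π ∈ 𝔫) :
    ∃ s ∈ 𝔫, ∀ x ∈ 𝔫, ∃ u, u ∉ 𝔫 ∧
      u * x ∈ Ideal.span {algebraMap A₀ (integralClosure (Algebra.adjoin A₀ {t⁻¹}) Lf) π, s} := by
  haveI := h.inv_fd
  haveI := h.inv_isDomain
  haveI := h.inv_isIntegrallyClosed
  exact FibreDVR.chart_locGen_of_isIntegrallyClosed (E := E) h.irr h.inv_transc 𝔫 h𝔫 hπ𝔫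

end Fermat.Agent.UNIP.RegInst
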