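/-
UNIP (item 34, S34/S35), piece "RegTransfer" of U5, part 4 (helper20): the modular instances.

* `RegChart π τ` : the chart `C_τ = integralClosure (adjoin A₀ {τ}) Lf` is *regular along its special
  fibre*: `π` irreducible, `τ` transcendental, `Lf / E(τ)` finite, `π` prime in `C_τ`, `C_τ / π`
  integrally closed.  Consequences `RegChart.isDomain`, `RegChart.locGen` (= the three level-`M`
  inputs of `nodes_modular_chart`), `RegChart.normal`.
* `TSHyp.regChart`, `TSHyp.inv_regChart` : from the hypotheses of the tame specialization theorem.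
* `RegChart.hm2_j`, `RegChart.hm2_jinv`, `RegChart.hm3_j`, `RegChart.hm3_jinv` : RegTransfer.
* modular instances for `Lf = F_N(K₀)`, `τ = j^{±1}`:
  `regChart_J` (`6 ∣ e`, any residue characteristic prime to `6 N`),
  `regChart_h2_J`, `regChart_h2_Jinv` (`2 ∣ N`, residue characteristic `ℓ ∤ N`, e.g. `ℓ = 3`),
  `regChart_h3_J`, `regChart_h3_Jinv` (`3 ∣ N`, residue characteristic `ℓ ∤ N`, e.g. `ℓ = 2`).
-/
import Fermat.Agent.UNIP.RegInstInv
import Fermat.Agent.UNIP.RegTransfer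

set_option autoImplicit false
set_option linter.unusedSectionVars false
set_option linter.unusedVariables false
set_option linter.style.haveILetI false
set_option linter.style.longLine false
set_option synthInstance.maxHeartbeats 400000
set_option maxHeartbeats 1000000

namespace Fermat.Agent.UNIP

open Polynomial AlgebraicCurve IntermediateField Fermat.Agent.S24 ModularCurve Fermat.Agent.INJ
  Fermat.Agent.INJ.Norm

universe u

section Abstract

variable {A₀ E Lf : Type u} [CommRing A₀] [IsDomain A₀] [IsDiscreteValuationRing A₀]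
  [Field E] [Algebra A₀ E] [IsFractionRing A₀ E] [CharZero E]
  [Field Lf] [Algebra E Lf] [Algebra A₀ Lf] [IsScalarTower A₀ E Lf]

/-- the chart `C_τ` is regular along its special fibre -/
structure RegChart (π : A₀) (τ : Lf) : Prop where
  irr : Irreducible π
  transc : Transcendental E τ
  fd : FiniteDimensional E⟮τ⟯ Lf
  prime : Prime (algebraMap A₀ (integralClosure (Algebra.adjoin A₀ {τ}) Lf) π)
  icl : IsIntegrallyClosed (integralClosure (Algebra.adjoin A₀ {τ}) Lf ⧸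
    Ideal.span {algebraMap A₀ (integralClosure (Algebra.adjoin A₀ {τ}) Lf) π})

variable {π : A₀} {t j : Lf}

theorem RegChart.isDomain (h : RegChart (E := E) π t) :
    IsDomain (integralClosure (Algebra.adjoin A₀ {t}) Lf ⧸
      Ideal.span {algebraMap A₀ (integralClosure (Algebra.adjoin A₀ {t}) Lf) π}) := by
  have hp := h.prime
  haveI : (Ideal.span {algebraMap A₀ (integralClosure (Algebra.adjoin A₀ {t}) Lf) π}).IsPrime :=
    (Ideal.span_singleton_prime hp.ne_zero).mpr hp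
  exact Ideal.Quotient.isDomain _

theorem RegChart.isIntegrallyClosed (h : RegChart (E := E) π t) :
    IsIntegrallyClosed (integralClosure (Algebra.adjoin A₀ {t}) Lf ⧸
      Ideal.span {algebraMap A₀ (integralClosure (Algebra.adjoin A₀ {t}) Lf) π}) := h.icl

theorem RegChart.normal (h : RegChart (E := E) π t) :
    Normal (integralClosure (Algebra.adjoin A₀ {t}) Lf)
      (algebraMap A₀ (integralClosure (Algebra.adjoin A₀ {t}) Lf) π) :=
  normal_of_isIntegrallyClosed_quotient h.prime h.icl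

/-- **Reg**: every maximal ideal `𝔫 ∋ π` of the chart is locally generated by `π` and one more
element. -/
theorem RegChart.locGen (h : RegChart (E := E) π t)
    (𝔫 : Ideal (integralClosure (Algebra.adjoin A₀ {t}) Lf)) (h𝔫 : 𝔫.IsMaximal)
    (hπ𝔫 : algebraMap A₀ (integralClosure (Algebra.adjoin A₀ {t}) Lf) π ∈ 𝔫) :
    ∃ s ∈ 𝔫, ∀ x ∈ 𝔫, ∃ u, u ∉ 𝔫 ∧
      u * x ∈ Ideal.span {algebraMap A₀ (integralClosure (Algebra.adjoin A₀ {t}) Lf) π, s} := by
  haveI := h.fd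
  haveI := h.isDomain
  haveI := h.icl
  exact FibreDVR.chart_locGen_of_isIntegrallyClosed (E := E) h.irr h.transc 𝔫 h𝔫 hπ𝔫

theorem regChart_of_tsHyp (h : RegInst.TSHyp (E := E) π t) : RegChart (E := E) π t where
  irr := h.irr
  transc := h.transc
  fd := h.fd
  prime := h.prime
  icl := h.isIntegrallyClosed

theorem regChart_inv_of_tsHyp (h : RegInst.TSHyp (E := E) π t) : RegChart (E := E) π t⁻¹ where
  irr := h.irr
  transc := h.inv_transc
  fd := h.inv_fd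
  prime := h.inv_prime
  icl := h.inv_isIntegrallyClosed

theorem regChart_fd_inv (hj : FiniteDimensional E⟮j⟯ Lf) : FiniteDimensional E⟮j⁻¹⟯ Lf :=
  haveI := hj
  tsg_finiteDimensional_of_eq (zch_adjoin_inv j)

/-- RegTransfer, `X₀(2)`, chart `j` -/
theorem RegChart.hm2_j (h : RegChart (E := E) π t) (hrel : j * t ^ 2 = (t + 256) ^ 3)
    (h2 : IsUnit (2 : A₀)) (hj : Transcendental E j) (hfd : FiniteDimensional E⟮j⟯ Lf) :
    RegChart (E := E) π j where
  irr := h.irr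
  transc := hj
  fd := hfd
  prime := (regT_hm2_j h.irr h.transc hrel h2 h.prime h.icl).1
  icl := (regT_hm2_j h.irr h.transc hrel h2 h.prime h.icl).2

/-- RegTransfer, `X₀(2)`, chart `j⁻¹` -/
theorem RegChart.hm2_jinv (h : RegChart (E := E) π t) (h' : RegChart (E := E) π t⁻¹)
    (hrel : j * t ^ 2 = (t + 256) ^ 3)
    (h2 : IsUnit (2 : A₀)) (hj : Transcendental E j) (hfd : FiniteDimensional E⟮j⟯ Lf) :
    RegChart (E := E) π j⁻¹ where
  irr := h.irr
  transc := zch_transcendental_inv hj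
  fd := regChart_fd_inv hfd
  prime := (regT_hm2_jinv h.irr h.transc hrel h2 h.prime h.icl h'.prime h'.icl).1
  icl := (regT_hm2_jinv h.irr h.transc hrel h2 h.prime h.icl h'.prime h'.icl).2

/-- RegTransfer, `X₀(3)`, chart `j` -/
theorem RegChart.hm3_j (h : RegChart (E := E) π t)
    (hrel : j * t ^ 3 = (t + 27) * (t + 243) ^ 3)
    (h3 : IsUnit (3 : A₀)) (hj : Transcendental E j) (hfd : FiniteDimensional E⟮j⟯ Lf) :
    RegChart (E := E) π j where
  irr := h.irr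
  transc := hj
  fd := hfd
  prime := (regT_hm3_j h.irr h.transc hrel h3 h.prime h.icl).1
  icl := (regT_hm3_j h.irr h.transc hrel h3 h.prime h.icl).2

/-- RegTransfer, `X₀(3)`, chart `j⁻¹` -/
theorem RegChart.hm3_jinv (h : RegChart (E := E) π t) (h' : RegChart (E := E) π t⁻¹)
    (hrel : j * t ^ 3 = (t + 27) * (t + 243) ^ 3)
    (h3 : IsUnit (3 : A₀)) (hj : Transcendental E j) (hfd : FiniteDimensional E⟮j⟯ Lf) :
    RegChart (E := E) π j⁻¹ where
  irr := h.irr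
  transc := zch_transcendental_inv hj
  fd := regChart_fd_inv hfd
  prime := (regT_hm3_jinv h.irr h.transc hrel h3 h.prime h.icl h'.prime h'.icl).1
  icl := (regT_hm3_jinv h.irr h.transc hrel h3 h.prime h.icl h'.prime h'.icl).2

end Abstract

section Modular

variable (K₀ : IntermediateField ℚ NfQb) (N : ℕ) [NeZero N]
variable {A₀ : Type} [CommRing A₀] [IsDomain A₀] [IsDiscreteValuationRing A₀] [Algebra A₀ K₀]
  [IsFractionRing A₀ K₀]
  [Algebra A₀ (modularFunctionFieldFullC K₀ N)]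
  [IsScalarTower A₀ K₀ (modularFunctionFieldFullC K₀ N)]
  {k : Type*} [Field k] (r : A₀ →+* k) {π : A₀}

theorem regT_bgH2_rel (h2 : 2 ∣ N) :
    bgJ K₀ N * bgH2 K₀ N h2 ^ 2 = (bgH2 K₀ N h2 + 256) ^ 3 :=
  Subtype.ext (hm2_j K₀)

theorem regT_bgH3_rel (h3 : 3 ∣ N) :
    bgJ K₀ N * bgH3 K₀ N h3 ^ 3 = (bgH3 K₀ N h3 + 27) * (bgH3 K₀ N h3 + 243) ^ 3 :=
  Subtype.ext (hm3_j K₀)

omit [IsDomain A₀] [IsDiscreteValuationRing A₀] in
theorem regT_isUnit_of_dvd {e : ℕ} (he : IsUnit (e : A₀)) {d : ℕ} (hd : d ∣ e) :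
    IsUnit (d : A₀) := by
  obtain ⟨c, rfl⟩ := hd
  rw [Nat.cast_mul] at he
  exact isUnit_of_mul_isUnit_left he

/-- the chart `j` of `F_N(K₀)`, residue characteristic prime to `6 N` -/
theorem regChart_J (hπ : Irreducible π) (hr : ∀ a, r a = 0 → π ∣ a) (hrπ : r π = 0)
    (ℓ : ℕ) [Fact ℓ.Prime] [CharP k ℓ] [PerfectRing k ℓ]
    (e : ℕ) (h6 : 6 ∣ e) (hN : N ∣ e) (he : IsUnit (e : A₀))
    (hζ : ∃ ζ : A₀, IsPrimitiveRoot ζ e) :
    RegChart (E := K₀) π (bgJ K₀ N) :=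
  regChart_of_tsHyp (RegInst.tsHyp_jline K₀ N r hπ hr hrπ ℓ e h6 hN he hζ)

/-- the chart `j⁻¹` of `F_N(K₀)`, residue characteristic prime to `6 N` -/
theorem regChart_Jinv (hπ : Irreducible π) (hr : ∀ a, r a = 0 → π ∣ a) (hrπ : r π = 0)
    (ℓ : ℕ) [Fact ℓ.Prime] [CharP k ℓ] [PerfectRing k ℓ]
    (e : ℕ) (h6 : 6 ∣ e) (hN : N ∣ e) (he : IsUnit (e : A₀))
    (hζ : ∃ ζ : A₀, IsPrimitiveRoot ζ e) :
    RegChart (E := K₀) π (bgJ K₀ N)⁻¹ :=
  regChart_inv_of_tsHyp (RegInst.tsHyp_jline K₀ N r hπ hr hrπ ℓ e h6 hN he hζ)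

/-- **the chart `j` of `F_N(K₀)`, `2 ∣ N`** (residue characteristic `ℓ ∤ N`, e.g. `ℓ = 3`) -/
theorem regChart_h2_J (h2 : 2 ∣ N) (hπ : Irreducible π) (hr : ∀ a, r a = 0 → π ∣ a)
    (hrπ : r π = 0) (ℓ : ℕ) [Fact ℓ.Prime] [CharP k ℓ] [PerfectRing k ℓ]
    (e : ℕ) (hN : N ∣ e) (he : IsUnit (e : A₀))
    (hζ : ∃ ζ : A₀, IsPrimitiveRoot ζ e) :
    RegChart (E := K₀) π (bgJ K₀ N) :=
  (regChart_of_tsHyp (RegInst.tsHyp_h2line K₀ N r h2 hπ hr hrπ ℓ e hN he hζ)).hm2_j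
    (regT_bgH2_rel K₀ N h2) (by exact_mod_cast regT_isUnit_of_dvd he (h2.trans hN))
    (bgConst_transcendental_bgJ K₀ N) (bgFin_finiteDimensional_full K₀ N)

/-- **the chart `j⁻¹` of `F_N(K₀)`, `2 ∣ N`** (residue characteristic `ℓ ∤ N`, e.g. `ℓ = 3`) -/
theorem regChart_h2_Jinv (h2 : 2 ∣ N) (hπ : Irreducible π) (hr : ∀ a, r a = 0 → π ∣ a)
    (hrπ : r π = 0) (ℓ : ℕ) [Fact ℓ.Prime] [CharP k ℓ] [PerfectRing k ℓ]
    (e : ℕ) (hN : N ∣ e) (he : IsUnit (e : A₀))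
    (hζ : ∃ ζ : A₀, IsPrimitiveRoot ζ e) :
    RegChart (E := K₀) π (bgJ K₀ N)⁻¹ :=
  (regChart_of_tsHyp (RegInst.tsHyp_h2line K₀ N r h2 hπ hr hrπ ℓ e hN he hζ)).hm2_jinv
    (regChart_inv_of_tsHyp (RegInst.tsHyp_h2line K₀ N r h2 hπ hr hrπ ℓ e hN he hζ))
    (regT_bgH2_rel K₀ N h2) (by exact_mod_cast regT_isUnit_of_dvd he (h2.trans hN))
    (bgConst_transcendental_bgJ K₀ N) (bgFin_finiteDimensional_full K₀ N)

/-- **the chart `j` of `F_N(K₀)`, `3 ∣ N`** (residue characteristic `ℓ ∤ N`, e.g. `ℓ = 2`) -/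
theorem regChart_h3_J (h3 : 3 ∣ N) (hπ : Irreducible π) (hr : ∀ a, r a = 0 → π ∣ a)
    (hrπ : r π = 0) (ℓ : ℕ) [Fact ℓ.Prime] [CharP k ℓ] [PerfectRing k ℓ]
    (e : ℕ) (hN : N ∣ e) (he : IsUnit (e : A₀))
    (hζ : ∃ ζ : A₀, IsPrimitiveRoot ζ e) :
    RegChart (E := K₀) π (bgJ K₀ N) :=
  (regChart_of_tsHyp (RegInst.tsHyp_h3line K₀ N r h3 hπ hr hrπ ℓ e hN he hζ)).hm3_j
    (regT_bgH3_rel K₀ N h3) (by exact_mod_cast regT_isUnit_of_dvd he (h3.trans hN))
    (bgConst_transcendental_bgJ K₀ N) (bgFin_finiteDimensional_full K₀ N)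

/-- **the chart `j⁻¹` of `F_N(K₀)`, `3 ∣ N`** (residue characteristic `ℓ ∤ N`, e.g. `ℓ = 2`) -/
theorem regChart_h3_Jinv (h3 : 3 ∣ N) (hπ : Irreducible π) (hr : ∀ a, r a = 0 → π ∣ a)
    (hrπ : r π = 0) (ℓ : ℕ) [Fact ℓ.Prime] [CharP k ℓ] [PerfectRing k ℓ]
    (e : ℕ) (hN : N ∣ e) (he : IsUnit (e : A₀))
    (hζ : ∃ ζ : A₀, IsPrimitiveRoot ζ e) :
    RegChart (E := K₀) π (bgJ K₀ N)⁻¹ :=
  (regChart_of_tsHyp (RegInst.tsHyp_h3line K₀ N r h3 hπ hr hrπ ℓ e hN he hζ)).hm3_jinv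
    (regChart_inv_of_tsHyp (RegInst.tsHyp_h3line K₀ N r h3 hπ hr hrπ ℓ e hN he hζ))
    (regT_bgH3_rel K₀ N h3) (by exact_mod_cast regT_isUnit_of_dvd he (h3.trans hN))
    (bgConst_transcendental_bgJ K₀ N) (bgFin_finiteDimensional_full K₀ N)

end Modular

end Fermat.Agent.UNIP
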