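import Mathlib
import Fermat.Agent.UNIP.Beta0Tot

/-!
# UNIP piece U10 (`Beta0`), part 8: the decomposition group and Frobenius on `E₀`, `E'`

* `beta0_conj_mem_inertia` : `I` is normal in `D`;
* `beta0_decomp_apply_mem` : `σ ∈ D ⇒ σ E₀ ⊆ E₀`;
* `beta0_sup_decomp_apply_mem` : `σ ∈ D ⇒ σ (E₀ ⊔ F) ⊆ E₀ ⊔ F` (`F` normal over `ℚ`);
* `beta0_frob_sub_pow_mem` : a Frobenius `φ` at `A` (residue cardinality `ℓ`) has
  `φ a - a ^ ℓ ∈ 𝔪_A` for `a ∈ A`;  `beta0_frob_pow_sub_pow_mem` : `φ^k a - a ^ (ℓ^k) ∈ 𝔪_A`.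
-/

set_option autoImplicit false
set_option linter.style.haveILetI false
set_option linter.unusedSectionVars false

namespace Fermat.Agent.UNIP

section general

variable {K L : Type*} [Field K] [Field L] [Algebra K L]

/-- The inertia subgroup is normal in the decomposition subgroup. -/
theorem beta0_conj_mem_inertia {A : ValuationSubring L} {σ τ : L ≃ₐ[K] L}
    (hσ : σ ∈ A.decompositionSubgroup K) (hτ : τ ∈ A.inertiaSubgroupIn K) :
    σ * τ * σ⁻¹ ∈ A.inertiaSubgroupIn K := by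
  obtain ⟨τ', hτ', rfl⟩ := hτ
  have hn : (A.inertiaSubgroup K).Normal := MonoidHom.normal_ker _
  have h1 := hn.conj_mem τ' hτ' ⟨σ, hσ⟩
  rw [ValuationSubring.inertiaSubgroupIn, Subgroup.mem_map]
  exact ⟨_, h1, by simp⟩

/-- A Frobenius at `A` is the `ℓ`-th power map modulo `𝔪_A`. -/
theorem beta0_frob_sub_pow_mem {A : ValuationSubring L} {φ : L ≃ₐ[K] L} {ℓ : ℕ}
    (hφ : A.IsFrobeniusAt φ ℓ) {a : L} (ha : a ∈ A) : φ a - a ^ ℓ ∈ A.nonunits := by
  set z : A := ⟨a, ha⟩ with hz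
  have e2 := hφ.smul_residue_eq (IsLocalRing.residue A z)
  rw [← IsLocalRing.ResidueField.residue_smul, ← map_pow, ← sub_eq_zero, ← map_sub,
    IsLocalRing.residue_eq_zero_iff, ← ValuationSubring.coe_mem_nonunits_iff] at e2
  exact e2

/-- A Frobenius at `A` preserves `A`. -/
theorem beta0_frob_apply_mem {A : ValuationSubring L} {φ : L ≃ₐ[K] L} {ℓ : ℕ}
    (hφ : A.IsFrobeniusAt φ ℓ) {a : L} (ha : a ∈ A) : φ a ∈ A :=
  (Fermat.Agent.S05.apply_mem_iff_of_mem_decomposition hφ.mem_decompositionSubgroup a).mpr ha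

/-- Powers of a Frobenius: `φ^k a ≡ a ^ (ℓ^k)` modulo `𝔪_A`. -/
theorem beta0_frob_pow_sub_pow_mem {A : ValuationSubring L} {φ : L ≃ₐ[K] L} {ℓ : ℕ}
    (hφ : A.IsFrobeniusAt φ ℓ) (k : ℕ) {a : L} (ha : a ∈ A) :
    (φ ^ k) a - a ^ (ℓ ^ k) ∈ A.nonunits := by
  induction k generalizing a with
  | zero =>
    simp only [pow_zero, AlgEquiv.one_apply, pow_one, sub_self]
    exact A.mem_nonunits_iff.mpr (by simp)
  | succ k ih =>
    have h1 : (φ ^ (k + 1)) a - a ^ (ℓ ^ (k + 1)) =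
        ((φ ^ k) (φ a) - (φ a) ^ (ℓ ^ k)) + ((φ a) ^ (ℓ ^ k) - (a ^ ℓ) ^ (ℓ ^ k)) := by
      rw [pow_succ, AlgEquiv.mul_apply, ← pow_mul, pow_succ']
      ring
    rw [h1, A.mem_nonunits_iff]
    have h2 : A.valuation ((φ ^ k) (φ a) - (φ a) ^ (ℓ ^ k)) < 1 :=
      A.mem_nonunits_iff.mp (ih (beta0_frob_apply_mem hφ ha))
    have h3 : A.valuation ((φ a) ^ (ℓ ^ k) - (a ^ ℓ) ^ (ℓ ^ k)) < 1 := by
      have hφa : φ a ∈ A := beta0_frob_apply_mem hφ ha
      have haℓ : a ^ ℓ ∈ A := pow_mem ha _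
      set x : A := ⟨φ a, hφa⟩ with hx
      set y : A := ⟨a ^ ℓ, haℓ⟩ with hy
      have hxy : x - y ∈ IsLocalRing.maximalIdeal A := by
        rw [← ValuationSubring.coe_mem_nonunits_iff]
        exact beta0_frob_sub_pow_mem hφ ha
      have hdvd : x - y ∣ x ^ (ℓ ^ k) - y ^ (ℓ ^ k) := sub_dvd_pow_sub_pow _ _ _
      have hmem : x ^ (ℓ ^ k) - y ^ (ℓ ^ k) ∈ IsLocalRing.maximalIdeal A :=
        Ideal.mem_of_dvd _ hdvd hxy
      rw [← ValuationSubring.coe_mem_nonunits_iff] at hmem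
      exact A.mem_nonunits_iff.mp hmem
    exact lt_of_le_of_lt (Valuation.map_add _ _ _) (max_lt h2 h3)

end general

section absolute

variable {A : ValuationSubring (AlgebraicClosure ℚ)}

/-- The decomposition group stabilises `E₀ = ℚ̄^I`. -/
theorem beta0_decomp_apply_mem {σ : AlgebraicClosure ℚ ≃ₐ[ℚ] AlgebraicClosure ℚ}
    (hσ : σ ∈ A.decompositionSubgroup ℚ) {x : AlgebraicClosure ℚ} (hx : x ∈ beta0Field A) :
    σ x ∈ beta0Field A := by
  rw [mem_beta0Field] at hx ⊢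
  intro τ hτ
  have hσ' : σ⁻¹ ∈ A.decompositionSubgroup ℚ := Subgroup.inv_mem _ hσ
  have h1 := beta0_conj_mem_inertia hσ' hτ
  have h2 := hx _ h1
  have h3 : (σ⁻¹ * τ * σ⁻¹⁻¹) x = σ⁻¹ (τ (σ x)) := by
    rw [inv_inv]
    rfl
  rw [h3] at h2
  have h4 := congrArg σ h2
  have h5 : σ (σ⁻¹ (τ (σ x))) = τ (σ x) := by
    show (σ * σ⁻¹) (τ (σ x)) = τ (σ x)
    rw [mul_inv_cancel]
    rfl
  rw [h5] at h4
  exact h4

/-- The decomposition group stabilises `E' = E₀ ⊔ F` for `F` normal over `ℚ`. -/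
theorem beta0_sup_decomp_apply_mem (F : IntermediateField ℚ (AlgebraicClosure ℚ))
    [Normal ℚ F] {σ : AlgebraicClosure ℚ ≃ₐ[ℚ] AlgebraicClosure ℚ}
    (hσ : σ ∈ A.decompositionSubgroup ℚ) {x : AlgebraicClosure ℚ}
    (hx : x ∈ beta0Field A ⊔ F) : σ x ∈ beta0Field A ⊔ F := by
  haveI := Fermat.Agent.Common.isAlgClosure_rat_qbar
  haveI : Algebra.IsAlgebraic ℚ F := Algebra.IsAlgebraic.of_injective
    (IsScalarTower.toAlgHom ℚ F (AlgebraicClosure ℚ)) (algebraMap F (AlgebraicClosure ℚ)).injective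
  have h1 : x ∈ (beta0Field A ⊔ F).toSubalgebra := hx
  rw [IntermediateField.sup_toSubalgebra_of_isAlgebraic_right, ← Subalgebra.mem_toSubmodule,
    ← Subalgebra.mul_toSubmodule] at h1
  refine Submodule.mul_induction_on h1 ?_ ?_
  · intro m hm f hf
    rw [map_mul]
    apply mul_mem
    · exact (le_sup_left : beta0Field A ≤ beta0Field A ⊔ F) (beta0_decomp_apply_mem hσ hm)
    · have := AlgEquiv.restrictNormal_commutes σ F ⟨f, hf⟩
      have h2 : σ f = ((AlgEquiv.restrictNormal σ F ⟨f, hf⟩ : F) : AlgebraicClosure ℚ) :=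
        this.symm
      rw [h2]
      exact (le_sup_right : F ≤ beta0Field A ⊔ F) (AlgEquiv.restrictNormal σ F ⟨f, hf⟩).2
  · intro y z hy hz
    rw [map_add]
    exact add_mem hy hz

end absolute

end Fermat.Agent.UNIP
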