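/-
UNIP (S34/S35), direct route, piece MG-5a "chart hypotheses of (T′)", U5 plugged in, part 2
(helper16).

* `mgcb_gen_hU5_J`, `mgcb_gen_hU5_Jinv` (generic setting of `NodesFinalReg.lean`) : the
  dichotomy smooth point / crossing `hU5` of `mgcb_G5`, `mgcc_hcoord`, `mgs_hcoord`, `MgcBase`
  at a maximal ideal `𝔫 ∋ π` of the chart `j` (resp. `1 / j`) of `F_{Mq}(K₀)`, from
  `RegChart π (bgJ K₀ M)` (resp. `(bgJ K₀ M)⁻¹`) and a Frobenius lift `(ψA, ψE, θ)`;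
* `mgcb_reg_hU5_J`, `mgcb_reg_hU5_Jinv` : the same in the setting of `MGVertInertia.lean`
  (`A₀ = beta0Ring A K₀`, `r =` residue map), for a Frobenius element `φ` at `A` with
  `φ K₀ ⊆ K₀`.
-/
import Fermat.Agent.UNIP.MGChartsBeta0Reg

set_option autoImplicit false
set_option linter.style.haveILetI false
set_option linter.unusedSectionVars false
set_option linter.unusedVariables false
set_option linter.style.longLine false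
set_option synthInstance.maxHeartbeats 400000
set_option maxHeartbeats 8000000

noncomputable section

namespace Fermat.Agent.UNIP

open ModularCurve Polynomial IntermediateField Fermat.Agent.INJ Fermat.Agent.AL
open Fermat.Agent.ES Fermat.Agent.ES.G2 Fermat.Agent.STB

section Generic

variable (K₀ : IntermediateField ℚ NfQb) {A₀ : Type} [CommRing A₀] [IsDomain A₀]
  [IsDiscreteValuationRing A₀] [Algebra A₀ K₀] [IsFractionRing A₀ K₀]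
  {k : Type*} [Field k] (r : A₀ →+* k) {π : A₀} (ιC : K₀ →+* ℂ)
  {q M : ℕ} [NeZero q] [NeZero M] [NeZero (M * q)] (hq : q.Prime) (hqM : ¬ q ∣ M)
  (ψA : A₀ →+* A₀) (ψE : K₀ →+* K₀) (θ : k →+* k)
  [Algebra A₀ (modularFunctionFieldFullC K₀ M)]
  [IsScalarTower A₀ K₀ (modularFunctionFieldFullC K₀ M)]
  [Algebra A₀ (modularFunctionFieldFullC K₀ (M * q))]
  [IsScalarTower A₀ K₀ (modularFunctionFieldFullC K₀ (M * q))]

include r ιC hq hqM ψA ψE θ in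
/-- **`hU5` on the chart `j`**, generic. -/
theorem mgcb_gen_hU5_J [Fact q.Prime] [CharP k q]
    (hπ : Irreducible π) (hr : ∀ a, r a = 0 → π ∣ a) (hrπ : r π = 0)
    (h : RegChart (E := K₀) π (bgJ K₀ M))
    (hψ : ∀ a, ψE (algebraMap A₀ K₀ a) = algebraMap A₀ K₀ (ψA a))
    (hθ : ∀ a, r (ψA a) = θ (r a)) (hθq : ∀ x, θ x ^ q = x)
    (t : modularFunctionFieldFullC K₀ (M * q))
    (e : nodesInstIncl K₀ M q (bgJ K₀ M) = t)
    (𝔫 : Ideal (integralClosure (Algebra.adjoin A₀ {t}) (modularFunctionFieldFullC K₀ (M * q))))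
    (h𝔫 : 𝔫.IsMaximal)
    (hπ𝔫 : algebraMap A₀ (integralClosure (Algebra.adjoin A₀ {t})
      (modularFunctionFieldFullC K₀ (M * q))) π ∈ 𝔫) :
    (∃ s ∈ 𝔫, NodesLocGen 𝔫 {algebraMap A₀ (integralClosure (Algebra.adjoin A₀ {t})
      (modularFunctionFieldFullC K₀ (M * q))) π, s}) ∨
    (∃ X Y : integralClosure (Algebra.adjoin A₀ {t}) (modularFunctionFieldFullC K₀ (M * q)),
      X ∈ 𝔫 ∧ Y ∈ 𝔫 ∧
      algebraMap A₀ (integralClosure (Algebra.adjoin A₀ {t})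
        (modularFunctionFieldFullC K₀ (M * q))) π ∣ X * Y ∧
      NodesLocGen 𝔫 {algebraMap A₀ (integralClosure (Algebra.adjoin A₀ {t})
        (modularFunctionFieldFullC K₀ (M * q))) π, X, Y}) := by
  subst e
  rcases nodesReg_chart_J K₀ r ιC hq hqM ψA ψE θ hπ hr hrπ h hψ hθ hθq 𝔫 h𝔫 hπ𝔫 with
    h0 | ⟨h1, h2, X, Y, hX, hY, -, -, hXY, hgen⟩
  · exact Or.inl h0
  · exact Or.inr ⟨X, Y, h1 X hX, h2 Y hY, hXY, hgen⟩

include r ιC hq hqM ψA ψE θ in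
/-- **`hU5` on the chart `1 / j`**, generic. -/
theorem mgcb_gen_hU5_Jinv [Fact q.Prime] [CharP k q]
    (hπ : Irreducible π) (hr : ∀ a, r a = 0 → π ∣ a) (hrπ : r π = 0)
    (h : RegChart (E := K₀) π (bgJ K₀ M)⁻¹)
    (hψ : ∀ a, ψE (algebraMap A₀ K₀ a) = algebraMap A₀ K₀ (ψA a))
    (hθ : ∀ a, r (ψA a) = θ (r a)) (hθq : ∀ x, θ x ^ q = x)
    (t : modularFunctionFieldFullC K₀ (M * q))
    (e : nodesInstIncl K₀ M q (bgJ K₀ M)⁻¹ = t)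
    (𝔫 : Ideal (integralClosure (Algebra.adjoin A₀ {t}) (modularFunctionFieldFullC K₀ (M * q))))
    (h𝔫 : 𝔫.IsMaximal)
    (hπ𝔫 : algebraMap A₀ (integralClosure (Algebra.adjoin A₀ {t})
      (modularFunctionFieldFullC K₀ (M * q))) π ∈ 𝔫) :
    (∃ s ∈ 𝔫, NodesLocGen 𝔫 {algebraMap A₀ (integralClosure (Algebra.adjoin A₀ {t})
      (modularFunctionFieldFullC K₀ (M * q))) π, s}) ∨
    (∃ X Y : integralClosure (Algebra.adjoin A₀ {t}) (modularFunctionFieldFullC K₀ (M * q)),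
      X ∈ 𝔫 ∧ Y ∈ 𝔫 ∧
      algebraMap A₀ (integralClosure (Algebra.adjoin A₀ {t})
        (modularFunctionFieldFullC K₀ (M * q))) π ∣ X * Y ∧
      NodesLocGen 𝔫 {algebraMap A₀ (integralClosure (Algebra.adjoin A₀ {t})
        (modularFunctionFieldFullC K₀ (M * q))) π, X, Y}) := by
  subst e
  rcases nodesReg_chart_Jinv K₀ r ιC hq hqM ψA ψE θ hπ hr hrπ h hψ hθ hθq 𝔫 h𝔫 hπ𝔫 with
    h0 | ⟨h1, h2, X, Y, hX, hY, -, -, hXY, hgen⟩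
  · exact Or.inl h0
  · exact Or.inr ⟨X, Y, h1 X hX, h2 Y hY, hXY, hgen⟩

end Generic

section Reg

variable {A : ValuationSubring Qb} {K₀ : IntermediateField ℚ Qb}
  [IsDiscreteValuationRing ↥(beta0Ring A K₀)] {π : ↥(beta0Ring A K₀)} (hπ : Irreducible π)
  (ιC : ↥K₀ →+* ℂ) {q M : ℕ} [NeZero q] [NeZero M] [NeZero (M * q)]
  (hq : q.Prime) (hqM : ¬ q ∣ M)

include hπ ιC hq hqM in
/-- **`hU5` on the chart `j`** of `F_{Mq}(K₀)` over `A ∩ K₀`. -/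
theorem mgcb_reg_hU5_J (hA : A.LiesOverPrime q) {φ : Qb ≃ₐ[ℚ] Qb}
    (hφF : A.IsFrobeniusAt φ q) (hφ : ∀ x ∈ K₀, φ x ∈ K₀)
    (h : RegChart (E := ↥K₀) π (bgJ ↥K₀ M))
    (𝔫 : Ideal (integralClosure (Algebra.adjoin ↥(beta0Ring A K₀) {bgJ ↥K₀ (M * q)})
      ↥(modularFunctionFieldFullC ↥K₀ (M * q))))
    (h𝔫 : 𝔫.IsMaximal)
    (hπ𝔫 : algebraMap ↥(beta0Ring A K₀) (integralClosure
      (Algebra.adjoin ↥(beta0Ring A K₀) {bgJ ↥K₀ (M * q)})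
      ↥(modularFunctionFieldFullC ↥K₀ (M * q))) π ∈ 𝔫) :
    (∃ s ∈ 𝔫, NodesLocGen 𝔫 {algebraMap ↥(beta0Ring A K₀) (integralClosure
      (Algebra.adjoin ↥(beta0Ring A K₀) {bgJ ↥K₀ (M * q)})
      ↥(modularFunctionFieldFullC ↥K₀ (M * q))) π, s}) ∨
    (∃ X Y : integralClosure (Algebra.adjoin ↥(beta0Ring A K₀) {bgJ ↥K₀ (M * q)})
        ↥(modularFunctionFieldFullC ↥K₀ (M * q)),
      X ∈ 𝔫 ∧ Y ∈ 𝔫 ∧
      algebraMap ↥(beta0Ring A K₀) (integralClosure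
        (Algebra.adjoin ↥(beta0Ring A K₀) {bgJ ↥K₀ (M * q)})
        ↥(modularFunctionFieldFullC ↥K₀ (M * q))) π ∣ X * Y ∧
      NodesLocGen 𝔫 {algebraMap ↥(beta0Ring A K₀) (integralClosure
        (Algebra.adjoin ↥(beta0Ring A K₀) {bgJ ↥K₀ (M * q)})
        ↥(modularFunctionFieldFullC ↥K₀ (M * q))) π, X, Y}) := by
  haveI : Fact q.Prime := ⟨hq⟩
  haveI : CharP (IsLocalRing.ResidueField ↥(beta0Ring A K₀)) q := frobLift_charP A K₀ hq hA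
  exact mgcb_gen_hU5_J K₀ (IsLocalRing.residue ↥(beta0Ring A K₀)) ιC hq hqM
    ((stbLiftA hφF hφ).symm : ↥(beta0Ring A K₀) →+* ↥(beta0Ring A K₀))
    ((mgaRestrictEquiv K₀ φ hφ).symm : ↥K₀ →+* ↥K₀)
    (stbLiftTheta hφF hφ) hπ (stb_residue_ker hπ) (stb_residue_pi hπ) h
    (stbLift_hψ' hφF hφ) (stbLift_hθ hφF hφ) (stbLift_hθq hφF hφ)
    (bgJ ↥K₀ (M * q)) mgcb_incl_bgJ 𝔫 h𝔫 hπ𝔫

include hπ ιC hq hqM in
/-- **`hU5` on the chart `1 / j`** of `F_{Mq}(K₀)` over `A ∩ K₀`. -/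
theorem mgcb_reg_hU5_Jinv (hA : A.LiesOverPrime q) {φ : Qb ≃ₐ[ℚ] Qb}
    (hφF : A.IsFrobeniusAt φ q) (hφ : ∀ x ∈ K₀, φ x ∈ K₀)
    (h : RegChart (E := ↥K₀) π (bgJ ↥K₀ M)⁻¹)
    (𝔫 : Ideal (integralClosure (Algebra.adjoin ↥(beta0Ring A K₀) {(bgJ ↥K₀ (M * q))⁻¹})
      ↥(modularFunctionFieldFullC ↥K₀ (M * q))))
    (h𝔫 : 𝔫.IsMaximal)
    (hπ𝔫 : algebraMap ↥(beta0Ring A K₀) (integralClosure
      (Algebra.adjoin ↥(beta0Ring A K₀) {(bgJ ↥K₀ (M * q))⁻¹})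
      ↥(modularFunctionFieldFullC ↥K₀ (M * q))) π ∈ 𝔫) :
    (∃ s ∈ 𝔫, NodesLocGen 𝔫 {algebraMap ↥(beta0Ring A K₀) (integralClosure
      (Algebra.adjoin ↥(beta0Ring A K₀) {(bgJ ↥K₀ (M * q))⁻¹})
      ↥(modularFunctionFieldFullC ↥K₀ (M * q))) π, s}) ∨
    (∃ X Y : integralClosure (Algebra.adjoin ↥(beta0Ring A K₀) {(bgJ ↥K₀ (M * q))⁻¹})
        ↥(modularFunctionFieldFullC ↥K₀ (M * q)),
      X ∈ 𝔫 ∧ Y ∈ 𝔫 ∧
      algebraMap ↥(beta0Ring A K₀) (integralClosure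
        (Algebra.adjoin ↥(beta0Ring A K₀) {(bgJ ↥K₀ (M * q))⁻¹})
        ↥(modularFunctionFieldFullC ↥K₀ (M * q))) π ∣ X * Y ∧
      NodesLocGen 𝔫 {algebraMap ↥(beta0Ring A K₀) (integralClosure
        (Algebra.adjoin ↥(beta0Ring A K₀) {(bgJ ↥K₀ (M * q))⁻¹})
        ↥(modularFunctionFieldFullC ↥K₀ (M * q))) π, X, Y}) := by
  haveI : Fact q.Prime := ⟨hq⟩
  haveI : CharP (IsLocalRing.ResidueField ↥(beta0Ring A K₀)) q := frobLift_charP A K₀ hq hA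
  exact mgcb_gen_hU5_Jinv K₀ (IsLocalRing.residue ↥(beta0Ring A K₀)) ιC hq hqM
    ((stbLiftA hφF hφ).symm : ↥(beta0Ring A K₀) →+* ↥(beta0Ring A K₀))
    ((mgaRestrictEquiv K₀ φ hφ).symm : ↥K₀ →+* ↥K₀)
    (stbLiftTheta hφF hφ) hπ (stb_residue_ker hπ) (stb_residue_pi hπ) h
    (stbLift_hψ' hφF hφ) (stbLift_hθ hφF hφ) (stbLift_hθq hφF hφ)
    (bgJ ↥K₀ (M * q))⁻¹ mgcb_incl_bgJ_inv 𝔫 h𝔫 hπ𝔫

end Reg

end Fermat.Agent.UNIP
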