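/-
UNIP / U5 (helper18): the special fibre of the charts `j`, `1/j` of `F_{Mq}(K₀)` is REDUCED and
nonempty — the form consumed by `mgcData_of` (`UNIP/MGData.lean`: `hπu₁`, `hred₁`, `hπu₂`, `hred₂`).

Generic base (`K₀ ⊆ ℚ̄`, `A₀ ⊆ K₀` a discrete valuation ring, uniformizer `π`, `r : A₀ → k` with
`ker r = (π)`, `char k = q ∤ M`), the level-`M` input in the form `RegChart` (helper20):

* `u5g_incl_J`, `u5g_incl_Jinv` : the coordinate `j^{±1}` of level `M q` is the image of the one of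
  level `M`;
* `u5g_notUnit_J`, `u5g_notUnit_Jinv` : `π` is not a unit of the chart;
* `u5g_reduced_J`, `u5g_reduced_Jinv` : `π ∣ c ^ 2 → π ∣ c` on the chart.
-/
import Fermat.Agent.UNIP.NodesFinalReg

set_option autoImplicit false
set_option linter.style.haveILetI false
set_option linter.unusedSectionVars false
set_option linter.unusedVariables false
set_option linter.style.longLine false
set_option synthInstance.maxHeartbeats 400000
set_option maxHeartbeats 1000000

noncomputable section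

namespace Fermat.Agent.UNIP

open ModularCurve Polynomial IntermediateField Fermat.Agent.INJ Fermat.Agent.AL

section Incl

variable (E : Type*) [Field E] (M q : ℕ) [NeZero q] [NeZero M] [NeZero (M * q)]

/-- the coordinate `j` of level `M q` is the image of the coordinate `j` of level `M` -/
theorem u5g_incl_J : nodesInstIncl E M q (bgJ E M) = bgJ E (M * q) :=
  Subtype.ext (nodesInstIncl_coe M q (bgJ E M))

/-- the coordinate `1/j` of level `M q` is the image of the coordinate `1/j` of level `M` -/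
theorem u5g_incl_Jinv : nodesInstIncl E M q (bgJ E M)⁻¹ = (bgJ E (M * q))⁻¹ := by
  rw [map_inv₀, u5g_incl_J]

end Incl

section JCharts

variable (K₀ : IntermediateField ℚ NfQb) {A₀ : Type} [CommRing A₀] [IsDomain A₀]
  [IsDiscreteValuationRing A₀] [Algebra A₀ K₀] [IsFractionRing A₀ K₀]
  {k : Type*} [Field k] (r : A₀ →+* k) {π : A₀} (ιC : K₀ →+* ℂ)
  {q M : ℕ} [NeZero q] [NeZero M] [NeZero (M * q)] (hq : q.Prime) (hqM : ¬ q ∣ M)
  [Algebra A₀ (modularFunctionFieldFullC K₀ M)]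
  [IsScalarTower A₀ K₀ (modularFunctionFieldFullC K₀ M)]
  [Algebra A₀ (modularFunctionFieldFullC K₀ (M * q))]
  [IsScalarTower A₀ K₀ (modularFunctionFieldFullC K₀ (M * q))]

include ιC hq hqM

omit ιC hq hqM in
/-- transport of `¬ IsUnit π` along an equality of coordinates -/
theorem u5g_notUnit_congr {t t' : modularFunctionFieldFullC K₀ (M * q)} (h : t = t')
    (H : ¬ IsUnit (algebraMap A₀ (integralClosure (Algebra.adjoin A₀ {t}) (modularFunctionFieldFullC K₀ (M * q))) π)) :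
    ¬ IsUnit (algebraMap A₀ (integralClosure (Algebra.adjoin A₀ {t'}) (modularFunctionFieldFullC K₀ (M * q))) π) := by
  subst h; exact H

omit ιC hq hqM in
/-- transport of reducedness along an equality of coordinates -/
theorem u5g_reduced_congr {t t' : modularFunctionFieldFullC K₀ (M * q)} (h : t = t')
    (H : ∀ c : integralClosure (Algebra.adjoin A₀ {t}) (modularFunctionFieldFullC K₀ (M * q)),
      algebraMap A₀ (integralClosure (Algebra.adjoin A₀ {t}) (modularFunctionFieldFullC K₀ (M * q))) π ∣ c ^ 2 →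
      algebraMap A₀ (integralClosure (Algebra.adjoin A₀ {t}) (modularFunctionFieldFullC K₀ (M * q))) π ∣ c) :
    ∀ c : integralClosure (Algebra.adjoin A₀ {t'}) (modularFunctionFieldFullC K₀ (M * q)),
      algebraMap A₀ (integralClosure (Algebra.adjoin A₀ {t'}) (modularFunctionFieldFullC K₀ (M * q))) π ∣ c ^ 2 →
      algebraMap A₀ (integralClosure (Algebra.adjoin A₀ {t'}) (modularFunctionFieldFullC K₀ (M * q))) π ∣ c := by
  subst h; exact H

/-- `π` is not a unit of the chart `j` of level `M q` (image-coordinate form). -/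
theorem u5g_notUnit_J' [Fact q.Prime] [CharP k q]
    (hπ : Irreducible π) (hr : ∀ a, r a = 0 → π ∣ a) (hrπ : r π = 0)
    (h : RegChart (E := K₀) π (bgJ K₀ M)) :
    ¬ IsUnit (algebraMap A₀ (integralClosure (Algebra.adjoin A₀ {nodesInstIncl K₀ M q (bgJ K₀ M)}) (modularFunctionFieldFullC K₀ (M * q))) π) := by
  classical
  obtain ⟨vert, rfl, hp, hmem, -⟩ := nodesReg_vert_J K₀ r ιC hq hqM hπ hr hrπ h
  intro hu
  have h1 := hmem _ (Finset.mem_insert_self _ _)
  have h2 := hp _ (Finset.mem_insert_self _ _)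
  exact h2.ne_top (Ideal.eq_top_of_isUnit_mem _ h1 hu)

/-- the special fibre of the chart `j` of level `M q` is reduced (image-coordinate form). -/
theorem u5g_reduced_J' [Fact q.Prime] [CharP k q]
    (hπ : Irreducible π) (hr : ∀ a, r a = 0 → π ∣ a) (hrπ : r π = 0)
    (h : RegChart (E := K₀) π (bgJ K₀ M))
    (c : integralClosure (Algebra.adjoin A₀ {nodesInstIncl K₀ M q (bgJ K₀ M)}) (modularFunctionFieldFullC K₀ (M * q)))
    (hc : algebraMap A₀ (integralClosure (Algebra.adjoin A₀ {nodesInstIncl K₀ M q (bgJ K₀ M)}) (modularFunctionFieldFullC K₀ (M * q))) π ∣ c ^ 2) :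
    algebraMap A₀ (integralClosure (Algebra.adjoin A₀ {nodesInstIncl K₀ M q (bgJ K₀ M)}) (modularFunctionFieldFullC K₀ (M * q))) π ∣ c := by
  classical
  obtain ⟨vert, rfl, hp, hmem, hker⟩ := nodesReg_vert_J K₀ r ιC hq hqM hπ hr hrπ h
  refine hker c fun 𝔭 h𝔭 => ?_
  exact (hp 𝔭 h𝔭).mem_of_pow_mem 2 (Ideal.mem_of_dvd _ hc (hmem 𝔭 h𝔭))

/-- `π` is not a unit of the chart `1/j` of level `M q` (image-coordinate form). -/
theorem u5g_notUnit_Jinv' [Fact q.Prime] [CharP k q]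
    (hπ : Irreducible π) (hr : ∀ a, r a = 0 → π ∣ a) (hrπ : r π = 0)
    (h : RegChart (E := K₀) π (bgJ K₀ M)⁻¹) :
    ¬ IsUnit (algebraMap A₀ (integralClosure (Algebra.adjoin A₀ {nodesInstIncl K₀ M q (bgJ K₀ M)⁻¹}) (modularFunctionFieldFullC K₀ (M * q))) π) := by
  classical
  obtain ⟨vert, rfl, hp, hmem, -⟩ := nodesReg_vert_Jinv K₀ r ιC hq hqM hπ hr hrπ h
  intro hu
  have h1 := hmem _ (Finset.mem_insert_self _ _)
  have h2 := hp _ (Finset.mem_insert_self _ _)
  exact h2.ne_top (Ideal.eq_top_of_isUnit_mem _ h1 hu)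

/-- the special fibre of the chart `1/j` of level `M q` is reduced (image-coordinate form). -/
theorem u5g_reduced_Jinv' [Fact q.Prime] [CharP k q]
    (hπ : Irreducible π) (hr : ∀ a, r a = 0 → π ∣ a) (hrπ : r π = 0)
    (h : RegChart (E := K₀) π (bgJ K₀ M)⁻¹)
    (c : integralClosure (Algebra.adjoin A₀ {nodesInstIncl K₀ M q (bgJ K₀ M)⁻¹}) (modularFunctionFieldFullC K₀ (M * q)))
    (hc : algebraMap A₀ (integralClosure (Algebra.adjoin A₀ {nodesInstIncl K₀ M q (bgJ K₀ M)⁻¹}) (modularFunctionFieldFullC K₀ (M * q))) π ∣ c ^ 2) :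
    algebraMap A₀ (integralClosure (Algebra.adjoin A₀ {nodesInstIncl K₀ M q (bgJ K₀ M)⁻¹}) (modularFunctionFieldFullC K₀ (M * q))) π ∣ c := by
  classical
  obtain ⟨vert, rfl, hp, hmem, hker⟩ := nodesReg_vert_Jinv K₀ r ιC hq hqM hπ hr hrπ h
  refine hker c fun 𝔭 h𝔭 => ?_
  exact (hp 𝔭 h𝔭).mem_of_pow_mem 2 (Ideal.mem_of_dvd _ hc (hmem 𝔭 h𝔭))

/-- **`π` is not a unit of the chart `j` of `F_{Mq}(K₀)`.** -/
theorem u5g_notUnit_J [Fact q.Prime] [CharP k q]
    (hπ : Irreducible π) (hr : ∀ a, r a = 0 → π ∣ a) (hrπ : r π = 0)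
    (h : RegChart (E := K₀) π (bgJ K₀ M)) :
    ¬ IsUnit (algebraMap A₀ (integralClosure (Algebra.adjoin A₀ {bgJ K₀ (M * q)}) (modularFunctionFieldFullC K₀ (M * q))) π) := by
  exact u5g_notUnit_congr K₀ (u5g_incl_J K₀ M q) (u5g_notUnit_J' K₀ r ιC hq hqM hπ hr hrπ h)

/-- **The special fibre of the chart `j` of `F_{Mq}(K₀)` is reduced.** -/
theorem u5g_reduced_J [Fact q.Prime] [CharP k q]
    (hπ : Irreducible π) (hr : ∀ a, r a = 0 → π ∣ a) (hrπ : r π = 0)
    (h : RegChart (E := K₀) π (bgJ K₀ M)) :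
    ∀ c : integralClosure (Algebra.adjoin A₀ {bgJ K₀ (M * q)}) (modularFunctionFieldFullC K₀ (M * q)),
      algebraMap A₀ (integralClosure (Algebra.adjoin A₀ {bgJ K₀ (M * q)}) (modularFunctionFieldFullC K₀ (M * q))) π ∣ c ^ 2 →
      algebraMap A₀ (integralClosure (Algebra.adjoin A₀ {bgJ K₀ (M * q)}) (modularFunctionFieldFullC K₀ (M * q))) π ∣ c := by
  exact u5g_reduced_congr K₀ (u5g_incl_J K₀ M q) (u5g_reduced_J' K₀ r ιC hq hqM hπ hr hrπ h)

/-- **`π` is not a unit of the chart `1/j` of `F_{Mq}(K₀)`.** -/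
theorem u5g_notUnit_Jinv [Fact q.Prime] [CharP k q]
    (hπ : Irreducible π) (hr : ∀ a, r a = 0 → π ∣ a) (hrπ : r π = 0)
    (h : RegChart (E := K₀) π (bgJ K₀ M)⁻¹) :
    ¬ IsUnit (algebraMap A₀ (integralClosure (Algebra.adjoin A₀ {(bgJ K₀ (M * q))⁻¹}) (modularFunctionFieldFullC K₀ (M * q))) π) := by
  exact u5g_notUnit_congr K₀ (u5g_incl_Jinv K₀ M q) (u5g_notUnit_Jinv' K₀ r ιC hq hqM hπ hr hrπ h)

/-- **The special fibre of the chart `1/j` of `F_{Mq}(K₀)` is reduced.** -/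
theorem u5g_reduced_Jinv [Fact q.Prime] [CharP k q]
    (hπ : Irreducible π) (hr : ∀ a, r a = 0 → π ∣ a) (hrπ : r π = 0)
    (h : RegChart (E := K₀) π (bgJ K₀ M)⁻¹) :
    ∀ c : integralClosure (Algebra.adjoin A₀ {(bgJ K₀ (M * q))⁻¹}) (modularFunctionFieldFullC K₀ (M * q)),
      algebraMap A₀ (integralClosure (Algebra.adjoin A₀ {(bgJ K₀ (M * q))⁻¹}) (modularFunctionFieldFullC K₀ (M * q))) π ∣ c ^ 2 →
      algebraMap A₀ (integralClosure (Algebra.adjoin A₀ {(bgJ K₀ (M * q))⁻¹}) (modularFunctionFieldFullC K₀ (M * q))) π ∣ c := by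
  exact u5g_reduced_congr K₀ (u5g_incl_Jinv K₀ M q) (u5g_reduced_Jinv' K₀ r ιC hq hqM hπ hr hrπ h)

end JCharts

end Fermat.Agent.UNIP
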