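/-
UNIP / U5-concrete (helper18): the special fibre of the charts `j`, `1/j` of `F_{Mq}(K₀)` over the
concrete base `A′ = beta0Ring A K₀ = A ∩ K₀` (`K₀ ⊇ beta0Field A = ℚ̄^I`, `A′` a discrete valuation
ring, `π` ANY uniformizer) is nonempty and REDUCED; `q ∤ M`, `(q = 2 → 3 ∣ M)`, `(q = 3 → 2 ∣ M)`.

* `u5c_notUnit_J`, `u5c_reduced_J`, `u5c_notUnit_Jinv`, `u5c_reduced_Jinv` : general `K₀`, `π`;
* `u5c_hπu₁`, `u5c_hred₁`, `u5c_hπu₂`, `u5c_hred₂` : the base `K₀ = beta0Field A`, `π = q`, in the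
  EXACT shape of the hypotheses `hπu₁ hred₁ hπu₂ hred₂` of `mgcData_of` (`UNIP/MGData.lean`).

Inputs: `u5g_*` (`UNIP/U5Red.lean`: generic base, from `RegChart` by `nodesReg_vert_J`),
`stb_regChart_conc_J/_Jinv` (helper45, `STB/FrobReg.lean`).
-/
import Fermat.Agent.UNIP.U5Red
import Fermat.Agent.UNIP.MGConcrete
import Fermat.Agent.STB.FrobReg

set_option autoImplicit false
set_option linter.style.haveILetI false
set_option linter.unusedSectionVars false
set_option linter.unusedVariables false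
set_option linter.style.longLine false
set_option synthInstance.maxHeartbeats 400000
set_option maxHeartbeats 1000000

noncomputable section

namespace Fermat.Agent.UNIP

open ModularCurve Polynomial IntermediateField Fermat.Agent.INJ Fermat.Agent.AL Fermat.Agent.ES
open Fermat.Agent.ES.G2

/-- some complex embedding of an intermediate field of `ℚ̄ / ℚ` (only used to name `w_q`) -/
def u5cIota (K₀ : IntermediateField ℚ Qb) : ↥K₀ →+* ℂ :=
  letI : Algebra ℚ Qb := AlgebraicClosure.instAlgebra (k := ℚ) (R := ℚ)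
  haveI : Algebra.IsAlgebraic ℚ Qb := AlgebraicClosure.isAlgebraic ℚ
  ((IsAlgClosed.lift (R := ℚ) (S := Qb) (M := ℂ)).toRingHom).comp (algebraMap ↥K₀ Qb)

section General

variable {A : ValuationSubring Qb} {K₀ : IntermediateField ℚ Qb}
  [IsDiscreteValuationRing ↥(beta0Ring A K₀)] {π : ↥(beta0Ring A K₀)}
  {q M : ℕ} [NeZero q] [NeZero M] [NeZero (M * q)]

/-- **`π` is not a unit of the chart `j` of `F_{Mq}(K₀)` over `A ∩ K₀`.** -/
theorem u5c_notUnit_J (hq : q.Prime) (hA : A.LiesOverPrime q) (hE : beta0Field A ≤ K₀)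
    (hπ : Irreducible π) (hqM : ¬ q ∣ M) (h2 : q = 2 → 3 ∣ M) (h3 : q = 3 → 2 ∣ M) :
    ¬ IsUnit (algebraMap ↥(beta0Ring A K₀)
      (integralClosure (Algebra.adjoin ↥(beta0Ring A K₀) {bgJ ↥K₀ (M * q)})
        (modularFunctionFieldFullC ↥K₀ (M * q))) π) := by
  haveI : Fact q.Prime := ⟨hq⟩
  haveI : CharP (IsLocalRing.ResidueField ↥(beta0Ring A K₀)) q := frobLift_charP A K₀ hq hA
  exact u5g_notUnit_J K₀ (IsLocalRing.residue ↥(beta0Ring A K₀)) (u5cIota K₀) hq hqM hπ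
    (Fermat.Agent.STB.stb_residue_ker hπ) (Fermat.Agent.STB.stb_residue_pi hπ)
    (Fermat.Agent.STB.stb_regChart_conc_J M hq hA hE hπ hqM h2 h3)

/-- **The special fibre of the chart `j` of `F_{Mq}(K₀)` over `A ∩ K₀` is reduced.** -/
theorem u5c_reduced_J (hq : q.Prime) (hA : A.LiesOverPrime q) (hE : beta0Field A ≤ K₀)
    (hπ : Irreducible π) (hqM : ¬ q ∣ M) (h2 : q = 2 → 3 ∣ M) (h3 : q = 3 → 2 ∣ M) :
    ∀ c : integralClosure (Algebra.adjoin ↥(beta0Ring A K₀) {bgJ ↥K₀ (M * q)})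
        (modularFunctionFieldFullC ↥K₀ (M * q)),
      algebraMap ↥(beta0Ring A K₀)
        (integralClosure (Algebra.adjoin ↥(beta0Ring A K₀) {bgJ ↥K₀ (M * q)})
          (modularFunctionFieldFullC ↥K₀ (M * q))) π ∣ c ^ 2 →
      algebraMap ↥(beta0Ring A K₀)
        (integralClosure (Algebra.adjoin ↥(beta0Ring A K₀) {bgJ ↥K₀ (M * q)})
          (modularFunctionFieldFullC ↥K₀ (M * q))) π ∣ c := by
  haveI : Fact q.Prime := ⟨hq⟩
  haveI : CharP (IsLocalRing.ResidueField ↥(beta0Ring A K₀)) q := frobLift_charP A K₀ hq hA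
  exact u5g_reduced_J K₀ (IsLocalRing.residue ↥(beta0Ring A K₀)) (u5cIota K₀) hq hqM hπ
    (Fermat.Agent.STB.stb_residue_ker hπ) (Fermat.Agent.STB.stb_residue_pi hπ)
    (Fermat.Agent.STB.stb_regChart_conc_J M hq hA hE hπ hqM h2 h3)

/-- **`π` is not a unit of the chart `1/j` of `F_{Mq}(K₀)` over `A ∩ K₀`.** -/
theorem u5c_notUnit_Jinv (hq : q.Prime) (hA : A.LiesOverPrime q) (hE : beta0Field A ≤ K₀)
    (hπ : Irreducible π) (hqM : ¬ q ∣ M) (h2 : q = 2 → 3 ∣ M) (h3 : q = 3 → 2 ∣ M) :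
    ¬ IsUnit (algebraMap ↥(beta0Ring A K₀)
      (integralClosure (Algebra.adjoin ↥(beta0Ring A K₀) {(bgJ ↥K₀ (M * q))⁻¹})
        (modularFunctionFieldFullC ↥K₀ (M * q))) π) := by
  haveI : Fact q.Prime := ⟨hq⟩
  haveI : CharP (IsLocalRing.ResidueField ↥(beta0Ring A K₀)) q := frobLift_charP A K₀ hq hA
  exact u5g_notUnit_Jinv K₀ (IsLocalRing.residue ↥(beta0Ring A K₀)) (u5cIota K₀) hq hqM hπ
    (Fermat.Agent.STB.stb_residue_ker hπ) (Fermat.Agent.STB.stb_residue_pi hπ)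
    (Fermat.Agent.STB.stb_regChart_conc_Jinv M hq hA hE hπ hqM h2 h3)

/-- **The special fibre of the chart `1/j` of `F_{Mq}(K₀)` over `A ∩ K₀` is reduced.** -/
theorem u5c_reduced_Jinv (hq : q.Prime) (hA : A.LiesOverPrime q) (hE : beta0Field A ≤ K₀)
    (hπ : Irreducible π) (hqM : ¬ q ∣ M) (h2 : q = 2 → 3 ∣ M) (h3 : q = 3 → 2 ∣ M) :
    ∀ c : integralClosure (Algebra.adjoin ↥(beta0Ring A K₀) {(bgJ ↥K₀ (M * q))⁻¹})
        (modularFunctionFieldFullC ↥K₀ (M * q)),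
      algebraMap ↥(beta0Ring A K₀)
        (integralClosure (Algebra.adjoin ↥(beta0Ring A K₀) {(bgJ ↥K₀ (M * q))⁻¹})
          (modularFunctionFieldFullC ↥K₀ (M * q))) π ∣ c ^ 2 →
      algebraMap ↥(beta0Ring A K₀)
        (integralClosure (Algebra.adjoin ↥(beta0Ring A K₀) {(bgJ ↥K₀ (M * q))⁻¹})
          (modularFunctionFieldFullC ↥K₀ (M * q))) π ∣ c := by
  haveI : Fact q.Prime := ⟨hq⟩
  haveI : CharP (IsLocalRing.ResidueField ↥(beta0Ring A K₀)) q := frobLift_charP A K₀ hq hA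
  exact u5g_reduced_Jinv K₀ (IsLocalRing.residue ↥(beta0Ring A K₀)) (u5cIota K₀) hq hqM hπ
    (Fermat.Agent.STB.stb_residue_ker hπ) (Fermat.Agent.STB.stb_residue_pi hπ)
    (Fermat.Agent.STB.stb_regChart_conc_Jinv M hq hA hE hπ hqM h2 h3)

end General

section Base

variable {A : ValuationSubring Qb} {q M : ℕ} [NeZero q] [NeZero M] [NeZero (M * q)]

/-- **`hπu₁` of `mgcData_of`.** -/
theorem u5c_hπu₁ (hq : q.Prime) (hA : A.LiesOverPrime q) (hqM : ¬ q ∣ M)
    (h2 : q = 2 → 3 ∣ M) (h3 : q = 3 → 2 ∣ M) :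
    ¬ IsUnit (algebraMap ↥(beta0Ring A (beta0Field A))
      (integralClosure
        (Algebra.adjoin ↥(beta0Ring A (beta0Field A)) {bgJ ↥(beta0Field A) (M * q)})
        (modularFunctionFieldFullC ↥(beta0Field A) (M * q)))
      ((q : ℕ) : ↥(beta0Ring A (beta0Field A)))) := by
  haveI := beta0Ring_isDVR_base hq hA
  exact u5c_notUnit_J hq hA le_rfl (beta0Ring_irreducible_q hq hA) hqM h2 h3

/-- **`hred₁` of `mgcData_of`.** -/
theorem u5c_hred₁ (hq : q.Prime) (hA : A.LiesOverPrime q) (hqM : ¬ q ∣ M)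
    (h2 : q = 2 → 3 ∣ M) (h3 : q = 3 → 2 ∣ M) :
    ∀ c : integralClosure
        (Algebra.adjoin ↥(beta0Ring A (beta0Field A)) {bgJ ↥(beta0Field A) (M * q)})
        (modularFunctionFieldFullC ↥(beta0Field A) (M * q)),
      algebraMap ↥(beta0Ring A (beta0Field A)) (integralClosure
        (Algebra.adjoin ↥(beta0Ring A (beta0Field A)) {bgJ ↥(beta0Field A) (M * q)})
        (modularFunctionFieldFullC ↥(beta0Field A) (M * q)))
          ((q : ℕ) : ↥(beta0Ring A (beta0Field A))) ∣ c ^ 2 →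
      algebraMap ↥(beta0Ring A (beta0Field A)) (integralClosure
        (Algebra.adjoin ↥(beta0Ring A (beta0Field A)) {bgJ ↥(beta0Field A) (M * q)})
        (modularFunctionFieldFullC ↥(beta0Field A) (M * q)))
          ((q : ℕ) : ↥(beta0Ring A (beta0Field A))) ∣ c := by
  haveI := beta0Ring_isDVR_base hq hA
  exact u5c_reduced_J hq hA le_rfl (beta0Ring_irreducible_q hq hA) hqM h2 h3

/-- **`hπu₂` of `mgcData_of`.** -/
theorem u5c_hπu₂ (hq : q.Prime) (hA : A.LiesOverPrime q) (hqM : ¬ q ∣ M)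
    (h2 : q = 2 → 3 ∣ M) (h3 : q = 3 → 2 ∣ M) :
    ¬ IsUnit (algebraMap ↥(beta0Ring A (beta0Field A))
      (integralClosure
        (Algebra.adjoin ↥(beta0Ring A (beta0Field A)) {(bgJ ↥(beta0Field A) (M * q))⁻¹})
        (modularFunctionFieldFullC ↥(beta0Field A) (M * q)))
      ((q : ℕ) : ↥(beta0Ring A (beta0Field A)))) := by
  haveI := beta0Ring_isDVR_base hq hA
  exact u5c_notUnit_Jinv hq hA le_rfl (beta0Ring_irreducible_q hq hA) hqM h2 h3

/-- **`hred₂` of `mgcData_of`.** -/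
theorem u5c_hred₂ (hq : q.Prime) (hA : A.LiesOverPrime q) (hqM : ¬ q ∣ M)
    (h2 : q = 2 → 3 ∣ M) (h3 : q = 3 → 2 ∣ M) :
    ∀ c : integralClosure
        (Algebra.adjoin ↥(beta0Ring A (beta0Field A)) {(bgJ ↥(beta0Field A) (M * q))⁻¹})
        (modularFunctionFieldFullC ↥(beta0Field A) (M * q)),
      algebraMap ↥(beta0Ring A (beta0Field A)) (integralClosure
        (Algebra.adjoin ↥(beta0Ring A (beta0Field A)) {(bgJ ↥(beta0Field A) (M * q))⁻¹})
        (modularFunctionFieldFullC ↥(beta0Field A) (M * q)))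
          ((q : ℕ) : ↥(beta0Ring A (beta0Field A))) ∣ c ^ 2 →
      algebraMap ↥(beta0Ring A (beta0Field A)) (integralClosure
        (Algebra.adjoin ↥(beta0Ring A (beta0Field A)) {(bgJ ↥(beta0Field A) (M * q))⁻¹})
        (modularFunctionFieldFullC ↥(beta0Field A) (M * q)))
          ((q : ℕ) : ↥(beta0Ring A (beta0Field A))) ∣ c := by
  haveI := beta0Ring_isDVR_base hq hA
  exact u5c_reduced_Jinv hq hA le_rfl (beta0Ring_irreducible_q hq hA) hqM h2 h3

end Base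

end Fermat.Agent.UNIP
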