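/-
UNIP (S34/S35), direct route, piece MG-5a "chart hypotheses of (T′)", assembly (helper16).

**`mgcc_main`** : the abstract theorem (T′) `at_main_two` for `F = F_N(E')`, `t = j`, over the
ramified base `A'`, with EVERY CHART HYPOTHESIS DISCHARGED (`AtTrivMod` × 6, `hcoord₁`, `hcoord₂`,
`ht`, `hcl`, finiteness over `E'(j)`, `σ j = j`) from

* U5's output over the unramified base `A₀` on the charts `j`, `1/j` of `F_N(E₀)`
  (`hπu`, `hred`, `hU5`),
* the ramification data of `A₀ ⊆ A'` (U10),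
* the automorphisms `s`, `s₂` of `E'` (identity on `E₀`, `≡ 1` on the uniformizer),
* rationality of the places in the support of `u` (D8).

What is left as hypotheses: the base data (`hp`, `hpu`, `hζ`, `hunit`), the vertical valuation
rings `V c` with `hBV`, `hπV`, `hSS1`, `harch`, `hVloc`, `hσV`, `hτV` (MG-8), `hfin`, `hm` (MG-2).
All types generic (`E₀`, `E'` any fields of characteristic `0`), instances generic.
-/
import Fermat.Agent.UNIP.MGChartsConcrete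

set_option autoImplicit false
set_option linter.style.haveILetI false
set_option linter.unusedSectionVars false
set_option linter.unusedVariables false

open Polynomial IntermediateField Fermat.Agent.INJ AlgebraicCurve ModularCurve

namespace Fermat.Agent.UNIP

section Assembly

universe u v

variable {A₀ E₀ : Type u} [CommRing A₀] [IsDomain A₀] [IsDiscreteValuationRing A₀]
  [Field E₀] [CharZero E₀] [Algebra A₀ E₀] [IsFractionRing A₀ E₀]
  {A' E' : Type v} [CommRing A'] [IsDomain A'] [IsDiscreteValuationRing A']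
  [Field E'] [CharZero E'] [Algebra A' E'] [IsFractionRing A' E']
  [Algebra E₀ E'] [Algebra A₀ A'] (N : ℕ) [NeZero N]
  [Algebra A₀ (modularFunctionFieldFullC E₀ N)]
  [IsScalarTower A₀ E₀ (modularFunctionFieldFullC E₀ N)]
  [Algebra A' (modularFunctionFieldFullC E' N)]
  [IsScalarTower A' E' (modularFunctionFieldFullC E' N)]

/-- `mgGal N s` fixes `j`. -/
theorem mgcc_smul_bgJ (E : Type*) [Field E] (N : ℕ) (s : E ≃+* E) :
    mgGal N s • bgJ E N = bgJ E N :=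
  Subtype.ext (coeffMap_jqModC (s : E →+* E))

/-- **MG-5a, assembly: (T′) for `F_N(E')`, `t = j`, with every chart hypothesis discharged.** -/
theorem mgcc_main
    (hcomp : ∀ a : A₀, algebraMap A' E' (algebraMap A₀ A' a) =
      algebraMap E₀ E' (algebraMap A₀ E₀ a))
    [Algebra.IsIntegral A₀ A']
    {π : A₀} (hπ : Irreducible π)
    -- U5 on the chart `j` of `F_N(E₀)` over `A₀`
    (hπu₁ : ¬ IsUnit (algebraMap A₀
      (integralClosure (Algebra.adjoin A₀ {bgJ E₀ N}) (modularFunctionFieldFullC E₀ N)) π))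
    (hred₁ : ∀ c : integralClosure (Algebra.adjoin A₀ {bgJ E₀ N})
        (modularFunctionFieldFullC E₀ N),
      algebraMap A₀ (integralClosure (Algebra.adjoin A₀ {bgJ E₀ N})
        (modularFunctionFieldFullC E₀ N)) π ∣ c ^ 2 →
      algebraMap A₀ (integralClosure (Algebra.adjoin A₀ {bgJ E₀ N})
        (modularFunctionFieldFullC E₀ N)) π ∣ c)
    (hU5₁ : ∀ 𝔫 : Ideal (integralClosure (Algebra.adjoin A₀ {bgJ E₀ N})
        (modularFunctionFieldFullC E₀ N)), 𝔫.IsMaximal →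
      algebraMap A₀ (integralClosure (Algebra.adjoin A₀ {bgJ E₀ N})
        (modularFunctionFieldFullC E₀ N)) π ∈ 𝔫 →
      (∃ s ∈ 𝔫, NodesLocGen 𝔫 {algebraMap A₀ (integralClosure (Algebra.adjoin A₀ {bgJ E₀ N})
        (modularFunctionFieldFullC E₀ N)) π, s}) ∨
      (∃ X Y : integralClosure (Algebra.adjoin A₀ {bgJ E₀ N}) (modularFunctionFieldFullC E₀ N),
        X ∈ 𝔫 ∧ Y ∈ 𝔫 ∧
        algebraMap A₀ (integralClosure (Algebra.adjoin A₀ {bgJ E₀ N})
          (modularFunctionFieldFullC E₀ N)) π ∣ X * Y ∧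
        NodesLocGen 𝔫 {algebraMap A₀ (integralClosure (Algebra.adjoin A₀ {bgJ E₀ N})
          (modularFunctionFieldFullC E₀ N)) π, X, Y}))
    -- U5 on the chart `1/j` of `F_N(E₀)` over `A₀`
    (hπu₂ : ¬ IsUnit (algebraMap A₀
      (integralClosure (Algebra.adjoin A₀ {(bgJ E₀ N)⁻¹}) (modularFunctionFieldFullC E₀ N)) π))
    (hred₂ : ∀ c : integralClosure (Algebra.adjoin A₀ {(bgJ E₀ N)⁻¹})
        (modularFunctionFieldFullC E₀ N),
      algebraMap A₀ (integralClosure (Algebra.adjoin A₀ {(bgJ E₀ N)⁻¹})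
        (modularFunctionFieldFullC E₀ N)) π ∣ c ^ 2 →
      algebraMap A₀ (integralClosure (Algebra.adjoin A₀ {(bgJ E₀ N)⁻¹})
        (modularFunctionFieldFullC E₀ N)) π ∣ c)
    (hU5₂ : ∀ 𝔫 : Ideal (integralClosure (Algebra.adjoin A₀ {(bgJ E₀ N)⁻¹})
        (modularFunctionFieldFullC E₀ N)), 𝔫.IsMaximal →
      algebraMap A₀ (integralClosure (Algebra.adjoin A₀ {(bgJ E₀ N)⁻¹})
        (modularFunctionFieldFullC E₀ N)) π ∈ 𝔫 →
      (∃ s ∈ 𝔫, NodesLocGen 𝔫 {algebraMap A₀ (integralClosure (Algebra.adjoin A₀ {(bgJ E₀ N)⁻¹})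
        (modularFunctionFieldFullC E₀ N)) π, s}) ∨
      (∃ X Y : integralClosure (Algebra.adjoin A₀ {(bgJ E₀ N)⁻¹})
          (modularFunctionFieldFullC E₀ N),
        X ∈ 𝔫 ∧ Y ∈ 𝔫 ∧
        algebraMap A₀ (integralClosure (Algebra.adjoin A₀ {(bgJ E₀ N)⁻¹})
          (modularFunctionFieldFullC E₀ N)) π ∣ X * Y ∧
        NodesLocGen 𝔫 {algebraMap A₀ (integralClosure (Algebra.adjoin A₀ {(bgJ E₀ N)⁻¹})
          (modularFunctionFieldFullC E₀ N)) π, X, Y}))
    -- ramification data (U10)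
    {π' : A'} (hπ' : Irreducible π') {e : ℕ}
    (hram : π' ^ e ∣ algebraMap A₀ A' π)
    (g₀ : A₀[X]) (hgm : g₀.Monic) (hroot : aeval π' g₀ = 0) (hdeg : g₀.natDegree ≤ e)
    (hadj : Algebra.adjoin E₀ ({algebraMap A' E' π'} : Set E') = ⊤)
    (halg : IsAlgebraic E₀ (algebraMap A' E' π'))
    -- base data (U10)
    {p : ℕ} (hp : p.Prime) (hpu : IsUnit (p : A')) {ζ : A'} (hζ : IsPrimitiveRoot ζ p)
    (hunit : ∀ a : A', IsUnit a → ∃ d : A', d ^ p = a)
    -- vertical valuation rings (MG-8)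
    {κ : Type*} [Finite κ] (V : κ → ValuationSubring (modularFunctionFieldFullC E' N))
    (c₁ c₂ : κ) (hκ : ∀ c, c = c₁ ∨ c = c₂)
    (hBV₁ : ∀ c (b : modularFunctionFieldFullC E' N),
      IsIntegral ↥(Algebra.adjoin A' {bgJ E' N}) b → b ∈ V c)
    (hBV₂ : ∀ c (b : modularFunctionFieldFullC E' N),
      IsIntegral ↥(Algebra.adjoin A' {(bgJ E' N)⁻¹}) b → b ∈ V c)
    (hπV : ∀ c, algebraMap A' (modularFunctionFieldFullC E' N) π' ∈ (V c).nonunits)
    (hSS1 : ∀ b : modularFunctionFieldFullC E' N,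
      IsIntegral ↥(Algebra.adjoin A' {bgJ E' N}) b → (∀ c, b ∈ (V c).nonunits) →
      ∃ b' : modularFunctionFieldFullC E' N, IsIntegral ↥(Algebra.adjoin A' {bgJ E' N}) b' ∧
        b = algebraMap A' (modularFunctionFieldFullC E' N) π' * b')
    (harch : ∀ c (a x : modularFunctionFieldFullC E' N), a ∈ (V c).nonunits →
      ∃ n : ℕ, a ^ n * x ∈ (V c).nonunits)
    (hVloc₁ : ∀ c (x : modularFunctionFieldFullC E' N), x ∈ V c →
      ∃ b s : modularFunctionFieldFullC E' N, IsIntegral ↥(Algebra.adjoin A' {bgJ E' N}) b ∧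
        IsIntegral ↥(Algebra.adjoin A' {bgJ E' N}) s ∧ s ∉ (V c).nonunits ∧ s * x = b)
    (hVloc₂ : ∀ c (x : modularFunctionFieldFullC E' N), x ∈ V c →
      ∃ b s : modularFunctionFieldFullC E' N,
        IsIntegral ↥(Algebra.adjoin A' {(bgJ E' N)⁻¹}) b ∧
        IsIntegral ↥(Algebra.adjoin A' {(bgJ E' N)⁻¹}) s ∧ s ∉ (V c).nonunits ∧ s * x = b)
    -- the automorphisms (restrictions of `σ, τ ∈ I`)
    (s s₂ : E' ≃+* E')
    (hsE₀ : ∀ a : E₀, s (algebraMap E₀ E' a) = algebraMap E₀ E' a)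
    (hsA : ∀ a : A', ∃ a' : A', s (algebraMap A' E' a) = algebraMap A' E' a')
    (hsπ : ∃ c : A', s (algebraMap A' E' π') =
      algebraMap A' E' π' + algebraMap A' E' π' * algebraMap A' E' c)
    (hsπ' : ∃ c : A', s⁻¹ (algebraMap A' E' π') =
      algebraMap A' E' π' + algebraMap A' E' π' * algebraMap A' E' c)
    (hs₂E₀ : ∀ a : E₀, s₂ (algebraMap E₀ E' a) = algebraMap E₀ E' a)
    (hs₂π : ∃ c : A', s₂ (algebraMap A' E' π') =
      algebraMap A' E' π' + algebraMap A' E' π' * algebraMap A' E' c)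
    (hσV : ∀ c (f : modularFunctionFieldFullC E' N), f ≠ 0 →
      (V c).valuation (mgGal N s • f / f) = 1)
    (hτV : ∀ c (x : modularFunctionFieldFullC E' N), x ∈ V c →
      mgGal N s₂ • x - x ∈ (V c).nonunits)
    -- the function
    {u : modularFunctionFieldFullC E' N} (hu : u ≠ 0) (r : ℕ)
    (hfin : {P : Place E' (modularFunctionFieldFullC E' N) | P.ord u ≠ 0}.Finite)
    (hm : ∀ P : Place E' (modularFunctionFieldFullC E' N), ((p ^ r : ℕ) : ℤ) ∣ P.ord u)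
    -- rationality of the moved places in the support of `u` (D8)
    (hrat : ∀ P : Place E' (modularFunctionFieldFullC E' N), mgGal N s • P ≠ P →
      P.ord u ≠ 0 → ∀ f ∈ P.toValuationSubring,
        ∃ c : E', f - algebraMap E' (modularFunctionFieldFullC E' N) c ∈
          P.toValuationSubring.nonunits) :
    ∃ h : modularFunctionFieldFullC E' N,
      h ^ (p ^ r) = (mgGal N s₂ • (mgGal N s • u / u)) / (mgGal N s • u / u) := by
  have hsE₀' : ∀ a : E₀, s⁻¹ (algebraMap E₀ E' a) = algebraMap E₀ E' a := fun a => by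
    have h1 := congrArg (s⁻¹ : E' ≃+* E') (hsE₀ a)
    rw [show (s⁻¹ : E' ≃+* E') (s (algebraMap E₀ E' a)) = algebraMap E₀ E' a from
      s.symm_apply_apply _] at h1
    exact h1.symm
  haveI := mgcc_finiteDimensional_j E' N
  have hσB₁ := mgcc_trivMod_j (A₀ := A₀) (E₀ := E₀) (A' := A') (E' := E') N hcomp hπ hπu₁
    hred₁ hπ'.ne_zero hπ'.not_isUnit hram g₀ hgm hroot hdeg hadj halg s hsE₀ hsπ
  have hσB₁' := mgcc_trivMod_j (A₀ := A₀) (E₀ := E₀) (A' := A') (E' := E') N hcomp hπ hπu₁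
    hred₁ hπ'.ne_zero hπ'.not_isUnit hram g₀ hgm hroot hdeg hadj halg s⁻¹ hsE₀' hsπ'
  have hσB₂ := mgcc_trivMod_jinv (A₀ := A₀) (E₀ := E₀) (A' := A') (E' := E') N hcomp hπ hπu₂
    hred₂ hπ'.ne_zero hπ'.not_isUnit hram g₀ hgm hroot hdeg hadj halg s hsE₀ hsπ
  have hσB₂' := mgcc_trivMod_jinv (A₀ := A₀) (E₀ := E₀) (A' := A') (E' := E') N hcomp hπ hπu₂
    hred₂ hπ'.ne_zero hπ'.not_isUnit hram g₀ hgm hroot hdeg hadj halg s⁻¹ hsE₀' hsπ'
  have hτB₁ := mgcc_trivMod_j (A₀ := A₀) (E₀ := E₀) (A' := A') (E' := E') N hcomp hπ hπu₁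
    hred₁ hπ'.ne_zero hπ'.not_isUnit hram g₀ hgm hroot hdeg hadj halg s₂ hs₂E₀ hs₂π
  have hτB₂ := mgcc_trivMod_jinv (A₀ := A₀) (E₀ := E₀) (A' := A') (E' := E') N hcomp hπ hπu₂
    hred₂ hπ'.ne_zero hπ'.not_isUnit hram g₀ hgm hroot hdeg hadj halg s₂ hs₂E₀ hs₂π
  rw [← mgcc_mgGal_inv] at hσB₁' hσB₂'
  exact at_main_two hπ' (bgConst_transcendental_bgJ E' N)
    (fun x hx => bgConst_mem_range_of_isAlgebraic (modularFunctionFieldFullC E' N) x hx)
    hp hpu hζ hunit V c₁ c₂ hκ hBV₁ hBV₂ hπV hSS1 harch hVloc₁ hVloc₂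
    (mgGal N s) (mgGal N s₂) (mgcc_smul_bgJ E' N s) hσB₁ hσB₁' hσB₂ hσB₂' hτB₁ hτB₂ hσV hτV
    hu r hfin hm
    (fun 𝔫 P hP hgP hPu => mgcc_hcoord_j (A₀ := A₀) (E₀ := E₀) (A' := A') (E' := E') N hcomp
      hπ hπu₁ hred₁ hπ' hram g₀ hgm hroot hdeg hadj halg hU5₁ s hsE₀ hsA hsπ hsπ' 𝔫 P hP hgP
      (hrat P hgP hPu))
    (fun 𝔫 P hP hgP hPu => mgcc_hcoord_jinv (A₀ := A₀) (E₀ := E₀) (A' := A') (E' := E') N
      hcomp hπ hπu₂ hred₂ hπ' hram g₀ hgm hroot hdeg hadj halg hU5₂ s hsE₀ hsA hsπ hsπ' 𝔫 P hP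
      hgP (hrat P hgP hPu))

end Assembly

end Fermat.Agent.UNIP
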