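/-
UNIP (S34/S35), direct route, piece MG-5a "chart hypotheses of (T′)", beta0 instantiation
(helper16).

`A` a valuation subring of `ℚ̄` over `q`, `E₀ = beta0Field A = ℚ̄ ^ I`, `F / ℚ` finite Galois,
`E' = E₀ ⊔ F`, `A₀ = beta0Ring A E₀`, `A' = beta0Ring A E'` (U10, `Beta0Pkg` / `Beta0Inst`),
`σ ∈ I = A.inertiaSubgroupIn ℚ`, `s = mgaRestrictEquiv E' σ _`, `g = mgGal N s`.

* `mgcb_restrict_inv`, `mgcb_hsE₀`, `mgcb_hsA`, `mgcb_hunif`, `mgcb_hsπ`, `mgcb_hcomp` : the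
  hypotheses on `s` of `MGChartsConcrete`.
* `mgcb_trivMod_j`, `mgcb_trivMod_jinv` (+ `_inv` for `g⁻¹`), `mgcb_hcoord_j`,
  `mgcb_hcoord_jinv` : the hypotheses (G3) `hσB₁ … hτB₂` and (G5) `hcoord₁`, `hcoord₂` of
  `mgc_main` (`MGMain.lean`, = `at_main_two` in the setting of `MGConcrete.lean`), for ANY
  uniformizer `π` of `A' = mgcA A K₁`.
-/
import Fermat.Agent.UNIP.MGChartsAssembly
import Fermat.Agent.UNIP.MGMain

set_option autoImplicit false
set_option linter.style.haveILetI false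
set_option linter.unusedSectionVars false
set_option linter.unusedVariables false

open Polynomial IntermediateField Fermat.Agent.INJ AlgebraicCurve ModularCurve

namespace Fermat.Agent.UNIP

section Restrict

variable {A : ValuationSubring NfQb} {σ : NfQb ≃ₐ[ℚ] NfQb}

/-- The restriction of `σ⁻¹` is the inverse of the restriction of `σ`. -/
theorem mgcb_restrict_inv (K₀ : IntermediateField ℚ NfQb) (h : ∀ x ∈ K₀, σ x ∈ K₀)
    (h' : ∀ x ∈ K₀, σ⁻¹ x ∈ K₀) :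
    (mgaRestrictEquiv K₀ σ h)⁻¹ = mgaRestrictEquiv K₀ σ⁻¹ h' := by
  apply RingEquiv.ext
  intro x
  apply Subtype.ext
  rw [mgaRestrictEquiv_coe]
  exact mgaRestrictEquiv_symm_coe K₀ σ h x

/-- `s` is the identity on `E₀`. -/
theorem mgcb_hsE₀ (hσ : σ ∈ A.inertiaSubgroupIn ℚ) {E' : IntermediateField ℚ NfQb}
    (hE : beta0Field A ≤ E') (hE' : ∀ x ∈ E', σ x ∈ E') (a : beta0Field A) :
    letI := beta0FieldAlgebra hE
    mgaRestrictEquiv E' σ hE' (algebraMap (beta0Field A) E' a) =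
      algebraMap (beta0Field A) E' a := by
  letI := beta0FieldAlgebra hE
  apply Subtype.ext
  rw [mgaRestrictEquiv_coe]
  exact mga_fix_beta0 hσ _ a.2

/-- `s` preserves `A' = A ∩ E'`. -/
theorem mgcb_hsA (hσ : σ ∈ A.inertiaSubgroupIn ℚ) {E' : IntermediateField ℚ NfQb}
    (hE' : ∀ x ∈ E', σ x ∈ E') (a : beta0Ring A E') :
    ∃ a' : beta0Ring A E', mgaRestrictEquiv E' σ hE' (algebraMap (beta0Ring A E') E' a) =
      algebraMap (beta0Ring A E') E' a' :=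
  ⟨⟨mgaRestrictEquiv E' σ hE' (a : E'),
    (Fermat.Agent.S05.inertia_apply_mem_iff hσ _).2 a.2⟩, rfl⟩

/-- A uniformizer of `A ∩ E'` divides every element of `𝔪_A ∩ E'`. -/
theorem mgcb_hunif {E' : IntermediateField ℚ NfQb} [IsDiscreteValuationRing (beta0Ring A E')]
    {π' : beta0Ring A E'} (hπ' : Irreducible π') (x : E')
    (hx : (x : NfQb) ∈ A.nonunits) : ((x / (π' : E') : E') : NfQb) ∈ A := by
  have hxA : (x : NfQb) ∈ A := A.nonunits_le hx
  have hmem : (⟨x, hxA⟩ : beta0Ring A E') ∈ IsLocalRing.maximalIdeal (beta0Ring A E') :=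
    (beta0Ring_mem_maximalIdeal_iff _).2 hx
  rw [hπ'.maximalIdeal_eq, Ideal.mem_span_singleton] at hmem
  have h1 := (beta0Ring_dvd_iff π' ⟨x, hxA⟩ hπ'.ne_zero).1 hmem
  simpa using h1

/-- `s π' = π' + π' c` with `c ∈ A'`. -/
theorem mgcb_hsπ (hσ : σ ∈ A.inertiaSubgroupIn ℚ) {E' : IntermediateField ℚ NfQb}
    (hE' : ∀ x ∈ E', σ x ∈ E') [IsDiscreteValuationRing (beta0Ring A E')]
    {π' : beta0Ring A E'} (hπ' : Irreducible π') :
    ∃ c : beta0Ring A E', mgaRestrictEquiv E' σ hE' (algebraMap (beta0Ring A E') E' π') =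
      algebraMap (beta0Ring A E') E' π' +
        algebraMap (beta0Ring A E') E' π' * algebraMap (beta0Ring A E') E' c := by
  have hπ0 : (π' : E') ≠ 0 := fun h => hπ'.ne_zero (Subtype.ext h)
  refine ⟨⟨(mgRestrict E' σ hE' (π' : E') - (π' : E')) / (π' : E'),
    mga_inertia_unif_mem hσ hE' (π' : E') π'.2 (fun x hx => mgcb_hunif hπ' x hx)⟩, ?_⟩
  show mgRestrict E' σ hE' (π' : E') = (π' : E') +
    (π' : E') * ((mgRestrict E' σ hE' (π' : E') - (π' : E')) / (π' : E'))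
  field_simp
  ring

end Restrict

section Main

variable {A : ValuationSubring NfQb} (K₁ : IntermediateField ℚ NfQb) [NumberField K₁]
  [IsGalois ℚ K₁] {q : ℕ} (N : ℕ) [NeZero N]

/-- the compatibility `A₀ → A' → E' = A₀ → E₀ → E'` -/
theorem mgcb_hcomp (a : ↥(beta0Ring A (beta0Field A))) :
    letI := beta0InstAlgebra A K₁
    letI := beta0InstFieldAlgebra A K₁
    algebraMap ↥(beta0Ring A (beta0Field A ⊔ K₁)) ↥(beta0Field A ⊔ K₁)
      (algebraMap ↥(beta0Ring A (beta0Field A)) ↥(beta0Ring A (beta0Field A ⊔ K₁)) a) =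
    algebraMap ↥(beta0Field A) ↥(beta0Field A ⊔ K₁)
      (algebraMap ↥(beta0Ring A (beta0Field A)) ↥(beta0Field A) a) := rfl

/-- `AtTrivMod` does not depend on the uniformizer. -/
theorem mgcb_trivMod_of_associated {A₀ E F : Type*} [CommRing A₀] [IsDomain A₀]
    [IsDiscreteValuationRing A₀] [Field E] [Algebra A₀ E] [IsFractionRing A₀ E] [CharZero E]
    [Field F] [Algebra E F] [Algebra A₀ F] [IsScalarTower A₀ E F]
    {π₀ π : A₀} (hπ₀ : Irreducible π₀) (hπ : Irreducible π) {u : F} {g : SemilinearAut E F}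
    (h : AtTrivMod π₀ u g) : AtTrivMod π u g := by
  obtain ⟨w, hw⟩ := (IsDiscreteValuationRing.associated_of_irreducible A₀ hπ hπ₀)
  intro b hb
  obtain ⟨c, hc, hgc⟩ := h b hb
  refine ⟨algebraMap A₀ F (w : A₀) * c, ?_, ?_⟩
  · exact (zchClosure (A₀ := A₀) ({u} : Set F)).mul_mem
      ((zchClosure (A₀ := A₀) ({u} : Set F)).algebraMap_mem _) (mem_zchClosure.mpr hc)
  · rw [hgc, ← hw, map_mul]
    ring

/-- **(G3) `hσB₁`, `hτB₁` of `mgc_main`**: `σ ∈ I` is trivial modulo `π` on the chart `j` of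
`F_N(E')` over `A'`. -/
theorem mgcb_trivMod_j [IsDiscreteValuationRing ↥(mgcA A K₁)]
    (hq : q.Prime) (hA : A.LiesOverPrime q)
    (hπu : ¬ IsUnit (algebraMap ↥(beta0Ring A (beta0Field A))
      (integralClosure (Algebra.adjoin ↥(beta0Ring A (beta0Field A)) {bgJ ↥(beta0Field A) N})
        (modularFunctionFieldFullC ↥(beta0Field A) N))
      ((q : ℕ) : ↥(beta0Ring A (beta0Field A)))))
    (hred : ∀ c : integralClosure
        (Algebra.adjoin ↥(beta0Ring A (beta0Field A)) {bgJ ↥(beta0Field A) N})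
        (modularFunctionFieldFullC ↥(beta0Field A) N),
      algebraMap ↥(beta0Ring A (beta0Field A)) (integralClosure
        (Algebra.adjoin ↥(beta0Ring A (beta0Field A)) {bgJ ↥(beta0Field A) N})
        (modularFunctionFieldFullC ↥(beta0Field A) N))
          ((q : ℕ) : ↥(beta0Ring A (beta0Field A))) ∣ c ^ 2 →
      algebraMap ↥(beta0Ring A (beta0Field A)) (integralClosure
        (Algebra.adjoin ↥(beta0Ring A (beta0Field A)) {bgJ ↥(beta0Field A) N})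
        (modularFunctionFieldFullC ↥(beta0Field A) N))
          ((q : ℕ) : ↥(beta0Ring A (beta0Field A))) ∣ c)
    {π : ↥(mgcA A K₁)} (hπ : Irreducible π)
    {σ : NfQb ≃ₐ[ℚ] NfQb} (hσ : σ ∈ A.inertiaSubgroupIn ℚ)
    (hσE : ∀ x ∈ mgcE A K₁, σ x ∈ mgcE A K₁) :
    AtTrivMod π (mgcT A K₁ N) (mgcGal N σ hσE) := by
  letI := beta0InstAlgebra A K₁
  letI := beta0InstFieldAlgebra A K₁
  haveI := beta0Ring_isDVR_base (A := A) hq hA
  haveI := beta0Inst_isIntegral (A := A) K₁ hq hA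
  obtain ⟨π₀, hπ₀, -, -, -, -, -, hram, ⟨g₀, hgm, hroot, hdeg, -⟩, hadj, halg⟩ :=
    beta0Inst_main (A := A) K₁ hq hA
  refine mgcb_trivMod_of_associated hπ₀ hπ ?_
  exact mgcc_trivMod_j (A₀ := ↥(beta0Ring A (beta0Field A))) (E₀ := ↥(beta0Field A))
    (A' := ↥(beta0Ring A (beta0Field A ⊔ K₁))) (E' := ↥(beta0Field A ⊔ K₁)) N
    (fun a => mgcb_hcomp K₁ a) (beta0Ring_irreducible_q hq hA) hπu hred hπ₀.ne_zero
    hπ₀.not_isUnit hram g₀ hgm hroot hdeg hadj halg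
    (mgaRestrictEquiv (beta0Field A ⊔ K₁) σ hσE)
    (fun a => mgcb_hsE₀ hσ le_sup_left hσE a)
    (mgcb_hsπ hσ hσE hπ₀)

/-- **(G3) `hσB₂`, `hτB₂` of `mgc_main`**: `σ ∈ I` is trivial modulo `π` on the chart `1/j`. -/
theorem mgcb_trivMod_jinv [IsDiscreteValuationRing ↥(mgcA A K₁)]
    (hq : q.Prime) (hA : A.LiesOverPrime q)
    (hπu : ¬ IsUnit (algebraMap ↥(beta0Ring A (beta0Field A))
      (integralClosure (Algebra.adjoin ↥(beta0Ring A (beta0Field A)) {(bgJ ↥(beta0Field A) N)⁻¹})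
        (modularFunctionFieldFullC ↥(beta0Field A) N))
      ((q : ℕ) : ↥(beta0Ring A (beta0Field A)))))
    (hred : ∀ c : integralClosure
        (Algebra.adjoin ↥(beta0Ring A (beta0Field A)) {(bgJ ↥(beta0Field A) N)⁻¹})
        (modularFunctionFieldFullC ↥(beta0Field A) N),
      algebraMap ↥(beta0Ring A (beta0Field A)) (integralClosure
        (Algebra.adjoin ↥(beta0Ring A (beta0Field A)) {(bgJ ↥(beta0Field A) N)⁻¹})
        (modularFunctionFieldFullC ↥(beta0Field A) N))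
          ((q : ℕ) : ↥(beta0Ring A (beta0Field A))) ∣ c ^ 2 →
      algebraMap ↥(beta0Ring A (beta0Field A)) (integralClosure
        (Algebra.adjoin ↥(beta0Ring A (beta0Field A)) {(bgJ ↥(beta0Field A) N)⁻¹})
        (modularFunctionFieldFullC ↥(beta0Field A) N))
          ((q : ℕ) : ↥(beta0Ring A (beta0Field A))) ∣ c)
    {π : ↥(mgcA A K₁)} (hπ : Irreducible π)
    {σ : NfQb ≃ₐ[ℚ] NfQb} (hσ : σ ∈ A.inertiaSubgroupIn ℚ)
    (hσE : ∀ x ∈ mgcE A K₁, σ x ∈ mgcE A K₁) :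
    AtTrivMod π (mgcT A K₁ N)⁻¹ (mgcGal N σ hσE) := by
  letI := beta0InstAlgebra A K₁
  letI := beta0InstFieldAlgebra A K₁
  haveI := beta0Ring_isDVR_base (A := A) hq hA
  haveI := beta0Inst_isIntegral (A := A) K₁ hq hA
  obtain ⟨π₀, hπ₀, -, -, -, -, -, hram, ⟨g₀, hgm, hroot, hdeg, -⟩, hadj, halg⟩ :=
    beta0Inst_main (A := A) K₁ hq hA
  refine mgcb_trivMod_of_associated hπ₀ hπ ?_
  exact mgcc_trivMod_jinv (A₀ := ↥(beta0Ring A (beta0Field A))) (E₀ := ↥(beta0Field A))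
    (A' := ↥(beta0Ring A (beta0Field A ⊔ K₁))) (E' := ↥(beta0Field A ⊔ K₁)) N
    (fun a => mgcb_hcomp K₁ a) (beta0Ring_irreducible_q hq hA) hπu hred hπ₀.ne_zero
    hπ₀.not_isUnit hram g₀ hgm hroot hdeg hadj halg
    (mgaRestrictEquiv (beta0Field A ⊔ K₁) σ hσE)
    (fun a => mgcb_hsE₀ hσ le_sup_left hσE a)
    (mgcb_hsπ hσ hσE hπ₀)

/-- the inverse of `mgcGal N σ _` is `mgcGal N σ⁻¹ _` -/
theorem mgcb_mgcGal_inv {σ : NfQb ≃ₐ[ℚ] NfQb} (hσE : ∀ x ∈ mgcE A K₁, σ x ∈ mgcE A K₁)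
    (hσE' : ∀ x ∈ mgcE A K₁, σ⁻¹ x ∈ mgcE A K₁) :
    (mgcGal N σ hσE)⁻¹ = mgcGal N σ⁻¹ hσE' := by
  unfold mgcGal
  rw [mgcc_mgGal_inv, mgcb_restrict_inv (mgcE A K₁) hσE hσE']

/-- `E'` is stable under `σ⁻¹`. -/
theorem mgcb_stable_inv {σ : NfQb ≃ₐ[ℚ] NfQb} (hσE : ∀ x ∈ mgcE A K₁, σ x ∈ mgcE A K₁) :
    ∀ x ∈ mgcE A K₁, σ⁻¹ x ∈ mgcE A K₁ :=
  mga_stable_symm (mgcE A K₁) σ hσE

/-- **(G3) `hσB₁'` of `mgc_main`.** -/
theorem mgcb_trivMod_j_inv [IsDiscreteValuationRing ↥(mgcA A K₁)]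
    (hq : q.Prime) (hA : A.LiesOverPrime q)
    (hπu : ¬ IsUnit (algebraMap ↥(beta0Ring A (beta0Field A))
      (integralClosure (Algebra.adjoin ↥(beta0Ring A (beta0Field A)) {bgJ ↥(beta0Field A) N})
        (modularFunctionFieldFullC ↥(beta0Field A) N))
      ((q : ℕ) : ↥(beta0Ring A (beta0Field A)))))
    (hred : ∀ c : integralClosure
        (Algebra.adjoin ↥(beta0Ring A (beta0Field A)) {bgJ ↥(beta0Field A) N})
        (modularFunctionFieldFullC ↥(beta0Field A) N),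
      algebraMap ↥(beta0Ring A (beta0Field A)) (integralClosure
        (Algebra.adjoin ↥(beta0Ring A (beta0Field A)) {bgJ ↥(beta0Field A) N})
        (modularFunctionFieldFullC ↥(beta0Field A) N))
          ((q : ℕ) : ↥(beta0Ring A (beta0Field A))) ∣ c ^ 2 →
      algebraMap ↥(beta0Ring A (beta0Field A)) (integralClosure
        (Algebra.adjoin ↥(beta0Ring A (beta0Field A)) {bgJ ↥(beta0Field A) N})
        (modularFunctionFieldFullC ↥(beta0Field A) N))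
          ((q : ℕ) : ↥(beta0Ring A (beta0Field A))) ∣ c)
    {π : ↥(mgcA A K₁)} (hπ : Irreducible π)
    {σ : NfQb ≃ₐ[ℚ] NfQb} (hσ : σ ∈ A.inertiaSubgroupIn ℚ)
    (hσE : ∀ x ∈ mgcE A K₁, σ x ∈ mgcE A K₁) :
    AtTrivMod π (mgcT A K₁ N) (mgcGal N σ hσE)⁻¹ := by
  rw [mgcb_mgcGal_inv K₁ N hσE (mgcb_stable_inv K₁ hσE)]
  exact mgcb_trivMod_j K₁ N hq hA hπu hred hπ ((A.inertiaSubgroupIn ℚ).inv_mem hσ) _

/-- **(G3) `hσB₂'` of `mgc_main`.** -/
theorem mgcb_trivMod_jinv_inv [IsDiscreteValuationRing ↥(mgcA A K₁)]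
    (hq : q.Prime) (hA : A.LiesOverPrime q)
    (hπu : ¬ IsUnit (algebraMap ↥(beta0Ring A (beta0Field A))
      (integralClosure (Algebra.adjoin ↥(beta0Ring A (beta0Field A)) {(bgJ ↥(beta0Field A) N)⁻¹})
        (modularFunctionFieldFullC ↥(beta0Field A) N))
      ((q : ℕ) : ↥(beta0Ring A (beta0Field A)))))
    (hred : ∀ c : integralClosure
        (Algebra.adjoin ↥(beta0Ring A (beta0Field A)) {(bgJ ↥(beta0Field A) N)⁻¹})
        (modularFunctionFieldFullC ↥(beta0Field A) N),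
      algebraMap ↥(beta0Ring A (beta0Field A)) (integralClosure
        (Algebra.adjoin ↥(beta0Ring A (beta0Field A)) {(bgJ ↥(beta0Field A) N)⁻¹})
        (modularFunctionFieldFullC ↥(beta0Field A) N))
          ((q : ℕ) : ↥(beta0Ring A (beta0Field A))) ∣ c ^ 2 →
      algebraMap ↥(beta0Ring A (beta0Field A)) (integralClosure
        (Algebra.adjoin ↥(beta0Ring A (beta0Field A)) {(bgJ ↥(beta0Field A) N)⁻¹})
        (modularFunctionFieldFullC ↥(beta0Field A) N))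
          ((q : ℕ) : ↥(beta0Ring A (beta0Field A))) ∣ c)
    {π : ↥(mgcA A K₁)} (hπ : Irreducible π)
    {σ : NfQb ≃ₐ[ℚ] NfQb} (hσ : σ ∈ A.inertiaSubgroupIn ℚ)
    (hσE : ∀ x ∈ mgcE A K₁, σ x ∈ mgcE A K₁) :
    AtTrivMod π (mgcT A K₁ N)⁻¹ (mgcGal N σ hσE)⁻¹ := by
  rw [mgcb_mgcGal_inv K₁ N hσE (mgcb_stable_inv K₁ hσE)]
  exact mgcb_trivMod_jinv K₁ N hq hA hπu hred hπ ((A.inertiaSubgroupIn ℚ).inv_mem hσ) _

end Main

end Fermat.Agent.UNIP
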