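import Fermat.Agent.UNIP.MGFinal
import Fermat.Agent.UNIP.MGVertInertia
import Fermat.Agent.UNIP.MGChartsBeta0
import Fermat.Agent.UNIP.Cheap

/-!
# UNIP MG-5, part 4: assembly of `MgcData`

`mgcData_of` : `MgcData A K₁ (M * q) σ τ hσ hτ` from
* the V-block of `UNIP/MGVertInertia.lean` (helper91),
* `AtTrivMod` of `UNIP/MGChartsBeta0.lean` (helper16),
* and, as hypotheses: the output of U5 at the base `A₀ = A ∩ ℚ̄^I` (`hπu`, `hred` on the two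
  charts), `hSS1`, `hVloc₁`, `hVloc₂` and the coordinates `hcoord`.
-/

set_option autoImplicit false
set_option linter.style.haveILetI false
set_option linter.unusedSectionVars false
set_option linter.unusedVariables false

noncomputable section

namespace Fermat.Agent.UNIP

open ModularCurve AlgebraicCurve Fermat.Agent.ES Fermat.Agent.ES.G2 Fermat.Agent.INJ
open IntermediateField

/-- a complex embedding of an intermediate field of `ℚ̄ / ℚ` (only used to name `w_q`) -/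
def mgdIota (E : IntermediateField ℚ Qb) : ↥E →+* ℂ :=
  cheapIota.comp (algebraMap ↥E Qb)

section Assembly

variable {A : ValuationSubring Qb} (K₁ : IntermediateField ℚ Qb) [NumberField K₁]
  [IsGalois ℚ K₁] {M q : ℕ} [NeZero M] [NeZero q] [NeZero (M * q)]
  [IsDiscreteValuationRing ↥(mgcA A K₁)]

set_option synthInstance.maxHeartbeats 400000 in
set_option maxHeartbeats 3200000 in
/-- **Assembly of `MgcData`** (the pending pieces as hypotheses). -/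
theorem mgcData_of (hq : q.Prime) (hqM : ¬ q ∣ M) (hA : A.LiesOverPrime q)
    {π : ↥(mgcA A K₁)} (hπ : Irreducible π)
    (σ : Qb ≃ₐ[ℚ] Qb) (hσI : σ ∈ A.inertiaSubgroupIn ℚ)
    (τ : Qb ≃ₐ[ℚ] Qb) (hτI : τ ∈ A.inertiaSubgroupIn ℚ)
    (hσ : ∀ x ∈ mgcE A K₁, σ x ∈ mgcE A K₁) (hτ : ∀ x ∈ mgcE A K₁, τ x ∈ mgcE A K₁)
    -- U5 at the base, chart `j`
    (hπu₁ : ¬ IsUnit (algebraMap ↥(beta0Ring A (beta0Field A))
      (integralClosure
        (Algebra.adjoin ↥(beta0Ring A (beta0Field A)) {bgJ ↥(beta0Field A) (M * q)})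
        (modularFunctionFieldFullC ↥(beta0Field A) (M * q)))
      ((q : ℕ) : ↥(beta0Ring A (beta0Field A)))))
    (hred₁ : ∀ c : integralClosure
        (Algebra.adjoin ↥(beta0Ring A (beta0Field A)) {bgJ ↥(beta0Field A) (M * q)})
        (modularFunctionFieldFullC ↥(beta0Field A) (M * q)),
      algebraMap ↥(beta0Ring A (beta0Field A)) (integralClosure
        (Algebra.adjoin ↥(beta0Ring A (beta0Field A)) {bgJ ↥(beta0Field A) (M * q)})
        (modularFunctionFieldFullC ↥(beta0Field A) (M * q)))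
          ((q : ℕ) : ↥(beta0Ring A (beta0Field A))) ∣ c ^ 2 →
      algebraMap ↥(beta0Ring A (beta0Field A)) (integralClosure
        (Algebra.adjoin ↥(beta0Ring A (beta0Field A)) {bgJ ↥(beta0Field A) (M * q)})
        (modularFunctionFieldFullC ↥(beta0Field A) (M * q)))
          ((q : ℕ) : ↥(beta0Ring A (beta0Field A))) ∣ c)
    -- U5 at the base, chart `1 / j`
    (hπu₂ : ¬ IsUnit (algebraMap ↥(beta0Ring A (beta0Field A))
      (integralClosure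
        (Algebra.adjoin ↥(beta0Ring A (beta0Field A)) {(bgJ ↥(beta0Field A) (M * q))⁻¹})
        (modularFunctionFieldFullC ↥(beta0Field A) (M * q)))
      ((q : ℕ) : ↥(beta0Ring A (beta0Field A)))))
    (hred₂ : ∀ c : integralClosure
        (Algebra.adjoin ↥(beta0Ring A (beta0Field A)) {(bgJ ↥(beta0Field A) (M * q))⁻¹})
        (modularFunctionFieldFullC ↥(beta0Field A) (M * q)),
      algebraMap ↥(beta0Ring A (beta0Field A)) (integralClosure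
        (Algebra.adjoin ↥(beta0Ring A (beta0Field A)) {(bgJ ↥(beta0Field A) (M * q))⁻¹})
        (modularFunctionFieldFullC ↥(beta0Field A) (M * q)))
          ((q : ℕ) : ↥(beta0Ring A (beta0Field A))) ∣ c ^ 2 →
      algebraMap ↥(beta0Ring A (beta0Field A)) (integralClosure
        (Algebra.adjoin ↥(beta0Ring A (beta0Field A)) {(bgJ ↥(beta0Field A) (M * q))⁻¹})
        (modularFunctionFieldFullC ↥(beta0Field A) (M * q)))
          ((q : ℕ) : ↥(beta0Ring A (beta0Field A))) ∣ c)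
    -- pending pieces
    (hSS1 : ∀ b : ↥(mgcF A K₁ (M * q)),
      IsIntegral ↥(Algebra.adjoin ↥(mgcA A K₁) {mgcT A K₁ (M * q)}) b →
      (∀ c, b ∈ (mgvV hπ (mgdIota (mgcE A K₁)) hq hqM c).nonunits) →
      ∃ b' : ↥(mgcF A K₁ (M * q)),
        IsIntegral ↥(Algebra.adjoin ↥(mgcA A K₁) {mgcT A K₁ (M * q)}) b' ∧
        b = algebraMap ↥(mgcA A K₁) ↥(mgcF A K₁ (M * q)) π * b')
    (hVloc₁ : ∀ c (x : ↥(mgcF A K₁ (M * q))), x ∈ mgvV hπ (mgdIota (mgcE A K₁)) hq hqM c →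
      ∃ b s : ↥(mgcF A K₁ (M * q)),
      IsIntegral ↥(Algebra.adjoin ↥(mgcA A K₁) {mgcT A K₁ (M * q)}) b ∧
      IsIntegral ↥(Algebra.adjoin ↥(mgcA A K₁) {mgcT A K₁ (M * q)}) s ∧
      s ∉ (mgvV hπ (mgdIota (mgcE A K₁)) hq hqM c).nonunits ∧ s * x = b)
    (hVloc₂ : ∀ c (x : ↥(mgcF A K₁ (M * q))), x ∈ mgvV hπ (mgdIota (mgcE A K₁)) hq hqM c →
      ∃ b s : ↥(mgcF A K₁ (M * q)),
      IsIntegral ↥(Algebra.adjoin ↥(mgcA A K₁) {(mgcT A K₁ (M * q))⁻¹}) b ∧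
      IsIntegral ↥(Algebra.adjoin ↥(mgcA A K₁) {(mgcT A K₁ (M * q))⁻¹}) s ∧
      s ∉ (mgvV hπ (mgdIota (mgcE A K₁)) hq hqM c).nonunits ∧ s * x = b)
    (hcoord : ∀ u₀ : ↥(mgcF A K₁ (M * q)), u₀ ≠ 0 → MgcRat A K₁ (M * q) u₀ →
      (∀ 𝔫 : AtPt (F := ↥(mgcF A K₁ (M * q))) π (mgcT A K₁ (M * q)),
        ∀ P : Place ↥(mgcE A K₁) ↥(mgcF A K₁ (M * q)),
        LsTube ↥(zchClosure (A₀ := ↥(mgcA A K₁))
            ({mgcT A K₁ (M * q)} : Set ↥(mgcF A K₁ (M * q))))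
          (mgcT A K₁ (M * q)) 𝔫.1 P →
        mgcGal (M * q) σ hσ • P ≠ P → P.ord u₀ ≠ 0 →
        ∃ f : ↥(mgcF A K₁ (M * q)), f ≠ 0 ∧ P.ord f = 1 ∧
          ∀ Q : Place ↥(mgcE A K₁) ↥(mgcF A K₁ (M * q)),
          LsTube ↥(zchClosure (A₀ := ↥(mgcA A K₁))
              ({mgcT A K₁ (M * q)} : Set ↥(mgcF A K₁ (M * q))))
            (mgcT A K₁ (M * q)) 𝔫.1 Q →
          mgcGal (M * q) σ hσ • Q ≠ Q → Q ≠ P → Q.ord f = 0) ∧
      (∀ 𝔫 : AtPt (F := ↥(mgcF A K₁ (M * q))) π (mgcT A K₁ (M * q))⁻¹,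
        ∀ P : Place ↥(mgcE A K₁) ↥(mgcF A K₁ (M * q)),
        LsTube ↥(zchClosure (A₀ := ↥(mgcA A K₁))
            ({(mgcT A K₁ (M * q))⁻¹} : Set ↥(mgcF A K₁ (M * q))))
          (mgcT A K₁ (M * q))⁻¹ 𝔫.1 P →
        mgcGal (M * q) σ hσ • P ≠ P → P.ord u₀ ≠ 0 →
        ∃ f : ↥(mgcF A K₁ (M * q)), f ≠ 0 ∧ P.ord f = 1 ∧
          ∀ Q : Place ↥(mgcE A K₁) ↥(mgcF A K₁ (M * q)),
          LsTube ↥(zchClosure (A₀ := ↥(mgcA A K₁))
              ({(mgcT A K₁ (M * q))⁻¹} : Set ↥(mgcF A K₁ (M * q))))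
            (mgcT A K₁ (M * q))⁻¹ 𝔫.1 Q →
          mgcGal (M * q) σ hσ • Q ≠ Q → Q ≠ P → Q.ord f = 0)) :
    MgcData A K₁ (M * q) σ τ hσ hτ := by
  refine ⟨π, mgvV hπ (mgdIota (mgcE A K₁)) hq hqM, hπ, ?_, ?_, ?_, hSS1, ?_, hVloc₁, hVloc₂,
    ?_, ?_, ?_, ?_, ?_, ?_, ?_, ?_, hcoord⟩
  · exact fun c b hb => mgv_hBV₁ hπ _ hq hqM c b hb
  · exact fun c b hb => mgv_hBV₂ hπ _ hq hqM c b hb
  · exact fun c => mgv_hπV hπ _ hq hqM c
  · exact fun c a x ha => mgv_harch hπ _ hq hqM c a x ha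
  · exact mgcb_trivMod_j K₁ (M * q) hq hA hπu₁ hred₁ hπ hσI hσ
  · exact mgcb_trivMod_j_inv K₁ (M * q) hq hA hπu₁ hred₁ hπ hσI hσ
  · exact mgcb_trivMod_jinv K₁ (M * q) hq hA hπu₂ hred₂ hπ hσI hσ
  · exact mgcb_trivMod_jinv_inv K₁ (M * q) hq hA hπu₂ hred₂ hπ hσI hσ
  · exact mgcb_trivMod_j K₁ (M * q) hq hA hπu₁ hred₁ hπ hτI hτ
  · exact mgcb_trivMod_jinv K₁ (M * q) hq hA hπu₂ hred₂ hπ hτI hτ
  · exact fun c f hf => mgv_hσV hπ _ hq hqM hσI hσ c f hf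
  · exact fun c x hx => mgv_hτV hπ _ hq hqM hτI hτ c x hx

end Assembly

end Fermat.Agent.UNIP
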