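import Fermat.Agent.UNIP.Descent
import Fermat.Agent.INJ.NFEmb

/-!
# UNIP MG-1: set-up of the modular glue

`Qb = ℚ̄`, `K₀ ⊆ Qb` an intermediate field (in the application `E′ = E₀·K₁`, `E₀ = ℚ̄^I`),
`F_N(K₀) = modularFunctionFieldFullC K₀ N ⊆ K₀((Q))`, `nfEmb K₀ N : F_N(K₀) →+* F_N(ℚ̄)`.

* `mgRestrict σ hσ : K₀ →+* K₀` : restriction of `σ ∈ G_ℚ` to a `σ`-stable field `K₀`;
* `mgAct σ hσ : F_N(K₀) →+* F_N(K₀)` : the coefficientwise action;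
* `nfEmb_mgAct` : `nfEmb (mgAct σ x) = arithmeticGalois σ • nfEmb x`;
* `mgDD σ τ u = (τ − 1)(σ − 1) u = τ(σu / u) / (σu / u)` on `F_N(K₀)`, `nfEmb_mgDD`;
* `StmtUnipField N q` : the statement over a field of definition `K₀` of `u` (chosen by the
  prover, depending on `u`), `unipKummerAt_of_field : StmtUnipField N q → StmtUnipKummerAt N q`,
  and with U11 `stmtUnipKummer_of_field`.
-/

set_option autoImplicit false

noncomputable section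

namespace Fermat.Agent.UNIP

open ModularCurve AlgebraicCurve Fermat.Agent.ES Fermat.Agent.ES.G2 Fermat.Agent.INJ

variable (K₀ : IntermediateField ℚ Qb) (N : ℕ)

/-- restriction of `σ` to a `σ`-stable intermediate field -/
def mgRestrict (σ : Qb ≃ₐ[ℚ] Qb) (hσ : ∀ x ∈ K₀, σ x ∈ K₀) : K₀ →+* K₀ where
  toFun x := ⟨σ x, hσ x x.2⟩
  map_one' := by
    apply Subtype.ext
    show σ (1 : Qb) = 1
    exact map_one σ
  map_mul' x y := by
    apply Subtype.ext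
    show σ ((x : Qb) * (y : Qb)) = σ x * σ y
    exact map_mul σ _ _
  map_zero' := by
    apply Subtype.ext
    show σ (0 : Qb) = 0
    exact map_zero σ
  map_add' x y := by
    apply Subtype.ext
    show σ ((x : Qb) + (y : Qb)) = σ x + σ y
    exact map_add σ _ _

@[simp]
theorem mgRestrict_coe (σ : Qb ≃ₐ[ℚ] Qb) (hσ : ∀ x ∈ K₀, σ x ∈ K₀) (x : K₀) :
    ((mgRestrict K₀ σ hσ x : K₀) : Qb) = σ x := rfl

theorem mgRestrict_comp (σ : Qb ≃ₐ[ℚ] Qb) (hσ : ∀ x ∈ K₀, σ x ∈ K₀) :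
    (algebraMap K₀ Qb).comp (mgRestrict K₀ σ hσ) = (σ : Qb →+* Qb).comp (algebraMap K₀ Qb) :=
  RingHom.ext fun _ => rfl

/-- the coefficientwise action of `σ` on `F_N(K₀)` -/
def mgAct (σ : Qb ≃ₐ[ℚ] Qb) (hσ : ∀ x ∈ K₀, σ x ∈ K₀) :
    modularFunctionFieldFullC K₀ N →+* modularFunctionFieldFullC K₀ N where
  toFun x := ⟨coeffMap (mgRestrict K₀ σ hσ) (x : LaurentSeries K₀),
    nf_coeffMap_mem_fullC (mgRestrict K₀ σ hσ) N x.2⟩
  map_one' := Subtype.ext (map_one (coeffMap (mgRestrict K₀ σ hσ)))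
  map_mul' _ _ := Subtype.ext (map_mul (coeffMap (mgRestrict K₀ σ hσ)) _ _)
  map_zero' := Subtype.ext (map_zero (coeffMap (mgRestrict K₀ σ hσ)))
  map_add' _ _ := Subtype.ext (map_add (coeffMap (mgRestrict K₀ σ hσ)) _ _)

@[simp]
theorem mgAct_coe (σ : Qb ≃ₐ[ℚ] Qb) (hσ : ∀ x ∈ K₀, σ x ∈ K₀)
    (x : modularFunctionFieldFullC K₀ N) :
    ((mgAct K₀ N σ hσ x : modularFunctionFieldFullC K₀ N) : LaurentSeries K₀)
      = coeffMap (mgRestrict K₀ σ hσ) (x : LaurentSeries K₀) := rfl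

/-- `nfEmb` intertwines the action on `F_N(K₀)` with the arithmetic Galois action on `F_N(ℚ̄)`. -/
theorem nfEmb_mgAct (σ : Qb ≃ₐ[ℚ] Qb) (hσ : ∀ x ∈ K₀, σ x ∈ K₀)
    (x : modularFunctionFieldFullC K₀ N) :
    nfEmb K₀ N (mgAct K₀ N σ hσ x)
      = arithmeticGalois (modularFunctionFieldFull N) σ • nfEmb K₀ N x := by
  apply Subtype.ext
  show coeffMap (algebraMap K₀ Qb) (coeffMap (mgRestrict K₀ σ hσ) (x : LaurentSeries K₀))
    = coeffMap (σ : Qb →+* Qb) (coeffMap (algebraMap K₀ Qb) (x : LaurentSeries K₀))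
  rw [coeffMap_coeffMap, coeffMap_coeffMap, mgRestrict_comp]

theorem mgAct_injective (σ : Qb ≃ₐ[ℚ] Qb) (hσ : ∀ x ∈ K₀, σ x ∈ K₀) :
    Function.Injective (mgAct K₀ N σ hσ) := (mgAct K₀ N σ hσ).injective

/-- constants: `mgAct σ (c) = σ c` -/
theorem mgAct_algebraMap (σ : Qb ≃ₐ[ℚ] Qb) (hσ : ∀ x ∈ K₀, σ x ∈ K₀) (c : K₀) :
    mgAct K₀ N σ hσ (algebraMap K₀ (modularFunctionFieldFullC K₀ N) c)
      = algebraMap K₀ (modularFunctionFieldFullC K₀ N) (mgRestrict K₀ σ hσ c) := by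
  apply Subtype.ext
  show coeffMap (mgRestrict K₀ σ hσ) (algebraMap K₀ (LaurentSeries K₀) c) = _
  rw [nf_coeffMap_algebraMap]
  rfl

/-- `(τ − 1)(σ − 1) u = τ(σu / u) / (σu / u)` on `F_N(K₀)` -/
def mgDD (σ τ : Qb ≃ₐ[ℚ] Qb) (hσ : ∀ x ∈ K₀, σ x ∈ K₀) (hτ : ∀ x ∈ K₀, τ x ∈ K₀)
    (u : modularFunctionFieldFullC K₀ N) : modularFunctionFieldFullC K₀ N :=
  (mgAct K₀ N τ hτ ((mgAct K₀ N σ hσ u) / u)) / ((mgAct K₀ N σ hσ u) / u)

theorem nfEmb_mgDD (σ τ : Qb ≃ₐ[ℚ] Qb) (hσ : ∀ x ∈ K₀, σ x ∈ K₀) (hτ : ∀ x ∈ K₀, τ x ∈ K₀)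
    (u : modularFunctionFieldFullC K₀ N) :
    nfEmb K₀ N (mgDD K₀ N σ τ hσ hτ u)
      = (arithmeticGalois (modularFunctionFieldFull N) τ •
            ((arithmeticGalois (modularFunctionFieldFull N) σ • nfEmb K₀ N u) / nfEmb K₀ N u)) /
          ((arithmeticGalois (modularFunctionFieldFull N) σ • nfEmb K₀ N u) / nfEmb K₀ N u) := by
  unfold mgDD
  rw [map_div₀, nfEmb_mgAct, map_div₀, nfEmb_mgAct]

theorem mgDD_ne_zero (σ τ : Qb ≃ₐ[ℚ] Qb) (hσ : ∀ x ∈ K₀, σ x ∈ K₀) (hτ : ∀ x ∈ K₀, τ x ∈ K₀)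
    {u : modularFunctionFieldFullC K₀ N} (hu : u ≠ 0) : mgDD K₀ N σ τ hσ hτ u ≠ 0 := by
  have h1 : mgAct K₀ N σ hσ u ≠ 0 :=
    (map_ne_zero_iff _ (mgAct_injective K₀ N σ hσ)).mpr hu
  have h2 : mgAct K₀ N σ hσ u / u ≠ 0 := div_ne_zero h1 hu
  exact div_ne_zero ((map_ne_zero_iff _ (mgAct_injective K₀ N τ hτ)).mpr h2) h2

/-- a field containing a number field in which `y` is defined also contains `y` -/
theorem mg_exists_descent (S : Finset Qb) {y : LaurentSeries Qb}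
    (hy : y ∈ modularFunctionFieldBar N) :
    ∃ K₁ : IntermediateField ℚ Qb, FiniteDimensional ℚ K₁ ∧ (∀ s ∈ S, s ∈ K₁) ∧
      ∀ K₂ : IntermediateField ℚ Qb, K₁ ≤ K₂ →
        ∃ y₂ : modularFunctionFieldFullC K₂ N, nfEmb K₂ N y₂ = ⟨y, hy⟩ := by
  classical
  obtain ⟨K₁, hfin, hS, hK⟩ := nf_exists_descent_finset (N := N) S {y}
    (fun z hz => by rw [Finset.mem_singleton] at hz; rw [hz]; exact hy)
  refine ⟨K₁, hfin, hS, fun K₂ h12 => ?_⟩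
  obtain ⟨y₂, hy₂, he⟩ := hK K₂ h12 y (Finset.mem_singleton_self y)
  exact ⟨⟨y₂, hy₂⟩, Subtype.ext he⟩

/-- **(UNIP) over the fields of definition.**  `q ∥ N`; for every valuation ring `A` of `ℚ̄` over
`q`, every `m` prime to `q`, all `σ, τ` in the inertia group of `A` and every `u ∈ F_N(ℚ̄)^×` with
divisor in `m · Div` there is a field `K₀ ⊆ ℚ̄` (in the application `E′ = ℚ̄^I · K₁`, depending on
`u`), stable under `σ` and `τ`, over which `u` is defined, `u = nfEmb u₀`, and such that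
`(τ − 1)(σ − 1) u₀` is an `m`-th power in `F_N(K₀)`. -/
def StmtUnipField (N : ℕ) [NeZero N] (q : ℕ) : Prop :=
  ∀ A : ValuationSubring Qb, A.LiesOverPrime q →
    ∀ m : ℕ, ¬ q ∣ m →
      ∀ σ ∈ A.inertiaSubgroupIn ℚ, ∀ τ ∈ A.inertiaSubgroupIn ℚ,
        ∀ u : modularFunctionFieldBar N, u ≠ 0 →
          (∀ P : Place Qb (modularFunctionFieldBar N), (m : ℤ) ∣ P.ord u) →
            ∃ (K₀ : IntermediateField ℚ Qb)
              (hσ : ∀ x ∈ K₀, σ x ∈ K₀) (hτ : ∀ x ∈ K₀, τ x ∈ K₀)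
              (u₀ : modularFunctionFieldFullC K₀ N),
              nfEmb K₀ N u₀ = u ∧
                ∃ k : modularFunctionFieldFullC K₀ N, k ^ m = mgDD K₀ N σ τ hσ hτ u₀

/-- MG-1: the statement over the fields of definition gives `StmtUnipKummerAt`. -/
theorem unipKummerAt_of_field (N : ℕ) [NeZero N] (q : ℕ) (h : StmtUnipField N q) :
    StmtUnipKummerAt N q := by
  intro A hA m hm σ hσ τ hτ u hu hdiv
  obtain ⟨K₀, hσK, hτK, u₀, hu₀, k, hk⟩ := h A hA m hm σ hσ τ hτ u hu hdiv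
  refine ⟨nfEmb K₀ N k, ?_⟩
  rw [← map_pow, hk, nfEmb_mgDD, hu₀]

/-- MG-1 + U11: it suffices to prove `StmtUnipField N q` at the levels `N` where the base line of
the INJ/KEY route exists (`3 ∣ N` if `q = 2`, `2 ∣ N` if `q = 3`). -/
theorem stmtUnipKummer_of_field
    (h : ∀ (N : ℕ) [NeZero N] (q : ℕ), q.Prime → q ∣ N → ¬ q ^ 2 ∣ N →
      (q = 2 → 3 ∣ N) → (q = 3 → 2 ∣ N) → StmtUnipField N q) : StmtUnipKummer :=
  stmtUnipKummer_of_aux fun N _ q hq hqN hq2 h2 h3 =>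
    unipKummerAt_of_field N q (h N q hq hqN hq2 h2 h3)

end Fermat.Agent.UNIP
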