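import Fermat.Agent.ES.HModular
import Fermat.Agent.INJ.NFEmb
import Fermat.Prelude.Def_ModularCurve_ArithmeticGalois

/-!
# UNIP D8 (S34 / S35, direct route of `NOTES/S34-plan.md`): places become rational over a
finite extension of the base field

`F = F_N(ℚ̄) = modularFunctionFieldBar N`, `P` a place of `F / ℚ̄`.

* `RatStable N E P` : `P` is fixed by every `σ ∈ Gal(ℚ̄/ℚ)` fixing the subfield `E ⊆ ℚ̄` pointwise.
* `rat_exists_stable_finset` : finitely many places are stable over one number field `K₀`, which can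
  be taken Galois over `ℚ` and containing a given number field.
* `RatStable.mono`, `RatStable.smul` (stability of the Galois conjugates, `K₀ / ℚ` normal).
* `RatStable.exists_const` : if `P` is stable over `E` (an arbitrary subfield of `ℚ̄`, e.g.
  `E = K₀ · ℚ̄^I`), then `P ∩ F_N(E)` is `E`-rational: every `f ∈ F_N(E)` which is regular at `P`
  is congruent modulo `𝔪_P` to a constant `c ∈ E`.
-/

set_option autoImplicit false

noncomputable section

namespace Fermat.Agent.UNIP

open AlgebraicCurve ModularCurve Fermat.Agent.S24 Fermat.Agent.INJ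

section Abstract

variable {K F : Type*} [Field K] [Field F] [Algebra K F]

/-- The valuation rings of two distinct places are incomparable. -/
theorem rat_exists_not_mem {P Q : Place K F} (h : Q ≠ P) :
    ∃ y : F, y ∈ P.toValuationSubring ∧ y ∉ Q.toValuationSubring := by
  by_contra hcon
  push Not at hcon
  have hle : P.toValuationSubring ≤ Q.toValuationSubring := fun y hy => hcon y hy
  have : IsPrincipalIdealRing P.toValuationSubring := P.isPrincipalIdealRing'
  exact h (Place.ext (ValuationSubring.eq_of_le_of_ne_top _ hle Q.ne_top')).symm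

/-- A place is cut out by finitely many functions: a function `t` vanishing at `P` and finitely
many functions `y`, regular at `P`, such that `P` is the only zero of `t` at which all `y` are
regular. -/
theorem rat_exists_finset_char [HasPrincipalDivisors K F] (P : Place K F) :
    ∃ (t : F) (Y : Finset F), 0 < P.ord t ∧ (∀ y ∈ Y, y ∈ P.toValuationSubring) ∧
      ∀ Q : Place K F, 0 < Q.ord t → (∀ y ∈ Y, y ∈ Q.toValuationSubring) → Q = P := by
  classical
  obtain ⟨π, hπ⟩ := IsDiscreteValuationRing.exists_irreducible P.toValuationSubring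
  have hπ0 : (π : F) ≠ 0 := by
    simpa [ne_eq, ZeroMemClass.coe_eq_zero] using hπ.ne_zero
  have hπord : P.ord (π : F) = 1 := P.ord_coe_irreducible hπ
  obtain ⟨D, hD, -⟩ := HasPrincipalDivisors.exists_divisor (K := K) (π : F) hπ0
  have hchoice : ∀ Q : Place K F, ∃ y : F, y ∈ P.toValuationSubring ∧
      (Q ≠ P → y ∉ Q.toValuationSubring) := by
    intro Q
    by_cases hQ : Q = P
    · exact ⟨0, zero_mem _, fun h => absurd hQ h⟩
    · obtain ⟨y, hy, hy'⟩ := rat_exists_not_mem hQ
      exact ⟨y, hy, fun _ => hy'⟩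
  choose y hyP hyQ using hchoice
  refine ⟨(π : F), D.support.image y, by rw [hπord]; exact one_pos, ?_, ?_⟩
  · intro z hz
    obtain ⟨Q, -, rfl⟩ := Finset.mem_image.1 hz
    exact hyP Q
  · intro Q hQ hY
    by_contra hne
    have hmem : Q ∈ D.support := by
      rw [Finsupp.mem_support_iff, hD Q]
      exact hQ.ne'
    exact hyQ Q hne (hY _ (Finset.mem_image_of_mem y hmem))

/-- a nonzero constant is not in the maximal ideal of a place -/
theorem rat_const_eq_zero_of_mem_nonunits (P : Place K F) {a : K}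
    (h : algebraMap K F a ∈ P.toValuationSubring.nonunits) : a = 0 := by
  by_contra ha
  have hne : algebraMap K F a ≠ 0 := by simpa using ha
  have h1 := (PlaceAux.ord_pos_iff_mem_nonunits P hne).2 h
  have h2 : P.ord (algebraMap K F a) = 0 := PlaceAux.ord_algebraMap P a
  omega

/-- the maximal ideal of the translate of a place -/
theorem rat_smul_mem_nonunits (g : SemilinearAut K F) (P : Place K F) {x : F}
    (hx : x ∈ P.toValuationSubring.nonunits) : g • x ∈ (g • P).toValuationSubring.nonunits := by
  rcases eq_or_ne x 0 with rfl | hx0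
  · rw [smul_zero]
    exact (ValuationSubring.mem_nonunits_iff _).2 (by simp)
  · have hgx : g • x ≠ 0 := by
      intro h
      apply hx0
      have := congrArg (g⁻¹ • ·) h
      simpa using this
    rw [← PlaceAux.ord_pos_iff_mem_nonunits (g • P) hgx, SemilinearAut.ord_smul]
    exact (PlaceAux.ord_pos_iff_mem_nonunits P hx0).2 hx

theorem rat_sub_mem_nonunits (A : ValuationSubring F) {x y : F} (hx : x ∈ A.nonunits)
    (hy : y ∈ A.nonunits) : x - y ∈ A.nonunits := by
  rw [ValuationSubring.mem_nonunits_iff] at hx hy ⊢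
  exact lt_of_le_of_lt (A.valuation.map_sub x y) (max_lt hx hy)

end Abstract

section Galois

variable (N : ℕ)

/-- the arithmetic Galois action on `F_N(ℚ̄)` -/
abbrev ratGal (σ : Kb ≃ₐ[ℚ] Kb) : SemilinearAut Kb (FF N) :=
  arithmeticGalois (modularFunctionFieldFull N) σ

/-- Functions defined over `E` are fixed by the automorphisms fixing `E`. -/
theorem rat_smul_nfEmb (E : IntermediateField ℚ Kb) (σ : Kb ≃ₐ[ℚ] Kb) (hσ : ∀ x ∈ E, σ x = x)
    (f : modularFunctionFieldFullC E N) :
    ratGal N σ • (nfEmb E N f) = nfEmb E N f := by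
  apply Subtype.ext
  rw [coe_arithmeticGalois_smul, nfEmb_coe, coeffMap_coeffMap]
  have h : ((σ : Kb →+* Kb).comp (algebraMap E Kb)) = algebraMap E Kb := by
    refine RingHom.ext fun c => ?_
    exact hσ (c : Kb) c.2
  exact coeffMap_congr h _

theorem rat_smul_const (σ : Kb ≃ₐ[ℚ] Kb) (c : Kb) :
    ratGal N σ • algebraMap Kb (FF N) c = algebraMap Kb (FF N) (σ c) :=
  SemilinearAut.smul_algebraMap _ c

/-- `P` is fixed by every automorphism of `ℚ̄` fixing the subfield `E` pointwise. -/
def RatStable (E : IntermediateField ℚ Kb) (P : Place Kb (FF N)) : Prop :=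
  ∀ σ : Kb ≃ₐ[ℚ] Kb, (∀ x ∈ E, σ x = x) → ratGal N σ • P = P

variable {N}

theorem RatStable.mono {E E' : IntermediateField ℚ Kb} (h : E ≤ E') {P : Place Kb (FF N)}
    (hP : RatStable N E P) : RatStable N E' P :=
  fun σ hσ => hP σ fun x hx => hσ x (h hx)

variable (N) in
/-- **Stability.**  Every place of `F_N(ℚ̄)` is fixed by `Gal(ℚ̄/K₀)` for some number field
`K₀`. -/
theorem rat_exists_stable [NeZero N] (P : Place Kb (FF N)) :
    ∃ K₀ : IntermediateField ℚ Kb, FiniteDimensional ℚ K₀ ∧ RatStable N K₀ P := by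
  classical
  have := Fermat.Agent.ES.H.hasPrincipalDivisors_FF N
  obtain ⟨t, Y, ht, hY, hchar⟩ := rat_exists_finset_char P
  obtain ⟨K₀, hK₀, -, hdesc⟩ := nf_exists_descent_finset (N := N) ∅
    ((insert t Y).image (fun y : FF N => (y : LaurentSeries Kb)))
    (by
      intro y hy
      obtain ⟨z, -, rfl⟩ := Finset.mem_image.1 hy
      exact z.2)
  refine ⟨K₀, hK₀, fun σ hσ => ?_⟩
  have hfix : ∀ y ∈ insert t Y, ratGal N σ • y = y := by
    intro y hy
    obtain ⟨y₁, hy₁, hy₁'⟩ := hdesc K₀ le_rfl (y : LaurentSeries Kb)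
      (Finset.mem_image_of_mem _ hy)
    have : y = nfEmb K₀ N ⟨y₁, hy₁⟩ := Subtype.ext hy₁'.symm
    rw [this]
    exact rat_smul_nfEmb N K₀ σ hσ _
  apply hchar
  · have h1 := SemilinearAut.ord_smul (ratGal N σ) P t
    rw [hfix t (Finset.mem_insert_self t Y)] at h1
    rw [h1]
    exact ht
  · intro y hy
    have h1 := hfix y (Finset.mem_insert_of_mem hy)
    rw [SemilinearAut.smul_toValuationSubring,
      ValuationSubring.mem_pointwise_smul_iff_inv_smul_mem]
    have h2 : (ratGal N σ)⁻¹ • y = y := by
      conv_lhs => rw [← h1]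
      exact inv_smul_smul _ _
    rw [h2]
    exact hY y hy

/-- **Rationality.**  If `P` is stable over the subfield `E ⊆ ℚ̄`, then every function
`f ∈ F_N(E)` regular at `P` is congruent modulo `𝔪_P` to a constant `c ∈ E`. -/
theorem RatStable.exists_const [NeZero N] {E : IntermediateField ℚ Kb} {P : Place Kb (FF N)}
    (hP : RatStable N E P) (f : modularFunctionFieldFullC E N)
    (hf : nfEmb E N f ∈ P.toValuationSubring) :
    ∃ c : E, nfEmb E N f - algebraMap Kb (FF N) (c : Kb) ∈ P.toValuationSubring.nonunits := by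
  have : IsAlgClosure ℚ Kb := ⟨inferInstance, AlgebraicClosure.isAlgebraic ℚ⟩
  have : IsGalois ℚ Kb := inferInstance
  have := Fermat.Agent.ES.H.finiteDimensional_adjoin_jF N
  have halg : Algebra.IsAlgebraic (IntermediateField.adjoin Kb {jF N}) (FF N) :=
    Algebra.IsAlgebraic.of_finite _ _
  obtain ⟨c, hc⟩ := exists_sub_mem_nonunits (jF N) (transcendental_jF N) halg P _ hf
  have hcE : c ∈ E := by
    rw [← InfiniteGalois.fixedField_fixingSubgroup E, IntermediateField.mem_fixedField_iff]
    intro σ hσ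
    have hσ' : ∀ x ∈ E, σ x = x := fun x hx => hσ ⟨x, hx⟩
    have h1 := rat_smul_mem_nonunits (ratGal N σ) P hc
    rw [hP σ hσ', smul_sub, rat_smul_nfEmb N E σ hσ', rat_smul_const] at h1
    have h2 : algebraMap Kb (FF N) (σ c - c) ∈ P.toValuationSubring.nonunits := by
      have e : algebraMap Kb (FF N) (σ c - c) = (nfEmb E N f - algebraMap Kb (FF N) c) -
          (nfEmb E N f - algebraMap Kb (FF N) (σ c)) := by
        rw [map_sub]; ring
      rw [e]
      exact rat_sub_mem_nonunits _ hc h1
    exact sub_eq_zero.1 (rat_const_eq_zero_of_mem_nonunits P h2)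
  exact ⟨⟨c, hcE⟩, hc⟩

set_option synthInstance.maxHeartbeats 400000 in
/-- the same, with the constant subtracted inside `F_N(E)` -/
theorem RatStable.exists_const' [NeZero N] {E : IntermediateField ℚ Kb} {P : Place Kb (FF N)}
    (hP : RatStable N E P) (f : modularFunctionFieldFullC E N)
    (hf : nfEmb E N f ∈ P.toValuationSubring) :
    ∃ c : E, nfEmb E N (f - algebraMap E (modularFunctionFieldFullC E N) c) ∈
      P.toValuationSubring.nonunits := by
  obtain ⟨c, hc⟩ := hP.exists_const f hf
  refine ⟨c, ?_⟩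
  rw [map_sub, nfEmb_algebraMap]
  exact hc

set_option synthInstance.maxHeartbeats 400000 in
/-- `ord` version (NB `ord 0 = 0` in the prelude, so the constant case is an alternative). -/
theorem RatStable.exists_eq_or_ord_pos [NeZero N] {E : IntermediateField ℚ Kb}
    {P : Place Kb (FF N)} (hP : RatStable N E P) (f : modularFunctionFieldFullC E N)
    (hf : 0 ≤ P.ord (nfEmb E N f)) :
    ∃ c : E, f = algebraMap E (modularFunctionFieldFullC E N) c ∨
      0 < P.ord (nfEmb E N (f - algebraMap E (modularFunctionFieldFullC E N) c)) := by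
  obtain ⟨c, hc⟩ := hP.exists_const' f (PlaceAux.mem_of_ord_nonneg P hf)
  refine ⟨c, ?_⟩
  rcases eq_or_ne (f - algebraMap E (modularFunctionFieldFullC E N) c) 0 with h | h
  · exact Or.inl (sub_eq_zero.1 h)
  · right
    have hne : nfEmb E N (f - algebraMap E (modularFunctionFieldFullC E N) c) ≠ 0 := by
      rw [Ne, map_eq_zero_iff _ (nfEmb_injective E N)]
      exact h
    exact (PlaceAux.ord_pos_iff_mem_nonunits P hne).2 hc

/-- The Galois conjugates of a place which is stable over a field `K₀` normal over `ℚ` are stable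
over `K₀`. -/
theorem RatStable.smul {K₀ : IntermediateField ℚ Kb} [Normal ℚ K₀] {P : Place Kb (FF N)}
    (hP : RatStable N K₀ P) (τ : Kb ≃ₐ[ℚ] Kb) : RatStable N K₀ (ratGal N τ • P) := by
  intro σ hσ
  have : IsAlgClosure ℚ Kb := ⟨inferInstance, AlgebraicClosure.isAlgebraic ℚ⟩
  have : Normal ℚ Kb := IsAlgClosure.normal ℚ Kb
  have hτ : ∀ x ∈ K₀, τ x ∈ K₀ := by
    intro x hx
    have h := IntermediateField.normal_iff_forall_map_le'.1 (inferInstance : Normal ℚ K₀) τ
    exact h ⟨x, hx, rfl⟩
  have hfix : ∀ x ∈ K₀, (τ⁻¹ * σ * τ) x = x := by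
    intro x hx
    show τ⁻¹ (σ (τ x)) = x
    rw [hσ _ (hτ x hx)]
    exact τ.symm_apply_apply x
  have h1 := hP (τ⁻¹ * σ * τ) hfix
  have e : ratGal N σ * ratGal N τ = ratGal N τ * ratGal N (τ⁻¹ * σ * τ) := by
    show arithmeticGalois _ σ * arithmeticGalois _ τ = arithmeticGalois _ τ *
      arithmeticGalois _ (τ⁻¹ * σ * τ)
    rw [← map_mul, ← map_mul]
    congr 1
    group
  rw [← mul_smul, e, mul_smul, h1]

variable (N) in
/-- **D8.**  Finitely many places of `F_N(ℚ̄)` are stable over one number field `K₀`, which can be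
taken Galois over `ℚ` and containing a given number field `E₁`.  By `RatStable.mono` and
`RatStable.exists_const` they are then `E`-rational for every subfield `E ⊇ K₀` of `ℚ̄`, and so are
their Galois conjugates (`RatStable.smul`). -/
theorem rat_exists_stable_finset [NeZero N] (S : Finset (Place Kb (FF N)))
    (E₁ : IntermediateField ℚ Kb) (hE₁ : FiniteDimensional ℚ E₁) :
    ∃ K₀ : IntermediateField ℚ Kb, E₁ ≤ K₀ ∧ FiniteDimensional ℚ K₀ ∧ IsGalois ℚ K₀ ∧
      ∀ P ∈ S, RatStable N K₀ P := by
  classical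
  have : IsAlgClosure ℚ Kb := ⟨inferInstance, AlgebraicClosure.isAlgebraic ℚ⟩
  have : IsGalois ℚ Kb := inferInstance
  -- one number field for all places
  have key : ∃ K₁ : IntermediateField ℚ Kb, E₁ ≤ K₁ ∧ FiniteDimensional ℚ K₁ ∧
      ∀ P ∈ S, RatStable N K₁ P := by
    induction S using Finset.induction_on with
    | empty => exact ⟨E₁, le_rfl, hE₁, fun P hP => absurd hP (Finset.notMem_empty P)⟩
    | insert a S _ ih =>
        obtain ⟨K₁, h1, h2, h3⟩ := ih
        obtain ⟨Ka, ha1, ha2⟩ := rat_exists_stable N a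
        refine ⟨K₁ ⊔ Ka, le_trans h1 le_sup_left, IntermediateField.finiteDimensional_sup K₁ Ka,
          fun P hP => ?_⟩
        rcases Finset.mem_insert.1 hP with rfl | hP
        · exact ha2.mono le_sup_right
        · exact (h3 P hP).mono le_sup_left
  obtain ⟨K₁, h1, h2, h3⟩ := key
  refine ⟨IntermediateField.normalClosure ℚ K₁ Kb,
    le_trans h1 (IntermediateField.le_normalClosure K₁),
    normalClosure.is_finiteDimensional ℚ K₁ Kb, IsGalois.normalClosure ℚ K₁ Kb,
    fun P hP => (h3 P hP).mono (IntermediateField.le_normalClosure K₁)⟩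

end Galois

end Fermat.Agent.UNIP
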