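import Fermat.Agent.UNIP.MGVertInertia

/-!
# UNIP MG-8c (S35 plan STB, field `hΦV` of the modular data): the decomposition group preserves
the vertical valuations  (helper60)

`A` a valuation subring of `ℚ̄`, `K₀ ⊆ ℚ̄` an intermediate field such that `A ∩ K₀`
(`beta0Ring A K₀`) is a discrete valuation ring, level `M q`.  For `φ` in the decomposition group
of `A` (for instance a Frobenius element, its square, its inverse) with `φ K₀ ⊆ K₀`: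

* `mgvfHom K₀ hφ hK : A ∩ K₀ →+* A ∩ K₀`, the restriction of `φ`, a local homomorphism;
* `vt_compat_of_decomp K₀ hφ hK : ∃ κ, VtCompat … (mgRestrict K₀ φ hK) κ` (`κ` = the induced
  endomorphism of the residue field);
* `mgvf_mem_nonunits_iff`, `mgvf_mem_iff`, `mgvf_valuation_eq_one_iff` :
  `mgAct K₀ (M q) φ hK x ∈ 𝔪(V c) ↔ x ∈ 𝔪(V c)`, the same for `V c` and for the units;
* `mgvf_hΦV`, `mgvf_hΦV_symm` : the hypotheses `hΦV`, `hΦV'` of `STB/AbstractT2.lean`,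
  `STB/SmoothTransport.lean` for `Φ = mgaActEquiv K₀ φ (M q) hK` and for `mgAct`;
* `mgvf_hΦV_frob`, `mgvf_hΦV_frob_sq` : the same for a Frobenius element and for its square;
* **valuation form** `mgvf_hgV : v_c (φ f / f) = 1` for `f ≠ 0` (`vt_unif_of_decomp`: `φ` moves the
  uniformizer by a unit; generic `mgvf_valuation_div_eq_one`, `mgvf_unif_of_leftInverse` =
  helper91's lemmas for an arbitrary map `κ` of the residue field), `mgvf_hgV_frob(_sq)`;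
* in the shape of `STB/MainTwo.lean` / `STB/CrossFac.lean`, for `g = mgcGal N σ _`, `g²`, `(g²)⁻¹`
  (`σ` in the decomposition group, `K₀ = mgcE A K₁`): `mgvf_hgV_gal`, `mgvf_hgV_gal_sq`,
  `mgvf_hgV_gal_sq_inv`, `mgvf_hΦV_gal`, `mgvf_hΦV_gal_sq`, `mgvf_hgA_gal`, `mgvf_hgA_gal_inv`,
  `mgvf_hgA_gal_sq`, `mgvf_hgA_gal_sq_inv`, `mgvf_gal_natCast`;
* closure lemmas for any `SemilinearAut`: `mgvf_val_mul`, `mgvf_val_inv`, `mgvf_val_pow`,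
  `mgvf_nonunits_mul`, `mgvf_hgA_mul`.
-/

set_option autoImplicit false
set_option linter.unusedSectionVars false
set_option linter.style.haveILetI false

noncomputable section

namespace Fermat.Agent.UNIP

open ModularCurve AlgebraicCurve Fermat.Agent.ES Fermat.Agent.ES.G2 Fermat.Agent.INJ
open Fermat.Agent.AL

section Generic

variable {A E k : Type*} [CommRing A] [Field E] [Field k]
  {ι : A →+* E} {r : A →+* k} {π : A} {F : Type*} [Field F]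
  (hB : VtBase ι r π) (e : F →+* LaurentSeries E) (hfrac : ∀ x : F, VtFrac ι (e x))

include hB in
/-- the uniformizer is moved by a unit, if the endomorphism has a left inverse of the same
kind (`vt_unif_of_leftInverse` for arbitrary maps `κ`, `κ'` of the residue field) -/
theorem mgvf_unif_of_leftInverse {s s' : E →+* E} {κ κ' : k →+* k}
    (hc : VtCompat ι r ι r s κ) (hc' : VtCompat ι r ι r s' κ') (hinv : ∀ x, s' (s x) = x) :
    ∃ c : A, s (ι π) = ι π * ι c ∧ r c ≠ 0 := by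
  obtain ⟨a, ha, har⟩ := hc π
  rw [hB.rπ, map_zero] at har
  obtain ⟨c, rfl⟩ := hB.ker a har
  refine ⟨c, by rw [← ha, map_mul], fun hrc => ?_⟩
  obtain ⟨c₂, rfl⟩ := hB.ker c hrc
  obtain ⟨b, hb, hbr⟩ := hc' π
  obtain ⟨c₃, hc₃, -⟩ := hc' c₂
  have h1 : ι π = ι (b * (b * c₃)) := by
    have := hinv (ι π)
    rw [← ha, map_mul, map_mul, map_mul, map_mul, ← hb, ← hc₃] at this
    rw [map_mul, map_mul]
    exact this.symm
  have h2 := hB.inj h1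
  rw [hB.rπ, map_zero] at hbr
  obtain ⟨d, rfl⟩ := hB.ker b hbr
  have h3 : ι π * (1 - ι (d * (π * d) * c₃)) = 0 := by
    rw [mul_assoc] at h2
    have := congrArg ι h2
    simp only [map_mul] at this ⊢
    linear_combination this
  rcases mul_eq_zero.mp h3 with h4 | h4
  · exact hB.ιπ_ne h4
  · have h5 : ι (d * (π * d) * c₃) = ι 1 := by
      rw [map_one]
      exact (sub_eq_zero.mp h4).symm
    have h6 := congrArg r (hB.inj h5)
    rw [map_mul, map_mul, map_mul, hB.rπ, map_one] at h6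
    simp at h6

/-- **(V-σ) for the decomposition group**: an endomorphism of the coefficients which preserves
`A` (inducing ANY map `κ` on the residue field) and moves the uniformizer by a unit preserves the
vertical valuation: `v (σ f / f) = 1`. -/
theorem mgvf_valuation_div_eq_one {s : E →+* E} {κ : k →+* k} (hc : VtCompat ι r ι r s κ)
    (hsπ : ∃ c : A, s (ι π) = ι π * ι c ∧ r c ≠ 0)
    (sF : F →+* F) (hsF : ∀ x, e (sF x) = coeffMap s (e x)) {f : F} (hf : f ≠ 0) :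
    (vtSub hB e hfrac).valuation (sF f / f) = 1 := by
  rw [vtSub_valuation_eq_one_iff, map_div₀, hsF]
  obtain ⟨c, hcπ, hrc⟩ := hsπ
  have hef : e f ≠ 0 := (map_ne_zero e).mpr hf
  have hCπ := hB.Cιπ_ne
  have key : ∀ (d : ℕ) (u : LaurentSeries E), VtUnit ι r u →
      VtUnit ι r (coeffMap s (HahnSeries.C (ι π) ^ d * u) / (HahnSeries.C (ι π) ^ d * u)) := by
    intro d u hu
    have hu0 := hu.ne_zero hB.inj
    have h1 : coeffMap s (HahnSeries.C (ι π) ^ d * u) / (HahnSeries.C (ι π) ^ d * u) =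
        HahnSeries.C (ι c) ^ d * (coeffMap s u / u) := by
      rw [map_mul, map_pow, coeffMap_hahnC, hcπ, map_mul, mul_pow, div_eq_iff
        (mul_ne_zero (pow_ne_zero _ hCπ) hu0)]
      have h2 : coeffMap s u / u * u = coeffMap s u := div_mul_cancel₀ _ hu0
      linear_combination (-(HahnSeries.C (ι π) ^ d * HahnSeries.C (ι c) ^ d)) * h2
    rw [h1]
    exact ((vtUnit_C hrc).pow d).mul ((hu.compat hc).div hB.inj hu)
  obtain ⟨d, u, hu, h | h⟩ := vt_exists_pow_mul hB hef (hfrac f)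
  · rw [h]
    exact key d u hu
  · have h2 := (key d u hu).inv hB.inj
    rw [← h, map_inv₀, inv_div_inv, inv_div] at h2
    exact h2

end Generic

section GenericFam

variable {A E k : Type*} [CommRing A] [Field E] [Field k]
  {ι : A →+* E} {r : A →+* k} {π : A} (hB : VtBase ι r π)
  (ιC : E →+* ℂ) {q M : ℕ} [NeZero q] [NeZero M] [NeZero (M * q)]
  (hq : q.Prime) (hqM : ¬ q ∣ M)

/-- (V-σ) for the two vertical valuations of `F_{Mq}(E)` and a compatible endomorphism of the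
base inducing any map on the residue field -/
theorem mgvf_vtFam_valuation_div {s : E →+* E} {κ : k →+* k} (hc : VtCompat ι r ι r s κ)
    (hsπ : ∃ c : A, s (ι π) = ι π * ι c ∧ r c ≠ 0) (c : Bool)
    {f : modularFunctionFieldFullC E (M * q)} (hf : f ≠ 0) :
    (vtFam hB ιC hq hqM c).valuation (mgaCoeffHom s (M * q) f / f) = 1 :=
  mgvf_valuation_div_eq_one hB _ _ hc hsπ (mgaCoeffHom s (M * q))
    (fun y => vtEmbFam_coeffHom ιC hq hqM s ιC c y) hf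

end GenericFam

section Decomp

variable {A : ValuationSubring Qb} (K₀ : IntermediateField ℚ Qb)

/-- the decomposition group maps `A` into `A` -/
theorem mgvf_apply_mem {φ : Qb ≃ₐ[ℚ] Qb} (hφ : φ ∈ A.decompositionSubgroup ℚ) {x : Qb}
    (hx : x ∈ A) : φ x ∈ A :=
  (kronDecompHom φ hφ ⟨x, hx⟩).2

/-- the decomposition group maps the nonunits of `A` into the nonunits -/
theorem mgvf_apply_mem_nonunits {φ : Qb ≃ₐ[ℚ] Qb} (hφ : φ ∈ A.decompositionSubgroup ℚ) {x : Qb}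
    (hx : x ∈ A.nonunits) : φ x ∈ A.nonunits := by
  rw [vt_mem_nonunits_iff] at hx ⊢
  rcases hx with rfl | hx
  · exact Or.inl (map_zero φ)
  · right
    intro h
    apply hx
    have h' := mgvf_apply_mem (kron_symm_mem_decomposition hφ) h
    rwa [← map_inv₀, AlgEquiv.symm_apply_apply] at h'

/-- the restriction of `φ` to `A ∩ K₀` -/
def mgvfHom {φ : Qb ≃ₐ[ℚ] Qb} (hφ : φ ∈ A.decompositionSubgroup ℚ)
    (hK : ∀ x ∈ K₀, φ x ∈ K₀) : ↥(beta0Ring A K₀) →+* ↥(beta0Ring A K₀) where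
  toFun a := ⟨mgRestrict K₀ φ hK (a : ↥K₀), mgvf_apply_mem hφ a.2⟩
  map_one' := Subtype.ext (map_one (mgRestrict K₀ φ hK))
  map_mul' a b := Subtype.ext (map_mul (mgRestrict K₀ φ hK) (a : ↥K₀) (b : ↥K₀))
  map_zero' := Subtype.ext (map_zero (mgRestrict K₀ φ hK))
  map_add' a b := Subtype.ext (map_add (mgRestrict K₀ φ hK) (a : ↥K₀) (b : ↥K₀))

theorem mgvfHom_coe {φ : Qb ≃ₐ[ℚ] Qb} (hφ : φ ∈ A.decompositionSubgroup ℚ)
    (hK : ∀ x ∈ K₀, φ x ∈ K₀) (a : ↥(beta0Ring A K₀)) :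
    ((mgvfHom K₀ hφ hK a : ↥(beta0Ring A K₀)) : ↥K₀) = mgRestrict K₀ φ hK (a : ↥K₀) := rfl

theorem mgvfHom_isLocalHom {φ : Qb ≃ₐ[ℚ] Qb} (hφ : φ ∈ A.decompositionSubgroup ℚ)
    (hK : ∀ x ∈ K₀, φ x ∈ K₀) : IsLocalHom (mgvfHom K₀ hφ hK) := by
  refine ⟨fun a ha => ?_⟩
  by_contra hna
  have h1 : a ∈ IsLocalRing.maximalIdeal ↥(beta0Ring A K₀) :=
    (IsLocalRing.mem_maximalIdeal a).mpr hna
  rw [beta0Ring_mem_maximalIdeal_iff] at h1
  have h2 : mgvfHom K₀ hφ hK a ∈ IsLocalRing.maximalIdeal ↥(beta0Ring A K₀) := by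
    rw [beta0Ring_mem_maximalIdeal_iff]
    exact mgvf_apply_mem_nonunits hφ h1
  exact (IsLocalRing.mem_maximalIdeal _).mp h2 ha

/-- **The decomposition group acts on the base compatibly with the residue field**: for `φ` in
the decomposition group of `A` and `K₀` stable under `φ`, the restriction of `φ` to `K₀`
preserves `A ∩ K₀` and induces an endomorphism `κ` of its residue field. -/
theorem vt_compat_of_decomp {φ : Qb ≃ₐ[ℚ] Qb} (hφ : φ ∈ A.decompositionSubgroup ℚ)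
    (hK : ∀ x ∈ K₀, φ x ∈ K₀) :
    ∃ κ : IsLocalRing.ResidueField ↥(beta0Ring A K₀) →+*
        IsLocalRing.ResidueField ↥(beta0Ring A K₀),
      VtCompat (algebraMap ↥(beta0Ring A K₀) ↥K₀) (IsLocalRing.residue ↥(beta0Ring A K₀))
        (algebraMap ↥(beta0Ring A K₀) ↥K₀) (IsLocalRing.residue ↥(beta0Ring A K₀))
        (mgRestrict K₀ φ hK) κ := by
  haveI : IsLocalHom (mgvfHom K₀ hφ hK) := mgvfHom_isLocalHom K₀ hφ hK
  refine ⟨IsLocalRing.ResidueField.map (mgvfHom K₀ hφ hK), fun a => ?_⟩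
  exact ⟨mgvfHom K₀ hφ hK a, rfl, rfl⟩

/-- **The decomposition group moves the uniformizer by a unit.** -/
theorem vt_unif_of_decomp [IsDiscreteValuationRing ↥(beta0Ring A K₀)]
    {π : ↥(beta0Ring A K₀)} (hπ : Irreducible π)
    {φ : Qb ≃ₐ[ℚ] Qb} (hφ : φ ∈ A.decompositionSubgroup ℚ) (hK : ∀ x ∈ K₀, φ x ∈ K₀) :
    ∃ c : ↥(beta0Ring A K₀),
      mgRestrict K₀ φ hK (algebraMap ↥(beta0Ring A K₀) ↥K₀ π) =
        algebraMap ↥(beta0Ring A K₀) ↥K₀ π * algebraMap ↥(beta0Ring A K₀) ↥K₀ c ∧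
      IsLocalRing.residue ↥(beta0Ring A K₀) c ≠ 0 := by
  obtain ⟨κ, hκ⟩ := vt_compat_of_decomp K₀ hφ hK
  obtain ⟨κ', hκ'⟩ := vt_compat_of_decomp K₀ (kron_symm_mem_decomposition hφ)
    (mga_stable_symm K₀ φ hK)
  exact mgvf_unif_of_leftInverse (vtBase_residue hπ) hκ hκ'
    (fun x => Subtype.ext (φ.symm_apply_apply _))

end Decomp

section Concrete

variable {A : ValuationSubring Qb} {K₀ : IntermediateField ℚ Qb}
  [IsDiscreteValuationRing ↥(beta0Ring A K₀)] {π : ↥(beta0Ring A K₀)} (hπ : Irreducible π)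
  (ιC : ↥K₀ →+* ℂ) {q M : ℕ} [NeZero q] [NeZero M] [NeZero (M * q)]
  (hq : q.Prime) (hqM : ¬ q ∣ M)

/-- the decomposition group preserves `𝔪(V c)` (both directions) -/
theorem mgvf_mem_nonunits_iff {φ : Qb ≃ₐ[ℚ] Qb} (hφ : φ ∈ A.decompositionSubgroup ℚ)
    (hK : ∀ x ∈ K₀, φ x ∈ K₀) (c : Bool) (x : ↥(modularFunctionFieldFullC ↥K₀ (M * q))) :
    mgAct K₀ (M * q) φ hK x ∈ (mgvV hπ ιC hq hqM c).nonunits ↔
      x ∈ (mgvV hπ ιC hq hqM c).nonunits := by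
  obtain ⟨κ, hκ⟩ := vt_compat_of_decomp K₀ hφ hK
  exact vtFam_baseChange_mem_nonunits_iff (vtBase_residue hπ) (vtBase_residue hπ) ιC ιC hq hqM
    hκ c x

/-- the decomposition group preserves `V c` (both directions) -/
theorem mgvf_mem_iff {φ : Qb ≃ₐ[ℚ] Qb} (hφ : φ ∈ A.decompositionSubgroup ℚ)
    (hK : ∀ x ∈ K₀, φ x ∈ K₀) (c : Bool) (x : ↥(modularFunctionFieldFullC ↥K₀ (M * q))) :
    mgAct K₀ (M * q) φ hK x ∈ mgvV hπ ιC hq hqM c ↔ x ∈ mgvV hπ ιC hq hqM c := by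
  obtain ⟨κ, hκ⟩ := vt_compat_of_decomp K₀ hφ hK
  rw [← ValuationSubring.mem_comap]
  have h := vtFam_comap_baseChange (vtBase_residue hπ) (vtBase_residue hπ) ιC ιC hq hqM hκ c
  have h' : (mgvV hπ ιC hq hqM c).comap (mgAct K₀ (M * q) φ hK) = mgvV hπ ιC hq hqM c := h
  rw [h']

/-- **`hgV`, valuation form**: `v_c (φ f / f) = 1` for `φ` in the decomposition group, `f ≠ 0` -/
theorem mgvf_hgV {φ : Qb ≃ₐ[ℚ] Qb} (hφ : φ ∈ A.decompositionSubgroup ℚ)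
    (hK : ∀ x ∈ K₀, φ x ∈ K₀) (c : Bool)
    (f : ↥(modularFunctionFieldFullC ↥K₀ (M * q))) (hf : f ≠ 0) :
    (mgvV hπ ιC hq hqM c).valuation (mgAct K₀ (M * q) φ hK f / f) = 1 := by
  obtain ⟨κ, hκ⟩ := vt_compat_of_decomp K₀ hφ hK
  exact mgvf_vtFam_valuation_div (vtBase_residue hπ) ιC hq hqM hκ
    (vt_unif_of_decomp K₀ hπ hφ hK) c hf

/-- **`hgV` for a Frobenius element** -/
theorem mgvf_hgV_frob {φ : Qb ≃ₐ[ℚ] Qb} {ℓ : ℕ} (hφ : A.IsFrobeniusAt φ ℓ)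
    (hK : ∀ x ∈ K₀, φ x ∈ K₀) (c : Bool)
    (f : ↥(modularFunctionFieldFullC ↥K₀ (M * q))) (hf : f ≠ 0) :
    (mgvV hπ ιC hq hqM c).valuation (mgAct K₀ (M * q) φ hK f / f) = 1 :=
  mgvf_hgV hπ ιC hq hqM hφ.mem_decompositionSubgroup hK c f hf

/-- **`hgV` for the square of a Frobenius element** (`Φ = φ²`), composite form -/
theorem mgvf_hgV_frob_sq {φ : Qb ≃ₐ[ℚ] Qb} {ℓ : ℕ} (hφ : A.IsFrobeniusAt φ ℓ)
    (hK : ∀ x ∈ K₀, φ x ∈ K₀) (c : Bool)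
    (f : ↥(modularFunctionFieldFullC ↥K₀ (M * q))) (hf : f ≠ 0) :
    (mgvV hπ ιC hq hqM c).valuation
      (mgAct K₀ (M * q) φ hK (mgAct K₀ (M * q) φ hK f) / f) = 1 := by
  have hφf : mgAct K₀ (M * q) φ hK f ≠ 0 :=
    (map_ne_zero_iff _ (mga_act_bijective K₀ φ (M * q) hK).1).mpr hf
  have h1 := mgvf_hgV_frob hπ ιC hq hqM hφ hK c _ hφf
  have h2 := mgvf_hgV_frob hπ ιC hq hqM hφ hK c f hf
  have e : mgAct K₀ (M * q) φ hK (mgAct K₀ (M * q) φ hK f) / f =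
      (mgAct K₀ (M * q) φ hK (mgAct K₀ (M * q) φ hK f) / mgAct K₀ (M * q) φ hK f) *
        (mgAct K₀ (M * q) φ hK f / f) := by
    field_simp
  rw [e, map_mul, h1, h2, one_mul]

/-- **`hΦV`** for an element of the decomposition group -/
theorem mgvf_hΦV {φ : Qb ≃ₐ[ℚ] Qb} (hφ : φ ∈ A.decompositionSubgroup ℚ)
    (hK : ∀ x ∈ K₀, φ x ∈ K₀) :
    ∀ c : Bool, ∀ x ∈ (mgvV hπ ιC hq hqM c).nonunits,
      mgAct K₀ (M * q) φ hK x ∈ (mgvV hπ ιC hq hqM c).nonunits :=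
  fun c x hx => (mgvf_mem_nonunits_iff hπ ιC hq hqM hφ hK c x).mpr hx

/-- **`hΦV`** in the form for the ring automorphism `mgaActEquiv` -/
theorem mgvf_hΦV_equiv {φ : Qb ≃ₐ[ℚ] Qb} (hφ : φ ∈ A.decompositionSubgroup ℚ)
    (hK : ∀ x ∈ K₀, φ x ∈ K₀) :
    ∀ c : Bool, ∀ x ∈ (mgvV hπ ιC hq hqM c).nonunits,
      mgaActEquiv K₀ φ (M * q) hK x ∈ (mgvV hπ ιC hq hqM c).nonunits :=
  mgvf_hΦV hπ ιC hq hqM hφ hK

/-- **`hΦV'`**: the inverse of the ring automorphism `mgaActEquiv` -/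
theorem mgvf_hΦV_symm {φ : Qb ≃ₐ[ℚ] Qb} (hφ : φ ∈ A.decompositionSubgroup ℚ)
    (hK : ∀ x ∈ K₀, φ x ∈ K₀) :
    ∀ c : Bool, ∀ x ∈ (mgvV hπ ιC hq hqM c).nonunits,
      (mgaActEquiv K₀ φ (M * q) hK).symm x ∈ (mgvV hπ ιC hq hqM c).nonunits := by
  intro c x hx
  rw [← mgvf_mem_nonunits_iff hπ ιC hq hqM hφ hK c, ← mgaActEquiv_apply,
    RingEquiv.apply_symm_apply]
  exact hx

/-- `V c` is stable under the decomposition group -/
theorem mgvf_act_mem {φ : Qb ≃ₐ[ℚ] Qb} (hφ : φ ∈ A.decompositionSubgroup ℚ)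
    (hK : ∀ x ∈ K₀, φ x ∈ K₀) (c : Bool) (x : ↥(modularFunctionFieldFullC ↥K₀ (M * q)))
    (hx : x ∈ mgvV hπ ιC hq hqM c) : mgAct K₀ (M * q) φ hK x ∈ mgvV hπ ιC hq hqM c :=
  (mgvf_mem_iff hπ ιC hq hqM hφ hK c x).mpr hx

/-- the decomposition group preserves the valuation `1` -/
theorem mgvf_valuation_eq_one_iff {φ : Qb ≃ₐ[ℚ] Qb} (hφ : φ ∈ A.decompositionSubgroup ℚ)
    (hK : ∀ x ∈ K₀, φ x ∈ K₀) (c : Bool) (x : ↥(modularFunctionFieldFullC ↥K₀ (M * q))) :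
    (mgvV hπ ιC hq hqM c).valuation (mgAct K₀ (M * q) φ hK x) = 1 ↔
      (mgvV hπ ιC hq hqM c).valuation x = 1 := by
  rw [vt_valuation_eq_one_iff, vt_valuation_eq_one_iff, ← map_inv₀,
    mgvf_mem_iff hπ ιC hq hqM hφ hK c, mgvf_mem_iff hπ ιC hq hqM hφ hK c,
    map_ne_zero_iff _ (mga_act_bijective K₀ φ (M * q) hK).1]

/-- **`hΦV` for a Frobenius element** `φ` at `A` -/
theorem mgvf_hΦV_frob {φ : Qb ≃ₐ[ℚ] Qb} {ℓ : ℕ} (hφ : A.IsFrobeniusAt φ ℓ)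
    (hK : ∀ x ∈ K₀, φ x ∈ K₀) :
    ∀ c : Bool, ∀ x ∈ (mgvV hπ ιC hq hqM c).nonunits,
      mgAct K₀ (M * q) φ hK x ∈ (mgvV hπ ιC hq hqM c).nonunits :=
  mgvf_hΦV hπ ιC hq hqM hφ.mem_decompositionSubgroup hK

/-- **`hΦV` for the square of a Frobenius element**, as the composite `mgAct φ ∘ mgAct φ` -/
theorem mgvf_hΦV_frob_sq {φ : Qb ≃ₐ[ℚ] Qb} {ℓ : ℕ} (hφ : A.IsFrobeniusAt φ ℓ)
    (hK : ∀ x ∈ K₀, φ x ∈ K₀) :
    ∀ c : Bool, ∀ x ∈ (mgvV hπ ιC hq hqM c).nonunits,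
      mgAct K₀ (M * q) φ hK (mgAct K₀ (M * q) φ hK x) ∈ (mgvV hπ ιC hq hqM c).nonunits :=
  fun c x hx => mgvf_hΦV_frob hπ ιC hq hqM hφ hK c _ (mgvf_hΦV_frob hπ ιC hq hqM hφ hK c x hx)

end Concrete

section Closure

variable {E F : Type*} [Field E] [Field F] [Algebra E F] (V : ValuationSubring F)

/-- the property `hgV` is stable under products -/
theorem mgvf_val_mul {g h : SemilinearAut E F}
    (hg : ∀ f : F, f ≠ 0 → V.valuation (g • f / f) = 1)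
    (hh : ∀ f : F, f ≠ 0 → V.valuation (h • f / f) = 1) :
    ∀ f : F, f ≠ 0 → V.valuation ((g * h) • f / f) = 1 := by
  intro f hf
  have hhf : h • f ≠ 0 := by simpa using hf
  have e : (g * h) • f / f = (g • (h • f) / (h • f)) * (h • f / f) := by
    rw [mul_smul]
    field_simp
  rw [e, map_mul, hg _ hhf, hh f hf, one_mul]

/-- the property `hgV` is stable under inverses -/
theorem mgvf_val_inv {g : SemilinearAut E F}
    (hg : ∀ f : F, f ≠ 0 → V.valuation (g • f / f) = 1) :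
    ∀ f : F, f ≠ 0 → V.valuation (g⁻¹ • f / f) = 1 := by
  intro f hf
  have h1 : g⁻¹ • f ≠ 0 := by simpa using hf
  have h2 := hg (g⁻¹ • f) h1
  rw [smul_inv_smul] at h2
  rw [← inv_div, map_inv₀, h2, inv_one]

/-- the property `hgV` is stable under powers -/
theorem mgvf_val_pow {g : SemilinearAut E F}
    (hg : ∀ f : F, f ≠ 0 → V.valuation (g • f / f) = 1) (n : ℕ) :
    ∀ f : F, f ≠ 0 → V.valuation ((g ^ n) • f / f) = 1 := by
  induction n with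
  | zero =>
      intro f hf
      rw [pow_zero, one_smul, div_self hf, map_one]
  | succ n ih =>
      rw [pow_succ]
      exact mgvf_val_mul V ih hg

/-- the property `hΦV` (nonunits are mapped to nonunits) is stable under products -/
theorem mgvf_nonunits_mul {g h : SemilinearAut E F}
    (hg : ∀ x ∈ V.nonunits, g • x ∈ V.nonunits) (hh : ∀ x ∈ V.nonunits, h • x ∈ V.nonunits) :
    ∀ x ∈ V.nonunits, (g * h) • x ∈ V.nonunits := by
  intro x hx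
  rw [mul_smul]
  exact hg _ (hh x hx)

variable {A₀ : Type*} [CommRing A₀] [Algebra A₀ F]

/-- the property `hgA` is stable under products -/
theorem mgvf_hgA_mul {g h : SemilinearAut E F}
    (hg : ∀ α : A₀, ∃ α' : A₀, g • algebraMap A₀ F α = algebraMap A₀ F α')
    (hh : ∀ α : A₀, ∃ α' : A₀, h • algebraMap A₀ F α = algebraMap A₀ F α') :
    ∀ α : A₀, ∃ α' : A₀, (g * h) • algebraMap A₀ F α = algebraMap A₀ F α' := by
  intro α
  obtain ⟨β, hβ⟩ := hh α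
  obtain ⟨γ, hγ⟩ := hg β
  exact ⟨γ, by rw [mul_smul, hβ, hγ]⟩

end Closure

section ConcreteGal

variable {A : ValuationSubring Qb} {K₁ : IntermediateField ℚ Qb}
  [IsDiscreteValuationRing ↥(mgcA A K₁)] {π : ↥(mgcA A K₁)} (hπ : Irreducible π)
  (ιC : ↥(mgcE A K₁) →+* ℂ) {q M : ℕ} [NeZero q] [NeZero M] [NeZero (M * q)]
  (hq : q.Prime) (hqM : ¬ q ∣ M)

/-- **`hgV`** for `g = mgcGal (M q) σ _`, `σ` in the decomposition group of `A` -/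
theorem mgvf_hgV_gal {σ : Qb ≃ₐ[ℚ] Qb} (hσ : σ ∈ A.decompositionSubgroup ℚ)
    (hσE : ∀ x ∈ mgcE A K₁, σ x ∈ mgcE A K₁) :
    ∀ c (f : ↥(mgcF A K₁ (M * q))), f ≠ 0 →
      (mgvV hπ ιC hq hqM c).valuation (mgcGal (M * q) σ hσE • f / f) = 1 :=
  fun c f hf => mgvf_hgV hπ ιC hq hqM hσ hσE c f hf

/-- **`hgV`** for `g = (mgcGal (M q) φ _)²` -/
theorem mgvf_hgV_gal_sq {σ : Qb ≃ₐ[ℚ] Qb} (hσ : σ ∈ A.decompositionSubgroup ℚ)
    (hσE : ∀ x ∈ mgcE A K₁, σ x ∈ mgcE A K₁) :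
    ∀ c (f : ↥(mgcF A K₁ (M * q))), f ≠ 0 →
      (mgvV hπ ιC hq hqM c).valuation ((mgcGal (M * q) σ hσE ^ 2) • f / f) = 1 :=
  fun c => mgvf_val_pow _ (mgvf_hgV_gal hπ ιC hq hqM hσ hσE c) 2

/-- **`hgV`** for `g = ((mgcGal (M q) φ _)²)⁻¹` -/
theorem mgvf_hgV_gal_sq_inv {σ : Qb ≃ₐ[ℚ] Qb} (hσ : σ ∈ A.decompositionSubgroup ℚ)
    (hσE : ∀ x ∈ mgcE A K₁, σ x ∈ mgcE A K₁) :
    ∀ c (f : ↥(mgcF A K₁ (M * q))), f ≠ 0 →
      (mgvV hπ ιC hq hqM c).valuation ((mgcGal (M * q) σ hσE ^ 2)⁻¹ • f / f) = 1 :=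
  fun c => mgvf_val_inv _ (mgvf_hgV_gal_sq hπ ιC hq hqM hσ hσE c)

/-- **`hΦV`** for `g = mgcGal (M q) σ _` -/
theorem mgvf_hΦV_gal {σ : Qb ≃ₐ[ℚ] Qb} (hσ : σ ∈ A.decompositionSubgroup ℚ)
    (hσE : ∀ x ∈ mgcE A K₁, σ x ∈ mgcE A K₁) :
    ∀ c, ∀ x ∈ (mgvV hπ ιC hq hqM c).nonunits,
      mgcGal (M * q) σ hσE • x ∈ (mgvV hπ ιC hq hqM c).nonunits :=
  mgvf_hΦV hπ ιC hq hqM hσ hσE

/-- **`hΦV`** for `g = (mgcGal (M q) σ _)²` -/
theorem mgvf_hΦV_gal_sq {σ : Qb ≃ₐ[ℚ] Qb} (hσ : σ ∈ A.decompositionSubgroup ℚ)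
    (hσE : ∀ x ∈ mgcE A K₁, σ x ∈ mgcE A K₁) :
    ∀ c, ∀ x ∈ (mgvV hπ ιC hq hqM c).nonunits,
      (mgcGal (M * q) σ hσE ^ 2) • x ∈ (mgvV hπ ιC hq hqM c).nonunits := by
  intro c
  rw [pow_two]
  exact mgvf_nonunits_mul _ (mgvf_hΦV_gal hπ ιC hq hqM hσ hσE c)
    (mgvf_hΦV_gal hπ ιC hq hqM hσ hσE c)

omit [IsDiscreteValuationRing ↥(mgcA A K₁)] [NeZero q] [NeZero M] [NeZero (M * q)] in
/-- **`hgA`** for `g = mgcGal N σ _`: the decomposition group preserves the constants `A′` -/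
theorem mgvf_hgA_gal (N : ℕ) {σ : Qb ≃ₐ[ℚ] Qb} (hσ : σ ∈ A.decompositionSubgroup ℚ)
    (hσE : ∀ x ∈ mgcE A K₁, σ x ∈ mgcE A K₁) :
    ∀ α : ↥(mgcA A K₁), ∃ α' : ↥(mgcA A K₁),
      mgcGal N σ hσE • algebraMap ↥(mgcA A K₁) ↥(mgcF A K₁ N) α =
        algebraMap ↥(mgcA A K₁) ↥(mgcF A K₁ N) α' := by
  intro α
  refine ⟨mgvfHom (mgcE A K₁) hσ hσE α, ?_⟩
  exact mgAct_algebraMap (mgcE A K₁) N σ hσE (α : ↥(mgcE A K₁))

omit [IsDiscreteValuationRing ↥(mgcA A K₁)] [NeZero q] [NeZero M] [NeZero (M * q)] in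
/-- **`hgA'`** for `g = mgcGal N σ _` -/
theorem mgvf_hgA_gal_inv (N : ℕ) {σ : Qb ≃ₐ[ℚ] Qb} (hσ : σ ∈ A.decompositionSubgroup ℚ)
    (hσE : ∀ x ∈ mgcE A K₁, σ x ∈ mgcE A K₁) :
    ∀ α : ↥(mgcA A K₁), ∃ α' : ↥(mgcA A K₁),
      (mgcGal N σ hσE)⁻¹ • algebraMap ↥(mgcA A K₁) ↥(mgcF A K₁ N) α =
        algebraMap ↥(mgcA A K₁) ↥(mgcF A K₁ N) α' := by
  intro α
  have hσ' : σ.symm ∈ A.decompositionSubgroup ℚ := kron_symm_mem_decomposition hσ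
  have hσE' : ∀ x ∈ mgcE A K₁, σ.symm x ∈ mgcE A K₁ := mga_stable_symm (mgcE A K₁) σ hσE
  refine ⟨mgvfHom (mgcE A K₁) hσ' hσE' α, ?_⟩
  rw [inv_smul_eq_iff]
  have h := mgAct_algebraMap (mgcE A K₁) N σ hσE
    ((mgvfHom (mgcE A K₁) hσ' hσE' α : ↥(mgcA A K₁)) : ↥(mgcE A K₁))
  have e : mgRestrict (mgcE A K₁) σ hσE
      ((mgvfHom (mgcE A K₁) hσ' hσE' α : ↥(mgcA A K₁)) : ↥(mgcE A K₁)) =
        (α : ↥(mgcE A K₁)) := Subtype.ext (σ.apply_symm_apply _)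
  rw [e] at h
  exact h.symm

omit [IsDiscreteValuationRing ↥(mgcA A K₁)] [NeZero q] [NeZero M] [NeZero (M * q)] in
/-- **`hgA`** for `g = (mgcGal N σ _)²` -/
theorem mgvf_hgA_gal_sq (N : ℕ) {σ : Qb ≃ₐ[ℚ] Qb} (hσ : σ ∈ A.decompositionSubgroup ℚ)
    (hσE : ∀ x ∈ mgcE A K₁, σ x ∈ mgcE A K₁) :
    ∀ α : ↥(mgcA A K₁), ∃ α' : ↥(mgcA A K₁),
      (mgcGal N σ hσE ^ 2) • algebraMap ↥(mgcA A K₁) ↥(mgcF A K₁ N) α =
        algebraMap ↥(mgcA A K₁) ↥(mgcF A K₁ N) α' := by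
  rw [pow_two]
  exact mgvf_hgA_mul (mgvf_hgA_gal N hσ hσE) (mgvf_hgA_gal N hσ hσE)

omit [IsDiscreteValuationRing ↥(mgcA A K₁)] [NeZero q] [NeZero M] [NeZero (M * q)] in
/-- **`hgA'`** for `g = (mgcGal N σ _)²` -/
theorem mgvf_hgA_gal_sq_inv (N : ℕ) {σ : Qb ≃ₐ[ℚ] Qb} (hσ : σ ∈ A.decompositionSubgroup ℚ)
    (hσE : ∀ x ∈ mgcE A K₁, σ x ∈ mgcE A K₁) :
    ∀ α : ↥(mgcA A K₁), ∃ α' : ↥(mgcA A K₁),
      (mgcGal N σ hσE ^ 2)⁻¹ • algebraMap ↥(mgcA A K₁) ↥(mgcF A K₁ N) α =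
        algebraMap ↥(mgcA A K₁) ↥(mgcF A K₁ N) α' := by
  have e : (mgcGal (A := A) (K₁ := K₁) N σ hσE ^ 2)⁻¹ =
      (mgcGal N σ hσE)⁻¹ * (mgcGal N σ hσE)⁻¹ := by
    rw [pow_two, mul_inv_rev]
  rw [e]
  exact mgvf_hgA_mul (mgvf_hgA_gal_inv N hσ hσE) (mgvf_hgA_gal_inv N hσ hσE)

omit [IsDiscreteValuationRing ↥(mgcA A K₁)] [NeZero q] [NeZero M] [NeZero (M * q)] in
/-- a constant of `ℚ` (for instance the prime `q`) is fixed by `mgcGal N σ _` -/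
theorem mgvf_gal_natCast (N : ℕ) (σ : Qb ≃ₐ[ℚ] Qb)
    (hσE : ∀ x ∈ mgcE A K₁, σ x ∈ mgcE A K₁) (n : ℕ) :
    mgcGal N σ hσE • ((n : ↥(mgcF A K₁ N))) = (n : ↥(mgcF A K₁ N)) :=
  map_natCast (SemilinearAut.toRingAut (mgcGal N σ hσE)) n

end ConcreteGal

end Fermat.Agent.UNIP
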