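import Fermat.Agent.UNIP.Rational
import Fermat.Agent.UNIP.MGPlaces

/-!
# UNIP D8, form for the modular glue: the places in the support of `div u` are rational

`rat_exists_field_rational` : for `u ∈ F_N(ℚ̄)^×` there is a number field `K₀` (Galois over `ℚ`,
containing a given number field) such that for every subfield `E ⊇ K₀` of `ℚ̄` and every place `Q`
of `F_N(E) / E` some Galois translate of which lies in the support of `div u₀` (`u₀ ∈ F_N(E)` a model
of `u`), the residue field of `Q` is `E` — in the shape of the field `rational` of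
`UnipTubePoint` (UNIP/TubeOrd.lean).
-/

set_option autoImplicit false

noncomputable section

namespace Fermat.Agent.UNIP

open AlgebraicCurve ModularCurve Fermat.Agent.S24 Fermat.Agent.INJ

variable {N : ℕ}

set_option synthInstance.maxHeartbeats 400000 in
/-- If `P` is stable over `E`, its restriction `Q` to `F_N(E)` has residue field `E`. -/
theorem RatStable.rational_restrict [NeZero N] {E : IntermediateField ℚ Kb}
    {P : Place Kb (FF N)} (hP : RatStable N E P)
    (Q : Place E (modularFunctionFieldFullC E N))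
    (hQ : ∀ y : modularFunctionFieldFullC E N, P.ord (nfEmb E N y) = Q.ord y)
    (f : modularFunctionFieldFullC E N) (hf : f ∈ Q.toValuationSubring) :
    ∃ c : E, f - algebraMap E (modularFunctionFieldFullC E N) c ∈
      Q.toValuationSubring.nonunits := by
  have hzero : (0 : modularFunctionFieldFullC E N) ∈ Q.toValuationSubring.nonunits :=
    (ValuationSubring.mem_nonunits_iff _).2 (by simp)
  rcases eq_or_ne f 0 with rfl | hf0
  · exact ⟨0, by rw [map_zero, sub_zero]; exact hzero⟩
  have h1 : 0 ≤ P.ord (nfEmb E N f) := by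
    rw [hQ]
    exact (PlaceAux.ord_nonneg_iff Q hf0).2 hf
  obtain ⟨c, hc⟩ := hP.exists_const' f (PlaceAux.mem_of_ord_nonneg P h1)
  refine ⟨c, ?_⟩
  rcases eq_or_ne (f - algebraMap E (modularFunctionFieldFullC E N) c) 0 with h | h
  · rw [h]
    exact hzero
  · have hne : nfEmb E N (f - algebraMap E (modularFunctionFieldFullC E N) c) ≠ 0 := by
      rw [Ne, map_eq_zero_iff _ (nfEmb_injective E N)]
      exact h
    have h2 := (PlaceAux.ord_pos_iff_mem_nonunits P hne).2 hc
    rw [hQ] at h2
    exact (PlaceAux.ord_pos_iff_mem_nonunits Q h).1 h2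

variable (N) in
/-- All places in the Galois orbit of the support of `div u` are stable over one number field. -/
theorem rat_exists_stable_supp [NeZero N] (u : FF N) (hu : u ≠ 0)
    (E₁ : IntermediateField ℚ Kb) (hE₁ : FiniteDimensional ℚ E₁) :
    ∃ K₀ : IntermediateField ℚ Kb, E₁ ≤ K₀ ∧ FiniteDimensional ℚ K₀ ∧ IsGalois ℚ K₀ ∧
      ∀ (P : Place Kb (FF N)) (τ : Kb ≃ₐ[ℚ] Kb), (ratGal N τ • P).ord u ≠ 0 →
        RatStable N K₀ P := by
  have := Fermat.Agent.ES.H.hasPrincipalDivisors_FF N
  obtain ⟨D, hD, -⟩ := HasPrincipalDivisors.exists_divisor (K := Kb) u hu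
  obtain ⟨K₀, h1, h2, h3, h4⟩ := rat_exists_stable_finset N D.support E₁ hE₁
  refine ⟨K₀, h1, h2, h3, fun P τ hτ => ?_⟩
  have hmem : ratGal N τ • P ∈ D.support := by
    rw [Finsupp.mem_support_iff, hD]
    exact hτ
  have h5 := (h4 _ hmem).smul τ⁻¹
  have e : ratGal N τ⁻¹ • ratGal N τ • P = P := by
    rw [← mul_smul]
    show (arithmeticGalois _ τ⁻¹ * arithmeticGalois _ τ) • P = P
    rw [← map_mul, inv_mul_cancel, map_one, one_smul]
  rwa [e] at h5

variable (N) in
/-- **D8, form for MG.**  The places of `F_N(E)` in the Galois orbit of the support of `div u₀`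
have residue field `E`, for every subfield `E ⊆ ℚ̄` containing a suitable number field `K₀`. -/
theorem rat_exists_field_rational [NeZero N] (u : FF N) (hu : u ≠ 0)
    (E₁ : IntermediateField ℚ Kb) (hE₁ : FiniteDimensional ℚ E₁) :
    ∃ K₀ : IntermediateField ℚ Kb, E₁ ≤ K₀ ∧ FiniteDimensional ℚ K₀ ∧ IsGalois ℚ K₀ ∧
      ∀ E : IntermediateField ℚ Kb, K₀ ≤ E →
        ∀ u₀ : modularFunctionFieldFullC E N, nfEmb E N u₀ = u →
          ∀ (Q : Place E (modularFunctionFieldFullC E N)) (s : E ≃+* E) (σ : Kb ≃ₐ[ℚ] Kb),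
            (∀ a : E, σ (a : Kb) = ((s a : E) : Kb)) → (mgGal N s • Q).ord u₀ ≠ 0 →
              ∀ f ∈ Q.toValuationSubring, ∃ c : E,
                f - algebraMap E (modularFunctionFieldFullC E N) c ∈
                  Q.toValuationSubring.nonunits := by
  obtain ⟨K₀, h1, h2, h3, h4⟩ := rat_exists_stable_supp N u hu E₁ hE₁
  refine ⟨K₀, h1, h2, h3, fun E hE u₀ hu₀ Q s σ hσ hQ f hf => ?_⟩
  obtain ⟨P, hP⟩ := mg_place_extend E N Q
  have h5 : (ratGal N σ • P).ord u ≠ 0 := by
    rw [← hu₀]
    have := mg_restrict_smul E N σ s hσ P Q hP u₀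
    rw [show ratGal N σ = arithmeticGalois (modularFunctionFieldFull N) σ from rfl, this]
    exact hQ
  exact ((h4 P σ h5).mono hE).rational_restrict Q hP f hf

end Fermat.Agent.UNIP
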