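import Fermat.Agent.UNIP.MGMain
import Fermat.Agent.UNIP.RationalSupp

/-!
# UNIP MG-5, part 3 (G6): `StmtUnipFieldPP` from the special-fibre data

* `MgcRat A K₁ N u₀` : the places in the Galois orbit of the support of `div u₀` are rational
  (conclusion of D8, `rat_exists_field_rational`).
* `MgcData A K₁ N σ τ hσ hτ` : the special-fibre inputs of `mgc_main` at `(A, K₁, σ, τ)`:
  a uniformizer `π` of `A′`, the two vertical valuation rings `V true`, `V false` of `F′` with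
  the hypotheses of `at_main_two` (MG-8), the triviality of `σ`, `τ` on the charts modulo `π`
  (G3), and the coordinates (G5) for every `u₀` with rational support.
* `stmtUnipFieldPP_of_data` : `MgcData` at every `(A, K₁, σ, τ)` ⇒ `StmtUnipFieldPP N q`.
-/

set_option autoImplicit false
set_option linter.style.haveILetI false
set_option linter.unusedSectionVars false
set_option linter.unusedVariables false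

noncomputable section

namespace Fermat.Agent.UNIP

open ModularCurve AlgebraicCurve Fermat.Agent.ES Fermat.Agent.ES.G2 Fermat.Agent.INJ
open IntermediateField

section Data

variable (A : ValuationSubring Qb) (K₁ : IntermediateField ℚ Qb) (N : ℕ) [NeZero N]

/-- the places in the Galois orbit of the support of `div u₀` are rational -/
def MgcRat (u₀ : ↥(mgcF A K₁ N)) : Prop :=
  ∀ (Q : Place ↥(mgcE A K₁) ↥(mgcF A K₁ N)) (s : ↥(mgcE A K₁) ≃+* ↥(mgcE A K₁))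
    (σ : Qb ≃ₐ[ℚ] Qb), (∀ a : ↥(mgcE A K₁), σ (a : Qb) = ((s a : ↥(mgcE A K₁)) : Qb)) →
    (mgGal N s • Q).ord u₀ ≠ 0 →
    ∀ f ∈ Q.toValuationSubring, ∃ c : ↥(mgcE A K₁),
      f - algebraMap ↥(mgcE A K₁) ↥(mgcF A K₁ N) c ∈ Q.toValuationSubring.nonunits

variable [IsDiscreteValuationRing ↥(mgcA A K₁)]

/-- the special-fibre inputs of `mgc_main` at `(A, K₁, σ, τ)` -/
def MgcData (σ τ : Qb ≃ₐ[ℚ] Qb) (hσ : ∀ x ∈ mgcE A K₁, σ x ∈ mgcE A K₁)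
    (hτ : ∀ x ∈ mgcE A K₁, τ x ∈ mgcE A K₁) : Prop :=
  ∃ (π : ↥(mgcA A K₁)) (V : Bool → ValuationSubring ↥(mgcF A K₁ N)),
    Irreducible π ∧
    (∀ c (b : ↥(mgcF A K₁ N)),
      IsIntegral ↥(Algebra.adjoin ↥(mgcA A K₁) {mgcT A K₁ N}) b → b ∈ V c) ∧
    (∀ c (b : ↥(mgcF A K₁ N)),
      IsIntegral ↥(Algebra.adjoin ↥(mgcA A K₁) {(mgcT A K₁ N)⁻¹}) b → b ∈ V c) ∧
    (∀ c, algebraMap ↥(mgcA A K₁) ↥(mgcF A K₁ N) π ∈ (V c).nonunits) ∧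
    (∀ b : ↥(mgcF A K₁ N),
      IsIntegral ↥(Algebra.adjoin ↥(mgcA A K₁) {mgcT A K₁ N}) b →
      (∀ c, b ∈ (V c).nonunits) →
      ∃ b' : ↥(mgcF A K₁ N), IsIntegral ↥(Algebra.adjoin ↥(mgcA A K₁) {mgcT A K₁ N}) b' ∧
        b = algebraMap ↥(mgcA A K₁) ↥(mgcF A K₁ N) π * b') ∧
    (∀ c (a x : ↥(mgcF A K₁ N)), a ∈ (V c).nonunits →
      ∃ n : ℕ, a ^ n * x ∈ (V c).nonunits) ∧
    (∀ c (x : ↥(mgcF A K₁ N)), x ∈ V c → ∃ b s : ↥(mgcF A K₁ N),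
      IsIntegral ↥(Algebra.adjoin ↥(mgcA A K₁) {mgcT A K₁ N}) b ∧
      IsIntegral ↥(Algebra.adjoin ↥(mgcA A K₁) {mgcT A K₁ N}) s ∧
      s ∉ (V c).nonunits ∧ s * x = b) ∧
    (∀ c (x : ↥(mgcF A K₁ N)), x ∈ V c → ∃ b s : ↥(mgcF A K₁ N),
      IsIntegral ↥(Algebra.adjoin ↥(mgcA A K₁) {(mgcT A K₁ N)⁻¹}) b ∧
      IsIntegral ↥(Algebra.adjoin ↥(mgcA A K₁) {(mgcT A K₁ N)⁻¹}) s ∧
      s ∉ (V c).nonunits ∧ s * x = b) ∧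
    AtTrivMod π (mgcT A K₁ N) (mgcGal N σ hσ) ∧
    AtTrivMod π (mgcT A K₁ N) (mgcGal N σ hσ)⁻¹ ∧
    AtTrivMod π (mgcT A K₁ N)⁻¹ (mgcGal N σ hσ) ∧
    AtTrivMod π (mgcT A K₁ N)⁻¹ (mgcGal N σ hσ)⁻¹ ∧
    AtTrivMod π (mgcT A K₁ N) (mgcGal N τ hτ) ∧
    AtTrivMod π (mgcT A K₁ N)⁻¹ (mgcGal N τ hτ) ∧
    (∀ c (f : ↥(mgcF A K₁ N)), f ≠ 0 → (V c).valuation (mgcGal N σ hσ • f / f) = 1) ∧
    (∀ c (x : ↥(mgcF A K₁ N)), x ∈ V c → mgcGal N τ hτ • x - x ∈ (V c).nonunits) ∧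
    ∀ u₀ : ↥(mgcF A K₁ N), u₀ ≠ 0 → MgcRat A K₁ N u₀ →
      (∀ 𝔫 : AtPt (F := ↥(mgcF A K₁ N)) π (mgcT A K₁ N),
        ∀ P : Place ↥(mgcE A K₁) ↥(mgcF A K₁ N),
        LsTube ↥(zchClosure (A₀ := ↥(mgcA A K₁)) ({mgcT A K₁ N} : Set ↥(mgcF A K₁ N)))
          (mgcT A K₁ N) 𝔫.1 P →
        mgcGal N σ hσ • P ≠ P → P.ord u₀ ≠ 0 →
        ∃ f : ↥(mgcF A K₁ N), f ≠ 0 ∧ P.ord f = 1 ∧
          ∀ Q : Place ↥(mgcE A K₁) ↥(mgcF A K₁ N),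
          LsTube ↥(zchClosure (A₀ := ↥(mgcA A K₁)) ({mgcT A K₁ N} : Set ↥(mgcF A K₁ N)))
            (mgcT A K₁ N) 𝔫.1 Q →
          mgcGal N σ hσ • Q ≠ Q → Q ≠ P → Q.ord f = 0) ∧
      (∀ 𝔫 : AtPt (F := ↥(mgcF A K₁ N)) π (mgcT A K₁ N)⁻¹,
        ∀ P : Place ↥(mgcE A K₁) ↥(mgcF A K₁ N),
        LsTube ↥(zchClosure (A₀ := ↥(mgcA A K₁)) ({(mgcT A K₁ N)⁻¹} : Set ↥(mgcF A K₁ N)))
          (mgcT A K₁ N)⁻¹ 𝔫.1 P →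
        mgcGal N σ hσ • P ≠ P → P.ord u₀ ≠ 0 →
        ∃ f : ↥(mgcF A K₁ N), f ≠ 0 ∧ P.ord f = 1 ∧
          ∀ Q : Place ↥(mgcE A K₁) ↥(mgcF A K₁ N),
          LsTube ↥(zchClosure (A₀ := ↥(mgcA A K₁)) ({(mgcT A K₁ N)⁻¹} : Set ↥(mgcF A K₁ N)))
            (mgcT A K₁ N)⁻¹ 𝔫.1 Q →
          mgcGal N σ hσ • Q ≠ Q → Q ≠ P → Q.ord f = 0)

end Data

/-- **G6.**  `StmtUnipFieldPP N q` from the special-fibre data at every `(A, K₁, σ, τ)`. -/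
theorem stmtUnipFieldPP_of_data (N : ℕ) [NeZero N] (q : ℕ) (hq : q.Prime)
    (h : ∀ (A : ValuationSubring Qb) (hA : A.LiesOverPrime q) (K₁ : IntermediateField ℚ Qb)
      [NumberField K₁] [IsGalois ℚ K₁] [IsDiscreteValuationRing ↥(mgcA A K₁)]
      (σ : Qb ≃ₐ[ℚ] Qb) (_ : σ ∈ A.inertiaSubgroupIn ℚ)
      (τ : Qb ≃ₐ[ℚ] Qb) (_ : τ ∈ A.inertiaSubgroupIn ℚ)
      (hσ : ∀ x ∈ mgcE A K₁, σ x ∈ mgcE A K₁) (hτ : ∀ x ∈ mgcE A K₁, τ x ∈ mgcE A K₁),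
      MgcData A K₁ N σ τ hσ hτ) : StmtUnipFieldPP N q := by
  intro A hA p hp hpq r σ hσI τ hτI u hu hdiv
  -- a number field of definition of `u`
  obtain ⟨K', hK'fin, -, hK'⟩ := mg_exists_descent (N := N) ∅ u.2
  -- rationality of the support (D8)
  obtain ⟨K₁, hK'K₁, hK₁fin, hK₁gal, hrat⟩ := rat_exists_field_rational N u hu K' hK'fin
  haveI : NumberField K₁ := @NumberField.mk _ _ inferInstance hK₁fin
  haveI : IsGalois ℚ K₁ := hK₁gal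
  haveI : Normal ℚ K₁ := hK₁gal.to_normal
  haveI : IsDiscreteValuationRing ↥(mgcA A K₁) := beta0Ring_isDVR_sup K₁ hq hA
  have hK₁E : K₁ ≤ mgcE A K₁ := le_sup_right
  obtain ⟨u₀, hu₀⟩ := hK' (mgcE A K₁) (hK'K₁.trans hK₁E)
  have hu₀' : nfEmb (mgcE A K₁) N u₀ = u := hu₀
  have hσ : ∀ x ∈ mgcE A K₁, σ x ∈ mgcE A K₁ := mga_stable_beta0_sup hσI K₁
  have hτ : ∀ x ∈ mgcE A K₁, τ x ∈ mgcE A K₁ := mga_stable_beta0_sup hτI K₁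
  have hu₀0 : u₀ ≠ 0 := by
    rintro rfl
    apply hu
    rw [← hu₀', map_zero]
  obtain ⟨π, V, hπ, hBV₁, hBV₂, hπV, hSS1, harch, hVloc₁, hVloc₂, hσB₁, hσB₁', hσB₂, hσB₂',
    hτB₁, hτB₂, hσV, hτV, hcoord⟩ := h A hA K₁ σ hσI τ hτI hσ hτ
  have hR : MgcRat A K₁ N u₀ := fun Q s σ' hs hQ f hf =>
    hrat (mgcE A K₁) hK₁E u₀ hu₀' Q s σ' hs hQ f hf
  obtain ⟨hc₁, hc₂⟩ := hcoord u₀ hu₀0 hR
  refine ⟨mgcE A K₁, hσ, hτ, u₀, hu₀', ?_⟩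
  exact mgc_main hq hA hπ hp hpq V true false
    (fun c => by cases c <;> simp) hBV₁ hBV₂ hπV hSS1 harch hVloc₁ hVloc₂ σ τ hσ hτ
    hσB₁ hσB₁' hσB₂ hσB₂' hτB₁ hτB₂ hσV hτV hu₀0 r (by rw [hu₀']; exact hdiv) hc₁ hc₂

/-- **MG-5, final form.**  `StmtUnipKummer` from the special-fibre data at the levels `N`,
`q ∥ N`, where the base line of the INJ/KEY route exists. -/
theorem stmtUnipKummer_of_data
    (h : ∀ (N : ℕ) [NeZero N] (q : ℕ), q.Prime → q ∣ N → ¬ q ^ 2 ∣ N →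
      (q = 2 → 3 ∣ N) → (q = 3 → 2 ∣ N) →
      ∀ (A : ValuationSubring Qb) (hA : A.LiesOverPrime q) (K₁ : IntermediateField ℚ Qb)
      [NumberField K₁] [IsGalois ℚ K₁] [IsDiscreteValuationRing ↥(mgcA A K₁)]
      (σ : Qb ≃ₐ[ℚ] Qb) (_ : σ ∈ A.inertiaSubgroupIn ℚ)
      (τ : Qb ≃ₐ[ℚ] Qb) (_ : τ ∈ A.inertiaSubgroupIn ℚ)
      (hσ : ∀ x ∈ mgcE A K₁, σ x ∈ mgcE A K₁) (hτ : ∀ x ∈ mgcE A K₁, τ x ∈ mgcE A K₁),
      MgcData A K₁ N σ τ hσ hτ) : StmtUnipKummer :=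
  stmtUnipKummer_of_fieldPP fun N _ q hq hqN hq2 h2 h3 =>
    stmtUnipFieldPP_of_data N q hq fun A hA K₁ _ _ _ σ hσI τ hτI hσ hτ =>
      h N q hq hqN hq2 h2 h3 A hA K₁ σ hσI τ hτI hσ hτ

end Fermat.Agent.UNIP
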