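/-
UNIP (S34/S35), direct route, piece MG-5a "chart hypotheses of (T′)", beta0 instantiation, part 2
(helper16): the coordinates (G5) and the assembled conjuncts of `MgcData` (`MGFinal.lean`).

* `mgcb_hcoord_j`, `mgcb_hcoord_jinv` : `hcoord₁`, `hcoord₂` of `mgc_main` at one closed point and
  one rational place, for ANY uniformizer `π` of `A' = mgcA A K₁`, from U5's output on the charts
  `j`, `1/j` of `F_N(E₀)` over `A₀ = beta0Ring A (beta0Field A)`.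
* `mgcb_G3` : the six `AtTrivMod` conjuncts of `MgcData`, in order.
* `mgcb_G5` : the last conjunct of `MgcData` (`∀ u₀ ≠ 0, MgcRat A K₁ N u₀ → hcoord₁ ∧ hcoord₂`).
-/
import Fermat.Agent.UNIP.MGChartsBeta0
import Fermat.Agent.UNIP.MGFinal

set_option autoImplicit false
set_option linter.style.haveILetI false
set_option linter.unusedSectionVars false
set_option linter.unusedVariables false

open Polynomial IntermediateField Fermat.Agent.INJ AlgebraicCurve ModularCurve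

namespace Fermat.Agent.UNIP

section Coord

variable {A : ValuationSubring NfQb} (K₁ : IntermediateField ℚ NfQb) [NumberField K₁]
  [IsGalois ℚ K₁] {q : ℕ} (N : ℕ) [NeZero N]

/-- a closed point of the special fibre, for another uniformizer -/
def mgcbPt {A₀ F : Type*} [CommRing A₀] [IsDomain A₀]
    [IsDiscreteValuationRing A₀] [Field F] [Algebra A₀ F]
    {π₀ π : A₀} (hπ₀ : Irreducible π₀) (hπ : Irreducible π) {u : F}
    (𝔫 : AtPt (F := F) π u) : AtPt (F := F) π₀ u :=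
  ⟨𝔫.1, 𝔫.2.1, by
    obtain ⟨w, hw⟩ := (IsDiscreteValuationRing.associated_of_irreducible A₀ hπ hπ₀)
    rw [← hw, map_mul]
    exact Ideal.mul_mem_right _ _ 𝔫.2.2⟩

theorem mgcbPt_val {A₀ F : Type*} [CommRing A₀] [IsDomain A₀]
    [IsDiscreteValuationRing A₀] [Field F] [Algebra A₀ F]
    {π₀ π : A₀} (hπ₀ : Irreducible π₀) (hπ : Irreducible π) {u : F}
    (𝔫 : AtPt (F := F) π u) : (mgcbPt hπ₀ hπ 𝔫).1 = 𝔫.1 := rfl

/-- **(G5) `hcoord₁` of `mgc_main`** at one closed point of the chart `j` and one rational place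
moved by `σ ∈ I`. -/
theorem mgcb_hcoord_j [IsDiscreteValuationRing ↥(mgcA A K₁)]
    (hq : q.Prime) (hA : A.LiesOverPrime q)
    (hπu : ¬ IsUnit (algebraMap ↥(beta0Ring A (beta0Field A))
      (integralClosure (Algebra.adjoin ↥(beta0Ring A (beta0Field A)) {bgJ ↥(beta0Field A) N})
        (modularFunctionFieldFullC ↥(beta0Field A) N))
      ((q : ℕ) : ↥(beta0Ring A (beta0Field A)))))
    (hred : ∀ c : integralClosure
        (Algebra.adjoin ↥(beta0Ring A (beta0Field A)) {bgJ ↥(beta0Field A) N})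
        (modularFunctionFieldFullC ↥(beta0Field A) N),
      algebraMap ↥(beta0Ring A (beta0Field A)) (integralClosure
        (Algebra.adjoin ↥(beta0Ring A (beta0Field A)) {bgJ ↥(beta0Field A) N})
        (modularFunctionFieldFullC ↥(beta0Field A) N))
          ((q : ℕ) : ↥(beta0Ring A (beta0Field A))) ∣ c ^ 2 →
      algebraMap ↥(beta0Ring A (beta0Field A)) (integralClosure
        (Algebra.adjoin ↥(beta0Ring A (beta0Field A)) {bgJ ↥(beta0Field A) N})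
        (modularFunctionFieldFullC ↥(beta0Field A) N))
          ((q : ℕ) : ↥(beta0Ring A (beta0Field A))) ∣ c)
    (hU5 : ∀ 𝔫 : Ideal (integralClosure
        (Algebra.adjoin ↥(beta0Ring A (beta0Field A)) {bgJ ↥(beta0Field A) N})
        (modularFunctionFieldFullC ↥(beta0Field A) N)), 𝔫.IsMaximal →
      algebraMap ↥(beta0Ring A (beta0Field A)) (integralClosure
        (Algebra.adjoin ↥(beta0Ring A (beta0Field A)) {bgJ ↥(beta0Field A) N})
        (modularFunctionFieldFullC ↥(beta0Field A) N))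
          ((q : ℕ) : ↥(beta0Ring A (beta0Field A))) ∈ 𝔫 →
      (∃ s ∈ 𝔫, NodesLocGen 𝔫 {algebraMap ↥(beta0Ring A (beta0Field A)) (integralClosure
        (Algebra.adjoin ↥(beta0Ring A (beta0Field A)) {bgJ ↥(beta0Field A) N})
        (modularFunctionFieldFullC ↥(beta0Field A) N))
          ((q : ℕ) : ↥(beta0Ring A (beta0Field A))), s}) ∨
      (∃ X Y : integralClosure (Algebra.adjoin ↥(beta0Ring A (beta0Field A)) {bgJ ↥(beta0Field A) N})
          (modularFunctionFieldFullC ↥(beta0Field A) N),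
        X ∈ 𝔫 ∧ Y ∈ 𝔫 ∧
        algebraMap ↥(beta0Ring A (beta0Field A)) (integralClosure
          (Algebra.adjoin ↥(beta0Ring A (beta0Field A)) {bgJ ↥(beta0Field A) N})
          (modularFunctionFieldFullC ↥(beta0Field A) N))
            ((q : ℕ) : ↥(beta0Ring A (beta0Field A))) ∣ X * Y ∧
        NodesLocGen 𝔫 {algebraMap ↥(beta0Ring A (beta0Field A)) (integralClosure
          (Algebra.adjoin ↥(beta0Ring A (beta0Field A)) {bgJ ↥(beta0Field A) N})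
          (modularFunctionFieldFullC ↥(beta0Field A) N))
            ((q : ℕ) : ↥(beta0Ring A (beta0Field A))), X, Y}))
    {π : ↥(mgcA A K₁)} (hπ : Irreducible π)
    {σ : NfQb ≃ₐ[ℚ] NfQb} (hσ : σ ∈ A.inertiaSubgroupIn ℚ)
    (hσE : ∀ x ∈ mgcE A K₁, σ x ∈ mgcE A K₁)
    (𝔫 : AtPt (F := ↥(mgcF A K₁ N)) π (mgcT A K₁ N))
    (P : Place ↥(mgcE A K₁) ↥(mgcF A K₁ N))
    (hP : LsTube ↥(zchClosure (A₀ := ↥(mgcA A K₁)) ({(mgcT A K₁ N)} : Set ↥(mgcF A K₁ N)))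
      (mgcT A K₁ N) 𝔫.1 P)
    (hgP : mgcGal N σ hσE • P ≠ P)
    (hrat : ∀ f ∈ P.toValuationSubring, ∃ c : ↥(mgcE A K₁),
      f - algebraMap ↥(mgcE A K₁) ↥(mgcF A K₁ N) c ∈ P.toValuationSubring.nonunits) :
    ∃ f : ↥(mgcF A K₁ N), f ≠ 0 ∧ P.ord f = 1 ∧
      ∀ Q : Place ↥(mgcE A K₁) ↥(mgcF A K₁ N),
      LsTube ↥(zchClosure (A₀ := ↥(mgcA A K₁)) ({(mgcT A K₁ N)} : Set ↥(mgcF A K₁ N)))
        (mgcT A K₁ N) 𝔫.1 Q →
      mgcGal N σ hσE • Q ≠ Q → Q ≠ P → Q.ord f = 0 := by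
  letI := beta0InstAlgebra A K₁
  letI := beta0InstFieldAlgebra A K₁
  haveI := beta0Ring_isDVR_base (A := A) hq hA
  haveI := beta0Inst_isIntegral (A := A) K₁ hq hA
  obtain ⟨π₀, hπ₀, -, -, -, -, -, hram, ⟨g₀, hgm, hroot, hdeg, -⟩, hadj, halg⟩ :=
    beta0Inst_main (A := A) K₁ hq hA
  have hσE' := mgcb_stable_inv K₁ hσE
  have hsπ' : ∃ c : ↥(beta0Ring A (beta0Field A ⊔ K₁)),
      (mgaRestrictEquiv (beta0Field A ⊔ K₁) σ hσE)⁻¹
        (algebraMap ↥(beta0Ring A (beta0Field A ⊔ K₁)) ↥(beta0Field A ⊔ K₁) π₀) =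
      algebraMap ↥(beta0Ring A (beta0Field A ⊔ K₁)) ↥(beta0Field A ⊔ K₁) π₀ +
        algebraMap ↥(beta0Ring A (beta0Field A ⊔ K₁)) ↥(beta0Field A ⊔ K₁) π₀ *
          algebraMap ↥(beta0Ring A (beta0Field A ⊔ K₁)) ↥(beta0Field A ⊔ K₁) c := by
    rw [mgcb_restrict_inv (beta0Field A ⊔ K₁) hσE hσE']
    exact mgcb_hsπ ((A.inertiaSubgroupIn ℚ).inv_mem hσ) hσE' hπ₀
  exact mgcc_hcoord_j (A₀ := ↥(beta0Ring A (beta0Field A))) (E₀ := ↥(beta0Field A))
    (A' := ↥(beta0Ring A (beta0Field A ⊔ K₁))) (E' := ↥(beta0Field A ⊔ K₁)) N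
    (fun a => mgcb_hcomp K₁ a) (beta0Ring_irreducible_q hq hA) hπu hred hπ₀ hram g₀ hgm hroot
    hdeg hadj halg hU5 (mgaRestrictEquiv (beta0Field A ⊔ K₁) σ hσE)
    (fun a => mgcb_hsE₀ hσ le_sup_left hσE a) (fun a => mgcb_hsA hσ hσE a)
    (mgcb_hsπ hσ hσE hπ₀) hsπ' (mgcbPt hπ₀ hπ 𝔫) P hP hgP hrat

/-- **(G5) `hcoord₂` of `mgc_main`** at one closed point of the chart `1/j` and one rational
place moved by `σ ∈ I`. -/
theorem mgcb_hcoord_jinv [IsDiscreteValuationRing ↥(mgcA A K₁)]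
    (hq : q.Prime) (hA : A.LiesOverPrime q)
    (hπu : ¬ IsUnit (algebraMap ↥(beta0Ring A (beta0Field A))
      (integralClosure (Algebra.adjoin ↥(beta0Ring A (beta0Field A)) {(bgJ ↥(beta0Field A) N)⁻¹})
        (modularFunctionFieldFullC ↥(beta0Field A) N))
      ((q : ℕ) : ↥(beta0Ring A (beta0Field A)))))
    (hred : ∀ c : integralClosure
        (Algebra.adjoin ↥(beta0Ring A (beta0Field A)) {(bgJ ↥(beta0Field A) N)⁻¹})
        (modularFunctionFieldFullC ↥(beta0Field A) N),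
      algebraMap ↥(beta0Ring A (beta0Field A)) (integralClosure
        (Algebra.adjoin ↥(beta0Ring A (beta0Field A)) {(bgJ ↥(beta0Field A) N)⁻¹})
        (modularFunctionFieldFullC ↥(beta0Field A) N))
          ((q : ℕ) : ↥(beta0Ring A (beta0Field A))) ∣ c ^ 2 →
      algebraMap ↥(beta0Ring A (beta0Field A)) (integralClosure
        (Algebra.adjoin ↥(beta0Ring A (beta0Field A)) {(bgJ ↥(beta0Field A) N)⁻¹})
        (modularFunctionFieldFullC ↥(beta0Field A) N))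
          ((q : ℕ) : ↥(beta0Ring A (beta0Field A))) ∣ c)
    (hU5 : ∀ 𝔫 : Ideal (integralClosure
        (Algebra.adjoin ↥(beta0Ring A (beta0Field A)) {(bgJ ↥(beta0Field A) N)⁻¹})
        (modularFunctionFieldFullC ↥(beta0Field A) N)), 𝔫.IsMaximal →
      algebraMap ↥(beta0Ring A (beta0Field A)) (integralClosure
        (Algebra.adjoin ↥(beta0Ring A (beta0Field A)) {(bgJ ↥(beta0Field A) N)⁻¹})
        (modularFunctionFieldFullC ↥(beta0Field A) N))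
          ((q : ℕ) : ↥(beta0Ring A (beta0Field A))) ∈ 𝔫 →
      (∃ s ∈ 𝔫, NodesLocGen 𝔫 {algebraMap ↥(beta0Ring A (beta0Field A)) (integralClosure
        (Algebra.adjoin ↥(beta0Ring A (beta0Field A)) {(bgJ ↥(beta0Field A) N)⁻¹})
        (modularFunctionFieldFullC ↥(beta0Field A) N))
          ((q : ℕ) : ↥(beta0Ring A (beta0Field A))), s}) ∨
      (∃ X Y : integralClosure (Algebra.adjoin ↥(beta0Ring A (beta0Field A)) {(bgJ ↥(beta0Field A) N)⁻¹})
          (modularFunctionFieldFullC ↥(beta0Field A) N),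
        X ∈ 𝔫 ∧ Y ∈ 𝔫 ∧
        algebraMap ↥(beta0Ring A (beta0Field A)) (integralClosure
          (Algebra.adjoin ↥(beta0Ring A (beta0Field A)) {(bgJ ↥(beta0Field A) N)⁻¹})
          (modularFunctionFieldFullC ↥(beta0Field A) N))
            ((q : ℕ) : ↥(beta0Ring A (beta0Field A))) ∣ X * Y ∧
        NodesLocGen 𝔫 {algebraMap ↥(beta0Ring A (beta0Field A)) (integralClosure
          (Algebra.adjoin ↥(beta0Ring A (beta0Field A)) {(bgJ ↥(beta0Field A) N)⁻¹})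
          (modularFunctionFieldFullC ↥(beta0Field A) N))
            ((q : ℕ) : ↥(beta0Ring A (beta0Field A))), X, Y}))
    {π : ↥(mgcA A K₁)} (hπ : Irreducible π)
    {σ : NfQb ≃ₐ[ℚ] NfQb} (hσ : σ ∈ A.inertiaSubgroupIn ℚ)
    (hσE : ∀ x ∈ mgcE A K₁, σ x ∈ mgcE A K₁)
    (𝔫 : AtPt (F := ↥(mgcF A K₁ N)) π (mgcT A K₁ N)⁻¹)
    (P : Place ↥(mgcE A K₁) ↥(mgcF A K₁ N))
    (hP : LsTube ↥(zchClosure (A₀ := ↥(mgcA A K₁)) ({(mgcT A K₁ N)⁻¹} : Set ↥(mgcF A K₁ N)))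
      (mgcT A K₁ N)⁻¹ 𝔫.1 P)
    (hgP : mgcGal N σ hσE • P ≠ P)
    (hrat : ∀ f ∈ P.toValuationSubring, ∃ c : ↥(mgcE A K₁),
      f - algebraMap ↥(mgcE A K₁) ↥(mgcF A K₁ N) c ∈ P.toValuationSubring.nonunits) :
    ∃ f : ↥(mgcF A K₁ N), f ≠ 0 ∧ P.ord f = 1 ∧
      ∀ Q : Place ↥(mgcE A K₁) ↥(mgcF A K₁ N),
      LsTube ↥(zchClosure (A₀ := ↥(mgcA A K₁)) ({(mgcT A K₁ N)⁻¹} : Set ↥(mgcF A K₁ N)))
        (mgcT A K₁ N)⁻¹ 𝔫.1 Q →
      mgcGal N σ hσE • Q ≠ Q → Q ≠ P → Q.ord f = 0 := by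
  letI := beta0InstAlgebra A K₁
  letI := beta0InstFieldAlgebra A K₁
  haveI := beta0Ring_isDVR_base (A := A) hq hA
  haveI := beta0Inst_isIntegral (A := A) K₁ hq hA
  obtain ⟨π₀, hπ₀, -, -, -, -, -, hram, ⟨g₀, hgm, hroot, hdeg, -⟩, hadj, halg⟩ :=
    beta0Inst_main (A := A) K₁ hq hA
  have hσE' := mgcb_stable_inv K₁ hσE
  have hsπ' : ∃ c : ↥(beta0Ring A (beta0Field A ⊔ K₁)),
      (mgaRestrictEquiv (beta0Field A ⊔ K₁) σ hσE)⁻¹
        (algebraMap ↥(beta0Ring A (beta0Field A ⊔ K₁)) ↥(beta0Field A ⊔ K₁) π₀) =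
      algebraMap ↥(beta0Ring A (beta0Field A ⊔ K₁)) ↥(beta0Field A ⊔ K₁) π₀ +
        algebraMap ↥(beta0Ring A (beta0Field A ⊔ K₁)) ↥(beta0Field A ⊔ K₁) π₀ *
          algebraMap ↥(beta0Ring A (beta0Field A ⊔ K₁)) ↥(beta0Field A ⊔ K₁) c := by
    rw [mgcb_restrict_inv (beta0Field A ⊔ K₁) hσE hσE']
    exact mgcb_hsπ ((A.inertiaSubgroupIn ℚ).inv_mem hσ) hσE' hπ₀
  exact mgcc_hcoord_jinv (A₀ := ↥(beta0Ring A (beta0Field A))) (E₀ := ↥(beta0Field A))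
    (A' := ↥(beta0Ring A (beta0Field A ⊔ K₁))) (E' := ↥(beta0Field A ⊔ K₁)) N
    (fun a => mgcb_hcomp K₁ a) (beta0Ring_irreducible_q hq hA) hπu hred hπ₀ hram g₀ hgm hroot
    hdeg hadj halg hU5 (mgaRestrictEquiv (beta0Field A ⊔ K₁) σ hσE)
    (fun a => mgcb_hsE₀ hσ le_sup_left hσE a) (fun a => mgcb_hsA hσ hσE a)
    (mgcb_hsπ hσ hσE hπ₀) hsπ' (mgcbPt hπ₀ hπ 𝔫) P hP hgP hrat

end Coord

end Fermat.Agent.UNIP
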