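/-
UNIP (S34/S35), direct route, piece MG-5a "chart hypotheses of (T′)", beta0 instantiation, part 3
(helper16): the conjuncts (G3) and (G5) of `MgcData` (`MGFinal.lean`), verbatim.

* `mgcb_G3` : the six `AtTrivMod` conjuncts of `MgcData A K₁ N σ τ hσE hτE`, in order;
* `mgcb_G5` : the last conjunct of `MgcData` (`∀ u₀ ≠ 0, MgcRat A K₁ N u₀ → hcoord₁ ∧ hcoord₂`);
both for ANY uniformizer `π` of `A' = mgcA A K₁`, `σ, τ ∈ I`, from U5's output on the charts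
`j`, `1/j` of `F_N(E₀)` over `A₀ = beta0Ring A (beta0Field A)` (uniformizer `q`):
`hπu`, `hred` (⇐ (SS1)) and `hU5` (the dichotomy smooth point / crossing).
* `mgcb_u5` : the three U5 inputs of one chart from (SS1) in the two-maps form and the output of
  `nodes_chart` / `nodes_modular_chart`.
-/
import Fermat.Agent.UNIP.MGChartsBeta0Coord

set_option autoImplicit false
set_option linter.style.haveILetI false
set_option linter.unusedSectionVars false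
set_option linter.unusedVariables false

open Polynomial IntermediateField Fermat.Agent.INJ AlgebraicCurve ModularCurve

namespace Fermat.Agent.UNIP

section U5

/-- **The U5 inputs of one chart** (`hπu`, `hred`, `hU5` of `mgcb_G3`, `mgcb_G5`, `mgcc_*`,
`mgs_*`) from (SS1) in the two-maps form `ρ x = 0 → ρ₀ x = 0 → p ∣ x` (`ρ`, `ρ₀` into a reduced
nontrivial ring, `ρ p = ρ₀ p = 0`) and the output of `nodes_chart` / `nodes_chart_hom` /
`nodes_modular_chart`. -/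
theorem mgcb_u5 {B S : Type*} [CommRing B] [CommRing S] [IsReduced S] [Nontrivial S] {p : B}
    {ρ ρ₀ : B →+* S} (hρp : ρ p = 0) (hρ₀p : ρ₀ p = 0)
    (hker : ∀ x : B, ρ x = 0 → ρ₀ x = 0 → p ∣ x)
    (hnodes : ∀ 𝔫 : Ideal B, 𝔫.IsMaximal → p ∈ 𝔫 →
      (∃ s ∈ 𝔫, NodesLocGen 𝔫 {p, s}) ∨
      ((∀ x : B, ρ x = 0 → x ∈ 𝔫) ∧ (∀ x : B, ρ₀ x = 0 → x ∈ 𝔫) ∧
        ∃ X Y : B, ρ X = 0 ∧ ρ₀ Y = 0 ∧ NodesSmoothAt ρ₀ 𝔫 X ∧ NodesSmoothAt ρ 𝔫 Y ∧
          p ∣ X * Y ∧ NodesLocGen 𝔫 {p, X, Y})) :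
    ¬ IsUnit p ∧ (∀ c : B, p ∣ c ^ 2 → p ∣ c) ∧
    (∀ 𝔫 : Ideal B, 𝔫.IsMaximal → p ∈ 𝔫 →
      (∃ s ∈ 𝔫, NodesLocGen 𝔫 {p, s}) ∨
      (∃ X Y : B, X ∈ 𝔫 ∧ Y ∈ 𝔫 ∧ p ∣ X * Y ∧ NodesLocGen 𝔫 {p, X, Y})) :=
  ⟨mgc_not_isUnit_of_map_eq_zero ρ hρp, mgc_hred_of_ker hρp hρ₀p hker,
    fun 𝔫 h𝔫 hp => mgs_u5_of_nodes (hnodes 𝔫 h𝔫 hp)⟩

end U5

section Data

variable {A : ValuationSubring NfQb} (K₁ : IntermediateField ℚ NfQb) [NumberField K₁]
  [IsGalois ℚ K₁] {q : ℕ} (N : ℕ) [NeZero N]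

/-- **(G3)**: the six `AtTrivMod` conjuncts of `MgcData`. -/
theorem mgcb_G3 [IsDiscreteValuationRing ↥(mgcA A K₁)]
    (hq : q.Prime) (hA : A.LiesOverPrime q)
    (hπu₁ : ¬ IsUnit (algebraMap ↥(beta0Ring A (beta0Field A))
      (integralClosure (Algebra.adjoin ↥(beta0Ring A (beta0Field A)) {bgJ ↥(beta0Field A) N})
        (modularFunctionFieldFullC ↥(beta0Field A) N))
      ((q : ℕ) : ↥(beta0Ring A (beta0Field A)))))
    (hred₁ : ∀ c : integralClosure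
        (Algebra.adjoin ↥(beta0Ring A (beta0Field A)) {bgJ ↥(beta0Field A) N})
        (modularFunctionFieldFullC ↥(beta0Field A) N),
      algebraMap ↥(beta0Ring A (beta0Field A)) (integralClosure
        (Algebra.adjoin ↥(beta0Ring A (beta0Field A)) {bgJ ↥(beta0Field A) N})
        (modularFunctionFieldFullC ↥(beta0Field A) N))
          ((q : ℕ) : ↥(beta0Ring A (beta0Field A))) ∣ c ^ 2 →
      algebraMap ↥(beta0Ring A (beta0Field A)) (integralClosure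
        (Algebra.adjoin ↥(beta0Ring A (beta0Field A)) {bgJ ↥(beta0Field A) N})
        (modularFunctionFieldFullC ↥(beta0Field A) N))
          ((q : ℕ) : ↥(beta0Ring A (beta0Field A))) ∣ c)
    (hπu₂ : ¬ IsUnit (algebraMap ↥(beta0Ring A (beta0Field A))
      (integralClosure (Algebra.adjoin ↥(beta0Ring A (beta0Field A)) {(bgJ ↥(beta0Field A) N)⁻¹})
        (modularFunctionFieldFullC ↥(beta0Field A) N))
      ((q : ℕ) : ↥(beta0Ring A (beta0Field A)))))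
    (hred₂ : ∀ c : integralClosure
        (Algebra.adjoin ↥(beta0Ring A (beta0Field A)) {(bgJ ↥(beta0Field A) N)⁻¹})
        (modularFunctionFieldFullC ↥(beta0Field A) N),
      algebraMap ↥(beta0Ring A (beta0Field A)) (integralClosure
        (Algebra.adjoin ↥(beta0Ring A (beta0Field A)) {(bgJ ↥(beta0Field A) N)⁻¹})
        (modularFunctionFieldFullC ↥(beta0Field A) N))
          ((q : ℕ) : ↥(beta0Ring A (beta0Field A))) ∣ c ^ 2 →
      algebraMap ↥(beta0Ring A (beta0Field A)) (integralClosure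
        (Algebra.adjoin ↥(beta0Ring A (beta0Field A)) {(bgJ ↥(beta0Field A) N)⁻¹})
        (modularFunctionFieldFullC ↥(beta0Field A) N))
          ((q : ℕ) : ↥(beta0Ring A (beta0Field A))) ∣ c)
    {π : ↥(mgcA A K₁)} (hπ : Irreducible π)
    {σ τ : NfQb ≃ₐ[ℚ] NfQb} (hσ : σ ∈ A.inertiaSubgroupIn ℚ) (hτ : τ ∈ A.inertiaSubgroupIn ℚ)
    (hσE : ∀ x ∈ mgcE A K₁, σ x ∈ mgcE A K₁) (hτE : ∀ x ∈ mgcE A K₁, τ x ∈ mgcE A K₁) :
    AtTrivMod π (mgcT A K₁ N) (mgcGal N σ hσE) ∧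
    AtTrivMod π (mgcT A K₁ N) (mgcGal N σ hσE)⁻¹ ∧
    AtTrivMod π (mgcT A K₁ N)⁻¹ (mgcGal N σ hσE) ∧
    AtTrivMod π (mgcT A K₁ N)⁻¹ (mgcGal N σ hσE)⁻¹ ∧
    AtTrivMod π (mgcT A K₁ N) (mgcGal N τ hτE) ∧
    AtTrivMod π (mgcT A K₁ N)⁻¹ (mgcGal N τ hτE) :=
  ⟨mgcb_trivMod_j K₁ N hq hA hπu₁ hred₁ hπ hσ hσE,
    mgcb_trivMod_j_inv K₁ N hq hA hπu₁ hred₁ hπ hσ hσE,
    mgcb_trivMod_jinv K₁ N hq hA hπu₂ hred₂ hπ hσ hσE,
    mgcb_trivMod_jinv_inv K₁ N hq hA hπu₂ hred₂ hπ hσ hσE,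
    mgcb_trivMod_j K₁ N hq hA hπu₁ hred₁ hπ hτ hτE,
    mgcb_trivMod_jinv K₁ N hq hA hπu₂ hred₂ hπ hτ hτE⟩

/-- rationality of the places in the support, from `MgcRat` -/
theorem mgcb_rat {u₀ : ↥(mgcF A K₁ N)} (hR : MgcRat A K₁ N u₀)
    (P : Place ↥(mgcE A K₁) ↥(mgcF A K₁ N)) (hP : P.ord u₀ ≠ 0) :
    ∀ f ∈ P.toValuationSubring, ∃ c : ↥(mgcE A K₁),
      f - algebraMap ↥(mgcE A K₁) ↥(mgcF A K₁ N) c ∈ P.toValuationSubring.nonunits := by
  refine hR P (1 : ↥(mgcE A K₁) ≃+* ↥(mgcE A K₁)) (1 : NfQb ≃ₐ[ℚ] NfQb) (fun a => rfl) ?_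
  rw [map_one, one_smul]
  exact hP

/-- **(G5)**: the last conjunct of `MgcData`. -/
theorem mgcb_G5 [IsDiscreteValuationRing ↥(mgcA A K₁)]
    (hq : q.Prime) (hA : A.LiesOverPrime q)
    (hπu₁ : ¬ IsUnit (algebraMap ↥(beta0Ring A (beta0Field A))
      (integralClosure (Algebra.adjoin ↥(beta0Ring A (beta0Field A)) {bgJ ↥(beta0Field A) N})
        (modularFunctionFieldFullC ↥(beta0Field A) N))
      ((q : ℕ) : ↥(beta0Ring A (beta0Field A)))))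
    (hred₁ : ∀ c : integralClosure
        (Algebra.adjoin ↥(beta0Ring A (beta0Field A)) {bgJ ↥(beta0Field A) N})
        (modularFunctionFieldFullC ↥(beta0Field A) N),
      algebraMap ↥(beta0Ring A (beta0Field A)) (integralClosure
        (Algebra.adjoin ↥(beta0Ring A (beta0Field A)) {bgJ ↥(beta0Field A) N})
        (modularFunctionFieldFullC ↥(beta0Field A) N))
          ((q : ℕ) : ↥(beta0Ring A (beta0Field A))) ∣ c ^ 2 →
      algebraMap ↥(beta0Ring A (beta0Field A)) (integralClosure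
        (Algebra.adjoin ↥(beta0Ring A (beta0Field A)) {bgJ ↥(beta0Field A) N})
        (modularFunctionFieldFullC ↥(beta0Field A) N))
          ((q : ℕ) : ↥(beta0Ring A (beta0Field A))) ∣ c)
    (hU5₁ : ∀ 𝔫 : Ideal (integralClosure
        (Algebra.adjoin ↥(beta0Ring A (beta0Field A)) {bgJ ↥(beta0Field A) N})
        (modularFunctionFieldFullC ↥(beta0Field A) N)), 𝔫.IsMaximal →
      algebraMap ↥(beta0Ring A (beta0Field A)) (integralClosure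
        (Algebra.adjoin ↥(beta0Ring A (beta0Field A)) {bgJ ↥(beta0Field A) N})
        (modularFunctionFieldFullC ↥(beta0Field A) N))
          ((q : ℕ) : ↥(beta0Ring A (beta0Field A))) ∈ 𝔫 →
      (∃ s ∈ 𝔫, NodesLocGen 𝔫 {algebraMap ↥(beta0Ring A (beta0Field A)) (integralClosure
        (Algebra.adjoin ↥(beta0Ring A (beta0Field A)) {bgJ ↥(beta0Field A) N})
        (modularFunctionFieldFullC ↥(beta0Field A) N))
          ((q : ℕ) : ↥(beta0Ring A (beta0Field A))), s}) ∨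
      (∃ X Y : integralClosure (Algebra.adjoin ↥(beta0Ring A (beta0Field A)) {bgJ ↥(beta0Field A) N})
          (modularFunctionFieldFullC ↥(beta0Field A) N),
        X ∈ 𝔫 ∧ Y ∈ 𝔫 ∧
        algebraMap ↥(beta0Ring A (beta0Field A)) (integralClosure
          (Algebra.adjoin ↥(beta0Ring A (beta0Field A)) {bgJ ↥(beta0Field A) N})
          (modularFunctionFieldFullC ↥(beta0Field A) N))
            ((q : ℕ) : ↥(beta0Ring A (beta0Field A))) ∣ X * Y ∧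
        NodesLocGen 𝔫 {algebraMap ↥(beta0Ring A (beta0Field A)) (integralClosure
          (Algebra.adjoin ↥(beta0Ring A (beta0Field A)) {bgJ ↥(beta0Field A) N})
          (modularFunctionFieldFullC ↥(beta0Field A) N))
            ((q : ℕ) : ↥(beta0Ring A (beta0Field A))), X, Y}))
    (hπu₂ : ¬ IsUnit (algebraMap ↥(beta0Ring A (beta0Field A))
      (integralClosure (Algebra.adjoin ↥(beta0Ring A (beta0Field A)) {(bgJ ↥(beta0Field A) N)⁻¹})
        (modularFunctionFieldFullC ↥(beta0Field A) N))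
      ((q : ℕ) : ↥(beta0Ring A (beta0Field A)))))
    (hred₂ : ∀ c : integralClosure
        (Algebra.adjoin ↥(beta0Ring A (beta0Field A)) {(bgJ ↥(beta0Field A) N)⁻¹})
        (modularFunctionFieldFullC ↥(beta0Field A) N),
      algebraMap ↥(beta0Ring A (beta0Field A)) (integralClosure
        (Algebra.adjoin ↥(beta0Ring A (beta0Field A)) {(bgJ ↥(beta0Field A) N)⁻¹})
        (modularFunctionFieldFullC ↥(beta0Field A) N))
          ((q : ℕ) : ↥(beta0Ring A (beta0Field A))) ∣ c ^ 2 →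
      algebraMap ↥(beta0Ring A (beta0Field A)) (integralClosure
        (Algebra.adjoin ↥(beta0Ring A (beta0Field A)) {(bgJ ↥(beta0Field A) N)⁻¹})
        (modularFunctionFieldFullC ↥(beta0Field A) N))
          ((q : ℕ) : ↥(beta0Ring A (beta0Field A))) ∣ c)
    (hU5₂ : ∀ 𝔫 : Ideal (integralClosure
        (Algebra.adjoin ↥(beta0Ring A (beta0Field A)) {(bgJ ↥(beta0Field A) N)⁻¹})
        (modularFunctionFieldFullC ↥(beta0Field A) N)), 𝔫.IsMaximal →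
      algebraMap ↥(beta0Ring A (beta0Field A)) (integralClosure
        (Algebra.adjoin ↥(beta0Ring A (beta0Field A)) {(bgJ ↥(beta0Field A) N)⁻¹})
        (modularFunctionFieldFullC ↥(beta0Field A) N))
          ((q : ℕ) : ↥(beta0Ring A (beta0Field A))) ∈ 𝔫 →
      (∃ s ∈ 𝔫, NodesLocGen 𝔫 {algebraMap ↥(beta0Ring A (beta0Field A)) (integralClosure
        (Algebra.adjoin ↥(beta0Ring A (beta0Field A)) {(bgJ ↥(beta0Field A) N)⁻¹})
        (modularFunctionFieldFullC ↥(beta0Field A) N))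
          ((q : ℕ) : ↥(beta0Ring A (beta0Field A))), s}) ∨
      (∃ X Y : integralClosure (Algebra.adjoin ↥(beta0Ring A (beta0Field A)) {(bgJ ↥(beta0Field A) N)⁻¹})
          (modularFunctionFieldFullC ↥(beta0Field A) N),
        X ∈ 𝔫 ∧ Y ∈ 𝔫 ∧
        algebraMap ↥(beta0Ring A (beta0Field A)) (integralClosure
          (Algebra.adjoin ↥(beta0Ring A (beta0Field A)) {(bgJ ↥(beta0Field A) N)⁻¹})
          (modularFunctionFieldFullC ↥(beta0Field A) N))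
            ((q : ℕ) : ↥(beta0Ring A (beta0Field A))) ∣ X * Y ∧
        NodesLocGen 𝔫 {algebraMap ↥(beta0Ring A (beta0Field A)) (integralClosure
          (Algebra.adjoin ↥(beta0Ring A (beta0Field A)) {(bgJ ↥(beta0Field A) N)⁻¹})
          (modularFunctionFieldFullC ↥(beta0Field A) N))
            ((q : ℕ) : ↥(beta0Ring A (beta0Field A))), X, Y}))
    {π : ↥(mgcA A K₁)} (hπ : Irreducible π)
    {σ : NfQb ≃ₐ[ℚ] NfQb} (hσ : σ ∈ A.inertiaSubgroupIn ℚ)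
    (hσE : ∀ x ∈ mgcE A K₁, σ x ∈ mgcE A K₁) :
    ∀ u₀ : ↥(mgcF A K₁ N), u₀ ≠ 0 → MgcRat A K₁ N u₀ →
      (∀ 𝔫 : AtPt (F := ↥(mgcF A K₁ N)) π (mgcT A K₁ N),
        ∀ P : Place ↥(mgcE A K₁) ↥(mgcF A K₁ N),
        LsTube ↥(zchClosure (A₀ := ↥(mgcA A K₁)) ({(mgcT A K₁ N)} : Set ↥(mgcF A K₁ N)))
          (mgcT A K₁ N) 𝔫.1 P →
        mgcGal N σ hσE • P ≠ P → P.ord u₀ ≠ 0 →
        ∃ f : ↥(mgcF A K₁ N), f ≠ 0 ∧ P.ord f = 1 ∧
          ∀ Q : Place ↥(mgcE A K₁) ↥(mgcF A K₁ N),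
          LsTube ↥(zchClosure (A₀ := ↥(mgcA A K₁)) ({(mgcT A K₁ N)} : Set ↥(mgcF A K₁ N)))
            (mgcT A K₁ N) 𝔫.1 Q →
          mgcGal N σ hσE • Q ≠ Q → Q ≠ P → Q.ord f = 0) ∧
      (∀ 𝔫 : AtPt (F := ↥(mgcF A K₁ N)) π (mgcT A K₁ N)⁻¹,
        ∀ P : Place ↥(mgcE A K₁) ↥(mgcF A K₁ N),
        LsTube ↥(zchClosure (A₀ := ↥(mgcA A K₁)) ({(mgcT A K₁ N)⁻¹} : Set ↥(mgcF A K₁ N)))
          (mgcT A K₁ N)⁻¹ 𝔫.1 P →
        mgcGal N σ hσE • P ≠ P → P.ord u₀ ≠ 0 →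
        ∃ f : ↥(mgcF A K₁ N), f ≠ 0 ∧ P.ord f = 1 ∧
          ∀ Q : Place ↥(mgcE A K₁) ↥(mgcF A K₁ N),
          LsTube ↥(zchClosure (A₀ := ↥(mgcA A K₁)) ({(mgcT A K₁ N)⁻¹} : Set ↥(mgcF A K₁ N)))
            (mgcT A K₁ N)⁻¹ 𝔫.1 Q →
          mgcGal N σ hσE • Q ≠ Q → Q ≠ P → Q.ord f = 0) :=
  fun u₀ _ hR =>
    ⟨fun 𝔫 P hP hgP hPu => mgcb_hcoord_j K₁ N hq hA hπu₁ hred₁ hU5₁ hπ hσ hσE 𝔫 P hP hgP
        (mgcb_rat K₁ N hR P hPu),
      fun 𝔫 P hP hgP hPu => mgcb_hcoord_jinv K₁ N hq hA hπu₂ hred₂ hU5₂ hπ hσ hσE 𝔫 P hP hgP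
        (mgcb_rat K₁ N hR P hPu)⟩

end Data

end Fermat.Agent.UNIP
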