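import Fermat.Agent.UNIP.MGDataSS1
import Fermat.Agent.UNIP.MGChartsBeta0Data
import Fermat.Agent.UNIP.MGVertLocMain

/-!
# UNIP MG-5, part 6: `MgcData` from the output of U5 at the base

`mgcData_of_base` : `MgcData A K₁ (M * q) σ τ hσ hτ` from the output of U5 on the two charts
`j`, `1 / j` of `F_{Mq}(ℚ̄^I)` over `A₀ = A ∩ ℚ̄^I` (uniformizer `q`): `hπu`, `hred`, `hU5`
(the dichotomy smooth point / crossing) and (SS1) for the two vertical valuation rings `mgvV`.

All other conjuncts are proved: the V-block (`MGVertInertia`, `MGVertLocMain`, helper91), the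
`AtTrivMod`s and the coordinates (`MGChartsBeta0*`, helper16), `hSS1` (`MGDataSS1`).
-/

set_option autoImplicit false
set_option linter.style.haveILetI false
set_option linter.unusedSectionVars false
set_option linter.unusedVariables false

noncomputable section

namespace Fermat.Agent.UNIP

open ModularCurve AlgebraicCurve Fermat.Agent.ES Fermat.Agent.ES.G2 Fermat.Agent.INJ
open IntermediateField

section Base

set_option synthInstance.maxHeartbeats 400000 in
set_option maxHeartbeats 3200000 in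
/-- **The output of U5 at the base** `A₀ = A ∩ ℚ̄^I` (uniformizer `q`), level `M q`: on the two
charts `j`, `1 / j` of `F_{Mq}(ℚ̄^I)`, `q` is not a unit, the special fibre is reduced, every
closed point of the special fibre is a smooth point or a crossing; and (SS1) for the two vertical
valuation rings. -/
def MgcBase (A : ValuationSubring Qb) (M q : ℕ) [NeZero M] [NeZero q] [NeZero (M * q)]
    [IsDiscreteValuationRing ↥(beta0Ring A (beta0Field A))] (hq : q.Prime) (hqM : ¬ q ∣ M)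
    (hπ₀ : Irreducible ((q : ℕ) : ↥(beta0Ring A (beta0Field A)))) : Prop :=
  (¬ IsUnit (algebraMap ↥(beta0Ring A (beta0Field A))
        (integralClosure
          (Algebra.adjoin ↥(beta0Ring A (beta0Field A)) {bgJ ↥(beta0Field A) (M * q)})
          (modularFunctionFieldFullC ↥(beta0Field A) (M * q)))
        ((q : ℕ) : ↥(beta0Ring A (beta0Field A))))) ∧
  (∀ c : integralClosure
          (Algebra.adjoin ↥(beta0Ring A (beta0Field A)) {bgJ ↥(beta0Field A) (M * q)})
          (modularFunctionFieldFullC ↥(beta0Field A) (M * q)),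
        algebraMap ↥(beta0Ring A (beta0Field A)) (integralClosure
          (Algebra.adjoin ↥(beta0Ring A (beta0Field A)) {bgJ ↥(beta0Field A) (M * q)})
          (modularFunctionFieldFullC ↥(beta0Field A) (M * q)))
            ((q : ℕ) : ↥(beta0Ring A (beta0Field A))) ∣ c ^ 2 →
        algebraMap ↥(beta0Ring A (beta0Field A)) (integralClosure
          (Algebra.adjoin ↥(beta0Ring A (beta0Field A)) {bgJ ↥(beta0Field A) (M * q)})
          (modularFunctionFieldFullC ↥(beta0Field A) (M * q)))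
            ((q : ℕ) : ↥(beta0Ring A (beta0Field A))) ∣ c) ∧
  (∀ 𝔫 : Ideal (integralClosure
          (Algebra.adjoin ↥(beta0Ring A (beta0Field A)) {bgJ ↥(beta0Field A) (M * q)})
          (modularFunctionFieldFullC ↥(beta0Field A) (M * q))), 𝔫.IsMaximal →
        algebraMap ↥(beta0Ring A (beta0Field A)) (integralClosure
          (Algebra.adjoin ↥(beta0Ring A (beta0Field A)) {bgJ ↥(beta0Field A) (M * q)})
          (modularFunctionFieldFullC ↥(beta0Field A) (M * q)))
            ((q : ℕ) : ↥(beta0Ring A (beta0Field A))) ∈ 𝔫 →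
        (∃ s ∈ 𝔫, NodesLocGen 𝔫 {algebraMap ↥(beta0Ring A (beta0Field A)) (integralClosure
          (Algebra.adjoin ↥(beta0Ring A (beta0Field A)) {bgJ ↥(beta0Field A) (M * q)})
          (modularFunctionFieldFullC ↥(beta0Field A) (M * q)))
            ((q : ℕ) : ↥(beta0Ring A (beta0Field A))), s}) ∨
        (∃ X Y : integralClosure
            (Algebra.adjoin ↥(beta0Ring A (beta0Field A)) {bgJ ↥(beta0Field A) (M * q)})
            (modularFunctionFieldFullC ↥(beta0Field A) (M * q)),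
          X ∈ 𝔫 ∧ Y ∈ 𝔫 ∧
          algebraMap ↥(beta0Ring A (beta0Field A)) (integralClosure
            (Algebra.adjoin ↥(beta0Ring A (beta0Field A)) {bgJ ↥(beta0Field A) (M * q)})
            (modularFunctionFieldFullC ↥(beta0Field A) (M * q)))
              ((q : ℕ) : ↥(beta0Ring A (beta0Field A))) ∣ X * Y ∧
          NodesLocGen 𝔫 {algebraMap ↥(beta0Ring A (beta0Field A)) (integralClosure
            (Algebra.adjoin ↥(beta0Ring A (beta0Field A)) {bgJ ↥(beta0Field A) (M * q)})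
            (modularFunctionFieldFullC ↥(beta0Field A) (M * q)))
              ((q : ℕ) : ↥(beta0Ring A (beta0Field A))), X, Y})) ∧
  (¬ IsUnit (algebraMap ↥(beta0Ring A (beta0Field A))
        (integralClosure
          (Algebra.adjoin ↥(beta0Ring A (beta0Field A)) {(bgJ ↥(beta0Field A) (M * q))⁻¹})
          (modularFunctionFieldFullC ↥(beta0Field A) (M * q)))
        ((q : ℕ) : ↥(beta0Ring A (beta0Field A))))) ∧
  (∀ c : integralClosure
          (Algebra.adjoin ↥(beta0Ring A (beta0Field A)) {(bgJ ↥(beta0Field A) (M * q))⁻¹})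
          (modularFunctionFieldFullC ↥(beta0Field A) (M * q)),
        algebraMap ↥(beta0Ring A (beta0Field A)) (integralClosure
          (Algebra.adjoin ↥(beta0Ring A (beta0Field A)) {(bgJ ↥(beta0Field A) (M * q))⁻¹})
          (modularFunctionFieldFullC ↥(beta0Field A) (M * q)))
            ((q : ℕ) : ↥(beta0Ring A (beta0Field A))) ∣ c ^ 2 →
        algebraMap ↥(beta0Ring A (beta0Field A)) (integralClosure
          (Algebra.adjoin ↥(beta0Ring A (beta0Field A)) {(bgJ ↥(beta0Field A) (M * q))⁻¹})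
          (modularFunctionFieldFullC ↥(beta0Field A) (M * q)))
            ((q : ℕ) : ↥(beta0Ring A (beta0Field A))) ∣ c) ∧
  (∀ 𝔫 : Ideal (integralClosure
          (Algebra.adjoin ↥(beta0Ring A (beta0Field A)) {(bgJ ↥(beta0Field A) (M * q))⁻¹})
          (modularFunctionFieldFullC ↥(beta0Field A) (M * q))), 𝔫.IsMaximal →
        algebraMap ↥(beta0Ring A (beta0Field A)) (integralClosure
          (Algebra.adjoin ↥(beta0Ring A (beta0Field A)) {(bgJ ↥(beta0Field A) (M * q))⁻¹})
          (modularFunctionFieldFullC ↥(beta0Field A) (M * q)))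
            ((q : ℕ) : ↥(beta0Ring A (beta0Field A))) ∈ 𝔫 →
        (∃ s ∈ 𝔫, NodesLocGen 𝔫 {algebraMap ↥(beta0Ring A (beta0Field A)) (integralClosure
          (Algebra.adjoin ↥(beta0Ring A (beta0Field A)) {(bgJ ↥(beta0Field A) (M * q))⁻¹})
          (modularFunctionFieldFullC ↥(beta0Field A) (M * q)))
            ((q : ℕ) : ↥(beta0Ring A (beta0Field A))), s}) ∨
        (∃ X Y : integralClosure
            (Algebra.adjoin ↥(beta0Ring A (beta0Field A)) {(bgJ ↥(beta0Field A) (M * q))⁻¹})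
            (modularFunctionFieldFullC ↥(beta0Field A) (M * q)),
          X ∈ 𝔫 ∧ Y ∈ 𝔫 ∧
          algebraMap ↥(beta0Ring A (beta0Field A)) (integralClosure
            (Algebra.adjoin ↥(beta0Ring A (beta0Field A)) {(bgJ ↥(beta0Field A) (M * q))⁻¹})
            (modularFunctionFieldFullC ↥(beta0Field A) (M * q)))
              ((q : ℕ) : ↥(beta0Ring A (beta0Field A))) ∣ X * Y ∧
          NodesLocGen 𝔫 {algebraMap ↥(beta0Ring A (beta0Field A)) (integralClosure
            (Algebra.adjoin ↥(beta0Ring A (beta0Field A)) {(bgJ ↥(beta0Field A) (M * q))⁻¹})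
            (modularFunctionFieldFullC ↥(beta0Field A) (M * q)))
              ((q : ℕ) : ↥(beta0Ring A (beta0Field A))), X, Y})) ∧
  (∀ x : integralClosure
          (Algebra.adjoin ↥(beta0Ring A (beta0Field A)) {bgJ ↥(beta0Field A) (M * q)})
          (modularFunctionFieldFullC ↥(beta0Field A) (M * q)),
        (∀ c, (x : ↥(modularFunctionFieldFullC ↥(beta0Field A) (M * q))) ∈
          (mgvV hπ₀ (mgdIota (beta0Field A)) hq hqM c).nonunits) →
        algebraMap ↥(beta0Ring A (beta0Field A)) (integralClosure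
          (Algebra.adjoin ↥(beta0Ring A (beta0Field A)) {bgJ ↥(beta0Field A) (M * q)})
          (modularFunctionFieldFullC ↥(beta0Field A) (M * q)))
            ((q : ℕ) : ↥(beta0Ring A (beta0Field A))) ∣ x)

end Base

section AssemblyBase

variable {A : ValuationSubring Qb} (K₁ : IntermediateField ℚ Qb) [NumberField K₁]
  [IsGalois ℚ K₁] {M q : ℕ} [NeZero M] [NeZero q] [NeZero (M * q)]
  [IsDiscreteValuationRing ↥(mgcA A K₁)]
  [IsDiscreteValuationRing ↥(beta0Ring A (beta0Field A))]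

set_option synthInstance.maxHeartbeats 400000 in
set_option maxHeartbeats 3200000 in
/-- **Assembly of `MgcData`** from the output of U5 at the base. -/
theorem mgcData_of_base (hq : q.Prime) (hqM : ¬ q ∣ M) (hA : A.LiesOverPrime q)
    (hπ₀ : Irreducible ((q : ℕ) : ↥(beta0Ring A (beta0Field A))))
    (σ : Qb ≃ₐ[ℚ] Qb) (hσI : σ ∈ A.inertiaSubgroupIn ℚ)
    (τ : Qb ≃ₐ[ℚ] Qb) (hτI : τ ∈ A.inertiaSubgroupIn ℚ)
    (hσ : ∀ x ∈ mgcE A K₁, σ x ∈ mgcE A K₁) (hτ : ∀ x ∈ mgcE A K₁, τ x ∈ mgcE A K₁)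
    -- U5 at the base, chart `j`
    (hπu₁ : ¬ IsUnit (algebraMap ↥(beta0Ring A (beta0Field A))
      (integralClosure
        (Algebra.adjoin ↥(beta0Ring A (beta0Field A)) {bgJ ↥(beta0Field A) (M * q)})
        (modularFunctionFieldFullC ↥(beta0Field A) (M * q)))
      ((q : ℕ) : ↥(beta0Ring A (beta0Field A)))))
    (hred₁ : ∀ c : integralClosure
        (Algebra.adjoin ↥(beta0Ring A (beta0Field A)) {bgJ ↥(beta0Field A) (M * q)})
        (modularFunctionFieldFullC ↥(beta0Field A) (M * q)),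
      algebraMap ↥(beta0Ring A (beta0Field A)) (integralClosure
        (Algebra.adjoin ↥(beta0Ring A (beta0Field A)) {bgJ ↥(beta0Field A) (M * q)})
        (modularFunctionFieldFullC ↥(beta0Field A) (M * q)))
          ((q : ℕ) : ↥(beta0Ring A (beta0Field A))) ∣ c ^ 2 →
      algebraMap ↥(beta0Ring A (beta0Field A)) (integralClosure
        (Algebra.adjoin ↥(beta0Ring A (beta0Field A)) {bgJ ↥(beta0Field A) (M * q)})
        (modularFunctionFieldFullC ↥(beta0Field A) (M * q)))
          ((q : ℕ) : ↥(beta0Ring A (beta0Field A))) ∣ c)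
    (hU5₁ : ∀ 𝔫 : Ideal (integralClosure
        (Algebra.adjoin ↥(beta0Ring A (beta0Field A)) {bgJ ↥(beta0Field A) (M * q)})
        (modularFunctionFieldFullC ↥(beta0Field A) (M * q))), 𝔫.IsMaximal →
      algebraMap ↥(beta0Ring A (beta0Field A)) (integralClosure
        (Algebra.adjoin ↥(beta0Ring A (beta0Field A)) {bgJ ↥(beta0Field A) (M * q)})
        (modularFunctionFieldFullC ↥(beta0Field A) (M * q)))
          ((q : ℕ) : ↥(beta0Ring A (beta0Field A))) ∈ 𝔫 →
      (∃ s ∈ 𝔫, NodesLocGen 𝔫 {algebraMap ↥(beta0Ring A (beta0Field A)) (integralClosure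
        (Algebra.adjoin ↥(beta0Ring A (beta0Field A)) {bgJ ↥(beta0Field A) (M * q)})
        (modularFunctionFieldFullC ↥(beta0Field A) (M * q)))
          ((q : ℕ) : ↥(beta0Ring A (beta0Field A))), s}) ∨
      (∃ X Y : integralClosure
          (Algebra.adjoin ↥(beta0Ring A (beta0Field A)) {bgJ ↥(beta0Field A) (M * q)})
          (modularFunctionFieldFullC ↥(beta0Field A) (M * q)),
        X ∈ 𝔫 ∧ Y ∈ 𝔫 ∧
        algebraMap ↥(beta0Ring A (beta0Field A)) (integralClosure
          (Algebra.adjoin ↥(beta0Ring A (beta0Field A)) {bgJ ↥(beta0Field A) (M * q)})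
          (modularFunctionFieldFullC ↥(beta0Field A) (M * q)))
            ((q : ℕ) : ↥(beta0Ring A (beta0Field A))) ∣ X * Y ∧
        NodesLocGen 𝔫 {algebraMap ↥(beta0Ring A (beta0Field A)) (integralClosure
          (Algebra.adjoin ↥(beta0Ring A (beta0Field A)) {bgJ ↥(beta0Field A) (M * q)})
          (modularFunctionFieldFullC ↥(beta0Field A) (M * q)))
            ((q : ℕ) : ↥(beta0Ring A (beta0Field A))), X, Y}))
    -- U5 at the base, chart `1 / j`
    (hπu₂ : ¬ IsUnit (algebraMap ↥(beta0Ring A (beta0Field A))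
      (integralClosure
        (Algebra.adjoin ↥(beta0Ring A (beta0Field A)) {(bgJ ↥(beta0Field A) (M * q))⁻¹})
        (modularFunctionFieldFullC ↥(beta0Field A) (M * q)))
      ((q : ℕ) : ↥(beta0Ring A (beta0Field A)))))
    (hred₂ : ∀ c : integralClosure
        (Algebra.adjoin ↥(beta0Ring A (beta0Field A)) {(bgJ ↥(beta0Field A) (M * q))⁻¹})
        (modularFunctionFieldFullC ↥(beta0Field A) (M * q)),
      algebraMap ↥(beta0Ring A (beta0Field A)) (integralClosure
        (Algebra.adjoin ↥(beta0Ring A (beta0Field A)) {(bgJ ↥(beta0Field A) (M * q))⁻¹})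
        (modularFunctionFieldFullC ↥(beta0Field A) (M * q)))
          ((q : ℕ) : ↥(beta0Ring A (beta0Field A))) ∣ c ^ 2 →
      algebraMap ↥(beta0Ring A (beta0Field A)) (integralClosure
        (Algebra.adjoin ↥(beta0Ring A (beta0Field A)) {(bgJ ↥(beta0Field A) (M * q))⁻¹})
        (modularFunctionFieldFullC ↥(beta0Field A) (M * q)))
          ((q : ℕ) : ↥(beta0Ring A (beta0Field A))) ∣ c)
    (hU5₂ : ∀ 𝔫 : Ideal (integralClosure
        (Algebra.adjoin ↥(beta0Ring A (beta0Field A)) {(bgJ ↥(beta0Field A) (M * q))⁻¹})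
        (modularFunctionFieldFullC ↥(beta0Field A) (M * q))), 𝔫.IsMaximal →
      algebraMap ↥(beta0Ring A (beta0Field A)) (integralClosure
        (Algebra.adjoin ↥(beta0Ring A (beta0Field A)) {(bgJ ↥(beta0Field A) (M * q))⁻¹})
        (modularFunctionFieldFullC ↥(beta0Field A) (M * q)))
          ((q : ℕ) : ↥(beta0Ring A (beta0Field A))) ∈ 𝔫 →
      (∃ s ∈ 𝔫, NodesLocGen 𝔫 {algebraMap ↥(beta0Ring A (beta0Field A)) (integralClosure
        (Algebra.adjoin ↥(beta0Ring A (beta0Field A)) {(bgJ ↥(beta0Field A) (M * q))⁻¹})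
        (modularFunctionFieldFullC ↥(beta0Field A) (M * q)))
          ((q : ℕ) : ↥(beta0Ring A (beta0Field A))), s}) ∨
      (∃ X Y : integralClosure
          (Algebra.adjoin ↥(beta0Ring A (beta0Field A)) {(bgJ ↥(beta0Field A) (M * q))⁻¹})
          (modularFunctionFieldFullC ↥(beta0Field A) (M * q)),
        X ∈ 𝔫 ∧ Y ∈ 𝔫 ∧
        algebraMap ↥(beta0Ring A (beta0Field A)) (integralClosure
          (Algebra.adjoin ↥(beta0Ring A (beta0Field A)) {(bgJ ↥(beta0Field A) (M * q))⁻¹})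
          (modularFunctionFieldFullC ↥(beta0Field A) (M * q)))
            ((q : ℕ) : ↥(beta0Ring A (beta0Field A))) ∣ X * Y ∧
        NodesLocGen 𝔫 {algebraMap ↥(beta0Ring A (beta0Field A)) (integralClosure
          (Algebra.adjoin ↥(beta0Ring A (beta0Field A)) {(bgJ ↥(beta0Field A) (M * q))⁻¹})
          (modularFunctionFieldFullC ↥(beta0Field A) (M * q)))
            ((q : ℕ) : ↥(beta0Ring A (beta0Field A))), X, Y}))
    -- (SS1) at the base, for the two vertical valuation rings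
    (hSS1₀ : ∀ x : integralClosure
        (Algebra.adjoin ↥(beta0Ring A (beta0Field A)) {bgJ ↥(beta0Field A) (M * q)})
        (modularFunctionFieldFullC ↥(beta0Field A) (M * q)),
      (∀ c, (x : ↥(modularFunctionFieldFullC ↥(beta0Field A) (M * q))) ∈
        (mgvV hπ₀ (mgdIota (beta0Field A)) hq hqM c).nonunits) →
      algebraMap ↥(beta0Ring A (beta0Field A)) (integralClosure
        (Algebra.adjoin ↥(beta0Ring A (beta0Field A)) {bgJ ↥(beta0Field A) (M * q)})
        (modularFunctionFieldFullC ↥(beta0Field A) (M * q)))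
          ((q : ℕ) : ↥(beta0Ring A (beta0Field A))) ∣ x) :
    MgcData A K₁ (M * q) σ τ hσ hτ := by
  obtain ⟨π, hπ⟩ := IsDiscreteValuationRing.exists_irreducible ↥(mgcA A K₁)
  have hSS1 := mgd_hSS1 K₁ hq hqM hA hπ hπ₀ (mgdIota (beta0Field A)) (mgdIota (mgcE A K₁))
    hπu₁ hred₁ hSS1₀
  exact mgcData_of K₁ hq hqM hA hπ σ hσI τ hτI hσ hτ hπu₁ hred₁ hπu₂ hred₂ hSS1
    (mgv_hVloc₁ hπ (mgdIota (mgcE A K₁)) hq hqM hA hSS1)
    (mgv_hVloc₂ hπ (mgdIota (mgcE A K₁)) hq hqM hA hSS1)
    (mgcb_G5 K₁ (M * q) hq hA hπu₁ hred₁ hU5₁ hπu₂ hred₂ hU5₂ hπ hσI hσ)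

end AssemblyBase

section All

set_option synthInstance.maxHeartbeats 400000 in
set_option maxHeartbeats 3200000 in
/-- `MgcData` at all levels `N`, `q ∥ N`, from the output of U5 at the base. -/
theorem mgcData_all_of_base
    (h : ∀ (M q : ℕ) [NeZero M] [NeZero q] [NeZero (M * q)] (hq : q.Prime) (hqM : ¬ q ∣ M),
      (q = 2 → 3 ∣ M) → (q = 3 → 2 ∣ M) →
      ∀ (A : ValuationSubring Qb) (_ : A.LiesOverPrime q)
        [IsDiscreteValuationRing ↥(beta0Ring A (beta0Field A))]
        (hπ₀ : Irreducible ((q : ℕ) : ↥(beta0Ring A (beta0Field A)))),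
        MgcBase A M q hq hqM hπ₀)
    (N : ℕ) [NeZero N] (q : ℕ) (hq : q.Prime) (hqN : q ∣ N) (hq2 : ¬ q ^ 2 ∣ N)
    (h2 : q = 2 → 3 ∣ N) (h3 : q = 3 → 2 ∣ N)
    (A : ValuationSubring Qb) (hA : A.LiesOverPrime q) (K₁ : IntermediateField ℚ Qb)
    [NumberField K₁] [IsGalois ℚ K₁] [IsDiscreteValuationRing ↥(mgcA A K₁)]
    (σ : Qb ≃ₐ[ℚ] Qb) (hσI : σ ∈ A.inertiaSubgroupIn ℚ)
    (τ : Qb ≃ₐ[ℚ] Qb) (hτI : τ ∈ A.inertiaSubgroupIn ℚ)
    (hσ : ∀ x ∈ mgcE A K₁, σ x ∈ mgcE A K₁) (hτ : ∀ x ∈ mgcE A K₁, τ x ∈ mgcE A K₁) :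
    MgcData A K₁ N σ τ hσ hτ := by
  obtain ⟨M, hM⟩ := hqN
  have hN : N = M * q := by rw [hM, mul_comm]
  subst hN
  have hM0 : M ≠ 0 := fun h0 => NeZero.ne (M * q) (by rw [h0, zero_mul])
  haveI : NeZero M := ⟨hM0⟩
  haveI : NeZero q := ⟨hq.ne_zero⟩
  have hqM : ¬ q ∣ M := by
    rintro ⟨M', rfl⟩
    exact hq2 ⟨M', by ring⟩
  have h2' : q = 2 → 3 ∣ M := fun hq2' => by
    have := h2 hq2'
    subst hq2'
    exact (Nat.Coprime.dvd_mul_right (by norm_num : Nat.Coprime 3 2)).1 this
  have h3' : q = 3 → 2 ∣ M := fun hq3' => by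
    have := h3 hq3'
    subst hq3'
    exact (Nat.Coprime.dvd_mul_right (by norm_num : Nat.Coprime 2 3)).1 this
  haveI := beta0Ring_isDVR_base hq hA
  have hπ₀ := beta0Ring_irreducible_q hq hA
  obtain ⟨hπu₁, hred₁, hU5₁, hπu₂, hred₂, hU5₂, hSS1₀⟩ := h M q hq hqM h2' h3' A hA hπ₀
  exact mgcData_of_base K₁ hq hqM hA hπ₀ σ hσI τ hτI hσ hτ hπu₁ hred₁ hU5₁ hπu₂ hred₂ hU5₂ hSS1₀

/-- **MG-5, final form (base).**  `StmtUnipKummer` from the output of U5 at the base. -/
theorem stmtUnipKummer_of_base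
    (h : ∀ (M q : ℕ) [NeZero M] [NeZero q] [NeZero (M * q)] (hq : q.Prime) (hqM : ¬ q ∣ M),
      (q = 2 → 3 ∣ M) → (q = 3 → 2 ∣ M) →
      ∀ (A : ValuationSubring Qb) (_ : A.LiesOverPrime q)
        [IsDiscreteValuationRing ↥(beta0Ring A (beta0Field A))]
        (hπ₀ : Irreducible ((q : ℕ) : ↥(beta0Ring A (beta0Field A)))),
        MgcBase A M q hq hqM hπ₀) : StmtUnipKummer :=
  stmtUnipKummer_of_data fun N _ q hq hqN hq2 h2 h3 A hA K₁ _ _ _ σ hσI τ hτI hσ hτ =>
    mgcData_all_of_base h N q hq hqN hq2 h2 h3 A hA K₁ σ hσI τ hτI hσ hτ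

end All

end Fermat.Agent.UNIP
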