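/-
UNIP (S34/S35), direct route: THE OUTPUT OF U5 AT THE BASE, all inputs discharged (helper16).

`A` a valuation subring of `ℚ̄` over `q`, `q ∤ M`, (`q = 2 → 3 ∣ M`), (`q = 3 → 2 ∣ M`),
`A₀ = A ∩ ℚ̄^I` (uniformizer `q`):

* `mgcb_mgcBase : MgcBase A M q hq hqM hπ₀` (`MGDataAll.lean`, helper50): on the two charts `j`,
  `1 / j` of `F_{Mq}(ℚ̄^I)` over `A₀`, `q` is not a unit, the special fibre is reduced, every
  closed point of the special fibre is a smooth point or a crossing, and (SS1) holds for the two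
  vertical valuation rings;
* `mgcb_all_SS1` : `hSS1` of `MgcData` / `StbdInputs` over `A' = mgcA A K₁`, any `π`, any `ιC`;
* `mgcb_stmtUnipKummer : StmtUnipKummer`.

Inputs: U5 (`nodesReg_chart_J/_Jinv`, `nodesReg_ker_J/_Jinv`), `RegChart` at the base
(`stb_regChart_conc_J/_Jinv`, helper45), the Frobenius lift (`stbLift*`, helper45), existence of
Frobenius elements (`exists_isFrobeniusAt_of_liesOverPrime`), `hπu`, `hred` (`U5Concrete.lean`,
helper18), `MGChartsBeta0Reg.lean`, `MGChartsBeta0RegU5.lean`.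
-/
import Fermat.Agent.UNIP.MGDataAll
import Fermat.Agent.UNIP.MGChartsBeta0RegU5
import Fermat.Agent.UNIP.U5Concrete
import Fermat.Agent.Common.FrobExists

set_option autoImplicit false
set_option linter.style.haveILetI false
set_option linter.unusedSectionVars false
set_option linter.unusedVariables false
set_option linter.style.longLine false
set_option synthInstance.maxHeartbeats 400000
set_option maxHeartbeats 3200000

noncomputable section

namespace Fermat.Agent.UNIP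

open ModularCurve Polynomial IntermediateField Fermat.Agent.INJ Fermat.Agent.AL AlgebraicCurve
open Fermat.Agent.ES Fermat.Agent.ES.G2 Fermat.Agent.STB

section Base

variable {A : ValuationSubring Qb} {q M : ℕ} [NeZero M] [NeZero q] [NeZero (M * q)]
  [IsDiscreteValuationRing ↥(beta0Ring A (beta0Field A))]

/-- **The output of U5 at the base `A₀ = A ∩ ℚ̄^I`**, all inputs discharged. -/
theorem mgcb_mgcBase (hq : q.Prime) (hqM : ¬ q ∣ M) (hA : A.LiesOverPrime q)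
    (h2 : q = 2 → 3 ∣ M) (h3 : q = 3 → 2 ∣ M)
    (hπ₀ : Irreducible ((q : ℕ) : ↥(beta0Ring A (beta0Field A)))) :
    MgcBase A M q hq hqM hπ₀ := by
  obtain ⟨φ, hφF⟩ := Fermat.Agent.Common.exists_isFrobeniusAt_of_liesOverPrime q hq A hA
  have hφ : ∀ x ∈ beta0Field A, φ x ∈ beta0Field A :=
    stb_stable_beta0 hφF.mem_decompositionSubgroup
  have hJ : RegChart (E := ↥(beta0Field A)) ((q : ℕ) : ↥(beta0Ring A (beta0Field A)))
      (bgJ ↥(beta0Field A) M) :=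
    stb_regChart_conc_J M hq hA le_rfl hπ₀ hqM h2 h3
  have hJi : RegChart (E := ↥(beta0Field A)) ((q : ℕ) : ↥(beta0Ring A (beta0Field A)))
      (bgJ ↥(beta0Field A) M)⁻¹ :=
    stb_regChart_conc_Jinv M hq hA le_rfl hπ₀ hqM h2 h3
  exact ⟨u5c_hπu₁ hq hA hqM h2 h3, u5c_hred₁ hq hA hqM h2 h3,
    fun 𝔫 h𝔫 hπ𝔫 => mgcb_reg_hU5_J hπ₀ (mgdIota (beta0Field A)) hq hqM hA hφF hφ hJ 𝔫 h𝔫 hπ𝔫,
    u5c_hπu₂ hq hA hqM h2 h3, u5c_hred₂ hq hA hqM h2 h3,
    fun 𝔫 h𝔫 hπ𝔫 => mgcb_reg_hU5_Jinv hπ₀ (mgdIota (beta0Field A)) hq hqM hA hφF hφ hJi 𝔫 h𝔫 hπ𝔫,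
    fun x hx => mgcb_reg_ker_J hπ₀ (mgdIota (beta0Field A)) hq hqM hA hJ x hx⟩

end Base

section SS1

variable {A : ValuationSubring Qb} (K₁ : IntermediateField ℚ Qb)
  {q M : ℕ} [NeZero M] [NeZero q] [NeZero (M * q)]
  [IsDiscreteValuationRing ↥(mgcA A K₁)]

/-- **`hSS1` of `MgcData A K₁ (M * q) σ τ` / `StbdInputs`** for `V = mgvV hπ ιC hq hqM`, ANY
uniformizer `π` of `A' = mgcA A K₁`, ANY `ιC`; all inputs discharged (directly from U5 over
`A'`, `RegChart` at level `M` over `A'`). -/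
theorem mgcb_all_SS1 (hq : q.Prime) (hqM : ¬ q ∣ M) (hA : A.LiesOverPrime q)
    (h2 : q = 2 → 3 ∣ M) (h3 : q = 3 → 2 ∣ M)
    {π : ↥(mgcA A K₁)} (hπ : Irreducible π) (ιC : ↥(mgcE A K₁) →+* ℂ) :
    ∀ b : ↥(mgcF A K₁ (M * q)),
      IsIntegral ↥(Algebra.adjoin ↥(mgcA A K₁) {mgcT A K₁ (M * q)}) b →
      (∀ c, b ∈ (mgvV hπ ιC hq hqM c).nonunits) →
      ∃ b' : ↥(mgcF A K₁ (M * q)),
        IsIntegral ↥(Algebra.adjoin ↥(mgcA A K₁) {mgcT A K₁ (M * q)}) b' ∧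
        b = algebraMap ↥(mgcA A K₁) ↥(mgcF A K₁ (M * q)) π * b' :=
  mgcb_reg_SS1_J (K₀ := mgcE A K₁) hπ ιC hq hqM hA
    (stb_regChart_conc_J M hq hA le_sup_left hπ hqM h2 h3)

end SS1

/-- **`StmtUnipKummer`.** -/
theorem mgcb_stmtUnipKummer : StmtUnipKummer :=
  stmtUnipKummer_of_base fun M q _ _ _ hq hqM h2 h3 A hA _ hπ₀ =>
    mgcb_mgcBase hq hqM hA h2 h3 hπ₀

end Fermat.Agent.UNIP
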