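/-
UNIP / MG-4 (helper16), generic abstract part: a chart `R'` over the ramified base which has
"the same special fibre" as the chart `R` over the unramified base.

`j : R →+* R'` (= `B₀ → B'`), `ϖ : R'` (= `π'`), `p : R` (= `q`).
`MgcRamified j ϖ p` :  `ϖ ∣ j p`,  `R' = j R + ϖ R'`,  `ϖ ∣ j c → p ∣ c`.
(For the charts of the modular curve this is U8; see `MGChartsMain.lean`.)

* `mggEquiv : R ⧸ (p) ≃+* R' ⧸ (ϖ)`;
* `mggExt h ρ hρ : R' →+* S` : the extension of `ρ : R →+* S`, `ρ p = 0`, with `ϖ ↦ 0`;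
* `mggPrime h 𝔭 : Ideal R'` : the prime of `R'` over a prime `𝔭 ∋ p` of `R`
  (`x = j c + ϖ z ∈ mggPrime h 𝔭 ↔ c ∈ 𝔭`);
* `mgg_ker` (SS1)' for two maps, `mgg_vert` (SS1)' in the `vert` form of D2;
* `mgg_comap_isMaximal`, `mgg_mem_comap`;
* `mgg_locGen` (SS2)'/(SS3)' : `NodesLocGen (𝔫'.comap j) (insert p T) →
    NodesLocGen 𝔫' (insert ϖ (j '' T))`.
-/
import Fermat.Agent.UNIP.NodesMain
import Mathlib

set_option autoImplicit false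

namespace Fermat.Agent.UNIP

/-- The chart `R'` over the ramified base has the same special fibre as `R`. -/
structure MgcRamified {R R' : Type*} [CommRing R] [CommRing R'] (j : R →+* R') (ϖ : R')
    (p : R) : Prop where
  dvd : ϖ ∣ j p
  decomp : ∀ x : R', ∃ c : R, ∃ z : R', x = j c + ϖ * z
  cancel : ∀ c : R, ϖ ∣ j c → p ∣ c

/-- "`R / p` is reduced" from (SS1) in the two-components form. -/
theorem mgc_hred_of_ker {R S : Type*} [CommRing R] [CommRing S] [IsReduced S] {p : R}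
    {f g : R →+* S} (hf : f p = 0) (hg : g p = 0)
    (hker : ∀ x : R, f x = 0 → g x = 0 → p ∣ x) (c : R) (hc : p ∣ c ^ 2) : p ∣ c := by
  obtain ⟨d, hd⟩ := hc
  refine hker c ?_ ?_
  · have : f c ^ 2 = 0 := by rw [← map_pow, hd, map_mul, hf, zero_mul]
    exact pow_eq_zero_iff (two_ne_zero) |>.1 this
  · have : g c ^ 2 = 0 := by rw [← map_pow, hd, map_mul, hg, zero_mul]
    exact pow_eq_zero_iff (two_ne_zero) |>.1 this

/-- "`R / p` is reduced" from (SS1) in the `vert` form. -/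
theorem mgc_hred_of_vert {R : Type*} [CommRing R] {p : R} (vert : Finset (Ideal R))
    (hprime : ∀ 𝔭 ∈ vert, 𝔭.IsPrime) (hpv : ∀ 𝔭 ∈ vert, p ∈ 𝔭)
    (hSS1 : ∀ y : R, (∀ 𝔭 ∈ vert, y ∈ 𝔭) → p ∣ y) (c : R) (hc : p ∣ c ^ 2) : p ∣ c := by
  obtain ⟨d, hd⟩ := hc
  refine hSS1 c fun 𝔭 h𝔭 => ?_
  have := hprime 𝔭 h𝔭
  refine Ideal.IsPrime.mem_of_pow_mem this 2 ?_
  rw [hd]
  exact Ideal.mul_mem_right _ _ (hpv 𝔭 h𝔭)

/-- `p` is not a unit if it is killed by a map to a nontrivial ring. -/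
theorem mgc_not_isUnit_of_map_eq_zero {R S : Type*} [CommRing R] [CommRing S] [Nontrivial S]
    {p : R} (f : R →+* S) (hf : f p = 0) : ¬ IsUnit p := fun h => by
  have := h.map f
  rw [hf] at this
  exact not_isUnit_zero this

namespace MgcRamified

variable {R R' S : Type*} [CommRing R] [CommRing R'] [CommRing S]
  {j : R →+* R'} {ϖ : R'} {p : R}

/-- The map `R / p → R' / ϖ`. -/
noncomputable def fibreHom (h : MgcRamified j ϖ p) :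
    R ⧸ Ideal.span {p} →+* R' ⧸ Ideal.span {ϖ} :=
  Ideal.Quotient.lift _ ((Ideal.Quotient.mk _).comp j) (by
    intro a ha
    obtain ⟨b, rfl⟩ := Ideal.mem_span_singleton.1 ha
    rw [RingHom.comp_apply, Ideal.Quotient.eq_zero_iff_mem, Ideal.mem_span_singleton, map_mul]
    exact Dvd.dvd.mul_right h.dvd _)

@[simp] theorem fibreHom_mk (h : MgcRamified j ϖ p) (c : R) :
    h.fibreHom (Ideal.Quotient.mk _ c) = Ideal.Quotient.mk _ (j c) := rfl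

theorem fibreHom_bijective (h : MgcRamified j ϖ p) : Function.Bijective h.fibreHom := by
  constructor
  · rw [injective_iff_map_eq_zero]
    intro x hx
    obtain ⟨c, rfl⟩ := Ideal.Quotient.mk_surjective x
    rw [fibreHom_mk, Ideal.Quotient.eq_zero_iff_mem, Ideal.mem_span_singleton] at hx
    rw [Ideal.Quotient.eq_zero_iff_mem, Ideal.mem_span_singleton]
    exact h.cancel c hx
  · intro y
    obtain ⟨x, rfl⟩ := Ideal.Quotient.mk_surjective y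
    obtain ⟨c, z, rfl⟩ := h.decomp x
    refine ⟨Ideal.Quotient.mk _ c, ?_⟩
    rw [fibreHom_mk, Ideal.Quotient.eq, Ideal.mem_span_singleton]
    exact ⟨-z, by ring⟩

/-- **Same special fibre**: `R / p ≃+* R' / ϖ`. -/
noncomputable def mggEquiv (h : MgcRamified j ϖ p) :
    R ⧸ Ideal.span {p} ≃+* R' ⧸ Ideal.span {ϖ} :=
  RingEquiv.ofBijective h.fibreHom h.fibreHom_bijective

@[simp] theorem mggEquiv_mk (h : MgcRamified j ϖ p) (c : R) :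
    h.mggEquiv (Ideal.Quotient.mk _ c) = Ideal.Quotient.mk _ (j c) := rfl

/-- The extension of `ρ : R →+* S` (`ρ p = 0`) to `R'` with `ϖ ↦ 0`. -/
noncomputable def mggExt (h : MgcRamified j ϖ p) (ρ : R →+* S) (hρ : ρ p = 0) : R' →+* S :=
  (Ideal.Quotient.lift (Ideal.span {p}) ρ (fun a ha => by
    obtain ⟨b, rfl⟩ := Ideal.mem_span_singleton.1 ha
    rw [map_mul, hρ, zero_mul])).comp
    ((h.mggEquiv.symm : _ →+* _).comp (Ideal.Quotient.mk (Ideal.span {ϖ})))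

theorem mggExt_j (h : MgcRamified j ϖ p) (ρ : R →+* S) (hρ : ρ p = 0) (c : R) :
    h.mggExt ρ hρ (j c) = ρ c := by
  have h1 : h.mggEquiv.symm (Ideal.Quotient.mk (Ideal.span {ϖ}) (j c)) =
      Ideal.Quotient.mk (Ideal.span {p}) c := by
    rw [← h.mggEquiv_mk c, RingEquiv.symm_apply_apply]
  unfold mggExt
  rw [RingHom.comp_apply, RingHom.comp_apply, RingHom.coe_coe, h1, Ideal.Quotient.lift_mk]

theorem mggExt_unif (h : MgcRamified j ϖ p) (ρ : R →+* S) (hρ : ρ p = 0) :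
    h.mggExt ρ hρ ϖ = 0 := by
  unfold mggExt
  rw [RingHom.comp_apply, RingHom.comp_apply,
    Ideal.Quotient.eq_zero_iff_mem.2 (Ideal.mem_span_singleton_self _), map_zero, map_zero]

theorem mggExt_add_mul (h : MgcRamified j ϖ p) (ρ : R →+* S) (hρ : ρ p = 0) (c : R) (z : R') :
    h.mggExt ρ hρ (j c + ϖ * z) = ρ c := by
  rw [map_add, map_mul, mggExt_unif, zero_mul, add_zero, mggExt_j]

/-- the extension is unique -/
theorem mggExt_unique (h : MgcRamified j ϖ p) (ρ : R →+* S) (hρ : ρ p = 0) (ρ' : R' →+* S)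
    (h1 : ∀ c, ρ' (j c) = ρ c) (h2 : ρ' ϖ = 0) : ρ' = h.mggExt ρ hρ := by
  ext x
  obtain ⟨c, z, rfl⟩ := h.decomp x
  rw [mggExt_add_mul, map_add, map_mul, h2, zero_mul, add_zero, h1]

theorem mggExt_surjective (h : MgcRamified j ϖ p) (ρ : R →+* S) (hρ : ρ p = 0)
    (hs : Function.Surjective ρ) : Function.Surjective (h.mggExt ρ hρ) := fun y => by
  obtain ⟨c, rfl⟩ := hs y
  exact ⟨j c, h.mggExt_j ρ hρ c⟩

/-- **(SS1)'**: the two components over the ramified base cut out `(ϖ)`. -/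
theorem mgg_ker (h : MgcRamified j ϖ p) {f g : R →+* S} (hf : f p = 0) (hg : g p = 0)
    (hker : ∀ x : R, f x = 0 → g x = 0 → p ∣ x)
    (x : R') (hfx : h.mggExt f hf x = 0) (hgx : h.mggExt g hg x = 0) : ϖ ∣ x := by
  obtain ⟨c, z, rfl⟩ := h.decomp x
  rw [mggExt_add_mul] at hfx hgx
  obtain ⟨d, rfl⟩ := hker c hfx hgx
  rw [map_mul]
  exact dvd_add (Dvd.dvd.mul_right h.dvd _) (dvd_mul_right _ _)

/-- The ideal of `R'` over an ideal `𝔭 ∋ p` of `R`. -/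
noncomputable def mggPrime (h : MgcRamified j ϖ p) (𝔭 : Ideal R) (hp : p ∈ 𝔭) : Ideal R' :=
  RingHom.ker (h.mggExt (Ideal.Quotient.mk 𝔭) (Ideal.Quotient.eq_zero_iff_mem.2 hp))

theorem mem_mggPrime (h : MgcRamified j ϖ p) (𝔭 : Ideal R) (hp : p ∈ 𝔭) (c : R) (z : R') :
    j c + ϖ * z ∈ h.mggPrime 𝔭 hp ↔ c ∈ 𝔭 := by
  unfold mggPrime
  rw [RingHom.mem_ker, mggExt_add_mul, Ideal.Quotient.eq_zero_iff_mem]

theorem unif_mem_mggPrime (h : MgcRamified j ϖ p) (𝔭 : Ideal R) (hp : p ∈ 𝔭) :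
    ϖ ∈ h.mggPrime 𝔭 hp := by
  unfold mggPrime
  rw [RingHom.mem_ker, mggExt_unif]

theorem j_mem_mggPrime (h : MgcRamified j ϖ p) (𝔭 : Ideal R) (hp : p ∈ 𝔭) (c : R) :
    j c ∈ h.mggPrime 𝔭 hp ↔ c ∈ 𝔭 := by
  have := h.mem_mggPrime 𝔭 hp c 0
  rwa [mul_zero, add_zero] at this

theorem comap_mggPrime (h : MgcRamified j ϖ p) (𝔭 : Ideal R) (hp : p ∈ 𝔭) :
    (h.mggPrime 𝔭 hp).comap j = 𝔭 := by
  ext c
  rw [Ideal.mem_comap, j_mem_mggPrime]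

instance mggPrime_isPrime (h : MgcRamified j ϖ p) (𝔭 : Ideal R) (hp : p ∈ 𝔭) [𝔭.IsPrime] :
    (h.mggPrime 𝔭 hp).IsPrime :=
  RingHom.ker_isPrime _

/-- an ideal of `R'` containing `ϖ` is the ideal over its contraction -/
theorem mggPrime_comap (h : MgcRamified j ϖ p) (𝔫' : Ideal R') (hϖ : ϖ ∈ 𝔫')
    (hp : p ∈ 𝔫'.comap j) : h.mggPrime (𝔫'.comap j) hp = 𝔫' := by
  ext x
  obtain ⟨c, z, rfl⟩ := h.decomp x
  rw [mem_mggPrime, Ideal.mem_comap]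
  constructor
  · intro hc
    exact 𝔫'.add_mem hc (𝔫'.mul_mem_right _ hϖ)
  · intro hx
    have : j c = (j c + ϖ * z) - ϖ * z := by ring
    rw [this]
    exact 𝔫'.sub_mem hx (𝔫'.mul_mem_right _ hϖ)

/-- `p` lies in the contraction of an ideal containing `ϖ`. -/
theorem mgg_mem_comap (h : MgcRamified j ϖ p) {𝔫' : Ideal R'} (hϖ : ϖ ∈ 𝔫') :
    p ∈ 𝔫'.comap j := by
  obtain ⟨w, hw⟩ := h.dvd
  rw [Ideal.mem_comap, hw]
  exact Ideal.mul_mem_right _ _ hϖ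

/-- **(SS1)' in the `vert` form of D2**: if `(p) = ⋂ vert` in `R` then `(ϖ) = ⋂ vert'` in `R'`,
`vert'` = the primes over the members of `vert`. -/
theorem mgg_vert (h : MgcRamified j ϖ p) (vert : Finset (Ideal R))
    (hprime : ∀ 𝔭 ∈ vert, 𝔭.IsPrime) (hpv : ∀ 𝔭 ∈ vert, p ∈ 𝔭)
    (hSS1 : ∀ y : R, (∀ 𝔭 ∈ vert, y ∈ 𝔭) → p ∣ y) :
    ∃ vert' : Finset (Ideal R'), (∀ 𝔭' ∈ vert', 𝔭'.IsPrime) ∧ (∀ 𝔭' ∈ vert', ϖ ∈ 𝔭') ∧
      (∀ y : R', (∀ 𝔭' ∈ vert', y ∈ 𝔭') → ϖ ∣ y) ∧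
      (∀ 𝔭' ∈ vert', 𝔭'.comap j ∈ vert) ∧
      (∀ 𝔭 ∈ vert, ∃ 𝔭' ∈ vert', 𝔭'.comap j = 𝔭) := by
  classical
  refine ⟨vert.attach.image (fun 𝔭 => h.mggPrime 𝔭.1 (hpv 𝔭.1 𝔭.2)), ?_, ?_, ?_, ?_, ?_⟩
  · intro 𝔭' h𝔭'
    obtain ⟨𝔭, -, rfl⟩ := Finset.mem_image.1 h𝔭'
    have := hprime 𝔭.1 𝔭.2
    infer_instance
  · intro 𝔭' h𝔭'
    obtain ⟨𝔭, -, rfl⟩ := Finset.mem_image.1 h𝔭'
    exact h.unif_mem_mggPrime _ _
  · intro y hy
    obtain ⟨c, z, rfl⟩ := h.decomp y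
    have hc : ∀ 𝔭 ∈ vert, c ∈ 𝔭 := by
      intro 𝔭 h𝔭
      have := hy (h.mggPrime 𝔭 (hpv 𝔭 h𝔭))
        (Finset.mem_image.2 ⟨⟨𝔭, h𝔭⟩, Finset.mem_attach _ _, rfl⟩)
      rwa [mem_mggPrime] at this
    obtain ⟨d, rfl⟩ := hSS1 c hc
    rw [map_mul]
    exact dvd_add (Dvd.dvd.mul_right h.dvd _) (dvd_mul_right _ _)
  · intro 𝔭' h𝔭'
    obtain ⟨𝔭, -, rfl⟩ := Finset.mem_image.1 h𝔭'
    rw [comap_mggPrime]
    exact 𝔭.2
  · intro 𝔭 h𝔭
    exact ⟨h.mggPrime 𝔭 (hpv 𝔭 h𝔭), Finset.mem_image.2 ⟨⟨𝔭, h𝔭⟩, Finset.mem_attach _ _, rfl⟩,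
      h.comap_mggPrime _ _⟩

/-- The contraction of a maximal ideal `𝔫' ∋ ϖ` of `R'` is a maximal ideal of `R`. -/
theorem mgg_comap_isMaximal (h : MgcRamified j ϖ p) (𝔫' : Ideal R') [h𝔫 : 𝔫'.IsMaximal]
    (hϖ : ϖ ∈ 𝔫') : (𝔫'.comap j).IsMaximal := by
  rw [Ideal.isMaximal_iff]
  refine ⟨fun h1 => ?_, fun J c hJ hc hcJ => ?_⟩
  · rw [Ideal.mem_comap, map_one] at h1
    exact h𝔫.ne_top ((Ideal.eq_top_iff_one _).2 h1)
  · have hc' : j c ∉ 𝔫' := fun hh => hc (Ideal.mem_comap.2 hh)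
    obtain ⟨y, w, hw, hyw⟩ := h𝔫.exists_inv hc'
    obtain ⟨d, z, rfl⟩ := h.decomp y
    -- `1 - d * c ∈ 𝔫' ∩ R`
    have h1 : j (1 - d * c) ∈ 𝔫' := by
      have : j (1 - d * c) = ϖ * (z * j c) + w := by
        rw [map_sub, map_one, map_mul, ← hyw]; ring
      rw [this]
      exact 𝔫'.add_mem (𝔫'.mul_mem_right _ hϖ) hw
    have h2 : 1 - d * c ∈ J := hJ (Ideal.mem_comap.2 h1)
    have h3 : (1 : R) = (1 - d * c) + d * c := by ring
    rw [h3]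
    exact J.add_mem h2 (J.mul_mem_left _ hcJ)

/-- **(SS2)'/(SS3)'**: local generators over the ramified base. -/
theorem mgg_locGen (h : MgcRamified j ϖ p) {𝔫' : Ideal R'} (hϖ : ϖ ∈ 𝔫') (T : Set R)
    (hT : NodesLocGen (𝔫'.comap j) (insert p T)) :
    NodesLocGen 𝔫' (insert ϖ (j '' T)) := by
  intro b hb
  obtain ⟨c, z, rfl⟩ := h.decomp b
  have hc : c ∈ 𝔫'.comap j := by
    rw [Ideal.mem_comap]
    have : j c = (j c + ϖ * z) - ϖ * z := by ring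
    rw [this]
    exact 𝔫'.sub_mem hb (𝔫'.mul_mem_right _ hϖ)
  obtain ⟨u, hu, huc⟩ := hT c hc
  refine ⟨j u, fun hu' => hu (Ideal.mem_comap.2 hu'), ?_⟩
  rw [mul_add]
  refine Ideal.add_mem _ ?_ ?_
  · rw [← map_mul]
    have h1 : j (u * c) ∈ Ideal.map j (Ideal.span (insert p T)) := Ideal.mem_map_of_mem _ huc
    rw [Ideal.map_span] at h1
    refine (Ideal.span_le.2 ?_) h1
    rintro _ ⟨t, ht, rfl⟩
    rcases ht with rfl | ht
    · obtain ⟨w, hw⟩ := h.dvd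
      rw [SetLike.mem_coe, hw]
      exact Ideal.mul_mem_right _ _ (Ideal.subset_span (Set.mem_insert _ _))
    · exact Ideal.subset_span (Set.mem_insert_of_mem _ ⟨t, ht, rfl⟩)
  · rw [mul_left_comm]
    exact Ideal.mul_mem_right _ _ (Ideal.subset_span (Set.mem_insert _ _))

/-- (SS2)' with an explicit parameter. -/
theorem mgg_locGen_pair (h : MgcRamified j ϖ p) {𝔫' : Ideal R'} (hϖ : ϖ ∈ 𝔫') (s : R)
    (hT : NodesLocGen (𝔫'.comap j) {p, s}) : NodesLocGen 𝔫' {ϖ, j s} := by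
  have := h.mgg_locGen hϖ {s} hT
  rwa [Set.image_singleton] at this

/-- (SS3)' with explicit parameters. -/
theorem mgg_locGen_triple (h : MgcRamified j ϖ p) {𝔫' : Ideal R'} (hϖ : ϖ ∈ 𝔫') (X Y : R)
    (hT : NodesLocGen (𝔫'.comap j) {p, X, Y}) : NodesLocGen 𝔫' {ϖ, j X, j Y} := by
  have := h.mgg_locGen hϖ {X, Y} hT
  rwa [Set.image_pair] at this

/-- The residue field at `𝔫'` is the residue field at `𝔫' ∩ R`: every element of `R'` is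
congruent modulo `𝔫'` to an element of `j R`. -/
theorem mgg_exists_sub_mem (h : MgcRamified j ϖ p) {𝔫' : Ideal R'} (hϖ : ϖ ∈ 𝔫') (x : R') :
    ∃ c : R, x - j c ∈ 𝔫' := by
  obtain ⟨c, z, rfl⟩ := h.decomp x
  refine ⟨c, ?_⟩
  have : j c + ϖ * z - j c = ϖ * z := by ring
  rw [this]
  exact 𝔫'.mul_mem_right _ hϖ

/-- **The dichotomy over the ramified base.**  If the maximal ideal `𝔫 = 𝔫' ∩ R` is a smooth
point `(p, s)` or a crossing `(p, X, Y)`, `p ∣ X Y`, then `𝔫'` is a smooth point `(ϖ, j s)` or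
a crossing `(ϖ, j X, j Y)` with `j X * j Y = j p * G`. -/
theorem mgg_nodes (h : MgcRamified j ϖ p) {𝔫' : Ideal R'} (hϖ : ϖ ∈ 𝔫')
    (hn : (∃ s ∈ 𝔫'.comap j, NodesLocGen (𝔫'.comap j) {p, s}) ∨
      (∃ X Y : R, X ∈ 𝔫'.comap j ∧ Y ∈ 𝔫'.comap j ∧ p ∣ X * Y ∧
        NodesLocGen (𝔫'.comap j) {p, X, Y})) :
    (∃ s : R, j s ∈ 𝔫' ∧ NodesLocGen 𝔫' {ϖ, j s}) ∨
      (∃ X Y G : R, j X ∈ 𝔫' ∧ j Y ∈ 𝔫' ∧ j X * j Y = j p * j G ∧
        NodesLocGen 𝔫' {ϖ, j X, j Y}) := by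
  rcases hn with ⟨s, hs, hgen⟩ | ⟨X, Y, hX, hY, ⟨G, hG⟩, hgen⟩
  · exact Or.inl ⟨s, Ideal.mem_comap.1 hs, h.mgg_locGen_pair hϖ s hgen⟩
  · refine Or.inr ⟨X, Y, G, Ideal.mem_comap.1 hX, Ideal.mem_comap.1 hY, ?_,
      h.mgg_locGen_triple hϖ X Y hgen⟩
    rw [← map_mul, ← map_mul, hG]

end MgcRamified

end Fermat.Agent.UNIP
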