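/-
UNIP / MG-4 (helper16), concrete part: the chart over the ramified base.

Setting of INJ / D2 (`UnitCrit`): `A₀` a DVR, `E₀ = Frac A₀` (char 0), `K / E₀(τ)` finite,
`B₀ := integralClosure (Algebra.adjoin A₀ {τ}) K`  (the chart over `A₀`).
`A'` a domain, integral over `A₀`, `π' ∈ A'` with `π' ^ e ∣ π`, root of a monic `g ∈ A₀[X]` of
degree `≤ e`; `L ⊇ K` a field with `L = K[π']`; `B'` ANY ring with an injective
`algebraMap B' L` whose image is the set of elements integral over `A'[τ]` (the shape of AT/D2).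

`mgc_ramified` : if `B₀ / π` is reduced, there is `j : B₀ →+* B'` (the inclusion) with
`MgcRamified j π' π`, i.e. `B' = j B₀ + π' B'`, `π' ∣ j π`, `π' ∣ j c → π ∣ c`.
All consequences ((SS1)', `NodesLocGen` over `A'`, …) are in `MGChartsGen.lean`.
-/
import Fermat.Agent.UNIP.NormalBCTot
import Fermat.Agent.UNIP.MGChartsGen
import Fermat.Agent.INJ.ChartGoodBasis

set_option autoImplicit false
set_option linter.style.haveILetI false
set_option linter.unusedSectionVars false

open Polynomial IntermediateField Fermat.Agent.INJ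

namespace Fermat.Agent.UNIP

section Main

universe u

variable {A₀ E₀ K : Type u} [CommRing A₀] [IsDomain A₀] [IsDiscreteValuationRing A₀]
  [Field E₀] [CharZero E₀] [Algebra A₀ E₀] [IsFractionRing A₀ E₀]
  [Field K] [Algebra E₀ K] [Algebra A₀ K] [IsScalarTower A₀ E₀ K]

/-- The chart `B₀` has fraction field `K`. -/
theorem mgc_chart_isFractionRing (τ : K) [FiniteDimensional E₀⟮τ⟯ K] :
    IsFractionRing (integralClosure (Algebra.adjoin A₀ {τ}) K) K := by
  letI := FractionRing.liftAlgebra ↥(Algebra.adjoin A₀ {τ}) K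
  haveI := ChartGB.finiteDimensional_fractionRing (A₀ := A₀) (E := E₀) τ
  exact integralClosure.isFractionRing_of_finite_extension (FractionRing ↥(Algebra.adjoin A₀ {τ})) K

/-- The chart `B₀` is integrally closed. -/
theorem mgc_chart_isIntegrallyClosed (τ : K) [FiniteDimensional E₀⟮τ⟯ K] :
    IsIntegrallyClosed (integralClosure (Algebra.adjoin A₀ {τ}) K) := by
  letI := FractionRing.liftAlgebra ↥(Algebra.adjoin A₀ {τ}) K
  haveI := ChartGB.finiteDimensional_fractionRing (A₀ := A₀) (E := E₀) τ
  exact integralClosure.isIntegrallyClosedOfFiniteExtension (FractionRing ↥(Algebra.adjoin A₀ {τ}))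

variable {A' L : Type*} [CommRing A'] [IsDomain A'] [Field L] [Algebra A' L]
  [Algebra A₀ A'] [Algebra K L] [Algebra A₀ L] [IsScalarTower A₀ K L] [IsScalarTower A₀ A' L]

/-- Integrality over a subalgebra only depends on the underlying set (different base rings). -/
theorem mgc_isIntegral_of_subset {R₁ R₂ : Type*} [CommRing R₁] [CommRing R₂] [Algebra R₁ L]
    [Algebra R₂ L] (S : Subalgebra R₁ L) (C : Subalgebra R₂ L) (hSC : ∀ s ∈ S, s ∈ C) {x : L}
    (hx : IsIntegral S x) : IsIntegral C x := by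
  obtain ⟨p, hp, hpx⟩ := hx
  let ι : S →+* C :=
    { toFun := fun s => ⟨s.1, hSC s.1 s.2⟩
      map_one' := rfl
      map_mul' := fun _ _ => rfl
      map_zero' := rfl
      map_add' := fun _ _ => rfl }
  refine ⟨p.map ι, hp.map ι, ?_⟩
  rw [Polynomial.eval₂_map]
  exact hpx

/-- `A'[τ]` is integral over `B₀`. -/
theorem mgc_adjoin_le_integralClosure [Algebra.IsIntegral A₀ A'] (τ : K) :
    ∀ s ∈ Algebra.adjoin A' ({algebraMap K L τ} : Set L),
      s ∈ integralClosure (integralClosure (Algebra.adjoin A₀ {τ}) K) L := by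
  intro s hs
  induction hs using Algebra.adjoin_induction with
  | mem x hx =>
    rw [Set.mem_singleton_iff] at hx
    rw [hx]
    have hτ : τ ∈ integralClosure (Algebra.adjoin A₀ {τ}) K :=
      isIntegral_algebraMap (R := Algebra.adjoin A₀ ({τ} : Set K))
        (x := ⟨τ, Algebra.subset_adjoin (Set.mem_singleton τ)⟩)
    exact isIntegral_algebraMap (R := integralClosure (Algebra.adjoin A₀ {τ}) K) (x := ⟨τ, hτ⟩)
  | algebraMap a =>
    have h1 : IsIntegral A₀ a := Algebra.IsIntegral.isIntegral a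
    have h2 : IsIntegral A₀ (algebraMap A' L a) := h1.map (IsScalarTower.toAlgHom A₀ A' L)
    exact h2.tower_top
  | add x y _ _ hx hy => exact Subalgebra.add_mem _ hx hy
  | mul x y _ _ hx hy => exact Subalgebra.mul_mem _ hx hy

/-- The image of `A₀[τ]` lies in `A'[τ]`. -/
theorem mgc_algebraMap_mem_adjoin (τ : K) {r : K} (hr : r ∈ Algebra.adjoin A₀ ({τ} : Set K)) :
    algebraMap K L r ∈ Algebra.adjoin A' ({algebraMap K L τ} : Set L) := by
  induction hr using Algebra.adjoin_induction with
  | mem x hx =>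
    rw [Set.mem_singleton_iff] at hx
    rw [hx]
    exact Algebra.subset_adjoin (Set.mem_singleton _)
  | algebraMap a =>
    rw [← IsScalarTower.algebraMap_apply A₀ K L, IsScalarTower.algebraMap_apply A₀ A' L]
    exact Subalgebra.algebraMap_mem _ _
  | add x y _ _ hx hy =>
    rw [map_add]
    exact Subalgebra.add_mem _ hx hy
  | mul x y _ _ hx hy =>
    rw [map_mul]
    exact Subalgebra.mul_mem _ hx hy

/-- The image of `B₀` is integral over `A'[τ]`. -/
theorem mgc_isIntegral_algebraMap (τ : K) (b : integralClosure (Algebra.adjoin A₀ {τ}) K) :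
    IsIntegral (Algebra.adjoin A' ({algebraMap K L τ} : Set L)) (algebraMap K L (b : K)) := by
  obtain ⟨p, hp, hpb⟩ := b.2
  let ι : Algebra.adjoin A₀ ({τ} : Set K) →+* Algebra.adjoin A' ({algebraMap K L τ} : Set L) :=
    { toFun := fun r => ⟨algebraMap K L r.1, mgc_algebraMap_mem_adjoin τ r.2⟩
      map_one' := Subtype.ext (map_one _)
      map_mul' := fun _ _ => Subtype.ext (map_mul _ _ _)
      map_zero' := Subtype.ext (map_zero _)
      map_add' := fun _ _ => Subtype.ext (map_add _ _ _) }
  refine ⟨p.map ι, hp.map ι, ?_⟩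
  rw [Polynomial.eval₂_map]
  have h1 : (algebraMap (Algebra.adjoin A' ({algebraMap K L τ} : Set L)) L).comp ι =
      (algebraMap K L).comp (algebraMap (Algebra.adjoin A₀ ({τ} : Set K)) K) :=
    RingHom.ext fun _ => rfl
  rw [h1, ← Polynomial.hom_eval₂, hpb, map_zero]

/-- **MG-4, normality in chart form.**  The elements of `L` integral over `A'[τ]` are exactly
the elements of `B₀[π']`. -/
theorem mgc_isIntegral_iff {π : A₀} (hπ : Irreducible π) (τ : K) [FiniteDimensional E₀⟮τ⟯ K]
    (hπu : ¬ IsUnit (algebraMap A₀ (integralClosure (Algebra.adjoin A₀ {τ}) K) π))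
    (hred : ∀ c : integralClosure (Algebra.adjoin A₀ {τ}) K,
      algebraMap A₀ (integralClosure (Algebra.adjoin A₀ {τ}) K) π ∣ c ^ 2 →
        algebraMap A₀ (integralClosure (Algebra.adjoin A₀ {τ}) K) π ∣ c)
    [Algebra.IsIntegral A₀ A']
    {π' : A'} (hπ'0 : π' ≠ 0) (hπ'u : ¬ IsUnit π') {e : ℕ}
    (hram : π' ^ e ∣ algebraMap A₀ A' π)
    (g : A₀[X]) (hgm : g.Monic) (hroot : aeval π' g = 0) (hdeg : g.natDegree ≤ e)
    (htop : Algebra.adjoin K ({algebraMap A' L π'} : Set L) = ⊤) (x : L) :
    IsIntegral (Algebra.adjoin A' ({algebraMap K L τ} : Set L)) x ↔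
      x ∈ Algebra.adjoin (integralClosure (Algebra.adjoin A₀ {τ}) K)
        ({algebraMap A' L π'} : Set L) := by
  haveI := mgc_chart_isFractionRing (A₀ := A₀) (E₀ := E₀) τ
  haveI := mgc_chart_isIntegrallyClosed (A₀ := A₀) (E₀ := E₀) τ
  have hinjK : Function.Injective (algebraMap A₀ K) := by
    rw [IsScalarTower.algebraMap_eq A₀ E₀ K]
    exact (algebraMap E₀ K).injective.comp (IsFractionRing.injective A₀ E₀)
  have hπ0 : algebraMap A₀ (integralClosure (Algebra.adjoin A₀ {τ}) K) π ≠ 0 := by
    intro h0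
    have h1 : algebraMap A₀ K π = 0 := by
      rw [IsScalarTower.algebraMap_apply A₀ (integralClosure (Algebra.adjoin A₀ {τ}) K) K, h0,
        map_zero]
    exact hπ.ne_zero (hinjK (by rw [h1, map_zero]))
  have hintA : IsIntegral A₀ (algebraMap A' L π') :=
    (Algebra.IsIntegral.isIntegral (R := A₀) π').map (IsScalarTower.toAlgHom A₀ A' L)
  have hintK : IsIntegral K (algebraMap A' L π') := hintA.tower_top
  let B : PowerBasis K L := PowerBasis.ofAdjoinEqTop hintK htop
  have hBgen : B.gen = algebraMap A' L π' := PowerBasis.ofAdjoinEqTop_gen hintK htop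
  haveI : Module.Finite K L := B.finite
  haveI : CharZero K := charZero_of_injective_algebraMap (algebraMap E₀ K).injective
  haveI : Algebra.IsSeparable K L := inferInstance
  obtain ⟨hcl, -⟩ := normalBC_tot (R := integralClosure (Algebra.adjoin A₀ {τ}) K) (K := K)
    (L := L) hπ hπ0 hπu hred hπ'0 hπ'u hram g hgm hroot hdeg B hBgen
  constructor
  · intro hx
    have h1 : IsIntegral (integralClosure (integralClosure (Algebra.adjoin A₀ {τ}) K) L) x :=
      mgc_isIntegral_of_subset _ _ (mgc_adjoin_le_integralClosure τ) hx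
    have h2 : IsIntegral (integralClosure (Algebra.adjoin A₀ {τ}) K) x :=
      isIntegral_trans (R := integralClosure (Algebra.adjoin A₀ {τ}) K)
        (A := integralClosure (integralClosure (Algebra.adjoin A₀ {τ}) K) L) x h1
    rw [← hcl]
    exact h2
  · intro hx
    induction hx using Algebra.adjoin_induction with
    | mem y hy =>
      rw [Set.mem_singleton_iff] at hy
      rw [hy]
      exact isIntegral_algebraMap (R := Algebra.adjoin A' ({algebraMap K L τ} : Set L))
        (x := ⟨algebraMap A' L π', Subalgebra.algebraMap_mem _ _⟩)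
    | algebraMap b => exact mgc_isIntegral_algebraMap τ b
    | add y z _ _ hy hz => exact hy.add hz
    | mul y z _ _ hy hz => exact hy.mul hz

variable {B' : Type*} [CommRing B'] [Algebra B' L] [Algebra A' B'] [IsScalarTower A' B' L]

/-- The inclusion of the chart `B₀` into a chart `B'` whose image in `L` contains the image
of `B₀`. -/
noncomputable def mgcIncl (τ : K) (hinj : Function.Injective (algebraMap B' L))
    (hrange : ∀ b : integralClosure (Algebra.adjoin A₀ {τ}) K,
      algebraMap (integralClosure (Algebra.adjoin A₀ {τ}) K) L b ∈ (algebraMap B' L).range) :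
    integralClosure (Algebra.adjoin A₀ {τ}) K →+* B' :=
  ((RingEquiv.ofBijective (algebraMap B' L).rangeRestrict
      ⟨fun _ _ hxy => hinj (congrArg Subtype.val hxy),
        (algebraMap B' L).rangeRestrict_surjective⟩).symm : (algebraMap B' L).range →+* B').comp
    ((algebraMap (integralClosure (Algebra.adjoin A₀ {τ}) K) L).codRestrict
      (algebraMap B' L).range hrange)

theorem mgcIncl_spec (τ : K) (hinj : Function.Injective (algebraMap B' L))
    (hrange : ∀ b : integralClosure (Algebra.adjoin A₀ {τ}) K,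
      algebraMap (integralClosure (Algebra.adjoin A₀ {τ}) K) L b ∈ (algebraMap B' L).range)
    (b : integralClosure (Algebra.adjoin A₀ {τ}) K) :
    algebraMap B' L (mgcIncl τ hinj hrange b) = algebraMap K L (b : K) := by
  unfold mgcIncl
  rw [RingHom.comp_apply]
  set e := RingEquiv.ofBijective (algebraMap B' L).rangeRestrict
      ⟨fun _ _ hxy => hinj (congrArg Subtype.val hxy),
        (algebraMap B' L).rangeRestrict_surjective⟩ with he
  set y := (algebraMap (integralClosure (Algebra.adjoin A₀ {τ}) K) L).codRestrict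
      (algebraMap B' L).range hrange b with hy
  have h1 : e (e.symm y) = y := e.apply_symm_apply y
  calc algebraMap B' L (e.symm y) = ((e (e.symm y) : (algebraMap B' L).range) : L) := rfl
    _ = (y : L) := by rw [h1]
    _ = algebraMap K L (b : K) := rfl

/-- **MG-4, main theorem.**  The chart `B'` over the ramified base `A'` has the same special
fibre as the chart `B₀` over `A₀`:  `B' = j B₀ + π' B'`, `π' ∣ j π`, `π' ∣ j c → π ∣ c`. -/
theorem mgc_ramified_of_incl {π : A₀} (hπ : Irreducible π) (τ : K) [FiniteDimensional E₀⟮τ⟯ K]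
    (hπu : ¬ IsUnit (algebraMap A₀ (integralClosure (Algebra.adjoin A₀ {τ}) K) π))
    (hred : ∀ c : integralClosure (Algebra.adjoin A₀ {τ}) K,
      algebraMap A₀ (integralClosure (Algebra.adjoin A₀ {τ}) K) π ∣ c ^ 2 →
        algebraMap A₀ (integralClosure (Algebra.adjoin A₀ {τ}) K) π ∣ c)
    [Algebra.IsIntegral A₀ A']
    {π' : A'} (hπ'0 : π' ≠ 0) (hπ'u : ¬ IsUnit π') {e : ℕ}
    (hram : π' ^ e ∣ algebraMap A₀ A' π)
    (g : A₀[X]) (hgm : g.Monic) (hroot : aeval π' g = 0) (hdeg : g.natDegree ≤ e)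
    (htop : Algebra.adjoin K ({algebraMap A' L π'} : Set L) = ⊤)
    (hinj : Function.Injective (algebraMap B' L))
    (hB : ∀ x : L, x ∈ (algebraMap B' L).range ↔
      IsIntegral (Algebra.adjoin A' ({algebraMap K L τ} : Set L)) x)
    (j : integralClosure (Algebra.adjoin A₀ {τ}) K →+* B')
    (hj : ∀ b, algebraMap B' L (j b) = algebraMap K L (b : K)) :
    MgcRamified j (algebraMap A' B' π')
      (algebraMap A₀ (integralClosure (Algebra.adjoin A₀ {τ}) K) π) := by
  haveI := mgc_chart_isFractionRing (A₀ := A₀) (E₀ := E₀) τ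
  haveI := mgc_chart_isIntegrallyClosed (A₀ := A₀) (E₀ := E₀) τ
  have hiff := mgc_isIntegral_iff (E₀ := E₀) (L := L) hπ τ hπu hred hπ'0 hπ'u hram g hgm hroot
    hdeg htop
  have hinjK : Function.Injective (algebraMap A₀ K) := by
    rw [IsScalarTower.algebraMap_eq A₀ E₀ K]
    exact (algebraMap E₀ K).injective.comp (IsFractionRing.injective A₀ E₀)
  have hπ0 : algebraMap A₀ (integralClosure (Algebra.adjoin A₀ {τ}) K) π ≠ 0 := by
    intro h0
    have h1 : algebraMap A₀ K π = 0 := by
      rw [IsScalarTower.algebraMap_apply A₀ (integralClosure (Algebra.adjoin A₀ {τ}) K) K, h0,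
        map_zero]
    exact hπ.ne_zero (hinjK (by rw [h1, map_zero]))
  obtain ⟨hE, hge⟩ := nbc_ram_isEisensteinAt hπ hπ'0 hπ'u hram g hgm hroot hdeg
  have hgdeg : 0 < g.natDegree := by
    rcases Nat.eq_zero_or_pos g.natDegree with h0 | h0
    · exfalso
      have h1 : g = 1 := hgm.natDegree_eq_zero.1 h0
      rw [h1] at hroot
      simp at hroot
    · exact h0
  have hrootL : aeval (algebraMap A' L π') g = 0 := nbc_aeval_algebraMap_eq_zero g hroot
  -- the two descriptions of the image of `B'`
  have hmem : ∀ x : B', algebraMap B' L x ∈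
      Algebra.adjoin (integralClosure (Algebra.adjoin A₀ {τ}) K)
        ({algebraMap A' L π'} : Set L) := fun x =>
    (hiff _).1 ((hB _).1 ⟨x, rfl⟩)
  have hsurj : ∀ y ∈ Algebra.adjoin (integralClosure (Algebra.adjoin A₀ {τ}) K)
      ({algebraMap A' L π'} : Set L), ∃ x : B', algebraMap B' L x = y := fun y hy =>
    (hB y).2 ((hiff y).2 hy)
  have hϖ : algebraMap B' L (algebraMap A' B' π') = algebraMap A' L π' :=
    (IsScalarTower.algebraMap_apply A' B' L π').symm
  refine ⟨?_, ?_, ?_⟩
  · -- `π' ∣ j π`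
    have hroot' : aeval (algebraMap A' L π')
        (g.map (algebraMap A₀ (integralClosure (Algebra.adjoin A₀ {τ}) K))) = 0 := by
      rw [aeval_map_algebraMap]; exact hrootL
    obtain ⟨z', hz', hz⟩ := nbc_gen_dvd (algebraMap A' L π') hroot'
      (nbc_coeff_zero_eq (R := integralClosure (Algebra.adjoin A₀ {τ}) K) hπ g hE hgdeg)
    obtain ⟨zB, rfl⟩ := hsurj z' hz'
    refine ⟨zB, hinj ?_⟩
    rw [hj, map_mul, hϖ, ← hz]
    rfl
  · -- decomposition
    intro x
    obtain ⟨c, z', hz', hxz⟩ := nbc_exists_eq_add_mul (algebraMap A' L π') (hmem x)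
    obtain ⟨zB, rfl⟩ := hsurj z' hz'
    refine ⟨c, zB, hinj ?_⟩
    rw [hxz, map_add, map_mul, hϖ, hj]
    rfl
  · -- cancellation
    rintro c ⟨w, hw⟩
    have h1 : algebraMap (integralClosure (Algebra.adjoin A₀ {τ}) K) L c =
        algebraMap A' L π' * algebraMap B' L w := by
      have := congrArg (algebraMap B' L) hw
      rw [hj, map_mul, hϖ] at this
      exact this
    have h2 : nbcGen (integralClosure (Algebra.adjoin A₀ {τ}) K) (algebraMap A' L π') ∣
        algebraMap (integralClosure (Algebra.adjoin A₀ {τ}) K)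
          (Algebra.adjoin (integralClosure (Algebra.adjoin A₀ {τ}) K)
            ({algebraMap A' L π'} : Set L)) c :=
      (nbcGen_dvd_iff _ _).2 ⟨algebraMap B' L w, hmem w, h1⟩
    exact (normalBC_gen_dvd_iff K hπ hπ0 hπu hred g hgm hE hgdeg hrootL c).1 h2

/-- **MG-4, main theorem (existence form).** -/
theorem mgc_ramified {π : A₀} (hπ : Irreducible π) (τ : K) [FiniteDimensional E₀⟮τ⟯ K]
    (hπu : ¬ IsUnit (algebraMap A₀ (integralClosure (Algebra.adjoin A₀ {τ}) K) π))
    (hred : ∀ c : integralClosure (Algebra.adjoin A₀ {τ}) K,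
      algebraMap A₀ (integralClosure (Algebra.adjoin A₀ {τ}) K) π ∣ c ^ 2 →
        algebraMap A₀ (integralClosure (Algebra.adjoin A₀ {τ}) K) π ∣ c)
    [Algebra.IsIntegral A₀ A']
    {π' : A'} (hπ'0 : π' ≠ 0) (hπ'u : ¬ IsUnit π') {e : ℕ}
    (hram : π' ^ e ∣ algebraMap A₀ A' π)
    (g : A₀[X]) (hgm : g.Monic) (hroot : aeval π' g = 0) (hdeg : g.natDegree ≤ e)
    (htop : Algebra.adjoin K ({algebraMap A' L π'} : Set L) = ⊤)
    (hinj : Function.Injective (algebraMap B' L))
    (hB : ∀ x : L, x ∈ (algebraMap B' L).range ↔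
      IsIntegral (Algebra.adjoin A' ({algebraMap K L τ} : Set L)) x) :
    ∃ j : integralClosure (Algebra.adjoin A₀ {τ}) K →+* B',
      (∀ b, algebraMap B' L (j b) = algebraMap K L (b : K)) ∧
      MgcRamified j (algebraMap A' B' π')
        (algebraMap A₀ (integralClosure (Algebra.adjoin A₀ {τ}) K) π) := by
  have hrange : ∀ b : integralClosure (Algebra.adjoin A₀ {τ}) K,
      algebraMap (integralClosure (Algebra.adjoin A₀ {τ}) K) L b ∈ (algebraMap B' L).range :=
    fun b => (hB _).2 (mgc_isIntegral_algebraMap τ b)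
  exact ⟨mgcIncl τ hinj hrange, mgcIncl_spec τ hinj hrange,
    mgc_ramified_of_incl (E₀ := E₀) hπ τ hπu hred hπ'0 hπ'u hram g hgm hroot hdeg htop hinj hB _
      (mgcIncl_spec τ hinj hrange)⟩

end Main

end Fermat.Agent.UNIP
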