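/-
UNIP / MG-4 (helper16), field part: `F_N(E') = F_N(E₀)(α)` if `E' = E₀(α)`.

`E₀ ⊆ E'` fields, `K = F_N(E₀) = modularFunctionFieldFullC E₀ N`,
`L = F_N(E') = modularFunctionFieldFullC E' N`.

* `mgcEmb E₀ E' N : K →+* L` (coefficientwise), `mgcAlgebra E₀ E' N : Algebra K L`;
* `mgc_adjoin_eq_top` : a subfield of `L` containing the image of `K` and a generator `α` of
  `E' / E₀` is `L`;
* `mgc_algebra_adjoin_eq_top` : `Algebra.adjoin K {α} = ⊤` in `L` for `α` algebraic over `E₀`
  (the hypothesis of `PowerBasis.ofAdjoinEqTop`, hence of U8 `normalBC_tot`).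
-/
import Fermat.Agent.INJ.NumField

set_option autoImplicit false
set_option linter.style.haveILetI false

open ModularCurve Fermat.Agent.INJ

namespace Fermat.Agent.UNIP

section Field

variable (E₀ E' : Type*) [Field E₀] [Field E'] [Algebra E₀ E'] (N : ℕ)

/-- The embedding `F_N(E₀) → F_N(E')`, coefficientwise. -/
noncomputable def mgcEmb :
    modularFunctionFieldFullC E₀ N →+* modularFunctionFieldFullC E' N where
  toFun x := ⟨coeffMap (algebraMap E₀ E') (x : LaurentSeries E₀),
    nf_coeffMap_mem_fullC (algebraMap E₀ E') N x.2⟩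
  map_one' := Subtype.ext (map_one (coeffMap (algebraMap E₀ E')))
  map_mul' _ _ := Subtype.ext (map_mul (coeffMap (algebraMap E₀ E')) _ _)
  map_zero' := Subtype.ext (map_zero (coeffMap (algebraMap E₀ E')))
  map_add' _ _ := Subtype.ext (map_add (coeffMap (algebraMap E₀ E')) _ _)

@[simp]
theorem mgcEmb_coe (x : modularFunctionFieldFullC E₀ N) :
    ((mgcEmb E₀ E' N x : modularFunctionFieldFullC E' N) : LaurentSeries E')
      = coeffMap (algebraMap E₀ E') (x : LaurentSeries E₀) := rfl

theorem mgcEmb_injective : Function.Injective (mgcEmb E₀ E' N) := (mgcEmb E₀ E' N).injective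

/-- constants -/
theorem mgcEmb_algebraMap (c : E₀) :
    mgcEmb E₀ E' N (algebraMap E₀ (modularFunctionFieldFullC E₀ N) c)
      = algebraMap E' (modularFunctionFieldFullC E' N) (algebraMap E₀ E' c) := by
  apply Subtype.ext
  show coeffMap (algebraMap E₀ E') (algebraMap E₀ (LaurentSeries E₀) c) = _
  rw [nf_coeffMap_algebraMap]
  rfl

/-- the generators `j(Q^d)` -/
theorem mgcEmb_jqd {d : ℕ} [NeZero d] (hd : d ∣ N) :
    mgcEmb E₀ E' N ⟨qExpand E₀ d (jqModC E₀), jqModCd_mem_full E₀ N hd⟩
      = ⟨qExpand E' d (jqModC E'), jqModCd_mem_full E' N hd⟩ := by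
  apply Subtype.ext
  exact coeffMap_jqNModC (algebraMap E₀ E') d

/-- The algebra structure of `F_N(E')` over `F_N(E₀)`. -/
@[reducible]
noncomputable def mgcAlgebra :
    Algebra (modularFunctionFieldFullC E₀ N) (modularFunctionFieldFullC E' N) :=
  (mgcEmb E₀ E' N).toAlgebra

/-- A subfield of `F_N(E')` containing the image of `F_N(E₀)` and the constants `E'` is
everything. -/
theorem mgc_subfield_eq_top (S : Subfield (modularFunctionFieldFullC E' N))
    (hK : ∀ x : modularFunctionFieldFullC E₀ N, mgcEmb E₀ E' N x ∈ S)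
    (hE : ∀ c : E', algebraMap E' (modularFunctionFieldFullC E' N) c ∈ S) : S = ⊤ := by
  rw [eq_top_iff]
  rintro ⟨y, hy⟩ -
  have key : ∀ (z : LaurentSeries E') (hz : z ∈ modularFunctionFieldFullC E' N),
      (⟨z, hz⟩ : modularFunctionFieldFullC E' N) ∈ S := by
    intro z hz
    unfold modularFunctionFieldFullC at hz
    induction hz using IntermediateField.adjoin_induction with
    | mem x hx =>
      obtain ⟨d, hd, hdN, rfl⟩ := hx
      have := hK ⟨qExpand E₀ d (jqModC E₀), jqModCd_mem_full E₀ N hdN⟩
      rw [mgcEmb_jqd E₀ E' N hdN] at this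
      exact this
    | algebraMap c =>
      have h1 := hE c
      have h2 : algebraMap E' (modularFunctionFieldFullC E' N) c
          = ⟨algebraMap E' (LaurentSeries E') c,
              (modularFunctionFieldFullC E' N).algebraMap_mem c⟩ :=
        Subtype.ext (IntermediateField.coe_algebraMap_apply _ c)
      rw [h2] at h1
      exact h1
    | add x y hx hy ihx ihy =>
      have := S.add_mem ihx ihy
      exact this
    | inv x hx ihx =>
      have := S.inv_mem ihx
      exact this
    | mul x y hx hy ihx ihy =>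
      have := S.mul_mem ihx ihy
      exact this
  exact key y hy

/-- A subfield of `F_N(E')` containing the image of `F_N(E₀)` and a generator `α` of `E'` over
`E₀` is everything. -/
theorem mgc_adjoin_eq_top {α : E'} (hα : Algebra.adjoin E₀ ({α} : Set E') = ⊤)
    (S : Subfield (modularFunctionFieldFullC E' N))
    (hK : ∀ x : modularFunctionFieldFullC E₀ N, mgcEmb E₀ E' N x ∈ S)
    (hαS : algebraMap E' (modularFunctionFieldFullC E' N) α ∈ S) : S = ⊤ := by
  refine mgc_subfield_eq_top E₀ E' N S hK fun c => ?_
  have hc : c ∈ Algebra.adjoin E₀ ({α} : Set E') := by rw [hα]; exact Algebra.mem_top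
  induction hc using Algebra.adjoin_induction with
  | mem x hx =>
    rw [Set.mem_singleton_iff] at hx
    rw [hx]
    exact hαS
  | algebraMap r =>
    rw [← mgcEmb_algebraMap]
    exact hK _
  | add x y _ _ ihx ihy =>
    rw [map_add]
    exact S.add_mem ihx ihy
  | mul x y _ _ ihx ihy =>
    rw [map_mul]
    exact S.mul_mem ihx ihy

/-- `F_N(E') = F_N(E₀)[α]` if `E' = E₀[α]`, `α` algebraic over `E₀`. -/
theorem mgc_algebra_adjoin_eq_top {α : E'} (hα : Algebra.adjoin E₀ ({α} : Set E') = ⊤)
    (halg : IsAlgebraic E₀ α) :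
    letI := mgcAlgebra E₀ E' N
    Algebra.adjoin (modularFunctionFieldFullC E₀ N)
      ({algebraMap E' (modularFunctionFieldFullC E' N) α} :
        Set (modularFunctionFieldFullC E' N)) = ⊤ := by
  letI := mgcAlgebra E₀ E' N
  -- `α` is algebraic over `F_N(E₀)`
  have halg' : IsAlgebraic (modularFunctionFieldFullC E₀ N)
      (algebraMap E' (modularFunctionFieldFullC E' N) α) := by
    obtain ⟨P, hP0, hP⟩ := halg
    refine ⟨P.map (algebraMap E₀ (modularFunctionFieldFullC E₀ N)),
      (Polynomial.map_ne_zero_iff (algebraMap E₀ _).injective).2 hP0, ?_⟩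
    have h1 : (algebraMap (modularFunctionFieldFullC E₀ N) (modularFunctionFieldFullC E' N)).comp
        (algebraMap E₀ (modularFunctionFieldFullC E₀ N))
        = (algebraMap E' (modularFunctionFieldFullC E' N)).comp (algebraMap E₀ E') :=
      RingHom.ext fun c => mgcEmb_algebraMap E₀ E' N c
    rw [Polynomial.aeval_def, Polynomial.eval₂_map, h1, ← Polynomial.eval₂_map,
      Polynomial.eval₂_hom, Polynomial.eval_map, ← Polynomial.aeval_def, hP, map_zero]
  rw [← IntermediateField.adjoin_simple_toSubalgebra_of_isAlgebraic halg']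
  have htop : (IntermediateField.adjoin (modularFunctionFieldFullC E₀ N)
      ({algebraMap E' (modularFunctionFieldFullC E' N) α} :
        Set (modularFunctionFieldFullC E' N))).toSubfield = ⊤ :=
    mgc_adjoin_eq_top E₀ E' N hα _
      (fun x => IntermediateField.algebraMap_mem _ x)
      (IntermediateField.subset_adjoin _ _ (Set.mem_singleton _))
  rw [eq_top_iff]
  intro y _
  have : y ∈ (IntermediateField.adjoin (modularFunctionFieldFullC E₀ N)
      ({algebraMap E' (modularFunctionFieldFullC E' N) α} :
        Set (modularFunctionFieldFullC E' N))).toSubfield := by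
    rw [htop]; exact Subfield.mem_top y
  exact this

end Field

end Fermat.Agent.UNIP
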