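/-
UNIP / U8 (helper16), special fibre part.

`R` an integrally closed domain, `α` integral over `R` in a torsion-free domain `L ⊇ R`, and
`p ∈ R` with `minpoly R α (0) = p * unit`.  Then `R[α] / (α) ≅ R / (p)`.
-/
import Mathlib

set_option autoImplicit false

open Polynomial

namespace Fermat.Agent.UNIP

section Fibre

variable {R L : Type*} [CommRing R] [CommRing L] [Algebra R L]

/-- Membership in `R[α]`. -/
theorem nbc_mem_adjoin_iff (α z : L) :
    z ∈ Algebra.adjoin R ({α} : Set L) ↔ ∃ g : R[X], aeval α g = z := by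
  rw [Algebra.adjoin_singleton_eq_range_aeval]
  exact Iff.rfl

/-- Every element of `R[α]` is of the form `c + α * z'` with `c ∈ R`, `z' ∈ R[α]`. -/
theorem nbc_exists_eq_add_mul (α : L) {z : L} (hz : z ∈ Algebra.adjoin R ({α} : Set L)) :
    ∃ (c : R) (z' : L), z' ∈ Algebra.adjoin R ({α} : Set L) ∧
      z = algebraMap R L c + α * z' := by
  obtain ⟨g, rfl⟩ := (nbc_mem_adjoin_iff α z).1 hz
  refine ⟨g.coeff 0, aeval α (divX g), (nbc_mem_adjoin_iff α _).2 ⟨_, rfl⟩, ?_⟩
  conv_lhs => rw [← divX_mul_X_add g]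
  simp only [map_add, map_mul, aeval_X, aeval_C]
  ring

/-- If the constant coefficient of a polynomial `f` with `f(α) = 0` is `p * unit`, then
`α ∣ p` in `R[α]`. -/
theorem nbc_gen_dvd (α : L) {p : R} {f : R[X]} (hroot : aeval α f = 0)
    (hc0 : ∃ u : R, IsUnit u ∧ f.coeff 0 = p * u) :
    ∃ z' : L, z' ∈ Algebra.adjoin R ({α} : Set L) ∧ algebraMap R L p = α * z' := by
  obtain ⟨u, hu, hu0⟩ := hc0
  obtain ⟨v, hv⟩ := hu.exists_right_inv
  have h1 : aeval α (divX f) * α + algebraMap R L (f.coeff 0) = 0 := by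
    have := hroot
    rw [← divX_mul_X_add f] at this
    simpa using this
  refine ⟨-(aeval α (divX f)) * algebraMap R L v, ?_, ?_⟩
  · exact Subalgebra.mul_mem _ (Subalgebra.neg_mem _ ((nbc_mem_adjoin_iff α _).2 ⟨_, rfl⟩))
      (Subalgebra.algebraMap_mem _ _)
  · have h2 : algebraMap R L p = algebraMap R L (f.coeff 0) * algebraMap R L v := by
      rw [← map_mul, hu0, mul_assoc, hv, mul_one]
    rw [h2]
    linear_combination (algebraMap R L v) * h1

variable [IsDomain R] [IsIntegrallyClosed R] [IsDomain L] [Module.IsTorsionFree R L]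

/-- If `α ∣ c` in `R[α]` for `c ∈ R`, then `p ∣ c` in `R`, where `p` divides the constant
coefficient of the minimal polynomial of `α`. -/
theorem nbc_dvd_of_gen_mul {α : L} (hα : IsIntegral R α) {p : R}
    (hc0 : p ∣ (minpoly R α).coeff 0) {c : R} {z : L}
    (hz : z ∈ Algebra.adjoin R ({α} : Set L)) (h : algebraMap R L c = α * z) : p ∣ c := by
  obtain ⟨g, rfl⟩ := (nbc_mem_adjoin_iff α z).1 hz
  have h0 : aeval α (C c - X * g) = 0 := by
    simp only [map_sub, aeval_C, map_mul, aeval_X]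
    rw [h, sub_self]
  obtain ⟨q, hq⟩ := (minpoly.isIntegrallyClosed_dvd_iff hα _).1 h0
  have h1 := congrArg (fun P : R[X] => P.coeff 0) hq
  simp only [coeff_sub, coeff_C_zero, mul_coeff_zero, coeff_X_zero, zero_mul, sub_zero] at h1
  rw [h1]
  exact Dvd.dvd.mul_right hc0 _

/-- The generator `α` as an element of `R[α]`. -/
noncomputable def nbcGen (R : Type*) {L : Type*} [CommRing R] [CommRing L] [Algebra R L]
    (α : L) : Algebra.adjoin R ({α} : Set L) :=
  ⟨α, Algebra.self_mem_adjoin_singleton R α⟩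

omit [IsDomain R] [IsIntegrallyClosed R] [IsDomain L] [Module.IsTorsionFree R L] in
@[simp] theorem nbcGen_coe (α : L) : ((nbcGen R α : Algebra.adjoin R ({α} : Set L)) : L) = α :=
  rfl

omit [IsDomain R] [IsIntegrallyClosed R] [IsDomain L] [Module.IsTorsionFree R L] in
/-- Divisibility by the generator, in terms of `L`. -/
theorem nbcGen_dvd_iff (α : L) (y : Algebra.adjoin R ({α} : Set L)) :
    nbcGen R α ∣ y ↔ ∃ z' : L, z' ∈ Algebra.adjoin R ({α} : Set L) ∧ (y : L) = α * z' := by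
  constructor
  · rintro ⟨w, rfl⟩
    exact ⟨w, w.2, rfl⟩
  · rintro ⟨z', hz', h⟩
    exact ⟨⟨z', hz'⟩, Subtype.ext h⟩

/-- The map `R / p → R[α] / α`. -/
noncomputable def nbcFibreHom (α : L) {p : R}
    (hp : nbcGen R α ∣ algebraMap R (Algebra.adjoin R ({α} : Set L)) p) :
    R ⧸ Ideal.span {p} →+* Algebra.adjoin R ({α} : Set L) ⧸ Ideal.span {nbcGen R α} :=
  Ideal.Quotient.lift _
    ((Ideal.Quotient.mk _).comp (algebraMap R (Algebra.adjoin R ({α} : Set L))))
    (by
      intro a ha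
      obtain ⟨b, rfl⟩ := Ideal.mem_span_singleton.1 ha
      rw [RingHom.comp_apply, Ideal.Quotient.eq_zero_iff_mem, Ideal.mem_span_singleton,
        map_mul]
      exact Dvd.dvd.mul_right hp _)

omit [IsDomain R] [IsIntegrallyClosed R] [IsDomain L] [Module.IsTorsionFree R L] in
@[simp] theorem nbcFibreHom_mk (α : L) {p : R}
    (hp : nbcGen R α ∣ algebraMap R (Algebra.adjoin R ({α} : Set L)) p) (c : R) :
    nbcFibreHom α hp (Ideal.Quotient.mk _ c) =
      Ideal.Quotient.mk _ (algebraMap R (Algebra.adjoin R ({α} : Set L)) c) := rfl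

omit [IsDomain R] [IsIntegrallyClosed R] [IsDomain L] [Module.IsTorsionFree R L] in
theorem nbcFibreHom_surjective (α : L) {p : R}
    (hp : nbcGen R α ∣ algebraMap R (Algebra.adjoin R ({α} : Set L)) p) :
    Function.Surjective (nbcFibreHom α hp) := by
  intro y
  obtain ⟨z, rfl⟩ := Ideal.Quotient.mk_surjective y
  obtain ⟨c, z', hz', h⟩ := nbc_exists_eq_add_mul α z.2
  refine ⟨Ideal.Quotient.mk _ c, ?_⟩
  rw [nbcFibreHom_mk, Ideal.Quotient.eq, Ideal.mem_span_singleton]
  refine ⟨-⟨z', hz'⟩, Subtype.ext ?_⟩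
  simp only [Subalgebra.coe_sub, Subalgebra.coe_algebraMap, Subalgebra.coe_mul, nbcGen_coe,
    Subalgebra.coe_neg]
  rw [h]
  ring

theorem nbcFibreHom_injective {α : L} (hα : IsIntegral R α) {p : R}
    (hc0 : p ∣ (minpoly R α).coeff 0)
    (hp : nbcGen R α ∣ algebraMap R (Algebra.adjoin R ({α} : Set L)) p) :
    Function.Injective (nbcFibreHom α hp) := by
  rw [injective_iff_map_eq_zero]
  intro x hx
  obtain ⟨c, rfl⟩ := Ideal.Quotient.mk_surjective x
  rw [nbcFibreHom_mk, Ideal.Quotient.eq_zero_iff_mem, Ideal.mem_span_singleton,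
    nbcGen_dvd_iff] at hx
  obtain ⟨z', hz', h⟩ := hx
  rw [Ideal.Quotient.eq_zero_iff_mem, Ideal.mem_span_singleton]
  exact nbc_dvd_of_gen_mul hα hc0 hz' h

/-- **U8, special fibre**: `R / p ≃+* R[α] / α`. -/
noncomputable def nbcFibreEquiv {α : L} (hα : IsIntegral R α) {p : R}
    (hc0 : p ∣ (minpoly R α).coeff 0)
    (hp : nbcGen R α ∣ algebraMap R (Algebra.adjoin R ({α} : Set L)) p) :
    R ⧸ Ideal.span {p} ≃+* Algebra.adjoin R ({α} : Set L) ⧸ Ideal.span {nbcGen R α} :=
  RingEquiv.ofBijective (nbcFibreHom α hp)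
    ⟨nbcFibreHom_injective hα hc0 hp, nbcFibreHom_surjective α hp⟩

@[simp] theorem nbcFibreEquiv_mk {α : L} (hα : IsIntegral R α) {p : R}
    (hc0 : p ∣ (minpoly R α).coeff 0)
    (hp : nbcGen R α ∣ algebraMap R (Algebra.adjoin R ({α} : Set L)) p) (c : R) :
    nbcFibreEquiv hα hc0 hp (Ideal.Quotient.mk _ c) =
      Ideal.Quotient.mk _ (algebraMap R (Algebra.adjoin R ({α} : Set L)) c) := rfl

end Fibre

end Fermat.Agent.UNIP
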