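/-
UNIP / U8 (helper16), irreducibility part.

`R` a domain, `p ∈ R` a nonzero nonunit with `R / p` reduced.  Then a monic polynomial which is
Eisenstein at `p` (all lower coefficients divisible by `p`, constant coefficient `p * unit`)
is irreducible over `R`, and over `Frac R` if `R` is integrally closed.
-/
import Fermat.Agent.UNIP.NormalBCEis

set_option autoImplicit false

open Polynomial

namespace Fermat.Agent.UNIP

section Irr

variable {R : Type*} [CommRing R] [IsDomain R]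

omit [IsDomain R] in
/-- If `R / p` is reduced and `𝔓` is a minimal prime over `(p)`, then every element of `𝔓`
is carried into `(p)` by some element outside `𝔓`. -/
theorem nbc_exists_mul_dvd_of_mem_minimalPrimes {p : R}
    (hred : ∀ c : R, p ∣ c ^ 2 → p ∣ c) {𝔓 : Ideal R}
    (h𝔓 : 𝔓 ∈ (Ideal.span {p}).minimalPrimes) {a : R} (ha : a ∈ 𝔓) :
    ∃ s, s ∉ 𝔓 ∧ p ∣ s * a := by
  have : 𝔓.IsPrime := h𝔓.1.1
  by_contra hcon
  push Not at hcon
  have hdisj : Disjoint ((Ideal.span {p} : Ideal R) : Set R)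
      ((𝔓.primeCompl ⊔ Submonoid.powers a : Submonoid R) : Set R) := by
    rw [Set.disjoint_left]
    intro x hx hxS
    obtain ⟨s, hs, z, ⟨n, rfl⟩, rfl⟩ := Submonoid.mem_sup.1 hxS
    have hdvd : p ∣ s * a ^ n := Ideal.mem_span_singleton.1 hx
    have h2 : p ∣ (s * a) ^ (n + 1) := by
      have : (s * a) ^ (n + 1) = (s ^ n * a) * (s * a ^ n) := by ring
      rw [this]
      exact dvd_mul_of_dvd_right hdvd _
    exact hcon s hs (nbc_dvd_of_dvd_pow hred _ _ h2)
  obtain ⟨𝔔, h𝔔p, h𝔔I, h𝔔d⟩ := Ideal.exists_le_prime_disjoint _ _ hdisj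
  have hle : 𝔔 ≤ 𝔓 := by
    intro x hx
    by_contra hx𝔓
    exact Set.disjoint_left.1 h𝔔d hx
      ((le_sup_left : 𝔓.primeCompl ≤ 𝔓.primeCompl ⊔ Submonoid.powers a) hx𝔓)
  have h𝔓le : 𝔓 ≤ 𝔔 := h𝔓.2 ⟨h𝔔p, h𝔔I⟩ hle
  exact Set.disjoint_left.1 h𝔔d (h𝔓le ha)
    ((le_sup_right : Submonoid.powers a ≤ 𝔓.primeCompl ⊔ Submonoid.powers a)
      (Submonoid.mem_powers a))

/-- In a domain, if `R / p` is reduced and `𝔓` is a minimal prime over `(p)`, then
`p ∉ 𝔓 ^ 2`. -/
theorem nbc_notMem_sq_of_mem_minimalPrimes {p : R} (hp0 : p ≠ 0)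
    (hred : ∀ c : R, p ∣ c ^ 2 → p ∣ c) {𝔓 : Ideal R}
    (h𝔓 : 𝔓 ∈ (Ideal.span {p}).minimalPrimes) : p ∉ 𝔓 ^ 2 := by
  have : 𝔓.IsPrime := h𝔓.1.1
  -- the ideal of elements carried into `(p²)` by something outside `𝔓`
  let J : Ideal R :=
    { carrier := {a | ∃ s, s ∉ 𝔓 ∧ p ^ 2 ∣ s * a}
      add_mem' := by
        rintro a b ⟨s, hs, ha⟩ ⟨t, ht, hb⟩
        refine ⟨s * t, fun h => (Ideal.IsPrime.mem_or_mem ‹_› h).elim hs ht, ?_⟩
        have : s * t * (a + b) = t * (s * a) + s * (t * b) := by ring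
        rw [this]
        exact dvd_add (dvd_mul_of_dvd_right ha _) (dvd_mul_of_dvd_right hb _)
      zero_mem' := ⟨1, fun h => (Ideal.IsPrime.ne_top ‹_›) ((Ideal.eq_top_iff_one _).2 h),
        by simp⟩
      smul_mem' := by
        rintro c a ⟨s, hs, ha⟩
        refine ⟨s, hs, ?_⟩
        rw [smul_eq_mul, mul_left_comm]
        exact dvd_mul_of_dvd_right ha _ }
  have hJ : 𝔓 ^ 2 ≤ J := by
    rw [pow_two, Ideal.mul_le]
    intro a ha b hb
    obtain ⟨s, hs, x, hx⟩ := nbc_exists_mul_dvd_of_mem_minimalPrimes hred h𝔓 ha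
    obtain ⟨t, ht, y, hy⟩ := nbc_exists_mul_dvd_of_mem_minimalPrimes hred h𝔓 hb
    refine ⟨s * t, fun h => (Ideal.IsPrime.mem_or_mem ‹_› h).elim hs ht, x * y, ?_⟩
    calc s * t * (a * b) = (s * a) * (t * b) := by ring
      _ = p ^ 2 * (x * y) := by rw [hx, hy]; ring
  intro hp
  obtain ⟨s, hs, c, hc⟩ := hJ hp
  apply hs
  have h1 : p * s = p * (p * c) := by rw [mul_comm p s, hc]; ring
  have h2 : s = p * c := mul_left_cancel₀ hp0 h1
  rw [h2]
  exact Ideal.mul_mem_right _ _ (h𝔓.1.2 (Ideal.mem_span_singleton_self p))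

/-- **Eisenstein's criterion over a reduced special fibre.**  `R` a domain, `p` a nonzero
nonunit with `R / p` reduced; a monic polynomial of positive degree whose lower coefficients
are divisible by `p` and whose constant coefficient is `p * unit` is irreducible. -/
theorem nbc_irreducible_of_eisenstein {p : R} (hp0 : p ≠ 0) (hpu : ¬ IsUnit p)
    (hred : ∀ c : R, p ∣ c ^ 2 → p ∣ c) {g : R[X]} (hgm : g.Monic)
    (hdeg : 0 < g.natDegree) (hcoeff : ∀ i, i < g.natDegree → p ∣ g.coeff i)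
    (hc0 : ∃ u : R, IsUnit u ∧ g.coeff 0 = p * u) : Irreducible g := by
  have hne : (Ideal.span {p} : Ideal R) ≠ ⊤ := by
    rwa [Ne, Ideal.span_singleton_eq_top]
  obtain ⟨⟨𝔓, h𝔓⟩⟩ := Ideal.nonempty_minimalPrimes hne
  have : 𝔓.IsPrime := h𝔓.1.1
  have hp𝔓 : p ∈ 𝔓 := h𝔓.1.2 (Ideal.mem_span_singleton_self p)
  have hE : g.IsEisensteinAt 𝔓 :=
    { leading := by
        rw [hgm.leadingCoeff]
        exact fun h => (Ideal.IsPrime.ne_top ‹_›) ((Ideal.eq_top_iff_one _).2 h)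
      mem := fun {n} hn => by
        obtain ⟨c, hc⟩ := hcoeff n hn
        rw [hc]
        exact Ideal.mul_mem_right _ _ hp𝔓
      notMem := by
        obtain ⟨u, hu, hu0⟩ := hc0
        intro h
        apply nbc_notMem_sq_of_mem_minimalPrimes hp0 hred h𝔓
        obtain ⟨v, hv⟩ := hu.exists_right_inv
        have : p = g.coeff 0 * v := by rw [hu0, mul_assoc, hv, mul_one]
        rw [this]
        exact Ideal.mul_mem_right _ _ h }
  exact hE.irreducible ‹_› hgm.isPrimitive hdeg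

/-- The same over the fraction field of an integrally closed domain. -/
theorem nbc_irreducible_map_of_eisenstein [IsIntegrallyClosed R] {K : Type*} [Field K]
    [Algebra R K] [IsFractionRing R K] {p : R} (hp0 : p ≠ 0) (hpu : ¬ IsUnit p)
    (hred : ∀ c : R, p ∣ c ^ 2 → p ∣ c) {g : R[X]} (hgm : g.Monic)
    (hdeg : 0 < g.natDegree) (hcoeff : ∀ i, i < g.natDegree → p ∣ g.coeff i)
    (hc0 : ∃ u : R, IsUnit u ∧ g.coeff 0 = p * u) :
    Irreducible (g.map (algebraMap R K)) :=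
  (hgm.irreducible_iff_irreducible_map_fraction_map).1
    (nbc_irreducible_of_eisenstein hp0 hpu hred hgm hdeg hcoeff hc0)

end Irr

end Fermat.Agent.UNIP
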