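/-
UNIP / U8 (helper16): normality is preserved by a totally ramified (Eisenstein) base change
when the special fibre is reduced.

`A₀` a DVR with uniformizer `π`, `R ⊇ A₀` an integrally closed domain with `R / π` reduced,
`K = Frac R`, `f ∈ A₀[X]` an Eisenstein polynomial, `L = K(α)`, `f(α) = 0`, `[L : K] = deg f`.
Then the integral closure of `R` in `L` is `R[α]` (`normalBC`, `normalBC_isIntegralClosure`),
`R[α] / α ≅ R / π` (`normalBC_fibreEquiv`), and `f` stays irreducible over `K`
(`normalBC_irreducible`), so that `[L : K] = deg f` is automatic (`normalBC_natDegree_eq`).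
-/
import Fermat.Agent.UNIP.NormalBCEis
import Fermat.Agent.UNIP.NormalBCIrr
import Fermat.Agent.UNIP.NormalBCFibre

set_option autoImplicit false

open Polynomial Algebra

namespace Fermat.Agent.UNIP

section Main

variable {A₀ R K L : Type*} [CommRing A₀] [IsDomain A₀] [IsDiscreteValuationRing A₀]
  [CommRing R] [IsDomain R] [IsIntegrallyClosed R] [Algebra A₀ R]
  [Field K] [Algebra R K] [IsFractionRing R K] [Algebra A₀ K] [IsScalarTower A₀ R K]
  [Field L] [Algebra K L] [Algebra R L] [IsScalarTower R K L] [Algebra A₀ L]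
  [IsScalarTower A₀ K L] [IsScalarTower A₀ R L]

omit [IsDiscreteValuationRing A₀] [IsScalarTower A₀ K L] [IsScalarTower A₀ R L] [Algebra A₀ L]
  [IsScalarTower R K L] [Algebra R L] [Algebra K L] [Field L] [IsScalarTower A₀ R K]
  [IsFractionRing R K] [Algebra R K] [IsIntegrallyClosed R] [IsDomain R] [CommRing R]
  [Algebra A₀ R] in
/-- A nonzero integral element is a root of a monic polynomial with nonzero constant term. -/
theorem nbc_exists_monic_coeff_zero_ne {d : K} (hd : IsIntegral A₀ d) (hd0 : d ≠ 0) :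
    ∃ g : A₀[X], g.Monic ∧ aeval d g = 0 ∧ g.coeff 0 ≠ 0 := by
  obtain ⟨g, hgm, hg⟩ := hd
  obtain ⟨q, hq, hnd⟩ := exists_eq_pow_rootMultiplicity_mul_and_not_dvd g hgm.ne_zero 0
  rw [C_0, sub_zero] at hq hnd
  refine ⟨q, ?_, ?_, ?_⟩
  · exact Monic.of_mul_monic_left (monic_X_pow _) (hq ▸ hgm)
  · have h : aeval d g = 0 := by simpa [aeval_def] using hg
    rw [hq, map_mul, map_pow, aeval_X] at h
    exact (mul_eq_zero.1 h).resolve_left (pow_ne_zero _ hd0)
  · rwa [Ne, ← X_dvd_iff]

omit [IsScalarTower A₀ K L] [IsScalarTower A₀ R L] [Algebra A₀ L] [IsScalarTower R K L]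
  [Algebra R L] [Algebra K L] [Field L] [IsDomain R] in
/-- A nonzero element of `K` that is integral over the DVR `A₀` divides a power of `π` in `R`. -/
theorem nbc_exists_mul_eq_pow {π : A₀} (hπ : Irreducible π) {d : K} (hd : IsIntegral A₀ d)
    (hd0 : d ≠ 0) :
    ∃ (w : R) (r : ℕ), d * algebraMap R K w = algebraMap A₀ K (π ^ r) := by
  obtain ⟨g, -, hroot, hc0⟩ := nbc_exists_monic_coeff_zero_ne hd hd0
  obtain ⟨r, hr⟩ := IsDiscreteValuationRing.associated_pow_irreducible hc0 hπ
  obtain ⟨u, hu⟩ := hr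
  have hsplit : g = divX g * X + C (g.coeff 0) := (divX_mul_X_add g).symm
  have h1 : aeval d (divX g) * d + algebraMap A₀ K (g.coeff 0) = 0 := by
    have := hroot
    rw [hsplit] at this
    simpa using this
  set w' : K := -(aeval d (divX g)) * algebraMap A₀ K (u : A₀) with hw'
  have hw'int : IsIntegral R w' := by
    have h2 : IsIntegral A₀ w' := by
      refine IsIntegral.mul (IsIntegral.neg ?_) isIntegral_algebraMap
      have hmem : aeval d (divX g) ∈ Algebra.adjoin A₀ ({d} : Set K) := by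
        rw [Algebra.adjoin_singleton_eq_range_aeval]
        exact ⟨_, rfl⟩
      exact (_root_.adjoin_le_integralClosure hd) hmem
    exact h2.tower_top
  obtain ⟨w, hw⟩ := IsIntegrallyClosed.isIntegral_iff.1 hw'int
  refine ⟨w, r, ?_⟩
  rw [hw, hw', ← hu, map_mul]
  linear_combination (-(algebraMap A₀ K (u : A₀))) * h1

/-- **U8, normality.** Let `A₀` be a DVR with uniformizer `π`, `R` an integrally closed domain
over `A₀` such that `R / π` is reduced, `K = Frac R`, and `L = K(α)` where `α` is a root of an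
Eisenstein polynomial `f ∈ A₀[X]` with `deg f = [L : K]`.  Then every element of `L` integral
over `R` lies in `R[α]`. -/
theorem normalBC {π : A₀} (hπ : Irreducible π)
    (hπ0 : algebraMap A₀ R π ≠ 0)
    (hred : ∀ c : R, algebraMap A₀ R π ∣ c ^ 2 → algebraMap A₀ R π ∣ c)
    (B : PowerBasis K L) [Algebra.IsSeparable K L]
    (f : A₀[X]) (hfm : f.Monic) (hfE : f.IsEisensteinAt (Ideal.span {π}))
    (hroot : aeval B.gen f = 0) (hdeg : f.natDegree = B.dim)
    {z : L} (hz : IsIntegral R z) : z ∈ Algebra.adjoin R ({B.gen} : Set L) := by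
  have hBintA : IsIntegral A₀ B.gen := ⟨f, hfm, by simpa [aeval_def] using hroot⟩
  have hBint : IsIntegral R B.gen := hBintA.tower_top
  -- the minimal polynomial
  have hminK : minpoly K B.gen = f.map (algebraMap A₀ K) := by
    have hdvd : minpoly K B.gen ∣ f.map (algebraMap A₀ K) :=
      minpoly.dvd K B.gen (by rw [aeval_map_algebraMap]; exact hroot)
    have hle : (f.map (algebraMap A₀ K)).natDegree ≤ (minpoly K B.gen).natDegree := by
      rw [hfm.natDegree_map, B.natDegree_minpoly, hdeg]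
    exact (eq_of_monic_of_dvd_of_natDegree_le (minpoly.monic (hBint.tower_top))
      (hfm.map _) hdvd hle).symm
  have hmin : minpoly R B.gen = f.map (algebraMap A₀ R) := by
    apply Polynomial.map_injective (algebraMap R K) (IsFractionRing.injective R K)
    rw [← minpoly.isIntegrallyClosed_eq_field_fractions' K hBint, hminK, Polynomial.map_map,
      ← IsScalarTower.algebraMap_eq]
  -- the constant coefficient
  have hc0 : ∃ u : R, IsUnit u ∧ (minpoly R B.gen).coeff 0 = algebraMap A₀ R π * u := by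
    have h0 : f.coeff 0 ∈ Ideal.span {π} := by
      have hpos : 0 < f.natDegree := hdeg ▸ B.dim_pos
      exact hfE.mem hpos
    obtain ⟨c, hc⟩ := Ideal.mem_span_singleton.1 h0
    have hcu : IsUnit c := by
      by_contra hcn
      have hcm : c ∈ IsLocalRing.maximalIdeal A₀ := (IsLocalRing.mem_maximalIdeal c).2 hcn
      rw [Irreducible.maximalIdeal_eq hπ] at hcm
      obtain ⟨c', hc'⟩ := Ideal.mem_span_singleton.1 hcm
      apply hfE.notMem
      rw [Ideal.span_singleton_pow, Ideal.mem_span_singleton]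
      exact ⟨c', by rw [hc, hc']; ring⟩
    refine ⟨algebraMap A₀ R c, hcu.map _, ?_⟩
    rw [hmin, coeff_map, hc, map_mul]
  -- weakly Eisenstein over `R`
  have hei : (minpoly R B.gen).IsWeaklyEisensteinAt (Submodule.span R {algebraMap A₀ R π}) := by
    rw [hmin]
    have := hfE.isWeaklyEisensteinAt.map (algebraMap A₀ R)
    rwa [Ideal.map_span, Set.image_singleton] at this
  -- the discriminant divides a power of `π`
  have : Module.Finite K L := B.finite
  have hd0 : discr K B.basis ≠ 0 := discr_not_zero_of_basis K B.basis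
  have hdint : IsIntegral A₀ (discr K B.basis) :=
    discr_isIntegral K fun i => by rw [B.basis_eq_pow]; exact hBintA.pow _
  obtain ⟨w, r, hw⟩ := nbc_exists_mul_eq_pow (R := R) hπ hdint hd0
  have h1 : discr K B.basis • z ∈ Algebra.adjoin R ({B.gen} : Set L) :=
    discr_mul_isIntegral_mem_adjoin K hBint hz
  have h2 : (algebraMap A₀ R π) ^ r • z ∈ Algebra.adjoin R ({B.gen} : Set L) := by
    have e : (algebraMap A₀ R π) ^ r • z = w • (discr K B.basis • z) := by
      rw [Algebra.smul_def, Algebra.smul_def, Algebra.smul_def, ← mul_assoc]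
      congr 1
      rw [IsScalarTower.algebraMap_apply R K L, IsScalarTower.algebraMap_apply R K L w,
        ← map_mul, map_pow, ← IsScalarTower.algebraMap_apply A₀ R K, ← map_pow, ← hw, mul_comm]
    rw [e]
    exact Subalgebra.smul_mem _ h1 _
  exact nbc_mem_adjoin_of_pow_smul hπ0 hred hc0 hBint hz h2 hei

omit [IsScalarTower A₀ K L] [IsScalarTower A₀ R L] [Algebra A₀ L] [IsScalarTower R K L]
  [Algebra R L] [Algebra K L] [Field L] [IsDomain R] [IsIntegrallyClosed R]
  [IsScalarTower A₀ R K] [Algebra A₀ K] [IsFractionRing R K] [Algebra R K] [Field K] in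
/-- The data "constant coefficient is `π * unit`" for an Eisenstein polynomial over a DVR. -/
theorem nbc_coeff_zero_eq {π : A₀} (hπ : Irreducible π)
    (f : A₀[X]) (hfE : f.IsEisensteinAt (Ideal.span {π})) (hfdeg : 0 < f.natDegree) :
    ∃ u : R, IsUnit u ∧ (f.map (algebraMap A₀ R)).coeff 0 = algebraMap A₀ R π * u := by
  have h0 : f.coeff 0 ∈ Ideal.span {π} := hfE.mem hfdeg
  obtain ⟨c, hc⟩ := Ideal.mem_span_singleton.1 h0
  have hcu : IsUnit c := by
    by_contra hcn
    have hcm : c ∈ IsLocalRing.maximalIdeal A₀ := (IsLocalRing.mem_maximalIdeal c).2 hcn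
    rw [Irreducible.maximalIdeal_eq hπ] at hcm
    obtain ⟨c', hc'⟩ := Ideal.mem_span_singleton.1 hcm
    apply hfE.notMem
    rw [Ideal.span_singleton_pow, Ideal.mem_span_singleton]
    exact ⟨c', by rw [hc, hc']; ring⟩
  refine ⟨algebraMap A₀ R c, hcu.map _, ?_⟩
  rw [coeff_map, hc, map_mul]

omit [IsScalarTower A₀ K L] [IsScalarTower A₀ R L] [Algebra A₀ L] [IsScalarTower R K L]
  [Algebra R L] [Algebra K L] [Field L] in
/-- **U8, irreducibility.** An Eisenstein polynomial over the DVR `A₀` stays irreducible over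
the fraction field of any integrally closed domain `R ⊇ A₀` in which `π` is a nonzero
nonunit with `R / π` reduced. -/
theorem normalBC_irreducible {π : A₀} (hπ : Irreducible π)
    (hπ0 : algebraMap A₀ R π ≠ 0) (hπu : ¬ IsUnit (algebraMap A₀ R π))
    (hred : ∀ c : R, algebraMap A₀ R π ∣ c ^ 2 → algebraMap A₀ R π ∣ c)
    (f : A₀[X]) (hfm : f.Monic) (hfE : f.IsEisensteinAt (Ideal.span {π}))
    (hfdeg : 0 < f.natDegree) :
    Irreducible (f.map (algebraMap A₀ K)) := by
  have h := nbc_irreducible_map_of_eisenstein (K := K) hπ0 hπu hred (hfm.map (algebraMap A₀ R))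
    (by rwa [hfm.natDegree_map])
    (fun i hi => by
      rw [hfm.natDegree_map] at hi
      obtain ⟨c, hc⟩ := Ideal.mem_span_singleton.1 (hfE.mem hi)
      rw [coeff_map, hc, map_mul]
      exact dvd_mul_right _ _)
    (nbc_coeff_zero_eq hπ f hfE hfdeg)
  rwa [Polynomial.map_map, ← IsScalarTower.algebraMap_eq] at h

omit [IsScalarTower A₀ R L] [Algebra R L] [IsScalarTower R K L] in
/-- The minimal polynomial over `K` of a root of `f` is `f`. -/
theorem normalBC_minpoly_eq {π : A₀} (hπ : Irreducible π)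
    (hπ0 : algebraMap A₀ R π ≠ 0) (hπu : ¬ IsUnit (algebraMap A₀ R π))
    (hred : ∀ c : R, algebraMap A₀ R π ∣ c ^ 2 → algebraMap A₀ R π ∣ c)
    (f : A₀[X]) (hfm : f.Monic) (hfE : f.IsEisensteinAt (Ideal.span {π}))
    (hfdeg : 0 < f.natDegree) {α : L} (hroot : aeval α f = 0) :
    minpoly K α = f.map (algebraMap A₀ K) :=
  (minpoly.eq_of_irreducible_of_monic
    (normalBC_irreducible (R := R) hπ hπ0 hπu hred f hfm hfE hfdeg)
    (by rw [aeval_map_algebraMap]; exact hroot) (hfm.map _)).symm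

omit [IsScalarTower A₀ R L] [Algebra R L] [IsScalarTower R K L] in
/-- `[L : K] = deg f` is automatic. -/
theorem normalBC_natDegree_eq {π : A₀} (hπ : Irreducible π)
    (hπ0 : algebraMap A₀ R π ≠ 0) (hπu : ¬ IsUnit (algebraMap A₀ R π))
    (hred : ∀ c : R, algebraMap A₀ R π ∣ c ^ 2 → algebraMap A₀ R π ∣ c)
    (B : PowerBasis K L)
    (f : A₀[X]) (hfm : f.Monic) (hfE : f.IsEisensteinAt (Ideal.span {π}))
    (hroot : aeval B.gen f = 0) : f.natDegree = B.dim := by
  have hfdeg : 0 < f.natDegree := by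
    rcases Nat.eq_zero_or_pos f.natDegree with h0 | h0
    · exfalso
      have h1 : f = 1 := hfm.natDegree_eq_zero.1 h0
      rw [h1] at hroot
      simp at hroot
    · exact h0
  rw [← B.natDegree_minpoly, normalBC_minpoly_eq (R := R) hπ hπ0 hπu hred f hfm hfE hfdeg hroot,
    hfm.natDegree_map]

/-- **U8, normality**, with the degree hypothesis discharged. -/
theorem normalBC' {π : A₀} (hπ : Irreducible π)
    (hπ0 : algebraMap A₀ R π ≠ 0) (hπu : ¬ IsUnit (algebraMap A₀ R π))
    (hred : ∀ c : R, algebraMap A₀ R π ∣ c ^ 2 → algebraMap A₀ R π ∣ c)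
    (B : PowerBasis K L) [Algebra.IsSeparable K L]
    (f : A₀[X]) (hfm : f.Monic) (hfE : f.IsEisensteinAt (Ideal.span {π}))
    (hroot : aeval B.gen f = 0)
    {z : L} (hz : IsIntegral R z) : z ∈ Algebra.adjoin R ({B.gen} : Set L) :=
  normalBC hπ hπ0 hred B f hfm hfE hroot
    (normalBC_natDegree_eq (R := R) hπ hπ0 hπu hred B f hfm hfE hroot) hz

/-- **U8, normality**: `R[α]` is the integral closure of `R` in `L`. -/
theorem normalBC_isIntegralClosure {π : A₀} (hπ : Irreducible π)
    (hπ0 : algebraMap A₀ R π ≠ 0) (hπu : ¬ IsUnit (algebraMap A₀ R π))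
    (hred : ∀ c : R, algebraMap A₀ R π ∣ c ^ 2 → algebraMap A₀ R π ∣ c)
    (B : PowerBasis K L) [Algebra.IsSeparable K L]
    (f : A₀[X]) (hfm : f.Monic) (hfE : f.IsEisensteinAt (Ideal.span {π}))
    (hroot : aeval B.gen f = 0) :
    IsIntegralClosure (Algebra.adjoin R ({B.gen} : Set L)) R L where
  algebraMap_injective := Subtype.val_injective
  isIntegral_iff := by
    intro z
    have hBintA : IsIntegral A₀ B.gen := ⟨f, hfm, by simpa [aeval_def] using hroot⟩
    have hBint : IsIntegral R B.gen := hBintA.tower_top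
    constructor
    · intro hz
      exact ⟨⟨z, normalBC' hπ hπ0 hπu hred B f hfm hfE hroot hz⟩, rfl⟩
    · rintro ⟨y, rfl⟩
      exact (_root_.adjoin_le_integralClosure hBint) y.2

/-- **U8, normality**: the integral closure of `R` in `L` is `R[α]`, as subalgebras. -/
theorem normalBC_integralClosure_eq {π : A₀} (hπ : Irreducible π)
    (hπ0 : algebraMap A₀ R π ≠ 0) (hπu : ¬ IsUnit (algebraMap A₀ R π))
    (hred : ∀ c : R, algebraMap A₀ R π ∣ c ^ 2 → algebraMap A₀ R π ∣ c)
    (B : PowerBasis K L) [Algebra.IsSeparable K L]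
    (f : A₀[X]) (hfm : f.Monic) (hfE : f.IsEisensteinAt (Ideal.span {π}))
    (hroot : aeval B.gen f = 0) :
    integralClosure R L = Algebra.adjoin R ({B.gen} : Set L) := by
  have hBintA : IsIntegral A₀ B.gen := ⟨f, hfm, by simpa [aeval_def] using hroot⟩
  have hBint : IsIntegral R B.gen := hBintA.tower_top
  refine le_antisymm (fun z hz => ?_) (_root_.adjoin_le_integralClosure hBint)
  exact normalBC' hπ hπ0 hπu hred B f hfm hfE hroot hz

end Main

section Fibre2

variable {A₀ R L : Type*} [CommRing A₀] [IsDomain A₀] [IsDiscreteValuationRing A₀]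
  [CommRing R] [IsDomain R] [IsIntegrallyClosed R] [Algebra A₀ R]
  [Field L] [Algebra R L] [Algebra A₀ L] [IsScalarTower A₀ R L]

omit [IsIntegrallyClosed R] in
/-- `L` is torsion-free over `R`. -/
theorem nbc_isTorsionFree (K : Type*) [Field K] [Algebra R K] [IsFractionRing R K]
    [Algebra K L] [IsScalarTower R K L] : Module.IsTorsionFree R L := by
  have : FaithfulSMul R L := by
    rw [faithfulSMul_iff_algebraMap_injective, IsScalarTower.algebraMap_eq R K L]
    exact (algebraMap K L).injective.comp (IsFractionRing.injective R K)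
  infer_instance

/-- The minimal polynomial over `R` of a root of `f` is `f`. -/
theorem normalBC_minpoly_eq' (K : Type*) [Field K] [Algebra R K] [IsFractionRing R K]
    [Algebra A₀ K] [IsScalarTower A₀ R K] [Algebra K L] [IsScalarTower R K L]
    [IsScalarTower A₀ K L] {π : A₀} (hπ : Irreducible π)
    (hπ0 : algebraMap A₀ R π ≠ 0) (hπu : ¬ IsUnit (algebraMap A₀ R π))
    (hred : ∀ c : R, algebraMap A₀ R π ∣ c ^ 2 → algebraMap A₀ R π ∣ c)
    (f : A₀[X]) (hfm : f.Monic) (hfE : f.IsEisensteinAt (Ideal.span {π}))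
    (hfdeg : 0 < f.natDegree) {α : L} (hroot : aeval α f = 0) :
    minpoly R α = f.map (algebraMap A₀ R) := by
  have hαA : IsIntegral A₀ α := ⟨f, hfm, by simpa [aeval_def] using hroot⟩
  have hα : IsIntegral R α := hαA.tower_top
  apply Polynomial.map_injective (algebraMap R K) (IsFractionRing.injective R K)
  rw [← minpoly.isIntegrallyClosed_eq_field_fractions' K hα,
    normalBC_minpoly_eq (R := R) (K := K) hπ hπ0 hπu hred f hfm hfE hfdeg hroot,
    Polynomial.map_map, ← IsScalarTower.algebraMap_eq]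

/-- **U8, special fibre**: `R / π ≃+* R[α] / α` for a root `α` of the Eisenstein polynomial
`f`; it sends the class of `c ∈ R` to the class of `c` (`normalBC_fibreEquiv_mk`). -/
noncomputable def normalBC_fibreEquiv (K : Type*) [Field K] [Algebra R K] [IsFractionRing R K]
    [Algebra A₀ K] [IsScalarTower A₀ R K] [Algebra K L] [IsScalarTower R K L]
    [IsScalarTower A₀ K L] {π : A₀} (hπ : Irreducible π)
    (hπ0 : algebraMap A₀ R π ≠ 0) (hπu : ¬ IsUnit (algebraMap A₀ R π))
    (hred : ∀ c : R, algebraMap A₀ R π ∣ c ^ 2 → algebraMap A₀ R π ∣ c)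
    (f : A₀[X]) (hfm : f.Monic) (hfE : f.IsEisensteinAt (Ideal.span {π}))
    (hfdeg : 0 < f.natDegree) {α : L} (hroot : aeval α f = 0) :
    R ⧸ Ideal.span {algebraMap A₀ R π} ≃+*
      Algebra.adjoin R ({α} : Set L) ⧸ Ideal.span {nbcGen R α} :=
  haveI : Module.IsTorsionFree R L := nbc_isTorsionFree K
  nbcFibreEquiv (R := R) (L := L) (α := α)
    (IsIntegral.tower_top (A := R) ⟨f, hfm, by simpa [aeval_def] using hroot⟩)
    (by
      rw [normalBC_minpoly_eq' K hπ hπ0 hπu hred f hfm hfE hfdeg hroot]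
      obtain ⟨u, -, hu⟩ := nbc_coeff_zero_eq (R := R) hπ f hfE hfdeg
      exact ⟨u, hu⟩)
    (by
      rw [nbcGen_dvd_iff]
      have hroot' : aeval α (f.map (algebraMap A₀ R)) = 0 := by
        rw [aeval_map_algebraMap]; exact hroot
      exact nbc_gen_dvd α hroot' (nbc_coeff_zero_eq (R := R) hπ f hfE hfdeg))

@[simp] theorem normalBC_fibreEquiv_mk (K : Type*) [Field K] [Algebra R K]
    [IsFractionRing R K]
    [Algebra A₀ K] [IsScalarTower A₀ R K] [Algebra K L] [IsScalarTower R K L]
    [IsScalarTower A₀ K L] {π : A₀} (hπ : Irreducible π)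
    (hπ0 : algebraMap A₀ R π ≠ 0) (hπu : ¬ IsUnit (algebraMap A₀ R π))
    (hred : ∀ c : R, algebraMap A₀ R π ∣ c ^ 2 → algebraMap A₀ R π ∣ c)
    (f : A₀[X]) (hfm : f.Monic) (hfE : f.IsEisensteinAt (Ideal.span {π}))
    (hfdeg : 0 < f.natDegree) {α : L} (hroot : aeval α f = 0) (c : R) :
    normalBC_fibreEquiv K hπ hπ0 hπu hred f hfm hfE hfdeg hroot (Ideal.Quotient.mk _ c) =
      Ideal.Quotient.mk _ (algebraMap R (Algebra.adjoin R ({α} : Set L)) c) := rfl

/-- **U8, special fibre, elementwise**: for `c ∈ R`, `α ∣ c` in `R[α]` iff `π ∣ c` in `R`. -/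
theorem normalBC_gen_dvd_iff (K : Type*) [Field K] [Algebra R K] [IsFractionRing R K]
    [Algebra A₀ K] [IsScalarTower A₀ R K] [Algebra K L] [IsScalarTower R K L]
    [IsScalarTower A₀ K L] {π : A₀} (hπ : Irreducible π)
    (hπ0 : algebraMap A₀ R π ≠ 0) (hπu : ¬ IsUnit (algebraMap A₀ R π))
    (hred : ∀ c : R, algebraMap A₀ R π ∣ c ^ 2 → algebraMap A₀ R π ∣ c)
    (f : A₀[X]) (hfm : f.Monic) (hfE : f.IsEisensteinAt (Ideal.span {π}))
    (hfdeg : 0 < f.natDegree) {α : L} (hroot : aeval α f = 0) (c : R) :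
    nbcGen R α ∣ algebraMap R (Algebra.adjoin R ({α} : Set L)) c ↔ algebraMap A₀ R π ∣ c := by
  have h := (normalBC_fibreEquiv K hπ hπ0 hπu hred f hfm hfE hfdeg hroot).injective
  rw [← Ideal.mem_span_singleton, ← Ideal.Quotient.eq_zero_iff_mem,
    ← normalBC_fibreEquiv_mk K hπ hπ0 hπu hred f hfm hfE hfdeg hroot c,
    map_eq_zero_iff _ h, Ideal.Quotient.eq_zero_iff_mem, Ideal.mem_span_singleton]

end Fibre2

end Fermat.Agent.UNIP
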