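import Mathlib
import Fermat.Agent.INJ.GaussRing
import Fermat.Agent.S28.LaurentRank
import Fermat.Agent.S34.ALMain
import Fermat.Agent.ES.Kronecker

/-!
# UNIP, piece U5-Fr (helper25): Gauss ring and Frobenius inputs of the node analysis

Base: `A` a domain with fraction field `E`, `r : A →+* k` the residue map, `π` with
`ker r = (π)`.  `gaussRing`, `gaussRed` are those of `INJ/GaussRing.lean`.

* `nodesFrobFrac A E` : the field of quotients of series over `A` inside `E((q))`; it contains
  every `F_N(E)` (`nodesFrob_full_le`).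
* `nodesFrob_exists_unit` : every nonzero element of it is `π^n · u / π^m` with `u` a unit of the
  Gauss ring.
* `nodesFrob_mem_of_isIntegralElem` : the Gauss ring is integrally closed in it.
-/

set_option autoImplicit false

noncomputable section

namespace Fermat.Agent.UNIP

open ModularCurve Polynomial IntermediateField Fermat.Agent.INJ

section Frac

variable (A E : Type*) [CommRing A] [IsDomain A] [Field E] [Algebra A E] [IsFractionRing A E]

theorem nodesFrob_coeffMap_injective :
    Function.Injective (coeffMap (algebraMap A E)) :=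
  coeffMap_inj_of_injective _ (IsFractionRing.injective A E)

variable {A E} in
theorem nodesFrob_coeffMap_ne_zero {b : LaurentSeries A} (hb : b ≠ 0) :
    coeffMap (algebraMap A E) b ≠ 0 := fun h =>
  hb (nodesFrob_coeffMap_injective A E (by rw [h, map_zero]))

/-- the field of quotients of series with coefficients in `A`, inside `E((q))` -/
def nodesFrobFrac : IntermediateField E (LaurentSeries E) where
  carrier := {x | ∃ T b : LaurentSeries A, b ≠ 0 ∧
    coeffMap (algebraMap A E) b * x = coeffMap (algebraMap A E) T}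
  zero_mem' := ⟨0, 1, one_ne_zero, by simp⟩
  one_mem' := ⟨1, 1, one_ne_zero, by simp⟩
  add_mem' := by
    rintro x y ⟨T, b, hb, h⟩ ⟨T', b', hb', h'⟩
    refine ⟨T * b' + T' * b, b * b', mul_ne_zero hb hb', ?_⟩
    rw [map_mul, map_add, map_mul, map_mul, ← h, ← h']; ring
  mul_mem' := by
    rintro x y ⟨T, b, hb, h⟩ ⟨T', b', hb', h'⟩
    refine ⟨T * T', b * b', mul_ne_zero hb hb', ?_⟩
    rw [map_mul, map_mul, ← h, ← h']; ring
  algebraMap_mem' := by
    intro c
    obtain ⟨a, s, hs, rfl⟩ := IsFractionRing.div_surjective (A := A) c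
    have hs0 : s ≠ 0 := nonZeroDivisors.ne_zero hs
    have hsE : algebraMap A E s ≠ 0 := fun h =>
      hs0 (IsFractionRing.injective A E (by rw [h, map_zero]))
    refine ⟨HahnSeries.C a, HahnSeries.C s, fun h => hs0 (HahnSeries.C_injective
      (by rw [h, map_zero])), ?_⟩
    rw [coeffMap_hahnC, coeffMap_hahnC]
    rw [ModularCurve.algebraMap_laurentSeries_eq_single, ← HahnSeries.C_apply, ← map_mul,
      mul_div_cancel₀ _ hsE]
  inv_mem' := by
    rintro x ⟨T, b, hb, h⟩
    by_cases hT : T = 0
    · have hx : x = 0 := by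
        rw [hT, map_zero] at h
        exact (mul_eq_zero.mp h).resolve_left (nodesFrob_coeffMap_ne_zero hb)
      exact ⟨0, 1, one_ne_zero, by rw [hx]; simp⟩
    · refine ⟨b, T, hT, ?_⟩
      have hbE := nodesFrob_coeffMap_ne_zero (E := E) hb
      have hTE := nodesFrob_coeffMap_ne_zero (E := E) hT
      have hx : x ≠ 0 := by
        intro hx
        rw [hx, mul_zero] at h
        exact hTE h.symm
      rw [← h]
      field_simp

variable {A E}

theorem nodesFrob_mem_frac_iff {x : LaurentSeries E} :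
    x ∈ nodesFrobFrac A E ↔ ∃ T b : LaurentSeries A, b ≠ 0 ∧
      coeffMap (algebraMap A E) b * x = coeffMap (algebraMap A E) T := Iff.rfl

theorem nodesFrob_coeffMap_mem_frac (T : LaurentSeries A) :
    coeffMap (algebraMap A E) T ∈ nodesFrobFrac A E :=
  ⟨T, 1, one_ne_zero, by simp⟩

/-- every `F_N(E)` consists of quotients of series over `A` -/
theorem nodesFrob_full_le (N : ℕ) [NeZero N] :
    modularFunctionFieldFullC E N ≤ nodesFrobFrac A E := by
  unfold modularFunctionFieldFullC
  rw [IntermediateField.adjoin_le_iff]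
  rintro x ⟨d, hd, _, rfl⟩
  have : qExpand E d (jqModC E) = coeffMap (algebraMap A E) (qExpand A d (jqModC A)) := by
    rw [coeffMap_qExpand, coeffMap_jqModC]
  rw [this]
  exact nodesFrob_coeffMap_mem_frac _

end Frac

section Val

variable {A E k : Type*} [CommRing A] [IsDomain A] [Field E] [Algebra A E] [IsFractionRing A E]
  [Field k] (r : A →+* k) {π : A}

/-- a nonzero series over `A` is a power of `π` times a series with nonzero reduction -/
theorem nodesFrob_exists_pow_mul [WfDvdMonoid A] (hπ : ¬ IsUnit π)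
    (hr : ∀ a, r a = 0 → π ∣ a) {T : LaurentSeries A} (hT : T ≠ 0) :
    ∃ (n : ℕ) (T' : LaurentSeries A), T = HahnSeries.C π ^ n * T' ∧ coeffMap r T' ≠ 0 := by
  obtain ⟨m, hm⟩ : ∃ m, T.coeff m ≠ 0 := by
    by_contra h
    push Not at h
    exact hT (HahnSeries.ext (funext h))
  obtain ⟨N, hN⟩ := FiniteMultiplicity.of_not_isUnit hπ hm
  clear hm hT
  induction N generalizing T with
  | zero =>
    refine ⟨0, T, by rw [pow_zero, one_mul], ?_⟩
    intro h0
    apply hN
    have h1 := congrArg (fun z : LaurentSeries k => z.coeff m) h0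
    simp only [coeffMap_coeff, HahnSeries.coeff_zero] at h1
    simpa using hr _ h1
  | succ N ih =>
    by_cases h0 : coeffMap r T = 0
    · obtain ⟨T₁, hT₁⟩ := exists_eq_C_mul_of_coeffMap_eq_zero r hr T h0
      have hc : T.coeff m = π * T₁.coeff m := by
        rw [hT₁, HahnSeries.C_mul_eq_smul, HahnSeries.coeff_smul, smul_eq_mul]
      obtain ⟨n, T', hT', hne⟩ := ih (T := T₁) (by
        intro hdvd
        apply hN
        rw [hc, pow_succ']
        exact mul_dvd_mul_left π hdvd)
      exact ⟨n + 1, T', by rw [hT₁, hT', pow_succ', mul_assoc], hne⟩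
    · exact ⟨0, T, by rw [pow_zero, one_mul], h0⟩

/-- **valuation property**: every nonzero quotient of series over `A` is, up to powers of `π`,
a unit of the Gauss ring. -/
theorem nodesFrob_exists_unit [WfDvdMonoid A] (hπ : ¬ IsUnit π)
    (hr : ∀ a, r a = 0 → π ∣ a) {x : LaurentSeries E} (hx : x ∈ nodesFrobFrac A E)
    (hx0 : x ≠ 0) :
    ∃ (n m : ℕ) (u : gaussRing (algebraMap A E) r),
      gaussRed r (IsFractionRing.injective A E) u ≠ 0 ∧
      (HahnSeries.C (algebraMap A E π) : LaurentSeries E) ^ m * x =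
        HahnSeries.C (algebraMap A E π) ^ n * (u : LaurentSeries E) := by
  obtain ⟨T, b, hb, h⟩ := hx
  have hbE := nodesFrob_coeffMap_ne_zero (E := E) hb
  have hT : T ≠ 0 := by
    rintro rfl
    rw [map_zero] at h
    exact hx0 ((mul_eq_zero.mp h).resolve_left hbE)
  obtain ⟨n, T', hT', hTr⟩ := nodesFrob_exists_pow_mul r hπ hr hT
  obtain ⟨m, b', hb', hbr⟩ := nodesFrob_exists_pow_mul r hπ hr hb
  have hb'0 : b' ≠ 0 := by
    rintro rfl
    exact hbr (map_zero _)
  have hb'E := nodesFrob_coeffMap_ne_zero (E := E) hb'0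
  have hu : coeffMap (algebraMap A E) T' / coeffMap (algebraMap A E) b' ∈
      gaussRing (algebraMap A E) r := ⟨T', b', hbr, by field_simp⟩
  refine ⟨n, m, ⟨_, hu⟩, ?_, ?_⟩
  · rw [gaussRed_eq r (IsFractionRing.injective A E) ⟨_, hu⟩ T' b' hbr (by
      show coeffMap (algebraMap A E) b' *
        (coeffMap (algebraMap A E) T' / coeffMap (algebraMap A E) b') = _
      field_simp)]
    exact div_ne_zero hTr hbr
  · show (HahnSeries.C (algebraMap A E π) : LaurentSeries E) ^ m * x =
      HahnSeries.C (algebraMap A E π) ^ n *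
        (coeffMap (algebraMap A E) T' / coeffMap (algebraMap A E) b')
    rw [hT', hb', map_mul, map_mul, map_pow, map_pow, coeffMap_hahnC] at h
    apply mul_left_cancel₀ hb'E
    rw [mul_div_assoc', mul_div_assoc', mul_div_cancel_left₀ _ hb'E, ← h]
    ring

/-- **the Gauss ring is integrally closed** in the field of quotients of series over `A` -/
theorem nodesFrob_mem_of_isIntegralElem [WfDvdMonoid A] (hπ0 : π ≠ 0) (hπ : ¬ IsUnit π)
    (hr : ∀ a, r a = 0 → π ∣ a) (hrπ : r π = 0)
    {x : LaurentSeries E} (hx : x ∈ nodesFrobFrac A E)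
    (hint : (gaussRing (algebraMap A E) r).subtype.IsIntegralElem x) :
    x ∈ gaussRing (algebraMap A E) r := by
  by_cases hx0 : x = 0
  · rw [hx0]; exact Subring.zero_mem _
  have hex := nodesFrob_exists_unit r hπ hr hx hx0
  set G := gaussRing (algebraMap A E) r with hG
  set y : LaurentSeries E := HahnSeries.C (algebraMap A E π) with hy
  obtain ⟨n, m, u, hu, h⟩ := hex
  have hyG : y ∈ G := hahnC_mem_gaussRing r π
  have hπE : algebraMap A E π ≠ 0 := fun h0 =>
    hπ0 (IsFractionRing.injective A E (by rw [h0, map_zero]))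
  have hy0 : y ≠ 0 := fun h0 => hπE (HahnSeries.C_injective (by rw [← hy, h0, map_zero]))
  rcases le_or_gt m n with hmn | hmn
  · -- `x = π^(n-m) u`
    have : x = y ^ (n - m) * (u : LaurentSeries E) := by
      apply mul_left_cancel₀ (pow_ne_zero m hy0)
      rw [h, ← mul_assoc, ← pow_add, Nat.add_sub_cancel' hmn]
    rw [this]
    exact G.mul_mem (G.pow_mem hyG _) u.2
  · exfalso
    obtain ⟨e, he⟩ : ∃ e, m = n + (e + 1) := ⟨m - n - 1, by omega⟩
    have hxu : y ^ (e + 1) * x = (u : LaurentSeries E) := by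
      apply mul_left_cancel₀ (pow_ne_zero n hy0)
      rw [← h, he]
      ring
    obtain ⟨p, hp, hpx⟩ := hint
    set s : G := ⟨y ^ (e + 1), G.pow_mem hyG _⟩ with hs
    have h1 : eval₂ G.subtype (G.subtype s * x) (scaleRoots p s) = 0 :=
      scaleRoots_eval₂_eq_zero G.subtype hpx
    have h2 : G.subtype s * x = G.subtype u := hxu
    rw [h2, Polynomial.eval₂_at_apply] at h1
    have h3 : eval u (scaleRoots p s) = 0 := Subtype.ext h1
    set ρ := gaussRed r (IsFractionRing.injective A E) with hρ
    have hρs : ρ s = 0 := by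
      have : s = (⟨y, hyG⟩ : G) ^ (e + 1) := Subtype.ext rfl
      rw [this, map_pow]
      have hρy : ρ ⟨y, hyG⟩ = 0 := by
        rw [hρ, gaussRed_eq_zero_iff_dvd r (IsFractionRing.injective A E) hrπ hr]
        exact ⟨1, by simp [hy]⟩
      rw [hρy, zero_pow (Nat.succ_ne_zero e)]
    have h4 := congrArg ρ h3
    rw [map_zero, ← Polynomial.eval₂_hom, ← Polynomial.eval_map,
      map_scaleRoots p s ρ (by rw [hp.leadingCoeff, map_one]; exact one_ne_zero), hρs,
      scaleRoots_zero, (hp.map ρ).leadingCoeff, one_smul, eval_pow, eval_X] at h4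
    exact hu (pow_eq_zero_iff (by
      intro hd
      rw [hd, pow_zero] at h4
      exact one_ne_zero h4) |>.mp h4)

end Val

/-! ## (G1): the charts lie in the Gauss ring, also after an automorphism -/

section G1

variable {A E k : Type*} [CommRing A] [IsDomain A] [Field E] [Algebra A E] [IsFractionRing A E]
  [Field k] (r : A →+* k) {π : A}

/-- constants of `A` in an intermediate field, as series -/
theorem nodesFrob_algebraMap_coe {F : IntermediateField E (LaurentSeries E)}
    [Algebra A F] [IsScalarTower A E F] (a : A) :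
    ((algebraMap A F a : F) : LaurentSeries E) = HahnSeries.C (algebraMap A E a) := by
  rw [IsScalarTower.algebraMap_apply A E F]
  show algebraMap E (LaurentSeries E) (algebraMap A E a) = _
  rw [ModularCurve.algebraMap_laurentSeries_eq_single, ← HahnSeries.C_apply]

/-- **(G1), abstract form**: `F` a field of quotients of series over `A`, `w` an `E`-endomorphism
of `F`, `t ∈ F` with `w t` in the Gauss ring.  Then `w b` is in the Gauss ring for every `b ∈ F`
integral over `A[t]`. -/
theorem nodesFrob_G1 [WfDvdMonoid A] (hπ0 : π ≠ 0) (hπ : ¬ IsUnit π)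
    (hr : ∀ a, r a = 0 → π ∣ a) (hrπ : r π = 0)
    {F : IntermediateField E (LaurentSeries E)} (hF : F ≤ nodesFrobFrac A E)
    [Algebra A F] [IsScalarTower A E F] (w : F →ₐ[E] F) (t : F)
    (ht : ((w t : F) : LaurentSeries E) ∈ gaussRing (algebraMap A E) r)
    {b : F} (hb : IsIntegral (Algebra.adjoin A {t}) b) :
    ((w b : F) : LaurentSeries E) ∈ gaussRing (algebraMap A E) r := by
  set G := gaussRing (algebraMap A E) r with hG
  set ψ : F →+* LaurentSeries E := F.val.toRingHom.comp w.toRingHom with hψ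
  have hψa : ∀ a : A, ψ (algebraMap A F a) ∈ G := by
    intro a
    have h1 : w (algebraMap A F a) = algebraMap A F a := by
      rw [IsScalarTower.algebraMap_apply A E F, AlgHom.commutes]
    show ((w (algebraMap A F a) : F) : LaurentSeries E) ∈ G
    rw [h1, nodesFrob_algebraMap_coe]
    exact hahnC_mem_gaussRing r a
  have hψx : ∀ x : Algebra.adjoin A {t}, ψ (x : F) ∈ G := by
    rintro ⟨x, hx⟩
    show ψ x ∈ G
    induction hx using Algebra.adjoin_induction with
    | mem x hx =>
      rw [Set.mem_singleton_iff] at hx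
      rw [hx]
      exact ht
    | algebraMap a => exact hψa a
    | add x y _ _ hx hy => rw [map_add]; exact G.add_mem hx hy
    | mul x y _ _ hx hy => rw [map_mul]; exact G.mul_mem hx hy
  set φ : Algebra.adjoin A {t} →+* G :=
    (ψ.comp (algebraMap (Algebra.adjoin A {t}) F)).codRestrict G hψx with hφ
  obtain ⟨p, hp, hpx⟩ := hb
  refine nodesFrob_mem_of_isIntegralElem r hπ0 hπ hr hrπ (hF (w b).2) ⟨p.map φ, hp.map φ, ?_⟩
  rw [Polynomial.eval₂_map]
  have h1 : G.subtype.comp φ = ψ.comp (algebraMap (Algebra.adjoin A {t}) F) := by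
    ext x
    rfl
  rw [h1]
  have h2 := Polynomial.hom_eval₂ p (algebraMap (Algebra.adjoin A {t}) F) ψ b
  rw [hpx, map_zero] at h2
  exact h2.symm

/-- **(G1)** for `w = id`. -/
theorem nodesFrob_G1_id [WfDvdMonoid A] (hπ0 : π ≠ 0) (hπ : ¬ IsUnit π)
    (hr : ∀ a, r a = 0 → π ∣ a) (hrπ : r π = 0)
    {F : IntermediateField E (LaurentSeries E)} (hF : F ≤ nodesFrobFrac A E)
    [Algebra A F] [IsScalarTower A E F] (t : F)
    (ht : (t : LaurentSeries E) ∈ gaussRing (algebraMap A E) r)
    {b : F} (hb : IsIntegral (Algebra.adjoin A {t}) b) :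
    (b : LaurentSeries E) ∈ gaussRing (algebraMap A E) r :=
  nodesFrob_G1 r hπ0 hπ hr hrπ hF (AlgHom.id E F) t ht hb

end G1

/-! ## (G2): the kernel of the reduction on a chart with prime `π` -/

section G2

set_option synthInstance.maxHeartbeats 400000

variable {A E k : Type*} [CommRing A] [IsDomain A] [Field E] [Algebra A E] [IsFractionRing A E]
  [Field k] (r : A →+* k) {π : A}

/-- reduction of a constant -/
theorem nodesFrob_gaussRed_C (a : A) :
    gaussRed r (IsFractionRing.injective A E)
      ⟨(HahnSeries.C (algebraMap A E a) : LaurentSeries E), hahnC_mem_gaussRing r a⟩ =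
      HahnSeries.C (r a) := by
  rw [gaussRed_eq r (IsFractionRing.injective A E) _ (HahnSeries.C a) 1 (by simp)
    (by rw [map_one, one_mul, coeffMap_hahnC])]
  rw [map_one, div_one, coeffMap_hahnC]

/-- the constants, as a ring homomorphism into the Gauss ring -/
def nodesFrobConst : A →+* gaussRing (algebraMap A E) r :=
  (HahnSeries.C.comp (algebraMap A E)).codRestrict (gaussRing (algebraMap A E) r)
    (fun a => hahnC_mem_gaussRing r a)

theorem nodesFrob_gaussRed_comp_const :
    (gaussRed r (IsFractionRing.injective A E)).comp (nodesFrobConst (E := E) r) =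
      (algebraMap k (LaurentSeries k)).comp r := by
  apply RingHom.ext
  intro a
  show gaussRed r (IsFractionRing.injective A E) (nodesFrobConst (E := E) r a) =
    algebraMap k (LaurentSeries k) (r a)
  rw [ModularCurve.algebraMap_laurentSeries_eq_single, ← HahnSeries.C_apply,
    ← nodesFrob_gaussRed_C (E := E) r a]
  rfl

/-- reduction of a polynomial in an element of the Gauss ring -/
theorem nodesFrob_gaussRed_eval₂ (t : gaussRing (algebraMap A E) r) (P : A[X])
    (h : P.eval₂ (HahnSeries.C.comp (algebraMap A E)) (t : LaurentSeries E) ∈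
      gaussRing (algebraMap A E) r) :
    gaussRed r (IsFractionRing.injective A E) ⟨_, h⟩ =
      Polynomial.aeval (gaussRed r (IsFractionRing.injective A E) t) (P.map r) := by
  have h1 : (⟨_, h⟩ : gaussRing (algebraMap A E) r) = P.eval₂ (nodesFrobConst r) t := by
    apply Subtype.ext
    exact (Polynomial.hom_eval₂ P (nodesFrobConst r)
      (gaussRing (algebraMap A E) r).subtype t).symm
  rw [h1, Polynomial.hom_eval₂, Polynomial.aeval_def, Polynomial.eval₂_map,
    nodesFrob_gaussRed_comp_const]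

/-- an element of `A[t]` is a polynomial in `t` -/
theorem nodesFrob_coe_aeval {F : IntermediateField E (LaurentSeries E)}
    [Algebra A F] [IsScalarTower A E F] (t : F) (P : A[X]) :
    ((Polynomial.aeval t P : F) : LaurentSeries E) =
      P.eval₂ (HahnSeries.C.comp (algebraMap A E)) (t : LaurentSeries E) := by
  rw [Polynomial.aeval_def]
  have h := Polynomial.hom_eval₂ P (algebraMap A F) F.val.toRingHom t
  have h2 : F.val.toRingHom.comp (algebraMap A F) = HahnSeries.C.comp (algebraMap A E) := by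
    apply RingHom.ext
    intro a
    exact nodesFrob_algebraMap_coe a
  rw [h2] at h
  exact h

/-- the reduction on a chart, as a ring homomorphism -/
def nodesFrobChartRed [WfDvdMonoid A] (hπ0 : π ≠ 0) (hπ : ¬ IsUnit π)
    (hr : ∀ a, r a = 0 → π ∣ a) (hrπ : r π = 0)
    {F : IntermediateField E (LaurentSeries E)} (hF : F ≤ nodesFrobFrac A E)
    [Algebra A F] [IsScalarTower A E F] (t : F)
    (ht : (t : LaurentSeries E) ∈ gaussRing (algebraMap A E) r) :
    integralClosure (Algebra.adjoin A {t}) F →+* LaurentSeries k :=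
  (gaussRed r (IsFractionRing.injective A E)).comp
    ((F.val.toRingHom.comp (integralClosure (Algebra.adjoin A {t}) F).val.toRingHom).codRestrict
      (gaussRing (algebraMap A E) r)
      (fun x => nodesFrob_G1_id r hπ0 hπ hr hrπ hF t ht x.2))

theorem nodesFrobChartRed_apply [WfDvdMonoid A] (hπ0 : π ≠ 0) (hπ : ¬ IsUnit π)
    (hr : ∀ a, r a = 0 → π ∣ a) (hrπ : r π = 0)
    {F : IntermediateField E (LaurentSeries E)} (hF : F ≤ nodesFrobFrac A E)
    [Algebra A F] [IsScalarTower A E F] (t : F)
    (ht : (t : LaurentSeries E) ∈ gaussRing (algebraMap A E) r)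
    (b : integralClosure (Algebra.adjoin A {t}) F)
    (hbG : ((b : F) : LaurentSeries E) ∈ gaussRing (algebraMap A E) r) :
    nodesFrobChartRed r hπ0 hπ hr hrπ hF t ht b =
      gaussRed r (IsFractionRing.injective A E) ⟨_, hbG⟩ := rfl

set_option maxHeartbeats 1000000 in
/-- **(G2)**: if `π` is prime in the chart `C = integralClosure A[t]` and the reduction of `t` is
transcendental, then the kernel of the reduction on `C` is `π C`. -/
theorem nodesFrob_G2 [WfDvdMonoid A] (hπ0 : π ≠ 0) (hπ : ¬ IsUnit π)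
    (hr : ∀ a, r a = 0 → π ∣ a) (hrπ : r π = 0)
    {F : IntermediateField E (LaurentSeries E)} (hF : F ≤ nodesFrobFrac A E)
    [Algebra A F] [IsScalarTower A E F] (t : F)
    (ht : (t : LaurentSeries E) ∈ gaussRing (algebraMap A E) r)
    (htr : Transcendental k (gaussRed r (IsFractionRing.injective A E) ⟨_, ht⟩))
    (hprime : Prime (algebraMap A (integralClosure (Algebra.adjoin A {t}) F) π))
    (b : integralClosure (Algebra.adjoin A {t}) F)
    (hbG : ((b : F) : LaurentSeries E) ∈ gaussRing (algebraMap A E) r)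
    (hb0 : gaussRed r (IsFractionRing.injective A E) ⟨_, hbG⟩ = 0) :
    algebraMap A (integralClosure (Algebra.adjoin A {t}) F) π ∣ b := by
  classical
  letI instRC : Algebra (Algebra.adjoin A {t}) (integralClosure (Algebra.adjoin A {t}) F) :=
    Subalgebra.algebra _
  have hmem : ∀ x : integralClosure (Algebra.adjoin A {t}) F,
      ((x : F) : LaurentSeries E) ∈ gaussRing (algebraMap A E) r :=
    fun x => nodesFrob_G1_id r hπ0 hπ hr hrπ hF t ht x.2
  have hπCcoe : (((algebraMap A (integralClosure (Algebra.adjoin A {t}) F) π :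
      integralClosure (Algebra.adjoin A {t}) F) : F) : LaurentSeries E) =
      HahnSeries.C (algebraMap A E π) := nodesFrob_algebraMap_coe π
  have hρπ : nodesFrobChartRed r hπ0 hπ hr hrπ hF t ht
      (algebraMap A (integralClosure (Algebra.adjoin A {t}) F) π) = 0 := by
    rw [nodesFrobChartRed_apply r hπ0 hπ hr hrπ hF t ht _ (hmem _),
      gaussRed_eq_zero_iff_dvd r (IsFractionRing.injective A E) hrπ hr]
    exact ⟨1, by rw [hπCcoe]; simp⟩
  have hρb : nodesFrobChartRed r hπ0 hπ hr hrπ hF t ht b = 0 := hb0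
  by_contra hdvd
  have hle : Ideal.span {algebraMap A (integralClosure (Algebra.adjoin A {t}) F) π} ≤
      RingHom.ker (nodesFrobChartRed r hπ0 hπ hr hrπ hF t ht) := by
    rw [Ideal.span_le, Set.singleton_subset_iff]
    exact hρπ
  have hprime' : (Ideal.span
      {algebraMap A (integralClosure (Algebra.adjoin A {t}) F) π}).IsPrime :=
    (Ideal.span_singleton_prime hprime.ne_zero).mpr hprime
  have hlt := Ideal.comap_lt_comap_of_integral_mem_sdiff (R := Algebra.adjoin A {t}) hle
    (x := b) ⟨hρb, fun h => hdvd (Ideal.mem_span_singleton.mp h)⟩ (integralClosure.isIntegral b)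
  obtain ⟨y, hy1, hy2⟩ := SetLike.exists_of_lt hlt
  apply hy2
  obtain ⟨y, hy⟩ := y
  have hy' := hy
  rw [Algebra.adjoin_singleton_eq_range_aeval] at hy'
  obtain ⟨P, rfl⟩ := hy'
  -- the reduction of `P(t)` vanishes
  have hy1' : nodesFrobChartRed r hπ0 hπ hr hrπ hF t ht
      (algebraMap (Algebra.adjoin A {t}) (integralClosure (Algebra.adjoin A {t}) F)
        ⟨Polynomial.aeval t P, hy⟩) = 0 := hy1
  have hcoe : (((algebraMap (Algebra.adjoin A {t}) (integralClosure (Algebra.adjoin A {t}) F)
      ⟨Polynomial.aeval t P, hy⟩ : integralClosure (Algebra.adjoin A {t}) F) : F) :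
      LaurentSeries E) = P.eval₂ (HahnSeries.C.comp (algebraMap A E)) (t : LaurentSeries E) :=
    nodesFrob_coe_aeval t P
  have hPG : P.eval₂ (HahnSeries.C.comp (algebraMap A E)) (t : LaurentSeries E) ∈
      gaussRing (algebraMap A E) r := by
    rw [← hcoe]; exact hmem _
  have h3 : gaussRed r (IsFractionRing.injective A E) ⟨_, hPG⟩ = 0 := by
    rw [← hy1', nodesFrobChartRed_apply r hπ0 hπ hr hrπ hF t ht _ (hmem _)]
    congr 1
    exact Subtype.ext hcoe.symm
  rw [nodesFrob_gaussRed_eval₂ r ⟨_, ht⟩ P hPG] at h3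
  have hP0 : P.map r = 0 := transcendental_iff.mp htr _ h3
  have hCdvd : Polynomial.C π ∣ P := by
    rw [Polynomial.C_dvd_iff_dvd_coeff]
    intro m
    have h5 := congrArg (fun q : Polynomial k => q.coeff m) hP0
    simp only [Polynomial.coeff_map, Polynomial.coeff_zero] at h5
    exact hr _ h5
  obtain ⟨P', rfl⟩ := hCdvd
  rw [Ideal.mem_comap, Ideal.mem_span_singleton]
  refine ⟨algebraMap (Algebra.adjoin A {t}) (integralClosure (Algebra.adjoin A {t}) F)
    ⟨Polynomial.aeval t P',
      by rw [Algebra.adjoin_singleton_eq_range_aeval]; exact ⟨P', rfl⟩⟩, ?_⟩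
  apply Subtype.ext
  show (Polynomial.aeval t (Polynomial.C π * P') : F) = algebraMap A F π * Polynomial.aeval t P'
  rw [map_mul, Polynomial.aeval_C]

end G2

/-! ## (G3): `q ↦ q^n` on the Gauss ring, Frobenius -/

section G3

variable {A E k : Type*} [CommRing A] [IsDomain A] [Field E] [Algebra A E] [IsFractionRing A E]
  [Field k] (r : A →+* k)

theorem nodesFrob_qExpand_mem (n : ℕ) [NeZero n] {x : LaurentSeries E}
    (hx : x ∈ gaussRing (algebraMap A E) r) :
    qExpand E n x ∈ gaussRing (algebraMap A E) r := by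
  obtain ⟨T, b, hb, h⟩ := hx
  refine ⟨qExpand A n T, qExpand A n b, ?_, ?_⟩
  · rw [coeffMap_qExpand]
    exact fun h0 => hb (qExpand_injective n (by rw [h0, map_zero]))
  · rw [coeffMap_qExpand, coeffMap_qExpand, ← map_mul, h]

/-- the reduction commutes with `q ↦ q^n` -/
theorem nodesFrob_gaussRed_qExpand (n : ℕ) [NeZero n] (x : gaussRing (algebraMap A E) r) :
    gaussRed r (IsFractionRing.injective A E)
      ⟨qExpand E n (x : LaurentSeries E), nodesFrob_qExpand_mem r n x.2⟩ =
      qExpand k n (gaussRed r (IsFractionRing.injective A E) x) := by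
  obtain ⟨T, b, hb, h⟩ := x.2
  have hb' : coeffMap r (qExpand A n b) ≠ 0 := by
    rw [coeffMap_qExpand]
    exact fun h0 => hb (qExpand_injective n (by rw [h0, map_zero]))
  rw [gaussRed_eq r (IsFractionRing.injective A E) x T b hb h,
    gaussRed_eq r (IsFractionRing.injective A E) _ (qExpand A n T) (qExpand A n b) hb'
      (by
        show coeffMap (algebraMap A E) (qExpand A n b) * qExpand E n (x : LaurentSeries E) = _
        rw [coeffMap_qExpand, coeffMap_qExpand, ← map_mul, h]),
    coeffMap_qExpand, coeffMap_qExpand, map_div₀]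

/-- **Frobenius**: in characteristic `q`, `g(Q^q) = (θ g)(Q)^q` for every `θ` inverse to the
Frobenius on the coefficients. -/
theorem nodesFrob_qExpand_eq_pow (q : ℕ) [hq : Fact q.Prime] [CharP k q]
    (θ : k →+* k) (hθ : ∀ x, θ x ^ q = x) (g : LaurentSeries k) :
    haveI : NeZero q := ⟨hq.out.ne_zero⟩
    qExpand k q g = (coeffMap θ g) ^ q := by
  haveI : NeZero q := ⟨hq.out.ne_zero⟩
  haveI : ExpChar k q := ExpChar.prime hq.out
  rw [Fermat.Agent.ES.kron_frobenius_pow q (coeffMap θ g), coeffMap_coeffMap]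
  congr 1
  have : (frobenius k q).comp θ = RingHom.id k := by
    apply RingHom.ext
    intro x
    show (θ x) ^ q = x
    exact hθ x
  rw [this, coeffMap_id]

/-- the inverse of the Frobenius of a perfect field -/
theorem nodesFrob_frobeniusEquiv_symm_pow (q : ℕ) [hq : Fact q.Prime] [CharP k q]
    [PerfectRing k q] (x : k) :
    ((frobeniusEquiv k q).symm : k →+* k) x ^ q = x :=
  frobeniusEquiv_symm_pow_p k q x

/-- series over the prime field are fixed by the Frobenius: `g(Q^q) = g(Q)^q` -/
theorem nodesFrob_qExpand_int (q : ℕ) [hq : Fact q.Prime] [CharP k q] (T : LaurentSeries ℤ) :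
    haveI : NeZero q := ⟨hq.out.ne_zero⟩
    qExpand k q (coeffMap (Int.castRingHom k) T) = (coeffMap (Int.castRingHom k) T) ^ q := by
  haveI : NeZero q := ⟨hq.out.ne_zero⟩
  haveI : ExpChar k q := ExpChar.prime hq.out
  rw [Fermat.Agent.ES.kron_frobenius_pow q, coeffMap_coeffMap]
  congr 1
  exact coeffMap_congr (RingHom.ext_int _ _) T

end G3

/-! ## (G3), (G5) with the Atkin–Lehner involution -/

section AL

open Fermat.Agent.AL

variable {A E k : Type*} [CommRing A] [IsDomain A] [Field E] [Algebra A E] [IsFractionRing A E]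
  [Field k] (r : A →+* k) (ιC : E →+* ℂ)
  {q M : ℕ} [NeZero q] [NeZero M] [NeZero (M * q)] (hq : q.Prime) (hqM : ¬ q ∣ M)

/-- **(G3)**: for `f ∈ F_M(E)` in the Gauss ring, `w_q f = f(Q^q)` is in the Gauss ring -/
theorem nodesFrob_G3_mem {f : LaurentSeries E} (hf : f ∈ modularFunctionFieldFullC E M)
    (hfG : f ∈ gaussRing (algebraMap A E) r) :
    ((atkinLehner E ιC hq hqM ⟨f, al_mem_of_mem_low E hf⟩ :
      modularFunctionFieldFullC E (M * q)) : LaurentSeries E) ∈ gaussRing (algebraMap A E) r := by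
  rw [atkinLehner_of_mem_low E ιC hq hqM hf]
  exact nodesFrob_qExpand_mem r q hfG

/-- **(G3)**: for `f ∈ F_M(E)` in the Gauss ring, the reduction of `w_q f` is `f̄(Q^q)` -/
theorem nodesFrob_G3 {f : LaurentSeries E} (hf : f ∈ modularFunctionFieldFullC E M)
    (hfG : f ∈ gaussRing (algebraMap A E) r) :
    gaussRed r (IsFractionRing.injective A E)
      ⟨_, nodesFrob_G3_mem r ιC hq hqM hf hfG⟩ =
      qExpand k q (gaussRed r (IsFractionRing.injective A E) ⟨f, hfG⟩) := by
  rw [← nodesFrob_gaussRed_qExpand r q ⟨f, hfG⟩]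
  congr 1
  exact Subtype.ext (atkinLehner_of_mem_low E ιC hq hqM hf)

/-- **(G3)**, Frobenius form: the reduction of `w_q f` is `(θ f̄)^q`, `θ = Frob⁻¹` -/
theorem nodesFrob_G3_pow [Fact q.Prime] [CharP k q] (θ : k →+* k) (hθ : ∀ x, θ x ^ q = x)
    {f : LaurentSeries E} (hf : f ∈ modularFunctionFieldFullC E M)
    (hfG : f ∈ gaussRing (algebraMap A E) r) :
    gaussRed r (IsFractionRing.injective A E)
      ⟨_, nodesFrob_G3_mem r ιC hq hqM hf hfG⟩ =
      (coeffMap θ (gaussRed r (IsFractionRing.injective A E) ⟨f, hfG⟩)) ^ q := by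
  rw [nodesFrob_G3 r ιC hq hqM hf hfG]
  exact nodesFrob_qExpand_eq_pow q θ hθ _

end AL

/-! ## (G4): `1, j̄, …, j̄^(q-1)` are independent over `k((Q^q))` -/

section G4

variable {k : Type*} [Field k]

theorem nodesFrob_order_jqModC : (jqModC k).order = -1 := by
  have h0 : jqModC k ≠ 0 := jqModC_ne_zero_of_nontrivial k
  apply le_antisymm
  · exact HahnSeries.order_le_of_coeff_ne_zero (by rw [coeff_jqModC_neg_one]; exact one_ne_zero)
  · by_contra hlt
    push Not at hlt
    exact h0 (HahnSeries.coeff_order_eq_zero.mp (coeff_jqModC_of_lt k hlt))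

/-- **(G4)** -/
theorem nodesFrob_G4 (q : ℕ) [NeZero q] (a : ℕ → LaurentSeries k)
    (h : ∑ i ∈ Finset.range q, qExpand k q (a i) * jqModC k ^ i = 0) : ∀ i < q, a i = 0 := by
  refine Fermat.Agent.S28.eq_zero_of_sum_qExpand_mul_pow_eq_zero
    (jqModC_ne_zero_of_nontrivial k) ?_ a h
  rw [nodesFrob_order_jqModC]
  exact (isCoprime_one_left (x := (q : ℤ))).neg_left

end G4

/-! ## (G5): the element `c = j(Q^q) - j^q` -/

section G5

open Fermat.Agent.AL

variable {A E k : Type*} [CommRing A] [IsDomain A] [Field E] [Algebra A E] [IsFractionRing A E]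
  [Field k] (r : A →+* k) (ιC : E →+* ℂ)
  {q M : ℕ} [NeZero q] [NeZero M] [NeZero (M * q)] (hq : q.Prime) (hqM : ¬ q ∣ M)

/-- `j ∈ F_{Mq}(E)` -/
def nodesFrobJ (E : Type*) [Field E] (M q : ℕ) [NeZero q] [NeZero M] [NeZero (M * q)] :
    modularFunctionFieldFullC E (M * q) :=
  ⟨jqModC E, al_mem_of_mem_low E (jqModC_mem_full E M)⟩

/-- `j(Q^q) ∈ F_{Mq}(E)` -/
def nodesFrobJq (E : Type*) [Field E] (M q : ℕ) [NeZero q] [NeZero M] [NeZero (M * q)] :
    modularFunctionFieldFullC E (M * q) :=
  ⟨qExpand E q (jqModC E), al_qExpand_mem E (jqModC_mem_full E M)⟩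

/-- `c = j(Q^q) - j^q ∈ F_{Mq}(E)` -/
def nodesFrobC (E : Type*) [Field E] (M q : ℕ) [NeZero q] [NeZero M] [NeZero (M * q)] :
    modularFunctionFieldFullC E (M * q) :=
  nodesFrobJq E M q - nodesFrobJ E M q ^ q

omit [NeZero q] [NeZero (M * q)] in
theorem nodesFrobJ_coe' :
    jqModC E = coeffMap (algebraMap A E) (jqModC A) := (coeffMap_jqModC _).symm

theorem nodesFrobJq_coe' :
    qExpand E q (jqModC E) = coeffMap (algebraMap A E) (qExpand A q (jqModC A)) := by
  rw [coeffMap_qExpand, coeffMap_jqModC]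

theorem nodesFrobC_coe :
    ((nodesFrobC E M q : modularFunctionFieldFullC E (M * q)) : LaurentSeries E) =
      coeffMap (algebraMap A E) (qExpand A q (jqModC A) - jqModC A ^ q) := by
  rw [map_sub, map_pow, ← nodesFrobJq_coe', ← nodesFrobJ_coe']
  rfl

theorem nodesFrob_atkinLehner_J :
    atkinLehner E ιC hq hqM (nodesFrobJ E M q) = nodesFrobJq E M q :=
  Subtype.ext (atkinLehner_of_mem_low E ιC hq hqM (jqModC_mem_full E M))

theorem nodesFrob_atkinLehner_Jq :
    atkinLehner E ιC hq hqM (nodesFrobJq E M q) = nodesFrobJ E M q :=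
  Subtype.ext (atkinLehner_qExpand E ιC hq hqM (jqModC_mem_full E M))

theorem nodesFrob_atkinLehner_C :
    atkinLehner E ιC hq hqM (nodesFrobC E M q) = nodesFrobJ E M q - nodesFrobJq E M q ^ q := by
  rw [nodesFrobC, map_sub, map_pow, nodesFrob_atkinLehner_J, nodesFrob_atkinLehner_Jq]

theorem nodesFrob_atkinLehner_C_coe :
    ((atkinLehner E ιC hq hqM (nodesFrobC E M q) : modularFunctionFieldFullC E (M * q)) :
      LaurentSeries E) =
      coeffMap (algebraMap A E) (jqModC A - qExpand A q (jqModC A) ^ q) := by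
  rw [nodesFrob_atkinLehner_C, map_sub, map_pow, ← nodesFrobJq_coe', ← nodesFrobJ_coe']
  rfl

theorem nodesFrobC_mem :
    ((nodesFrobC E M q : modularFunctionFieldFullC E (M * q)) : LaurentSeries E) ∈
      gaussRing (algebraMap A E) r := by
  rw [nodesFrobC_coe (A := A)]
  exact coeffMap_mem_gaussRing _ r _

theorem nodesFrob_atkinLehner_C_mem :
    ((atkinLehner E ιC hq hqM (nodesFrobC E M q) : modularFunctionFieldFullC E (M * q)) :
      LaurentSeries E) ∈ gaussRing (algebraMap A E) r := by
  rw [nodesFrob_atkinLehner_C_coe (A := A)]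
  exact coeffMap_mem_gaussRing _ r _

/-- **(G5), `ρ c = 0`** (Kronecker's congruence `j(Q^q) ≡ j^q`) -/
theorem nodesFrob_G5_infty [Fact q.Prime] [CharP k q] :
    gaussRed r (IsFractionRing.injective A E)
      ⟨_, nodesFrobC_mem (E := E) (M := M) (q := q) r⟩ = 0 := by
  have h1 : (⟨_, nodesFrobC_mem (E := E) (M := M) (q := q) r⟩ : gaussRing (algebraMap A E) r) =
      ⟨coeffMap (algebraMap A E) (qExpand A q (jqModC A) - jqModC A ^ q),
        coeffMap_mem_gaussRing _ r _⟩ := Subtype.ext (nodesFrobC_coe (A := A))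
  rw [h1, gaussRed_coeffMap, map_sub, map_pow, coeffMap_qExpand, coeffMap_jqModC, sub_eq_zero]
  have h2 := nodesFrob_qExpand_int (k := k) q (jqModC ℤ)
  rw [coeffMap_jqModC] at h2
  exact h2

/-- **(G5), `ρ₀ c ≠ 0`** -/
theorem nodesFrob_G5_zero [Fact q.Prime] [CharP k q] :
    gaussRed r (IsFractionRing.injective A E)
      ⟨_, nodesFrob_atkinLehner_C_mem r ιC hq hqM⟩ ≠ 0 := by
  have h1 : (⟨_, nodesFrob_atkinLehner_C_mem r ιC hq hqM⟩ : gaussRing (algebraMap A E) r) =
      ⟨coeffMap (algebraMap A E) (jqModC A - qExpand A q (jqModC A) ^ q),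
        coeffMap_mem_gaussRing _ r _⟩ :=
    Subtype.ext (nodesFrob_atkinLehner_C_coe (A := A) ιC hq hqM)
  rw [h1, gaussRed_coeffMap, map_sub, map_pow, coeffMap_qExpand, coeffMap_jqModC]
  intro h0
  have h2 := congrArg (fun z : LaurentSeries k => z.coeff (-1)) h0
  haveI : ExpChar k q := ExpChar.prime hq
  simp only [HahnSeries.coeff_sub, HahnSeries.coeff_zero] at h2
  rw [coeff_jqModC_neg_one, Fermat.Agent.ES.kron_frobenius_pow q,
    qExpand_coeff_of_not_dvd, sub_zero] at h2
  · exact one_ne_zero h2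
  · intro hdvd
    have h3 : ((q : ℤ)) ∣ 1 := (dvd_neg.mp hdvd)
    have h4 : (q : ℤ) = 1 := by
      have hq0 : (0 : ℤ) ≤ q := Int.natCast_nonneg q
      exact Int.eq_one_of_dvd_one hq0 h3
    have : q = 1 := by exact_mod_cast h4
    exact hq.one_lt.ne' this

end G5

end Fermat.Agent.UNIP
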