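import Fermat.Agent.UNIP.CoordChart
import Fermat.Agent.UNIP.MGChartsGen

/-!
# UNIP / MG-hcoord — `hcoord` of `at_main_two` from the output of U5 on the unramified chart

`R` = the chart over the unramified base (U5: `nodes_chart`), `B' = zchClosure {u}` the chart over
the ramified base `A₀ = A′`, `j : R →+* B'` with `MgcRamified j ϖ p` (MG-4, helper16),
`j p = q`.  At a prime `𝔫 ∋ ϖ` of `B'`:

* `unip_stage_or_disc` (pure algebra on `R`): crossing data `X ∈ 𝔭₁`, `Y ∈ 𝔭₂`,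
  `𝔫 = (p, X, Y)` locally + (SS1) give either a smooth point or stage data for all `n`
  (with `X ∉ 𝔭₂`, `Y ∉ 𝔭₁`).
* `unip_hcoord_of_nodes` : the hypothesis `hcoord` of `at_local_factor` / `at_main_two` at `𝔫`,
  from the dichotomy of U5 at `𝔫.comap j`, for ANY `g` as in `unip_hcoord_node`.
-/

set_option autoImplicit false
set_option linter.style.haveILetI false
set_option linter.unusedSectionVars false
set_option linter.unusedVariables false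

namespace Fermat.Agent.UNIP

open Polynomial IntermediateField Fermat.Agent.INJ AlgebraicCurve

section StageOrDisc

variable {R : Type*} [CommRing R]

/-- `NodesLocGen` drops a generator divisible by another one -/
theorem unip_locGen_drop (𝔫 : Ideal R) (p s z : R) (hz : p ∣ z)
    (hgen : NodesLocGen 𝔫 {p, s, z}) : NodesLocGen 𝔫 {p, s} := by
  intro b hb
  obtain ⟨u, hu, hub⟩ := hgen b hb
  refine ⟨u, hu, ?_⟩
  have hle : Ideal.span ({p, s, z} : Set R) ≤ Ideal.span ({p, s} : Set R) := by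
    rw [Ideal.span_le]
    intro x hx
    rcases hx with rfl | rfl | rfl
    · exact Ideal.subset_span (by simp)
    · exact Ideal.subset_span (by simp)
    · obtain ⟨c, rfl⟩ := hz
      exact Ideal.mul_mem_right _ _ (Ideal.subset_span (by simp))
  exact hle hub

/-- **Smooth point or stage data.**  Crossing data of U5 on the unramified chart and (SS1). -/
theorem unip_stage_or_disc (𝔫 : Ideal R) [𝔫.IsPrime] (𝔭₁ 𝔭₂ : Ideal R) [𝔭₁.IsPrime]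
    [𝔭₂.IsPrime] (h1 : 𝔭₁ ≤ 𝔫) (h2 : 𝔭₂ ≤ 𝔫) (p : R) (hp1 : p ∈ 𝔭₁) (hp2 : p ∈ 𝔭₂)
    (hSS1 : ∀ x : R, x ∈ 𝔭₁ → x ∈ 𝔭₂ → p ∣ x)
    (X Y : R) (hX1 : X ∈ 𝔭₁) (hY2 : Y ∈ 𝔭₂) (hgen : NodesLocGen 𝔫 {p, X, Y}) :
    (∃ s : R, s ∈ 𝔫 ∧ NodesLocGen 𝔫 {p, s}) ∨
    (∀ n : ℕ, 1 ≤ n → ∃ (n' : ℕ) (X' Y' G' : R), 1 ≤ n' ∧ X' ∈ 𝔭₁ ∧ Y' ∈ 𝔭₂ ∧ X' ∉ 𝔭₂ ∧
      Y' ∉ 𝔭₁ ∧ X' * Y' = p ^ n' * G' ∧ NodesLocGen 𝔫 {p, X', Y'} ∧ (n ≤ n' ∨ G' ∉ 𝔫)) := by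
  by_cases hX2 : X ∈ 𝔭₂
  · left
    refine ⟨Y, h2 hY2, unip_locGen_drop 𝔫 p Y X (hSS1 X hX1 hX2) ?_⟩
    have : ({p, Y, X} : Set R) = {p, X, Y} := by rw [Set.pair_comm Y X]
    rw [this]
    exact hgen
  by_cases hY1 : Y ∈ 𝔭₁
  · left
    exact ⟨X, h1 hX1, unip_locGen_drop 𝔫 p X Y (hSS1 Y hY1 hY2) hgen⟩
  right
  exact unip_morse_iter_vert 𝔫 𝔭₁ 𝔭₂ h1 h2 p hp1 hp2 X Y hX1 hY2 hX2 hY1
    (hSS1 _ (Ideal.mul_mem_right _ _ hX1) (Ideal.mul_mem_left _ _ hY2)) hgen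

end StageOrDisc

section Transport

variable {A₀ E F : Type*} [CommRing A₀] [IsDomain A₀] [IsDiscreteValuationRing A₀]
  [Field E] [Algebra A₀ E] [IsFractionRing A₀ E] [CharZero E]
  [Field F] [Algebra E F] [Algebra A₀ F] [IsScalarTower A₀ E F]
  {π : A₀} {κ : Type*}

/-- **MG-hcoord.**  `hcoord` of `at_local_factor` / `at_main_two` at a prime `𝔫 ∋ π` of the chart
`B' = zchClosure {u}` over the ramified base, from the output of U5 at `𝔫.comap j` on the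
unramified chart `R` (`MgcRamified j π p`, `j p = q`), for any `g` preserving `𝔫`, the chart,
the constants, `q` and the vertical valuations. -/
theorem unip_hcoord_of_nodes (hπ : Irreducible π) {u : F} (hu : Transcendental E u)
    [FiniteDimensional E⟮u⟯ F] [IsNoetherianRing ↥(zchClosure (A₀ := A₀) ({u} : Set F))]
    (V : κ → ValuationSubring F)
    (hBV : ∀ c (b : F), IsIntegral ↥(Algebra.adjoin A₀ {u}) b → b ∈ V c)
    (hπV : ∀ c, algebraMap A₀ F π ∈ (V c).nonunits)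
    (hSS1 : ∀ b : F, IsIntegral ↥(Algebra.adjoin A₀ {u}) b → (∀ c, b ∈ (V c).nonunits) →
      ∃ b' : F, IsIntegral ↥(Algebra.adjoin A₀ {u}) b' ∧ b = algebraMap A₀ F π * b')
    (hVloc : ∀ c (x : F), x ∈ V c → ∃ b s : F, IsIntegral ↥(Algebra.adjoin A₀ {u}) b ∧
      IsIntegral ↥(Algebra.adjoin A₀ {u}) s ∧ s ∉ (V c).nonunits ∧ s * x = b)
    (g : SemilinearAut E F) (hgu : g • u = u)
    (𝔫 : Ideal ↥(zchClosure (A₀ := A₀) ({u} : Set F))) [𝔫.IsPrime]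
    (hπ𝔫 : algebraMap A₀ ↥(zchClosure (A₀ := A₀) ({u} : Set F)) π ∈ 𝔫)
    (hgB : ∀ b : ↥(zchClosure (A₀ := A₀) ({u} : Set F)), b ∈ 𝔫 →
      ∃ b' : ↥(zchClosure (A₀ := A₀) ({u} : Set F)), b' ∈ 𝔫 ∧ g • (b : F) = b')
    (hgB₀' : ∀ b : F, IsIntegral ↥(Algebra.adjoin A₀ {u}) b →
      IsIntegral ↥(Algebra.adjoin A₀ {u}) (g⁻¹ • b))
    (hgV : ∀ c (f : F), f ≠ 0 → (V c).valuation (g • f / f) = 1)
    (hgA : ∀ α : A₀, ∃ α' : A₀, g • algebraMap A₀ F α = algebraMap A₀ F α')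
    (q : A₀) (hq0 : q ≠ 0) (hqπ : π ∣ q) (hgq : g • algebraMap A₀ F q = algebraMap A₀ F q)
    {R : Type*} [CommRing R] (j : R →+* ↥(zchClosure (A₀ := A₀) ({u} : Set F))) (p : R)
    (hram : MgcRamified j (algebraMap A₀ ↥(zchClosure (A₀ := A₀) ({u} : Set F)) π) p)
    (hjp : j p = algebraMap A₀ ↥(zchClosure (A₀ := A₀) ({u} : Set F)) q)
    (c₁ c₂ : κ) (hκ : ∀ c, c = c₁ ∨ c = c₂)
    (hnode : (∃ s : R, j s ∈ 𝔫 ∧ NodesLocGen (𝔫.comap j) {p, s}) ∨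
      ((∀ x : R, ((j x : ↥(zchClosure (A₀ := A₀) ({u} : Set F))) : F) ∈ (V c₁).nonunits →
          j x ∈ 𝔫) ∧
       (∀ x : R, ((j x : ↥(zchClosure (A₀ := A₀) ({u} : Set F))) : F) ∈ (V c₂).nonunits →
          j x ∈ 𝔫) ∧
       ∃ X Y : R, ((j X : ↥(zchClosure (A₀ := A₀) ({u} : Set F))) : F) ∈ (V c₁).nonunits ∧
         ((j Y : ↥(zchClosure (A₀ := A₀) ({u} : Set F))) : F) ∈ (V c₂).nonunits ∧
         NodesLocGen (𝔫.comap j) {p, X, Y}))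
    {x : F}
    (hrat : ∀ P : Place E F, LsTube ↥(zchClosure (A₀ := A₀) ({u} : Set F)) u 𝔫 P →
      g • P ≠ P → P.ord x ≠ 0 → ∀ f ∈ P.toValuationSubring,
        ∃ c : E, f - algebraMap E F c ∈ P.toValuationSubring.nonunits) :
    ∀ P : Place E F, LsTube ↥(zchClosure (A₀ := A₀) ({u} : Set F)) u 𝔫 P →
      g • P ≠ P → P.ord x ≠ 0 → ∃ f : F, f ≠ 0 ∧ P.ord f = 1 ∧
        ∀ Q : Place E F, LsTube ↥(zchClosure (A₀ := A₀) ({u} : Set F)) u 𝔫 Q → g • Q ≠ Q →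
          Q ≠ P → Q.ord f = 0 := by
  set B := ↥(zchClosure (A₀ := A₀) ({u} : Set F)) with hBdef
  -- the smooth case
  have hdisc : ∀ s : R, j s ∈ 𝔫 → NodesLocGen (𝔫.comap j) {p, s} →
      ∀ P : Place E F, LsTube B u 𝔫 P →
      g • P ≠ P → P.ord x ≠ 0 → ∃ f : F, f ≠ 0 ∧ P.ord f = 1 ∧
        ∀ Q : Place E F, LsTube B u 𝔫 Q → g • Q ≠ Q → Q ≠ P → Q.ord f = 0 :=
    fun s hs hgen => unip_hcoord_disc hπ hu 𝔫 hπ𝔫 (j s) hs (hram.mgg_locGen_pair hπ𝔫 s hgen) g hrat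
  rcases hnode with ⟨s, hs, hgen⟩ | ⟨hthr₁, hthr₂, X, Y, hX, hY, hgen⟩
  · exact hdisc s hs hgen
  -- the two branches on `R`
  haveI h1p := at_crossingIdeal_isPrime (A₀ := A₀) (S := {u}) (V c₁) (hBV c₁)
  haveI h2p := at_crossingIdeal_isPrime (A₀ := A₀) (S := {u}) (V c₂) (hBV c₂)
  set 𝔭₁ : Ideal R := (crossingIdeal (A₀ := A₀) {u} (V c₁) (hBV c₁)).comap j with h𝔭₁
  set 𝔭₂ : Ideal R := (crossingIdeal (A₀ := A₀) {u} (V c₂) (hBV c₂)).comap j with h𝔭₂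
  haveI : 𝔭₁.IsPrime := Ideal.comap_isPrime j _
  haveI : 𝔭₂.IsPrime := Ideal.comap_isPrime j _
  haveI : (𝔫.comap j).IsPrime := Ideal.comap_isPrime j _
  have hϖ1 : algebraMap A₀ B π ∈ crossingIdeal (A₀ := A₀) {u} (V c₁) (hBV c₁) := hπV c₁
  have hϖ2 : algebraMap A₀ B π ∈ crossingIdeal (A₀ := A₀) {u} (V c₂) (hBV c₂) := hπV c₂
  have hp1 : p ∈ 𝔭₁ := by
    rw [h𝔭₁, Ideal.mem_comap]
    obtain ⟨z, hz⟩ := hram.dvd
    rw [hz]
    exact Ideal.mul_mem_right _ _ hϖ1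
  have hp2 : p ∈ 𝔭₂ := by
    rw [h𝔭₂, Ideal.mem_comap]
    obtain ⟨z, hz⟩ := hram.dvd
    rw [hz]
    exact Ideal.mul_mem_right _ _ hϖ2
  have hSS1R : ∀ y : R, y ∈ 𝔭₁ → y ∈ 𝔭₂ → p ∣ y := by
    intro y hy1 hy2
    apply hram.cancel
    obtain ⟨b', hb', hyb'⟩ := hSS1 ((j y : B) : F) (mem_zchClosure.mp (j y).2) (fun c => by
      rcases hκ c with rfl | rfl
      · exact hy1
      · exact hy2)
    exact ⟨⟨b', mem_zchClosure.mpr hb'⟩, Subtype.ext hyb'⟩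
  rcases unip_stage_or_disc (𝔫.comap j) 𝔭₁ 𝔭₂ (fun y hy => hthr₁ y hy) (fun y hy => hthr₂ y hy)
    p hp1 hp2 hSS1R X Y hX hY hgen with ⟨s, hs, hgen'⟩ | hstage
  · exact hdisc s hs hgen'
  -- "through" on `B`
  have hthrB : ∀ c : κ, (∀ y : R, ((j y : B) : F) ∈ (V c).nonunits → j y ∈ 𝔫) →
      ∀ b : B, (b : F) ∈ (V c).nonunits → b ∈ 𝔫 := by
    intro c hthr b hb
    obtain ⟨y, z, rfl⟩ := hram.decomp b
    have hϖz : algebraMap A₀ B π * z ∈ crossingIdeal (A₀ := A₀) {u} (V c) (hBV c) :=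
      Ideal.mul_mem_right _ _ (hπV c)
    have hjy : j y ∈ crossingIdeal (A₀ := A₀) {u} (V c) (hBV c) := by
      have : j y = (j y + algebraMap A₀ B π * z) - algebraMap A₀ B π * z := by ring
      rw [this]
      exact Ideal.sub_mem _ hb hϖz
    exact Ideal.add_mem _ (hthr y hjy) (Ideal.mul_mem_right _ _ hπ𝔫)
  refine unip_hcoord_node hπ hu V hBV hπV hVloc g hgu 𝔫 hπ𝔫 hgB hgB₀' hgV hgA q hq0 hqπ hgq c₁ c₂
    (hthrB c₁ hthr₁) (hthrB c₂ hthr₂) ?_ hrat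
  intro n hn
  obtain ⟨n', X', Y', G', -, hX1', hY2', hX2', hY1', hXY', hgen', hthin⟩ := hstage n hn
  refine ⟨n', j X', j Y', j G', hX1', hY2', hX2', hY1', ?_,
    hram.mgg_locGen_triple hπ𝔫 X' Y' hgen', ?_⟩
  · rw [← map_mul, hXY', map_mul, map_pow, hjp]
  · rcases hthin with h | h
    · exact Or.inl h
    · exact Or.inr (fun hG => h (Ideal.mem_comap.mpr hG))

end Transport

end Fermat.Agent.UNIP
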