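/-
UNIP (item 34, S34/S35), piece "FrStab" of U5 (helper20): the special fibre chart
`R_τ = ρ(B′_τ)` is stable under the twist `Θ = coeffMap θ` of `k₀((Q))` by a ring endomorphism
`θ` of the residue field (in the application `θ = Frob⁻¹`), as soon as `θ` LIFTS to the base ring
`A₀` (`ψ : A₀ →+* A₀`, `r (ψ a) = θ (r a)`; in the application `ψ` is the restriction of the
inverse of a Frobenius element at `A`, which preserves the inertia field `E₀` and `A₀ = A ∩ E₀`).

Setting of `INJ/GaussRing.lean`: `ι : A →+* E` injective, `r : A →+* k`, `gaussRing ι r ⊂ E((Q))`,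
`gaussRed r hι : gaussRing ι r →+* k((Q))`.

* `frStab_mem_gaussRing`, `frStab_gaussRed` : `coeffMap ψE` preserves the Gauss ring and
  `gaussRed (coeffMap ψE x) = coeffMap θ (gaussRed x)`.
* `frStab_isIntegral` : a `ψ`-semilinear ring endomorphism `Ψ` of an `A`-algebra `L` which maps the
  generators `S` into `A[S]` preserves integrality over `A[S]`.
* `frStabHom` : the ring endomorphism of `F_N(E) = modularFunctionFieldFullC E N` induced by
  `coeffMap ψE`;  `frStab_chart` : it preserves the chart `B_τ` (elements integral over `A[τ]`)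
  when `τ` is fixed.
* `frStab_N5` : the abstract form of (N5) of helper93's `nodes_main`, from (G3) and FrStab.
-/
import Fermat.Agent.INJ.GaussRing
import Fermat.Agent.S34.ALMain

set_option autoImplicit false
set_option linter.unusedSectionVars false
set_option linter.unusedVariables false

noncomputable section

namespace Fermat.Agent.UNIP

open ModularCurve Fermat.Agent.INJ Polynomial

section Gauss

variable {A E k : Type*} [CommRing A] [Field E] [Field k] (ι : A →+* E) (r : A →+* k)
  (ψA : A →+* A) (ψE : E →+* E) (θ : k →+* k)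

theorem frStab_coeffMap_comm (hψ : ∀ a, ψE (ι a) = ι (ψA a)) (T : LaurentSeries A) :
    coeffMap ψE (coeffMap ι T) = coeffMap ι (coeffMap ψA T) := by
  rw [coeffMap_coeffMap, coeffMap_coeffMap]
  exact coeffMap_congr (RingHom.ext hψ) T

theorem frStab_coeffMap_red (hθ : ∀ a, r (ψA a) = θ (r a)) (T : LaurentSeries A) :
    coeffMap r (coeffMap ψA T) = coeffMap θ (coeffMap r T) := by
  rw [coeffMap_coeffMap, coeffMap_coeffMap]
  exact coeffMap_congr (RingHom.ext hθ) T

/-- `coeffMap ψE` preserves the Gauss ring. -/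
theorem frStab_mem_gaussRing (hψ : ∀ a, ψE (ι a) = ι (ψA a)) (hθ : ∀ a, r (ψA a) = θ (r a))
    {x : LaurentSeries E} (hx : x ∈ gaussRing ι r) : coeffMap ψE x ∈ gaussRing ι r := by
  obtain ⟨T, b, hb, h⟩ := hx
  refine ⟨coeffMap ψA T, coeffMap ψA b, ?_, ?_⟩
  · rw [frStab_coeffMap_red r ψA θ hθ]
    exact (map_ne_zero_iff _ (coeffMap θ).injective).mpr hb
  · rw [← frStab_coeffMap_comm ι ψA ψE hψ, ← frStab_coeffMap_comm ι ψA ψE hψ, ← map_mul, h]

variable {ι} (hι : Function.Injective ι)

/-- `gaussRed (coeffMap ψE x) = coeffMap θ (gaussRed x)`. -/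
theorem frStab_gaussRed (hψ : ∀ a, ψE (ι a) = ι (ψA a)) (hθ : ∀ a, r (ψA a) = θ (r a))
    (x : gaussRing ι r) :
    gaussRed r hι ⟨coeffMap ψE (x : LaurentSeries E),
        frStab_mem_gaussRing ι r ψA ψE θ hψ hθ x.2⟩ =
      coeffMap θ (gaussRed r hι x) := by
  obtain ⟨T, b, hb, h⟩ := x.2
  have hb' : coeffMap r (coeffMap ψA b) ≠ 0 := by
    rw [frStab_coeffMap_red r ψA θ hθ]
    exact (map_ne_zero_iff _ (coeffMap θ).injective).mpr hb
  have h' : coeffMap ι (coeffMap ψA b) * coeffMap ψE (x : LaurentSeries E) =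
      coeffMap ι (coeffMap ψA T) := by
    rw [← frStab_coeffMap_comm ι ψA ψE hψ, ← frStab_coeffMap_comm ι ψA ψE hψ, ← map_mul, h]
  have e1 := gaussRed_eq r hι ⟨coeffMap ψE (x : LaurentSeries E),
    frStab_mem_gaussRing ι r ψA ψE θ hψ hθ x.2⟩ (coeffMap ψA T) (coeffMap ψA b) hb' h'
  have e2 := gaussRed_eq r hι x T b hb h
  rw [e1, e2, frStab_coeffMap_red r ψA θ hθ, frStab_coeffMap_red r ψA θ hθ, map_div₀]

end Gauss

section Integral

variable {A L : Type*} [CommRing A] [CommRing L] [Algebra A L] (ψA : A →+* A) (Ψ : L →+* L)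

/-- a semilinear ring endomorphism mapping the generators into `A[S]` preserves `A[S]` -/
theorem frStab_mem_adjoin (hΨ : ∀ a, Ψ (algebraMap A L a) = algebraMap A L (ψA a))
    (S : Set L) (hS : ∀ s ∈ S, Ψ s ∈ Algebra.adjoin A S) {x : L}
    (hx : x ∈ Algebra.adjoin A S) : Ψ x ∈ Algebra.adjoin A S := by
  induction hx using Algebra.adjoin_induction with
  | mem x hx => exact hS x hx
  | algebraMap a => rw [hΨ]; exact Subalgebra.algebraMap_mem _ _
  | add x y _ _ hx hy => rw [map_add]; exact Subalgebra.add_mem _ hx hy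
  | mul x y _ _ hx hy => rw [map_mul]; exact Subalgebra.mul_mem _ hx hy

/-- ... and integrality over `A[S]` -/
theorem frStab_isIntegral (hΨ : ∀ a, Ψ (algebraMap A L a) = algebraMap A L (ψA a))
    (S : Set L) (hS : ∀ s ∈ S, Ψ s ∈ Algebra.adjoin A S) {x : L}
    (hx : IsIntegral (Algebra.adjoin A S) x) : IsIntegral (Algebra.adjoin A S) (Ψ x) := by
  obtain ⟨p, hp, hpx⟩ := hx
  let g : Algebra.adjoin A S →+* Algebra.adjoin A S :=
    { toFun := fun y => ⟨Ψ (y : L), frStab_mem_adjoin ψA Ψ hΨ S hS y.2⟩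
      map_one' := Subtype.ext (map_one Ψ)
      map_mul' := fun y z => Subtype.ext (map_mul Ψ _ _)
      map_zero' := Subtype.ext (map_zero Ψ)
      map_add' := fun y z => Subtype.ext (map_add Ψ _ _) }
  refine ⟨p.map g, hp.map g, ?_⟩
  rw [eval₂_map]
  have hcomp : (algebraMap (Algebra.adjoin A S) L).comp g =
      Ψ.comp (algebraMap (Algebra.adjoin A S) L) := RingHom.ext fun y => rfl
  rw [hcomp, ← hom_eval₂, hpx, map_zero]

end Integral

section Modular

variable {E : Type*} [Field E] (N : ℕ) [NeZero N] (ψE : E →+* E)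

/-- the ring endomorphism of `F_N(E)` induced by `ψE` on the coefficients -/
def frStabHom : modularFunctionFieldFullC E N →+* modularFunctionFieldFullC E N where
  toFun y := ⟨coeffMap ψE (y : LaurentSeries E), Fermat.Agent.AL.al_coeffMap_mem E N ψE y.2⟩
  map_one' := Subtype.ext (map_one (coeffMap ψE))
  map_mul' := fun y z => Subtype.ext (map_mul (coeffMap ψE) _ _)
  map_zero' := Subtype.ext (map_zero (coeffMap ψE))
  map_add' := fun y z => Subtype.ext (map_add (coeffMap ψE) _ _)

@[simp] theorem coe_frStabHom (y : modularFunctionFieldFullC E N) :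
    ((frStabHom N ψE y : modularFunctionFieldFullC E N) : LaurentSeries E) =
      coeffMap ψE (y : LaurentSeries E) := rfl

theorem frStabHom_algebraMap_E (c : E) :
    frStabHom N ψE (algebraMap E (modularFunctionFieldFullC E N) c) =
      algebraMap E (modularFunctionFieldFullC E N) (ψE c) := by
  apply Subtype.ext
  rw [coe_frStabHom]
  show coeffMap ψE (algebraMap E (LaurentSeries E) c) = algebraMap E (LaurentSeries E) (ψE c)
  rw [algebraMap_laurentSeries_eq_single, coeffMap_single,
    ← algebraMap_laurentSeries_eq_single]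

variable {A : Type*} [CommRing A] [Algebra A E] (ψA : A →+* A)
  [Algebra A (modularFunctionFieldFullC E N)]
  [IsScalarTower A E (modularFunctionFieldFullC E N)]

theorem frStabHom_algebraMap (hψ : ∀ a, ψE (algebraMap A E a) = algebraMap A E (ψA a)) (a : A) :
    frStabHom N ψE (algebraMap A (modularFunctionFieldFullC E N) a) =
      algebraMap A (modularFunctionFieldFullC E N) (ψA a) := by
  rw [IsScalarTower.algebraMap_apply A E (modularFunctionFieldFullC E N),
    IsScalarTower.algebraMap_apply A E (modularFunctionFieldFullC E N), frStabHom_algebraMap_E, hψ]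

/-- **FrStab, chart form.**  `coeffMap ψE` preserves the chart `B_τ` (the elements of `F_N(E)`
integral over `A[τ]`) if it fixes `τ`. -/
theorem frStab_chart (hψ : ∀ a, ψE (algebraMap A E a) = algebraMap A E (ψA a))
    (τ : modularFunctionFieldFullC E N)
    (hτ : coeffMap ψE (τ : LaurentSeries E) = (τ : LaurentSeries E))
    {x : modularFunctionFieldFullC E N} (hx : IsIntegral (Algebra.adjoin A {τ}) x) :
    IsIntegral (Algebra.adjoin A {τ}) (frStabHom N ψE x) := by
  refine frStab_isIntegral ψA (frStabHom N ψE) (frStabHom_algebraMap N ψE ψA hψ) {τ} ?_ hx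
  rintro s rfl
  have : frStabHom N ψE s = s := Subtype.ext hτ
  rw [this]
  exact Algebra.subset_adjoin rfl

end Modular

section N5

variable {B R : Type*} [CommRing B] [CommRing R]

/-- **(N5) from (G3) + FrStab**, abstract form.  `f g : B →+* R` (`f = ρ`, `g = ρ₀ = ρ ∘ w`),
`w : B → B` with `g = f ∘ w` and `f = g ∘ w`, `B' ⊆ B` (level `M`) with `f(B') = R`,
`Θ : R → R` with `f (w s) = (Θ (f s)) ^ q` for `s ∈ B'` (G3) and `Θ (f B') ⊆ f B'` (FrStab).
Then for every `x : R` there are `s h : B` with `f s = x`, `g s = (g h) ^ q`, and there are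
`s h : B` with `g s = x`, `f s = (f h) ^ q`. -/
theorem frStab_N5 (f g : B →+* R) (w : B → B) (hgw : ∀ b, g b = f (w b))
    (hfw : ∀ b, f b = g (w b)) (B' : Set B) (hsurj : ∀ x : R, ∃ s ∈ B', f s = x)
    (Θ : R → R) (q : ℕ) (hG3 : ∀ s ∈ B', f (w s) = (Θ (f s)) ^ q)
    (x : R) :
    (∃ s h : B, f s = x ∧ g s = (g h) ^ q) ∧ (∃ s h : B, g s = x ∧ f s = (f h) ^ q) := by
  obtain ⟨s, hs, hsx⟩ := hsurj x
  obtain ⟨s', hs', hs'x⟩ := hsurj (Θ x)
  constructor
  · refine ⟨s, w s', hsx, ?_⟩
    rw [hgw s, hG3 s hs, hsx, ← hfw s', hs'x]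
  · refine ⟨w s, s', ?_, ?_⟩
    · rw [← hfw s, hsx]
    · rw [hG3 s hs, hsx, hs'x]

end N5

end Fermat.Agent.UNIP
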