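import Fermat.Agent.UNIP.NodesFrob
import Fermat.Agent.UNIP.FrStab

/-!
# UNIP / U5 (Nodes): the hypothesis `frob` of `nodes_chart_hom` (helper92)

Setting of `NodesFrob.lean` (helper25) and `FrStab.lean` (helper20): `A` a domain with fraction
field `E`, `r : A →+* k` the residue map with `ker r = (π)`, `q ∤ M` a prime with `char k = q`,
`w = atkinLehner E ιC hq hqM` on `F_{Mq}(E)`;  and a Frobenius lift
`ψA : A →+* A`, `ψE : E →+* E`, `θ : k →+* k` with
`ψE ∘ ι = ι ∘ ψA`, `r ∘ ψA = θ ∘ r`, `θ x ^ q = x`   (`θ = Frob⁻¹`).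

For a coordinate `t ∈ F_M(E)` in the Gauss ring with `coeffMap ψE t = t` (e.g. `t = j`, `t = 1/j`)
and the chart `C_t = integralClosure A[t] F_M(E)`:

* `nodesFrobInst_raw` : for `f ∈ F_M(E)` in the Gauss ring,
  `gaussRed (w f) = (gaussRed (coeffMap ψE f)) ^ q`   ((G3) + FrStab);
* `nodesFrobInstLift c : C_t` : the element `coeffMap ψE c` of the chart (`frStab_chart`);
* `nodesFrobInst_chart` : `gaussRed (w c) = (ρ_M (nodesFrobInstLift c)) ^ q`, `ρ_M = nodesFrobChartRed`;
* `nodesFrobInst_frob` : **the hypothesis `frob` of `nodes_chart_hom`**, for ANY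
  `φ : C_t(F_M) →+* B`, `B = integralClosure A[t'] F_{Mq}`, which is the identity on the underlying
  series, any `ρ` which is `gaussRed` on the underlying series and any `ρ₀` which is `gaussRed ∘ w`;
* `nodesFrobInst_J_fixed`, `nodesFrobInst_Jinv_fixed`, `nodesFrobInst_J_mem`, `nodesFrobInst_Jinv_mem` :
  the hypotheses on `t` for `t = j` and `t = 1/j`.
-/

set_option autoImplicit false
set_option linter.unusedSectionVars false
set_option linter.unusedVariables false

noncomputable section

namespace Fermat.Agent.UNIP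

open ModularCurve Polynomial IntermediateField Fermat.Agent.INJ Fermat.Agent.AL

section Raw

variable {A E k : Type*} [CommRing A] [IsDomain A] [Field E] [Algebra A E] [IsFractionRing A E]
  [Field k] (r : A →+* k) (ιC : E →+* ℂ)
  {q M : ℕ} [NeZero q] [NeZero M] [NeZero (M * q)] (hq : q.Prime) (hqM : ¬ q ∣ M)
  (ψA : A →+* A) (ψE : E →+* E) (θ : k →+* k)

/-- `gaussRed` only depends on the underlying series -/
theorem nodesFrobInst_gaussRed_congr {x y : LaurentSeries E} (hxy : x = y)
    (hx : x ∈ gaussRing (algebraMap A E) r) (hy : y ∈ gaussRing (algebraMap A E) r) :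
    gaussRed r (IsFractionRing.injective A E) ⟨x, hx⟩ =
      gaussRed r (IsFractionRing.injective A E) ⟨y, hy⟩ := by
  subst hxy
  rfl

/-- **(G3) + FrStab, raw form**: for `f ∈ F_M(E)` in the Gauss ring, the reduction of `w_q f` is
the `q`-th power of the reduction of `coeffMap ψE f`. -/
theorem nodesFrobInst_raw [Fact q.Prime] [CharP k q]
    (hψ : ∀ a, ψE (algebraMap A E a) = algebraMap A E (ψA a))
    (hθ : ∀ a, r (ψA a) = θ (r a)) (hθq : ∀ x, θ x ^ q = x)
    {f : LaurentSeries E} (hf : f ∈ modularFunctionFieldFullC E M)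
    (hfG : f ∈ gaussRing (algebraMap A E) r)
    (h1 : ((atkinLehner E ιC hq hqM ⟨f, al_mem_of_mem_low E hf⟩ :
      modularFunctionFieldFullC E (M * q)) : LaurentSeries E) ∈ gaussRing (algebraMap A E) r)
    (h2 : coeffMap ψE f ∈ gaussRing (algebraMap A E) r) :
    gaussRed r (IsFractionRing.injective A E) ⟨_, h1⟩ =
      (gaussRed r (IsFractionRing.injective A E) ⟨coeffMap ψE f, h2⟩) ^ q := by
  have e1 := nodesFrob_G3_pow r ιC hq hqM θ hθq hf hfG
  have e2 := frStab_gaussRed r ψA ψE θ (IsFractionRing.injective A E) hψ hθ ⟨f, hfG⟩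
  rw [← e2] at e1
  exact e1

end Raw

section Chart

variable {A E k : Type*} [CommRing A] [IsDomain A] [Field E] [Algebra A E] [IsFractionRing A E]
  [Field k] (r : A →+* k) (ιC : E →+* ℂ)
  {q M : ℕ} [NeZero q] [NeZero M] [NeZero (M * q)] (hq : q.Prime) (hqM : ¬ q ∣ M)
  (ψA : A →+* A) (ψE : E →+* E) (θ : k →+* k)
  [Algebra A (modularFunctionFieldFullC E M)] [IsScalarTower A E (modularFunctionFieldFullC E M)]

/-- the Frobenius lift on the chart `C_t = integralClosure A[t] F_M(E)`, `t` fixed by `ψE` -/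
def nodesFrobInstLift (hψ : ∀ a, ψE (algebraMap A E a) = algebraMap A E (ψA a))
    (t : modularFunctionFieldFullC E M)
    (hτ : coeffMap ψE (t : LaurentSeries E) = (t : LaurentSeries E))
    (c : integralClosure (Algebra.adjoin A {t}) (modularFunctionFieldFullC E M)) :
    integralClosure (Algebra.adjoin A {t}) (modularFunctionFieldFullC E M) :=
  ⟨frStabHom M ψE (c : modularFunctionFieldFullC E M), frStab_chart M ψE ψA hψ t hτ c.2⟩

theorem nodesFrobInstLift_coe (hψ : ∀ a, ψE (algebraMap A E a) = algebraMap A E (ψA a))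
    (t : modularFunctionFieldFullC E M)
    (hτ : coeffMap ψE (t : LaurentSeries E) = (t : LaurentSeries E))
    (c : integralClosure (Algebra.adjoin A {t}) (modularFunctionFieldFullC E M)) :
    (((nodesFrobInstLift ψA ψE hψ t hτ c :
        integralClosure (Algebra.adjoin A {t}) (modularFunctionFieldFullC E M)) :
      modularFunctionFieldFullC E M) : LaurentSeries E) =
      coeffMap ψE ((c : modularFunctionFieldFullC E M) : LaurentSeries E) := rfl

variable {π : A} [WfDvdMonoid A]

/-- the elements of the chart `C_t` lie in the Gauss ring -/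
theorem nodesFrobInst_mem (hπ0 : π ≠ 0) (hπ : ¬ IsUnit π)
    (hr : ∀ a, r a = 0 → π ∣ a) (hrπ : r π = 0)
    (t : modularFunctionFieldFullC E M)
    (ht : (t : LaurentSeries E) ∈ gaussRing (algebraMap A E) r)
    (c : integralClosure (Algebra.adjoin A {t}) (modularFunctionFieldFullC E M)) :
    ((c : modularFunctionFieldFullC E M) : LaurentSeries E) ∈ gaussRing (algebraMap A E) r :=
  nodesFrob_G1_id r hπ0 hπ hr hrπ (nodesFrob_full_le M) t ht c.2

/-- **`frob`, chart form**: for `c` in the chart `C_t` of level `M`, the reduction of `w_q c` is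
the `q`-th power of the reduction of `nodesFrobInstLift c`. -/
theorem nodesFrobInst_chart [Fact q.Prime] [CharP k q]
    (hπ0 : π ≠ 0) (hπ : ¬ IsUnit π) (hr : ∀ a, r a = 0 → π ∣ a) (hrπ : r π = 0)
    (hψ : ∀ a, ψE (algebraMap A E a) = algebraMap A E (ψA a))
    (hθ : ∀ a, r (ψA a) = θ (r a)) (hθq : ∀ x, θ x ^ q = x)
    (t : modularFunctionFieldFullC E M)
    (ht : (t : LaurentSeries E) ∈ gaussRing (algebraMap A E) r)
    (hτ : coeffMap ψE (t : LaurentSeries E) = (t : LaurentSeries E))
    (c : integralClosure (Algebra.adjoin A {t}) (modularFunctionFieldFullC E M))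
    (h1 : ((atkinLehner E ιC hq hqM
        ⟨((c : modularFunctionFieldFullC E M) : LaurentSeries E),
          al_mem_of_mem_low E (c : modularFunctionFieldFullC E M).2⟩ :
      modularFunctionFieldFullC E (M * q)) : LaurentSeries E) ∈ gaussRing (algebraMap A E) r) :
    gaussRed r (IsFractionRing.injective A E) ⟨_, h1⟩ =
      (nodesFrobChartRed r hπ0 hπ hr hrπ (nodesFrob_full_le M) t ht
        (nodesFrobInstLift ψA ψE hψ t hτ c)) ^ q :=
  nodesFrobInst_raw r ιC hq hqM ψA ψE θ hψ hθ hθq (c : modularFunctionFieldFullC E M).2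
    (nodesFrobInst_mem r hπ0 hπ hr hrπ t ht c) h1
    (nodesFrobInst_mem r hπ0 hπ hr hrπ t ht (nodesFrobInstLift ψA ψE hψ t hτ c))

variable [Algebra A (modularFunctionFieldFullC E (M * q))]
  [IsScalarTower A E (modularFunctionFieldFullC E (M * q))]

/-- **The hypothesis `frob` of `nodes_chart_hom`.**  `φ` is the inclusion of the chart of level
`M` in the chart of level `M q` (any ring homomorphism which is the identity on the underlying
series), `ρ` is the reduction (`nodesFrobChartRed` of level `M q`), `ρ₀ = ρ ∘ w_q`. -/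
theorem nodesFrobInst_frob [Fact q.Prime] [CharP k q]
    (hπ0 : π ≠ 0) (hπ : ¬ IsUnit π) (hr : ∀ a, r a = 0 → π ∣ a) (hrπ : r π = 0)
    (hψ : ∀ a, ψE (algebraMap A E a) = algebraMap A E (ψA a))
    (hθ : ∀ a, r (ψA a) = θ (r a)) (hθq : ∀ x, θ x ^ q = x)
    (t : modularFunctionFieldFullC E M)
    (ht : (t : LaurentSeries E) ∈ gaussRing (algebraMap A E) r)
    (hτ : coeffMap ψE (t : LaurentSeries E) = (t : LaurentSeries E))
    (t' : modularFunctionFieldFullC E (M * q))
    (φ : integralClosure (Algebra.adjoin A {t}) (modularFunctionFieldFullC E M) →+*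
      integralClosure (Algebra.adjoin A {t'}) (modularFunctionFieldFullC E (M * q)))
    (hφ : ∀ c, (((φ c : integralClosure (Algebra.adjoin A {t'})
        (modularFunctionFieldFullC E (M * q))) : modularFunctionFieldFullC E (M * q)) :
        LaurentSeries E) = ((c : modularFunctionFieldFullC E M) : LaurentSeries E))
    (ρ ρ₀ : integralClosure (Algebra.adjoin A {t'}) (modularFunctionFieldFullC E (M * q)) →+*
      LaurentSeries k)
    (hρ : ∀ (b : integralClosure (Algebra.adjoin A {t'}) (modularFunctionFieldFullC E (M * q)))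
      (hb : ((b : modularFunctionFieldFullC E (M * q)) : LaurentSeries E) ∈
        gaussRing (algebraMap A E) r),
      ρ b = gaussRed r (IsFractionRing.injective A E) ⟨_, hb⟩)
    (hρ₀ : ∀ (b : integralClosure (Algebra.adjoin A {t'}) (modularFunctionFieldFullC E (M * q)))
      (hb : ((atkinLehner E ιC hq hqM (b : modularFunctionFieldFullC E (M * q)) :
        modularFunctionFieldFullC E (M * q)) : LaurentSeries E) ∈ gaussRing (algebraMap A E) r),
      ρ₀ b = gaussRed r (IsFractionRing.injective A E) ⟨_, hb⟩)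
    (c : integralClosure (Algebra.adjoin A {t}) (modularFunctionFieldFullC E M)) :
    ∃ c' : integralClosure (Algebra.adjoin A {t}) (modularFunctionFieldFullC E M),
      ρ₀ (φ c) = ρ (φ c') ^ q := by
  refine ⟨nodesFrobInstLift ψA ψE hψ t hτ c, ?_⟩
  have hcG := nodesFrobInst_mem r hπ0 hπ hr hrπ t ht c
  have hc'G := nodesFrobInst_mem r hπ0 hπ hr hrπ t ht (nodesFrobInstLift ψA ψE hψ t hτ c)
  -- the element `φ c` of `F_{Mq}` is `c`
  have e1 : ((φ c : integralClosure (Algebra.adjoin A {t'})
      (modularFunctionFieldFullC E (M * q))) : modularFunctionFieldFullC E (M * q)) =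
      ⟨((c : modularFunctionFieldFullC E M) : LaurentSeries E),
        al_mem_of_mem_low E (c : modularFunctionFieldFullC E M).2⟩ := Subtype.ext (hφ c)
  have hG3 := nodesFrob_G3_mem r ιC hq hqM (c : modularFunctionFieldFullC E M).2 hcG
  have hb₀ : ((atkinLehner E ιC hq hqM ((φ c : integralClosure (Algebra.adjoin A {t'})
      (modularFunctionFieldFullC E (M * q))) : modularFunctionFieldFullC E (M * q)) :
      modularFunctionFieldFullC E (M * q)) : LaurentSeries E) ∈ gaussRing (algebraMap A E) r := by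
    rw [e1]
    exact hG3
  have hb : (((φ (nodesFrobInstLift ψA ψE hψ t hτ c) : integralClosure (Algebra.adjoin A {t'})
      (modularFunctionFieldFullC E (M * q))) : modularFunctionFieldFullC E (M * q)) :
      LaurentSeries E) ∈ gaussRing (algebraMap A E) r := by
    rw [hφ]
    exact hc'G
  rw [hρ₀ _ hb₀, hρ _ hb,
    nodesFrobInst_gaussRed_congr r (by rw [e1]) hb₀ hG3,
    nodesFrobInst_gaussRed_congr r (hφ _) hb hc'G]
  exact nodesFrobInst_raw r ιC hq hqM ψA ψE θ hψ hθ hθq (c : modularFunctionFieldFullC E M).2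
    hcG hG3 hc'G

end Chart

/-! ## The coordinates `j` and `1/j` -/

section Coord

variable {A E k : Type*} [CommRing A] [IsDomain A] [Field E] [Algebra A E] [IsFractionRing A E]
  [Field k] (r : A →+* k) (ψE : E →+* E)

/-- `j` is fixed by `coeffMap ψE` -/
theorem nodesFrobInst_J_fixed : coeffMap ψE (jqModC E) = jqModC E :=
  coeffMap_jqModC ψE

/-- `1/j` is fixed by `coeffMap ψE` -/
theorem nodesFrobInst_Jinv_fixed : coeffMap ψE (jqModC E)⁻¹ = (jqModC E)⁻¹ := by
  rw [map_inv₀, coeffMap_jqModC]

/-- `j` is in the Gauss ring -/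
theorem nodesFrobInst_J_mem : jqModC E ∈ gaussRing (algebraMap A E) r := by
  rw [← coeffMap_jqModC (algebraMap A E)]
  exact coeffMap_mem_gaussRing _ r _

/-- the reduction of `j` is `j` -/
theorem nodesFrobInst_gaussRed_J :
    gaussRed r (IsFractionRing.injective A E) ⟨jqModC E, nodesFrobInst_J_mem r⟩ = jqModC k := by
  rw [nodesFrobInst_gaussRed_congr r (coeffMap_jqModC (algebraMap A E)).symm
    (nodesFrobInst_J_mem r) (coeffMap_mem_gaussRing _ r _), gaussRed_coeffMap, coeffMap_jqModC]

/-- `1/j` is in the Gauss ring -/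
theorem nodesFrobInst_Jinv_mem : (jqModC E)⁻¹ ∈ gaussRing (algebraMap A E) r := by
  refine inv_mem_gaussRing r (IsFractionRing.injective A E) ⟨jqModC E, nodesFrobInst_J_mem r⟩ ?_
  rw [nodesFrobInst_gaussRed_J]
  exact jqModC_ne_zero_of_nontrivial k

/-- the reduction of `1/j` is `1/j` -/
theorem nodesFrobInst_gaussRed_Jinv :
    gaussRed r (IsFractionRing.injective A E) ⟨(jqModC E)⁻¹, nodesFrobInst_Jinv_mem r⟩ =
      (jqModC k)⁻¹ := by
  have h0 : jqModC k ≠ 0 := jqModC_ne_zero_of_nontrivial k
  have h1 : gaussRed r (IsFractionRing.injective A E) ⟨jqModC E, nodesFrobInst_J_mem r⟩ *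
      gaussRed r (IsFractionRing.injective A E) ⟨(jqModC E)⁻¹, nodesFrobInst_Jinv_mem r⟩ = 1 := by
    rw [← map_mul, ← map_one (gaussRed r (IsFractionRing.injective A E))]
    congr 1
    apply Subtype.ext
    show jqModC E * (jqModC E)⁻¹ = 1
    exact mul_inv_cancel₀ (jqModC_ne_zero_of_nontrivial E)
  rw [nodesFrobInst_gaussRed_J] at h1
  exact eq_inv_of_mul_eq_one_right h1

end Coord

end Fermat.Agent.UNIP
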