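import Fermat.Agent.UNIP.NodesSwapJ

/-!
# UNIP / U5 (Nodes), piece SWAP, part 3 (helper6): Kronecker's congruence `ℓ ≡ 1 mod q`

`ℓ = cuspEll Φ_q ∈ ℤ[X]` (the reverse of `Φ_q(X, 0)`, `Φ_q = nodesSwapPhi q hq`).

* `nodesSwap_eval₂_int_mem_adjoin`, `nodesSwap_eval₂_int_isIntegral`, `nodesSwap_map_eval₂_int`,
  `nodesSwap_aeval_int_eq` : integer polynomials in `u` (membership in `A[u]`, ring homs);
* `nodesSwap_eval₂_mem_gaussRing`, `nodesSwap_gaussRed_eval₂` : integer polynomials in elements of
  the Gauss ring;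
* `nodesSwap_cuspEll_map` : **`ℓ ≡ 1 mod q`** (`(cuspEll Φ_q).map (Int.castRingHom k) = 1` for a
  field `k` of characteristic `q`; Kronecker's congruence, `cusp_kronecker` of helper92);
* `nodesSwap_eval₂_cuspEll`, `nodesSwap_gaussRed_cuspEll` : `ℓ(x) = 1` in every `k`-algebra,
  `ρ(ℓ(x)) = 1` for every `x` in the Gauss ring.
The chart `1/j` is in `NodesSwapInv.lean`.
-/

set_option autoImplicit false
set_option linter.unusedSectionVars false
set_option linter.style.haveILetI false

noncomputable section

namespace Fermat.Agent.UNIP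

open ModularCurve Polynomial IntermediateField Fermat.Agent.INJ Fermat.Agent.AL Fermat.Agent.S28

/-! ## General lemmas on polynomials with integer coefficients -/

section IntPoly

/-- Evaluation of an integer polynomial, `aeval` form. -/
theorem nodesSwap_aeval_int_eq {S : Type*} [CommRing S] (x : S) (p : Polynomial ℤ) :
    aeval x p = p.eval₂ (Int.castRingHom S) x := by
  rw [aeval_def, algebraMap_int_eq]

theorem nodesSwap_eval₂_int_eq_aeval {A S : Type*} [CommRing A] [CommRing S] [Algebra A S]
    (u : S) (p : Polynomial ℤ) :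
    p.eval₂ (Int.castRingHom S) u = aeval u (p.map (Int.castRingHom A)) := by
  rw [aeval_def, eval₂_map]
  congr 1
  exact RingHom.ext_int _ _

/-- A polynomial with integer coefficients in `u` lies in `A[u]`. -/
theorem nodesSwap_eval₂_int_mem_adjoin {A S : Type*} [CommRing A] [CommRing S] [Algebra A S]
    (u : S) (p : Polynomial ℤ) : p.eval₂ (Int.castRingHom S) u ∈ Algebra.adjoin A {u} := by
  rw [nodesSwap_eval₂_int_eq_aeval (A := A)]
  exact Polynomial.aeval_mem_adjoin_singleton A u

/-- A polynomial with integer coefficients in `u` is integral over `A[u]`. -/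
theorem nodesSwap_eval₂_int_isIntegral {A S : Type*} [CommRing A] [CommRing S] [Algebra A S]
    (u : S) (p : Polynomial ℤ) :
    IsIntegral (Algebra.adjoin A {u}) (p.eval₂ (Int.castRingHom S) u) := by
  have h : p.eval₂ (Int.castRingHom S) u = algebraMap (Algebra.adjoin A {u}) S
      ⟨p.eval₂ (Int.castRingHom S) u, nodesSwap_eval₂_int_mem_adjoin (A := A) u p⟩ := rfl
  rw [h]
  exact isIntegral_algebraMap

/-- Ring homomorphisms commute with the evaluation of polynomials with integer coefficients. -/
theorem nodesSwap_map_eval₂_int {R S : Type*} [CommRing R] [CommRing S] (f : R →+* S) (x : R)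
    (p : Polynomial ℤ) :
    f (p.eval₂ (Int.castRingHom R) x) = p.eval₂ (Int.castRingHom S) (f x) := by
  rw [hom_eval₂]
  congr 1
  exact RingHom.ext_int _ _

end IntPoly

/-! ## Kronecker: `ℓ ≡ 1` modulo `q` -/

section Kron

variable (k : Type*) [Field k] (q : ℕ) [NeZero q] (hq : q.Prime) [CharP k q]

/-- **`ℓ ≡ 1 mod q`**: the reduction of `ℓ = cuspEll Φ_q` to characteristic `q` is `1`. -/
theorem nodesSwap_cuspEll_map :
    (cuspEll (nodesSwapPhi q hq)).map (Int.castRingHom k) = 1 := by
  haveI : Fact q.Prime := ⟨hq⟩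
  have hm := nodesSwapPhi_monic q hq
  rw [← cuspEll_map (Int.castRingHom k) hm]
  have hev : ∀ x : LaurentSeries k,
      (((aeval x : Polynomial k →ₐ[k] LaurentSeries k) : Polynomial k →+* LaurentSeries k)).comp
        (mapRingHom (Int.castRingHom k)) = evalInt x := by
    intro x
    rw [ringHom_eq_evalInt ((((aeval x : Polynomial k →ₐ[k] LaurentSeries k) :
      Polynomial k →+* LaurentSeries k)).comp (mapRingHom (Int.castRingHom k)))]
    congr 1
    simp
  have hT : qExpand k q (jqModC k) = jqModC k ^ q := nodesFrobU_hT_j k q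
  refine cuspEll_eq_one_of_kronecker q hq.two_le _ (hm.map _)
    (by rw [hm.natDegree_map, nodesSwapPhi_natDegree]) (jqModC k)
    (nodesFrobU_transcendental_j k) ?_ ?_
  · rw [eval₂_map, hev, ← hT]
    exact nodesSwapPhi_series q hq k
  · rw [eval₂_map, hev, ← hT]
    exact nodesSwapPhi_series' q hq k

/-- `ℓ(x) = 1` for every `x` of a commutative `k`-algebra `K`, `char k = q`. -/
theorem nodesSwap_eval₂_cuspEll {K : Type*} [CommRing K] [Algebra k K] (x : K) :
    (cuspEll (nodesSwapPhi q hq)).eval₂ (Int.castRingHom K) x = 1 := by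
  have h1 : (cuspEll (nodesSwapPhi q hq)).eval₂ (Int.castRingHom K) x =
      ((cuspEll (nodesSwapPhi q hq)).map (Int.castRingHom k)).eval₂ (algebraMap k K) x := by
    rw [eval₂_map]
    congr 1
    exact RingHom.ext_int _ _
  rw [h1, nodesSwap_cuspEll_map k q hq, eval₂_one]

end Kron

/-! ## Reductions of integer polynomials in elements of the Gauss ring -/

section RedPoly

variable {A E k : Type*} [CommRing A] [IsDomain A] [Field E] [Algebra A E] [IsFractionRing A E]
  [Field k] (r : A →+* k)

/-- An integer polynomial in an element of the Gauss ring lies in the Gauss ring. -/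
theorem nodesSwap_eval₂_mem_gaussRing {x : LaurentSeries E}
    (hx : x ∈ gaussRing (algebraMap A E) r) (p : Polynomial ℤ) :
    p.eval₂ (Int.castRingHom (LaurentSeries E)) x ∈ gaussRing (algebraMap A E) r := by
  have h := nodesSwap_map_eval₂_int (gaussRing (algebraMap A E) r).subtype ⟨x, hx⟩ p
  have h2 : (gaussRing (algebraMap A E) r).subtype ⟨x, hx⟩ = x := rfl
  rw [h2] at h
  rw [← h]
  exact (p.eval₂ (Int.castRingHom (gaussRing (algebraMap A E) r)) ⟨x, hx⟩).2

/-- The reduction of an integer polynomial in an element of the Gauss ring. -/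
theorem nodesSwap_gaussRed_eval₂ {x : LaurentSeries E}
    (hx : x ∈ gaussRing (algebraMap A E) r) (p : Polynomial ℤ)
    (h : p.eval₂ (Int.castRingHom (LaurentSeries E)) x ∈ gaussRing (algebraMap A E) r) :
    gaussRed r (IsFractionRing.injective A E) ⟨_, h⟩ =
      p.eval₂ (Int.castRingHom (LaurentSeries k))
        (gaussRed r (IsFractionRing.injective A E) ⟨x, hx⟩) := by
  have h1 : (⟨_, h⟩ : gaussRing (algebraMap A E) r) =
      p.eval₂ (Int.castRingHom (gaussRing (algebraMap A E) r)) ⟨x, hx⟩ := by
    apply Subtype.ext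
    exact (nodesSwap_map_eval₂_int (gaussRing (algebraMap A E) r).subtype ⟨x, hx⟩ p).symm
  rw [h1, nodesSwap_map_eval₂_int]

/-- **`ρ(ℓ(x)) = 1`** for every `x` in the Gauss ring, in residue characteristic `q`. -/
theorem nodesSwap_gaussRed_cuspEll (q : ℕ) [NeZero q] (hq : q.Prime) [CharP k q]
    {x : LaurentSeries E} (hx : x ∈ gaussRing (algebraMap A E) r)
    (h : (cuspEll (nodesSwapPhi q hq)).eval₂ (Int.castRingHom (LaurentSeries E)) x ∈
      gaussRing (algebraMap A E) r) :
    gaussRed r (IsFractionRing.injective A E) ⟨_, h⟩ = 1 := by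
  rw [nodesSwap_gaussRed_eval₂ r hx, nodesSwap_eval₂_cuspEll k q hq]

end RedPoly

end Fermat.Agent.UNIP
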