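import Mathlib
import Fermat.Agent.S28.RedDVR
import Fermat.Agent.INJ.GaussRing

/-!
# UNIP U5-α1, Gauss part: the Gauss valuation ring of a subfield of `Frac A((q)) ⊆ E((q))`

Base: `A` a domain with well-founded divisibility, `E = Frac A`, `r : A →+* k`,
`GaussBase r π` (`π ≠ 0`, `π` not a unit, `ker r = (π)`).

* `gaussFracField A` : the fraction field of `A((q))` inside `E((q))` (an intermediate field of
  `E((q))/E`);
* `nodes_exists_normalized` : a nonzero series over `A` is `π ^ n · T'` with `T'` of nonzero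
  reduction;
* `nodes_mem_or_inv_mem` : for `x ∈ gaussFracField A`, `x` or `x⁻¹` lies in the Gauss ring;
* `gaussVS hB F hF : ValuationSubring F` for an intermediate field `F ≤ gaussFracField A`
  (`F ∩ gaussRing`), with `mem_gaussVS`, `mem_nonunits_gaussVS` (nonunits = kernel of `gaussRed`);
* `gaussVS_isDiscreteValuationRing` : it is a discrete valuation ring (uniformizer `π`).
-/

set_option autoImplicit false

noncomputable section

namespace Fermat.Agent.UNIP

open ModularCurve Fermat.Agent.INJ

section Frac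

variable (A : Type*) {E : Type*} [CommRing A] [IsDomain A] [Field E] [Algebra A E]
  [IsFractionRing A E]

/-- `x ∈ E((q))` is a quotient of two series over `A`. -/
def IsGaussFrac (x : LaurentSeries E) : Prop :=
  ∃ T b : LaurentSeries A, b ≠ 0 ∧
    coeffMap (algebraMap A E) b * x = coeffMap (algebraMap A E) T

variable {A}

omit [IsDomain A] in
theorem nodes_coeffMap_ne_zero {b : LaurentSeries A} (hb : b ≠ 0) :
    coeffMap (algebraMap A E) b ≠ 0 := by
  intro h0
  apply hb
  exact coeffMap_inj_of_injective _ (IsFractionRing.injective A E) (by rw [h0, map_zero])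

variable (A)

/-- The fraction field of `A((q))` inside `E((q))`. -/
def gaussFracField : IntermediateField E (LaurentSeries E) where
  carrier := {x | IsGaussFrac A x}
  mul_mem' := by
    rintro x y ⟨T, b, hb, h⟩ ⟨T', b', hb', h'⟩
    refine ⟨T * T', b * b', mul_ne_zero hb hb', ?_⟩
    rw [map_mul, map_mul, ← h, ← h']; ring
  one_mem' := ⟨1, 1, one_ne_zero, by simp⟩
  add_mem' := by
    rintro x y ⟨T, b, hb, h⟩ ⟨T', b', hb', h'⟩
    refine ⟨T * b' + T' * b, b * b', mul_ne_zero hb hb', ?_⟩
    rw [map_mul, map_add, map_mul, map_mul, ← h, ← h']; ring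
  zero_mem' := ⟨0, 1, one_ne_zero, by simp⟩
  algebraMap_mem' := by
    intro e
    obtain ⟨a, b, hb, hab⟩ := IsFractionRing.div_surjective (A := A) e
    have hb0 : b ≠ 0 := nonZeroDivisors.ne_zero hb
    refine ⟨(HahnSeries.C a : LaurentSeries A), (HahnSeries.C b : LaurentSeries A), ?_, ?_⟩
    · intro h0
      apply hb0
      have := congrArg (fun z : LaurentSeries A => z.coeff 0) h0
      simpa using this
    · rw [coeffMap_hahnC, coeffMap_hahnC, ← hab]
      have hbE : algebraMap A E b ≠ 0 := by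
        intro h0
        exact hb0 ((IsFractionRing.injective A E) (by rw [h0, map_zero]))
      rw [Fermat.Agent.S28.redDVR_algebraMap_eq_single, ← HahnSeries.C_apply, ← map_mul,
        mul_div_cancel₀ _ hbE]
  inv_mem' := by
    rintro x ⟨T, b, hb, h⟩
    by_cases hT : T = 0
    · have hx : x = 0 := by
        rw [hT, map_zero] at h
        exact (mul_eq_zero.mp h).resolve_left (nodes_coeffMap_ne_zero hb)
      rw [hx, inv_zero]
      exact ⟨0, 1, one_ne_zero, by simp⟩
    · have hx : x ≠ 0 := by
        intro h0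
        rw [h0, mul_zero] at h
        exact nodes_coeffMap_ne_zero hT h.symm
      refine ⟨b, T, hT, ?_⟩
      rw [← h]
      field_simp

theorem mem_gaussFracField {x : LaurentSeries E} : x ∈ gaussFracField A ↔ IsGaussFrac A x :=
  Iff.rfl

theorem coeffMap_mem_gaussFracField (T : LaurentSeries A) :
    coeffMap (algebraMap A E) T ∈ gaussFracField A :=
  ⟨T, 1, one_ne_zero, by simp⟩

/-- An intermediate field generated by series over `A` lies in `gaussFracField A`. -/
theorem adjoin_le_gaussFracField (S : Set (LaurentSeries E))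
    (hS : ∀ x ∈ S, ∃ T : LaurentSeries A, coeffMap (algebraMap A E) T = x) :
    IntermediateField.adjoin E S ≤ gaussFracField A := by
  rw [IntermediateField.adjoin_le_iff]
  intro x hx
  obtain ⟨T, rfl⟩ := hS x hx
  exact coeffMap_mem_gaussFracField A T

end Frac

section Norm

variable {A E k : Type*} [CommRing A] [IsDomain A] [Field E] [Algebra A E]
  [IsFractionRing A E] [Field k] (r : A →+* k) (π : A)

/-- The standing hypotheses on the base `(A, π, r)`: `π` is a nonzero nonunit generating the
kernel of the residue map `r`. -/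
structure GaussBase : Prop where
  ne_zero : π ≠ 0
  not_unit : ¬ IsUnit π
  ker : ∀ a, r a = 0 → π ∣ a
  map_pi : r π = 0

variable {r π}

omit [IsDomain A] in
theorem nodes_coeff_C_mul (a : A) (T : LaurentSeries A) (m : ℤ) :
    (HahnSeries.C a * T).coeff m = a * T.coeff m := by
  rw [HahnSeries.C_mul_eq_smul, HahnSeries.coeff_smul, smul_eq_mul]

omit [IsDomain A] in
theorem nodes_exists_normalized_aux (hB : GaussBase r π) :
    ∀ (N : ℕ) (T : LaurentSeries A), (∃ m, ¬ π ^ (N + 1) ∣ T.coeff m) →
      ∃ (n : ℕ) (T' : LaurentSeries A), coeffMap r T' ≠ 0 ∧ T = HahnSeries.C (π ^ n) * T' := by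
  intro N
  induction N with
  | zero =>
    rintro T ⟨m, hm⟩
    refine ⟨0, T, ?_, by simp⟩
    intro h0
    apply hm
    have h1 := congrArg (fun z : LaurentSeries k => z.coeff m) h0
    simp only [coeffMap_coeff, HahnSeries.coeff_zero] at h1
    simpa using hB.ker _ h1
  | succ N ih =>
    rintro T ⟨m, hm⟩
    by_cases h0 : coeffMap r T = 0
    · obtain ⟨T₁, hT₁⟩ := exists_eq_C_mul_of_coeffMap_eq_zero r hB.ker T h0
      have hm' : ¬ π ^ (N + 1) ∣ T₁.coeff m := by
        intro hdvd
        apply hm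
        rw [hT₁, nodes_coeff_C_mul, pow_succ']
        exact mul_dvd_mul_left π hdvd
      obtain ⟨n, T', hT', hn⟩ := ih T₁ ⟨m, hm'⟩
      refine ⟨n + 1, T', hT', ?_⟩
      rw [hT₁, hn, pow_succ', map_mul, mul_assoc]
    · exact ⟨0, T, h0, by simp⟩

/-- **Normalisation**: a nonzero series over `A` is `π ^ n` times a series with nonzero
reduction. -/
theorem nodes_exists_normalized [WfDvdMonoid A] (hB : GaussBase r π) {T : LaurentSeries A}
    (hT : T ≠ 0) :
    ∃ (n : ℕ) (T' : LaurentSeries A), coeffMap r T' ≠ 0 ∧ T = HahnSeries.C (π ^ n) * T' := by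
  obtain ⟨m, hm⟩ : ∃ m, T.coeff m ≠ 0 := by
    by_contra h
    push Not at h
    exact hT (HahnSeries.ext (funext h))
  obtain ⟨N, hN⟩ := FiniteMultiplicity.of_not_isUnit hB.not_unit hm
  exact nodes_exists_normalized_aux hB N T ⟨m, hN⟩

/-- The constant `π` of `E((q))`. -/
abbrev gaussPi (E : Type*) [Field E] [Algebra A E] (π : A) : LaurentSeries E :=
  HahnSeries.C (algebraMap A E π)

omit [IsDomain A] in
theorem gaussPi_ne_zero (hB : GaussBase r π) : gaussPi E π ≠ 0 := by
  intro h0
  have h1 := congrArg (fun z : LaurentSeries E => z.coeff 0) h0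
  have h2 : algebraMap A E π = 0 := by simpa [gaussPi] using h1
  exact hB.ne_zero ((IsFractionRing.injective A E) (by rw [h2, map_zero]))

omit [IsDomain A] [IsFractionRing A E] in
theorem gaussPi_mem_gaussRing : gaussPi E π ∈ gaussRing (algebraMap A E) r :=
  hahnC_mem_gaussRing r π

omit [IsDomain A] in
theorem gaussRed_gaussPi (hB : GaussBase r π) :
    gaussRed r (IsFractionRing.injective A E) ⟨gaussPi E π, gaussPi_mem_gaussRing⟩ = 0 := by
  rw [gaussRed_eq_zero_iff_dvd r (IsFractionRing.injective A E) hB.map_pi hB.ker]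
  exact ⟨1, by simp [gaussPi]⟩

/-- **Normal form** of a nonzero element of `Frac A((q))`: `π ^ n · x = π ^ m · u` with `u` a unit
of the Gauss ring. -/
theorem nodes_exists_pow_mul [WfDvdMonoid A] (hB : GaussBase r π) {x : LaurentSeries E}
    (hx : IsGaussFrac A x) (hx0 : x ≠ 0) :
    ∃ (m n : ℕ) (u : gaussRing (algebraMap A E) r),
      gaussRed r (IsFractionRing.injective A E) u ≠ 0 ∧
        gaussPi E π ^ n * x = gaussPi E π ^ m * (u : LaurentSeries E) := by
  obtain ⟨T, b, hb, h⟩ := hx
  have hT : T ≠ 0 := by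
    rintro rfl
    rw [map_zero] at h
    exact hx0 ((mul_eq_zero.mp h).resolve_left (nodes_coeffMap_ne_zero hb))
  obtain ⟨n, b', hb', hbn⟩ := nodes_exists_normalized hB hb
  obtain ⟨m, T', hT', hTm⟩ := nodes_exists_normalized hB hT
  have hb'E : coeffMap (algebraMap A E) b' ≠ 0 := by
    apply nodes_coeffMap_ne_zero
    rintro rfl
    exact hb' (map_zero _)
  have hu : coeffMap (algebraMap A E) T' / coeffMap (algebraMap A E) b' ∈
      gaussRing (algebraMap A E) r := ⟨T', b', hb', by field_simp⟩
  refine ⟨m, n, ⟨_, hu⟩, ?_, ?_⟩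
  · rw [gaussRed_eq r (IsFractionRing.injective A E) ⟨_, hu⟩ T' b' hb' (by field_simp)]
    exact div_ne_zero hT' hb'
  · show gaussPi E π ^ n * x =
      gaussPi E π ^ m * (coeffMap (algebraMap A E) T' / coeffMap (algebraMap A E) b')
    rw [hbn, hTm, map_mul, map_mul, coeffMap_hahnC, coeffMap_hahnC, map_pow, map_pow,
      map_pow, map_pow] at h
    rw [mul_div_assoc', eq_div_iff hb'E, ← h]
    show HahnSeries.C (algebraMap A E π) ^ n * x * _ = _
    ring

/-- For `x ∈ Frac A((q))`, `x` or `x⁻¹` lies in the Gauss ring. -/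
theorem nodes_mem_or_inv_mem [WfDvdMonoid A] (hB : GaussBase r π) {x : LaurentSeries E}
    (hx : IsGaussFrac A x) :
    x ∈ gaussRing (algebraMap A E) r ∨ x⁻¹ ∈ gaussRing (algebraMap A E) r := by
  by_cases hx0 : x = 0
  · left; rw [hx0]; exact zero_mem _
  obtain ⟨m, n, u, hu, h⟩ := nodes_exists_pow_mul hB hx hx0
  have hπ := gaussPi_ne_zero (E := E) hB
  have hu0 : (u : LaurentSeries E) ≠ 0 := by
    intro h0
    apply hu
    have : u = 0 := Subtype.ext h0
    rw [this, map_zero]
  rcases le_total n m with hnm | hmn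
  · left
    obtain ⟨d, rfl⟩ := Nat.exists_eq_add_of_le hnm
    have hx' : x = gaussPi E π ^ d * (u : LaurentSeries E) := by
      apply mul_left_cancel₀ (pow_ne_zero n hπ)
      rw [h, pow_add]; ring
    rw [hx']
    exact mul_mem (pow_mem gaussPi_mem_gaussRing d) u.2
  · right
    obtain ⟨d, rfl⟩ := Nat.exists_eq_add_of_le hmn
    have hx' : x⁻¹ = gaussPi E π ^ d * (u : LaurentSeries E)⁻¹ := by
      rw [pow_add] at h
      have h2 : gaussPi E π ^ d * x = (u : LaurentSeries E) := by
        apply mul_left_cancel₀ (pow_ne_zero m hπ)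
        rw [← h]; ring
      rw [← h2, mul_inv]
      field_simp
    rw [hx']
    exact mul_mem (pow_mem gaussPi_mem_gaussRing d)
      (inv_mem_gaussRing r (IsFractionRing.injective A E) u hu)

/-- A nonzero element of the Gauss ring inside `Frac A((q))` is `π ^ d · u`, `u` a unit of the
Gauss ring. -/
theorem nodes_exists_pow_mul_of_mem [WfDvdMonoid A] (hB : GaussBase r π) {x : LaurentSeries E}
    (hx : IsGaussFrac A x) (hx0 : x ≠ 0) (hxg : x ∈ gaussRing (algebraMap A E) r) :
    ∃ (d : ℕ) (u : gaussRing (algebraMap A E) r),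
      gaussRed r (IsFractionRing.injective A E) u ≠ 0 ∧
        x = gaussPi E π ^ d * (u : LaurentSeries E) := by
  obtain ⟨m, n, u, hu, h⟩ := nodes_exists_pow_mul hB hx hx0
  have hπ := gaussPi_ne_zero (E := E) hB
  rcases le_total n m with hnm | hmn
  · obtain ⟨d, rfl⟩ := Nat.exists_eq_add_of_le hnm
    refine ⟨d, u, hu, ?_⟩
    apply mul_left_cancel₀ (pow_ne_zero n hπ)
    rw [h, pow_add]; ring
  · obtain ⟨d, rfl⟩ := Nat.exists_eq_add_of_le hmn
    rw [pow_add] at h
    have h2 : gaussPi E π ^ d * x = (u : LaurentSeries E) := by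
      apply mul_left_cancel₀ (pow_ne_zero m hπ)
      rw [← h]; ring
    rcases Nat.eq_zero_or_pos d with rfl | hd
    · exact ⟨0, u, hu, by rw [← h2]; simp⟩
    · exfalso
      apply hu
      have h3 : u = ⟨gaussPi E π, gaussPi_mem_gaussRing⟩ ^ d * ⟨x, hxg⟩ := Subtype.ext h2.symm
      rw [h3, map_mul, map_pow, gaussRed_gaussPi hB, zero_pow hd.ne', zero_mul]

end Norm

section VS

variable {A E k : Type*} [CommRing A] [IsDomain A] [WfDvdMonoid A] [Field E] [Algebra A E]
  [IsFractionRing A E] [Field k] {r : A →+* k} {π : A}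

/-- The Gauss valuation ring `F ∩ gaussRing` of an intermediate field `F ≤ Frac A((q))`. -/
def gaussVS (hB : GaussBase r π) (F : IntermediateField E (LaurentSeries E))
    (hF : F ≤ gaussFracField A) : ValuationSubring F where
  toSubring := (gaussRing (algebraMap A E) r).comap (algebraMap F (LaurentSeries E))
  mem_or_inv_mem' := by
    intro x
    rcases nodes_mem_or_inv_mem hB (hF x.2) with h | h
    · left; exact h
    · right
      show algebraMap F (LaurentSeries E) x⁻¹ ∈ gaussRing (algebraMap A E) r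
      rw [map_inv₀]; exact h

variable (hB : GaussBase r π) (F : IntermediateField E (LaurentSeries E))
  (hF : F ≤ gaussFracField A)

theorem mem_gaussVS {x : F} :
    x ∈ gaussVS hB F hF ↔ (x : LaurentSeries E) ∈ gaussRing (algebraMap A E) r := Iff.rfl

/-- The reduction map on the Gauss valuation ring of `F`. -/
def gaussVSRed : gaussVS hB F hF →+* LaurentSeries k :=
  (gaussRed r (IsFractionRing.injective A E)).comp
    (((algebraMap F (LaurentSeries E)).comp (gaussVS hB F hF).subtype).codRestrict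
      (gaussRing (algebraMap A E) r) (fun x => x.2))

theorem gaussVSRed_apply (x : gaussVS hB F hF) :
    gaussVSRed hB F hF x =
      gaussRed r (IsFractionRing.injective A E) ⟨((x : F) : LaurentSeries E), x.2⟩ := rfl

/-- Units of the Gauss valuation ring = elements with nonzero reduction. -/
theorem isUnit_gaussVS_iff (x : gaussVS hB F hF) :
    IsUnit x ↔ gaussVSRed hB F hF x ≠ 0 := by
  constructor
  · rintro ⟨u, rfl⟩
    intro h0
    have h1 : gaussVSRed hB F hF (u * u⁻¹ : (gaussVS hB F hF)ˣ) = 1 := by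
      rw [mul_inv_cancel, Units.val_one, map_one]
    rw [Units.val_mul, map_mul, h0, zero_mul] at h1
    exact zero_ne_one h1
  · intro hx
    have hinv : ((x : F)⁻¹ : F) ∈ gaussVS hB F hF := by
      rw [mem_gaussVS]
      have := inv_mem_gaussRing r (IsFractionRing.injective A E)
        ⟨((x : F) : LaurentSeries E), x.2⟩ hx
      simpa using this
    have hx0 : (x : F) ≠ 0 := by
      intro h0
      apply hx
      have : x = 0 := Subtype.ext h0
      rw [this, map_zero]
    exact ⟨⟨x, ⟨(x : F)⁻¹, hinv⟩, Subtype.ext (mul_inv_cancel₀ hx0),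
      Subtype.ext (inv_mul_cancel₀ hx0)⟩, rfl⟩

/-- Nonunits of the Gauss valuation ring = kernel of the reduction. -/
theorem mem_nonunits_gaussVS {x : F} :
    x ∈ (gaussVS hB F hF).nonunits ↔
      ∃ hx : (x : LaurentSeries E) ∈ gaussRing (algebraMap A E) r,
        gaussRed r (IsFractionRing.injective A E) ⟨(x : LaurentSeries E), hx⟩ = 0 := by
  rw [ValuationSubring.mem_nonunits_iff_exists_mem_maximalIdeal]
  constructor
  · rintro ⟨hx, hm⟩
    refine ⟨hx, ?_⟩
    by_contra h0
    exact (IsLocalRing.mem_maximalIdeal _).mp hm ((isUnit_gaussVS_iff hB F hF ⟨x, hx⟩).mpr h0)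
  · rintro ⟨hx, h0⟩
    refine ⟨hx, (IsLocalRing.mem_maximalIdeal _).mpr ?_⟩
    intro hu
    exact (isUnit_gaussVS_iff hB F hF ⟨x, hx⟩).mp hu h0

/-- The uniformizer `π` of the Gauss valuation ring. -/
def gaussVSPi : gaussVS hB F hF :=
  ⟨algebraMap E F (algebraMap A E π), by
    rw [mem_gaussVS]
    have : ((algebraMap E F (algebraMap A E π) : F) : LaurentSeries E) = gaussPi E π := by
      show algebraMap E (LaurentSeries E) (algebraMap A E π) = _
      rw [Fermat.Agent.S28.redDVR_algebraMap_eq_single, ← HahnSeries.C_apply]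
    rw [this]
    exact gaussPi_mem_gaussRing⟩

theorem coe_gaussVSPi :
    (((gaussVSPi hB F hF : gaussVS hB F hF) : F) : LaurentSeries E) = gaussPi E π := by
  show algebraMap E (LaurentSeries E) (algebraMap A E π) = _
  rw [Fermat.Agent.S28.redDVR_algebraMap_eq_single, ← HahnSeries.C_apply]

theorem gaussVSRed_gaussVSPi : gaussVSRed hB F hF (gaussVSPi hB F hF) = 0 := by
  rw [gaussVSRed_apply]
  have h := gaussRed_gaussPi (E := E) hB
  rw [← h]
  congr 1
  exact Subtype.ext (coe_gaussVSPi hB F hF)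

/-- The kernel of the reduction is generated by `π`. -/
theorem gaussVSRed_eq_zero_iff (x : gaussVS hB F hF) :
    gaussVSRed hB F hF x = 0 ↔ gaussVSPi hB F hF ∣ x := by
  constructor
  · intro h0
    rw [gaussVSRed_apply,
      gaussRed_eq_zero_iff_dvd r (IsFractionRing.injective A E) hB.map_pi hB.ker] at h0
    obtain ⟨y, hy⟩ := h0
    have hπ0 : (gaussVSPi hB F hF : F) ≠ 0 := by
      intro h0
      have h1 := coe_gaussVSPi hB F hF
      rw [h0] at h1
      exact gaussPi_ne_zero (E := E) hB h1.symm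
    have hyF : ((x : F) / (gaussVSPi hB F hF : F) : F) ∈ gaussVS hB F hF := by
      rw [mem_gaussVS]
      have : (((x : F) / (gaussVSPi hB F hF : F) : F) : LaurentSeries E) = y := by
        push_cast
        rw [coe_gaussVSPi, div_eq_iff (gaussPi_ne_zero hB), mul_comm]
        exact hy
      rw [this]
      exact y.2
    exact ⟨⟨_, hyF⟩, Subtype.ext (by
      show (x : F) = (gaussVSPi hB F hF : F) * ((x : F) / (gaussVSPi hB F hF : F))
      rw [mul_div_cancel₀ _ hπ0])⟩
  · rintro ⟨y, rfl⟩
    rw [map_mul, gaussVSRed_gaussVSPi, zero_mul]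

theorem gaussVSPi_ne_zero : gaussVSPi hB F hF ≠ 0 := by
  intro h0
  have h1 := coe_gaussVSPi hB F hF
  rw [h0] at h1
  exact gaussPi_ne_zero (E := E) hB h1.symm

theorem not_isUnit_gaussVSPi : ¬ IsUnit (gaussVSPi hB F hF) := by
  rw [isUnit_gaussVS_iff, not_not]
  exact gaussVSRed_gaussVSPi hB F hF

theorem irreducible_gaussVSPi : Irreducible (gaussVSPi hB F hF) := by
  rw [irreducible_iff]
  refine ⟨not_isUnit_gaussVSPi hB F hF, ?_⟩
  intro a b hab
  by_contra hcon
  push Not at hcon
  obtain ⟨ha, hb⟩ := hcon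
  rw [isUnit_gaussVS_iff, not_not, gaussVSRed_eq_zero_iff] at ha hb
  obtain ⟨a', rfl⟩ := ha
  obtain ⟨b', rfl⟩ := hb
  apply not_isUnit_gaussVSPi hB F hF
  have h1 : gaussVSPi hB F hF * 1 =
      gaussVSPi hB F hF * (gaussVSPi hB F hF * (a' * b')) := by
    rw [mul_one]
    conv_lhs => rw [hab]
    ring
  have h2 := mul_left_cancel₀ (gaussVSPi_ne_zero hB F hF) h1
  exact IsUnit.of_mul_eq_one _ h2.symm

/-- **The Gauss valuation ring of `F` is a discrete valuation ring** (uniformizer `π`). -/
theorem gaussVS_isDiscreteValuationRing : IsDiscreteValuationRing (gaussVS hB F hF) := by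
  apply IsDiscreteValuationRing.ofHasUnitMulPowIrreducibleFactorization
  refine ⟨gaussVSPi hB F hF, irreducible_gaussVSPi hB F hF, ?_⟩
  intro x hx
  have hx0 : ((x : F) : LaurentSeries E) ≠ 0 := by
    intro h0
    apply hx
    apply Subtype.ext
    apply Subtype.ext
    exact h0
  obtain ⟨d, u, hu, hxu⟩ := nodes_exists_pow_mul_of_mem hB (hF (x : F).2) hx0 x.2
  have hπ := gaussPi_ne_zero (E := E) hB
  have huF : (u : LaurentSeries E) ∈ F := by
    have : (u : LaurentSeries E) = ((x : F) : LaurentSeries E) / gaussPi E π ^ d := by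
      rw [eq_div_iff (pow_ne_zero d hπ), mul_comm]
      exact hxu.symm
    rw [this, ← coe_gaussVSPi hB F hF]
    exact div_mem (x : F).2 (pow_mem (gaussVSPi hB F hF : F).2 d)
  let u' : gaussVS hB F hF := ⟨⟨(u : LaurentSeries E), huF⟩, u.2⟩
  have hu' : IsUnit u' := by
    rw [isUnit_gaussVS_iff]
    exact hu
  refine ⟨d, ?_⟩
  obtain ⟨w, hw⟩ := hu'
  refine ⟨w, ?_⟩
  rw [hw]
  apply Subtype.ext
  apply Subtype.ext
  show ((gaussVSPi hB F hF : F) : LaurentSeries E) ^ d * (u : LaurentSeries E) = _
  rw [coe_gaussVSPi, ← hxu]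

end VS

end Fermat.Agent.UNIP
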