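import Fermat.Agent.UNIP.NodesInst
import Fermat.Agent.UNIP.NodesSwap
import Fermat.Agent.UNIP.NodesFrobInst
import Fermat.Agent.UNIP.NodesBridge

/-!
# UNIP / U5 (Nodes): the modular assembly on one chart

Setting of `NodesFrob` / `NodesInst` / `NodesSwap` / `NodesFrobInst`: `A` a domain with fraction
field `E`, `r : A →+* k` with `ker r = (π)`, `q ∤ M` a prime, `char k = q`,
`F_M = modularFunctionFieldFullC E M`, `F = modularFunctionFieldFullC E (M q)`,
`w = atkinLehner E ιC hq hqM`, a Frobenius lift `(ψA, ψE, θ)`, and a coordinate `t : F_M`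
(`t = j` or `t = 1 / j`) in the Gauss ring with `w t` in the Gauss ring and `coeffMap ψE t = t`.

* `C = integralClosure A[t] F_M`  (the chart of level `M`, good reduction),
* `B = integralClosure A[t] F`     (the chart of level `M q`),
* `φ = nodesPhi : C →+* B`, `ρ = nodesFrobChartRed`, `ρ₀ = nodesSwapRho₀ … w`, for any
  `w : F →ₐ[E] F` with `w x = atkinLehner E ιC hq hqM x` (any coercion of the Atkin–Lehner
  involution).

`nodes_modular_chart` : from
* the level-`M` inputs `IsDomain (C ⧸ π)`, `IsIntegrallyClosed (C ⧸ π)` and `reg`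
  (`RegInst` / `RegTransfer`),
* `hd : NodesHomData φ π ρ ρ₀ q` (`NodesInst`) and `swap` (`NodesSwap`),
at every maximal ideal `𝔫 ∋ π` of `B` either **(SS2)** `𝔫` is locally generated by `π` and one
more element, or **(SS3)** `𝔫` is a crossing point: `ker ρ, ker ρ₀ ⊆ 𝔫` and `𝔫` is locally
generated by `π, X, Y` with `ρ X = 0`, `ρ₀ Y = 0`, `π ∣ X Y`.
`nodes_modular_ker` : **(SS1)** `ρ x = 0 → ρ₀ x = 0 → π ∣ x`.
-/

set_option autoImplicit false
set_option linter.unusedSectionVars false
set_option linter.unusedVariables false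
set_option synthInstance.maxHeartbeats 400000
set_option maxHeartbeats 1000000

noncomputable section

namespace Fermat.Agent.UNIP

open ModularCurve Polynomial IntermediateField Fermat.Agent.INJ Fermat.Agent.AL

section Integral

variable {A E : Type*} [CommRing A] [Field E] [Algebra A E]
  (M q : ℕ) [NeZero q] [NeZero M] [NeZero (M * q)]
  [Algebra A (modularFunctionFieldFullC E M)]
  [IsScalarTower A E (modularFunctionFieldFullC E M)]
  [Algebra A (modularFunctionFieldFullC E (M * q))]
  [IsScalarTower A E (modularFunctionFieldFullC E (M * q))]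
  (t : modularFunctionFieldFullC E M)

/-- `φ (π) = π`. -/
theorem nodesModular_phi_algebraMap (a : A) :
    nodesPhi A M q t (algebraMap A
      (integralClosure (Algebra.adjoin A {t}) (modularFunctionFieldFullC E M)) a) =
    algebraMap A (integralClosure (Algebra.adjoin A {nodesInstIncl E M q t})
      (modularFunctionFieldFullC E (M * q))) a := by
  apply Subtype.ext
  rw [nodesPhi_coe]
  show nodesInstIncl E M q (algebraMap A (modularFunctionFieldFullC E M) a) =
    algebraMap A (modularFunctionFieldFullC E (M * q)) a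
  rw [IsScalarTower.algebraMap_apply A E (modularFunctionFieldFullC E M),
    IsScalarTower.algebraMap_apply A E (modularFunctionFieldFullC E (M * q)), AlgHom.commutes]

end Integral

section Integral2

variable {A E : Type*} [CommRing A] [IsDomain A] [WfDvdMonoid A] [Field E] [Algebra A E]
  [IsFractionRing A E]
  (M q : ℕ) [NeZero q] [NeZero M] [NeZero (M * q)]
  [Algebra A (modularFunctionFieldFullC E M)]
  [IsScalarTower A E (modularFunctionFieldFullC E M)]
  [Algebra A (modularFunctionFieldFullC E (M * q))]
  [IsScalarTower A E (modularFunctionFieldFullC E (M * q))]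
  (t : modularFunctionFieldFullC E M)

/-- The chart of level `M q` is integral over the chart of level `M`. -/
theorem nodesModular_phi_isIntegral : (nodesPhi A M q t).IsIntegral := by
  intro b
  obtain ⟨p, hp, hpb⟩ := b.2
  -- the coefficients of `p` come from `A[t]`
  let g : Algebra.adjoin A {nodesInstIncl E M q t} →+*
      integralClosure (Algebra.adjoin A {t}) (modularFunctionFieldFullC E M) :=
    (algebraMap (Algebra.adjoin A {t})
      (integralClosure (Algebra.adjoin A {t}) (modularFunctionFieldFullC E M))).comp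
      (nodesInstTheta (A := A) M q t)
  refine ⟨p.map g, hp.map g, ?_⟩
  rw [Polynomial.eval₂_map]
  have hcomp : ((integralClosure (Algebra.adjoin A {nodesInstIncl E M q t})
      (modularFunctionFieldFullC E (M * q))).val.toRingHom).comp
        ((nodesPhi A M q t).comp g) =
      algebraMap (Algebra.adjoin A {nodesInstIncl E M q t})
        (modularFunctionFieldFullC E (M * q)) := by
    refine RingHom.ext fun y => ?_
    exact nodesInstTheta_spec M q t y
  have key : (integralClosure (Algebra.adjoin A {nodesInstIncl E M q t})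
      (modularFunctionFieldFullC E (M * q))).val.toRingHom
        (Polynomial.eval₂ ((nodesPhi A M q t).comp g) b p) = 0 := by
    rw [Polynomial.hom_eval₂, hcomp]
    exact hpb
  exact Subtype.ext key

end Integral2

section Main

variable {A E k : Type*} [CommRing A] [IsDomain A] [WfDvdMonoid A] [Field E] [Algebra A E]
  [IsFractionRing A E] [Field k] (r : A →+* k) {π : A} (ιC : E →+* ℂ)
  {q M : ℕ} [NeZero q] [NeZero M] [NeZero (M * q)] (hq : q.Prime) (hqM : ¬ q ∣ M)
  (ψA : A →+* A) (ψE : E →+* E) (θ : k →+* k)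
  [Algebra A (modularFunctionFieldFullC E M)]
  [IsScalarTower A E (modularFunctionFieldFullC E M)]
  [Algebra A (modularFunctionFieldFullC E (M * q))]
  [IsScalarTower A E (modularFunctionFieldFullC E (M * q))]

/-- **(SS1)** on the chart: `ker ρ ∩ ker ρ₀ = π B`. -/
theorem nodes_modular_ker
    (hπ0 : π ≠ 0) (hπ : ¬ IsUnit π) (hr : ∀ a, r a = 0 → π ∣ a) (hrπ : r π = 0)
    (w : modularFunctionFieldFullC E (M * q) →ₐ[E] modularFunctionFieldFullC E (M * q))
    (t : modularFunctionFieldFullC E M)
    (ht : (t : LaurentSeries E) ∈ gaussRing (algebraMap A E) r)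
    (hwt : ((w (nodesInstIncl E M q t) :
      modularFunctionFieldFullC E (M * q)) : LaurentSeries E) ∈ gaussRing (algebraMap A E) r)
    (hd : NodesHomData (nodesPhi A M q t)
      (algebraMap A (integralClosure (Algebra.adjoin A {t}) (modularFunctionFieldFullC E M)) π)
      (nodesFrobChartRed r hπ0 hπ hr hrπ (nodesFrob_full_le (M * q)) (nodesInstIncl E M q t)
        (nodesInst_ht' r M q t ht))
      (nodesSwapRho₀ r hπ0 hπ hr hrπ (nodesFrob_full_le (M * q))
        w (nodesInstIncl E M q t) hwt) q)
    (x : integralClosure (Algebra.adjoin A {nodesInstIncl E M q t})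
      (modularFunctionFieldFullC E (M * q)))
    (hx : nodesFrobChartRed r hπ0 hπ hr hrπ (nodesFrob_full_le (M * q)) (nodesInstIncl E M q t)
        (nodesInst_ht' r M q t ht) x = 0)
    (hx₀ : nodesSwapRho₀ r hπ0 hπ hr hrπ (nodesFrob_full_le (M * q))
        w (nodesInstIncl E M q t) hwt x = 0) :
    algebraMap A (integralClosure (Algebra.adjoin A {nodesInstIncl E M q t})
      (modularFunctionFieldFullC E (M * q))) π ∣ x := by
  have h := hd.toRankData.dvd_of_ker hx hx₀
  rwa [nodesModular_phi_algebraMap] at h

/-- **The modular assembly on one chart**: (SS2) or (SS3) at every maximal ideal `𝔫 ∋ π` of the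
chart `B` of level `M q`. -/
theorem nodes_modular_chart [Fact q.Prime] [CharP k q]
    (hπ0 : π ≠ 0) (hπ : ¬ IsUnit π) (hr : ∀ a, r a = 0 → π ∣ a) (hrπ : r π = 0)
    (hψ : ∀ a, ψE (algebraMap A E a) = algebraMap A E (ψA a))
    (hθ : ∀ a, r (ψA a) = θ (r a)) (hθq : ∀ x, θ x ^ q = x)
    (w : modularFunctionFieldFullC E (M * q) →ₐ[E] modularFunctionFieldFullC E (M * q))
    (hw : ∀ x, w x = atkinLehner E ιC hq hqM x)
    (t : modularFunctionFieldFullC E M)
    (ht : (t : LaurentSeries E) ∈ gaussRing (algebraMap A E) r)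
    (hτ : coeffMap ψE (t : LaurentSeries E) = (t : LaurentSeries E))
    (hwt : ((w (nodesInstIncl E M q t) :
      modularFunctionFieldFullC E (M * q)) : LaurentSeries E) ∈ gaussRing (algebraMap A E) r)
    -- level `M`
    [IsDomain (integralClosure (Algebra.adjoin A {t}) (modularFunctionFieldFullC E M) ⧸
      Ideal.span {algebraMap A
        (integralClosure (Algebra.adjoin A {t}) (modularFunctionFieldFullC E M)) π})]
    [IsIntegrallyClosed
      (integralClosure (Algebra.adjoin A {t}) (modularFunctionFieldFullC E M) ⧸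
      Ideal.span {algebraMap A
        (integralClosure (Algebra.adjoin A {t}) (modularFunctionFieldFullC E M)) π})]
    (reg : ∀ 𝔪 : Ideal (integralClosure (Algebra.adjoin A {t}) (modularFunctionFieldFullC E M)),
      𝔪.IsMaximal →
      algebraMap A (integralClosure (Algebra.adjoin A {t}) (modularFunctionFieldFullC E M)) π
        ∈ 𝔪 →
      ∃ s ∈ 𝔪, NodesLocGen 𝔪 {algebraMap A
        (integralClosure (Algebra.adjoin A {t}) (modularFunctionFieldFullC E M)) π, s})
    -- level `M q`
    (hd : NodesHomData (nodesPhi A M q t)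
      (algebraMap A (integralClosure (Algebra.adjoin A {t}) (modularFunctionFieldFullC E M)) π)
      (nodesFrobChartRed r hπ0 hπ hr hrπ (nodesFrob_full_le (M * q)) (nodesInstIncl E M q t)
        (nodesInst_ht' r M q t ht))
      (nodesSwapRho₀ r hπ0 hπ hr hrπ (nodesFrob_full_le (M * q))
        w (nodesInstIncl E M q t) hwt) q)
    (swap : ∀ b : integralClosure (Algebra.adjoin A {nodesInstIncl E M q t})
        (modularFunctionFieldFullC E (M * q)),
      ∃ b' : integralClosure (Algebra.adjoin A {nodesInstIncl E M q t})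
        (modularFunctionFieldFullC E (M * q)),
      nodesFrobChartRed r hπ0 hπ hr hrπ (nodesFrob_full_le (M * q)) (nodesInstIncl E M q t)
          (nodesInst_ht' r M q t ht) b' =
        nodesSwapRho₀ r hπ0 hπ hr hrπ (nodesFrob_full_le (M * q))
          w (nodesInstIncl E M q t) hwt b ∧
      nodesSwapRho₀ r hπ0 hπ hr hrπ (nodesFrob_full_le (M * q))
          w (nodesInstIncl E M q t) hwt b' =
        nodesFrobChartRed r hπ0 hπ hr hrπ (nodesFrob_full_le (M * q)) (nodesInstIncl E M q t)
          (nodesInst_ht' r M q t ht) b)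
    (𝔫 : Ideal (integralClosure (Algebra.adjoin A {nodesInstIncl E M q t})
      (modularFunctionFieldFullC E (M * q))))
    (h𝔫 : 𝔫.IsMaximal)
    (hπ𝔫 : algebraMap A (integralClosure (Algebra.adjoin A {nodesInstIncl E M q t})
      (modularFunctionFieldFullC E (M * q))) π ∈ 𝔫) :
    (∃ s ∈ 𝔫, NodesLocGen 𝔫 {algebraMap A (integralClosure
        (Algebra.adjoin A {nodesInstIncl E M q t}) (modularFunctionFieldFullC E (M * q))) π, s}) ∨
    ((∀ x, nodesFrobChartRed r hπ0 hπ hr hrπ (nodesFrob_full_le (M * q)) (nodesInstIncl E M q t)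
          (nodesInst_ht' r M q t ht) x = 0 → x ∈ 𝔫) ∧
      (∀ x, nodesSwapRho₀ r hπ0 hπ hr hrπ (nodesFrob_full_le (M * q))
          w (nodesInstIncl E M q t) hwt x = 0 → x ∈ 𝔫) ∧
      ∃ X Y : integralClosure (Algebra.adjoin A {nodesInstIncl E M q t})
          (modularFunctionFieldFullC E (M * q)),
        nodesFrobChartRed r hπ0 hπ hr hrπ (nodesFrob_full_le (M * q)) (nodesInstIncl E M q t)
          (nodesInst_ht' r M q t ht) X = 0 ∧
        nodesSwapRho₀ r hπ0 hπ hr hrπ (nodesFrob_full_le (M * q))
          w (nodesInstIncl E M q t) hwt Y = 0 ∧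
        NodesSmoothAt (nodesSwapRho₀ r hπ0 hπ hr hrπ (nodesFrob_full_le (M * q))
          w (nodesInstIncl E M q t) hwt) 𝔫 X ∧
        NodesSmoothAt (nodesFrobChartRed r hπ0 hπ hr hrπ (nodesFrob_full_le (M * q))
          (nodesInstIncl E M q t) (nodesInst_ht' r M q t ht)) 𝔫 Y ∧
        algebraMap A (integralClosure (Algebra.adjoin A {nodesInstIncl E M q t})
          (modularFunctionFieldFullC E (M * q))) π ∣ X * Y ∧
        NodesLocGen 𝔫 {algebraMap A (integralClosure
          (Algebra.adjoin A {nodesInstIncl E M q t}) (modularFunctionFieldFullC E (M * q))) π,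
          X, Y}) := by
  have hφint := nodesModular_phi_isIntegral (A := A) M q t
  have hρπ := nodesInst_rho_phi_pi r hπ0 hπ hr hrπ M q t ht
  have hφπ := nodesModular_phi_algebraMap (A := A) M q t π
  have h := nodes_chart_hom (φ := nodesPhi A M q t)
    (π' := algebraMap A (integralClosure (Algebra.adjoin A {t})
      (modularFunctionFieldFullC E M)) π)
    (ρ := nodesFrobChartRed r hπ0 hπ hr hrπ (nodesFrob_full_le (M * q)) (nodesInstIncl E M q t)
        (nodesInst_ht' r M q t ht))
    (ρ₀ := nodesSwapRho₀ r hπ0 hπ hr hrπ (nodesFrob_full_le (M * q))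
        w (nodesInstIncl E M q t) hwt)
    hq.two_le hρπ hd
    (nodes_icl_of_isIntegrallyClosed _ _ hρπ hd.ker_sub)
    (nodes_hint_of_isIntegral _ hφint)
    hφint reg swap
    (fun c => nodesFrobInst_frob r ιC hq hqM ψA ψE θ hπ0 hπ hr hrπ hψ hθ hθq t ht hτ
      (nodesInstIncl E M q t) (nodesPhi A M q t) (fun c => nodesPhi_coe_coe M q t c)
      _ _
      (fun b hb => nodesFrobChartRed_apply r hπ0 hπ hr hrπ (nodesFrob_full_le (M * q))
        (nodesInstIncl E M q t) (nodesInst_ht' r M q t ht) b hb)
      (fun b hb => by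
        have hb' : ((w (b : modularFunctionFieldFullC E (M * q)) :
            modularFunctionFieldFullC E (M * q)) : LaurentSeries E) ∈
            gaussRing (algebraMap A E) r := by rw [hw]; exact hb
        rw [nodesSwapRho₀_apply r hπ0 hπ hr hrπ (nodesFrob_full_le (M * q))
          w (nodesInstIncl E M q t) hwt b hb']
        exact nodesFrobInst_gaussRed_congr r (by rw [hw]) hb' hb)
      c)
    𝔫 h𝔫 (by rw [hφπ]; exact hπ𝔫)
  rw [hφπ] at h
  exact h

end Main

end Fermat.Agent.UNIP
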