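/-
UNIP (S34/S35), abstract local piece "Lemma N" (helper95).

`R` = local ring of a model at a closed point `𝔫` of the special fibre (an `A`-algebra, `A` a DVR
or any base ring), `X Y G : R`, `q : A` with `X * Y = q * G`, and `R = A[X, Y] + 𝔫 ^ N` for all `N`
(`unip_dense_of_span`: true as soon as `𝔫 = (π, X, Y)` and `A → R ⧸ 𝔫` is onto).
`S` = a discrete valuation ring receiving the points of the tube of `𝔫`:
`A`-algebra homomorphisms `ev : R → S` with `ev 𝔫 ⊆ 𝔪_S`.

* `unip_node_eval_eq`   : two points of the tube with the same `X`-coordinate `a`, where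
  `q = a * t`, `t ∈ 𝔪_S`, `a ≠ 0` (i.e. `v(a) < v(q)`), are EQUAL.
* `unip_node_deriv_eq_zero` : at such a point a tangent vector (an `ev`-derivation `R → S`) killing
  `X` is zero, i.e. `X - a` has a simple zero.
* `unip_disc_eval_eq`, `unip_disc_deriv_eq_zero` : the same at a smooth point, `𝔫 = (π, s)`.
No thickness, no regularity, no completion.
-/
import Mathlib

set_option autoImplicit false

namespace Fermat.Agent.UNIP

open IsLocalRing

section Dense

variable {A R : Type*} [CommRing A] [CommRing R] [Algebra A R]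

/-- `R = A[T] + 𝔫 ^ N` for every `N`, if `𝔫` is generated by `π ∈ A` and the finite set `T`, and
`A → R ⧸ 𝔫` is onto. -/
theorem unip_dense_of_span (𝔫 : Ideal R) (π : A) (T : Set R)
    (hn : 𝔫 = Ideal.span (insert (algebraMap A R π) T))
    (hres : ∀ b : R, ∃ α : A, b - algebraMap A R α ∈ 𝔫) :
    ∀ (N : ℕ) (b : R), ∃ c ∈ Algebra.adjoin A T, b - c ∈ 𝔫 ^ N := by
  intro N
  induction N with
  | zero =>
    intro b
    exact ⟨0, Subalgebra.zero_mem _, by simp⟩
  | succ N ih =>
    -- the set of `b` that can be approximated is an additive subgroup containing `A` and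
    -- `g * b'` for generators `g` and approximable (one level lower) `b'`
    have key : ∀ x ∈ 𝔫, ∃ c ∈ Algebra.adjoin A T, x - c ∈ 𝔫 ^ (N + 1) := by
      intro x hx
      rw [hn] at hx
      induction hx using Submodule.span_induction with
      | mem g hg =>
        rcases hg with rfl | hg
        · exact ⟨algebraMap A R π, Subalgebra.algebraMap_mem _ _, by simp⟩
        · exact ⟨g, Algebra.subset_adjoin hg, by simp⟩
      | zero => exact ⟨0, Subalgebra.zero_mem _, by simp⟩
      | add x y _ _ hx hy =>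
        obtain ⟨c, hc, hxc⟩ := hx
        obtain ⟨d, hd, hyd⟩ := hy
        refine ⟨c + d, Subalgebra.add_mem _ hc hd, ?_⟩
        have : x + y - (c + d) = (x - c) + (y - d) := by ring
        rw [this]
        exact Ideal.add_mem _ hxc hyd
      | smul r x hxmem hx =>
        obtain ⟨c, hc, hxc⟩ := hx
        obtain ⟨d, hd, hrd⟩ := ih r
        refine ⟨d * c, Subalgebra.mul_mem _ hd hc, ?_⟩
        have hxn : x ∈ 𝔫 := by rw [hn]; exact hxmem
        have hcn : c ∈ 𝔫 := by
          have h1 : x - c ∈ 𝔫 := Ideal.pow_le_self (Nat.succ_ne_zero N) hxc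
          have : c = x - (x - c) := by ring
          rw [this]
          exact Ideal.sub_mem _ hxn h1
        have : r • x - d * c = r * (x - c) + (r - d) * c := by
          simp only [smul_eq_mul]; ring
        rw [this]
        refine Ideal.add_mem _ (Ideal.mul_mem_left _ _ hxc) ?_
        rw [pow_succ]
        exact Ideal.mul_mem_mul hrd hcn
    intro b
    obtain ⟨α, hα⟩ := hres b
    obtain ⟨c, hc, hxc⟩ := key _ hα
    refine ⟨algebraMap A R α + c, Subalgebra.add_mem _ (Subalgebra.algebraMap_mem _ _) hc, ?_⟩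
    have : b - (algebraMap A R α + c) = b - algebraMap A R α - c := by ring
    rw [this]
    exact hxc

end Dense

section DVR

variable {S : Type*} [CommRing S] [IsDomain S] [IsDiscreteValuationRing S]

/-- principal ideals of a DVR are closed for the `𝔪`-adic topology -/
theorem unip_mem_span_of_forall (d x : S)
    (h : ∀ N : ℕ, ∃ y ∈ Ideal.span ({d} : Set S), x - y ∈ maximalIdeal S ^ N) :
    x ∈ Ideal.span ({d} : Set S) := by
  by_cases hd : d = 0
  · subst hd
    have hx : x ∈ (⨅ N : ℕ, maximalIdeal S ^ N : Ideal S) := by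
      rw [Ideal.mem_iInf]
      intro N
      obtain ⟨y, hy, hxy⟩ := h N
      have hy0 : y = 0 := by simpa using hy
      simpa [hy0] using hxy
    rw [Ideal.iInf_pow_eq_bot_of_isLocalRing (maximalIdeal S) Ideal.IsPrime.ne_top'] at hx
    have : x = 0 := by simpa using hx
    rw [this]
    exact Ideal.zero_mem _
  · obtain ⟨ϖ, hϖ⟩ := IsDiscreteValuationRing.exists_irreducible S
    obtain ⟨k, hk⟩ := IsDiscreteValuationRing.associated_pow_irreducible hd hϖ
    have hm : maximalIdeal S ^ k = Ideal.span ({d} : Set S) := by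
      rw [hϖ.maximalIdeal_eq, Ideal.span_singleton_pow]
      exact (Ideal.span_singleton_eq_span_singleton.mpr hk).symm
    obtain ⟨y, hy, hxy⟩ := h k
    rw [hm] at hxy
    have : x = (x - y) + y := by ring
    rw [this]
    exact Ideal.add_mem _ hxy hy

end DVR

section Node

variable {A R S : Type*} [CommRing A] [CommRing R] [Algebra A R]
  [CommRing S] [IsDomain S] [IsDiscreteValuationRing S] [Algebra A S]

omit [IsDomain S] [IsDiscreteValuationRing S] in
/-- a point of the tube maps `𝔫 ^ N` into `𝔪 ^ N` -/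
theorem unip_map_pow_mem [IsLocalRing S] (𝔫 : Ideal R) (ev : R →ₐ[A] S)
    (h : ∀ b ∈ 𝔫, ev b ∈ maximalIdeal S) (N : ℕ) {x : R} (hx : x ∈ 𝔫 ^ N) :
    ev x ∈ maximalIdeal S ^ N := by
  have h1 : (𝔫 ^ N).map (ev : R →+* S) ≤ maximalIdeal S ^ N := by
    rw [Ideal.map_pow]
    exact Ideal.pow_right_mono
      (Ideal.map_le_iff_le_comap.mpr fun b hb => Ideal.mem_comap.mpr (h b hb)) N
  exact h1 (Ideal.mem_map_of_mem _ hx)

omit [IsDomain S] [IsDiscreteValuationRing S] in
/-- difference of two evaluations on `A[T]`, when the two points agree on `T ∖ {Y}` -/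
theorem unip_eval_sub_mem (evP evQ : R →ₐ[A] S) (T : Set R) (Y : R)
    (hT : ∀ x ∈ T, x = Y ∨ evP x = evQ x) {c : R} (hc : c ∈ Algebra.adjoin A T) :
    evP c - evQ c ∈ Ideal.span ({evP Y - evQ Y} : Set S) := by
  induction hc using Algebra.adjoin_induction with
  | mem x hx =>
    rcases hT x hx with rfl | h
    · exact Ideal.subset_span rfl
    · rw [h, sub_self]; exact Ideal.zero_mem _
  | algebraMap r =>
    rw [AlgHom.commutes, AlgHom.commutes, sub_self]; exact Ideal.zero_mem _
  | add x y _ _ hx hy =>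
    have : evP (x + y) - evQ (x + y) = (evP x - evQ x) + (evP y - evQ y) := by
      rw [map_add, map_add]; ring
    rw [this]; exact Ideal.add_mem _ hx hy
  | mul x y _ _ hx hy =>
    have : evP (x * y) - evQ (x * y) = evP x * (evP y - evQ y) + (evP x - evQ x) * evQ y := by
      rw [map_mul, map_mul]; ring
    rw [this]
    exact Ideal.add_mem _ (Ideal.mul_mem_left _ _ hy) (Ideal.mul_mem_right _ _ hx)

/-- two points of the tube of `𝔫` which agree on `T ∖ {Y}` differ, on every `b ∈ R`, by a multiple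
of the difference of their `Y`-coordinates -/
theorem unip_eval_sub_mem_of_dense (𝔫 : Ideal R) (T : Set R) (Y : R)
    (hd : ∀ (N : ℕ) (b : R), ∃ c ∈ Algebra.adjoin A T, b - c ∈ 𝔫 ^ N)
    (evP evQ : R →ₐ[A] S)
    (hP : ∀ b ∈ 𝔫, evP b ∈ maximalIdeal S) (hQ : ∀ b ∈ 𝔫, evQ b ∈ maximalIdeal S)
    (hT : ∀ x ∈ T, x = Y ∨ evP x = evQ x) (b : R) :
    evP b - evQ b ∈ Ideal.span ({evP Y - evQ Y} : Set S) := by
  apply unip_mem_span_of_forall
  intro N
  obtain ⟨c, hc, hbc⟩ := hd N b
  refine ⟨evP c - evQ c, unip_eval_sub_mem evP evQ T Y hT hc, ?_⟩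
  have hPN : evP (b - c) ∈ maximalIdeal S ^ N := unip_map_pow_mem 𝔫 evP hP N hbc
  have hQN : evQ (b - c) ∈ maximalIdeal S ^ N := unip_map_pow_mem 𝔫 evQ hQ N hbc
  have : evP b - evQ b - (evP c - evQ c) = evP (b - c) - evQ (b - c) := by
    rw [map_sub, map_sub]; ring
  rw [this]
  exact Ideal.sub_mem _ hPN hQN

/-- **Lemma N (points).** `X * Y = q * G`, `R = A[X, Y] + 𝔫 ^ N`.  Two points of the tube of `𝔫`
with the same `X`-coordinate `a ≠ 0` such that `q = a * t`, `t ∈ 𝔪_S`, are equal. -/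
theorem unip_node_eval_eq (𝔫 : Ideal R) (X Y G : R) (q : A)
    (hd : ∀ (N : ℕ) (b : R), ∃ c ∈ Algebra.adjoin A ({X, Y} : Set R), b - c ∈ 𝔫 ^ N)
    (hXY : X * Y = algebraMap A R q * G)
    (evP evQ : R →ₐ[A] S)
    (hP : ∀ b ∈ 𝔫, evP b ∈ maximalIdeal S) (hQ : ∀ b ∈ 𝔫, evQ b ∈ maximalIdeal S)
    (hX : evP X = evQ X) (ha : evP X ≠ 0)
    (t : S) (ht : t ∈ maximalIdeal S) (hq : algebraMap A S q = evP X * t) :
    evP = evQ := by
  have hT : ∀ x ∈ ({X, Y} : Set R), x = Y ∨ evP x = evQ x := by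
    intro x hx
    rcases hx with rfl | rfl
    · exact Or.inr hX
    · exact Or.inl rfl
  have key := unip_eval_sub_mem_of_dense 𝔫 {X, Y} Y hd evP evQ hP hQ hT
  -- `a * ΔY = q * ΔG`
  have e1 : evP X * evP Y = algebraMap A S q * evP G := by
    rw [← map_mul, hXY, map_mul, AlgHom.commutes]
  have e2 : evP X * evQ Y = algebraMap A S q * evQ G := by
    rw [hX, ← map_mul, hXY, map_mul, AlgHom.commutes]
  obtain ⟨r, hr⟩ := Ideal.mem_span_singleton'.mp (key G)
  have e3 : evP X * ((1 - t * r) * (evP Y - evQ Y)) = 0 := by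
    have : evP X * (evP Y - evQ Y) = evP X * t * (evP G - evQ G) := by
      rw [mul_sub, e1, e2, hq]; ring
    rw [← hr] at this
    linear_combination this
  have hu : IsUnit (1 - t * r) := by
    have : t * r ∈ maximalIdeal S := Ideal.mul_mem_right _ _ ht
    by_contra hnu
    have h1 : (1 - t * r) ∈ maximalIdeal S := (mem_maximalIdeal _).mpr hnu
    have : (1 : S) ∈ maximalIdeal S := by
      have := Ideal.add_mem _ h1 this
      simp at this
    exact (Ideal.ne_top_iff_one _).mp Ideal.IsPrime.ne_top' this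
  have hΔ : evP Y - evQ Y = 0 := by
    rcases mul_eq_zero.mp e3 with h | h
    · exact absurd h ha
    · rcases mul_eq_zero.mp h with h | h
      · exact absurd h hu.ne_zero
      · exact h
  apply AlgHom.ext
  intro b
  have := key b
  rw [hΔ] at this
  have h0 : evP b - evQ b = 0 := by simpa using this
  exact sub_eq_zero.mp h0

/-- **Lemma N, smooth point.** `R = A[s] + 𝔫 ^ N`: a point of the tube of `𝔫` is determined by
its `s`-coordinate. -/
theorem unip_disc_eval_eq (𝔫 : Ideal R) (s : R)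
    (hd : ∀ (N : ℕ) (b : R), ∃ c ∈ Algebra.adjoin A ({s} : Set R), b - c ∈ 𝔫 ^ N)
    (evP evQ : R →ₐ[A] S)
    (hP : ∀ b ∈ 𝔫, evP b ∈ maximalIdeal S) (hQ : ∀ b ∈ 𝔫, evQ b ∈ maximalIdeal S)
    (hs : evP s = evQ s) : evP = evQ := by
  have hT : ∀ x ∈ ({s} : Set R), x = s ∨ evP x = evQ x := by
    intro x hx
    exact Or.inl hx
  have key := unip_eval_sub_mem_of_dense 𝔫 {s} s hd evP evQ hP hQ hT
  apply AlgHom.ext
  intro b
  have := key b
  rw [hs, sub_self] at this
  have h0 : evP b - evQ b = 0 := by simpa using this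
  exact sub_eq_zero.mp h0

omit [IsDomain S] [IsDiscreteValuationRing S] in
/-- general form: if two points agree on the generators `T` modulo an ideal `J`, they agree
modulo `J` on `A[T]` -/
theorem unip_eval_sub_mem_ideal (evP evQ : R →ₐ[A] S) (T : Set R) (J : Ideal S)
    (hT : ∀ x ∈ T, evP x - evQ x ∈ J) {c : R} (hc : c ∈ Algebra.adjoin A T) :
    evP c - evQ c ∈ J := by
  induction hc using Algebra.adjoin_induction with
  | mem x hx => exact hT x hx
  | algebraMap r =>
    rw [AlgHom.commutes, AlgHom.commutes, sub_self]; exact Ideal.zero_mem _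
  | add x y _ _ hx hy =>
    have : evP (x + y) - evQ (x + y) = (evP x - evQ x) + (evP y - evQ y) := by
      rw [map_add, map_add]; ring
    rw [this]; exact Ideal.add_mem _ hx hy
  | mul x y _ _ hx hy =>
    have : evP (x * y) - evQ (x * y) = evP x * (evP y - evQ y) + (evP x - evQ x) * evQ y := by
      rw [map_mul, map_mul]; ring
    rw [this]
    exact Ideal.add_mem _ (Ideal.mul_mem_left _ _ hy) (Ideal.mul_mem_right _ _ hx)

/-- general form with density: two points of the tube whose coordinates (`T`) agree modulo `d`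
agree modulo `d` on all of `R`.  (Used for the uniqueness of the "central" point of a thick
node: apply it with `d = qⁿ` for all `n`.) -/
theorem unip_eval_sub_mem_span_of_dense (𝔫 : Ideal R) (T : Set R) (d : S)
    (hd : ∀ (N : ℕ) (b : R), ∃ c ∈ Algebra.adjoin A T, b - c ∈ 𝔫 ^ N)
    (evP evQ : R →ₐ[A] S)
    (hP : ∀ b ∈ 𝔫, evP b ∈ maximalIdeal S) (hQ : ∀ b ∈ 𝔫, evQ b ∈ maximalIdeal S)
    (hT : ∀ x ∈ T, evP x - evQ x ∈ Ideal.span ({d} : Set S)) (b : R) :
    evP b - evQ b ∈ Ideal.span ({d} : Set S) := by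
  apply unip_mem_span_of_forall
  intro N
  obtain ⟨c, hc, hbc⟩ := hd N b
  refine ⟨evP c - evQ c, unip_eval_sub_mem_ideal evP evQ T _ hT hc, ?_⟩
  have hPN : evP (b - c) ∈ maximalIdeal S ^ N := unip_map_pow_mem 𝔫 evP hP N hbc
  have hQN : evQ (b - c) ∈ maximalIdeal S ^ N := unip_map_pow_mem 𝔫 evQ hQ N hbc
  have : evP b - evQ b - (evP c - evQ c) = evP (b - c) - evQ (b - c) := by
    rw [map_sub, map_sub]; ring
  rw [this]
  exact Ideal.sub_mem _ hPN hQN

omit [IsDomain S] [IsDiscreteValuationRing S] [Algebra A S] in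
/-- one Morse step at a thick node: if `X * Y = c * G` and `G = a₀ * π + a₁ * X + a₂ * Y`, then
`(X - c a₂) (Y - c a₁) = (c π) (a₀ + (c/π) a₁ a₂)`; stated without division. -/
theorem unip_node_step (X Y G a₀ a₁ a₂ : R) (c π e : A) (hc : c = π * e)
    (hXY : X * Y = algebraMap A R c * G)
    (hG : G = a₀ * algebraMap A R π + a₁ * X + a₂ * Y) :
    (X - algebraMap A R c * a₂) * (Y - algebraMap A R c * a₁)
      = algebraMap A R (c * π) * (a₀ + algebraMap A R e * a₁ * a₂) := by
  have h1 : algebraMap A R c = algebraMap A R π * algebraMap A R e := by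
    rw [hc, map_mul]
  have h2 : algebraMap A R (c * π) = algebraMap A R c * algebraMap A R π := by
    rw [map_mul]
  rw [h2]
  have h3 : X * Y = algebraMap A R c * (a₀ * algebraMap A R π + a₁ * X + a₂ * Y) := by
    rw [hXY, hG]
  have h4 : algebraMap A R c * algebraMap A R c * a₁ * a₂ =
      algebraMap A R c * algebraMap A R π * (algebraMap A R e * a₁ * a₂) := by
    rw [h1]; ring
  linear_combination h3 + h4

/-- a tangent vector at the point `ev`: an additive map with the Leibniz rule, killing `A` -/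
structure UnipDeriv (ev : R →ₐ[A] S) where
  /-- the underlying additive map -/
  toFun : R →+ S
  leibniz : ∀ b c : R, toFun (b * c) = ev b * toFun c + ev c * toFun b
  map_algebraMap : ∀ a : A, toFun (algebraMap A R a) = 0

omit [IsDomain S] [IsDiscreteValuationRing S] in
theorem unip_deriv_pow_mem [IsLocalRing S] (𝔫 : Ideal R) (ev : R →ₐ[A] S) (D : UnipDeriv ev)
    (h : ∀ b ∈ 𝔫, ev b ∈ maximalIdeal S) :
    ∀ (N : ℕ) {x : R}, x ∈ 𝔫 ^ (N + 1) → D.toFun x ∈ maximalIdeal S ^ N := by
  intro N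
  induction N with
  | zero => intro x _; simp
  | succ N ih =>
    intro x hx
    rw [pow_succ] at hx
    refine Submodule.mul_induction_on hx ?_ ?_
    · intro m hm n hn
      rw [D.leibniz]
      refine Ideal.add_mem _ ?_ ?_
      · exact Ideal.mul_mem_right _ _ (unip_map_pow_mem 𝔫 ev h (N + 1) hm)
      · rw [pow_succ']
        exact Ideal.mul_mem_mul (h n hn) (ih hm)
    · intro x y hx hy
      rw [map_add]; exact Ideal.add_mem _ hx hy

omit [IsDomain S] [IsDiscreteValuationRing S] in
theorem unip_deriv_mem_span (ev : R →ₐ[A] S) (D : UnipDeriv ev) (T : Set R) (Y : R)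
    (hT : ∀ x ∈ T, x = Y ∨ D.toFun x = 0) {c : R} (hc : c ∈ Algebra.adjoin A T) :
    D.toFun c ∈ Ideal.span ({D.toFun Y} : Set S) := by
  induction hc using Algebra.adjoin_induction with
  | mem x hx =>
    rcases hT x hx with rfl | h
    · exact Ideal.subset_span rfl
    · rw [h]; exact Ideal.zero_mem _
  | algebraMap r => rw [D.map_algebraMap]; exact Ideal.zero_mem _
  | add x y _ _ hx hy => rw [map_add]; exact Ideal.add_mem _ hx hy
  | mul x y _ _ hx hy =>
    rw [D.leibniz]
    exact Ideal.add_mem _ (Ideal.mul_mem_left _ _ hy) (Ideal.mul_mem_left _ _ hx)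

theorem unip_deriv_mem_span_of_dense (𝔫 : Ideal R) (T : Set R) (Y : R)
    (hd : ∀ (N : ℕ) (b : R), ∃ c ∈ Algebra.adjoin A T, b - c ∈ 𝔫 ^ N)
    (ev : R →ₐ[A] S) (D : UnipDeriv ev) (h : ∀ b ∈ 𝔫, ev b ∈ maximalIdeal S)
    (hT : ∀ x ∈ T, x = Y ∨ D.toFun x = 0) (b : R) :
    D.toFun b ∈ Ideal.span ({D.toFun Y} : Set S) := by
  apply unip_mem_span_of_forall
  intro N
  obtain ⟨c, hc, hbc⟩ := hd (N + 1) b
  refine ⟨D.toFun c, unip_deriv_mem_span ev D T Y hT hc, ?_⟩
  have : D.toFun b - D.toFun c = D.toFun (b - c) := by rw [map_sub]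
  rw [this]
  exact unip_deriv_pow_mem 𝔫 ev D h N hbc

/-- **Lemma N (tangent vectors).** At a point of the tube with `q = a * t`, `a = X(P) ≠ 0`,
`t ∈ 𝔪_S`, a tangent vector killing `X` is zero: `X - a` has a simple zero at `P`. -/
theorem unip_node_deriv_eq_zero (𝔫 : Ideal R) (X Y G : R) (q : A)
    (hd : ∀ (N : ℕ) (b : R), ∃ c ∈ Algebra.adjoin A ({X, Y} : Set R), b - c ∈ 𝔫 ^ N)
    (hXY : X * Y = algebraMap A R q * G)
    (ev : R →ₐ[A] S) (D : UnipDeriv ev) (h : ∀ b ∈ 𝔫, ev b ∈ maximalIdeal S)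
    (hX : D.toFun X = 0) (ha : ev X ≠ 0)
    (t : S) (ht : t ∈ maximalIdeal S) (hq : algebraMap A S q = ev X * t) (b : R) :
    D.toFun b = 0 := by
  have hT : ∀ x ∈ ({X, Y} : Set R), x = Y ∨ D.toFun x = 0 := by
    intro x hx
    rcases hx with rfl | rfl
    · exact Or.inr hX
    · exact Or.inl rfl
  have key := unip_deriv_mem_span_of_dense 𝔫 {X, Y} Y hd ev D h hT
  obtain ⟨r, hr⟩ := Ideal.mem_span_singleton'.mp (key G)
  have e1 : ev X * D.toFun Y = algebraMap A S q * D.toFun G := by
    have h1 : D.toFun (X * Y) = ev X * D.toFun Y := by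
      rw [D.leibniz, hX, mul_zero, add_zero]
    have h2 : D.toFun (algebraMap A R q * G) = algebraMap A S q * D.toFun G := by
      rw [D.leibniz, D.map_algebraMap, mul_zero, add_zero, AlgHom.commutes]
    rw [← h1, hXY, h2]
  have e3 : ev X * ((1 - t * r) * D.toFun Y) = 0 := by
    rw [hq, ← hr] at e1
    linear_combination e1
  have hu : IsUnit (1 - t * r) := by
    have : t * r ∈ maximalIdeal S := Ideal.mul_mem_right _ _ ht
    by_contra hnu
    have h1 : (1 - t * r) ∈ maximalIdeal S := (mem_maximalIdeal _).mpr hnu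
    have : (1 : S) ∈ maximalIdeal S := by
      have := Ideal.add_mem _ h1 this
      simp at this
    exact (Ideal.ne_top_iff_one _).mp Ideal.IsPrime.ne_top' this
  have hΔ : D.toFun Y = 0 := by
    rcases mul_eq_zero.mp e3 with h | h
    · exact absurd h ha
    · rcases mul_eq_zero.mp h with h | h
      · exact absurd h hu.ne_zero
      · exact h
  have := key b
  rw [hΔ] at this
  simpa using this

/-- **Lemma N (tangent vectors), smooth point.** A tangent vector killing `s` is zero. -/
theorem unip_disc_deriv_eq_zero (𝔫 : Ideal R) (s : R)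
    (hd : ∀ (N : ℕ) (b : R), ∃ c ∈ Algebra.adjoin A ({s} : Set R), b - c ∈ 𝔫 ^ N)
    (ev : R →ₐ[A] S) (D : UnipDeriv ev) (h : ∀ b ∈ 𝔫, ev b ∈ maximalIdeal S)
    (hs : D.toFun s = 0) (b : R) : D.toFun b = 0 := by
  have hT : ∀ x ∈ ({s} : Set R), x = s ∨ D.toFun x = 0 := by
    intro x hx
    exact Or.inl hx
  have := unip_deriv_mem_span_of_dense 𝔫 {s} s hd ev D h hT b
  rw [hs] at this
  simpa using this

end Node

end Fermat.Agent.UNIP
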