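import Fermat.Agent.UNIP.TubeOrd
import Fermat.Agent.UNIP.NodeCoord
import Fermat.Agent.UNIP.NodesMain
import Fermat.Prelude.Def_AlgebraicCurve_BaseChangeGalois

/-!
# UNIP / AT-c2 — Coord: coordinate functions at the moved points of a tube (`hcoord`)

Produces the hypothesis `hcoord` of `ls_local_factor_chart` (D3) from the local data of U5
(`NodesLocGen`), INCLUDING THICK NODES (`X * Y = q * G` with `G ∈ 𝔫`).

* `unip_morse_step`, `unip_morse_iter` (pure algebra): from `NodesLocGen 𝔫 {q, X, Y}`,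
  `X * Y = q * G`, stage data `X_n Y_n = q ^ n' G_n`, `NodesLocGen 𝔫 {q, X_n, Y_n}`,
  `n ≤ n' ∨ G_n ∉ 𝔫` for every `n ≥ 1`.
* `unip_coord_disc` : smooth point, `f = s - s(P)`.
* `unip_coord_node` : crossing point; for a rational point `P` of the tube with `g • P ≠ P`
  (`g` fixing the coordinates of all stages) there is a stage `n` and a coordinate `c ∈ {X_n, Y_n}`
  such that `f = c - c(P)` has a simple zero at `P` and no other zero in the tube.
-/

set_option autoImplicit false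
set_option linter.style.haveILetI false
set_option linter.unusedSectionVars false

namespace Fermat.Agent.UNIP

open AlgebraicCurve IntermediateField Polynomial Fermat.Agent.S24 Fermat.Agent.INJ

section Morse

variable {B : Type*} [CommRing B]

/-- **One Morse step** (denominators cleared).  Stage data `X * Y = q ^ n * G` with
`NodesLocGen 𝔫 {q, X, Y}` and `G ∈ 𝔫` give stage data for `n + 1`. -/
theorem unip_morse_step (𝔫 : Ideal B) [𝔫.IsPrime] (q : B) (hq : q ∈ 𝔫) (n : ℕ) (hn : 1 ≤ n)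
    (X Y G : B) (hX : X ∈ 𝔫) (hY : Y ∈ 𝔫) (hXY : X * Y = q ^ n * G)
    (hgen : NodesLocGen 𝔫 {q, X, Y}) (hG : G ∈ 𝔫) :
    ∃ X' Y' G' : B, X' ∈ 𝔫 ∧ Y' ∈ 𝔫 ∧ X' * Y' = q ^ (n + 1) * G' ∧
      NodesLocGen 𝔫 {q, X', Y'} ∧
      ∃ u a₁ a₂ : B, u ∉ 𝔫 ∧ X' = u * X - q ^ n * a₂ ∧ Y' = u * Y - q ^ n * a₁ := by
  obtain ⟨u, hu, huG⟩ := hgen G hG
  rw [Ideal.mem_span_insert] at huG
  obtain ⟨a₀, z, hz, huG⟩ := huG
  rw [Ideal.mem_span_pair] at hz
  obtain ⟨a₁, a₂, rfl⟩ := hz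
  obtain ⟨k, rfl⟩ : ∃ k, n = k + 1 := ⟨n - 1, by omega⟩
  have hqn : q ^ (k + 1) ∈ 𝔫 := Ideal.pow_mem_of_mem _ hq _ (Nat.succ_pos k)
  refine ⟨u * X - q ^ (k + 1) * a₂, u * Y - q ^ (k + 1) * a₁, u * a₀ + q ^ k * a₁ * a₂,
    ?_, ?_, ?_, ?_, u, a₁, a₂, hu, rfl, rfl⟩
  · exact Ideal.sub_mem _ (Ideal.mul_mem_left _ _ hX) (Ideal.mul_mem_right _ _ hqn)
  · exact Ideal.sub_mem _ (Ideal.mul_mem_left _ _ hY) (Ideal.mul_mem_right _ _ hqn)
  · have e1 : (u * X - q ^ (k + 1) * a₂) * (u * Y - q ^ (k + 1) * a₁) =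
        u ^ 2 * (X * Y) - q ^ (k + 1) * u * (a₁ * X + a₂ * Y) + q ^ (k + 1) * q ^ (k + 1) * a₁ * a₂ := by
      ring
    have e2 : a₁ * X + a₂ * Y = u * G - a₀ * q := by
      rw [huG]; ring
    rw [e1, hXY, e2]
    ring
  · intro b hb
    obtain ⟨v, hv, hvb⟩ := hgen b hb
    rw [Ideal.mem_span_insert] at hvb
    obtain ⟨c₀, z, hz, hvb⟩ := hvb
    rw [Ideal.mem_span_pair] at hz
    obtain ⟨c₁, c₂, rfl⟩ := hz
    refine ⟨u * v, fun h => ?_, ?_⟩
    · rcases Ideal.IsPrime.mem_or_mem inferInstance h with h' | h'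
      · exact hu h'
      · exact hv h'
    · have e : u * v * b = (c₀ * u + c₁ * q ^ k * a₂ + c₂ * q ^ k * a₁) * q +
          c₁ * (u * X - q ^ (k + 1) * a₂) + c₂ * (u * Y - q ^ (k + 1) * a₁) := by
        rw [mul_assoc, hvb]; ring
      rw [e]
      refine Ideal.add_mem _ (Ideal.add_mem _ ?_ ?_) ?_
      · exact Ideal.mul_mem_left _ _ (Ideal.subset_span (by simp))
      · exact Ideal.mul_mem_left _ _ (Ideal.subset_span (by simp))
      · exact Ideal.mul_mem_left _ _ (Ideal.subset_span (by simp))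

/-- **Morse iteration.**  From `NodesLocGen 𝔫 {q, X, Y}` and `q ∣ X * Y`: for every `n ≥ 1`
stage data of exponent `n'` with `n ≤ n'`, or thin stage data (`G ∉ 𝔫`).  All stage coordinates
lie in any subring `B₀ ∋ q, X, Y, …` containing the multipliers; here they are elements of `B`. -/
theorem unip_morse_iter (𝔫 : Ideal B) [𝔫.IsPrime] (q : B) (hq : q ∈ 𝔫)
    (X Y : B) (hX : X ∈ 𝔫) (hY : Y ∈ 𝔫) (hXY : q ∣ X * Y)
    (hgen : NodesLocGen 𝔫 {q, X, Y}) :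
    ∀ n : ℕ, 1 ≤ n → ∃ (n' : ℕ) (X' Y' G' : B), 1 ≤ n' ∧ X' ∈ 𝔫 ∧ Y' ∈ 𝔫 ∧
      X' * Y' = q ^ n' * G' ∧ NodesLocGen 𝔫 {q, X', Y'} ∧ (n ≤ n' ∨ G' ∉ 𝔫) := by
  intro n hn
  induction n, hn using Nat.le_induction with
  | base =>
    obtain ⟨G, hG⟩ := hXY
    exact ⟨1, X, Y, G, le_rfl, hX, hY, by rw [pow_one, hG], hgen, Or.inl le_rfl⟩
  | succ n hn ih =>
    obtain ⟨n', X', Y', G', hn', hX', hY', hXY', hgen', h⟩ := ih
    by_cases hG : G' ∈ 𝔫
    · have hle : n ≤ n' := h.resolve_right (fun h' => h' hG)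
      obtain ⟨X'', Y'', G'', hX'', hY'', hXY'', hgen'', -⟩ :=
        unip_morse_step 𝔫 q hq n' hn' X' Y' G' hX' hY' hXY' hgen' hG
      exact ⟨n' + 1, X'', Y'', G'', by omega, hX'', hY'', hXY'', hgen'', Or.inl (by omega)⟩
    · exact ⟨n', X', Y', G', hn', hX', hY', hXY', hgen', Or.inr hG⟩

end Morse

section PlaceEq

variable {A₀ E Lf B : Type*} [CommRing A₀] [IsDomain A₀] [IsDiscreteValuationRing A₀]
  [Field E] [CharZero E] [Algebra A₀ E] [IsFractionRing A₀ E]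
  [Field Lf] [Algebra E Lf] [Algebra A₀ Lf] [IsScalarTower A₀ E Lf]
  [CommRing B] [Algebra B Lf]

/-- Two places with `0 ≤ ord τ` such that the centre of `P` on the chart `B` is contained in the
centre of `Q` are equal. -/
theorem unip_place_eq_of_le {π : A₀} (hπ : Irreducible π) (τ : Lf)
    (hτ : Transcendental E τ) [FiniteDimensional E⟮τ⟯ Lf]
    (hB : ∀ x : Lf, x ∈ (algebraMap B Lf).range ↔ IsIntegral (Algebra.adjoin A₀ {τ}) x)
    (P Q : Place E Lf) (hP : 0 ≤ P.ord τ) (hQ : 0 ≤ Q.ord τ)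
    (h : ∀ b : B, 0 < P.ord (algebraMap B Lf b) → 0 < Q.ord (algebraMap B Lf b)) : Q = P := by
  classical
  letI := polyAlgebra (K := E) τ
  obtain ⟨hDed, hFrac, -⟩ := intClosure_facts (K := E) τ hτ
  haveI := hDed
  haveI := hFrac
  have hK := PlacesAux.hK (K := E) τ
  have hRP : ∀ P' : Place E Lf, 0 ≤ P'.ord τ → ∀ r : intClosure (K := E) τ,
      algebraMap (intClosure (K := E) τ) Lf r ∈ P'.toValuationSubring :=
    fun P' h => PlacesAux.le_place τ P' (PlaceAux.mem_of_ord_nonneg P' h)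
  have hπ0 : algebraMap A₀ Lf π ≠ 0 := unip_algebraMap_irreducible_ne_zero E hπ
  have hlift : ∀ r : intClosure (K := E) τ, r ≠ 0 → ∃ b : B,
      ∀ Q : Place E Lf, Q.ord (algebraMap B Lf b) =
        Q.ord (algebraMap (intClosure (K := E) τ) Lf r) := by
    intro r hr
    obtain ⟨k, hk⟩ := exists_pow_mul_isIntegral hπ τ
      (algebraMap (intClosure (K := E) τ) Lf r) r.2
    obtain ⟨b, hb⟩ := (hB _).mpr hk
    have hr0 : algebraMap (intClosure (K := E) τ) Lf r ≠ 0 := fun h => hr (Subtype.ext h)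
    have hb' : algebraMap B Lf b =
        algebraMap A₀ Lf π ^ k * algebraMap (intClosure (K := E) τ) Lf r := hb
    refine ⟨b, fun Q => ?_⟩
    rw [hb', Place.ord_mul Q (pow_ne_zero k hπ0) hr0, ← map_pow,
      IsScalarTower.algebraMap_apply A₀ E Lf, PlaceAux.ord_algebraMap, zero_add]
  have hconv : ∀ (w : IsDedekindDomain.HeightOneSpectrum (intClosure (K := E) τ)) (x : Lf),
      x ≠ 0 → (0 < (placeOfPrime (K := E) hK w).ord x ↔ w.valuation Lf x < 1) := by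
    intro w x hx
    have hv : w.valuation Lf x ≠ 0 := (Valuation.ne_zero_iff _).mpr hx
    rw [placeOfPrime_ord hK w hx]
    constructor
    · intro h
      rw [← WithZero.exp_log hv, ← WithZero.exp_zero, WithZero.exp_lt_exp]
      omega
    · intro h
      rw [← WithZero.exp_log hv, ← WithZero.exp_zero, WithZero.exp_lt_exp] at h
      omega
  obtain ⟨wP, hwP⟩ := exists_placeOfPrime_eq hK P (hRP P hP)
  obtain ⟨wQ, hwQ⟩ := exists_placeOfPrime_eq hK Q (hRP Q hQ)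
  have hle : wP.asIdeal ≤ wQ.asIdeal := by
    intro r hr
    by_cases hr0 : r = 0
    · rw [hr0]; exact Ideal.zero_mem _
    have hrL : algebraMap (intClosure (K := E) τ) Lf r ≠ 0 := fun h =>
      hr0 ((IsFractionRing.injective (intClosure (K := E) τ) Lf) (by rw [h, map_zero]))
    have h1 : 0 < P.ord (algebraMap (intClosure (K := E) τ) Lf r) := by
      rw [← hwP, hconv wP _ hrL]
      exact (wP.valuation_lt_one_iff_mem (K := Lf) r).mpr hr
    obtain ⟨b, hbord⟩ := hlift r hr0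
    have h2 := h b (by rw [hbord]; exact h1)
    rw [hbord, ← hwQ, hconv wQ _ hrL] at h2
    exact (wQ.valuation_lt_one_iff_mem (K := Lf) r).mp h2
  have heq : wP.asIdeal = wQ.asIdeal :=
    Ideal.IsMaximal.eq_of_le wP.isMaximal wQ.isPrime.ne_top hle
  have : wP = wQ := IsDedekindDomain.HeightOneSpectrum.ext heq
  rw [← hwQ, ← hwP, this]

end PlaceEq

section Smul

variable {A₀ E Lf B : Type*} [CommRing A₀] [IsDomain A₀] [IsDiscreteValuationRing A₀]
  [Field E] [CharZero E] [Algebra A₀ E] [IsFractionRing A₀ E]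
  [Field Lf] [Algebra E Lf] [Algebra A₀ Lf] [IsScalarTower A₀ E Lf]
  [CommRing B] [Algebra B Lf] [Algebra A₀ B] [IsScalarTower A₀ B Lf]

/-- `g` maps the maximal ideal of `P` into the maximal ideal of `g • P` -/
theorem unip_smul_mem_nonunits (g : SemilinearAut E Lf) (P : Place E Lf) {y : Lf}
    (hy : y ∈ P.toValuationSubring.nonunits) :
    g • y ∈ (g • P).toValuationSubring.nonunits := by
  rcases (unip_mem_nonunits_iff P y).mp hy with h | h
  · rw [h, smul_zero]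
    exact (g • P).toValuationSubring.nonunits.zero_mem
  · exact (unip_mem_nonunits_iff (g • P) _).mpr (Or.inr (by rw [SemilinearAut.ord_smul]; exact h))

/-- the translate of a rational point of the tube is a rational point of the tube -/
theorem UnipTubePoint.smul (hinj : Function.Injective (algebraMap B Lf)) {τ : Lf}
    {𝔫 : Ideal B} (g : SemilinearAut E Lf) (hgτ : g • τ = τ)
    (hgB : ∀ b : B, b ∈ 𝔫 → ∃ b' : B, b' ∈ 𝔫 ∧ g • algebraMap B Lf b = algebraMap B Lf b')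
    (hgB₀' : ∀ b : B, ∃ b' : B, g⁻¹ • algebraMap B Lf b = algebraMap B Lf b')
    {P : Place E Lf} (hP : UnipTubePoint τ 𝔫 P) : UnipTubePoint τ 𝔫 (g • P) := by
  refine ⟨?_, ?_, ?_⟩
  · have := SemilinearAut.ord_smul g P τ
    rw [hgτ] at this
    rw [this]
    exact hP.ord_nonneg
  · intro b hb
    obtain ⟨b', hb'⟩ := hgB₀' b
    have h1 : g • algebraMap B Lf b' = algebraMap B Lf b := by
      rw [← hb', smul_inv_smul]
    have h2 : 0 < P.ord (algebraMap B Lf b') := by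
      rw [← SemilinearAut.ord_smul g P, h1]
      exact hb
    obtain ⟨b'', hb''𝔫, hb''⟩ := hgB b' (hP.centre b' h2)
    have : b'' = b := hinj (by rw [← hb'', h1])
    rw [← this]
    exact hb''𝔫
  · intro f hf
    have hf' : g⁻¹ • f ∈ P.toValuationSubring := by
      apply PlaceAux.mem_of_ord_nonneg
      have h1 := SemilinearAut.ord_smul g P (g⁻¹ • f)
      rw [smul_inv_smul] at h1
      rw [← h1]
      by_cases hf0 : f = 0
      · rw [hf0, Place.ord_zero]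
      · exact (PlaceAux.ord_nonneg_iff (g • P) hf0).mpr hf
    obtain ⟨c, hc⟩ := hP.rational _ hf'
    refine ⟨SemilinearAut.baseAut g c, ?_⟩
    have := unip_smul_mem_nonunits g P hc
    rwa [smul_sub, smul_inv_smul, SemilinearAut.smul_algebraMap] at this

end Smul

section Main

variable {A₀ E Lf B : Type*} [CommRing A₀] [IsDomain A₀] [IsDiscreteValuationRing A₀]
  [Field E] [CharZero E] [Algebra A₀ E] [IsFractionRing A₀ E]
  [Field Lf] [Algebra E Lf] [Algebra A₀ Lf] [IsScalarTower A₀ E Lf]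
  [CommRing B] [Algebra B Lf] [Algebra A₀ B] [IsScalarTower A₀ B Lf]

/-- in a DVR: either `v(a) < v(c)` or `c ∣ a` -/
theorem unip_dvr_dichotomy {π : A₀} (hπ : Irreducible π) (a c : A₀) (hc : c ≠ 0) :
    (a ≠ 0 ∧ ∃ t : A₀, π ∣ t ∧ c = a * t) ∨ c ∣ a := by
  by_cases ha : a = 0
  · exact Or.inr (ha ▸ dvd_zero c)
  obtain ⟨i, ua, hua⟩ := IsDiscreteValuationRing.associated_pow_irreducible ha hπ
  obtain ⟨j, uc, huc⟩ := IsDiscreteValuationRing.associated_pow_irreducible hc hπ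
  have ha' : a = π ^ i * (ua⁻¹ : A₀ˣ) := by
    rw [← hua, mul_assoc, Units.mul_inv, mul_one]
  have hc' : c = π ^ j * (uc⁻¹ : A₀ˣ) := by
    rw [← huc, mul_assoc, Units.mul_inv, mul_one]
  rcases lt_or_ge i j with hij | hji
  · left
    refine ⟨ha, (ua : A₀) * π ^ (j - i) * (uc⁻¹ : A₀ˣ), ?_, ?_⟩
    · refine Dvd.dvd.mul_right (Dvd.dvd.mul_left ?_ _) _
      exact dvd_pow_self π (by omega)
    · have hj : j = i + (j - i) := by omega
      have e1 : a * ((ua : A₀) * π ^ (j - i) * (uc⁻¹ : A₀ˣ)) =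
          (a * ua) * π ^ (j - i) * (uc⁻¹ : A₀ˣ) := by ring
      rw [hc', e1, hua, ← pow_add, ← hj]
  · right
    refine ⟨(uc : A₀) * π ^ (i - j) * (ua⁻¹ : A₀ˣ), ?_⟩
    have hi : i = j + (i - j) := by omega
    have e1 : c * ((uc : A₀) * π ^ (i - j) * (ua⁻¹ : A₀ˣ)) =
        (c * uc) * π ^ (i - j) * (ua⁻¹ : A₀ˣ) := by ring
    rw [e1, huc, ← pow_add, ← hi]
    exact ha'

/-- `π ∣ ev b → b ∈ 𝔫` -/
theorem unip_tubeEv_mem_of_dvd {π : A₀} {τ : Lf}
    (hinj : Function.Injective (algebraMap B Lf))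
    {𝔫 : Ideal B} (hπ𝔫 : algebraMap A₀ B π ∈ 𝔫) {P : Place E Lf} (hP : UnipTubePoint τ 𝔫 P)
    (ev : B →ₐ[A₀] A₀)
    (hev : ∀ b : B,
      algebraMap B Lf b - algebraMap A₀ Lf (ev b) ∈ P.toValuationSubring.nonunits)
    (b : B) (hb : π ∣ ev b) : b ∈ 𝔫 := by
  have h1 : b - algebraMap A₀ B (ev b) ∈ 𝔫 := by
    apply unip_tubeEv_ker hinj hP ev hev
    rw [map_sub, AlgHom.commutes, Algebra.algebraMap_self_apply, sub_self]
  have h2 : algebraMap A₀ B (ev b) ∈ 𝔫 := by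
    obtain ⟨c, hc⟩ := hb
    rw [hc, map_mul]
    exact Ideal.mul_mem_right _ _ hπ𝔫
  have : b = (b - algebraMap A₀ B (ev b)) + algebraMap A₀ B (ev b) := by ring
  rw [this]
  exact Ideal.add_mem _ h1 h2

/-- density of `A₀[T]` at a closed point carrying a rational point of the tube, from local
generation -/
theorem unip_dense_of_tubePoint {π : A₀} (hπ : Irreducible π) (τ : Lf)
    (hinj : Function.Injective (algebraMap B Lf))
    (hB : ∀ x : Lf, x ∈ (algebraMap B Lf).range ↔ IsIntegral (Algebra.adjoin A₀ {τ}) x)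
    (𝔫 : Ideal B) [𝔫.IsPrime] (hπ𝔫 : algebraMap A₀ B π ∈ 𝔫)
    (P : Place E Lf) (hP : UnipTubePoint τ 𝔫 P)
    (T : Set B) (hT : ∀ x ∈ T, x ∈ 𝔫)
    (hgen : NodesLocGen 𝔫 (insert (algebraMap A₀ B π) T)) :
    ∀ (N : ℕ) (b : B), ∃ c ∈ Algebra.adjoin A₀ T, b - c ∈ 𝔫 ^ N := by
  obtain ⟨ev, hev⟩ := unip_exists_tubeEv hπ τ hinj hB 𝔫 hπ𝔫 P hP
  refine unip_dense_of_locGen 𝔫 π T hπ𝔫 hT hgen (fun b => ⟨ev b, ?_⟩) (fun α hα => ?_)
  · apply unip_tubeEv_ker hinj hP ev hev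
    rw [map_sub, AlgHom.commutes, Algebra.algebraMap_self_apply, sub_self]
  · have hu : IsUnit α := by
      by_contra hnu
      have : α ∈ IsLocalRing.maximalIdeal A₀ := (IsLocalRing.mem_maximalIdeal _).mpr hnu
      rw [hπ.maximalIdeal_eq, Ideal.mem_span_singleton] at this
      obtain ⟨c, rfl⟩ := this
      apply hα
      rw [map_mul]
      exact Ideal.mul_mem_right _ _ hπ𝔫
    obtain ⟨β, hβ⟩ := hu.exists_right_inv
    exact ⟨β, hβ⟩

/-- **Coord, smooth point.**  `𝔫 = (π, s)` locally: `f = s - s(P)` is a coordinate function at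
every rational point `P` of the tube. -/
theorem unip_coord_disc [IsNoetherianRing B] {π : A₀} (hπ : Irreducible π) (τ : Lf)
    (hτ : Transcendental E τ) [FiniteDimensional E⟮τ⟯ Lf]
    (hinj : Function.Injective (algebraMap B Lf))
    (hB : ∀ x : Lf, x ∈ (algebraMap B Lf).range ↔ IsIntegral (Algebra.adjoin A₀ {τ}) x)
    (𝔫 : Ideal B) [𝔫.IsPrime] (hπ𝔫 : algebraMap A₀ B π ∈ 𝔫)
    (s : B) (hs : s ∈ 𝔫) (hgen : NodesLocGen 𝔫 {algebraMap A₀ B π, s})
    (P : Place E Lf) (hP : UnipTubePoint τ 𝔫 P) :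
    ∃ f : Lf, f ≠ 0 ∧ P.ord f = 1 ∧
      ∀ Q : Place E Lf, 0 ≤ Q.ord τ → (∀ b : B, 0 < Q.ord (algebraMap B Lf b) → b ∈ 𝔫) →
        Q ≠ P → Q.ord f = 0 := by
  obtain ⟨ev, hev⟩ := unip_exists_tubeEv hπ τ hinj hB 𝔫 hπ𝔫 P hP
  have hd := unip_dense_of_tubePoint hπ τ hinj hB 𝔫 hπ𝔫 P hP {s}
    (fun x hx => by rw [Set.mem_singleton_iff] at hx; rw [hx]; exact hs) hgen
  obtain ⟨h1, h2⟩ := unip_tubeOrd_disc hπ τ hτ hinj hB 𝔫 hπ𝔫 s (ev s) hd P hP (hev s)
  refine ⟨_, fun h0 => ?_, h1, h2⟩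
  rw [h0, Place.ord_zero] at h1
  exact zero_ne_one h1

/-- **One stage.**  Either stage data give a coordinate function at `P`, or both coordinates of
`P` are divisible by `q ^ n'` and the node is thick at this stage (`G ∈ 𝔫`). -/
theorem unip_coord_stage [IsNoetherianRing B] {π : A₀} (hπ : Irreducible π) (τ : Lf)
    (hτ : Transcendental E τ) [FiniteDimensional E⟮τ⟯ Lf]
    (hinj : Function.Injective (algebraMap B Lf))
    (hB : ∀ x : Lf, x ∈ (algebraMap B Lf).range ↔ IsIntegral (Algebra.adjoin A₀ {τ}) x)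
    (𝔫 : Ideal B) [𝔫.IsPrime] (hπ𝔫 : algebraMap A₀ B π ∈ 𝔫)
    (q : A₀) (hq0 : q ≠ 0) (n' : ℕ)
    (X Y G : B) (hX : X ∈ 𝔫) (hY : Y ∈ 𝔫) (hXY : X * Y = algebraMap A₀ B q ^ n' * G)
    (hgen : NodesLocGen 𝔫 {algebraMap A₀ B π, X, Y})
    (P : Place E Lf) (hP : UnipTubePoint τ 𝔫 P) (ev : B →ₐ[A₀] A₀)
    (hev : ∀ b : B,
      algebraMap B Lf b - algebraMap A₀ Lf (ev b) ∈ P.toValuationSubring.nonunits) :
    (∃ f : Lf, f ≠ 0 ∧ P.ord f = 1 ∧
      ∀ Q : Place E Lf, 0 ≤ Q.ord τ → (∀ b : B, 0 < Q.ord (algebraMap B Lf b) → b ∈ 𝔫) →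
        Q ≠ P → Q.ord f = 0) ∨
    (q ^ n' ∣ ev X ∧ q ^ n' ∣ ev Y ∧ G ∈ 𝔫) := by
  have hd := unip_dense_of_tubePoint hπ τ hinj hB 𝔫 hπ𝔫 P hP {X, Y}
    (fun x hx => by
      rcases hx with rfl | rfl
      · exact hX
      · exact hY) hgen
  have hd' : ∀ (N : ℕ) (b : B), ∃ c ∈ Algebra.adjoin A₀ ({Y, X} : Set B), b - c ∈ 𝔫 ^ N := by
    rw [Set.pair_comm]
    exact hd
  have hc0 : q ^ n' ≠ 0 := pow_ne_zero n' hq0
  have hXY' : X * Y = algebraMap A₀ B (q ^ n') * G := by rw [map_pow]; exact hXY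
  have hYX' : Y * X = algebraMap A₀ B (q ^ n') * G := by rw [mul_comm]; exact hXY'
  have hfin : ∀ f : Lf, P.ord f = 1 → f ≠ 0 := by
    intro f h1 h0
    rw [h0, Place.ord_zero] at h1
    exact zero_ne_one h1
  rcases unip_dvr_dichotomy hπ (ev X) (q ^ n') hc0 with ⟨ha, t, ht, hct⟩ | hdX
  · left
    obtain ⟨h1, h2⟩ := unip_tubeOrd_node hπ τ hτ hinj hB 𝔫 hπ𝔫 X Y G (q ^ n') (ev X) t hct ht ha
      hXY' hd P hP (hev X)
    exact ⟨_, hfin _ h1, h1, h2⟩
  rcases unip_dvr_dichotomy hπ (ev Y) (q ^ n') hc0 with ⟨ha, t, ht, hct⟩ | hdY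
  · left
    obtain ⟨h1, h2⟩ := unip_tubeOrd_node hπ τ hτ hinj hB 𝔫 hπ𝔫 Y X G (q ^ n') (ev Y) t hct ht ha
      hYX' hd' P hP (hev Y)
    exact ⟨_, hfin _ h1, h1, h2⟩
  right
  refine ⟨hdX, hdY, ?_⟩
  apply unip_tubeEv_mem_of_dvd hinj hπ𝔫 hP ev hev
  obtain ⟨x₁, hx₁⟩ := hdX
  have h1 : ev X * ev Y = q ^ n' * ev G := by
    have := congrArg ev hXY'
    rwa [map_mul, map_mul, AlgHom.commutes, Algebra.algebraMap_self_apply] at this
  have h2 : ev G = x₁ * ev Y := by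
    apply mul_left_cancel₀ hc0
    rw [← h1, hx₁]
    ring
  rw [h2]
  exact Dvd.dvd.mul_left (unip_tubeEv_dvd hπ hinj hP ev hev Y hY) _

/-- evaluation at `g • P` of a `g`-invariant element of the chart -/
theorem unip_tubeEv_smul (g : SemilinearAut E Lf)
    (hgA : ∀ α : A₀, ∃ α' : A₀, g • algebraMap A₀ Lf α = algebraMap A₀ Lf α')
    (P : Place E Lf) (evP evQ : B →ₐ[A₀] A₀)
    (hevP : ∀ b : B,
      algebraMap B Lf b - algebraMap A₀ Lf (evP b) ∈ P.toValuationSubring.nonunits)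
    (hevQ : ∀ b : B,
      algebraMap B Lf b - algebraMap A₀ Lf (evQ b) ∈ (g • P).toValuationSubring.nonunits)
    (b : B) (hb : g • algebraMap B Lf b = algebraMap B Lf b) :
    g • algebraMap A₀ Lf (evP b) = algebraMap A₀ Lf (evQ b) := by
  obtain ⟨α', hα'⟩ := hgA (evP b)
  have h1 := unip_smul_mem_nonunits g P (hevP b)
  rw [smul_sub, hb, hα'] at h1
  rw [hα', unip_value_unique (g • P) (hevQ b) h1]

/-- divisibility by a power of a `g`-fixed constant is preserved by `g` -/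
theorem unip_dvd_of_smul (g : SemilinearAut E Lf)
    (hgA : ∀ α : A₀, ∃ α' : A₀, g • algebraMap A₀ Lf α = algebraMap A₀ Lf α')
    (q : A₀) (hgq : g • algebraMap A₀ Lf q = algebraMap A₀ Lf q) (n : ℕ) {α β : A₀}
    (hαβ : g • algebraMap A₀ Lf α = algebraMap A₀ Lf β) (h : q ^ n ∣ α) : q ^ n ∣ β := by
  obtain ⟨c, rfl⟩ := h
  obtain ⟨c', hc'⟩ := hgA c
  refine ⟨c', ?_⟩
  apply unip_algebraMap_injective E (A₀ := A₀) (Lf := Lf)
  rw [← hαβ, map_mul, map_mul, map_pow, smul_mul', smul_pow', hgq, hc']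

/-- **Coord, crossing point (thick nodes included).**  Stage data for every `n ≥ 1`
(`unip_morse_iter` over the unramified chart, transported to `B`), with coordinates fixed by `g`.
Every rational point `P` of the tube of `𝔫` with `g • P ≠ P` has a coordinate function. -/
theorem unip_coord_node [IsNoetherianRing B] {π : A₀} (hπ : Irreducible π) (τ : Lf)
    (hτ : Transcendental E τ) [FiniteDimensional E⟮τ⟯ Lf]
    (hinj : Function.Injective (algebraMap B Lf))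
    (hB : ∀ x : Lf, x ∈ (algebraMap B Lf).range ↔ IsIntegral (Algebra.adjoin A₀ {τ}) x)
    (𝔫 : Ideal B) [𝔫.IsPrime] (hπ𝔫 : algebraMap A₀ B π ∈ 𝔫)
    (g : SemilinearAut E Lf) (hgτ : g • τ = τ)
    (hgB : ∀ b : B, b ∈ 𝔫 → ∃ b' : B, b' ∈ 𝔫 ∧ g • algebraMap B Lf b = algebraMap B Lf b')
    (hgB₀' : ∀ b : B, ∃ b' : B, g⁻¹ • algebraMap B Lf b = algebraMap B Lf b')
    (hgA : ∀ α : A₀, ∃ α' : A₀, g • algebraMap A₀ Lf α = algebraMap A₀ Lf α')
    (q : A₀) (hq0 : q ≠ 0) (hqπ : π ∣ q)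
    (hgq : g • algebraMap A₀ Lf q = algebraMap A₀ Lf q)
    (hstage : ∀ n : ℕ, 1 ≤ n → ∃ (n' : ℕ) (X Y G : B), X ∈ 𝔫 ∧ Y ∈ 𝔫 ∧
      X * Y = algebraMap A₀ B q ^ n' * G ∧ NodesLocGen 𝔫 {algebraMap A₀ B π, X, Y} ∧
      g • algebraMap B Lf X = algebraMap B Lf X ∧ g • algebraMap B Lf Y = algebraMap B Lf Y ∧
      (n ≤ n' ∨ G ∉ 𝔫))
    (P : Place E Lf) (hP : UnipTubePoint τ 𝔫 P) (hgP : g • P ≠ P) :
    ∃ f : Lf, f ≠ 0 ∧ P.ord f = 1 ∧
      ∀ Q : Place E Lf, 0 ≤ Q.ord τ → (∀ b : B, 0 < Q.ord (algebraMap B Lf b) → b ∈ 𝔫) →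
        Q ≠ P → Q.ord f = 0 := by
  have hP' : UnipTubePoint τ 𝔫 (g • P) := hP.smul hinj g hgτ hgB hgB₀'
  obtain ⟨evP, hevP⟩ := unip_exists_tubeEv hπ τ hinj hB 𝔫 hπ𝔫 P hP
  obtain ⟨evQ, hevQ⟩ := unip_exists_tubeEv hπ τ hinj hB 𝔫 hπ𝔫 (g • P) hP'
  by_contra hcon
  have hmaxP : ∀ b ∈ 𝔫, evP b ∈ IsLocalRing.maximalIdeal A₀ := fun b hb => by
    rw [hπ.maximalIdeal_eq, Ideal.mem_span_singleton]
    exact unip_tubeEv_dvd hπ hinj hP evP hevP b hb
  have hmaxQ : ∀ b ∈ 𝔫, evQ b ∈ IsLocalRing.maximalIdeal A₀ := fun b hb => by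
    rw [hπ.maximalIdeal_eq, Ideal.mem_span_singleton]
    exact unip_tubeEv_dvd hπ hinj hP' evQ hevQ b hb
  have key : ∀ n : ℕ, 1 ≤ n → ∀ b : B, evP b - evQ b ∈ Ideal.span ({q ^ n} : Set A₀) := by
    intro n hn b
    obtain ⟨n', X, Y, G, hX, hY, hXY, hgen, hgX, hgY, hthin⟩ := hstage n hn
    rcases unip_coord_stage hπ τ hτ hinj hB 𝔫 hπ𝔫 q hq0 n' X Y G hX hY hXY hgen P hP evP hevP
      with h | ⟨hdX, hdY, hG⟩
    · exact absurd h hcon
    have hle : n ≤ n' := hthin.resolve_right (fun h => h hG)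
    have hdX' : q ^ n ∣ evP X := (pow_dvd_pow q hle).trans hdX
    have hdY' : q ^ n ∣ evP Y := (pow_dvd_pow q hle).trans hdY
    have hdXQ : q ^ n ∣ evQ X :=
      unip_dvd_of_smul g hgA q hgq n (unip_tubeEv_smul g hgA P evP evQ hevP hevQ X hgX) hdX'
    have hdYQ : q ^ n ∣ evQ Y :=
      unip_dvd_of_smul g hgA q hgq n (unip_tubeEv_smul g hgA P evP evQ hevP hevQ Y hgY) hdY'
    have hd := unip_dense_of_tubePoint hπ τ hinj hB 𝔫 hπ𝔫 P hP {X, Y}
      (fun x hx => by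
        rcases hx with rfl | rfl
        · exact hX
        · exact hY) hgen
    refine unip_eval_sub_mem_span_of_dense 𝔫 {X, Y} (q ^ n) hd evP evQ hmaxP hmaxQ
      (fun x hx => ?_) b
    rw [Ideal.mem_span_singleton]
    rcases hx with rfl | rfl
    · exact dvd_sub hdX' hdXQ
    · exact dvd_sub hdY' hdYQ
  have heq : ∀ b : B, evP b = evQ b := by
    intro b
    have h0 : evP b - evQ b ∈ (⨅ i : ℕ, IsLocalRing.maximalIdeal A₀ ^ i : Ideal A₀) := by
      rw [Ideal.mem_iInf]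
      intro n
      rcases Nat.eq_zero_or_pos n with h | h
      · rw [h, pow_zero, Ideal.one_eq_top]; exact Submodule.mem_top
      · have h1 := key n h b
        rw [Ideal.mem_span_singleton] at h1
        obtain ⟨c, hc⟩ := h1
        obtain ⟨q₁, hq₁⟩ := hqπ
        rw [hc, hq₁, mul_pow, hπ.maximalIdeal_eq, Ideal.span_singleton_pow]
        exact Ideal.mem_span_singleton.mpr ⟨q₁ ^ n * c, by ring⟩
    rw [Ideal.iInf_pow_eq_bot_of_isLocalRing (IsLocalRing.maximalIdeal A₀)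
      Ideal.IsPrime.ne_top'] at h0
    exact sub_eq_zero.mp (by simpa using h0)
  apply hgP
  refine unip_place_eq_of_le hπ τ hτ hB P (g • P) hP.ord_nonneg hP'.ord_nonneg (fun b hb => ?_)
  have hb0 : algebraMap B Lf b ≠ 0 := by
    intro h0
    rw [h0, Place.ord_zero] at hb
    exact lt_irrefl _ hb
  have h1 : evP b = 0 :=
    (unip_tubeEv_eq_zero_iff P evP hevP b).mpr ((unip_mem_nonunits_iff P _).mpr (Or.inr hb))
  have h2 : evQ b = 0 := by rw [← heq b, h1]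
  have h3 := (unip_tubeEv_eq_zero_iff (g • P) evQ hevQ b).mp h2
  rcases (unip_mem_nonunits_iff (g • P) _).mp h3 with h | h
  · exact absurd h hb0
  · exact h

end Main

end Fermat.Agent.UNIP
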