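/-
UNIP / MG-4c (helper16): `B' := MgcChart B₀ π' = B₀[π']` is a legal chart for AT / D2 over `A'`.

Setting of `MGChartsMain.lean`.  `B₀ := integralClosure (Algebra.adjoin A₀ {τ}) K`,
`α := algebraMap A' L π'`, `B' := MgcChart B₀ α = Algebra.adjoin B₀ {α} ⊆ L`.

* `mgci_range_iff` : `hB` of D2/AT — `x ∈ range (B' → L) ↔ IsIntegral (A'[τ]) x`;
* `mgciAlgebra`, `mgci_isScalarTower` : `Algebra A' B'`, `IsScalarTower A' B' L`;
* `mgci_isNoetherianRing` : `B'` is noetherian;
* `mgci_mem_zchClosure_iff` : `x ∈ INJ.zchClosure (A₀ := A') {τ} ↔ x ∈ B'`;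
* `mgci_ramified` : `MgcRamified (algebraMap B₀ B') (nbcGen B₀ α) π` (the MgcChart instance of
  `mgc_ramified`), so that all of `MGChartsGen.lean` applies to `B' = MgcChart B₀ α`.
-/
import Fermat.Agent.UNIP.MGChartsMain
import Fermat.Agent.UNIP.MGCharts
import Fermat.Agent.INJ.ChartFinite
import Fermat.Agent.INJ.ZariskiCharts

set_option autoImplicit false
set_option linter.style.haveILetI false
set_option linter.unusedSectionVars false

open Polynomial IntermediateField Fermat.Agent.INJ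

namespace Fermat.Agent.UNIP

section Inst

universe u

variable {A₀ E₀ K : Type u} [CommRing A₀] [IsDomain A₀] [IsDiscreteValuationRing A₀]
  [Field E₀] [CharZero E₀] [Algebra A₀ E₀] [IsFractionRing A₀ E₀]
  [Field K] [Algebra E₀ K] [Algebra A₀ K] [IsScalarTower A₀ E₀ K]
  {A' L : Type*} [CommRing A'] [IsDomain A'] [Field L] [Algebra A' L]
  [Algebra A₀ A'] [Algebra K L] [Algebra A₀ L] [IsScalarTower A₀ K L] [IsScalarTower A₀ A' L]

/-- `hB` of D2 / AT for the chart `B' = B₀[π']`. -/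
theorem mgci_range_iff {π : A₀} (hπ : Irreducible π) (τ : K) [FiniteDimensional E₀⟮τ⟯ K]
    (hπu : ¬ IsUnit (algebraMap A₀ (integralClosure (Algebra.adjoin A₀ {τ}) K) π))
    (hred : ∀ c : integralClosure (Algebra.adjoin A₀ {τ}) K,
      algebraMap A₀ (integralClosure (Algebra.adjoin A₀ {τ}) K) π ∣ c ^ 2 →
        algebraMap A₀ (integralClosure (Algebra.adjoin A₀ {τ}) K) π ∣ c)
    [Algebra.IsIntegral A₀ A']
    {π' : A'} (hπ'0 : π' ≠ 0) (hπ'u : ¬ IsUnit π') {e : ℕ}
    (hram : π' ^ e ∣ algebraMap A₀ A' π)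
    (g : A₀[X]) (hgm : g.Monic) (hroot : aeval π' g = 0) (hdeg : g.natDegree ≤ e)
    (htop : Algebra.adjoin K ({algebraMap A' L π'} : Set L) = ⊤) (x : L) :
    x ∈ RingHom.range (R := ↥(MgcChart (integralClosure (Algebra.adjoin A₀ {τ}) K)
        (algebraMap A' L π'))) (S := L) (algebraMap _ _) ↔
      IsIntegral (Algebra.adjoin A' ({algebraMap K L τ} : Set L)) x := by
  rw [mgc_isIntegral_iff (E₀ := E₀) hπ τ hπu hred hπ'0 hπ'u hram g hgm hroot hdeg htop x]
  constructor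
  · rintro ⟨b, rfl⟩
    exact b.2
  · intro hx
    exact ⟨⟨x, hx⟩, rfl⟩

/-- The constants `A'` lie in `B₀[π']`. -/
theorem mgci_algebraMap_mem {π : A₀} (hπ : Irreducible π) (τ : K) [FiniteDimensional E₀⟮τ⟯ K]
    (hπu : ¬ IsUnit (algebraMap A₀ (integralClosure (Algebra.adjoin A₀ {τ}) K) π))
    (hred : ∀ c : integralClosure (Algebra.adjoin A₀ {τ}) K,
      algebraMap A₀ (integralClosure (Algebra.adjoin A₀ {τ}) K) π ∣ c ^ 2 →
        algebraMap A₀ (integralClosure (Algebra.adjoin A₀ {τ}) K) π ∣ c)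
    [Algebra.IsIntegral A₀ A']
    {π' : A'} (hπ'0 : π' ≠ 0) (hπ'u : ¬ IsUnit π') {e : ℕ}
    (hram : π' ^ e ∣ algebraMap A₀ A' π)
    (g : A₀[X]) (hgm : g.Monic) (hroot : aeval π' g = 0) (hdeg : g.natDegree ≤ e)
    (htop : Algebra.adjoin K ({algebraMap A' L π'} : Set L) = ⊤) (a : A') :
    algebraMap A' L a ∈ MgcChart (integralClosure (Algebra.adjoin A₀ {τ}) K)
      (algebraMap A' L π') :=
  (mgc_isIntegral_iff (E₀ := E₀) hπ τ hπu hred hπ'0 hπ'u hram g hgm hroot hdeg htop _).1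
    (isIntegral_algebraMap (R := Algebra.adjoin A' ({algebraMap K L τ} : Set L))
      (x := ⟨algebraMap A' L a, Subalgebra.algebraMap_mem _ _⟩))

/-- The algebra structure of `B' = B₀[π']` over `A'`, from `hA' : A' ⊆ B'`. -/
@[reducible]
noncomputable def mgciAlgebra {R : Type*} [CommRing R] [Algebra R L] (α : L)
    (hA' : ∀ a : A', algebraMap A' L a ∈ MgcChart R α) : Algebra A' (MgcChart R α) :=
  ((algebraMap A' L).codRestrict (MgcChart R α) hA').toAlgebra

theorem mgci_isScalarTower {R : Type*} [CommRing R] [Algebra R L] (α : L)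
    (hA' : ∀ a : A', algebraMap A' L a ∈ MgcChart R α) :
    letI := mgciAlgebra (A' := A') α hA'
    IsScalarTower A' (MgcChart R α) L := by
  letI := mgciAlgebra (A' := A') α hA'
  apply IsScalarTower.of_algebraMap_eq
  intro a
  rfl

theorem mgciAlgebra_algebraMap {R : Type*} [CommRing R] [Algebra R L] (α : L)
    (hA' : ∀ a : A', algebraMap A' L a ∈ MgcChart R α) (a : A') :
    letI := mgciAlgebra (A' := A') α hA'
    ((algebraMap A' (MgcChart R α) a : MgcChart R α) : L) = algebraMap A' L a := rfl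

/-- `B' = B₀[π']` is a noetherian ring. -/
theorem mgci_isNoetherianRing {τ : K} (hτ : Transcendental E₀ τ) [FiniteDimensional E₀⟮τ⟯ K]
    (α : L) :
    IsNoetherianRing (MgcChart (integralClosure (Algebra.adjoin A₀ {τ}) K) α) := by
  haveI := chart_closure_isNoetherianRing (A₀ := A₀) (E := E₀) (Lf := K) hτ
  exact isNoetherianRing_of_fg (Subalgebra.fg_def.2 ⟨{α}, Set.finite_singleton α, rfl⟩)

/-- The chart `zchClosure {τ}` over `A'` is `B₀[π']`. -/
theorem mgci_mem_zchClosure_iff {π : A₀} (hπ : Irreducible π) (τ : K)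
    [FiniteDimensional E₀⟮τ⟯ K]
    (hπu : ¬ IsUnit (algebraMap A₀ (integralClosure (Algebra.adjoin A₀ {τ}) K) π))
    (hred : ∀ c : integralClosure (Algebra.adjoin A₀ {τ}) K,
      algebraMap A₀ (integralClosure (Algebra.adjoin A₀ {τ}) K) π ∣ c ^ 2 →
        algebraMap A₀ (integralClosure (Algebra.adjoin A₀ {τ}) K) π ∣ c)
    [Algebra.IsIntegral A₀ A']
    {π' : A'} (hπ'0 : π' ≠ 0) (hπ'u : ¬ IsUnit π') {e : ℕ}
    (hram : π' ^ e ∣ algebraMap A₀ A' π)
    (g : A₀[X]) (hgm : g.Monic) (hroot : aeval π' g = 0) (hdeg : g.natDegree ≤ e)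
    (htop : Algebra.adjoin K ({algebraMap A' L π'} : Set L) = ⊤) (x : L) :
    x ∈ (integralClosure (Algebra.adjoin A' ({algebraMap K L τ} : Set L)) L) ↔
      x ∈ MgcChart (integralClosure (Algebra.adjoin A₀ {τ}) K) (algebraMap A' L π') :=
  mgc_isIntegral_iff (E₀ := E₀) hπ τ hπu hred hπ'0 hπ'u hram g hgm hroot hdeg htop x

/-- **MG-4c.**  `B' = MgcChart B₀ π'` has the same special fibre as `B₀`. -/
theorem mgci_ramified {π : A₀} (hπ : Irreducible π) (τ : K) [FiniteDimensional E₀⟮τ⟯ K]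
    (hπu : ¬ IsUnit (algebraMap A₀ (integralClosure (Algebra.adjoin A₀ {τ}) K) π))
    (hred : ∀ c : integralClosure (Algebra.adjoin A₀ {τ}) K,
      algebraMap A₀ (integralClosure (Algebra.adjoin A₀ {τ}) K) π ∣ c ^ 2 →
        algebraMap A₀ (integralClosure (Algebra.adjoin A₀ {τ}) K) π ∣ c)
    {π' : A'} (hπ'0 : π' ≠ 0) (hπ'u : ¬ IsUnit π') {e : ℕ}
    (hram : π' ^ e ∣ algebraMap A₀ A' π)
    (g : A₀[X]) (hgm : g.Monic) (hroot : aeval π' g = 0) (hdeg : g.natDegree ≤ e) :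
    MgcRamified
      (algebraMap (integralClosure (Algebra.adjoin A₀ {τ}) K)
        (MgcChart (integralClosure (Algebra.adjoin A₀ {τ}) K) (algebraMap A' L π')))
      (nbcGen (integralClosure (Algebra.adjoin A₀ {τ}) K) (algebraMap A' L π'))
      (algebraMap A₀ (integralClosure (Algebra.adjoin A₀ {τ}) K) π) := by
  haveI := mgc_chart_isFractionRing (A₀ := A₀) (E₀ := E₀) τ
  haveI := mgc_chart_isIntegrallyClosed (A₀ := A₀) (E₀ := E₀) τ
  have hinjK : Function.Injective (algebraMap A₀ K) := by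
    rw [IsScalarTower.algebraMap_eq A₀ E₀ K]
    exact (algebraMap E₀ K).injective.comp (IsFractionRing.injective A₀ E₀)
  have hπ0 : algebraMap A₀ (integralClosure (Algebra.adjoin A₀ {τ}) K) π ≠ 0 := by
    intro h0
    have h1 : algebraMap A₀ K π = 0 := by
      rw [IsScalarTower.algebraMap_apply A₀ (integralClosure (Algebra.adjoin A₀ {τ}) K) K, h0,
        map_zero]
    exact hπ.ne_zero (hinjK (by rw [h1, map_zero]))
  obtain ⟨hE, -⟩ := nbc_ram_isEisensteinAt hπ hπ'0 hπ'u hram g hgm hroot hdeg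
  have hgdeg : 0 < g.natDegree := by
    rcases Nat.eq_zero_or_pos g.natDegree with h0 | h0
    · exfalso
      have h1 : g = 1 := hgm.natDegree_eq_zero.1 h0
      rw [h1] at hroot
      simp at hroot
    · exact h0
  have hrootL : aeval (algebraMap A' L π') g = 0 := nbc_aeval_algebraMap_eq_zero g hroot
  have hdvd := normalBC_gen_dvd_iff K hπ hπ0 hπu hred g hgm hE hgdeg hrootL
  refine ⟨(hdvd _).2 dvd_rfl, fun x => ?_, fun c hc => (hdvd c).1 hc⟩
  exact mgc_exists_eq_add_mul (algebraMap A' L π') x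

end Inst

end Fermat.Agent.UNIP
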