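/-
UNIP (S34/S35), direct route, piece MG-5a "chart hypotheses of (T′)", abstract stage (helper16).

Setting of MG-4 (`MGChartsMain`): `A₀ ⊆ A'` discrete valuation rings with uniformizers `π`, `π'`,
`K / E₀` and `L / E'` function fields, `L = K(π')`, `τ : K` a coordinate,
`B₀ = integralClosure A₀[τ] K`, `B' = zchClosure {τ}` (the chart of (T′) over `A'`), `B' = B₀[π']`.
`g` a semilinear automorphism of `L / E'` which is the identity on the image of `K`
(an element of the inertia group).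

* `mgs_trivMod` : `AtTrivMod π' τ g` (the hypotheses `hσB₁ … hτB₂` of `at_main_two`), from
  `g π' = π' + π' c`, `c ∈ A'`.
* `mgs_stage`   : the stage data of `unip_coord_node` at a closed point `𝔫' ∋ π'` of `B'` from a
  crossing `(π, X, Y)` at `𝔫' ∩ B₀` (`unip_morse_iter` over `B₀`, transported by MG-4).
* `mgs_hcoord`  : **the hypothesis `hcoord` of `at_main_two`** for the chart `τ`, from U5's output
  over `A₀` (smooth point or crossing at every closed point of the special fibre of `B₀`).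
* `mgs_u5_of_nodes` : the output of `nodes_chart` / `nodes_chart_hom` in the form used here.
* `mgs_SS1`     : (SS1) over `A'` in the `vert` form, from (SS1) over `A₀` in the two-maps form.
-/
import Fermat.Agent.UNIP.MGChartsInst
import Fermat.Agent.UNIP.MGGalAct
import Fermat.Agent.UNIP.Coord
import Fermat.Agent.UNIP.AbstractT

set_option autoImplicit false
set_option linter.style.haveILetI false
set_option linter.unusedSectionVars false
set_option linter.unusedVariables false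

open Polynomial IntermediateField Fermat.Agent.INJ AlgebraicCurve

namespace Fermat.Agent.UNIP

section Stage

universe u v

variable {A₀ E₀ K : Type u} [CommRing A₀] [IsDomain A₀] [IsDiscreteValuationRing A₀]
  [Field E₀] [CharZero E₀] [Algebra A₀ E₀] [IsFractionRing A₀ E₀]
  [Field K] [Algebra E₀ K] [Algebra A₀ K] [IsScalarTower A₀ E₀ K]

variable {A' E' L : Type v} [CommRing A'] [IsDomain A'] [IsDiscreteValuationRing A']
  [Field E'] [Algebra A' E'] [IsFractionRing A' E'] [CharZero E']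
  [Field L] [Algebra E' L] [Algebra A' L] [IsScalarTower A' E' L]
  [Algebra A₀ A'] [Algebra K L] [Algebra A₀ L] [IsScalarTower A₀ K L] [IsScalarTower A₀ A' L]

/-- **MG-5a, triviality modulo `π'`.**  A semilinear automorphism which is the identity on the
image of `K` and satisfies `g π' = π' + π' c` with `c ∈ A'` is trivial modulo `π'` on the chart
`τ` over `A'`. -/
theorem mgs_trivMod {π : A₀} (hπ : Irreducible π) (τ : K) [FiniteDimensional E₀⟮τ⟯ K]
    (hπu : ¬ IsUnit (algebraMap A₀ (integralClosure (Algebra.adjoin A₀ {τ}) K) π))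
    (hred : ∀ c : integralClosure (Algebra.adjoin A₀ {τ}) K,
      algebraMap A₀ (integralClosure (Algebra.adjoin A₀ {τ}) K) π ∣ c ^ 2 →
        algebraMap A₀ (integralClosure (Algebra.adjoin A₀ {τ}) K) π ∣ c)
    [Algebra.IsIntegral A₀ A']
    {π' : A'} (hπ'0 : π' ≠ 0) (hπ'u : ¬ IsUnit π') {e : ℕ}
    (hram : π' ^ e ∣ algebraMap A₀ A' π)
    (g₀ : A₀[X]) (hgm : g₀.Monic) (hroot : aeval π' g₀ = 0) (hdeg : g₀.natDegree ≤ e)
    (htop : Algebra.adjoin K ({algebraMap A' L π'} : Set L) = ⊤)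
    (g : SemilinearAut E' L)
    (hgK : ∀ x : K, g • algebraMap K L x = algebraMap K L x)
    (hgπ : ∃ c : A', g • algebraMap A' L π' =
      algebraMap A' L π' + algebraMap A' L π' * algebraMap A' L c) :
    AtTrivMod π' (algebraMap K L τ) g := by
  intro b hb
  have hb' := (mgc_isIntegral_iff (E₀ := E₀) hπ τ hπu hred hπ'0 hπ'u hram g₀ hgm hroot hdeg
    htop b).1 hb
  obtain ⟨c₀, hc₀⟩ := hgπ
  have hα : ∃ c ∈ Algebra.adjoin (integralClosure (Algebra.adjoin A₀ {τ}) K)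
      ({algebraMap A' L π'} : Set L),
      (SemilinearAut.toRingAut g : L ≃+* L).toRingHom (algebraMap A' L π') =
        algebraMap A' L π' + algebraMap A' L π' * c :=
    ⟨algebraMap A' L c₀, mgci_algebraMap_mem (E₀ := E₀) hπ τ hπu hred hπ'0 hπ'u hram g₀ hgm
      hroot hdeg htop c₀, hc₀⟩
  obtain ⟨c, hc, hgc⟩ := mga_adjoin_tau (R := integralClosure (Algebra.adjoin A₀ {τ}) K)
    (SemilinearAut.toRingAut g : L ≃+* L).toRingHom (algebraMap A' L π')
    (fun r => hgK (r : K)) hα b hb'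
  exact ⟨c, (mgc_isIntegral_iff (E₀ := E₀) hπ τ hπu hred hπ'0 hπ'u hram g₀ hgm hroot hdeg
    htop c).2 hc, hgc⟩

/-- The ramification index is positive: `π' ∣ π` in `A'`. -/
theorem mgs_unif_dvd {π : A₀} {π' : A'} {e : ℕ} (hram : π' ^ e ∣ algebraMap A₀ A' π)
    (g₀ : A₀[X]) (hgm : g₀.Monic) (hroot : aeval π' g₀ = 0) (hdeg : g₀.natDegree ≤ e) :
    π' ∣ algebraMap A₀ A' π := by
  have hgdeg : 0 < g₀.natDegree := by
    rcases Nat.eq_zero_or_pos g₀.natDegree with h0 | h0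
    · exfalso
      have h1 : g₀ = 1 := hgm.natDegree_eq_zero.1 h0
      rw [h1] at hroot
      simp at hroot
    · exact h0
  have he : 1 ≤ e := hgdeg.trans_le hdeg
  exact (dvd_pow_self π' (Nat.one_le_iff_ne_zero.1 he)).trans hram

/-- `A₀ → L` is injective. -/
theorem mgs_algebraMap_injective (E₀ K : Type u) [Field E₀] [Algebra A₀ E₀] [IsFractionRing A₀ E₀]
    [Field K] [Algebra E₀ K] [Algebra A₀ K] [IsScalarTower A₀ E₀ K]
    (L : Type v) [Field L] [Algebra K L] [Algebra A₀ L] [IsScalarTower A₀ K L] :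
    Function.Injective (algebraMap A₀ L) := by
  rw [IsScalarTower.algebraMap_eq A₀ K L, IsScalarTower.algebraMap_eq A₀ E₀ K]
  exact (algebraMap K L).injective.comp
    ((algebraMap E₀ K).injective.comp (IsFractionRing.injective A₀ E₀))

/-- **MG-5a, stage data.**  `B'` a chart over `A'` with the same special fibre as the chart
`B₀` over `A₀` (`MgcRamified j ϖ p`, MG-4), `𝔫' ∋ ϖ` a prime of `B'` whose contraction to `B₀` is
a crossing `(p, X, Y)`, `p ∣ X Y`.  Then for every `n ≥ 1` there are stage data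
`X' Y' = p ^ n' G'` in the image of `B₀`, with `NodesLocGen 𝔫' {ϖ, X', Y'}` and
`n ≤ n' ∨ G' ∉ 𝔫'`. -/
theorem mgs_stage {R R' : Type*} [CommRing R] [CommRing R'] {j : R →+* R'} {ϖ : R'} {p : R}
    (h : MgcRamified j ϖ p) (𝔫' : Ideal R') [𝔫'.IsPrime] (hϖ : ϖ ∈ 𝔫')
    (X Y : R) (hX : j X ∈ 𝔫') (hY : j Y ∈ 𝔫') (hXY : p ∣ X * Y)
    (hgen : NodesLocGen (𝔫'.comap j) {p, X, Y}) (n : ℕ) (hn : 1 ≤ n) :
    ∃ (n' : ℕ) (X' Y' G' : R), 1 ≤ n' ∧ j X' ∈ 𝔫' ∧ j Y' ∈ 𝔫' ∧
      j X' * j Y' = j p ^ n' * j G' ∧ NodesLocGen 𝔫' {ϖ, j X', j Y'} ∧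
      (n ≤ n' ∨ j G' ∉ 𝔫') := by
  obtain ⟨n', X', Y', G', hn', hX', hY', hXY', hgen', hthin⟩ :=
    unip_morse_iter (𝔫'.comap j) p (h.mgg_mem_comap hϖ) X Y (Ideal.mem_comap.2 hX)
      (Ideal.mem_comap.2 hY) hXY hgen n hn
  refine ⟨n', X', Y', G', hn', Ideal.mem_comap.1 hX', Ideal.mem_comap.1 hY', ?_,
    h.mgg_locGen_triple hϖ X' Y' hgen', hthin.imp id (fun hG hG' => hG (Ideal.mem_comap.2 hG'))⟩
  rw [← map_mul, hXY', map_mul, map_pow]

/-- **MG-5a, the hypothesis `hcoord` of (T′)** (`at_main_two`, `at_local_factor`) on the chart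
`τ` over the ramified base `A'`, from U5's output over `A₀`: every closed point of the special
fibre of `B₀ = integralClosure A₀[τ] K` is a smooth point `(π, s)` or a crossing `(π, X, Y)`,
`π ∣ X Y`.  `g` is the identity on the image of `K`, preserves `A'` and is trivial modulo `π'`
on the chart together with `g⁻¹` (`mgs_trivMod`); `P` is a rational point of the tube of `𝔫`
moved by `g`. -/
theorem mgs_hcoord {π : A₀} (hπ : Irreducible π) (τ : K) [FiniteDimensional E₀⟮τ⟯ K]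
    (hπu : ¬ IsUnit (algebraMap A₀ (integralClosure (Algebra.adjoin A₀ {τ}) K) π))
    (hred : ∀ c : integralClosure (Algebra.adjoin A₀ {τ}) K,
      algebraMap A₀ (integralClosure (Algebra.adjoin A₀ {τ}) K) π ∣ c ^ 2 →
        algebraMap A₀ (integralClosure (Algebra.adjoin A₀ {τ}) K) π ∣ c)
    [Algebra.IsIntegral A₀ A']
    {π' : A'} (hπ' : Irreducible π') {e : ℕ}
    (hram : π' ^ e ∣ algebraMap A₀ A' π)
    (g₀ : A₀[X]) (hgm : g₀.Monic) (hroot : aeval π' g₀ = 0) (hdeg : g₀.natDegree ≤ e)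
    (htop : Algebra.adjoin K ({algebraMap A' L π'} : Set L) = ⊤)
    (ht : Transcendental E' (algebraMap K L τ)) [FiniteDimensional E'⟮algebraMap K L τ⟯ L]
    (hU5 : ∀ 𝔫 : Ideal (integralClosure (Algebra.adjoin A₀ {τ}) K), 𝔫.IsMaximal →
      algebraMap A₀ (integralClosure (Algebra.adjoin A₀ {τ}) K) π ∈ 𝔫 →
      (∃ s ∈ 𝔫, NodesLocGen 𝔫 {algebraMap A₀ (integralClosure (Algebra.adjoin A₀ {τ}) K) π, s}) ∨
      (∃ X Y : integralClosure (Algebra.adjoin A₀ {τ}) K, X ∈ 𝔫 ∧ Y ∈ 𝔫 ∧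
        algebraMap A₀ (integralClosure (Algebra.adjoin A₀ {τ}) K) π ∣ X * Y ∧
        NodesLocGen 𝔫 {algebraMap A₀ (integralClosure (Algebra.adjoin A₀ {τ}) K) π, X, Y}))
    (g : SemilinearAut E' L)
    (hgK : ∀ x : K, g • algebraMap K L x = algebraMap K L x)
    (hgA : ∀ α : A', ∃ α' : A', g • algebraMap A' L α = algebraMap A' L α')
    (hg : AtTrivMod π' (algebraMap K L τ) g) (hg' : AtTrivMod π' (algebraMap K L τ) g⁻¹)
    (𝔫 : AtPt (F := L) π' (algebraMap K L τ)) (P : Place E' L)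
    (hP : LsTube ↥(zchClosure (A₀ := A') ({algebraMap K L τ} : Set L)) (algebraMap K L τ) 𝔫.1 P)
    (hgP : g • P ≠ P)
    (hrat : ∀ f ∈ P.toValuationSubring,
      ∃ c : E', f - algebraMap E' L c ∈ P.toValuationSubring.nonunits) :
    ∃ f : L, f ≠ 0 ∧ P.ord f = 1 ∧ ∀ Q : Place E' L,
      LsTube ↥(zchClosure (A₀ := A') ({algebraMap K L τ} : Set L)) (algebraMap K L τ) 𝔫.1 Q →
        g • Q ≠ Q → Q ≠ P → Q.ord f = 0 := by
  classical
  have hinj : Function.Injective
      (algebraMap ↥(zchClosure (A₀ := A') ({algebraMap K L τ} : Set L)) L) :=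
    Subtype.val_injective
  have hB : ∀ y : L,
      y ∈ (algebraMap ↥(zchClosure (A₀ := A') ({algebraMap K L τ} : Set L)) L).range ↔
        IsIntegral (Algebra.adjoin A' ({algebraMap K L τ} : Set L)) y := by
    intro y
    constructor
    · rintro ⟨b, rfl⟩
      exact mem_zchClosure.mp b.2
    · intro hy
      exact ⟨⟨y, mem_zchClosure.mpr hy⟩, rfl⟩
  haveI : IsNoetherianRing ↥(zchClosure (A₀ := A') ({algebraMap K L τ} : Set L)) :=
    chart_closure_isNoetherianRing (A₀ := A') (E := E') ht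
  obtain ⟨j, hj, hR⟩ := mgc_ramified (E₀ := E₀)
    (B' := ↥(zchClosure (A₀ := A') ({algebraMap K L τ} : Set L))) hπ τ hπu hred hπ'.ne_zero
    hπ'.not_isUnit hram g₀ hgm hroot hdeg htop hinj hB
  haveI h𝔫max : 𝔫.1.IsMaximal := 𝔫.2.1
  haveI h𝔫prime : 𝔫.1.IsPrime := h𝔫max.isPrime
  have hϖ : algebraMap A' ↥(zchClosure (A₀ := A') ({algebraMap K L τ} : Set L)) π' ∈ 𝔫.1 := 𝔫.2.2
  have hmax := hR.mgg_comap_isMaximal 𝔫.1 hϖ
  have hp𝔫 := hR.mgg_mem_comap hϖ
  have hPt : UnipTubePoint (algebraMap K L τ) 𝔫.1 P := ⟨hP.1, hP.2, hrat⟩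
  have hgB := hg.mem 𝔫.1 hϖ
  have hgB₀' : ∀ b : ↥(zchClosure (A₀ := A') ({algebraMap K L τ} : Set L)),
      ∃ b' : ↥(zchClosure (A₀ := A') ({algebraMap K L τ} : Set L)),
        g⁻¹ • algebraMap ↥(zchClosure (A₀ := A') ({algebraMap K L τ} : Set L)) L b =
          algebraMap ↥(zchClosure (A₀ := A') ({algebraMap K L τ} : Set L)) L b' := fun b =>
    ⟨⟨g⁻¹ • (b : L), mem_zchClosure.mpr (hg'.isIntegral (mem_zchClosure.mp b.2))⟩, rfl⟩
  rcases hU5 _ hmax hp𝔫 with ⟨s, hs, hgen⟩ | ⟨X, Y, hX, hY, hXY, hgen⟩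
  · obtain ⟨f, hf0, hf1, hfQ⟩ := unip_coord_disc hπ' (algebraMap K L τ) ht hinj hB 𝔫.1 hϖ (j s)
      (Ideal.mem_comap.1 hs) (hR.mgg_locGen_pair hϖ s hgen) P hPt
    exact ⟨f, hf0, hf1, fun Q hQ _ hQP => hfQ Q hQ.1 hQ.2 hQP⟩
  · -- the image of `π` in `B'`
    have hjp : j (algebraMap A₀ (integralClosure (Algebra.adjoin A₀ {τ}) K) π) =
        algebraMap A' ↥(zchClosure (A₀ := A') ({algebraMap K L τ} : Set L))
          (algebraMap A₀ A' π) := by
      apply hinj
      rw [hj, ← IsScalarTower.algebraMap_apply A' _ L, ← IsScalarTower.algebraMap_apply A₀ A' L,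
        IsScalarTower.algebraMap_apply A₀ K L]
      rfl
    have hq0 : algebraMap A₀ A' π ≠ 0 := by
      intro h0
      have h1 : algebraMap A₀ L π = 0 := by
        rw [IsScalarTower.algebraMap_apply A₀ A' L, h0, map_zero]
      exact hπ.ne_zero (mgs_algebraMap_injective E₀ K L (by rw [h1, map_zero]))
    have hgq : g • algebraMap A' L (algebraMap A₀ A' π) = algebraMap A' L (algebraMap A₀ A' π) := by
      rw [← IsScalarTower.algebraMap_apply A₀ A' L, IsScalarTower.algebraMap_apply A₀ K L]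
      exact hgK _
    have hstage : ∀ n : ℕ, 1 ≤ n → ∃ (n' : ℕ)
        (X Y G : ↥(zchClosure (A₀ := A') ({algebraMap K L τ} : Set L))), X ∈ 𝔫.1 ∧ Y ∈ 𝔫.1 ∧
        X * Y = algebraMap A' ↥(zchClosure (A₀ := A') ({algebraMap K L τ} : Set L))
          (algebraMap A₀ A' π) ^ n' * G ∧
        NodesLocGen 𝔫.1
          {algebraMap A' ↥(zchClosure (A₀ := A') ({algebraMap K L τ} : Set L)) π', X, Y} ∧
        g • algebraMap ↥(zchClosure (A₀ := A') ({algebraMap K L τ} : Set L)) L X =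
          algebraMap ↥(zchClosure (A₀ := A') ({algebraMap K L τ} : Set L)) L X ∧
        g • algebraMap ↥(zchClosure (A₀ := A') ({algebraMap K L τ} : Set L)) L Y =
          algebraMap ↥(zchClosure (A₀ := A') ({algebraMap K L τ} : Set L)) L Y ∧
        (n ≤ n' ∨ G ∉ 𝔫.1) := by
      intro n hn
      obtain ⟨n', X', Y', G', -, hX', hY', hXY', hgen', hthin⟩ :=
        mgs_stage hR 𝔫.1 hϖ X Y (Ideal.mem_comap.1 hX) (Ideal.mem_comap.1 hY) hXY hgen n hn
      refine ⟨n', j X', j Y', j G', hX', hY', ?_, hgen', ?_, ?_, hthin⟩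
      · rw [hXY', hjp]
      · rw [hj]; exact hgK _
      · rw [hj]; exact hgK _
    obtain ⟨f, hf0, hf1, hfQ⟩ := unip_coord_node hπ' (algebraMap K L τ) ht hinj hB 𝔫.1 hϖ g
      (hgK τ) hgB hgB₀' hgA (algebraMap A₀ A' π) hq0
      (mgs_unif_dvd hram g₀ hgm hroot hdeg) hgq hstage P hPt hgP
    exact ⟨f, hf0, hf1, fun Q hQ _ hQP => hfQ Q hQ.1 hQ.2 hQP⟩

/-- The output of `nodes_chart` / `nodes_chart_hom` (U5), in the form of the hypothesis `hU5` of
`mgs_hcoord`. -/
theorem mgs_u5_of_nodes {B S : Type*} [CommRing B] [CommRing S] {p : B} {ρ ρ₀ : B →+* S}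
    {𝔫 : Ideal B}
    (h : (∃ s ∈ 𝔫, NodesLocGen 𝔫 {p, s}) ∨
      ((∀ x : B, ρ x = 0 → x ∈ 𝔫) ∧ (∀ x : B, ρ₀ x = 0 → x ∈ 𝔫) ∧
        ∃ X Y : B, ρ X = 0 ∧ ρ₀ Y = 0 ∧ NodesSmoothAt ρ₀ 𝔫 X ∧ NodesSmoothAt ρ 𝔫 Y ∧
          p ∣ X * Y ∧ NodesLocGen 𝔫 {p, X, Y})) :
    (∃ s ∈ 𝔫, NodesLocGen 𝔫 {p, s}) ∨
      (∃ X Y : B, X ∈ 𝔫 ∧ Y ∈ 𝔫 ∧ p ∣ X * Y ∧ NodesLocGen 𝔫 {p, X, Y}) := by
  rcases h with h | ⟨h1, h2, X, Y, hX, hY, -, -, hXY, hgen⟩
  · exact Or.inl h
  · exact Or.inr ⟨X, Y, h1 X hX, h2 Y hY, hXY, hgen⟩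

/-- **MG-5a, (SS1) over the ramified base**, in the form of the hypothesis `hSS1` of
`at_main_two`: from (SS1) over `A₀` for the traces on `K` of the vertical valuation rings `V c`
of `L`. -/
theorem mgs_SS1 {π : A₀} (hπ : Irreducible π) (τ : K) [FiniteDimensional E₀⟮τ⟯ K]
    (hπu : ¬ IsUnit (algebraMap A₀ (integralClosure (Algebra.adjoin A₀ {τ}) K) π))
    (hred : ∀ c : integralClosure (Algebra.adjoin A₀ {τ}) K,
      algebraMap A₀ (integralClosure (Algebra.adjoin A₀ {τ}) K) π ∣ c ^ 2 →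
        algebraMap A₀ (integralClosure (Algebra.adjoin A₀ {τ}) K) π ∣ c)
    [Algebra.IsIntegral A₀ A']
    {π' : A'} (hπ'0 : π' ≠ 0) (hπ'u : ¬ IsUnit π') {e : ℕ}
    (hram : π' ^ e ∣ algebraMap A₀ A' π)
    (g₀ : A₀[X]) (hgm : g₀.Monic) (hroot : aeval π' g₀ = 0) (hdeg : g₀.natDegree ≤ e)
    (htop : Algebra.adjoin K ({algebraMap A' L π'} : Set L) = ⊤)
    {κ : Type*} (V : κ → ValuationSubring L)
    (hBV : ∀ c (b : L), IsIntegral ↥(Algebra.adjoin A' {algebraMap K L τ}) b → b ∈ V c)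
    (hπV : ∀ c, algebraMap A' L π' ∈ (V c).nonunits)
    (hSS1₀ : ∀ x : integralClosure (Algebra.adjoin A₀ {τ}) K,
      (∀ c, algebraMap K L (x : K) ∈ (V c).nonunits) →
        algebraMap A₀ (integralClosure (Algebra.adjoin A₀ {τ}) K) π ∣ x) :
    ∀ b : L, IsIntegral ↥(Algebra.adjoin A' {algebraMap K L τ}) b →
      (∀ c, b ∈ (V c).nonunits) →
      ∃ b' : L, IsIntegral ↥(Algebra.adjoin A' {algebraMap K L τ}) b' ∧
        b = algebraMap A' L π' * b' := by
  intro b hb hbV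
  have hinj : Function.Injective
      (algebraMap ↥(zchClosure (A₀ := A') ({algebraMap K L τ} : Set L)) L) :=
    Subtype.val_injective
  have hB : ∀ y : L,
      y ∈ (algebraMap ↥(zchClosure (A₀ := A') ({algebraMap K L τ} : Set L)) L).range ↔
        IsIntegral (Algebra.adjoin A' ({algebraMap K L τ} : Set L)) y := by
    intro y
    constructor
    · rintro ⟨b, rfl⟩
      exact mem_zchClosure.mp b.2
    · intro hy
      exact ⟨⟨y, mem_zchClosure.mpr hy⟩, rfl⟩
  obtain ⟨j, hj, hR⟩ := mgc_ramified (E₀ := E₀)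
    (B' := ↥(zchClosure (A₀ := A') ({algebraMap K L τ} : Set L))) hπ τ hπu hred hπ'0
    hπ'u hram g₀ hgm hroot hdeg htop hinj hB
  obtain ⟨c, z, hcz⟩ := hR.decomp ⟨b, mem_zchClosure.mpr hb⟩
  have hcz' : b = algebraMap K L (c : K) + algebraMap A' L π' * (z : L) := by
    have := congrArg (algebraMap ↥(zchClosure (A₀ := A') ({algebraMap K L τ} : Set L)) L) hcz
    rw [map_add, map_mul, hj, ← IsScalarTower.algebraMap_apply A' _ L] at this
    exact this
  have hc : ∀ k, algebraMap K L (c : K) ∈ (V k).nonunits := by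
    intro k
    have h1 : algebraMap K L (c : K) = b - algebraMap A' L π' * (z : L) := by
      rw [hcz']; ring
    rw [h1]
    have hz : (z : L) ∈ V k := hBV k _ (mem_zchClosure.mp z.2)
    have h2 : algebraMap A' L π' * (z : L) ∈ (V k).nonunits := by
      rw [ValuationSubring.mem_nonunits_iff, map_mul]
      have h3 := (ValuationSubring.mem_nonunits_iff (A := V k)).1 (hπV k)
      have h4 := ((V k).valuation_le_one_iff _).2 hz
      calc (V k).valuation (algebraMap A' L π') * (V k).valuation (z : L)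
          ≤ (V k).valuation (algebraMap A' L π') * 1 := by gcongr
        _ = (V k).valuation (algebraMap A' L π') := mul_one _
        _ < 1 := h3
    rw [ValuationSubring.mem_nonunits_iff] at h2 ⊢
    have h5 := (ValuationSubring.mem_nonunits_iff (A := V k)).1 (hbV k)
    exact lt_of_le_of_lt ((V k).valuation.map_sub _ _) (max_lt h5 h2)
  obtain ⟨c', hc'⟩ := hSS1₀ c hc
  obtain ⟨w, hw⟩ := hR.dvd
  refine ⟨((w * j c' + z : ↥(zchClosure (A₀ := A') ({algebraMap K L τ} : Set L))) : L),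
    mem_zchClosure.mp (w * j c' + z).2, ?_⟩
  have h6 : j c = algebraMap A' ↥(zchClosure (A₀ := A') ({algebraMap K L τ} : Set L)) π' *
      (w * j c') := by
    rw [hc', map_mul, hw]; ring
  have h7 := congrArg (algebraMap ↥(zchClosure (A₀ := A') ({algebraMap K L τ} : Set L)) L) h6
  rw [hj, map_mul, ← IsScalarTower.algebraMap_apply A' _ L] at h7
  have h8 : algebraMap K L (c : K) = algebraMap A' L π' *
      ((w * j c' : ↥(zchClosure (A₀ := A') ({algebraMap K L τ} : Set L))) : L) := h7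
  have h9 : ((w * j c' + z : ↥(zchClosure (A₀ := A') ({algebraMap K L τ} : Set L))) : L) =
      ((w * j c' : ↥(zchClosure (A₀ := A') ({algebraMap K L τ} : Set L))) : L) + (z : L) := rfl
  rw [hcz', h8, h9, mul_add]

end Stage

end Fermat.Agent.UNIP
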