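/-
UNIP (S34/S35), direct route, piece MG-5a "chart hypotheses of (T′)", modular layer (helper16).

`A₀ ⊆ A'` discrete valuation rings with fraction fields `E₀ → E'` (any fields of characteristic
`0`), `K = F_N(E₀) = modularFunctionFieldFullC E₀ N`, `L = F_N(E')`, `K → L` the coefficientwise
embedding `mgcEmb`, `s` a ring automorphism of `E'` which is the identity on `E₀`, preserves `A'`
and moves the uniformizer `π'` of `A'` by a unit `≡ 1`; `g = mgGal N s` the coefficientwise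
semilinear automorphism of `L / E'`.  Instances `Algebra A₀ K`, `Algebra A' L` GENERIC (with the
towers over `E₀`, `E'`), as in U5 / (T′).

* `mgcc_smul_emb`  : `g` is the identity on the image of `K`;  `mgcc_emb_bgJ` : `j ↦ j`.
* `mgcc_trivMod`   : `AtTrivMod π' t (mgGal N s)` for `t = ` the image of a coordinate `τ` of `K`
                     (`hσB₁ … hτB₂` of `at_main_two`).
* `mgcc_hcoord`    : the hypothesis `hcoord` of `at_main_two` on the chart `t`, from U5's output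
                     on the chart `τ` of `K` over `A₀`.
* `mgcc_SS1`       : the hypothesis `hSS1` of `at_main_two`.
* `mgcc_trivMod_j`, `mgcc_trivMod_jinv`, `mgcc_hcoord_j`, `mgcc_hcoord_jinv`, `mgcc_SS1_j` :
  the same for `t = bgJ E' N` (`= j`) and `t⁻¹`, every instance argument discharged.
-/
import Fermat.Agent.UNIP.MGChartsStage
import Fermat.Agent.UNIP.MGChartsField
import Fermat.Agent.INJ.BGConstJ
import Fermat.Agent.INJ.BGFin

set_option autoImplicit false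
set_option linter.style.haveILetI false
set_option linter.unusedSectionVars false
set_option linter.unusedVariables false

open Polynomial IntermediateField Fermat.Agent.INJ AlgebraicCurve ModularCurve

namespace Fermat.Agent.UNIP

section Emb

variable {E₀ E' : Type*} [Field E₀] [Field E'] [Algebra E₀ E'] (N : ℕ)

/-- `mgGal N s` is the identity on the image of `F_N(E₀)` when `s` is the identity on `E₀`. -/
theorem mgcc_smul_emb (s : E' ≃+* E')
    (hs : ∀ a : E₀, s (algebraMap E₀ E' a) = algebraMap E₀ E' a)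
    (x : modularFunctionFieldFullC E₀ N) :
    mgGal N s • mgcEmb E₀ E' N x = mgcEmb E₀ E' N x := by
  apply Subtype.ext
  rw [coe_mgGal_smul, mgcEmb_coe, coeffMap_coeffMap]
  exact coeffMap_congr (RingHom.ext fun a => hs a) _

/-- `j ↦ j`. -/
theorem mgcc_emb_bgJ : mgcEmb E₀ E' N (bgJ E₀ N) = bgJ E' N :=
  Subtype.ext (coeffMap_jqModC (algebraMap E₀ E'))

theorem mgcc_emb_bgJ_inv : mgcEmb E₀ E' N (bgJ E₀ N)⁻¹ = (bgJ E' N)⁻¹ := by
  rw [map_inv₀, mgcc_emb_bgJ]

/-- the action on constants -/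
theorem mgcc_smul_algebraMap (s : E' ≃+* E') (a : E') :
    mgGal N s • algebraMap E' (modularFunctionFieldFullC E' N) a =
      algebraMap E' (modularFunctionFieldFullC E' N) (s a) :=
  mgRingAut_algebraMap N s a

theorem mgcc_mgGal_inv (s : E' ≃+* E') : (mgGal (K := E') N s)⁻¹ = mgGal N s⁻¹ :=
  (map_inv (mgGal (K := E') N) s).symm

end Emb

section Modular

universe u v

variable {A₀ E₀ : Type u} [CommRing A₀] [IsDomain A₀] [IsDiscreteValuationRing A₀]
  [Field E₀] [CharZero E₀] [Algebra A₀ E₀] [IsFractionRing A₀ E₀]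
  {A' E' : Type v} [CommRing A'] [IsDomain A'] [IsDiscreteValuationRing A']
  [Field E'] [CharZero E'] [Algebra A' E'] [IsFractionRing A' E']
  [Algebra E₀ E'] [Algebra A₀ A'] (N : ℕ)
  [Algebra A₀ (modularFunctionFieldFullC E₀ N)]
  [IsScalarTower A₀ E₀ (modularFunctionFieldFullC E₀ N)]
  [Algebra A' (modularFunctionFieldFullC E' N)]
  [IsScalarTower A' E' (modularFunctionFieldFullC E' N)]

/-- The `A₀`-algebra structure of `F_N(E')` through `F_N(E₀)`. -/
@[reducible]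
noncomputable def mgccAlgebra :
    Algebra A₀ (modularFunctionFieldFullC E' N) :=
  ((mgcEmb E₀ E' N).comp (algebraMap A₀ (modularFunctionFieldFullC E₀ N))).toAlgebra

theorem mgcc_isScalarTower :
    letI := mgcAlgebra E₀ E' N
    letI := mgccAlgebra (A₀ := A₀) (E₀ := E₀) (E' := E') N
    IsScalarTower A₀ (modularFunctionFieldFullC E₀ N) (modularFunctionFieldFullC E' N) := by
  letI := mgcAlgebra E₀ E' N
  letI := mgccAlgebra (A₀ := A₀) (E₀ := E₀) (E' := E') N
  apply IsScalarTower.of_algebraMap_eq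
  intro a
  rfl

theorem mgcc_isScalarTower'
    (hcomp : ∀ a : A₀, algebraMap A' E' (algebraMap A₀ A' a) =
      algebraMap E₀ E' (algebraMap A₀ E₀ a)) :
    letI := mgccAlgebra (A₀ := A₀) (E₀ := E₀) (E' := E') N
    IsScalarTower A₀ A' (modularFunctionFieldFullC E' N) := by
  letI := mgccAlgebra (A₀ := A₀) (E₀ := E₀) (E' := E') N
  apply IsScalarTower.of_algebraMap_eq
  intro a
  show mgcEmb E₀ E' N (algebraMap A₀ (modularFunctionFieldFullC E₀ N) a) = _
  rw [IsScalarTower.algebraMap_apply A₀ E₀ (modularFunctionFieldFullC E₀ N), mgcEmb_algebraMap,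
    IsScalarTower.algebraMap_apply A' E' (modularFunctionFieldFullC E' N), hcomp]

/-- `F_N(E') = F_N(E₀)[π']`. -/
theorem mgcc_htop {π' : A'}
    (hadj : Algebra.adjoin E₀ ({algebraMap A' E' π'} : Set E') = ⊤)
    (halg : IsAlgebraic E₀ (algebraMap A' E' π')) :
    letI := mgcAlgebra E₀ E' N
    Algebra.adjoin (modularFunctionFieldFullC E₀ N)
      ({algebraMap A' (modularFunctionFieldFullC E' N) π'} :
        Set (modularFunctionFieldFullC E' N)) = ⊤ := by
  letI := mgcAlgebra E₀ E' N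
  rw [IsScalarTower.algebraMap_apply A' E' (modularFunctionFieldFullC E' N)]
  exact mgc_algebra_adjoin_eq_top E₀ E' N hadj halg

/-- **MG-5a (modular), triviality modulo `π'`** on the chart `t = ` image of `τ`. -/
theorem mgcc_trivMod
    (hcomp : ∀ a : A₀, algebraMap A' E' (algebraMap A₀ A' a) =
      algebraMap E₀ E' (algebraMap A₀ E₀ a))
    [Algebra.IsIntegral A₀ A']
    {π : A₀} (hπ : Irreducible π) (τ : modularFunctionFieldFullC E₀ N)
    [FiniteDimensional E₀⟮τ⟯ (modularFunctionFieldFullC E₀ N)]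
    (hπu : ¬ IsUnit (algebraMap A₀
      (integralClosure (Algebra.adjoin A₀ {τ}) (modularFunctionFieldFullC E₀ N)) π))
    (hred : ∀ c : integralClosure (Algebra.adjoin A₀ {τ}) (modularFunctionFieldFullC E₀ N),
      algebraMap A₀ (integralClosure (Algebra.adjoin A₀ {τ})
        (modularFunctionFieldFullC E₀ N)) π ∣ c ^ 2 →
      algebraMap A₀ (integralClosure (Algebra.adjoin A₀ {τ})
        (modularFunctionFieldFullC E₀ N)) π ∣ c)
    {π' : A'} (hπ'0 : π' ≠ 0) (hπ'u : ¬ IsUnit π') {e : ℕ}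
    (hram : π' ^ e ∣ algebraMap A₀ A' π)
    (g₀ : A₀[X]) (hgm : g₀.Monic) (hroot : aeval π' g₀ = 0) (hdeg : g₀.natDegree ≤ e)
    (hadj : Algebra.adjoin E₀ ({algebraMap A' E' π'} : Set E') = ⊤)
    (halg : IsAlgebraic E₀ (algebraMap A' E' π'))
    (s : E' ≃+* E') (hsE₀ : ∀ a : E₀, s (algebraMap E₀ E' a) = algebraMap E₀ E' a)
    (hsπ : ∃ c : A', s (algebraMap A' E' π') =
      algebraMap A' E' π' + algebraMap A' E' π' * algebraMap A' E' c)
    {t : modularFunctionFieldFullC E' N} (ht : mgcEmb E₀ E' N τ = t) :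
    AtTrivMod π' t (mgGal N s) := by
  letI := mgcAlgebra E₀ E' N
  letI := mgccAlgebra (A₀ := A₀) (E₀ := E₀) (E' := E') N
  haveI := mgcc_isScalarTower (A₀ := A₀) (E₀ := E₀) (E' := E') N
  haveI := mgcc_isScalarTower' (A₀ := A₀) (E₀ := E₀) (A' := A') (E' := E') N hcomp
  subst ht
  refine mgs_trivMod (E₀ := E₀) (E' := E') hπ τ hπu hred hπ'0 hπ'u hram g₀ hgm hroot hdeg
    (mgcc_htop (E₀ := E₀) N hadj halg) (mgGal N s) (fun x => mgcc_smul_emb N s hsE₀ x) ?_
  obtain ⟨c, hc⟩ := hsπ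
  refine ⟨c, ?_⟩
  rw [IsScalarTower.algebraMap_apply A' E' (modularFunctionFieldFullC E' N),
    IsScalarTower.algebraMap_apply A' E' (modularFunctionFieldFullC E' N) c,
    mgcc_smul_algebraMap, hc, map_add, map_mul]

/-- **MG-5a (modular), the hypothesis `hcoord` of (T′)** on the chart `t = ` image of `τ`, from
U5's output on the chart `τ` of `F_N(E₀)` over `A₀`. -/
theorem mgcc_hcoord
    (hcomp : ∀ a : A₀, algebraMap A' E' (algebraMap A₀ A' a) =
      algebraMap E₀ E' (algebraMap A₀ E₀ a))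
    [Algebra.IsIntegral A₀ A']
    {π : A₀} (hπ : Irreducible π) (τ : modularFunctionFieldFullC E₀ N)
    [FiniteDimensional E₀⟮τ⟯ (modularFunctionFieldFullC E₀ N)]
    (hπu : ¬ IsUnit (algebraMap A₀
      (integralClosure (Algebra.adjoin A₀ {τ}) (modularFunctionFieldFullC E₀ N)) π))
    (hred : ∀ c : integralClosure (Algebra.adjoin A₀ {τ}) (modularFunctionFieldFullC E₀ N),
      algebraMap A₀ (integralClosure (Algebra.adjoin A₀ {τ})
        (modularFunctionFieldFullC E₀ N)) π ∣ c ^ 2 →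
      algebraMap A₀ (integralClosure (Algebra.adjoin A₀ {τ})
        (modularFunctionFieldFullC E₀ N)) π ∣ c)
    {π' : A'} (hπ' : Irreducible π') {e : ℕ}
    (hram : π' ^ e ∣ algebraMap A₀ A' π)
    (g₀ : A₀[X]) (hgm : g₀.Monic) (hroot : aeval π' g₀ = 0) (hdeg : g₀.natDegree ≤ e)
    (hadj : Algebra.adjoin E₀ ({algebraMap A' E' π'} : Set E') = ⊤)
    (halg : IsAlgebraic E₀ (algebraMap A' E' π'))
    (hU5 : ∀ 𝔫 : Ideal (integralClosure (Algebra.adjoin A₀ {τ})
        (modularFunctionFieldFullC E₀ N)), 𝔫.IsMaximal →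
      algebraMap A₀ (integralClosure (Algebra.adjoin A₀ {τ})
        (modularFunctionFieldFullC E₀ N)) π ∈ 𝔫 →
      (∃ s ∈ 𝔫, NodesLocGen 𝔫 {algebraMap A₀ (integralClosure (Algebra.adjoin A₀ {τ})
        (modularFunctionFieldFullC E₀ N)) π, s}) ∨
      (∃ X Y : integralClosure (Algebra.adjoin A₀ {τ}) (modularFunctionFieldFullC E₀ N),
        X ∈ 𝔫 ∧ Y ∈ 𝔫 ∧
        algebraMap A₀ (integralClosure (Algebra.adjoin A₀ {τ})
          (modularFunctionFieldFullC E₀ N)) π ∣ X * Y ∧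
        NodesLocGen 𝔫 {algebraMap A₀ (integralClosure (Algebra.adjoin A₀ {τ})
          (modularFunctionFieldFullC E₀ N)) π, X, Y}))
    (s : E' ≃+* E') (hsE₀ : ∀ a : E₀, s (algebraMap E₀ E' a) = algebraMap E₀ E' a)
    (hsA : ∀ a : A', ∃ a' : A', s (algebraMap A' E' a) = algebraMap A' E' a')
    (hsπ : ∃ c : A', s (algebraMap A' E' π') =
      algebraMap A' E' π' + algebraMap A' E' π' * algebraMap A' E' c)
    (hsπ' : ∃ c : A', s⁻¹ (algebraMap A' E' π') =
      algebraMap A' E' π' + algebraMap A' E' π' * algebraMap A' E' c)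
    {t : modularFunctionFieldFullC E' N} (ht : mgcEmb E₀ E' N τ = t)
    (htr : Transcendental E' t) [FiniteDimensional E'⟮t⟯ (modularFunctionFieldFullC E' N)]
    (𝔫 : AtPt (F := modularFunctionFieldFullC E' N) π' t)
    (P : Place E' (modularFunctionFieldFullC E' N))
    (hP : LsTube ↥(zchClosure (A₀ := A') ({t} : Set (modularFunctionFieldFullC E' N))) t 𝔫.1 P)
    (hgP : mgGal N s • P ≠ P)
    (hrat : ∀ f ∈ P.toValuationSubring,
      ∃ c : E', f - algebraMap E' (modularFunctionFieldFullC E' N) c ∈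
        P.toValuationSubring.nonunits) :
    ∃ f : modularFunctionFieldFullC E' N, f ≠ 0 ∧ P.ord f = 1 ∧
      ∀ Q : Place E' (modularFunctionFieldFullC E' N),
        LsTube ↥(zchClosure (A₀ := A') ({t} : Set (modularFunctionFieldFullC E' N))) t 𝔫.1 Q →
          mgGal N s • Q ≠ Q → Q ≠ P → Q.ord f = 0 := by
  have hsE₀' : ∀ a : E₀, s⁻¹ (algebraMap E₀ E' a) = algebraMap E₀ E' a := fun a => by
    have h1 := congrArg (s⁻¹ : E' ≃+* E') (hsE₀ a)
    rw [show (s⁻¹ : E' ≃+* E') (s (algebraMap E₀ E' a)) = algebraMap E₀ E' a from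
      s.symm_apply_apply _] at h1
    exact h1.symm
  have hg := mgcc_trivMod (A₀ := A₀) (E₀ := E₀) (A' := A') (E' := E') N hcomp hπ τ hπu hred
    hπ'.ne_zero hπ'.not_isUnit hram g₀ hgm hroot hdeg hadj halg s hsE₀ hsπ ht
  have hg' := mgcc_trivMod (A₀ := A₀) (E₀ := E₀) (A' := A') (E' := E') N hcomp hπ τ hπu hred
    hπ'.ne_zero hπ'.not_isUnit hram g₀ hgm hroot hdeg hadj halg s⁻¹ hsE₀' hsπ' ht
  rw [← mgcc_mgGal_inv] at hg'
  letI := mgcAlgebra E₀ E' N
  letI := mgccAlgebra (A₀ := A₀) (E₀ := E₀) (E' := E') N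
  haveI := mgcc_isScalarTower (A₀ := A₀) (E₀ := E₀) (E' := E') N
  haveI := mgcc_isScalarTower' (A₀ := A₀) (E₀ := E₀) (A' := A') (E' := E') N hcomp
  subst ht
  refine mgs_hcoord (E₀ := E₀) (E' := E') hπ τ hπu hred hπ' hram g₀ hgm hroot hdeg
    (mgcc_htop (E₀ := E₀) N hadj halg) htr hU5 (mgGal N s)
    (fun x => mgcc_smul_emb N s hsE₀ x) ?_ hg hg' 𝔫 P hP hgP hrat
  intro α
  obtain ⟨α', hα'⟩ := hsA α
  refine ⟨α', ?_⟩
  rw [IsScalarTower.algebraMap_apply A' E' (modularFunctionFieldFullC E' N),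
    IsScalarTower.algebraMap_apply A' E' (modularFunctionFieldFullC E' N) α',
    mgcc_smul_algebraMap, hα']

/-- **MG-5a (modular), the hypothesis `hSS1` of (T′)** on the chart `t = ` image of `τ`, from
(SS1) over `A₀` for the traces on `F_N(E₀)` of the vertical valuation rings of `F_N(E')`. -/
theorem mgcc_SS1
    (hcomp : ∀ a : A₀, algebraMap A' E' (algebraMap A₀ A' a) =
      algebraMap E₀ E' (algebraMap A₀ E₀ a))
    [Algebra.IsIntegral A₀ A']
    {π : A₀} (hπ : Irreducible π) (τ : modularFunctionFieldFullC E₀ N)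
    [FiniteDimensional E₀⟮τ⟯ (modularFunctionFieldFullC E₀ N)]
    (hπu : ¬ IsUnit (algebraMap A₀
      (integralClosure (Algebra.adjoin A₀ {τ}) (modularFunctionFieldFullC E₀ N)) π))
    (hred : ∀ c : integralClosure (Algebra.adjoin A₀ {τ}) (modularFunctionFieldFullC E₀ N),
      algebraMap A₀ (integralClosure (Algebra.adjoin A₀ {τ})
        (modularFunctionFieldFullC E₀ N)) π ∣ c ^ 2 →
      algebraMap A₀ (integralClosure (Algebra.adjoin A₀ {τ})
        (modularFunctionFieldFullC E₀ N)) π ∣ c)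
    {π' : A'} (hπ'0 : π' ≠ 0) (hπ'u : ¬ IsUnit π') {e : ℕ}
    (hram : π' ^ e ∣ algebraMap A₀ A' π)
    (g₀ : A₀[X]) (hgm : g₀.Monic) (hroot : aeval π' g₀ = 0) (hdeg : g₀.natDegree ≤ e)
    (hadj : Algebra.adjoin E₀ ({algebraMap A' E' π'} : Set E') = ⊤)
    (halg : IsAlgebraic E₀ (algebraMap A' E' π'))
    {t : modularFunctionFieldFullC E' N} (ht : mgcEmb E₀ E' N τ = t)
    {κ : Type*} (V : κ → ValuationSubring (modularFunctionFieldFullC E' N))
    (hBV : ∀ c (b : modularFunctionFieldFullC E' N),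
      IsIntegral ↥(Algebra.adjoin A' {t}) b → b ∈ V c)
    (hπV : ∀ c, algebraMap A' (modularFunctionFieldFullC E' N) π' ∈ (V c).nonunits)
    (hSS1₀ : ∀ x : integralClosure (Algebra.adjoin A₀ {τ}) (modularFunctionFieldFullC E₀ N),
      (∀ c, mgcEmb E₀ E' N (x : modularFunctionFieldFullC E₀ N) ∈ (V c).nonunits) →
        algebraMap A₀ (integralClosure (Algebra.adjoin A₀ {τ})
          (modularFunctionFieldFullC E₀ N)) π ∣ x) :
    ∀ b : modularFunctionFieldFullC E' N, IsIntegral ↥(Algebra.adjoin A' {t}) b →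
      (∀ c, b ∈ (V c).nonunits) →
      ∃ b' : modularFunctionFieldFullC E' N, IsIntegral ↥(Algebra.adjoin A' {t}) b' ∧
        b = algebraMap A' (modularFunctionFieldFullC E' N) π' * b' := by
  letI := mgcAlgebra E₀ E' N
  letI := mgccAlgebra (A₀ := A₀) (E₀ := E₀) (E' := E') N
  haveI := mgcc_isScalarTower (A₀ := A₀) (E₀ := E₀) (E' := E') N
  haveI := mgcc_isScalarTower' (A₀ := A₀) (E₀ := E₀) (A' := A') (E' := E') N hcomp
  subst ht
  exact mgs_SS1 (E₀ := E₀) hπ τ hπu hred hπ'0 hπ'u hram g₀ hgm hroot hdeg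
    (mgcc_htop (E₀ := E₀) N hadj halg) V hBV hπV hSS1₀

/-! ### The charts `j` and `1/j` -/

/-- `F_N(E)` is finite over `E(j)`. -/
theorem mgcc_finiteDimensional_j (E : Type*) [Field E] (N : ℕ) [NeZero N] :
    FiniteDimensional E⟮bgJ E N⟯ (modularFunctionFieldFullC E N) :=
  bgFin_finiteDimensional_full E N

/-- `F_N(E)` is finite over `E(1/j)`. -/
theorem mgcc_finiteDimensional_jinv (E : Type*) [Field E] [CharZero E] (N : ℕ) [NeZero N] :
    FiniteDimensional E⟮(bgJ E N)⁻¹⟯ (modularFunctionFieldFullC E N) := by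
  haveI := mgcc_finiteDimensional_j E N
  exact at_finiteDimensional_inv (bgJ E N)

variable [NeZero N]

/-- **MG-5a, `hσB₁`/`hσB₁'`/`hτB₁` of `at_main_two`** (chart `j`). -/
theorem mgcc_trivMod_j
    (hcomp : ∀ a : A₀, algebraMap A' E' (algebraMap A₀ A' a) =
      algebraMap E₀ E' (algebraMap A₀ E₀ a))
    [Algebra.IsIntegral A₀ A']
    {π : A₀} (hπ : Irreducible π)
    (hπu : ¬ IsUnit (algebraMap A₀
      (integralClosure (Algebra.adjoin A₀ {bgJ E₀ N}) (modularFunctionFieldFullC E₀ N)) π))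
    (hred : ∀ c : integralClosure (Algebra.adjoin A₀ {bgJ E₀ N})
        (modularFunctionFieldFullC E₀ N),
      algebraMap A₀ (integralClosure (Algebra.adjoin A₀ {bgJ E₀ N})
        (modularFunctionFieldFullC E₀ N)) π ∣ c ^ 2 →
      algebraMap A₀ (integralClosure (Algebra.adjoin A₀ {bgJ E₀ N})
        (modularFunctionFieldFullC E₀ N)) π ∣ c)
    {π' : A'} (hπ'0 : π' ≠ 0) (hπ'u : ¬ IsUnit π') {e : ℕ}
    (hram : π' ^ e ∣ algebraMap A₀ A' π)
    (g₀ : A₀[X]) (hgm : g₀.Monic) (hroot : aeval π' g₀ = 0) (hdeg : g₀.natDegree ≤ e)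
    (hadj : Algebra.adjoin E₀ ({algebraMap A' E' π'} : Set E') = ⊤)
    (halg : IsAlgebraic E₀ (algebraMap A' E' π'))
    (s : E' ≃+* E') (hsE₀ : ∀ a : E₀, s (algebraMap E₀ E' a) = algebraMap E₀ E' a)
    (hsπ : ∃ c : A', s (algebraMap A' E' π') =
      algebraMap A' E' π' + algebraMap A' E' π' * algebraMap A' E' c) :
    AtTrivMod π' (bgJ E' N) (mgGal N s) := by
  haveI := mgcc_finiteDimensional_j E₀ N
  exact mgcc_trivMod (A₀ := A₀) (E₀ := E₀) (A' := A') (E' := E') N hcomp hπ (bgJ E₀ N) hπu hred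
    hπ'0 hπ'u hram g₀ hgm hroot hdeg hadj halg s hsE₀ hsπ (mgcc_emb_bgJ N)

/-- **MG-5a, `hσB₂`/`hσB₂'`/`hτB₂` of `at_main_two`** (chart `1/j`). -/
theorem mgcc_trivMod_jinv
    (hcomp : ∀ a : A₀, algebraMap A' E' (algebraMap A₀ A' a) =
      algebraMap E₀ E' (algebraMap A₀ E₀ a))
    [Algebra.IsIntegral A₀ A']
    {π : A₀} (hπ : Irreducible π)
    (hπu : ¬ IsUnit (algebraMap A₀
      (integralClosure (Algebra.adjoin A₀ {(bgJ E₀ N)⁻¹}) (modularFunctionFieldFullC E₀ N)) π))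
    (hred : ∀ c : integralClosure (Algebra.adjoin A₀ {(bgJ E₀ N)⁻¹})
        (modularFunctionFieldFullC E₀ N),
      algebraMap A₀ (integralClosure (Algebra.adjoin A₀ {(bgJ E₀ N)⁻¹})
        (modularFunctionFieldFullC E₀ N)) π ∣ c ^ 2 →
      algebraMap A₀ (integralClosure (Algebra.adjoin A₀ {(bgJ E₀ N)⁻¹})
        (modularFunctionFieldFullC E₀ N)) π ∣ c)
    {π' : A'} (hπ'0 : π' ≠ 0) (hπ'u : ¬ IsUnit π') {e : ℕ}
    (hram : π' ^ e ∣ algebraMap A₀ A' π)
    (g₀ : A₀[X]) (hgm : g₀.Monic) (hroot : aeval π' g₀ = 0) (hdeg : g₀.natDegree ≤ e)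
    (hadj : Algebra.adjoin E₀ ({algebraMap A' E' π'} : Set E') = ⊤)
    (halg : IsAlgebraic E₀ (algebraMap A' E' π'))
    (s : E' ≃+* E') (hsE₀ : ∀ a : E₀, s (algebraMap E₀ E' a) = algebraMap E₀ E' a)
    (hsπ : ∃ c : A', s (algebraMap A' E' π') =
      algebraMap A' E' π' + algebraMap A' E' π' * algebraMap A' E' c) :
    AtTrivMod π' (bgJ E' N)⁻¹ (mgGal N s) := by
  haveI := mgcc_finiteDimensional_jinv E₀ N
  exact mgcc_trivMod (A₀ := A₀) (E₀ := E₀) (A' := A') (E' := E') N hcomp hπ (bgJ E₀ N)⁻¹ hπu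
    hred hπ'0 hπ'u hram g₀ hgm hroot hdeg hadj halg s hsE₀ hsπ (mgcc_emb_bgJ_inv N)

/-- **MG-5a, `hcoord₁` of `at_main_two`** (chart `j`), at one closed point and one rational
place. -/
theorem mgcc_hcoord_j
    (hcomp : ∀ a : A₀, algebraMap A' E' (algebraMap A₀ A' a) =
      algebraMap E₀ E' (algebraMap A₀ E₀ a))
    [Algebra.IsIntegral A₀ A']
    {π : A₀} (hπ : Irreducible π)
    (hπu : ¬ IsUnit (algebraMap A₀
      (integralClosure (Algebra.adjoin A₀ {bgJ E₀ N}) (modularFunctionFieldFullC E₀ N)) π))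
    (hred : ∀ c : integralClosure (Algebra.adjoin A₀ {bgJ E₀ N})
        (modularFunctionFieldFullC E₀ N),
      algebraMap A₀ (integralClosure (Algebra.adjoin A₀ {bgJ E₀ N})
        (modularFunctionFieldFullC E₀ N)) π ∣ c ^ 2 →
      algebraMap A₀ (integralClosure (Algebra.adjoin A₀ {bgJ E₀ N})
        (modularFunctionFieldFullC E₀ N)) π ∣ c)
    {π' : A'} (hπ' : Irreducible π') {e : ℕ}
    (hram : π' ^ e ∣ algebraMap A₀ A' π)
    (g₀ : A₀[X]) (hgm : g₀.Monic) (hroot : aeval π' g₀ = 0) (hdeg : g₀.natDegree ≤ e)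
    (hadj : Algebra.adjoin E₀ ({algebraMap A' E' π'} : Set E') = ⊤)
    (halg : IsAlgebraic E₀ (algebraMap A' E' π'))
    (hU5 : ∀ 𝔫 : Ideal (integralClosure (Algebra.adjoin A₀ {bgJ E₀ N})
        (modularFunctionFieldFullC E₀ N)), 𝔫.IsMaximal →
      algebraMap A₀ (integralClosure (Algebra.adjoin A₀ {bgJ E₀ N})
        (modularFunctionFieldFullC E₀ N)) π ∈ 𝔫 →
      (∃ s ∈ 𝔫, NodesLocGen 𝔫 {algebraMap A₀ (integralClosure (Algebra.adjoin A₀ {bgJ E₀ N})
        (modularFunctionFieldFullC E₀ N)) π, s}) ∨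
      (∃ X Y : integralClosure (Algebra.adjoin A₀ {bgJ E₀ N}) (modularFunctionFieldFullC E₀ N),
        X ∈ 𝔫 ∧ Y ∈ 𝔫 ∧
        algebraMap A₀ (integralClosure (Algebra.adjoin A₀ {bgJ E₀ N})
          (modularFunctionFieldFullC E₀ N)) π ∣ X * Y ∧
        NodesLocGen 𝔫 {algebraMap A₀ (integralClosure (Algebra.adjoin A₀ {bgJ E₀ N})
          (modularFunctionFieldFullC E₀ N)) π, X, Y}))
    (s : E' ≃+* E') (hsE₀ : ∀ a : E₀, s (algebraMap E₀ E' a) = algebraMap E₀ E' a)
    (hsA : ∀ a : A', ∃ a' : A', s (algebraMap A' E' a) = algebraMap A' E' a')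
    (hsπ : ∃ c : A', s (algebraMap A' E' π') =
      algebraMap A' E' π' + algebraMap A' E' π' * algebraMap A' E' c)
    (hsπ' : ∃ c : A', s⁻¹ (algebraMap A' E' π') =
      algebraMap A' E' π' + algebraMap A' E' π' * algebraMap A' E' c)
    (𝔫 : AtPt (F := modularFunctionFieldFullC E' N) π' (bgJ E' N))
    (P : Place E' (modularFunctionFieldFullC E' N))
    (hP : LsTube ↥(zchClosure (A₀ := A') ({bgJ E' N} : Set (modularFunctionFieldFullC E' N)))
      (bgJ E' N) 𝔫.1 P)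
    (hgP : mgGal N s • P ≠ P)
    (hrat : ∀ f ∈ P.toValuationSubring,
      ∃ c : E', f - algebraMap E' (modularFunctionFieldFullC E' N) c ∈
        P.toValuationSubring.nonunits) :
    ∃ f : modularFunctionFieldFullC E' N, f ≠ 0 ∧ P.ord f = 1 ∧
      ∀ Q : Place E' (modularFunctionFieldFullC E' N),
        LsTube ↥(zchClosure (A₀ := A') ({bgJ E' N} : Set (modularFunctionFieldFullC E' N)))
          (bgJ E' N) 𝔫.1 Q → mgGal N s • Q ≠ Q → Q ≠ P → Q.ord f = 0 := by
  haveI := mgcc_finiteDimensional_j E₀ N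
  haveI := mgcc_finiteDimensional_j E' N
  exact mgcc_hcoord (A₀ := A₀) (E₀ := E₀) (A' := A') (E' := E') N hcomp hπ (bgJ E₀ N) hπu hred
    hπ' hram g₀ hgm hroot hdeg hadj halg hU5 s hsE₀ hsA hsπ hsπ' (mgcc_emb_bgJ N)
    (bgConst_transcendental_bgJ E' N) 𝔫 P hP hgP hrat

/-- **MG-5a, `hcoord₂` of `at_main_two`** (chart `1/j`), at one closed point and one rational
place. -/
theorem mgcc_hcoord_jinv
    (hcomp : ∀ a : A₀, algebraMap A' E' (algebraMap A₀ A' a) =
      algebraMap E₀ E' (algebraMap A₀ E₀ a))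
    [Algebra.IsIntegral A₀ A']
    {π : A₀} (hπ : Irreducible π)
    (hπu : ¬ IsUnit (algebraMap A₀
      (integralClosure (Algebra.adjoin A₀ {(bgJ E₀ N)⁻¹}) (modularFunctionFieldFullC E₀ N)) π))
    (hred : ∀ c : integralClosure (Algebra.adjoin A₀ {(bgJ E₀ N)⁻¹})
        (modularFunctionFieldFullC E₀ N),
      algebraMap A₀ (integralClosure (Algebra.adjoin A₀ {(bgJ E₀ N)⁻¹})
        (modularFunctionFieldFullC E₀ N)) π ∣ c ^ 2 →
      algebraMap A₀ (integralClosure (Algebra.adjoin A₀ {(bgJ E₀ N)⁻¹})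
        (modularFunctionFieldFullC E₀ N)) π ∣ c)
    {π' : A'} (hπ' : Irreducible π') {e : ℕ}
    (hram : π' ^ e ∣ algebraMap A₀ A' π)
    (g₀ : A₀[X]) (hgm : g₀.Monic) (hroot : aeval π' g₀ = 0) (hdeg : g₀.natDegree ≤ e)
    (hadj : Algebra.adjoin E₀ ({algebraMap A' E' π'} : Set E') = ⊤)
    (halg : IsAlgebraic E₀ (algebraMap A' E' π'))
    (hU5 : ∀ 𝔫 : Ideal (integralClosure (Algebra.adjoin A₀ {(bgJ E₀ N)⁻¹})
        (modularFunctionFieldFullC E₀ N)), 𝔫.IsMaximal →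
      algebraMap A₀ (integralClosure (Algebra.adjoin A₀ {(bgJ E₀ N)⁻¹})
        (modularFunctionFieldFullC E₀ N)) π ∈ 𝔫 →
      (∃ s ∈ 𝔫, NodesLocGen 𝔫 {algebraMap A₀ (integralClosure (Algebra.adjoin A₀ {(bgJ E₀ N)⁻¹})
        (modularFunctionFieldFullC E₀ N)) π, s}) ∨
      (∃ X Y : integralClosure (Algebra.adjoin A₀ {(bgJ E₀ N)⁻¹})
          (modularFunctionFieldFullC E₀ N),
        X ∈ 𝔫 ∧ Y ∈ 𝔫 ∧
        algebraMap A₀ (integralClosure (Algebra.adjoin A₀ {(bgJ E₀ N)⁻¹})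
          (modularFunctionFieldFullC E₀ N)) π ∣ X * Y ∧
        NodesLocGen 𝔫 {algebraMap A₀ (integralClosure (Algebra.adjoin A₀ {(bgJ E₀ N)⁻¹})
          (modularFunctionFieldFullC E₀ N)) π, X, Y}))
    (s : E' ≃+* E') (hsE₀ : ∀ a : E₀, s (algebraMap E₀ E' a) = algebraMap E₀ E' a)
    (hsA : ∀ a : A', ∃ a' : A', s (algebraMap A' E' a) = algebraMap A' E' a')
    (hsπ : ∃ c : A', s (algebraMap A' E' π') =
      algebraMap A' E' π' + algebraMap A' E' π' * algebraMap A' E' c)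
    (hsπ' : ∃ c : A', s⁻¹ (algebraMap A' E' π') =
      algebraMap A' E' π' + algebraMap A' E' π' * algebraMap A' E' c)
    (𝔫 : AtPt (F := modularFunctionFieldFullC E' N) π' (bgJ E' N)⁻¹)
    (P : Place E' (modularFunctionFieldFullC E' N))
    (hP : LsTube ↥(zchClosure (A₀ := A') ({(bgJ E' N)⁻¹} : Set (modularFunctionFieldFullC E' N)))
      (bgJ E' N)⁻¹ 𝔫.1 P)
    (hgP : mgGal N s • P ≠ P)
    (hrat : ∀ f ∈ P.toValuationSubring,
      ∃ c : E', f - algebraMap E' (modularFunctionFieldFullC E' N) c ∈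
        P.toValuationSubring.nonunits) :
    ∃ f : modularFunctionFieldFullC E' N, f ≠ 0 ∧ P.ord f = 1 ∧
      ∀ Q : Place E' (modularFunctionFieldFullC E' N),
        LsTube ↥(zchClosure (A₀ := A') ({(bgJ E' N)⁻¹} : Set (modularFunctionFieldFullC E' N)))
          (bgJ E' N)⁻¹ 𝔫.1 Q → mgGal N s • Q ≠ Q → Q ≠ P → Q.ord f = 0 := by
  haveI := mgcc_finiteDimensional_jinv E₀ N
  haveI := mgcc_finiteDimensional_jinv E' N
  exact mgcc_hcoord (A₀ := A₀) (E₀ := E₀) (A' := A') (E' := E') N hcomp hπ (bgJ E₀ N)⁻¹ hπu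
    hred hπ' hram g₀ hgm hroot hdeg hadj halg hU5 s hsE₀ hsA hsπ hsπ' (mgcc_emb_bgJ_inv N)
    (zch_transcendental_inv (bgConst_transcendental_bgJ E' N)) 𝔫 P hP hgP hrat

end Modular

end Fermat.Agent.UNIP
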