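/-
UNIP / MG-5c (helper23): the hypotheses `hcoord₁` / `hcoord₂` of `at_main_two`
(`UNIP/AbstractT.lean`) from the output of U5 on the unramified chart.

Abstract part (setting of `unip_hcoord_of_nodes`, `UNIP/CoordTransport.lean`): `A₀` = the ramified
base `A′` (uniformizer `π = π′`), `B′ = zchClosure {u}` the chart over `A′`, `R` = the chart over
the unramified base, `j : R →+* B′` with `MgcRamified j π′ p` (MG-4), `V c₁`, `V c₂` the two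
vertical valuation rings, `ρ₁`, `ρ₂` the two reduction maps of U5 on `R`
(`V c_i`-nonunits of `j R` = `ker ρ_i`).

* `mgcoord_hnode`        : the output of U5 at `𝔫.comap j` (weak shape) ⇒ `hnode` of
                           `unip_hcoord_of_nodes` at `𝔫`;
* `mgcoord_u5_weaken`    : the exact shape of `nodes_modular_chart` ⇒ the weak shape;
* `mgcoord_hcoord`       : `hcoord` of `at_main_two` for the chart `u`, at every `𝔫 : AtPt π u`;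
* `mgcoord_hcoord_inv`   : the same for the chart `t⁻¹`, with the hypotheses stated for `t`
                           where `at_main_two` states them for `t`.
-/
import Fermat.Agent.UNIP.CoordTransport
import Fermat.Agent.UNIP.AbstractT

set_option autoImplicit false
set_option linter.style.haveILetI false
set_option linter.unusedSectionVars false
set_option linter.unusedVariables false

namespace Fermat.Agent.UNIP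

open Polynomial IntermediateField Fermat.Agent.INJ AlgebraicCurve

section Weaken

variable {R : Type*} [CommRing R]

/-- The exact shape of the conclusion of `nodes_modular_chart` (U5) implies the weak shape used
below (drop `NodesSmoothAt` and `p ∣ X * Y`). -/
theorem mgcoord_u5_weaken {S₁ S₂ : Type*} [CommRing S₁] [CommRing S₂] (ρ₁ : R →+* S₁)
    (ρ₂ : R →+* S₂) (p : R) (𝔪 : Ideal R)
    (h : (∃ s ∈ 𝔪, NodesLocGen 𝔪 {p, s}) ∨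
      ((∀ x, ρ₁ x = 0 → x ∈ 𝔪) ∧ (∀ x, ρ₂ x = 0 → x ∈ 𝔪) ∧
        ∃ X Y : R, ρ₁ X = 0 ∧ ρ₂ Y = 0 ∧ NodesSmoothAt ρ₂ 𝔪 X ∧ NodesSmoothAt ρ₁ 𝔪 Y ∧
          p ∣ X * Y ∧ NodesLocGen 𝔪 {p, X, Y})) :
    (∃ s ∈ 𝔪, NodesLocGen 𝔪 {p, s}) ∨
      ((∀ x, ρ₁ x = 0 → x ∈ 𝔪) ∧ (∀ x, ρ₂ x = 0 → x ∈ 𝔪) ∧
        ∃ X Y : R, ρ₁ X = 0 ∧ ρ₂ Y = 0 ∧ NodesLocGen 𝔪 {p, X, Y}) := by
  rcases h with h | ⟨h1, h2, X, Y, hX, hY, -, -, -, hgen⟩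
  · exact Or.inl h
  · exact Or.inr ⟨h1, h2, X, Y, hX, hY, hgen⟩

end Weaken

section Abs

variable {A₀ E F : Type*} [CommRing A₀] [IsDomain A₀] [IsDiscreteValuationRing A₀]
  [Field E] [Algebra A₀ E] [IsFractionRing A₀ E] [CharZero E]
  [Field F] [Algebra E F] [Algebra A₀ F] [IsScalarTower A₀ E F]
  {π : A₀} {κ : Type*}

/-- **`hnode`.**  The output of U5 at the maximal ideal `𝔫.comap j ∋ p` of the unramified chart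
`R` gives the hypothesis `hnode` of `unip_hcoord_of_nodes` at `𝔫`. -/
theorem mgcoord_hnode {u : F} (V : κ → ValuationSubring F)
    {R : Type*} [CommRing R] (j : R →+* ↥(zchClosure (A₀ := A₀) ({u} : Set F))) (p : R)
    (hram : MgcRamified j (algebraMap A₀ ↥(zchClosure (A₀ := A₀) ({u} : Set F)) π) p)
    {S₁ S₂ : Type*} [CommRing S₁] [CommRing S₂] (ρ₁ : R →+* S₁) (ρ₂ : R →+* S₂) (c₁ c₂ : κ)
    (hρ₁ : ∀ x : R, ((j x : ↥(zchClosure (A₀ := A₀) ({u} : Set F))) : F) ∈ (V c₁).nonunits ↔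
      ρ₁ x = 0)
    (hρ₂ : ∀ x : R, ((j x : ↥(zchClosure (A₀ := A₀) ({u} : Set F))) : F) ∈ (V c₂).nonunits ↔
      ρ₂ x = 0)
    (hU5 : ∀ 𝔪 : Ideal R, 𝔪.IsMaximal → p ∈ 𝔪 →
      (∃ s ∈ 𝔪, NodesLocGen 𝔪 {p, s}) ∨
      ((∀ x, ρ₁ x = 0 → x ∈ 𝔪) ∧ (∀ x, ρ₂ x = 0 → x ∈ 𝔪) ∧
        ∃ X Y : R, ρ₁ X = 0 ∧ ρ₂ Y = 0 ∧ NodesLocGen 𝔪 {p, X, Y}))
    (𝔫 : Ideal ↥(zchClosure (A₀ := A₀) ({u} : Set F))) (h𝔫 : 𝔫.IsMaximal)
    (hπ𝔫 : algebraMap A₀ ↥(zchClosure (A₀ := A₀) ({u} : Set F)) π ∈ 𝔫) :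
    (∃ s : R, j s ∈ 𝔫 ∧ NodesLocGen (𝔫.comap j) {p, s}) ∨
      ((∀ x : R, ((j x : ↥(zchClosure (A₀ := A₀) ({u} : Set F))) : F) ∈ (V c₁).nonunits →
          j x ∈ 𝔫) ∧
       (∀ x : R, ((j x : ↥(zchClosure (A₀ := A₀) ({u} : Set F))) : F) ∈ (V c₂).nonunits →
          j x ∈ 𝔫) ∧
       ∃ X Y : R, ((j X : ↥(zchClosure (A₀ := A₀) ({u} : Set F))) : F) ∈ (V c₁).nonunits ∧
         ((j Y : ↥(zchClosure (A₀ := A₀) ({u} : Set F))) : F) ∈ (V c₂).nonunits ∧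
         NodesLocGen (𝔫.comap j) {p, X, Y}) := by
  haveI := h𝔫
  have hmax : (𝔫.comap j).IsMaximal := hram.mgg_comap_isMaximal 𝔫 hπ𝔫
  have hp : p ∈ 𝔫.comap j := hram.mgg_mem_comap hπ𝔫
  rcases hU5 (𝔫.comap j) hmax hp with ⟨s, hs, hgen⟩ | ⟨h1, h2, X, Y, hX, hY, hgen⟩
  · exact Or.inl ⟨s, Ideal.mem_comap.1 hs, hgen⟩
  · refine Or.inr ⟨fun x hx => Ideal.mem_comap.1 (h1 x ((hρ₁ x).1 hx)),
      fun x hx => Ideal.mem_comap.1 (h2 x ((hρ₂ x).1 hx)), X, Y, (hρ₁ X).2 hX, (hρ₂ Y).2 hY, hgen⟩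

/-- **MG-5c, abstract form.**  The hypothesis `hcoord` of `at_main_two` / `at_pwiShape` for the
chart `u` over the ramified base, at every closed point `𝔫 : AtPt π u`, from the output of U5 on
the unramified chart `R` and the rationality of the places in the support of `div x` (D8). -/
theorem mgcoord_hcoord (hπ : Irreducible π) {u : F} (hu : Transcendental E u)
    [FiniteDimensional E⟮u⟯ F] [IsNoetherianRing ↥(zchClosure (A₀ := A₀) ({u} : Set F))]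
    (V : κ → ValuationSubring F)
    (hBV : ∀ c (b : F), IsIntegral ↥(Algebra.adjoin A₀ {u}) b → b ∈ V c)
    (hπV : ∀ c, algebraMap A₀ F π ∈ (V c).nonunits)
    (hSS1 : ∀ b : F, IsIntegral ↥(Algebra.adjoin A₀ {u}) b → (∀ c, b ∈ (V c).nonunits) →
      ∃ b' : F, IsIntegral ↥(Algebra.adjoin A₀ {u}) b' ∧ b = algebraMap A₀ F π * b')
    (hVloc : ∀ c (x : F), x ∈ V c → ∃ b s : F, IsIntegral ↥(Algebra.adjoin A₀ {u}) b ∧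
      IsIntegral ↥(Algebra.adjoin A₀ {u}) s ∧ s ∉ (V c).nonunits ∧ s * x = b)
    (g : SemilinearAut E F) (hgu : g • u = u)
    (hgB : AtTrivMod π u g) (hgB' : AtTrivMod π u g⁻¹)
    (hgV : ∀ c (f : F), f ≠ 0 → (V c).valuation (g • f / f) = 1)
    (hgA : ∀ α : A₀, ∃ α' : A₀, g • algebraMap A₀ F α = algebraMap A₀ F α')
    (q : A₀) (hq0 : q ≠ 0) (hqπ : π ∣ q) (hgq : g • algebraMap A₀ F q = algebraMap A₀ F q)
    {R : Type*} [CommRing R] (j : R →+* ↥(zchClosure (A₀ := A₀) ({u} : Set F))) (p : R)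
    (hram : MgcRamified j (algebraMap A₀ ↥(zchClosure (A₀ := A₀) ({u} : Set F)) π) p)
    (hjp : j p = algebraMap A₀ ↥(zchClosure (A₀ := A₀) ({u} : Set F)) q)
    (c₁ c₂ : κ) (hκ : ∀ c, c = c₁ ∨ c = c₂)
    {S₁ S₂ : Type*} [CommRing S₁] [CommRing S₂] (ρ₁ : R →+* S₁) (ρ₂ : R →+* S₂)
    (hρ₁ : ∀ x : R, ((j x : ↥(zchClosure (A₀ := A₀) ({u} : Set F))) : F) ∈ (V c₁).nonunits ↔
      ρ₁ x = 0)
    (hρ₂ : ∀ x : R, ((j x : ↥(zchClosure (A₀ := A₀) ({u} : Set F))) : F) ∈ (V c₂).nonunits ↔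
      ρ₂ x = 0)
    (hU5 : ∀ 𝔪 : Ideal R, 𝔪.IsMaximal → p ∈ 𝔪 →
      (∃ s ∈ 𝔪, NodesLocGen 𝔪 {p, s}) ∨
      ((∀ x, ρ₁ x = 0 → x ∈ 𝔪) ∧ (∀ x, ρ₂ x = 0 → x ∈ 𝔪) ∧
        ∃ X Y : R, ρ₁ X = 0 ∧ ρ₂ Y = 0 ∧ NodesLocGen 𝔪 {p, X, Y}))
    {x : F}
    (hrat : ∀ P : Place E F, P.ord x ≠ 0 → ∀ f ∈ P.toValuationSubring,
      ∃ c : E, f - algebraMap E F c ∈ P.toValuationSubring.nonunits) :
    ∀ 𝔫 : AtPt (F := F) π u, ∀ P : Place E F,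
      LsTube ↥(zchClosure (A₀ := A₀) ({u} : Set F)) u 𝔫.1 P → g • P ≠ P → P.ord x ≠ 0 →
      ∃ f : F, f ≠ 0 ∧ P.ord f = 1 ∧ ∀ Q : Place E F,
        LsTube ↥(zchClosure (A₀ := A₀) ({u} : Set F)) u 𝔫.1 Q → g • Q ≠ Q → Q ≠ P →
          Q.ord f = 0 := by
  intro 𝔫
  haveI := 𝔫.2.1.isPrime
  exact unip_hcoord_of_nodes hπ hu V hBV hπV hSS1 hVloc g hgu 𝔫.1 𝔫.2.2
    (hgB.mem 𝔫.1 𝔫.2.2) (fun b hb => hgB'.isIntegral hb) hgV hgA q hq0 hqπ hgq j p hram hjp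
    c₁ c₂ hκ
    (mgcoord_hnode V j p hram ρ₁ ρ₂ c₁ c₂ hρ₁ hρ₂ hU5 𝔫.1 𝔫.2.1 𝔫.2.2)
    (fun P _ _ hP => hrat P hP)

/-- **MG-5c, abstract form, chart `t⁻¹`.**  As `mgcoord_hcoord` for `u = t⁻¹`, with the
hypotheses on `t` in the form in which `at_main_two` has them (`ht`, `hσt`, `hSS1` for the
chart `t`). -/
theorem mgcoord_hcoord_inv (hπ : Irreducible π) {t : F} (ht : Transcendental E t)
    [FiniteDimensional E⟮t⟯ F] [IsNoetherianRing ↥(zchClosure (A₀ := A₀) ({t⁻¹} : Set F))]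
    (V : κ → ValuationSubring F)
    (hBV₁ : ∀ c (b : F), IsIntegral ↥(Algebra.adjoin A₀ {t}) b → b ∈ V c)
    (hBV₂ : ∀ c (b : F), IsIntegral ↥(Algebra.adjoin A₀ {t⁻¹}) b → b ∈ V c)
    (hπV : ∀ c, algebraMap A₀ F π ∈ (V c).nonunits)
    (hSS1 : ∀ b : F, IsIntegral ↥(Algebra.adjoin A₀ {t}) b → (∀ c, b ∈ (V c).nonunits) →
      ∃ b' : F, IsIntegral ↥(Algebra.adjoin A₀ {t}) b' ∧ b = algebraMap A₀ F π * b')
    (hVloc₂ : ∀ c (x : F), x ∈ V c → ∃ b s : F, IsIntegral ↥(Algebra.adjoin A₀ {t⁻¹}) b ∧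
      IsIntegral ↥(Algebra.adjoin A₀ {t⁻¹}) s ∧ s ∉ (V c).nonunits ∧ s * x = b)
    (g : SemilinearAut E F) (hgt : g • t = t)
    (hgB : AtTrivMod π t⁻¹ g) (hgB' : AtTrivMod π t⁻¹ g⁻¹)
    (hgV : ∀ c (f : F), f ≠ 0 → (V c).valuation (g • f / f) = 1)
    (hgA : ∀ α : A₀, ∃ α' : A₀, g • algebraMap A₀ F α = algebraMap A₀ F α')
    (q : A₀) (hq0 : q ≠ 0) (hqπ : π ∣ q) (hgq : g • algebraMap A₀ F q = algebraMap A₀ F q)
    {R : Type*} [CommRing R] (j : R →+* ↥(zchClosure (A₀ := A₀) ({t⁻¹} : Set F))) (p : R)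
    (hram : MgcRamified j (algebraMap A₀ ↥(zchClosure (A₀ := A₀) ({t⁻¹} : Set F)) π) p)
    (hjp : j p = algebraMap A₀ ↥(zchClosure (A₀ := A₀) ({t⁻¹} : Set F)) q)
    (c₁ c₂ : κ) (hκ : ∀ c, c = c₁ ∨ c = c₂)
    {S₁ S₂ : Type*} [CommRing S₁] [CommRing S₂] (ρ₁ : R →+* S₁) (ρ₂ : R →+* S₂)
    (hρ₁ : ∀ x : R, ((j x : ↥(zchClosure (A₀ := A₀) ({t⁻¹} : Set F))) : F) ∈ (V c₁).nonunits ↔
      ρ₁ x = 0)
    (hρ₂ : ∀ x : R, ((j x : ↥(zchClosure (A₀ := A₀) ({t⁻¹} : Set F))) : F) ∈ (V c₂).nonunits ↔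
      ρ₂ x = 0)
    (hU5 : ∀ 𝔪 : Ideal R, 𝔪.IsMaximal → p ∈ 𝔪 →
      (∃ s ∈ 𝔪, NodesLocGen 𝔪 {p, s}) ∨
      ((∀ x, ρ₁ x = 0 → x ∈ 𝔪) ∧ (∀ x, ρ₂ x = 0 → x ∈ 𝔪) ∧
        ∃ X Y : R, ρ₁ X = 0 ∧ ρ₂ Y = 0 ∧ NodesLocGen 𝔪 {p, X, Y}))
    {x : F}
    (hrat : ∀ P : Place E F, P.ord x ≠ 0 → ∀ f ∈ P.toValuationSubring,
      ∃ c : E, f - algebraMap E F c ∈ P.toValuationSubring.nonunits) :
    ∀ 𝔫 : AtPt (F := F) π t⁻¹, ∀ P : Place E F,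
      LsTube ↥(zchClosure (A₀ := A₀) ({t⁻¹} : Set F)) t⁻¹ 𝔫.1 P → g • P ≠ P → P.ord x ≠ 0 →
      ∃ f : F, f ≠ 0 ∧ P.ord f = 1 ∧ ∀ Q : Place E F,
        LsTube ↥(zchClosure (A₀ := A₀) ({t⁻¹} : Set F)) t⁻¹ 𝔫.1 Q → g • Q ≠ Q → Q ≠ P →
          Q.ord f = 0 := by
  haveI : FiniteDimensional E⟮t⁻¹⟯ F := at_finiteDimensional_inv t
  exact mgcoord_hcoord hπ (zch_transcendental_inv ht) V hBV₂ hπV
    (ats_SS1_inv ht hπ V hBV₁ hSS1) hVloc₂ g (at_smul_inv hgt) hgB hgB' hgV hgA q hq0 hqπ hgq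
    j p hram hjp c₁ c₂ hκ ρ₁ ρ₂ hρ₁ hρ₂ hU5 hrat

end Abs

end Fermat.Agent.UNIP
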