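import Fermat.Agent.UNIP.Coord

/-!
# UNIP / STB-L — Coord for a general automorphism `g` (thick nodes included)

`unip_coord_node` (Coord.lean) needs stage coordinates FIXED by `g` (true for inertia, the
coordinates coming from the unramified chart).  For `g = Φ = φ²` (phase 2, S35) the coordinates are
not fixed.  Here the hypothesis is replaced by: `g` preserves the two vertical valuations
(`hgV`, exactly the hypothesis of `ls_local_factor_chart`).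

* `unip_morse_iter_vert` : Morse iteration, tracking `X ∈ 𝔭₁ ∖ 𝔭₂`, `Y ∈ 𝔭₂ ∖ 𝔭₁`.
* `unip_vert_locGen`     : `𝔭₁ = (π, X)` locally at `𝔫`.
* `unip_vert_ev_dvd`     : intrinsic depth: if `P` is deep at the stage (`π ^ N ∣ ev X`,
  `X * Y = π ^ N * G`), then `π ^ k ∣ ev b` for all `b ∈ B ∩ π ^ k B_{𝔭₁}`, `k ≤ N`.
* `unip_coord_node_gen`  : every rational point `P` of the tube with `g • P ≠ P` has a coordinate
  function.
-/

set_option autoImplicit false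
set_option linter.style.haveILetI false
set_option linter.unusedSectionVars false

namespace Fermat.Agent.UNIP

open AlgebraicCurve IntermediateField Polynomial Fermat.Agent.S24 Fermat.Agent.INJ

section MorseVert

variable {B : Type*} [CommRing B]

/-- **Morse iteration with the two branches.**  As `unip_morse_iter`, tracking
`X ∈ 𝔭₁ ∖ 𝔭₂`, `Y ∈ 𝔭₂ ∖ 𝔭₁`. -/
theorem unip_morse_iter_vert (𝔫 : Ideal B) [𝔫.IsPrime] (𝔭₁ 𝔭₂ : Ideal B) [𝔭₁.IsPrime]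
    [𝔭₂.IsPrime] (h1 : 𝔭₁ ≤ 𝔫) (h2 : 𝔭₂ ≤ 𝔫) (q : B) (hq1 : q ∈ 𝔭₁) (hq2 : q ∈ 𝔭₂)
    (X Y : B) (hX1 : X ∈ 𝔭₁) (hY2 : Y ∈ 𝔭₂) (hX2 : X ∉ 𝔭₂) (hY1 : Y ∉ 𝔭₁)
    (hXY : q ∣ X * Y) (hgen : NodesLocGen 𝔫 {q, X, Y}) :
    ∀ n : ℕ, 1 ≤ n → ∃ (n' : ℕ) (X' Y' G' : B), 1 ≤ n' ∧ X' ∈ 𝔭₁ ∧ Y' ∈ 𝔭₂ ∧ X' ∉ 𝔭₂ ∧
      Y' ∉ 𝔭₁ ∧ X' * Y' = q ^ n' * G' ∧ NodesLocGen 𝔫 {q, X', Y'} ∧ (n ≤ n' ∨ G' ∉ 𝔫) := by
  intro n hn
  induction n, hn using Nat.le_induction with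
  | base =>
    obtain ⟨G, hG⟩ := hXY
    exact ⟨1, X, Y, G, le_rfl, hX1, hY2, hX2, hY1, by rw [pow_one, hG], hgen, Or.inl le_rfl⟩
  | succ n hn ih =>
    obtain ⟨n', X', Y', G', hn', hX1', hY2', hX2', hY1', hXY', hgen', h⟩ := ih
    by_cases hG : G' ∈ 𝔫
    · have hle : n ≤ n' := h.resolve_right (fun h' => h' hG)
      obtain ⟨X'', Y'', G'', -, -, hXY'', hgen'', u, a₁, a₂, hu, rfl, rfl⟩ :=
        unip_morse_step 𝔫 q (h1 hq1) n' hn' X' Y' G' (h1 hX1') (h2 hY2') hXY' hgen' hG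
      have hqn1 : q ^ n' ∈ 𝔭₁ := Ideal.pow_mem_of_mem _ hq1 _ (by omega)
      have hqn2 : q ^ n' ∈ 𝔭₂ := Ideal.pow_mem_of_mem _ hq2 _ (by omega)
      refine ⟨n' + 1, _, _, G'', by omega, ?_, ?_, ?_, ?_, hXY'', hgen'', Or.inl (by omega)⟩
      · exact Ideal.sub_mem _ (Ideal.mul_mem_left _ _ hX1') (Ideal.mul_mem_right _ _ hqn1)
      · exact Ideal.sub_mem _ (Ideal.mul_mem_left _ _ hY2') (Ideal.mul_mem_right _ _ hqn2)
      · intro hmem
        have : u * X' ∈ 𝔭₂ := by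
          have := Ideal.add_mem _ hmem (Ideal.mul_mem_right a₂ _ hqn2)
          simpa using this
        rcases Ideal.IsPrime.mem_or_mem inferInstance this with h' | h'
        · exact hu (h2 h')
        · exact hX2' h'
      · intro hmem
        have : u * Y' ∈ 𝔭₁ := by
          have := Ideal.add_mem _ hmem (Ideal.mul_mem_right a₁ _ hqn1)
          simpa using this
        rcases Ideal.IsPrime.mem_or_mem inferInstance this with h' | h'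
        · exact hu (h1 h')
        · exact hY1' h'
    · exact ⟨n', X', Y', G', hn', hX1', hY2', hX2', hY1', hXY', hgen', Or.inr hG⟩

end MorseVert

section VertDepth

variable {A B : Type*} [CommRing A] [CommRing B] [Algebra A B]

/-- **(A)** the branch `𝔭` is generated by `ϖ` and `X` locally at `𝔫`. -/
theorem unip_vert_locGen [IsNoetherianRing B] (𝔫 : Ideal B) [𝔫.IsPrime] (𝔭 : Ideal B)
    [𝔭.IsPrime] (h𝔭 : 𝔭 ≤ 𝔫) (ϖ X Y : B) (hϖ : ϖ ∈ 𝔭) (hX : X ∈ 𝔭) (hY : Y ∉ 𝔭) (hY𝔫 : Y ∈ 𝔫)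
    (hgen : NodesLocGen 𝔫 {ϖ, X, Y})
    (hres : ∀ u : B, u ∉ 𝔫 → ∃ u' : B, u * u' - 1 ∈ 𝔫) :
    ∀ b ∈ 𝔭, ∃ u : B, u ∉ 𝔫 ∧ u * b ∈ Ideal.span ({ϖ, X} : Set B) := by
  set I : Ideal B := Ideal.span ({ϖ, X} : Set B) with hI
  have hϖI : ϖ ∈ I := Ideal.subset_span (by simp)
  have hXI : X ∈ I := Ideal.subset_span (by simp)
  have hstep : 𝔭 ≤ I ⊔ 𝔫 * 𝔭 := by
    intro b hb
    obtain ⟨u, hu, hub⟩ := hgen b (h𝔭 hb)
    rw [Ideal.mem_span_insert] at hub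
    obtain ⟨c₀, z, hz, hub⟩ := hub
    rw [Ideal.mem_span_pair] at hz
    obtain ⟨c₁, c₂, rfl⟩ := hz
    have hc₂ : c₂ ∈ 𝔭 := by
      have h1 : c₂ * Y ∈ 𝔭 := by
        have e : c₂ * Y = u * b - c₀ * ϖ - c₁ * X := by rw [hub]; ring
        rw [e]
        exact Ideal.sub_mem _ (Ideal.sub_mem _ (Ideal.mul_mem_left _ _ hb)
          (Ideal.mul_mem_left _ _ hϖ)) (Ideal.mul_mem_left _ _ hX)
      exact (Ideal.IsPrime.mem_or_mem inferInstance h1).resolve_right hY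
    obtain ⟨u', hu'⟩ := hres u hu
    have e : b = u' * (c₀ * ϖ + c₁ * X) + ((u' * Y) * c₂ - (u * u' - 1) * b) := by
      have : u' * (u * b) = u' * (c₀ * ϖ + (c₁ * X + c₂ * Y)) := by rw [hub]
      linear_combination this
    rw [e]
    refine Ideal.add_mem _ (Ideal.mem_sup_left (Ideal.mul_mem_left _ _
      (Ideal.add_mem _ (Ideal.mul_mem_left _ _ hϖI) (Ideal.mul_mem_left _ _ hXI))))
      (Ideal.mem_sup_right (Ideal.sub_mem _ ?_ ?_))
    · exact Ideal.mul_mem_mul (Ideal.mul_mem_left _ _ hY𝔫) hc₂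
    · exact Ideal.mul_mem_mul hu' hb
  have hpow : ∀ N : ℕ, 𝔭 ≤ I ⊔ 𝔫 ^ N * 𝔭 := by
    intro N
    induction N with
    | zero => rw [pow_zero, one_mul]; exact le_sup_right
    | succ N ih =>
      calc 𝔭 ≤ I ⊔ 𝔫 ^ N * 𝔭 := ih
        _ ≤ I ⊔ 𝔫 ^ N * (I ⊔ 𝔫 * 𝔭) := sup_le_sup_left (Ideal.mul_mono_right hstep) _
        _ = I ⊔ (𝔫 ^ N * I ⊔ 𝔫 ^ N * (𝔫 * 𝔭)) := by rw [Ideal.mul_sup]
        _ ≤ I ⊔ 𝔫 ^ (N + 1) * 𝔭 := by
          refine sup_le le_sup_left (sup_le (le_sup_of_le_left Ideal.mul_le_right) ?_)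
          rw [← mul_assoc, ← pow_succ]
          exact le_sup_right
  intro b hb
  have hall : ∀ N : ℕ, b ∈ 𝔫 ^ N ⊔ I := by
    intro N
    have h1 := hpow N hb
    rw [sup_comm]
    have h2 : I ⊔ 𝔫 ^ N * 𝔭 ≤ I ⊔ 𝔫 ^ N := sup_le_sup_left Ideal.mul_le_left _
    exact h2 h1
  obtain ⟨r, hr, hrb⟩ := unip_krull_mem 𝔫 I b hall
  refine ⟨1 - r, fun h => ?_, hrb⟩
  have h1 : (1 : B) ∈ 𝔫 := by
    have := Ideal.add_mem _ h hr
    simpa using this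
  exact (Ideal.IsPrime.ne_top inferInstance) ((Ideal.eq_top_iff_one _).mpr h1)

/-- **(B) intrinsic depth.**  `ev` a section through `𝔫`; stage data `X * Y = π ^ N * G`,
`𝔫 = (π, X, Y)` locally, `X ∈ 𝔭`, `Y ∉ 𝔭`; the point is deep: `π ^ N ∣ ev X`.  Then every
`b ∈ B ∩ π ^ k B_𝔭` (`k ≤ N`) has `π ^ k ∣ ev b`. -/
theorem unip_vert_ev_dvd [IsNoetherianRing B] [IsDomain B] (𝔫 : Ideal B) [𝔫.IsPrime]
    (𝔭 : Ideal B) [𝔭.IsPrime] (h𝔭 : 𝔭 ≤ 𝔫) (π : A) (hπ0 : algebraMap A B π ≠ 0)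
    (hπ𝔭 : algebraMap A B π ∈ 𝔭)
    (ev : B →ₐ[A] A) (hev𝔫 : ∀ b : B, π ∣ ev b → b ∈ 𝔫)
    (hunit : ∀ α : A, ¬ π ∣ α → IsUnit α)
    (X Y G : B) (N : ℕ) (hX : X ∈ 𝔭) (hY : Y ∉ 𝔭) (hY𝔫 : Y ∈ 𝔫)
    (hXY : X * Y = algebraMap A B (π ^ N) * G)
    (hgen : NodesLocGen 𝔫 {algebraMap A B π, X, Y})
    (hdeep : π ^ N ∣ ev X) :
    ∀ k : ℕ, k ≤ N → ∀ b s b' : B, s ∉ 𝔭 → s * b = algebraMap A B (π ^ k) * b' →
      π ^ k ∣ ev b := by
  have hevA : ∀ α : A, ev (algebraMap A B α) = α := fun α => by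
    rw [AlgHom.commutes, Algebra.algebraMap_self_apply]
  have hevu : ∀ u : B, u ∉ 𝔫 → IsUnit (ev u) := fun u hu =>
    hunit _ (fun h => hu (hev𝔫 u h))
  have hres : ∀ u : B, u ∉ 𝔫 → ∃ u' : B, u * u' - 1 ∈ 𝔫 := by
    intro u hu
    obtain ⟨β, hβ⟩ := (hevu u hu).exists_right_inv
    refine ⟨algebraMap A B β, hev𝔫 _ ?_⟩
    rw [map_sub, map_mul, hevA, hβ, map_one, sub_self]
    exact dvd_zero π
  have hA := unip_vert_locGen 𝔫 𝔭 h𝔭 (algebraMap A B π) X Y hπ𝔭 hX hY hY𝔫 hgen hres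
  intro k
  induction k with
  | zero =>
    intro _ b s b' _ _
    rw [pow_zero]
    exact one_dvd _
  | succ k ih =>
    intro hk b s b' hs hsb
    have hb : b ∈ 𝔭 := by
      have h1 : s * b ∈ 𝔭 := by
        rw [hsb, map_pow, pow_succ]
        exact Ideal.mul_mem_right _ _ (Ideal.mul_mem_left _ _ hπ𝔭)
      exact (Ideal.IsPrime.mem_or_mem inferInstance h1).resolve_left hs
    obtain ⟨u, hu, hub⟩ := hA b hb
    rw [Ideal.mem_span_pair] at hub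
    obtain ⟨c₀, c₁, hub⟩ := hub
    have hN : N = (k + 1) + (N - (k + 1)) := by omega
    have key : (s * Y) * c₀ = algebraMap A B (π ^ k) *
        (Y * u * b' - s * c₁ * algebraMap A B (π ^ (N - (k + 1))) * G) := by
      apply mul_left_cancel₀ hπ0
      have e1 : algebraMap A B (π ^ N) =
          algebraMap A B π * algebraMap A B (π ^ k) * algebraMap A B (π ^ (N - (k + 1))) := by
        rw [← map_mul, ← map_mul]
        congr 1
        conv_lhs => rw [hN]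
        rw [pow_add, pow_succ]
        ring
      have e2 : algebraMap A B (π ^ (k + 1)) = algebraMap A B π * algebraMap A B (π ^ k) := by
        rw [← map_mul, pow_succ]
        congr 1
        ring
      rw [e2] at hsb
      rw [e1] at hXY
      linear_combination (s * Y) * hub + (Y * u) * hsb - (s * c₁) * hXY
    have hsY : s * Y ∉ 𝔭 := fun h =>
      (Ideal.IsPrime.mem_or_mem inferInstance h).elim hs hY
    have h1 : π ^ k ∣ ev c₀ := ih (by omega) c₀ (s * Y) _ hsY key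
    have h2 : ev u * ev b = ev c₀ * π + ev c₁ * ev X := by
      have := congrArg ev hub
      rw [map_add, map_mul, map_mul, hevA, map_mul] at this
      exact this.symm
    have h3 : π ^ (k + 1) ∣ ev u * ev b := by
      rw [h2]
      refine dvd_add ?_ (Dvd.dvd.mul_left ((pow_dvd_pow π hk).trans hdeep) _)
      rw [pow_succ]
      exact mul_dvd_mul_right h1 π
    exact ((hevu u hu).dvd_mul_left).mp h3

end VertDepth

section MainGen

variable {A₀ E Lf B : Type*} [CommRing A₀] [IsDomain A₀] [IsDiscreteValuationRing A₀]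
  [Field E] [CharZero E] [Algebra A₀ E] [IsFractionRing A₀ E]
  [Field Lf] [Algebra E Lf] [Algebra A₀ Lf] [IsScalarTower A₀ E Lf]
  [CommRing B] [Algebra B Lf] [Algebra A₀ B] [IsScalarTower A₀ B Lf]

/-- evaluation at `g • P` of `b = g • b'` -/
theorem unip_tubeEv_smul_gen (g : SemilinearAut E Lf)
    (hgA : ∀ α : A₀, ∃ α' : A₀, g • algebraMap A₀ Lf α = algebraMap A₀ Lf α')
    (P : Place E Lf) (evP evQ : B →ₐ[A₀] A₀)
    (hevP : ∀ b : B,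
      algebraMap B Lf b - algebraMap A₀ Lf (evP b) ∈ P.toValuationSubring.nonunits)
    (hevQ : ∀ b : B,
      algebraMap B Lf b - algebraMap A₀ Lf (evQ b) ∈ (g • P).toValuationSubring.nonunits)
    (b b' : B) (hb : g • algebraMap B Lf b' = algebraMap B Lf b) :
    g • algebraMap A₀ Lf (evP b') = algebraMap A₀ Lf (evQ b) := by
  obtain ⟨α', hα'⟩ := hgA (evP b')
  have h1 := unip_smul_mem_nonunits g P (hevP b')
  rw [smul_sub, hb, hα'] at h1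
  rw [hα', unip_value_unique (g • P) (hevQ b) h1]

/-- a `g`-translate of a deep coordinate is deep: the core of `unip_coord_node_gen`. -/
theorem unip_deep_smul [IsNoetherianRing B] {π : A₀} (hπ : Irreducible π) (τ : Lf)
    (hinj : Function.Injective (algebraMap B Lf))
    (𝔫 : Ideal B) [𝔫.IsPrime] (hπ𝔫 : algebraMap A₀ B π ∈ 𝔫)
    (𝔭 : Ideal B) [𝔭.IsPrime] (h𝔭 : 𝔭 ≤ 𝔫) (hπ𝔭 : algebraMap A₀ B π ∈ 𝔭)
    (g : SemilinearAut E Lf)
    (hgB₀' : ∀ b : B, ∃ b' : B, g⁻¹ • algebraMap B Lf b = algebraMap B Lf b')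
    (hgA : ∀ α : A₀, ∃ α' : A₀, g • algebraMap A₀ Lf α = algebraMap A₀ Lf α')
    (hgV : ∀ f : Lf, f ≠ 0 →
      ∃ s s' : B, s ∉ 𝔭 ∧ s' ∉ 𝔭 ∧ algebraMap B Lf s * (g • f / f) = algebraMap B Lf s')
    (q : A₀) (hq0 : q ≠ 0) (hgq : g • algebraMap A₀ Lf q = algebraMap A₀ Lf q) (n' : ℕ)
    (X Y G : B) (hX : X ∈ 𝔭) (hY : Y ∉ 𝔭) (hY𝔫 : Y ∈ 𝔫)
    (hXY : X * Y = algebraMap A₀ B q ^ n' * G)
    (hgen : NodesLocGen 𝔫 {algebraMap A₀ B π, X, Y})
    (P : Place E Lf) (hP : UnipTubePoint τ 𝔫 P) (evP evQ : B →ₐ[A₀] A₀)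
    (hevP : ∀ b : B,
      algebraMap B Lf b - algebraMap A₀ Lf (evP b) ∈ P.toValuationSubring.nonunits)
    (hevQ : ∀ b : B,
      algebraMap B Lf b - algebraMap A₀ Lf (evQ b) ∈ (g • P).toValuationSubring.nonunits)
    (hdeep : q ^ n' ∣ evP X) : q ^ n' ∣ evQ X := by
  haveI : IsDomain B := hinj.isDomain (algebraMap B Lf)
  have hπ0 : algebraMap A₀ B π ≠ 0 := by
    intro h
    apply unip_algebraMap_irreducible_ne_zero (E) (Lf := Lf) hπ
    rw [IsScalarTower.algebraMap_apply A₀ B Lf, h, map_zero]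
  -- `q ^ n'` is associated to a power of `π`
  obtain ⟨e, w, hw⟩ := IsDiscreteValuationRing.associated_pow_irreducible hq0 hπ
  -- hw : q * w = π ^ e
  have hqπ : q ^ n' * ((w : A₀) ^ n') = π ^ (e * n') := by
    rw [← mul_pow, hw, ← pow_mul]
  have hπq : π ^ (e * n') * (((w⁻¹ : A₀ˣ) : A₀) ^ n') = q ^ n' := by
    rw [← hqπ, mul_assoc, ← mul_pow, Units.mul_inv, one_pow, mul_one]
  have hXY' : X * Y = algebraMap A₀ B (π ^ (e * n')) *
      (algebraMap A₀ B (((w⁻¹ : A₀ˣ) : A₀) ^ n') * G) := by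
    rw [← mul_assoc, ← map_mul, hπq, map_pow]
    exact hXY
  have hdeep' : π ^ (e * n') ∣ evP X := by
    rw [← hqπ]
    exact (Units.mul_right_dvd (u := w ^ n') (a := q ^ n') (b := evP X)).mpr hdeep
  have hB := unip_vert_ev_dvd (A := A₀) 𝔫 𝔭 h𝔭 π hπ0 hπ𝔭 evP
    (fun b hb => unip_tubeEv_mem_of_dvd hinj hπ𝔫 hP evP hevP b hb)
    (fun α hα => by
      by_contra hnu
      have : α ∈ IsLocalRing.maximalIdeal A₀ := (IsLocalRing.mem_maximalIdeal _).mpr hnu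
      rw [hπ.maximalIdeal_eq, Ideal.mem_span_singleton] at this
      exact hα this)
    X Y _ (e * n') hX hY hY𝔫 hXY' hgen hdeep' (e * n') le_rfl
  -- the translate `g⁻¹ X`
  obtain ⟨Xg, hXg⟩ := hgB₀' X
  have hgXg : g • algebraMap B Lf Xg = algebraMap B Lf X := by
    rw [← hXg, smul_inv_smul]
  by_cases hX0 : X = 0
  · -- degenerate: `X = 0`, then `Xg = 0`
    have : Xg = 0 := by
      apply hinj
      rw [← hXg, hX0, map_zero, smul_zero]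
    have h1 := unip_tubeEv_smul_gen g hgA P evP evQ hevP hevQ X Xg hgXg
    rw [this, map_zero, map_zero, smul_zero] at h1
    have : evQ X = 0 := unip_algebraMap_injective E (A₀ := A₀) (Lf := Lf) (by rw [← h1, map_zero])
    rw [this]
    exact dvd_zero _
  have hXgL : algebraMap B Lf Xg ≠ 0 := by
    intro h
    apply hX0
    apply hinj
    rw [← hgXg, h, smul_zero, map_zero]
  obtain ⟨s, s', hs, hs', hss⟩ := hgV (algebraMap B Lf Xg) hXgL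
  rw [hgXg] at hss
  have hss' : s * X = s' * Xg := by
    apply hinj
    rw [map_mul, map_mul, ← hss]
    field_simp
  have hdvdXg : π ^ (e * n') ∣ evP Xg := by
    refine hB Xg (s' * Y) (s * (algebraMap A₀ B (((w⁻¹ : A₀ˣ) : A₀) ^ n') * G)) ?_ ?_
    · exact fun h => (Ideal.IsPrime.mem_or_mem inferInstance h).elim hs' hY
    · linear_combination (-Y) * hss' + s * hXY'
  have hdvdXg' : q ^ n' ∣ evP Xg := by
    rw [← hπq]
    exact (Units.mul_right_dvd (u := (w⁻¹) ^ n') (a := π ^ (e * n')) (b := evP Xg)).mpr hdvdXg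
  exact unip_dvd_of_smul g hgA q hgq n'
    (unip_tubeEv_smul_gen g hgA P evP evQ hevP hevQ X Xg hgXg) hdvdXg'

/-- **Coord, crossing point, general `g` (thick nodes included).**  `g` preserves the tube of
`𝔫`, the constants `A₀`, `q`, and the valuations of the two branches `𝔭₁, 𝔭₂` through `𝔫`
(`hgV₁`, `hgV₂`: the hypothesis `hgV` of `ls_local_factor_chart`).  Stage data for every `n ≥ 1`
(`unip_morse_iter_vert` over the unramified chart, transported to `B`).  Then every rational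
point `P` of the tube of `𝔫` with `g • P ≠ P` has a coordinate function. -/
theorem unip_coord_node_gen [IsNoetherianRing B] {π : A₀} (hπ : Irreducible π) (τ : Lf)
    (hτ : Transcendental E τ) [FiniteDimensional E⟮τ⟯ Lf]
    (hinj : Function.Injective (algebraMap B Lf))
    (hB : ∀ x : Lf, x ∈ (algebraMap B Lf).range ↔ IsIntegral (Algebra.adjoin A₀ {τ}) x)
    (𝔫 : Ideal B) [𝔫.IsPrime] (hπ𝔫 : algebraMap A₀ B π ∈ 𝔫)
    (𝔭₁ 𝔭₂ : Ideal B) [𝔭₁.IsPrime] [𝔭₂.IsPrime] (h1 : 𝔭₁ ≤ 𝔫) (h2 : 𝔭₂ ≤ 𝔫)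
    (hπ1 : algebraMap A₀ B π ∈ 𝔭₁) (hπ2 : algebraMap A₀ B π ∈ 𝔭₂)
    (g : SemilinearAut E Lf) (hgτ : g • τ = τ)
    (hgB : ∀ b : B, b ∈ 𝔫 → ∃ b' : B, b' ∈ 𝔫 ∧ g • algebraMap B Lf b = algebraMap B Lf b')
    (hgB₀' : ∀ b : B, ∃ b' : B, g⁻¹ • algebraMap B Lf b = algebraMap B Lf b')
    (hgA : ∀ α : A₀, ∃ α' : A₀, g • algebraMap A₀ Lf α = algebraMap A₀ Lf α')
    (hgV₁ : ∀ f : Lf, f ≠ 0 →
      ∃ s s' : B, s ∉ 𝔭₁ ∧ s' ∉ 𝔭₁ ∧ algebraMap B Lf s * (g • f / f) = algebraMap B Lf s')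
    (hgV₂ : ∀ f : Lf, f ≠ 0 →
      ∃ s s' : B, s ∉ 𝔭₂ ∧ s' ∉ 𝔭₂ ∧ algebraMap B Lf s * (g • f / f) = algebraMap B Lf s')
    (q : A₀) (hq0 : q ≠ 0) (hqπ : π ∣ q)
    (hgq : g • algebraMap A₀ Lf q = algebraMap A₀ Lf q)
    (hstage : ∀ n : ℕ, 1 ≤ n → ∃ (n' : ℕ) (X Y G : B), X ∈ 𝔭₁ ∧ Y ∈ 𝔭₂ ∧ X ∉ 𝔭₂ ∧ Y ∉ 𝔭₁ ∧
      X * Y = algebraMap A₀ B q ^ n' * G ∧ NodesLocGen 𝔫 {algebraMap A₀ B π, X, Y} ∧
      (n ≤ n' ∨ G ∉ 𝔫))
    (P : Place E Lf) (hP : UnipTubePoint τ 𝔫 P) (hgP : g • P ≠ P) :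
    ∃ f : Lf, f ≠ 0 ∧ P.ord f = 1 ∧
      ∀ Q : Place E Lf, 0 ≤ Q.ord τ → (∀ b : B, 0 < Q.ord (algebraMap B Lf b) → b ∈ 𝔫) →
        Q ≠ P → Q.ord f = 0 := by
  have hP' : UnipTubePoint τ 𝔫 (g • P) := hP.smul hinj g hgτ hgB hgB₀'
  obtain ⟨evP, hevP⟩ := unip_exists_tubeEv hπ τ hinj hB 𝔫 hπ𝔫 P hP
  obtain ⟨evQ, hevQ⟩ := unip_exists_tubeEv hπ τ hinj hB 𝔫 hπ𝔫 (g • P) hP'
  by_contra hcon
  have hmaxP : ∀ b ∈ 𝔫, evP b ∈ IsLocalRing.maximalIdeal A₀ := fun b hb => by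
    rw [hπ.maximalIdeal_eq, Ideal.mem_span_singleton]
    exact unip_tubeEv_dvd hπ hinj hP evP hevP b hb
  have hmaxQ : ∀ b ∈ 𝔫, evQ b ∈ IsLocalRing.maximalIdeal A₀ := fun b hb => by
    rw [hπ.maximalIdeal_eq, Ideal.mem_span_singleton]
    exact unip_tubeEv_dvd hπ hinj hP' evQ hevQ b hb
  have key : ∀ n : ℕ, 1 ≤ n → ∀ b : B, evP b - evQ b ∈ Ideal.span ({q ^ n} : Set A₀) := by
    intro n hn b
    obtain ⟨n', X, Y, G, hX1, hY2, hX2, hY1, hXY, hgen, hthin⟩ := hstage n hn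
    have hX : X ∈ 𝔫 := h1 hX1
    have hY : Y ∈ 𝔫 := h2 hY2
    rcases unip_coord_stage hπ τ hτ hinj hB 𝔫 hπ𝔫 q hq0 n' X Y G hX hY hXY hgen P hP evP hevP
      with h | ⟨hdX, hdY, hG⟩
    · exact absurd h hcon
    have hle : n ≤ n' := hthin.resolve_right (fun h => h hG)
    have hgen' : NodesLocGen 𝔫 {algebraMap A₀ B π, Y, X} := by
      have : ({algebraMap A₀ B π, Y, X} : Set B) = {algebraMap A₀ B π, X, Y} := by
        rw [Set.pair_comm Y X]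
      rw [this]
      exact hgen
    have hYX : Y * X = algebraMap A₀ B q ^ n' * G := by rw [mul_comm]; exact hXY
    have hdXQ' : q ^ n' ∣ evQ X :=
      unip_deep_smul hπ τ hinj 𝔫 hπ𝔫 𝔭₁ h1 hπ1 g hgB₀' hgA hgV₁ q hq0 hgq n' X Y G hX1 hY1 hY
        hXY hgen P hP evP evQ hevP hevQ hdX
    have hdYQ' : q ^ n' ∣ evQ Y :=
      unip_deep_smul hπ τ hinj 𝔫 hπ𝔫 𝔭₂ h2 hπ2 g hgB₀' hgA hgV₂ q hq0 hgq n' Y X G hY2 hX2 hX
        hYX hgen' P hP evP evQ hevP hevQ hdY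
    have hdX' : q ^ n ∣ evP X := (pow_dvd_pow q hle).trans hdX
    have hdY' : q ^ n ∣ evP Y := (pow_dvd_pow q hle).trans hdY
    have hdXQ : q ^ n ∣ evQ X := (pow_dvd_pow q hle).trans hdXQ'
    have hdYQ : q ^ n ∣ evQ Y := (pow_dvd_pow q hle).trans hdYQ'
    have hd := unip_dense_of_tubePoint hπ τ hinj hB 𝔫 hπ𝔫 P hP {X, Y}
      (fun x hx => by
        rcases hx with rfl | rfl
        · exact hX
        · exact hY) hgen
    refine unip_eval_sub_mem_span_of_dense 𝔫 {X, Y} (q ^ n) hd evP evQ hmaxP hmaxQ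
      (fun x hx => ?_) b
    rw [Ideal.mem_span_singleton]
    rcases hx with rfl | rfl
    · exact dvd_sub hdX' hdXQ
    · exact dvd_sub hdY' hdYQ
  have heq : ∀ b : B, evP b = evQ b := by
    intro b
    have h0 : evP b - evQ b ∈ (⨅ i : ℕ, IsLocalRing.maximalIdeal A₀ ^ i : Ideal A₀) := by
      rw [Ideal.mem_iInf]
      intro n
      rcases Nat.eq_zero_or_pos n with h | h
      · rw [h, pow_zero, Ideal.one_eq_top]; exact Submodule.mem_top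
      · have h1 := key n h b
        rw [Ideal.mem_span_singleton] at h1
        obtain ⟨c, hc⟩ := h1
        obtain ⟨q₁, hq₁⟩ := hqπ
        rw [hc, hq₁, mul_pow, hπ.maximalIdeal_eq, Ideal.span_singleton_pow]
        exact Ideal.mem_span_singleton.mpr ⟨q₁ ^ n * c, by ring⟩
    rw [Ideal.iInf_pow_eq_bot_of_isLocalRing (IsLocalRing.maximalIdeal A₀)
      Ideal.IsPrime.ne_top'] at h0
    exact sub_eq_zero.mp (by simpa using h0)
  apply hgP
  refine unip_place_eq_of_le hπ τ hτ hB P (g • P) hP.ord_nonneg hP'.ord_nonneg (fun b hb => ?_)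
  have hb0 : algebraMap B Lf b ≠ 0 := by
    intro h0
    rw [h0, Place.ord_zero] at hb
    exact lt_irrefl _ hb
  have h1 : evP b = 0 :=
    (unip_tubeEv_eq_zero_iff P evP hevP b).mpr ((unip_mem_nonunits_iff P _).mpr (Or.inr hb))
  have h2 : evQ b = 0 := by rw [← heq b, h1]
  have h3 := (unip_tubeEv_eq_zero_iff (g • P) evQ hevQ b).mp h2
  rcases (unip_mem_nonunits_iff (g • P) _).mp h3 with h | h
  · exact absurd h hb0
  · exact h

end MainGen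

end Fermat.Agent.UNIP
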