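import Fermat.Agent.UNIP.AbstractT
import Fermat.Agent.UNIP.CoordGen

/-!
# UNIP / AT-c2, STB-L — `hcoord` of `at_main_two` / `at_local_factor` on the charts `zchClosure {u}`

The hypotheses `hcoord` of helper84's `at_local_factor`, `at_main`, `at_main_two`
(AbstractT.lean), in their exact shape, from the local data of U5:

* `unip_hcoord_disc` : at a smooth point, `𝔫 = (π, s)` locally;
* `unip_hcoord_node` : at a crossing point of the components `V c₁`, `V c₂`, from stage data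
  (`unip_morse_iter_vert`), for ANY `g` preserving the tube, the constants and the two vertical
  valuations (thick nodes included; the coordinates need not be fixed by `g`).

Rationality of the moved points in the support (`hrat`, D8) is a hypothesis.
-/

set_option autoImplicit false
set_option linter.style.haveILetI false
set_option linter.unusedSectionVars false
set_option linter.unusedVariables false

namespace Fermat.Agent.UNIP

open Polynomial IntermediateField Fermat.Agent.INJ AlgebraicCurve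

section CoordChart

variable {A₀ E F : Type*} [CommRing A₀] [IsDomain A₀] [IsDiscreteValuationRing A₀]
  [Field E] [Algebra A₀ E] [IsFractionRing A₀ E] [CharZero E]
  [Field F] [Algebra E F] [Algebra A₀ F] [IsScalarTower A₀ E F]
  {π : A₀} {κ : Type*}

/-- the chart facts `hinj`, `hB` for `B_u = zchClosure {u}` -/
theorem unip_chart_range (u : F) (y : F) :
    y ∈ (algebraMap ↥(zchClosure (A₀ := A₀) ({u} : Set F)) F).range ↔
      IsIntegral (Algebra.adjoin A₀ {u}) y := by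
  constructor
  · rintro ⟨b, rfl⟩
    exact mem_zchClosure.mp b.2
  · intro hy
    exact ⟨⟨y, mem_zchClosure.mpr hy⟩, rfl⟩

/-- **`hcoord` at a smooth point** of the chart `u`. -/
theorem unip_hcoord_disc (hπ : Irreducible π) {u : F} (hu : Transcendental E u)
    [FiniteDimensional E⟮u⟯ F] [IsNoetherianRing ↥(zchClosure (A₀ := A₀) ({u} : Set F))]
    (𝔫 : Ideal ↥(zchClosure (A₀ := A₀) ({u} : Set F))) [𝔫.IsPrime]
    (hπ𝔫 : algebraMap A₀ ↥(zchClosure (A₀ := A₀) ({u} : Set F)) π ∈ 𝔫)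
    (s : ↥(zchClosure (A₀ := A₀) ({u} : Set F))) (hs : s ∈ 𝔫)
    (hgen : NodesLocGen 𝔫 {algebraMap A₀ ↥(zchClosure (A₀ := A₀) ({u} : Set F)) π, s})
    (g : SemilinearAut E F) {x : F}
    (hrat : ∀ P : Place E F, LsTube ↥(zchClosure (A₀ := A₀) ({u} : Set F)) u 𝔫 P →
      g • P ≠ P → P.ord x ≠ 0 → ∀ f ∈ P.toValuationSubring,
        ∃ c : E, f - algebraMap E F c ∈ P.toValuationSubring.nonunits) :
    ∀ P : Place E F, LsTube ↥(zchClosure (A₀ := A₀) ({u} : Set F)) u 𝔫 P →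
      g • P ≠ P → P.ord x ≠ 0 → ∃ f : F, f ≠ 0 ∧ P.ord f = 1 ∧
        ∀ Q : Place E F, LsTube ↥(zchClosure (A₀ := A₀) ({u} : Set F)) u 𝔫 Q → g • Q ≠ Q →
          Q ≠ P → Q.ord f = 0 := by
  intro P hP hgP hPx
  have hinj : Function.Injective (algebraMap ↥(zchClosure (A₀ := A₀) ({u} : Set F)) F) :=
    Subtype.val_injective
  obtain ⟨f, hf0, hf1, hf⟩ := unip_coord_disc hπ u hu hinj (unip_chart_range u) 𝔫 hπ𝔫 s hs hgen P
    ⟨hP.1, hP.2, hrat P hP hgP hPx⟩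
  exact ⟨f, hf0, hf1, fun Q hQ _ hQP => hf Q hQ.1 hQ.2 hQP⟩

/-- **`hcoord` at a crossing point** of the chart `u` (components `V c₁`, `V c₂`), general `g`,
thick nodes included. -/
theorem unip_hcoord_node (hπ : Irreducible π) {u : F} (hu : Transcendental E u)
    [FiniteDimensional E⟮u⟯ F] [IsNoetherianRing ↥(zchClosure (A₀ := A₀) ({u} : Set F))]
    (V : κ → ValuationSubring F)
    (hBV : ∀ c (b : F), IsIntegral ↥(Algebra.adjoin A₀ {u}) b → b ∈ V c)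
    (hπV : ∀ c, algebraMap A₀ F π ∈ (V c).nonunits)
    (hVloc : ∀ c (x : F), x ∈ V c → ∃ b s : F, IsIntegral ↥(Algebra.adjoin A₀ {u}) b ∧
      IsIntegral ↥(Algebra.adjoin A₀ {u}) s ∧ s ∉ (V c).nonunits ∧ s * x = b)
    (g : SemilinearAut E F) (hgu : g • u = u)
    (𝔫 : Ideal ↥(zchClosure (A₀ := A₀) ({u} : Set F))) [𝔫.IsPrime]
    (hπ𝔫 : algebraMap A₀ ↥(zchClosure (A₀ := A₀) ({u} : Set F)) π ∈ 𝔫)
    (hgB : ∀ b : ↥(zchClosure (A₀ := A₀) ({u} : Set F)), b ∈ 𝔫 →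
      ∃ b' : ↥(zchClosure (A₀ := A₀) ({u} : Set F)), b' ∈ 𝔫 ∧ g • (b : F) = b')
    (hgB₀' : ∀ b : F, IsIntegral ↥(Algebra.adjoin A₀ {u}) b →
      IsIntegral ↥(Algebra.adjoin A₀ {u}) (g⁻¹ • b))
    (hgV : ∀ c (f : F), f ≠ 0 → (V c).valuation (g • f / f) = 1)
    (hgA : ∀ α : A₀, ∃ α' : A₀, g • algebraMap A₀ F α = algebraMap A₀ F α')
    (q : A₀) (hq0 : q ≠ 0) (hqπ : π ∣ q) (hgq : g • algebraMap A₀ F q = algebraMap A₀ F q)
    (c₁ c₂ : κ)
    (hc₁ : ∀ b : ↥(zchClosure (A₀ := A₀) ({u} : Set F)), (b : F) ∈ (V c₁).nonunits → b ∈ 𝔫)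
    (hc₂ : ∀ b : ↥(zchClosure (A₀ := A₀) ({u} : Set F)), (b : F) ∈ (V c₂).nonunits → b ∈ 𝔫)
    (hstage : ∀ n : ℕ, 1 ≤ n → ∃ (n' : ℕ) (X Y G : ↥(zchClosure (A₀ := A₀) ({u} : Set F))),
      (X : F) ∈ (V c₁).nonunits ∧ (Y : F) ∈ (V c₂).nonunits ∧
      (X : F) ∉ (V c₂).nonunits ∧ (Y : F) ∉ (V c₁).nonunits ∧
      X * Y = algebraMap A₀ ↥(zchClosure (A₀ := A₀) ({u} : Set F)) q ^ n' * G ∧
      NodesLocGen 𝔫 {algebraMap A₀ ↥(zchClosure (A₀ := A₀) ({u} : Set F)) π, X, Y} ∧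
      (n ≤ n' ∨ G ∉ 𝔫))
    {x : F}
    (hrat : ∀ P : Place E F, LsTube ↥(zchClosure (A₀ := A₀) ({u} : Set F)) u 𝔫 P →
      g • P ≠ P → P.ord x ≠ 0 → ∀ f ∈ P.toValuationSubring,
        ∃ c : E, f - algebraMap E F c ∈ P.toValuationSubring.nonunits) :
    ∀ P : Place E F, LsTube ↥(zchClosure (A₀ := A₀) ({u} : Set F)) u 𝔫 P →
      g • P ≠ P → P.ord x ≠ 0 → ∃ f : F, f ≠ 0 ∧ P.ord f = 1 ∧
        ∀ Q : Place E F, LsTube ↥(zchClosure (A₀ := A₀) ({u} : Set F)) u 𝔫 Q → g • Q ≠ Q →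
          Q ≠ P → Q.ord f = 0 := by
  intro P hP hgP hPx
  set B := ↥(zchClosure (A₀ := A₀) ({u} : Set F)) with hBdef
  have hinj : Function.Injective (algebraMap B F) := Subtype.val_injective
  haveI h1p := at_crossingIdeal_isPrime (A₀ := A₀) (S := {u}) (V c₁) (hBV c₁)
  haveI h2p := at_crossingIdeal_isPrime (A₀ := A₀) (S := {u}) (V c₂) (hBV c₂)
  have hgB₁' : ∀ b : B, ∃ b' : B, g⁻¹ • algebraMap B F b = algebraMap B F b' := fun b =>
    ⟨⟨g⁻¹ • (b : F), mem_zchClosure.mpr (hgB₀' _ (mem_zchClosure.mp b.2))⟩, rfl⟩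
  have hgV' : ∀ c : κ, ∀ f : F, f ≠ 0 →
      ∃ s s' : B, s ∉ crossingIdeal (A₀ := A₀) {u} (V c) (hBV c) ∧
        s' ∉ crossingIdeal (A₀ := A₀) {u} (V c) (hBV c) ∧
        algebraMap B F s * (g • f / f) = algebraMap B F s' := by
    intro c f hf
    haveI := at_crossingIdeal_isPrime (A₀ := A₀) (S := {u}) (V c) (hBV c)
    refine ls_vertical_unit_of_valuation hinj _ (V c) ?_ (hgV c f hf)
    intro y hy
    obtain ⟨b, s, hb, hs, hsV, hsy⟩ := hVloc c y hy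
    exact ⟨⟨b, mem_zchClosure.mpr hb⟩, ⟨s, mem_zchClosure.mpr hs⟩, hsV, hsy⟩
  obtain ⟨f, hf0, hf1, hf⟩ := unip_coord_node_gen hπ u hu hinj (unip_chart_range u) 𝔫 hπ𝔫
    (crossingIdeal (A₀ := A₀) {u} (V c₁) (hBV c₁)) (crossingIdeal (A₀ := A₀) {u} (V c₂) (hBV c₂))
    (fun b hb => hc₁ b hb) (fun b hb => hc₂ b hb) (hπV c₁) (hπV c₂) g hgu hgB hgB₁' hgA
    (hgV' c₁) (hgV' c₂) q hq0 hqπ hgq hstage P ⟨hP.1, hP.2, hrat P hP hgP hPx⟩ hgP
  exact ⟨f, hf0, hf1, fun Q hQ _ hQP => hf Q hQ.1 hQ.2 hQP⟩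

end CoordChart

end Fermat.Agent.UNIP
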