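import Fermat.Agent.UNIP.FibreDVRCore
import Fermat.Agent.INJ.ChartFinite

/-!
# UNIP piece U13 (conversion, chart form)

Chart `C = integralClosure A₀[τ] Lf` of the tame specialization theorem (INJ Part A).  If the
special fibre `C / π` is an integrally closed domain (INJ piece NORM, N4), then at every maximal
ideal `𝔫 ∋ π` of `C` there is `s ∈ 𝔫` with `𝔫 C_𝔫 = (π, s) C_𝔫`, in element form:
`∀ x ∈ 𝔫, ∃ u ∉ 𝔫, u * x ∈ Ideal.span {π, s}`.
-/

set_option autoImplicit false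
set_option linter.style.haveILetI false

namespace Fermat.Agent.UNIP.FibreDVR

open Polynomial IntermediateField Fermat.Agent.INJ

universe u

/-- **U13, conversion (chart form).** -/
theorem chart_locGen_of_isIntegrallyClosed
    {A₀ E Lf : Type u} [CommRing A₀] [IsDomain A₀] [IsDiscreteValuationRing A₀]
    [Field E] [Algebra A₀ E] [IsFractionRing A₀ E] [CharZero E]
    [Field Lf] [Algebra E Lf] [Algebra A₀ Lf] [IsScalarTower A₀ E Lf]
    {π : A₀} (hπ : Irreducible π) {τ : Lf} (hτ : Transcendental E τ)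
    [FiniteDimensional E⟮τ⟯ Lf]
    [IsDomain (integralClosure (Algebra.adjoin A₀ {τ}) Lf ⧸
      Ideal.span {algebraMap A₀ (integralClosure (Algebra.adjoin A₀ {τ}) Lf) π})]
    [IsIntegrallyClosed (integralClosure (Algebra.adjoin A₀ {τ}) Lf ⧸
      Ideal.span {algebraMap A₀ (integralClosure (Algebra.adjoin A₀ {τ}) Lf) π})]
    (𝔫 : Ideal (integralClosure (Algebra.adjoin A₀ {τ}) Lf)) (h𝔫 : 𝔫.IsMaximal)
    (hπ𝔫 : algebraMap A₀ (integralClosure (Algebra.adjoin A₀ {τ}) Lf) π ∈ 𝔫) :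
    ∃ s ∈ 𝔫, ∀ x ∈ 𝔫, ∃ u, u ∉ 𝔫 ∧
      u * x ∈ Ideal.span {algebraMap A₀ (integralClosure (Algebra.adjoin A₀ {τ}) Lf) π, s} := by
  haveI := h𝔫
  haveI := chart_closure_isNoetherianRing (A₀ := A₀) (E := E) hτ
  haveI := chart_quotient_isPrincipalIdealRing (A₀ := A₀) (E := E) (τ := τ) hτ hπ
  exact locGen_of_isIntegrallyClosed_quotient (R := ↥(Algebra.adjoin A₀ {τ}))
    (chart_prime hτ hπ) _
    (IsScalarTower.algebraMap_apply A₀ ↥(Algebra.adjoin A₀ {τ})
      ↥(integralClosure ↥(Algebra.adjoin A₀ {τ}) Lf) π) 𝔫 hπ𝔫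

end Fermat.Agent.UNIP.FibreDVR
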