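import Mathlib

/-!
# UNIP / U1 — the group-theoretic skeleton of "inertia acts trivially on the toric part"

Abstract form of steps (2)–(5) of helper84's note (S34 / `ESUnip`).

`G` acts on a set `Cmp` of "components" and on a set `Pt` of "points"; `inc c e` means that the
point `e` lies on the component `c`.  `H ≤ G` is a normal subgroup (the Galois group of the
unramified split cover `L / F₁`), `G / H` is the group of the constant field extension.

Hypotheses:
* `hcov` : `stabilizer c ⊔ H = ⊤`  (the decomposition group of a component maps onto `G / H`);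
* `hinc` : `inc c e → stabilizer c ≤ stabilizer e`  (the decomposition group of a split component
  acts trivially on the component, hence fixes its points);
* `hloc` : `stabilizer e ⊓ H = ⊥`  (**(LOC)**: the cover is "topologically unramified" at `e`);
* `hconn` : the incidence graph on components is connected (Zariski connectedness).

Conclusions: all stabilisers of components coincide (`stabilizer_eq_of_connected`), the common
stabiliser is normal and commutes with `H` (`commute_of_skeleton`), and if `H` is commutative then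
`H` is central in `G` (`conj_eq_of_skeleton`): the constant field extension acts trivially on `H`.
-/

namespace Fermat.Agent.UNIP

open MulAction

variable {G Cmp Pt : Type*} [Group G] [MulAction G Cmp] [MulAction G Pt]

/-- One edge of the incidence graph: two components through a common point at which the cover
is topologically unramified have the same stabiliser. -/
theorem stabilizer_eq_of_common_point (H : Subgroup G) [H.Normal] (inc : Cmp → Pt → Prop)
    (hcov : ∀ c : Cmp, stabilizer G c ⊔ H = ⊤)
    (hinc : ∀ (c : Cmp) (e : Pt), inc c e → stabilizer G c ≤ stabilizer G e)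
    (hloc : ∀ e : Pt, stabilizer G e ⊓ H = ⊥)
    {c c' : Cmp} {e : Pt} (h : inc c e) (h' : inc c' e) :
    stabilizer G c = stabilizer G c' := by
  have key : ∀ d : Cmp, inc d e → stabilizer G d = stabilizer G e := by
    intro d hd
    refine le_antisymm (hinc d e hd) ?_
    intro z hz
    have hz' : z ∈ (stabilizer G d ⊔ H : Subgroup G) := by rw [hcov d]; trivial
    rw [Subgroup.mem_sup_of_normal_right] at hz'
    obtain ⟨t, ht, n, hn, rfl⟩ := hz'
    have hte : t ∈ stabilizer G e := hinc d e hd ht
    have hne : n ∈ stabilizer G e := by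
      have : n = t⁻¹ * (t * n) := by group
      rw [this]
      exact (stabilizer G e).mul_mem ((stabilizer G e).inv_mem hte) hz
    have hn1 : n ∈ (stabilizer G e ⊓ H : Subgroup G) := ⟨hne, hn⟩
    rw [hloc e, Subgroup.mem_bot] at hn1
    subst hn1
    simpa using ht
  rw [key c h, key c' h']

/-- **Skeleton, part 1.** If the incidence graph is connected, all components have the same
stabiliser. -/
theorem stabilizer_eq_of_connected (H : Subgroup G) [H.Normal] (inc : Cmp → Pt → Prop)
    (hcov : ∀ c : Cmp, stabilizer G c ⊔ H = ⊤)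
    (hinc : ∀ (c : Cmp) (e : Pt), inc c e → stabilizer G c ≤ stabilizer G e)
    (hloc : ∀ e : Pt, stabilizer G e ⊓ H = ⊥)
    (hconn : ∀ c c' : Cmp, Relation.ReflTransGen (fun a b => ∃ e, inc a e ∧ inc b e) c c')
    (c c' : Cmp) : stabilizer G c = stabilizer G c' := by
  induction hconn c c' with
  | refl => rfl
  | tail _ hstep ih =>
    obtain ⟨e, he, he'⟩ := hstep
    exact ih.trans (stabilizer_eq_of_common_point H inc hcov hinc hloc he he')

/-- **Skeleton, part 2.** The common stabiliser of the components is a normal subgroup. -/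
theorem stabilizer_normal_of_connected (H : Subgroup G) [H.Normal] (inc : Cmp → Pt → Prop)
    (hcov : ∀ c : Cmp, stabilizer G c ⊔ H = ⊤)
    (hinc : ∀ (c : Cmp) (e : Pt), inc c e → stabilizer G c ≤ stabilizer G e)
    (hloc : ∀ e : Pt, stabilizer G e ⊓ H = ⊥)
    (hconn : ∀ c c' : Cmp, Relation.ReflTransGen (fun a b => ∃ e, inc a e ∧ inc b e) c c')
    (c : Cmp) : (stabilizer G c).Normal := by
  constructor
  intro t ht g
  have h1 : g * t * g⁻¹ ∈ stabilizer G (g • c) := by
    rw [mem_stabilizer_iff] at ht ⊢
    rw [mul_smul, mul_smul, inv_smul_smul, ht]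
  rwa [stabilizer_eq_of_connected H inc hcov hinc hloc hconn (g • c) c] at h1

/-- **Skeleton, part 3.** The stabiliser of a component commutes with `H`, provided `H` acts
freely on the components (`hfree`; automatic from `hinc`, `hloc` when every component has a
point). -/
theorem commute_of_skeleton (H : Subgroup G) [H.Normal] (inc : Cmp → Pt → Prop)
    (hcov : ∀ c : Cmp, stabilizer G c ⊔ H = ⊤)
    (hinc : ∀ (c : Cmp) (e : Pt), inc c e → stabilizer G c ≤ stabilizer G e)
    (hloc : ∀ e : Pt, stabilizer G e ⊓ H = ⊥)
    (hconn : ∀ c c' : Cmp, Relation.ReflTransGen (fun a b => ∃ e, inc a e ∧ inc b e) c c')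
    (hfree : ∀ c : Cmp, stabilizer G c ⊓ H = ⊥)
    (c : Cmp) {t h : G} (ht : t ∈ stabilizer G c) (hh : h ∈ H) : t * h = h * t := by
  have hnorm : (stabilizer G c).Normal := stabilizer_normal_of_connected H inc hcov hinc hloc hconn c
  have hcomm : t * h * t⁻¹ * h⁻¹ ∈ (stabilizer G c ⊓ H : Subgroup G) := by
    refine ⟨?_, ?_⟩
    · have h1 : h * t⁻¹ * h⁻¹ ∈ stabilizer G c :=
        hnorm.conj_mem _ ((stabilizer G c).inv_mem ht) h
      have : t * h * t⁻¹ * h⁻¹ = t * (h * t⁻¹ * h⁻¹) := by group
      rw [this]
      exact (stabilizer G c).mul_mem ht h1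
    · have h1 : t * h * t⁻¹ ∈ H := ‹H.Normal›.conj_mem _ hh t
      exact H.mul_mem h1 (H.inv_mem hh)
  rw [hfree c, Subgroup.mem_bot] at hcomm
  have : t * h = (t * h * t⁻¹ * h⁻¹) * (h * t) := by group
  rw [this, hcomm, one_mul]

/-- `H` acts freely on the components as soon as every component carries a point. -/
theorem free_of_point (H : Subgroup G) (inc : Cmp → Pt → Prop)
    (hinc : ∀ (c : Cmp) (e : Pt), inc c e → stabilizer G c ≤ stabilizer G e)
    (hloc : ∀ e : Pt, stabilizer G e ⊓ H = ⊥)
    (hpt : ∀ c : Cmp, ∃ e, inc c e) (c : Cmp) : stabilizer G c ⊓ H = ⊥ := by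
  obtain ⟨e, he⟩ := hpt c
  refine le_antisymm ?_ bot_le
  rw [← hloc e]
  exact inf_le_inf_right H (hinc c e he)

/-- **Skeleton, final form.** If moreover `H` is commutative, then `H` is central in `G`:
conjugation by any element of `G` is trivial on `H`.  (In the application: the Galois group of
the constant field extension acts trivially on `H = Gal(L / F₁)`.) -/
theorem conj_eq_of_skeleton [Nonempty Cmp] (H : Subgroup G) [H.Normal] (inc : Cmp → Pt → Prop)
    (hcov : ∀ c : Cmp, stabilizer G c ⊔ H = ⊤)
    (hinc : ∀ (c : Cmp) (e : Pt), inc c e → stabilizer G c ≤ stabilizer G e)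
    (hloc : ∀ e : Pt, stabilizer G e ⊓ H = ⊥)
    (hconn : ∀ c c' : Cmp, Relation.ReflTransGen (fun a b => ∃ e, inc a e ∧ inc b e) c c')
    (hfree : ∀ c : Cmp, stabilizer G c ⊓ H = ⊥)
    (hab : ∀ a ∈ H, ∀ b ∈ H, a * b = b * a)
    (g : G) {h : G} (hh : h ∈ H) : g * h * g⁻¹ = h := by
  obtain ⟨c⟩ := ‹Nonempty Cmp›
  have hg : g ∈ (stabilizer G c ⊔ H : Subgroup G) := by rw [hcov c]; trivial
  rw [Subgroup.mem_sup_of_normal_right] at hg
  obtain ⟨t, ht, n, hn, rfl⟩ := hg
  have h1 : n * h = h * n := hab n hn h hh
  have h2 : t * h = h * t := commute_of_skeleton H inc hcov hinc hloc hconn hfree c ht hh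
  calc t * n * h * (t * n)⁻¹ = t * (n * h) * n⁻¹ * t⁻¹ := by group
    _ = t * (h * n) * n⁻¹ * t⁻¹ := by rw [h1]
    _ = (t * h) * t⁻¹ := by group
    _ = (h * t) * t⁻¹ := by rw [h2]
    _ = h := by group

end Fermat.Agent.UNIP
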