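/-
UNIP / MG-5c (helper23), concrete part: `hcoord₁` / `hcoord₂` of `at_main_two` for
`F_N(E′)`, charts `j` and `1/j` over `A′`, with `hrat` discharged by D8.

Setting of helper16's `MGChartsConcrete.lean` (MG-5a: `mgcc_hcoord_j`, `mgcc_hcoord_jinv`, one
closed point and one rational place), with `E′` an intermediate field of `ℚ̄ / ℚ`; D8 is helper28's
`rat_exists_field_rational` (`UNIP/RationalSupp.lean`).

* `mgcoord_rat`           : D8 in the shape of the hypothesis `hrat`: there is a number field `K₀`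
                            (Galois over `ℚ`, containing a given number field) such that for every
                            `E ⊇ K₀` and every model `u₀ ∈ F_N(E)` of `u`, every place of
                            `F_N(E) / E` in the support of `div u₀` is `E`-rational.
* `mgcoord_hcoord_j`      : `hcoord₁` of `at_main_two`, EXACT shape (`t := bgJ E′ N`,
                            `σ := mgGal N s`, `u := u₀`).
* `mgcoord_hcoord_jinv`   : `hcoord₂` of `at_main_two`, EXACT shape.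
-/
import Fermat.Agent.UNIP.MGChartsConcrete
import Fermat.Agent.UNIP.RationalSupp

set_option autoImplicit false
set_option linter.style.haveILetI false
set_option linter.unusedSectionVars false
set_option linter.unusedVariables false

open Polynomial IntermediateField Fermat.Agent.INJ AlgebraicCurve ModularCurve Fermat.Agent.S24

namespace Fermat.Agent.UNIP

section Rat

/-- `mgGal N 1` acts trivially on places. -/
theorem mgcoord_one_smul {K : Type*} [Field K] (N : ℕ)
    (Q : Place K (modularFunctionFieldFullC K N)) : mgGal N (1 : K ≃+* K) • Q = Q := by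
  rw [map_one, one_smul]

set_option synthInstance.maxHeartbeats 400000 in
/-- **D8 in the shape of `hrat`.**  For `u ∈ F_N(ℚ̄)^×` there is a number field `K₀`, Galois over
`ℚ` and containing a given number field `E₁`, such that for every intermediate field `E ⊇ K₀` and
every model `u₀ ∈ F_N(E)` of `u`, the places of `F_N(E) / E` in the support of `div u₀` are
`E`-rational. -/
theorem mgcoord_rat (N : ℕ) [NeZero N] (u : FF N) (hu : u ≠ 0)
    (E₁ : IntermediateField ℚ Kb) (hE₁ : FiniteDimensional ℚ E₁) :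
    ∃ K₀ : IntermediateField ℚ Kb, E₁ ≤ K₀ ∧ FiniteDimensional ℚ K₀ ∧ IsGalois ℚ K₀ ∧
      ∀ E : IntermediateField ℚ Kb, K₀ ≤ E →
        ∀ u₀ : modularFunctionFieldFullC E N, nfEmb E N u₀ = u →
          ∀ P : Place E (modularFunctionFieldFullC E N), P.ord u₀ ≠ 0 →
            ∀ f ∈ P.toValuationSubring, ∃ c : E,
              f - algebraMap E (modularFunctionFieldFullC E N) c ∈
                P.toValuationSubring.nonunits := by
  obtain ⟨K₀, h1, h2, h3, h4⟩ := rat_exists_field_rational N u hu E₁ hE₁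
  refine ⟨K₀, h1, h2, h3, fun E hE u₀ hu₀ P hP f hf => ?_⟩
  refine h4 E hE u₀ hu₀ P (1 : E ≃+* E) (1 : Kb ≃ₐ[ℚ] Kb) (fun a => rfl) ?_ f hf
  rw [mgcoord_one_smul]
  exact hP

end Rat

section Concrete

universe u v

variable {A₀ E₀ : Type u} [CommRing A₀] [IsDomain A₀] [IsDiscreteValuationRing A₀]
  [Field E₀] [CharZero E₀] [Algebra A₀ E₀] [IsFractionRing A₀ E₀]
  {A' E' : Type v} [CommRing A'] [IsDomain A'] [IsDiscreteValuationRing A']
  [Field E'] [CharZero E'] [Algebra A' E'] [IsFractionRing A' E']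
  [Algebra E₀ E'] [Algebra A₀ A'] (N : ℕ)
  [Algebra A₀ (modularFunctionFieldFullC E₀ N)]
  [IsScalarTower A₀ E₀ (modularFunctionFieldFullC E₀ N)]
  [Algebra A' (modularFunctionFieldFullC E' N)]
  [IsScalarTower A' E' (modularFunctionFieldFullC E' N)]
  [NeZero N]

/-- **MG-5c, `hcoord₁` of `at_main_two`** (chart `j` of `F_N(E′)` over `A′`), in the exact shape
(`t := bgJ E′ N`, `σ := mgGal N s`, `u := u₀`): from U5's output on the chart `j` of `F_N(E₀)` over
`A₀` and the rationality of the places in the support of `div u₀`. -/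
theorem mgcoord_hcoord_j
    (hcomp : ∀ a : A₀, algebraMap A' E' (algebraMap A₀ A' a) =
      algebraMap E₀ E' (algebraMap A₀ E₀ a))
    [Algebra.IsIntegral A₀ A']
    {π : A₀} (hπ : Irreducible π)
    (hπu : ¬ IsUnit (algebraMap A₀
      (integralClosure (Algebra.adjoin A₀ {bgJ E₀ N}) (modularFunctionFieldFullC E₀ N)) π))
    (hred : ∀ c : integralClosure (Algebra.adjoin A₀ {bgJ E₀ N})
        (modularFunctionFieldFullC E₀ N),
      algebraMap A₀ (integralClosure (Algebra.adjoin A₀ {bgJ E₀ N})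
        (modularFunctionFieldFullC E₀ N)) π ∣ c ^ 2 →
      algebraMap A₀ (integralClosure (Algebra.adjoin A₀ {bgJ E₀ N})
        (modularFunctionFieldFullC E₀ N)) π ∣ c)
    {π' : A'} (hπ' : Irreducible π') {e : ℕ}
    (hram : π' ^ e ∣ algebraMap A₀ A' π)
    (g₀ : A₀[X]) (hgm : g₀.Monic) (hroot : aeval π' g₀ = 0) (hdeg : g₀.natDegree ≤ e)
    (hadj : Algebra.adjoin E₀ ({algebraMap A' E' π'} : Set E') = ⊤)
    (halg : IsAlgebraic E₀ (algebraMap A' E' π'))
    (hU5 : ∀ 𝔫 : Ideal (integralClosure (Algebra.adjoin A₀ {bgJ E₀ N})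
        (modularFunctionFieldFullC E₀ N)), 𝔫.IsMaximal →
      algebraMap A₀ (integralClosure (Algebra.adjoin A₀ {bgJ E₀ N})
        (modularFunctionFieldFullC E₀ N)) π ∈ 𝔫 →
      (∃ s ∈ 𝔫, NodesLocGen 𝔫 {algebraMap A₀ (integralClosure (Algebra.adjoin A₀ {bgJ E₀ N})
        (modularFunctionFieldFullC E₀ N)) π, s}) ∨
      (∃ X Y : integralClosure (Algebra.adjoin A₀ {bgJ E₀ N}) (modularFunctionFieldFullC E₀ N),
        X ∈ 𝔫 ∧ Y ∈ 𝔫 ∧
        algebraMap A₀ (integralClosure (Algebra.adjoin A₀ {bgJ E₀ N})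
          (modularFunctionFieldFullC E₀ N)) π ∣ X * Y ∧
        NodesLocGen 𝔫 {algebraMap A₀ (integralClosure (Algebra.adjoin A₀ {bgJ E₀ N})
          (modularFunctionFieldFullC E₀ N)) π, X, Y}))
    (s : E' ≃+* E') (hsE₀ : ∀ a : E₀, s (algebraMap E₀ E' a) = algebraMap E₀ E' a)
    (hsA : ∀ a : A', ∃ a' : A', s (algebraMap A' E' a) = algebraMap A' E' a')
    (hsπ : ∃ c : A', s (algebraMap A' E' π') =
      algebraMap A' E' π' + algebraMap A' E' π' * algebraMap A' E' c)
    (hsπ' : ∃ c : A', s⁻¹ (algebraMap A' E' π') =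
      algebraMap A' E' π' + algebraMap A' E' π' * algebraMap A' E' c)
    {u₀ : modularFunctionFieldFullC E' N}
    (hrat : ∀ P : Place E' (modularFunctionFieldFullC E' N), P.ord u₀ ≠ 0 →
      ∀ f ∈ P.toValuationSubring, ∃ c : E',
        f - algebraMap E' (modularFunctionFieldFullC E' N) c ∈ P.toValuationSubring.nonunits) :
    ∀ 𝔫 : AtPt (F := modularFunctionFieldFullC E' N) π' (bgJ E' N),
      ∀ P : Place E' (modularFunctionFieldFullC E' N),
      LsTube ↥(zchClosure (A₀ := A') ({bgJ E' N} : Set (modularFunctionFieldFullC E' N)))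
        (bgJ E' N) 𝔫.1 P → mgGal N s • P ≠ P → P.ord u₀ ≠ 0 →
      ∃ f : modularFunctionFieldFullC E' N, f ≠ 0 ∧ P.ord f = 1 ∧
        ∀ Q : Place E' (modularFunctionFieldFullC E' N),
          LsTube ↥(zchClosure (A₀ := A') ({bgJ E' N} : Set (modularFunctionFieldFullC E' N)))
            (bgJ E' N) 𝔫.1 Q → mgGal N s • Q ≠ Q → Q ≠ P → Q.ord f = 0 :=
  fun 𝔫 P hP hgP hu => mgcc_hcoord_j (A₀ := A₀) (E₀ := E₀) (A' := A') (E' := E') N hcomp hπ hπu
    hred hπ' hram g₀ hgm hroot hdeg hadj halg hU5 s hsE₀ hsA hsπ hsπ' 𝔫 P hP hgP (hrat P hu)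

/-- **MG-5c, `hcoord₂` of `at_main_two`** (chart `1/j` of `F_N(E′)` over `A′`), exact shape. -/
theorem mgcoord_hcoord_jinv
    (hcomp : ∀ a : A₀, algebraMap A' E' (algebraMap A₀ A' a) =
      algebraMap E₀ E' (algebraMap A₀ E₀ a))
    [Algebra.IsIntegral A₀ A']
    {π : A₀} (hπ : Irreducible π)
    (hπu : ¬ IsUnit (algebraMap A₀
      (integralClosure (Algebra.adjoin A₀ {(bgJ E₀ N)⁻¹}) (modularFunctionFieldFullC E₀ N)) π))
    (hred : ∀ c : integralClosure (Algebra.adjoin A₀ {(bgJ E₀ N)⁻¹})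
        (modularFunctionFieldFullC E₀ N),
      algebraMap A₀ (integralClosure (Algebra.adjoin A₀ {(bgJ E₀ N)⁻¹})
        (modularFunctionFieldFullC E₀ N)) π ∣ c ^ 2 →
      algebraMap A₀ (integralClosure (Algebra.adjoin A₀ {(bgJ E₀ N)⁻¹})
        (modularFunctionFieldFullC E₀ N)) π ∣ c)
    {π' : A'} (hπ' : Irreducible π') {e : ℕ}
    (hram : π' ^ e ∣ algebraMap A₀ A' π)
    (g₀ : A₀[X]) (hgm : g₀.Monic) (hroot : aeval π' g₀ = 0) (hdeg : g₀.natDegree ≤ e)
    (hadj : Algebra.adjoin E₀ ({algebraMap A' E' π'} : Set E') = ⊤)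
    (halg : IsAlgebraic E₀ (algebraMap A' E' π'))
    (hU5 : ∀ 𝔫 : Ideal (integralClosure (Algebra.adjoin A₀ {(bgJ E₀ N)⁻¹})
        (modularFunctionFieldFullC E₀ N)), 𝔫.IsMaximal →
      algebraMap A₀ (integralClosure (Algebra.adjoin A₀ {(bgJ E₀ N)⁻¹})
        (modularFunctionFieldFullC E₀ N)) π ∈ 𝔫 →
      (∃ s ∈ 𝔫, NodesLocGen 𝔫 {algebraMap A₀ (integralClosure (Algebra.adjoin A₀ {(bgJ E₀ N)⁻¹})
        (modularFunctionFieldFullC E₀ N)) π, s}) ∨
      (∃ X Y : integralClosure (Algebra.adjoin A₀ {(bgJ E₀ N)⁻¹})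
          (modularFunctionFieldFullC E₀ N),
        X ∈ 𝔫 ∧ Y ∈ 𝔫 ∧
        algebraMap A₀ (integralClosure (Algebra.adjoin A₀ {(bgJ E₀ N)⁻¹})
          (modularFunctionFieldFullC E₀ N)) π ∣ X * Y ∧
        NodesLocGen 𝔫 {algebraMap A₀ (integralClosure (Algebra.adjoin A₀ {(bgJ E₀ N)⁻¹})
          (modularFunctionFieldFullC E₀ N)) π, X, Y}))
    (s : E' ≃+* E') (hsE₀ : ∀ a : E₀, s (algebraMap E₀ E' a) = algebraMap E₀ E' a)
    (hsA : ∀ a : A', ∃ a' : A', s (algebraMap A' E' a) = algebraMap A' E' a')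
    (hsπ : ∃ c : A', s (algebraMap A' E' π') =
      algebraMap A' E' π' + algebraMap A' E' π' * algebraMap A' E' c)
    (hsπ' : ∃ c : A', s⁻¹ (algebraMap A' E' π') =
      algebraMap A' E' π' + algebraMap A' E' π' * algebraMap A' E' c)
    {u₀ : modularFunctionFieldFullC E' N}
    (hrat : ∀ P : Place E' (modularFunctionFieldFullC E' N), P.ord u₀ ≠ 0 →
      ∀ f ∈ P.toValuationSubring, ∃ c : E',
        f - algebraMap E' (modularFunctionFieldFullC E' N) c ∈ P.toValuationSubring.nonunits) :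
    ∀ 𝔫 : AtPt (F := modularFunctionFieldFullC E' N) π' (bgJ E' N)⁻¹,
      ∀ P : Place E' (modularFunctionFieldFullC E' N),
      LsTube ↥(zchClosure (A₀ := A') ({(bgJ E' N)⁻¹} : Set (modularFunctionFieldFullC E' N)))
        (bgJ E' N)⁻¹ 𝔫.1 P → mgGal N s • P ≠ P → P.ord u₀ ≠ 0 →
      ∃ f : modularFunctionFieldFullC E' N, f ≠ 0 ∧ P.ord f = 1 ∧
        ∀ Q : Place E' (modularFunctionFieldFullC E' N),
          LsTube ↥(zchClosure (A₀ := A') ({(bgJ E' N)⁻¹} : Set (modularFunctionFieldFullC E' N)))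
            (bgJ E' N)⁻¹ 𝔫.1 Q → mgGal N s • Q ≠ Q → Q ≠ P → Q.ord f = 0 :=
  fun 𝔫 P hP hgP hu => mgcc_hcoord_jinv (A₀ := A₀) (E₀ := E₀) (A' := A') (E' := E') N hcomp hπ
    hπu hred hπ' hram g₀ hgm hroot hdeg hadj halg hU5 s hsE₀ hsA hsπ hsπ' 𝔫 P hP hgP (hrat P hu)

end Concrete

end Fermat.Agent.UNIP
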