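import Fermat.Agent.UNIP.MGData
import Fermat.Agent.UNIP.MGChartsBeta0Coord

/-!
# UNIP MG-5, part 5: `hSS1` of `MgcData` for `V = mgvV`

* `mgd_mgvV_eq` : `mgvV` does not depend on the uniformizer.
* `mgd_hSS1` : the conjunct `hSS1` of `MgcData` from (SS1) at the base `A₀ = A ∩ ℚ̄^I`
  (`hSS1₀`, for the two vertical valuation rings `mgvV` of `F_N(ℚ̄^I)`) — `mgcc_SS1` + the data of
  `Beta0Inst` + base change of `mgvV`.
-/

set_option autoImplicit false
set_option linter.style.haveILetI false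
set_option linter.unusedSectionVars false
set_option linter.unusedVariables false

noncomputable section

namespace Fermat.Agent.UNIP

open ModularCurve AlgebraicCurve Fermat.Agent.ES Fermat.Agent.ES.G2 Fermat.Agent.INJ
open IntermediateField Polynomial

section Eq

variable {A : ValuationSubring Qb} {K₀ : IntermediateField ℚ Qb}
  [IsDiscreteValuationRing ↥(beta0Ring A K₀)] {π π' : ↥(beta0Ring A K₀)}
  (hπ : Irreducible π) (hπ' : Irreducible π') (ιC : ↥K₀ →+* ℂ)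
  {q M : ℕ} [NeZero q] [NeZero M] [NeZero (M * q)] (hq : q.Prime) (hqM : ¬ q ∣ M)

/-- `mgvV` does not depend on the uniformizer -/
theorem mgd_mgvV_eq (c : Bool) : mgvV hπ ιC hq hqM c = mgvV hπ' ιC hq hqM c := rfl

end Eq

section SS1

variable {A : ValuationSubring Qb} (K₁ : IntermediateField ℚ Qb) [NumberField K₁]
  [IsGalois ℚ K₁] {M q : ℕ} [NeZero M] [NeZero q] [NeZero (M * q)]
  [IsDiscreteValuationRing ↥(mgcA A K₁)]
  [IsDiscreteValuationRing ↥(beta0Ring A (beta0Field A))]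

/-- the two embeddings `F_N(E₀) → F_N(E′)` agree -/
theorem mgd_mgcEmb_eq (N : ℕ) (x : ↥(modularFunctionFieldFullC ↥(beta0Field A) N)) :
    letI := beta0InstFieldAlgebra A K₁
    mgcEmb ↥(beta0Field A) ↥(beta0Field A ⊔ K₁) N x
      = mgaIncl (le_sup_left : beta0Field A ≤ beta0Field A ⊔ K₁) N x := rfl

set_option synthInstance.maxHeartbeats 400000 in
set_option maxHeartbeats 3200000 in
/-- **`hSS1` of `MgcData`** for `V = mgvV`, from (SS1) at the base. -/
theorem mgd_hSS1 (hq : q.Prime) (hqM : ¬ q ∣ M) (hA : A.LiesOverPrime q)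
    {π : ↥(mgcA A K₁)} (hπ : Irreducible π)
    (hπ₀ : Irreducible ((q : ℕ) : ↥(beta0Ring A (beta0Field A))))
    (ιC₀ : ↥(beta0Field A) →+* ℂ) (ιC : ↥(mgcE A K₁) →+* ℂ)
    (hπu₁ : ¬ IsUnit (algebraMap ↥(beta0Ring A (beta0Field A))
      (integralClosure
        (Algebra.adjoin ↥(beta0Ring A (beta0Field A)) {bgJ ↥(beta0Field A) (M * q)})
        (modularFunctionFieldFullC ↥(beta0Field A) (M * q)))
      ((q : ℕ) : ↥(beta0Ring A (beta0Field A)))))
    (hred₁ : ∀ c : integralClosure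
        (Algebra.adjoin ↥(beta0Ring A (beta0Field A)) {bgJ ↥(beta0Field A) (M * q)})
        (modularFunctionFieldFullC ↥(beta0Field A) (M * q)),
      algebraMap ↥(beta0Ring A (beta0Field A)) (integralClosure
        (Algebra.adjoin ↥(beta0Ring A (beta0Field A)) {bgJ ↥(beta0Field A) (M * q)})
        (modularFunctionFieldFullC ↥(beta0Field A) (M * q)))
          ((q : ℕ) : ↥(beta0Ring A (beta0Field A))) ∣ c ^ 2 →
      algebraMap ↥(beta0Ring A (beta0Field A)) (integralClosure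
        (Algebra.adjoin ↥(beta0Ring A (beta0Field A)) {bgJ ↥(beta0Field A) (M * q)})
        (modularFunctionFieldFullC ↥(beta0Field A) (M * q)))
          ((q : ℕ) : ↥(beta0Ring A (beta0Field A))) ∣ c)
    (hSS1₀ : ∀ x : integralClosure
        (Algebra.adjoin ↥(beta0Ring A (beta0Field A)) {bgJ ↥(beta0Field A) (M * q)})
        (modularFunctionFieldFullC ↥(beta0Field A) (M * q)),
      (∀ c, (x : ↥(modularFunctionFieldFullC ↥(beta0Field A) (M * q))) ∈
        (mgvV hπ₀ ιC₀ hq hqM c).nonunits) →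
      algebraMap ↥(beta0Ring A (beta0Field A)) (integralClosure
        (Algebra.adjoin ↥(beta0Ring A (beta0Field A)) {bgJ ↥(beta0Field A) (M * q)})
        (modularFunctionFieldFullC ↥(beta0Field A) (M * q)))
          ((q : ℕ) : ↥(beta0Ring A (beta0Field A))) ∣ x) :
    ∀ b : ↥(mgcF A K₁ (M * q)),
      IsIntegral ↥(Algebra.adjoin ↥(mgcA A K₁) {mgcT A K₁ (M * q)}) b →
      (∀ c, b ∈ (mgvV hπ ιC hq hqM c).nonunits) →
      ∃ b' : ↥(mgcF A K₁ (M * q)),
        IsIntegral ↥(Algebra.adjoin ↥(mgcA A K₁) {mgcT A K₁ (M * q)}) b' ∧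
        b = algebraMap ↥(mgcA A K₁) ↥(mgcF A K₁ (M * q)) π * b' := by
  letI := beta0InstAlgebra A K₁
  letI := beta0InstFieldAlgebra A K₁
  haveI := beta0Inst_isIntegral (A := A) K₁ hq hA
  haveI : FiniteDimensional (↥(beta0Field A))⟮bgJ ↥(beta0Field A) (M * q)⟯
      ↥(modularFunctionFieldFullC ↥(beta0Field A) (M * q)) :=
    bgFin_finiteDimensional_full (E := ↥(beta0Field A)) (N := M * q)
  obtain ⟨π₁, hπ₁, hπ₁0, hπ₁u, -, -, -, hram, ⟨g₀, hgm, hroot, hdeg, -⟩, hadj, halg⟩ :=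
    beta0Inst_main (A := A) K₁ hq hA
  have key := mgcc_SS1 (A₀ := ↥(beta0Ring A (beta0Field A))) (E₀ := ↥(beta0Field A))
    (A' := ↥(beta0Ring A (beta0Field A ⊔ K₁))) (E' := ↥(beta0Field A ⊔ K₁)) (M * q)
    (fun a => mgcb_hcomp K₁ a) hπ₀ (bgJ ↥(beta0Field A) (M * q)) hπu₁ hred₁ hπ₁0 hπ₁u hram
    g₀ hgm hroot hdeg hadj halg (t := mgcT A K₁ (M * q))
    (mgcc_emb_bgJ (E₀ := ↥(beta0Field A)) (E' := ↥(beta0Field A ⊔ K₁)) (M * q))
    (mgvV hπ₁ ιC hq hqM)
    (fun c b hb => mgv_hBV₁ hπ₁ ιC hq hqM c b hb)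
    (fun c => mgv_hπV hπ₁ ιC hq hqM c)
    (fun x hx => hSS1₀ x (fun c =>
      (mgv_incl_mem_nonunits_iff hπ₀ hπ₁ ιC₀ ιC hq hqM
        (le_sup_left : beta0Field A ≤ beta0Field A ⊔ K₁) c _).1 (hx c)))
  intro b hb hbV
  obtain ⟨b', hb', hbb'⟩ := key b hb hbV
  obtain ⟨w, hw⟩ := (IsDiscreteValuationRing.associated_of_irreducible _ hπ hπ₁)
  refine ⟨algebraMap ↥(mgcA A K₁) ↥(mgcF A K₁ (M * q)) (w : ↥(mgcA A K₁)) * b', ?_, ?_⟩
  · exact IsIntegral.mul (isIntegral_algebraMap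
      (R := ↥(Algebra.adjoin ↥(mgcA A K₁) {mgcT A K₁ (M * q)}))
      (x := ⟨algebraMap ↥(mgcA A K₁) ↥(mgcF A K₁ (M * q)) (w : ↥(mgcA A K₁)),
        Subalgebra.algebraMap_mem _ _⟩)) hb'
  · rw [hbb', ← hw, map_mul]
    ring

end SS1

end Fermat.Agent.UNIP
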