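/-
UNIP / MG-5, piece G3 (helper84): inertia is trivial modulo `π′` on the charts over `A′`
(the hypotheses `AtTrivMod` of `at_main_two`).

Generic setting of `MGChartsMain.lean` / `MGChartsInst.lean`: `A₀` DVR (unramified base),
`K / E₀(τ)` finite (`K = F_N(E₀)`), `B₀` = integral closure of `A₀[τ]` in `K`; `A′ ⊇ A₀`, `L ⊇ K`
(`L = F_N(E′)`), `π′ ∈ A′`.  By `mgc_isIntegral_iff` the integral closure of `A′[τ]` in `L` is
`B₀[π′]`.

* `mgt_trivMod` : a semilinear automorphism `s` of `L` fixing `K` pointwise with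
  `s π′ = π′ + π′ c`, `c ∈ A′`, is trivial modulo `π′` on the chart: `AtTrivMod π′ τ s`.
-/
import Fermat.Agent.UNIP.AbstractT
import Fermat.Agent.UNIP.MGChartsInst
import Fermat.Agent.UNIP.MGGalAct
import Fermat.Agent.UNIP.Beta0Pkg

set_option autoImplicit false
set_option linter.unusedSectionVars false
set_option linter.unusedVariables false
set_option linter.style.haveILetI false

open Polynomial IntermediateField Fermat.Agent.INJ AlgebraicCurve ModularCurve

namespace Fermat.Agent.UNIP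

section Generic

universe u

variable {A₀ E₀ K : Type u} [CommRing A₀] [IsDomain A₀] [IsDiscreteValuationRing A₀]
  [Field E₀] [CharZero E₀] [Algebra A₀ E₀] [IsFractionRing A₀ E₀]
  [Field K] [Algebra E₀ K] [Algebra A₀ K] [IsScalarTower A₀ E₀ K]
  {A' E' L : Type*} [CommRing A'] [IsDomain A'] [Field E'] [Field L] [Algebra A' L]
  [Algebra E' L]
  [Algebra A₀ A'] [Algebra K L] [Algebra A₀ L] [IsScalarTower A₀ K L] [IsScalarTower A₀ A' L]

/-- **G3, generic form.**  `s` fixes `K` pointwise and moves `π′` by a unit `≡ 1`: then `s` is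
trivial modulo `π′` on the chart of `τ` over `A′`. -/
theorem mgt_trivMod {π : A₀} (hπ : Irreducible π) (τ : K) [FiniteDimensional E₀⟮τ⟯ K]
    (hπu : ¬ IsUnit (algebraMap A₀ (integralClosure (Algebra.adjoin A₀ {τ}) K) π))
    (hred : ∀ c : integralClosure (Algebra.adjoin A₀ {τ}) K,
      algebraMap A₀ (integralClosure (Algebra.adjoin A₀ {τ}) K) π ∣ c ^ 2 →
        algebraMap A₀ (integralClosure (Algebra.adjoin A₀ {τ}) K) π ∣ c)
    [Algebra.IsIntegral A₀ A']
    {π' : A'} (hπ'0 : π' ≠ 0) (hπ'u : ¬ IsUnit π') {e : ℕ}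
    (hram : π' ^ e ∣ algebraMap A₀ A' π)
    (g : A₀[X]) (hgm : g.Monic) (hroot : aeval π' g = 0) (hdeg : g.natDegree ≤ e)
    (htop : Algebra.adjoin K ({algebraMap A' L π'} : Set L) = ⊤)
    (s : SemilinearAut E' L)
    (hK : ∀ x : K, s • algebraMap K L x = algebraMap K L x)
    (hs : ∃ c : A', s • algebraMap A' L π' =
      algebraMap A' L π' + algebraMap A' L π' * algebraMap A' L c) :
    AtTrivMod π' (algebraMap K L τ) s := by
  intro b hb
  have hiff := fun x : L =>
    mgc_isIntegral_iff (E₀ := E₀) (A' := A') (L := L) hπ τ hπu hred hπ'0 hπ'u hram g hgm hroot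
      hdeg htop x
  have hb' := (hiff b).mp hb
  obtain ⟨c₀, hc₀⟩ := hs
  have hc₀m : algebraMap A' L c₀ ∈
      Algebra.adjoin (integralClosure (Algebra.adjoin A₀ {τ}) K)
        ({algebraMap A' L π'} : Set L) :=
    mgci_algebraMap_mem (E₀ := E₀) hπ τ hπu hred hπ'0 hπ'u hram g hgm hroot hdeg htop c₀
  obtain ⟨c, hc, hbc⟩ := mga_adjoin_tau (R := integralClosure (Algebra.adjoin A₀ {τ}) K)
    (SemilinearAut.toRingAut s : L ≃+* L).toRingHom (algebraMap A' L π')
    (fun r => hK (r : K)) ⟨_, hc₀m, hc₀⟩ b hb'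
  exact ⟨c, (hiff c).mpr hc, hbc⟩

end Generic

section Concrete

variable {E₀ : Type} [Field E₀] [CharZero E₀] {E' : Type*} [Field E'] (N : ℕ)
  {A₀ : Type} [CommRing A₀] [IsDomain A₀] [IsDiscreteValuationRing A₀]
  [Algebra A₀ E₀] [IsFractionRing A₀ E₀]
  [Algebra A₀ (modularFunctionFieldFullC E₀ N)]
  [IsScalarTower A₀ E₀ (modularFunctionFieldFullC E₀ N)]
  {A' : Type*} [CommRing A'] [IsDomain A'] [Algebra A' (modularFunctionFieldFullC E' N)]
  [Algebra A₀ A'] [Algebra (modularFunctionFieldFullC E₀ N) (modularFunctionFieldFullC E' N)]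
  [Algebra A₀ (modularFunctionFieldFullC E' N)]
  [IsScalarTower A₀ (modularFunctionFieldFullC E₀ N) (modularFunctionFieldFullC E' N)]
  [IsScalarTower A₀ A' (modularFunctionFieldFullC E' N)]

/-- **G3, modular form.**  `K = F_N(E₀)`, `L = F_N(E′)`, `K → L` the coefficient map of
`f : E₀ →+* E′`, `A′ → L` the constants via `ιA : A′ →+* E′`.  An automorphism `s₀` of `E′` fixing
`f E₀` pointwise with `s₀ π′ = π′ + π′ c`, `c ∈ A′`, acts on `L` (coefficientwise, `mgGal N s₀`)
trivially modulo `π′` on the chart of `τ` over `A′`. -/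
theorem mgt_trivMod_gal {π : A₀} (hπ : Irreducible π) (τ : modularFunctionFieldFullC E₀ N)
    [FiniteDimensional E₀⟮τ⟯ (modularFunctionFieldFullC E₀ N)]
    (hπu : ¬ IsUnit (algebraMap A₀
      (integralClosure (Algebra.adjoin A₀ {τ}) (modularFunctionFieldFullC E₀ N)) π))
    (hred : ∀ c : integralClosure (Algebra.adjoin A₀ {τ}) (modularFunctionFieldFullC E₀ N),
      algebraMap A₀ (integralClosure (Algebra.adjoin A₀ {τ}) (modularFunctionFieldFullC E₀ N)) π
          ∣ c ^ 2 →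
        algebraMap A₀ (integralClosure (Algebra.adjoin A₀ {τ}) (modularFunctionFieldFullC E₀ N))
          π ∣ c)
    [Algebra.IsIntegral A₀ A']
    {π' : A'} (hπ'0 : π' ≠ 0) (hπ'u : ¬ IsUnit π') {e : ℕ}
    (hram : π' ^ e ∣ algebraMap A₀ A' π)
    (g : A₀[X]) (hgm : g.Monic) (hroot : aeval π' g = 0) (hdeg : g.natDegree ≤ e)
    (htop : Algebra.adjoin (modularFunctionFieldFullC E₀ N)
      ({algebraMap A' (modularFunctionFieldFullC E' N) π'} :
        Set (modularFunctionFieldFullC E' N)) = ⊤)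
    (f : E₀ →+* E')
    (halgK : ∀ x : modularFunctionFieldFullC E₀ N,
      algebraMap (modularFunctionFieldFullC E₀ N) (modularFunctionFieldFullC E' N) x
        = mgaCoeffHom f N x)
    (ιA : A' →+* E')
    (halgA : ∀ a : A', algebraMap A' (modularFunctionFieldFullC E' N) a = mgaConst E' N (ιA a))
    (s₀ : E' ≃+* E') (hs₀f : ∀ a : E₀, s₀ (f a) = f a)
    (hs₀π : ∃ c : A', s₀ (ιA π') = ιA π' + ιA π' * ιA c) :
    AtTrivMod (E := E') π'
      (algebraMap (modularFunctionFieldFullC E₀ N) (modularFunctionFieldFullC E' N) τ)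
      (mgGal N s₀) := by
  refine mgt_trivMod (E₀ := E₀) (E' := E') hπ τ hπu hred hπ'0 hπ'u hram g hgm hroot hdeg htop
    (mgGal N s₀) ?_ ?_
  · intro x
    rw [halgK]
    show mgaCoeffHom (s₀ : E' →+* E') N (mgaCoeffHom f N x) = mgaCoeffHom f N x
    rw [mgaCoeffHom_comp]
    exact mgaCoeffHom_congr (fun a => hs₀f a) N x
  · obtain ⟨c, hc⟩ := hs₀π
    refine ⟨c, ?_⟩
    rw [halgA, halgA]
    show mgRingAut N s₀ (mgaConst E' N (ιA π')) = _
    rw [mgaConst_apply, mgRingAut_algebraMap, hc, ← mgaConst_apply, map_add, map_mul]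
    rfl

end Concrete

section Inertia

variable {A : ValuationSubring NfQb} {σ : NfQb ≃ₐ[ℚ] NfQb}

/-- **Inertia moves a uniformizer of `A′ = A ∩ E′` by a unit `≡ 1`**:
`σ π′ = π′ + π′ c` with `c ∈ A′`. -/
theorem mgt_inertia_unif (hσ : σ ∈ A.inertiaSubgroupIn ℚ) (E' : IntermediateField ℚ NfQb)
    (hE' : ∀ x ∈ E', σ x ∈ E') [IsDiscreteValuationRing (beta0Ring A E')]
    {π' : beta0Ring A E'} (hπ' : Irreducible π') :
    ∃ c : beta0Ring A E',
      mgaRestrictEquiv E' σ hE' (π' : E') = (π' : E') + (π' : E') * (c : E') := by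
  have hmem : ((mgaRestrictEquiv E' σ hE' (π' : E') - (π' : E') : E') : NfQb) ∈ A.nonunits := by
    have := Fermat.Agent.S05.inertia_apply_sub_mem_nonunits hσ
      ((mem_beta0Ring (A := A) (K₀ := E') (π' : E')).mp π'.2)
    exact this
  have hmemA : (mgaRestrictEquiv E' σ hE' (π' : E') - (π' : E') : E') ∈ beta0Ring A E' :=
    (mem_beta0Ring (A := A) (K₀ := E') _).mpr (A.nonunits_subset hmem)
  have hmax : (⟨_, hmemA⟩ : beta0Ring A E') ∈ IsLocalRing.maximalIdeal (beta0Ring A E') :=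
    (beta0Ring_mem_maximalIdeal_iff (A := A) (K₀ := E') _).mpr hmem
  rw [((IsDiscreteValuationRing.irreducible_iff_uniformizer π').1 hπ'),
    Ideal.mem_span_singleton] at hmax
  obtain ⟨c, hc⟩ := hmax
  refine ⟨c, ?_⟩
  have h1 := congrArg (fun z : beta0Ring A E' => (z : E')) hc
  simp only at h1
  have h2 : mgaRestrictEquiv E' σ hE' (π' : E') - (π' : E') = (π' : E') * (c : E') := by
    rw [h1]
    rfl
  rw [← h2]
  ring

/-- the inverse of the restriction is the restriction of the inverse -/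
theorem mgt_restrict_inv (E' : IntermediateField ℚ NfQb) (hE' : ∀ x ∈ E', σ x ∈ E')
    (hE'' : ∀ x ∈ E', σ⁻¹ x ∈ E') :
    (mgaRestrictEquiv E' σ hE')⁻¹ = mgaRestrictEquiv E' σ⁻¹ hE'' := by
  apply RingEquiv.ext
  intro x
  apply Subtype.ext
  show (((mgaRestrictEquiv E' σ hE').symm x : E') : NfQb) = σ⁻¹ (x : NfQb)
  rw [mgaRestrictEquiv_symm_coe]
  rfl

theorem mgt_stable_inv (E' : IntermediateField ℚ NfQb) (hE' : ∀ x ∈ E', σ x ∈ E') :
    ∀ x ∈ E', σ⁻¹ x ∈ E' := mga_stable_symm E' σ hE'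

end Inertia

end Fermat.Agent.UNIP
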