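import Mathlib.RingTheory.Ideal.Operations
import Mathlib.RingTheory.IntegralClosure.IsIntegral.Basic
import Mathlib.Algebra.BigOperators.Fin
import Mathlib.Tactic

/-!
# UNIP / U5 (Nodes), step (α1)+(α2) by elementary linear algebra

Pure commutative algebra (no valuations, no `Σ e f`, no modular forms).

Setting: `B` a commutative ring (a chart at level `N = qM`), `B' ⊆ B` a subring (the chart at
level `M`), `π ∈ B'`, `K` a field, `ρ ρ₀ : B →+* K` (`ρ` = reduction of the `q`-expansion,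
`ρ₀ = ρ ∘ w_q`).  `NodesRankData B' π ρ ρ₀ q` collects:

* `ker_sub`  : `ker (ρ|B') ⊆ π B'`                         (level `M` has good reduction);
* `ker₀_sub` : `ker (ρ₀|B') ⊆ ker (ρ|B')`                 (`ρ₀|B'` is Frobenius after `ρ|B'`);
* `tf`       : `B / π B` is torsion-free over `B' / π B'`   (INJ A1);
* `rank`     : any `q + 2` elements of `B` satisfy a `B'`-linear relation with a coefficient
               that is nonzero modulo `π`                    (`[F_N : F_M] ≤ q + 1`);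
* `indep`    : there are `q` elements of `B` that are `B'`-independent modulo `ker ρ₀`
               (the residue field of `v_0` has degree `≥ q`: `1, j̄, …, j̄^(q-1)` over `K^q`);
* `ex_c`, `ex_c'` : the two components are different.

Results:
* `NodesRankData.dvd_of_ker` **(SS1)** : `ρ x = 0 → ρ₀ x = 0 → π ∣ x`   (`𝔭_∞ ∩ 𝔭_0 = π B`);
* `NodesRankData.exists_lin`  : `∀ a, ∃ r₁ r₂ ∈ B', ρ r₂ ≠ 0 ∧ ρ (r₂ * a + r₁) = 0`
  (the residue field of `v_∞` is that of level `M`: `f (v_∞) = 1`);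
* `NodesRankData.exists_eq` **(α2)** : if moreover `ρ(B')` is integrally closed in its fraction
  field and `ρ(B)` is integral over it, then `ρ(B) = ρ(B')`.
-/

set_option autoImplicit false

namespace Fermat.Agent.UNIP

open Finset

variable {B K : Type*} [CommRing B] [Field K]

/-- The hypotheses of the elementary proof of (α1). -/
structure NodesRankData (B' : Subring B) (π : B) (ρ ρ₀ : B →+* K) (q : ℕ) : Prop where
  ker_sub : ∀ r ∈ B', ρ r = 0 → ∃ r' ∈ B', r = π * r'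
  ker₀_sub : ∀ r ∈ B', ρ₀ r = 0 → ρ r = 0
  tf : ∀ r ∈ B', ρ r ≠ 0 → ∀ b : B, π ∣ r * b → π ∣ b
  rank : ∀ v : Fin (q + 2) → B, ∃ c : Fin (q + 2) → B,
    (∀ i, c i ∈ B') ∧ (∃ i, ρ (c i) ≠ 0) ∧ ∑ i, c i * v i = 0
  indep : ∃ b : Fin q → B, ∀ c : Fin q → B, (∀ i, c i ∈ B') →
    ρ₀ (∑ i, c i * b i) = 0 → ∀ i, ρ (c i) = 0
  ex_c : ∃ c : B, ρ c = 0 ∧ ρ₀ c ≠ 0
  ex_c' : ∃ c' : B, ρ₀ c' = 0 ∧ ρ c' ≠ 0

namespace NodesRankData

variable {B' : Subring B} {π : B} {ρ ρ₀ : B →+* K} {q : ℕ}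

/-- The common core of (SS1) and `f (v_∞) = 1`: for `x, y ∈ ker ρ₀` there is a relation
`c₀ * x + c₁ * y + π * z = 0` with `c₀, c₁ ∈ B'` not both zero modulo `π` and `ρ (π * z) = 0`. -/
theorem core (h : NodesRankData B' π ρ ρ₀ q) (x y : B)
    (hx₀ : ρ₀ x = 0) (hy₀ : ρ₀ y = 0) :
    ∃ c₀ ∈ B', ∃ c₁ ∈ B', ∃ z : B, (ρ c₀ ≠ 0 ∨ ρ c₁ ≠ 0) ∧ ρ (π * z) = 0 ∧
      c₀ * x + c₁ * y + π * z = 0 := by
  obtain ⟨b, hb⟩ := h.indep
  obtain ⟨c, hc, hc₀⟩ := h.ex_c
  obtain ⟨cf, hcf, ⟨i₀, hi₀⟩, hsum⟩ :=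
    h.rank (Fin.cons x (Fin.cons y (fun i => c * b i)))
  rw [Fin.sum_univ_succ, Fin.sum_univ_succ] at hsum
  simp only [Fin.cons_zero, Fin.cons_succ] at hsum
  -- apply `ρ₀`
  have h0 : ρ₀ (∑ i : Fin q, cf i.succ.succ * b i) = 0 := by
    have h1 := congrArg ρ₀ hsum
    have h2 : ∑ i : Fin q, cf i.succ.succ * (c * b i) = c * ∑ i : Fin q, cf i.succ.succ * b i := by
      rw [Finset.mul_sum]
      exact Finset.sum_congr rfl fun i _ => by ring
    rw [h2] at h1
    simp only [map_add, map_mul, hx₀, hy₀, mul_zero, zero_add, map_zero] at h1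
    rw [← map_mul] at h1
    rw [map_mul] at h1
    exact (mul_eq_zero.mp h1).resolve_left hc₀
  have hrest : ∀ i : Fin q, ρ (cf i.succ.succ) = 0 :=
    hb (fun i => cf i.succ.succ) (fun i => hcf _) h0
  -- each of the remaining coefficients is divisible by `π`
  have hdiv : ∀ i : Fin q, ∃ r' : B, cf i.succ.succ = π * r' := fun i => by
    obtain ⟨r', -, hr'⟩ := h.ker_sub _ (hcf _) (hrest i)
    exact ⟨r', hr'⟩
  choose r' hr' using hdiv
  have hz : π * ∑ i : Fin q, r' i * (c * b i) = ∑ i : Fin q, cf i.succ.succ * (c * b i) := by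
    rw [Finset.mul_sum]
    refine Finset.sum_congr rfl fun i _ => ?_
    rw [hr' i]; ring
  refine ⟨cf 0, hcf 0, cf (Fin.succ 0), hcf _, ∑ i : Fin q, r' i * (c * b i), ?_, ?_, ?_⟩
  · -- the nonzero coefficient is one of the first two
    by_contra hcon
    push Not at hcon
    obtain ⟨hc0, hc1⟩ := hcon
    revert hi₀
    refine Fin.cases ?_ (fun i => ?_) i₀
    · exact fun hne => hne hc0
    · refine Fin.cases ?_ (fun j => ?_) i
      · exact fun hne => hne hc1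
      · exact fun hne => hne (hrest j)
  · rw [hz, map_sum]
    refine Finset.sum_eq_zero fun i _ => ?_
    rw [map_mul, map_mul, hc, zero_mul, mul_zero]
  · rw [hz, add_assoc]
    exact hsum

/-- **(SS1)**: `𝔭_∞ ∩ 𝔭_0 = π B`. -/
theorem dvd_of_ker (h : NodesRankData B' π ρ ρ₀ q) {x : B} (hx : ρ x = 0) (hx₀ : ρ₀ x = 0) :
    π ∣ x := by
  obtain ⟨c', hc'₀, hc'⟩ := h.ex_c'
  obtain ⟨c₀, hc₀B, c₁, hc₁B, z, hne, hz, hrel⟩ := h.core x c' hx₀ hc'₀
  -- apply `ρ`: `ρ c₁ = 0`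
  have h1 : ρ c₁ = 0 := by
    have h2 := congrArg ρ hrel
    rw [map_add, map_add, hz, add_zero, map_mul, hx, mul_zero, zero_add, map_mul, map_zero]
      at h2
    exact (mul_eq_zero.mp h2).resolve_right hc'
  have h0 : ρ c₀ ≠ 0 := hne.resolve_right (not_not.mpr h1)
  obtain ⟨r'', -, hr''⟩ := h.ker_sub _ hc₁B h1
  refine h.tf c₀ hc₀B h0 x ⟨-(r'' * c' + z), ?_⟩
  have : c₀ * x = -(c₁ * c' + π * z) := by
    have := hrel
    linear_combination this
  rw [this, hr'']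
  ring

/-- `f (v_∞) = 1`: every element of `B` is, modulo `ker ρ`, a quotient of elements of `B'`. -/
theorem exists_lin (h : NodesRankData B' π ρ ρ₀ q) (a : B) :
    ∃ r₁ ∈ B', ∃ r₂ ∈ B', ρ r₂ ≠ 0 ∧ ρ (r₂ * a + r₁) = 0 := by
  obtain ⟨c', hc'₀, hc'⟩ := h.ex_c'
  obtain ⟨c₀, hc₀B, c₁, hc₁B, z, hne, hz, hrel⟩ :=
    h.core (c' * a) c' (by rw [map_mul, hc'₀, zero_mul]) hc'₀
  have h1 : ρ (c₀ * a + c₁) = 0 := by
    have h2 := congrArg ρ hrel
    rw [map_add, map_add, hz, add_zero, map_zero] at h2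
    have h3 : ρ (c₀ * (c' * a)) + ρ (c₁ * c') = ρ c' * ρ (c₀ * a + c₁) := by
      simp only [map_mul, map_add]; ring
    rw [h3] at h2
    exact (mul_eq_zero.mp h2).resolve_left hc'
  refine ⟨c₁, hc₁B, c₀, hc₀B, ?_, h1⟩
  intro hc0
  rcases hne with hne | hne
  · exact hne hc0
  · apply hne
    rw [map_add, map_mul, hc0, zero_mul, zero_add] at h1
    exact h1

/-- **(α2)**: if `ρ(B')` is integrally closed (in its fraction field inside `K`) and `ρ(B)` is
integral over it, then `ρ(B) = ρ(B')`. -/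
theorem exists_eq (h : NodesRankData B' π ρ ρ₀ q)
    (icl : ∀ x : K, IsIntegral (B'.map ρ) x → ∀ r₁ ∈ B', ∀ r₂ ∈ B', ρ r₂ ≠ 0 →
      ρ r₂ * x = ρ r₁ → ∃ r ∈ B', ρ r = x)
    (hint : ∀ b : B, IsIntegral (B'.map ρ) (ρ b)) (b : B) :
    ∃ r ∈ B', ρ r = ρ b := by
  obtain ⟨r₁, hr₁, r₂, hr₂, hne, hrel⟩ := h.exists_lin b
  refine icl (ρ b) (hint b) (-r₁) (B'.neg_mem hr₁) r₂ hr₂ hne ?_
  rw [map_add, map_mul] at hrel
  rw [map_neg]
  linear_combination hrel

end NodesRankData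

/-- From a rank bound over the fraction fields to the normalised form `NodesRankData.rank`:
if `B'` is a domain in which every nonzero element is `π ^ n` times an element outside `π B'`
(well-founded divisibility by `π`) and `B` is a domain, then a nontrivial `B'`-linear relation
can be normalised so that some coefficient is not divisible by `π`. -/
theorem nodes_rank_normalise [IsDomain B] {B' : Subring B} {π : B} (hπ0 : π ≠ 0)
    {ρ : B →+* K}
    (hval : ∀ r ∈ B', r ≠ 0 → ∃ n : ℕ, ∃ r' ∈ B', r = π ^ n * r' ∧ ρ r' ≠ 0)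
    (hdiv : ∀ r ∈ B', ρ r = 0 → ∃ r' ∈ B', r = π * r')
    {n : ℕ} (v : Fin n → B) (c : Fin n → B) (hc : ∀ i, c i ∈ B') (hne : ∃ i, c i ≠ 0)
    (hsum : ∑ i, c i * v i = 0) :
    ∃ c' : Fin n → B, (∀ i, c' i ∈ B') ∧ (∃ i, ρ (c' i) ≠ 0) ∧ ∑ i, c' i * v i = 0 := by
  classical
  -- induction on the exponent of `π` in a fixed nonzero coefficient
  obtain ⟨i₀, hi₀⟩ := hne
  obtain ⟨m, r₀, hr₀, hm, hρ⟩ := hval _ (hc i₀) hi₀
  induction m generalizing c r₀ with
  | zero =>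
    refine ⟨c, hc, ⟨i₀, ?_⟩, hsum⟩
    rw [hm, pow_zero, one_mul]
    exact hρ
  | succ m ih =>
    by_cases hall : ∀ i, ρ (c i) = 0
    · -- divide all coefficients by `π`
      have hd : ∀ i, ∃ r' : B, r' ∈ B' ∧ c i = π * r' := fun i => by
        obtain ⟨r', h1, h2⟩ := hdiv _ (hc i) (hall i)
        exact ⟨r', h1, h2⟩
      choose c₁ hc₁ hcc₁ using hd
      have hsum₁ : ∑ i, c₁ i * v i = 0 := by
        have : π * ∑ i, c₁ i * v i = 0 := by
          rw [Finset.mul_sum, ← hsum]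
          refine Finset.sum_congr rfl fun i _ => ?_
          rw [hcc₁ i]; ring
        exact (mul_eq_zero.mp this).resolve_left hπ0
      have h1 : c₁ i₀ = π ^ m * r₀ := by
        have : π * c₁ i₀ = π * (π ^ m * r₀) := by
          rw [← hcc₁ i₀, hm]; ring
        exact mul_left_cancel₀ hπ0 this
      have h2 : c₁ i₀ ≠ 0 := by
        intro h0
        apply hi₀
        rw [hcc₁ i₀, h0, mul_zero]
      exact ih c₁ hc₁ hsum₁ h2 r₀ hr₀ h1 hρ
    · push Not at hall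
      exact ⟨c, hc, hall, hsum⟩

end Fermat.Agent.UNIP
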