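import Fermat.Agent.UNIP.NodesMain
import Fermat.Agent.UNIP.NodesRank
import Mathlib.RingTheory.Ideal.GoingUp

/-!
# UNIP / U5 (Nodes): the assembly on one chart (abstract)

`B` a chart at level `N = qM`, `B' ⊆ B` the chart at level `M`, `π ∈ B'`,
`ρ ρ₀ : B →+* K` the two reductions (`ρ₀ = ρ ∘ w_q`).  Hypotheses:

* `rd`    : `NodesRankData B' π ρ ρ₀ q`              (rank `q + 1`, independence, INJ A1);
* `icl`, `hint` : `ρ(B')` is integrally closed in its fraction field, `ρ(B)` is integral over it;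
* `reg`   : every maximal ideal `𝔪 ∋ π` of `B'` is `(π, s)` locally      (U13: level `M` is smooth);
* `swap`  : `∀ b, ∃ b', ρ b' = ρ₀ b ∧ ρ₀ b' = ρ b`     (`b' = w_q b` on the chart `j`,
            `b' = ℓ ^ n * w_q b` with `ℓ ≡ 1 mod π` on the chart `1/j`);
* `frob`  : `∀ r ∈ B', ∃ r̃ ∈ B', ρ₀ r = (ρ r̃) ^ q`     (`f(Q^q) = (f^{φ⁻¹})^q` in characteristic `q`).

Conclusion `nodes_chart`: at every maximal ideal `𝔫 ∋ π` of `B`, either `𝔫 = (π, s)` locally, or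
`𝔫` lies on both components and `𝔫 = (π, X, Y)` locally with `ρ X = 0`, `ρ₀ Y = 0`, `π ∣ X * Y`.
-/

set_option autoImplicit false

namespace Fermat.Agent.UNIP

variable {B K : Type*} [CommRing B] [Field K]

/-- The ideal of `B'` of all `r` whose `ρ`-reduction is the `ρ₀`-reduction of an element of `𝔫`
(the point of the level-`M` chart under a point `𝔫` of the component `ρ₀`). -/
def nodesTwist (B' : Subring B) (ρ ρ₀ : B →+* K)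
    (swap : ∀ b : B, ∃ b' : B, ρ b' = ρ₀ b ∧ ρ₀ b' = ρ b) (𝔫 : Ideal B) : Ideal B' where
  carrier := {r | ∃ b ∈ 𝔫, ρ (r : B) = ρ₀ b}
  zero_mem' := ⟨0, 𝔫.zero_mem, by simp⟩
  add_mem' := by
    rintro x y ⟨b, hb, hxb⟩ ⟨c, hc, hyc⟩
    exact ⟨b + c, 𝔫.add_mem hb hc, by simp [hxb, hyc]⟩
  smul_mem' := by
    rintro c x ⟨b, hb, hxb⟩
    obtain ⟨c', -, hc'⟩ := swap (c : B)
    refine ⟨c' * b, 𝔫.mul_mem_left _ hb, ?_⟩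
    simp [hxb, hc']

theorem mem_nodesTwist {B' : Subring B} {ρ ρ₀ : B →+* K}
    {swap : ∀ b : B, ∃ b' : B, ρ b' = ρ₀ b ∧ ρ₀ b' = ρ b} {𝔫 : Ideal B} {r : B'} :
    r ∈ nodesTwist B' ρ ρ₀ swap 𝔫 ↔ ∃ b ∈ 𝔫, ρ (r : B) = ρ₀ b := Iff.rfl

/-- The twisted ideal is maximal. -/
theorem nodesTwist_isMaximal {B' : Subring B} {ρ ρ₀ : B →+* K}
    (swap : ∀ b : B, ∃ b' : B, ρ b' = ρ₀ b ∧ ρ₀ b' = ρ b)
    (hsurj₀ : ∀ b : B, ∃ r ∈ B', ρ r = ρ₀ b)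
    {𝔫 : Ideal B} (h𝔫 : 𝔫.IsMaximal) (hg𝔫 : ∀ x : B, ρ₀ x = 0 → x ∈ 𝔫) :
    (nodesTwist B' ρ ρ₀ swap 𝔫).IsMaximal := by
  rw [Ideal.isMaximal_iff]
  constructor
  · rintro ⟨b, hb, h1⟩
    have h2 : ρ₀ (1 - b) = 0 := by
      rw [map_sub, map_one, ← h1]
      simp
    have h3 : (1 : B) ∈ 𝔫 := by
      have : (1 : B) = (1 - b) + b := by ring
      rw [this]
      exact 𝔫.add_mem (hg𝔫 _ h2) hb
    exact h𝔫.ne_top ((Ideal.eq_top_iff_one 𝔫).mpr h3)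
  · intro J x hJ hx hxJ
    obtain ⟨x', -, hx'⟩ := swap (x : B)
    have hx'𝔫 : x' ∉ 𝔫 := fun hmem => hx ⟨x', hmem, hx'.symm⟩
    obtain ⟨y, n, hn, hyn⟩ := h𝔫.exists_inv hx'𝔫
    obtain ⟨r, hr, hry⟩ := hsurj₀ y
    have hmem : x * ⟨r, hr⟩ - 1 ∈ nodesTwist B' ρ ρ₀ swap 𝔫 := by
      refine ⟨-n, 𝔫.neg_mem hn, ?_⟩
      have e1 : ρ₀ (-n) = ρ₀ (y * x' - 1) := by
        congr 1
        linear_combination -hyn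
      rw [e1]
      simp [hry, hx']
      ring
    have : (1 : B') = x * ⟨r, hr⟩ - (x * ⟨r, hr⟩ - 1) := by ring
    rw [this]
    exact J.sub_mem (J.mul_mem_right _ hxJ) (hJ hmem)

/-- **The assembly on one chart.** -/
theorem nodes_chart {B' : Subring B} {π : B} {ρ ρ₀ : B →+* K} {q : ℕ} (hq : 2 ≤ q)
    (hπB' : π ∈ B') (hρπ : ρ π = 0)
    (rd : NodesRankData B' π ρ ρ₀ q)
    (icl : ∀ x : K, IsIntegral (B'.map ρ) x → ∀ r₁ ∈ B', ∀ r₂ ∈ B', ρ r₂ ≠ 0 →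
      ρ r₂ * x = ρ r₁ → ∃ r ∈ B', ρ r = x)
    (hint : ∀ b : B, IsIntegral (B'.map ρ) (ρ b))
    [Algebra.IsIntegral B' B]
    (reg : ∀ 𝔪 : Ideal B', 𝔪.IsMaximal → (⟨π, hπB'⟩ : B') ∈ 𝔪 →
      ∃ s ∈ 𝔪, NodesLocGen 𝔪 {⟨π, hπB'⟩, s})
    (swap : ∀ b : B, ∃ b' : B, ρ b' = ρ₀ b ∧ ρ₀ b' = ρ b)
    (frob : ∀ r ∈ B', ∃ r' ∈ B', ρ₀ r = ρ r' ^ q)
    (𝔫 : Ideal B) (h𝔫 : 𝔫.IsMaximal) (hπ : π ∈ 𝔫) :
    (∃ s ∈ 𝔫, NodesLocGen 𝔫 {π, s}) ∨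
    ((∀ x : B, ρ x = 0 → x ∈ 𝔫) ∧ (∀ x : B, ρ₀ x = 0 → x ∈ 𝔫) ∧
      ∃ X Y : B, ρ X = 0 ∧ ρ₀ Y = 0 ∧ NodesSmoothAt ρ₀ 𝔫 X ∧ NodesSmoothAt ρ 𝔫 Y ∧
        π ∣ X * Y ∧ NodesLocGen 𝔫 {π, X, Y}) := by
  have hprime : 𝔫.IsPrime := h𝔫.isPrime
  have hker : ∀ x : B, ρ x = 0 → ρ₀ x = 0 → π ∣ x := fun x hx hx₀ => rd.dvd_of_ker hx hx₀
  have hsurj : ∀ b : B, ∃ r ∈ B', ρ r = ρ b := rd.exists_eq icl hint
  have hsurj₀ : ∀ b : B, ∃ r ∈ B', ρ r = ρ₀ b := fun b => by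
    obtain ⟨b', hb', -⟩ := swap b
    obtain ⟨r, hr, hrb⟩ := hsurj b'
    exact ⟨r, hr, hrb.trans hb'⟩
  -- a local generator of a maximal ideal of `B'`, in element form
  have hregB : ∀ 𝔪 : Ideal B', 𝔪.IsMaximal → (⟨π, hπB'⟩ : B') ∈ 𝔪 →
      ∃ s ∈ B', ∃ hs : s ∈ B', (⟨s, hs⟩ : B') ∈ 𝔪 ∧
        ∀ r ∈ B', ∀ hr : r ∈ B', (⟨r, hr⟩ : B') ∈ 𝔪 →
          ∃ u ∈ B', ∃ hu : u ∈ B', (⟨u, hu⟩ : B') ∉ 𝔪 ∧
            ∃ a ∈ B', ∃ v ∈ B', u * r = a * π + v * s := by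
    intro 𝔪 h𝔪 hπ𝔪
    obtain ⟨s, hs𝔪, hgen⟩ := reg 𝔪 h𝔪 hπ𝔪
    refine ⟨s, s.2, s.2, hs𝔪, fun r _ hr hr𝔪 => ?_⟩
    obtain ⟨u, hu, hur⟩ := hgen ⟨r, hr⟩ hr𝔪
    rw [Ideal.mem_span_pair] at hur
    obtain ⟨a, v, hav⟩ := hur
    refine ⟨u, u.2, u.2, hu, a, a.2, v, v.2, ?_⟩
    have := congrArg (Subtype.val) hav
    simp only [Subring.coe_add, Subring.coe_mul] at this
    exact this.symm
  refine nodes_main hker hq hπ ?_ ?_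
  · -- the component `ρ`
    intro hf𝔫
    have h𝔪 : (𝔫.comap (algebraMap B' B)).IsMaximal :=
      Ideal.isMaximal_comap_of_isIntegral_of_isMaximal 𝔫
    have hπ𝔪 : (⟨π, hπB'⟩ : B') ∈ 𝔫.comap (algebraMap B' B) := by
      rw [Ideal.mem_comap]; exact hπ
    obtain ⟨s, hsB', hsB'', hs𝔪, hgen⟩ := hregB _ h𝔪 hπ𝔪
    have hs𝔫 : s ∈ 𝔫 := by
      rw [Ideal.mem_comap] at hs𝔪; exact hs𝔪
    refine ⟨s, nodes_smoothAt_of_sub hρπ B' hsurj hf𝔫 hs𝔫 ?_, ?_⟩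
    · intro r hr hr𝔫
      obtain ⟨u, huB', huB'', hu, a, -, v, -, huv⟩ := hgen r hr hr (by
        rw [Ideal.mem_comap]; exact hr𝔫)
      refine ⟨u, huB', ?_, a, v, huv⟩
      intro hu𝔫
      exact hu (by rw [Ideal.mem_comap]; exact hu𝔫)
    · intro _
      obtain ⟨r', hr', hfr⟩ := frob s hsB'
      obtain ⟨h, -, hh⟩ := swap r'
      exact ⟨h, by rw [hfr, hh]⟩
  · -- the component `ρ₀`
    intro hg𝔫
    have h𝔪 := nodesTwist_isMaximal (B' := B') swap hsurj₀ h𝔫 hg𝔫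
    have hπ𝔪 : (⟨π, hπB'⟩ : B') ∈ nodesTwist B' ρ ρ₀ swap 𝔫 :=
      ⟨0, 𝔫.zero_mem, by simp [hρπ]⟩
    obtain ⟨s', hs'B', hs'B'', hs'𝔪, hgen⟩ := hregB _ h𝔪 hπ𝔪
    obtain ⟨s, hs1, hs2⟩ := swap s'
    -- `s ∈ 𝔫`
    have hs𝔫 : s ∈ 𝔫 := by
      obtain ⟨b, hb, hsb⟩ := hs'𝔪
      have h0 : ρ₀ (s - b) = 0 := by
        rw [map_sub, hs2]
        simpa using sub_eq_zero.mpr hsb
      have : s = (s - b) + b := by ring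
      rw [this]
      exact 𝔫.add_mem (hg𝔫 _ h0) hb
    refine ⟨s, ⟨hs𝔫, fun b hb => ?_⟩, ?_⟩
    · obtain ⟨r, hr, hrb⟩ := hsurj₀ b
      obtain ⟨u, huB', huB'', hu, a, -, v, -, huv⟩ := hgen r hr hr ⟨b, hb, hrb⟩
      obtain ⟨U, -, hU⟩ := swap u
      obtain ⟨V, -, hV⟩ := swap v
      refine ⟨U, V, ?_, ?_⟩
      · intro hU𝔫
        exact hu ⟨U, hU𝔫, hU.symm⟩
      · have h1 := congrArg ρ huv
        rw [map_mul, map_add, map_mul, map_mul, hρπ, mul_zero, zero_add] at h1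
        rw [map_mul, map_mul, hU, hV, hs2, ← hrb, h1]
    · intro _
      obtain ⟨r', hr', hfr⟩ := frob s' hs'B'
      exact ⟨r', by rw [hs1, hfr]⟩

end Fermat.Agent.UNIP
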