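import Fermat.Agent.UNIP.NodesChart

/-!
# UNIP / U5 (Nodes): the assembly on one chart, "hom" form

Same as `nodes_chart` (NodesChart.lean), but the chart of level `M` is an arbitrary ring `C`
with a ring homomorphism `φ : C →+* B` (in the application `C = integralClosure A₀[τ] F_M`,
`B = integralClosure A₀[τ] F_{Mq}`, `φ` induced by `F_M ⊆ F_{Mq}`), so that the statements of the
level-`M` inputs (`Prime π`, `IsIntegrallyClosed (C ⧸ π)`, local generators) can be used on the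
type on which they are proved.

`NodesHomData φ π' ρ ρ₀ q` is `NodesRankData` for `B' = φ.range`.
-/

set_option autoImplicit false

namespace Fermat.Agent.UNIP

open Polynomial

variable {B C K : Type*} [CommRing B] [CommRing C] [Field K]

/-- The hypotheses of the elementary proof of (α1), for a level-`M` chart `φ : C →+* B`. -/
structure NodesHomData (φ : C →+* B) (π' : C) (ρ ρ₀ : B →+* K) (q : ℕ) : Prop where
  ker_sub : ∀ c : C, ρ (φ c) = 0 → π' ∣ c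
  ker₀_sub : ∀ c : C, ρ₀ (φ c) = 0 → ρ (φ c) = 0
  tf : ∀ c : C, ρ (φ c) ≠ 0 → ∀ b : B, φ π' ∣ φ c * b → φ π' ∣ b
  rank : ∀ v : Fin (q + 2) → B, ∃ c : Fin (q + 2) → C,
    (∃ i, ρ (φ (c i)) ≠ 0) ∧ ∑ i, φ (c i) * v i = 0
  indep : ∃ b : Fin q → B, ∀ c : Fin q → C,
    ρ₀ (∑ i, φ (c i) * b i) = 0 → ∀ i, ρ (φ (c i)) = 0
  ex_c : ∃ c : B, ρ c = 0 ∧ ρ₀ c ≠ 0
  ex_c' : ∃ c' : B, ρ₀ c' = 0 ∧ ρ c' ≠ 0

theorem NodesHomData.toRankData {φ : C →+* B} {π' : C} {ρ ρ₀ : B →+* K} {q : ℕ}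
    (h : NodesHomData φ π' ρ ρ₀ q) : NodesRankData φ.range (φ π') ρ ρ₀ q where
  ker_sub := by
    rintro _ ⟨c, rfl⟩ hc
    obtain ⟨d, rfl⟩ := h.ker_sub c hc
    exact ⟨φ d, ⟨d, rfl⟩, map_mul φ _ _⟩
  ker₀_sub := by
    rintro _ ⟨c, rfl⟩ hc
    exact h.ker₀_sub c hc
  tf := by
    rintro _ ⟨c, rfl⟩ hc b hb
    exact h.tf c hc b hb
  rank := by
    intro v
    obtain ⟨c, hc, hsum⟩ := h.rank v
    exact ⟨fun i => φ (c i), fun i => ⟨c i, rfl⟩, hc, hsum⟩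
  indep := by
    obtain ⟨b, hb⟩ := h.indep
    refine ⟨b, fun c hc hsum => ?_⟩
    choose c' hc' using hc
    have h1 : ∑ i, c i * b i = ∑ i, φ (c' i) * b i :=
      Finset.sum_congr rfl fun i _ => by rw [hc' i]
    rw [h1] at hsum
    intro i
    rw [← hc' i]
    exact hb c' hsum i
  ex_c := h.ex_c
  ex_c' := h.ex_c'

/-- **The assembly on one chart, hom form.** -/
theorem nodes_chart_hom {φ : C →+* B} {π' : C} {ρ ρ₀ : B →+* K} {q : ℕ} (hq : 2 ≤ q)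
    (hρπ : ρ (φ π') = 0)
    (hd : NodesHomData φ π' ρ ρ₀ q)
    (icl : ∀ x : K, IsIntegral (ρ.comp φ).range x → ∀ c₁ c₂ : C, ρ (φ c₂) ≠ 0 →
      ρ (φ c₂) * x = ρ (φ c₁) → ∃ c : C, ρ (φ c) = x)
    (hint : ∀ b : B, IsIntegral (ρ.comp φ).range (ρ b))
    (hφ : φ.IsIntegral)
    (reg : ∀ 𝔪 : Ideal C, 𝔪.IsMaximal → π' ∈ 𝔪 → ∃ s ∈ 𝔪, NodesLocGen 𝔪 {π', s})
    (swap : ∀ b : B, ∃ b' : B, ρ b' = ρ₀ b ∧ ρ₀ b' = ρ b)
    (frob : ∀ c : C, ∃ c' : C, ρ₀ (φ c) = ρ (φ c') ^ q)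
    (𝔫 : Ideal B) (h𝔫 : 𝔫.IsMaximal) (hπ : φ π' ∈ 𝔫) :
    (∃ s ∈ 𝔫, NodesLocGen 𝔫 {φ π', s}) ∨
    ((∀ x : B, ρ x = 0 → x ∈ 𝔫) ∧ (∀ x : B, ρ₀ x = 0 → x ∈ 𝔫) ∧
      ∃ X Y : B, ρ X = 0 ∧ ρ₀ Y = 0 ∧ NodesSmoothAt ρ₀ 𝔫 X ∧ NodesSmoothAt ρ 𝔫 Y ∧
        φ π' ∣ X * Y ∧ NodesLocGen 𝔫 {φ π', X, Y}) := by
  have hrange : φ.range.map ρ = (ρ.comp φ).range := RingHom.map_range ρ φ
  have : Algebra.IsIntegral φ.range B := by
    refine ⟨fun b => ?_⟩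
    obtain ⟨p, hp, hpb⟩ := hφ b
    refine ⟨p.map φ.rangeRestrict, hp.map _, ?_⟩
    rw [eval₂_map]
    have : (algebraMap φ.range B).comp φ.rangeRestrict = φ := by
      ext c; rfl
    rw [this]
    exact hpb
  refine nodes_chart (B' := φ.range) hq ⟨π', rfl⟩ hρπ hd.toRankData ?_ ?_ ?_ swap ?_ 𝔫 h𝔫 hπ
  · -- icl
    intro x hx r₁ hr₁ r₂ hr₂ hne hrel
    obtain ⟨c₁, rfl⟩ := hr₁
    obtain ⟨c₂, rfl⟩ := hr₂
    have hx' : IsIntegral (ρ.comp φ).range x := by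
      rw [← hrange]; exact hx
    obtain ⟨c, hc⟩ := icl x hx' c₁ c₂ hne hrel
    exact ⟨φ c, ⟨c, rfl⟩, hc⟩
  · -- hint
    intro b
    rw [hrange]
    exact hint b
  · -- reg
    intro 𝔪 h𝔪 hπ𝔪
    have hsurj := φ.rangeRestrict_surjective
    have hmax : (𝔪.comap φ.rangeRestrict).IsMaximal :=
      Ideal.comap_isMaximal_of_surjective _ hsurj
    obtain ⟨s, hs, hgen⟩ := reg _ hmax (by rw [Ideal.mem_comap]; exact hπ𝔪)
    refine ⟨φ.rangeRestrict s, hs, fun x hx => ?_⟩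
    obtain ⟨c, rfl⟩ := hsurj x
    obtain ⟨u, hu, hux⟩ := hgen c (by rw [Ideal.mem_comap]; exact hx)
    refine ⟨φ.rangeRestrict u, hu, ?_⟩
    rw [Ideal.mem_span_pair] at hux ⊢
    obtain ⟨a, v, hav⟩ := hux
    refine ⟨φ.rangeRestrict a, φ.rangeRestrict v, ?_⟩
    have := congrArg φ.rangeRestrict hav
    simp only [map_add, map_mul] at this
    exact this
  · -- frob
    rintro _ ⟨c, rfl⟩
    obtain ⟨c', hc'⟩ := frob c
    exact ⟨φ c', ⟨c', rfl⟩, hc'⟩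

end Fermat.Agent.UNIP
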