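import Mathlib.RingTheory.Ideal.Operations
import Mathlib.RingTheory.Ideal.IdempotentFG
import Mathlib.RingTheory.Ideal.Quotient.Operations
import Mathlib.RingTheory.Noetherian.Basic
import Mathlib.RingTheory.Nilpotent.Defs
import Mathlib.Tactic

/-!
# UNIP / U5 (Nodes), abstract part 1: transversal crossings

Pure commutative algebra (no modular forms).

* `nodes_le_sup_sq` (abstract form of step (α3) of `NOTES/S34-plan.md`): `𝔭, 𝔭'` ideals of `B`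
  (the two components of the special fibre), `𝔪` a prime ideal containing both (a crossing
  point).  If `s ∈ 𝔪` is a uniformizer of the component `𝔭` at `𝔪`
  (`𝔪 ≤ 𝔭 ⊔ (s) ⊔ 𝔪²`) and some `g ∈ 𝔭'` is congruent to `s − hⁿ` modulo `𝔭` with `n ≥ 2`,
  then `𝔪 ≤ 𝔭 ⊔ 𝔭' ⊔ 𝔪²`: the crossing is transversal.
* `nodes_isReduced_quotient` : if `B` is noetherian and every maximal ideal `𝔪 ⊇ I` satisfies
  `𝔪 ≤ I ⊔ 𝔪²` then `B ⧸ I` is reduced.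
* `nodes_isReduced_crossing` : the two statements combined: `B ⧸ (𝔭 ⊔ 𝔭')` is reduced
  (so every crossing point has `δ = 1`).
-/

set_option autoImplicit false

namespace Fermat.Agent.UNIP

variable {B : Type*} [CommRing B]

/-- **(α3), abstract form.** -/
theorem nodes_le_sup_sq {𝔭 𝔭' 𝔪 : Ideal B} [h𝔪 : 𝔪.IsPrime] (h𝔭' : 𝔭' ≤ 𝔪)
    {s h g : B} {n : ℕ} (hn : 2 ≤ n)
    (hs : 𝔪 ≤ 𝔭 ⊔ Ideal.span {s} ⊔ 𝔪 ^ 2) (hs𝔪 : s ∈ 𝔪) (hg : g ∈ 𝔭')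
    (hgs : g - (s - h ^ n) ∈ 𝔭) (h𝔭 : 𝔭 ≤ 𝔪) :
    𝔪 ≤ 𝔭 ⊔ 𝔭' ⊔ 𝔪 ^ 2 := by
  -- `hⁿ ∈ 𝔪`, hence `h ∈ 𝔪`, hence `hⁿ ∈ 𝔪²`
  have hhn : h ^ n ∈ 𝔪 := by
    have h1 : h ^ n = (g - (s - h ^ n)) - g + s := by ring
    rw [h1]
    exact 𝔪.add_mem (𝔪.sub_mem (h𝔭 hgs) (h𝔭' hg)) hs𝔪
  have hh : h ∈ 𝔪 := h𝔪.mem_of_pow_mem n hhn
  have hhn2 : h ^ n ∈ 𝔪 ^ 2 := by
    obtain ⟨d, rfl⟩ := Nat.exists_eq_add_of_le hn
    rw [pow_add]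
    exact Ideal.mul_mem_right _ _ (Ideal.pow_mem_pow hh 2)
  -- `s ∈ 𝔭 + 𝔭' + 𝔪²`
  have hs' : s ∈ 𝔭 ⊔ 𝔭' ⊔ 𝔪 ^ 2 := by
    have h1 : s = (-(g - (s - h ^ n)) + g) + h ^ n := by ring
    rw [h1]
    refine Ideal.add_mem _ (Ideal.mem_sup_left ?_) (Ideal.mem_sup_right hhn2)
    exact Ideal.add_mem _ (Ideal.mem_sup_left (𝔭.neg_mem hgs)) (Ideal.mem_sup_right hg)
  refine hs.trans ?_
  refine sup_le (sup_le ?_ ?_) le_sup_right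
  · exact le_sup_of_le_left le_sup_left
  · rw [Ideal.span_le, Set.singleton_subset_iff]
    exact hs'

/-- If every maximal ideal containing `I` satisfies `𝔪 ≤ I ⊔ 𝔪²` and `B` is noetherian, then
`B ⧸ I` is reduced (it is a finite product of fields). -/
theorem nodes_isReduced_quotient [IsNoetherianRing B] (I : Ideal B)
    (h : ∀ 𝔪 : Ideal B, 𝔪.IsMaximal → I ≤ 𝔪 → 𝔪 ≤ I ⊔ 𝔪 ^ 2) : IsReduced (B ⧸ I) := by
  constructor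
  intro x hx
  by_contra hx0
  -- the annihilator of `x` is a proper ideal of `B ⧸ I`
  let J : Ideal (B ⧸ I) := Ideal.span {x} |>.annihilator
  have hJ : J ≠ ⊤ := by
    intro hJ
    have h1 : (1 : B ⧸ I) ∈ J := hJ ▸ Submodule.mem_top
    rw [Submodule.mem_annihilator_span_singleton] at h1
    exact hx0 (by simpa using h1)
  obtain ⟨𝔫, h𝔫, hJ𝔫⟩ := Ideal.exists_le_maximal J hJ
  -- the corresponding maximal ideal of `B`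
  have h𝔪max : (𝔫.comap (Ideal.Quotient.mk I)).IsMaximal :=
    Ideal.comap_isMaximal_of_surjective _ Ideal.Quotient.mk_surjective
  have hI𝔪 : I ≤ 𝔫.comap (Ideal.Quotient.mk I) := by
    intro y hy
    rw [Ideal.mem_comap, Ideal.Quotient.eq_zero_iff_mem.mpr hy]
    exact 𝔫.zero_mem
  have h1 := h _ h𝔪max hI𝔪
  -- `𝔫 ≤ 𝔫²`
  have h𝔫sq : 𝔫 ≤ 𝔫 ^ 2 := by
    intro y hy
    obtain ⟨b, rfl⟩ := Ideal.Quotient.mk_surjective y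
    have hb : b ∈ 𝔫.comap (Ideal.Quotient.mk I) := hy
    have hb' := h1 hb
    obtain ⟨u, hu, v, hv, rfl⟩ := Submodule.mem_sup.mp hb'
    rw [map_add, Ideal.Quotient.eq_zero_iff_mem.mpr hu, zero_add]
    have hmap : (𝔫.comap (Ideal.Quotient.mk I) ^ 2).map (Ideal.Quotient.mk I) ≤ 𝔫 ^ 2 := by
      rw [Ideal.map_pow]
      exact Ideal.pow_right_mono (Ideal.map_comap_le) 2
    exact hmap (Ideal.mem_map_of_mem _ hv)
  have hidem : IsIdempotentElem 𝔫 := by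
    have : 𝔫 * 𝔫 = 𝔫 := le_antisymm Ideal.mul_le_right (by rw [← sq]; exact h𝔫sq)
    exact this
  obtain ⟨e, he, h𝔫e⟩ :=
    (Ideal.isIdempotentElem_iff_of_fg 𝔫 (IsNoetherian.noetherian 𝔫)).mp hidem
  -- `x ∈ 𝔫` because it is nilpotent
  have hx𝔫 : x ∈ 𝔫 := by
    obtain ⟨n, hn⟩ := hx
    refine h𝔫.isPrime.mem_of_pow_mem n ?_
    rw [hn]
    exact 𝔫.zero_mem
  rw [h𝔫e, Ideal.mem_span_singleton] at hx𝔫
  obtain ⟨y, rfl⟩ := hx𝔫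
  -- `(1 - e) * x = 0`
  have h2 : (1 - e) * (e * y) = 0 := by
    have : (1 - e) * (e * y) = (e - e * e) * y := by ring
    rw [this, he.eq, sub_self, zero_mul]
  have h3 : (1 - e) ∈ J := by
    rw [Submodule.mem_annihilator_span_singleton]
    simpa [smul_eq_mul] using h2
  have h4 : (1 - e) ∈ 𝔫 := hJ𝔫 h3
  have h5 : e ∈ 𝔫 := by
    rw [h𝔫e]; exact Ideal.mem_span_singleton_self e
  have h6 : (1 : B ⧸ I) ∈ 𝔫 := by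
    have : (1 : B ⧸ I) = (1 - e) + e := by ring
    rw [this]; exact 𝔫.add_mem h4 h5
  exact h𝔫.ne_top ((Ideal.eq_top_iff_one 𝔫).mpr h6)

/-- **Crossings are ordinary** (abstract form of (α3)): if at every maximal ideal
`𝔪 ⊇ 𝔭 ⊔ 𝔭'` there are a uniformizer `s` of the component `𝔭` and an element `g ∈ 𝔭'`
congruent to `s − hⁿ` modulo `𝔭` (`n ≥ 2`), then `B ⧸ (𝔭 ⊔ 𝔭')` is reduced. -/
theorem nodes_isReduced_crossing [IsNoetherianRing B] (𝔭 𝔭' : Ideal B) {n : ℕ} (hn : 2 ≤ n)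
    (h : ∀ 𝔪 : Ideal B, 𝔪.IsMaximal → 𝔭 ⊔ 𝔭' ≤ 𝔪 →
      ∃ s h g : B, s ∈ 𝔪 ∧ 𝔪 ≤ 𝔭 ⊔ Ideal.span {s} ⊔ 𝔪 ^ 2 ∧ g ∈ 𝔭' ∧ g - (s - h ^ n) ∈ 𝔭) :
    IsReduced (B ⧸ (𝔭 ⊔ 𝔭')) := by
  refine nodes_isReduced_quotient _ fun 𝔪 h𝔪 hle => ?_
  obtain ⟨s, h', g, hs𝔪, hs, hg, hgs⟩ := h 𝔪 h𝔪 hle
  have := h𝔪.isPrime
  exact nodes_le_sup_sq (le_sup_right.trans hle) hn hs hs𝔪 hg hgs (le_sup_left.trans hle)

end Fermat.Agent.UNIP
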