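import Fermat.Agent.UNIP.NodesFrob
import Fermat.Agent.UNIP.NodesDeg
import Fermat.Agent.UNIP.NodesBridge
import Fermat.Agent.INJ.TorsionFree
import Fermat.Agent.UNIP.NodesInstAbs
import Fermat.Agent.UNIP.NodesGauss
import Fermat.Agent.UNIP.NodesSwap

set_option autoImplicit false
set_option linter.unusedSectionVars false
set_option synthInstance.maxHeartbeats 400000
set_option maxHeartbeats 1000000

noncomputable section

namespace Fermat.Agent.UNIP

open ModularCurve Fermat.Agent.INJ Fermat.Agent.AL IntermediateField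

section Setup

variable {A E : Type*} [CommRing A] [Field E] [Algebra A E]
  (M q : ℕ) [NeZero q] [NeZero M] [NeZero (M * q)]

/-- The inclusion `F_M → F_{Mq}`. -/
def nodesInstIncl (E : Type*) [Field E] (M q : ℕ) [NeZero q] [NeZero M] [NeZero (M * q)] :
    modularFunctionFieldFullC E M →ₐ[E] modularFunctionFieldFullC E (M * q) :=
  IntermediateField.inclusion (nodesDeg_le E M q)

theorem nodesInstIncl_coe (x : modularFunctionFieldFullC E M) :
    ((nodesInstIncl E M q x : modularFunctionFieldFullC E (M * q)) : LaurentSeries E) =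
      (x : LaurentSeries E) :=
  IntermediateField.coe_inclusion (nodesDeg_le E M q) x

variable [Algebra A (modularFunctionFieldFullC E M)]
  [IsScalarTower A E (modularFunctionFieldFullC E M)]
  [Algebra A (modularFunctionFieldFullC E (M * q))]
  [IsScalarTower A E (modularFunctionFieldFullC E (M * q))]

/-- The inclusion is `A`-linear. -/
def nodesInstInclA : modularFunctionFieldFullC E M →ₐ[A] modularFunctionFieldFullC E (M * q) :=
  { (nodesInstIncl E M q).toRingHom with
    commutes' := fun a => by
      show nodesInstIncl E M q (algebraMap A _ a) = algebraMap A _ a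
      rw [IsScalarTower.algebraMap_apply A E (modularFunctionFieldFullC E M),
        IsScalarTower.algebraMap_apply A E (modularFunctionFieldFullC E (M * q)),
        AlgHom.commutes] }

theorem nodesInstInclA_apply (x : modularFunctionFieldFullC E M) :
    nodesInstInclA (A := A) M q x = nodesInstIncl E M q x := rfl

variable (t : modularFunctionFieldFullC E M)

variable (A) in
theorem nodesInst_isIntegral_incl {x : modularFunctionFieldFullC E M}
    (h : IsIntegral (Algebra.adjoin A {t}) x) :
    IsIntegral (Algebra.adjoin A {nodesInstIncl E M q t}) (nodesInstIncl E M q x) := by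
  let f : modularFunctionFieldFullC E M →ₐ[A] modularFunctionFieldFullC E (M * q) :=
    nodesInstInclA M q
  have hmap : (Algebra.adjoin A {t}).map f =
      Algebra.adjoin A {nodesInstIncl E M q t} := by
    rw [AlgHom.map_adjoin, Set.image_singleton]
    rfl
  let φ : Algebra.adjoin A {t} →+* Algebra.adjoin A {nodesInstIncl E M q t} :=
    { toFun := fun y => ⟨f y, by rw [← hmap]; exact ⟨y, y.2, rfl⟩⟩
      map_one' := by ext; simp
      map_mul' := fun a b => by ext; simp
      map_zero' := by ext; simp
      map_add' := fun a b => by ext; simp }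
  exact IsIntegral.map_of_comp_eq φ (nodesInstIncl E M q).toRingHom (by ext y; rfl) h

variable (A) in
/-- **The chart map** `C_t(F_M) → B_t(F_{Mq})`. -/
def nodesPhi : integralClosure (Algebra.adjoin A {t}) (modularFunctionFieldFullC E M)
    →+* integralClosure (Algebra.adjoin A {nodesInstIncl E M q t})
      (modularFunctionFieldFullC E (M * q)) where
  toFun c := ⟨nodesInstIncl E M q c.1, nodesInst_isIntegral_incl A M q t c.2⟩
  map_one' := Subtype.ext (map_one (nodesInstIncl E M q))
  map_mul' a b := Subtype.ext (map_mul (nodesInstIncl E M q) a.1 b.1)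
  map_zero' := Subtype.ext (map_zero (nodesInstIncl E M q))
  map_add' a b := Subtype.ext (map_add (nodesInstIncl E M q) a.1 b.1)

theorem nodesPhi_coe (c : integralClosure (Algebra.adjoin A {t}) (modularFunctionFieldFullC E M)) :
    ((nodesPhi A M q t c : integralClosure (Algebra.adjoin A {nodesInstIncl E M q t})
      (modularFunctionFieldFullC E (M * q))) : modularFunctionFieldFullC E (M * q)) =
      nodesInstIncl E M q c.1 := rfl

theorem nodesPhi_coe_coe
    (c : integralClosure (Algebra.adjoin A {t}) (modularFunctionFieldFullC E M)) :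
    (((nodesPhi A M q t c : integralClosure (Algebra.adjoin A {nodesInstIncl E M q t})
      (modularFunctionFieldFullC E (M * q))) : modularFunctionFieldFullC E (M * q)) :
        LaurentSeries E) = ((c : modularFunctionFieldFullC E M) : LaurentSeries E) :=
  nodesInstIncl_coe M q c.1

end Setup

section Fields

variable {A E k : Type*} [CommRing A] [IsDomain A] [WfDvdMonoid A] [Field E] [Algebra A E]
  [IsFractionRing A E] [Field k] (r : A →+* k) {π : A}
  (hπ0 : π ≠ 0) (hπ : ¬ IsUnit π) (hr : ∀ a, r a = 0 → π ∣ a) (hrπ : r π = 0)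
  (M q : ℕ) [NeZero q] [NeZero M] [NeZero (M * q)]
  [Algebra A (modularFunctionFieldFullC E M)]
  [IsScalarTower A E (modularFunctionFieldFullC E M)]
  [Algebra A (modularFunctionFieldFullC E (M * q))]
  [IsScalarTower A E (modularFunctionFieldFullC E (M * q))]
  (t : modularFunctionFieldFullC E M)
  (ht : (t : LaurentSeries E) ∈ gaussRing (algebraMap A E) r)

omit [IsDomain A] [WfDvdMonoid A] [IsFractionRing A E]
  [Algebra A (modularFunctionFieldFullC E M)]
  [IsScalarTower A E (modularFunctionFieldFullC E M)]
  [Algebra A (modularFunctionFieldFullC E (M * q))]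
  [IsScalarTower A E (modularFunctionFieldFullC E (M * q))] in
include ht in
/-- The coordinate of the upper chart lies in the Gauss ring. -/
theorem nodesInst_ht' :
    ((nodesInstIncl E M q t : modularFunctionFieldFullC E (M * q)) : LaurentSeries E) ∈
      gaussRing (algebraMap A E) r := by
  rw [nodesInstIncl_coe]
  exact ht

/-- `ρ (φ c)` is the Gauss reduction of `c`. -/
theorem nodesInst_rho_phi
    (c : integralClosure (Algebra.adjoin A {t}) (modularFunctionFieldFullC E M))
    (hcG : ((c : modularFunctionFieldFullC E M) : LaurentSeries E) ∈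
      gaussRing (algebraMap A E) r) :
    nodesFrobChartRed r hπ0 hπ hr hrπ (nodesFrob_full_le (M * q)) (nodesInstIncl E M q t)
        (nodesInst_ht' r M q t ht) (nodesPhi A M q t c) =
      gaussRed r (IsFractionRing.injective A E) ⟨_, hcG⟩ := by
  rw [nodesFrobChartRed_apply r hπ0 hπ hr hrπ (nodesFrob_full_le (M * q))
    (nodesInstIncl E M q t) (nodesInst_ht' r M q t ht) (nodesPhi A M q t c)
    (by rw [nodesPhi_coe_coe]; exact hcG)]
  congr 1

/-- `ρ ∘ φ` is the reduction on the lower chart. -/
theorem nodesInst_rho_phi'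
    (c : integralClosure (Algebra.adjoin A {t}) (modularFunctionFieldFullC E M)) :
    nodesFrobChartRed r hπ0 hπ hr hrπ (nodesFrob_full_le (M * q)) (nodesInstIncl E M q t)
        (nodesInst_ht' r M q t ht) (nodesPhi A M q t c) =
      nodesFrobChartRed r hπ0 hπ hr hrπ (nodesFrob_full_le M) t ht c := by
  have hcG := nodesFrob_G1_id r hπ0 hπ hr hrπ (nodesFrob_full_le M) t ht c.2
  rw [nodesInst_rho_phi r hπ0 hπ hr hrπ M q t ht c hcG,
    nodesFrobChartRed_apply r hπ0 hπ hr hrπ (nodesFrob_full_le M) t ht c hcG]

/-- **ker_sub**: the kernel of `ρ ∘ φ` is `π C`. -/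
theorem nodesInst_ker_sub
    (htr : Transcendental k (gaussRed r (IsFractionRing.injective A E) ⟨_, ht⟩))
    (hprime : Prime (algebraMap A
      (integralClosure (Algebra.adjoin A {t}) (modularFunctionFieldFullC E M)) π))
    (c : integralClosure (Algebra.adjoin A {t}) (modularFunctionFieldFullC E M))
    (hc : nodesFrobChartRed r hπ0 hπ hr hrπ (nodesFrob_full_le (M * q))
      (nodesInstIncl E M q t) (nodesInst_ht' r M q t ht) (nodesPhi A M q t c) = 0) :
    algebraMap A (integralClosure (Algebra.adjoin A {t}) (modularFunctionFieldFullC E M)) π ∣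
      c := by
  have hcG := nodesFrob_G1_id r hπ0 hπ hr hrπ (nodesFrob_full_le M) t ht c.2
  rw [nodesInst_rho_phi r hπ0 hπ hr hrπ M q t ht c hcG] at hc
  exact nodesFrob_G2 r hπ0 hπ hr hrπ (nodesFrob_full_le M) t ht htr hprime c hcG hc

/-- `ρ (φ π) = 0`. -/
theorem nodesInst_rho_phi_pi :
    nodesFrobChartRed r hπ0 hπ hr hrπ (nodesFrob_full_le (M * q)) (nodesInstIncl E M q t)
        (nodesInst_ht' r M q t ht) (nodesPhi A M q t (algebraMap A
          (integralClosure (Algebra.adjoin A {t}) (modularFunctionFieldFullC E M)) π)) = 0 := by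
  have hcoe : (((algebraMap A (integralClosure (Algebra.adjoin A {t})
      (modularFunctionFieldFullC E M)) π : integralClosure (Algebra.adjoin A {t})
        (modularFunctionFieldFullC E M)) : modularFunctionFieldFullC E M) : LaurentSeries E) =
      HahnSeries.C (algebraMap A E π) := nodesFrob_algebraMap_coe π
  have hG : (((algebraMap A (integralClosure (Algebra.adjoin A {t})
      (modularFunctionFieldFullC E M)) π : integralClosure (Algebra.adjoin A {t})
        (modularFunctionFieldFullC E M)) : modularFunctionFieldFullC E M) : LaurentSeries E) ∈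
      gaussRing (algebraMap A E) r := by
    rw [hcoe]; exact hahnC_mem_gaussRing r π
  rw [nodesInst_rho_phi r hπ0 hπ hr hrπ M q t ht _ hG,
    gaussRed_eq_zero_iff_dvd r (IsFractionRing.injective A E) hrπ hr]
  exact ⟨1, by rw [hcoe]; simp⟩

/-- The inverse of the identification `A[t] ≅ A[incl t]`. -/
def nodesInstTheta :
    Algebra.adjoin A {nodesInstIncl E M q t} →+* Algebra.adjoin A {t} :=
  (((Algebra.adjoin A {t}).equivMapOfInjective (nodesInstInclA (A := A) M q)
    (nodesInstIncl E M q).toRingHom.injective).trans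
      (Subalgebra.equivOfEq _ _ (by
        rw [AlgHom.map_adjoin, Set.image_singleton]
        rfl))).symm.toRingEquiv.toRingHom

theorem nodesInstTheta_spec (y : Algebra.adjoin A {nodesInstIncl E M q t}) :
    nodesInstIncl E M q ((nodesInstTheta (A := A) M q t y : Algebra.adjoin A {t}) :
      modularFunctionFieldFullC E M) = (y : modularFunctionFieldFullC E (M * q)) := by
  set e := ((Algebra.adjoin A {t}).equivMapOfInjective (nodesInstInclA (A := A) M q)
    (nodesInstIncl E M q).toRingHom.injective).trans
      (Subalgebra.equivOfEq _ _ (by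
        rw [AlgHom.map_adjoin, Set.image_singleton]
        rfl : (Algebra.adjoin A {t}).map (nodesInstInclA (A := A) M q) =
          Algebra.adjoin A {nodesInstIncl E M q t})) with he
  have h1 : e (e.symm y) = y := e.apply_symm_apply y
  have h2 : ∀ x : Algebra.adjoin A {t},
      ((e x : Algebra.adjoin A {nodesInstIncl E M q t}) : modularFunctionFieldFullC E (M * q)) =
        nodesInstIncl E M q (x : modularFunctionFieldFullC E M) := fun x => rfl
  have h3 := congrArg (fun z : Algebra.adjoin A {nodesInstIncl E M q t} =>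
    (z : modularFunctionFieldFullC E (M * q))) h1
  simp only [h2] at h3
  exact h3

/-- **tf**: INJ A1 between the two charts. -/
theorem nodesInst_tf
    (hprime : Prime (algebraMap A
      (integralClosure (Algebra.adjoin A {t}) (modularFunctionFieldFullC E M)) π))
    (c : integralClosure (Algebra.adjoin A {t}) (modularFunctionFieldFullC E M))
    (hc : nodesFrobChartRed r hπ0 hπ hr hrπ (nodesFrob_full_le (M * q))
      (nodesInstIncl E M q t) (nodesInst_ht' r M q t ht) (nodesPhi A M q t c) ≠ 0)
    (b : integralClosure (Algebra.adjoin A {nodesInstIncl E M q t})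
      (modularFunctionFieldFullC E (M * q)))
    (hdvd : nodesPhi A M q t (algebraMap A
        (integralClosure (Algebra.adjoin A {t}) (modularFunctionFieldFullC E M)) π) ∣
      nodesPhi A M q t c * b) :
    nodesPhi A M q t (algebraMap A
        (integralClosure (Algebra.adjoin A {t}) (modularFunctionFieldFullC E M)) π) ∣ b := by
  have hnd : ¬ algebraMap A
      (integralClosure (Algebra.adjoin A {t}) (modularFunctionFieldFullC E M)) π ∣ c := by
    rintro ⟨c', rfl⟩
    apply hc
    rw [map_mul, map_mul, nodesInst_rho_phi_pi r hπ0 hπ hr hrπ M q t ht, zero_mul]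
  refine nodesInst_tf_abs (R₀ := Algebra.adjoin A {t})
    (R₁ := Algebra.adjoin A {nodesInstIncl E M q t})
    (nodesInstIncl E M q).toRingHom (nodesInstTheta (A := A) M q t) ?_
    (nodesPhi A M q t) (fun c => rfl) hprime hnd b hdvd
  refine RingHom.ext fun y => ?_
  exact nodesInstTheta_spec M q t y

end Fields

section Rank

variable {A E k : Type*} [CommRing A] [IsDomain A] [WfDvdMonoid A] [Field E] [Algebra A E]
  [IsFractionRing A E] [Field k] (r : A →+* k) {π : A}
  (hπ0 : π ≠ 0) (hπ : ¬ IsUnit π) (hr : ∀ a, r a = 0 → π ∣ a) (hrπ : r π = 0)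
  (M q : ℕ) [NeZero q] [NeZero M] [NeZero (M * q)]
  [Algebra A (modularFunctionFieldFullC E M)]
  [IsScalarTower A E (modularFunctionFieldFullC E M)]
  [Algebra A (modularFunctionFieldFullC E (M * q))]
  [IsScalarTower A E (modularFunctionFieldFullC E (M * q))]
  (t : modularFunctionFieldFullC E M)
  (ht : (t : LaurentSeries E) ∈ gaussRing (algebraMap A E) r)

include hπ0 hπ hr hrπ ht in
/-- **hval**: `π` has finite multiplicity in every nonzero element of the chart. -/
theorem nodesInst_hval
    (c : integralClosure (Algebra.adjoin A {t}) (modularFunctionFieldFullC E M)) (hc : c ≠ 0) :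
    ∃ n : ℕ, ¬ (algebraMap A
      (integralClosure (Algebra.adjoin A {t}) (modularFunctionFieldFullC E M)) π) ^ (n + 1) ∣
        c := by
  have hB : GaussBase r π := ⟨hπ0, hπ, hr, hrπ⟩
  have hcG := nodesFrob_G1_id r hπ0 hπ hr hrπ (nodesFrob_full_le M) t ht c.2
  have hcF : IsGaussFrac A ((c : modularFunctionFieldFullC E M) : LaurentSeries E) :=
    (nodesFrob_full_le (A := A) M) c.1.2
  have hc0 : ((c : modularFunctionFieldFullC E M) : LaurentSeries E) ≠ 0 := by
    intro h0
    apply hc
    apply Subtype.ext
    apply Subtype.ext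
    exact h0
  obtain ⟨d, u, hu, hx⟩ := nodes_exists_pow_mul_of_mem hB hcF hc0 hcG
  refine ⟨d, ?_⟩
  rintro ⟨c', hc'⟩
  have hπcoe : (((algebraMap A (integralClosure (Algebra.adjoin A {t})
      (modularFunctionFieldFullC E M)) π : integralClosure (Algebra.adjoin A {t})
        (modularFunctionFieldFullC E M)) : modularFunctionFieldFullC E M) : LaurentSeries E) =
      gaussPi E π := nodesFrob_algebraMap_coe π
  have h1 : ((c : modularFunctionFieldFullC E M) : LaurentSeries E) =
      gaussPi E π ^ (d + 1) * ((c' : modularFunctionFieldFullC E M) : LaurentSeries E) := by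
    rw [hc', ← hπcoe]
    rfl
  have hc'G := nodesFrob_G1_id r hπ0 hπ hr hrπ (nodesFrob_full_le M) t ht c'.2
  have h2 : (u : LaurentSeries E) =
      gaussPi E π * ((c' : modularFunctionFieldFullC E M) : LaurentSeries E) := by
    apply mul_left_cancel₀ (pow_ne_zero d (gaussPi_ne_zero (E := E) hB))
    rw [← hx, h1, pow_succ]
    ring
  apply hu
  have h3 : u = ⟨gaussPi E π, gaussPi_mem_gaussRing⟩ * ⟨_, hc'G⟩ := Subtype.ext h2
  rw [h3, map_mul, gaussRed_gaussPi hB, zero_mul]

/-- **hfrac**: every element of `F_M` is a quotient of elements of the chart, if `F_M` is algebraic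
over `A[t]`. -/
theorem nodesInst_hfrac
    (halg : ∀ x : modularFunctionFieldFullC E M, IsAlgebraic (Algebra.adjoin A {t}) x)
    (x : modularFunctionFieldFullC E M) :
    ∃ d c : integralClosure (Algebra.adjoin A {t}) (modularFunctionFieldFullC E M),
      (integralClosure (Algebra.adjoin A {t}) (modularFunctionFieldFullC E M)).val.toRingHom d ≠ 0
        ∧ (integralClosure (Algebra.adjoin A {t})
            (modularFunctionFieldFullC E M)).val.toRingHom d * x =
          (integralClosure (Algebra.adjoin A {t})
            (modularFunctionFieldFullC E M)).val.toRingHom c := by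
  obtain ⟨y, hy, hint⟩ := (halg x).exists_integral_multiple
  refine ⟨⟨(y : modularFunctionFieldFullC E M), isIntegral_algebraMap (x := y)⟩,
    ⟨y • x, hint⟩, ?_, ?_⟩
  · intro h0
    apply hy
    exact Subtype.ext h0
  · show (y : modularFunctionFieldFullC E M) * x = y • x
    rw [Algebra.smul_def]
    rfl

include hπ0 in
/-- `φ π ≠ 0`. -/
theorem nodesInst_phi_pi_ne_zero :
    nodesPhi A M q t (algebraMap A
      (integralClosure (Algebra.adjoin A {t}) (modularFunctionFieldFullC E M)) π) ≠ 0 := by
  intro h0
  have h1 := congrArg (fun z : integralClosure (Algebra.adjoin A {nodesInstIncl E M q t})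
      (modularFunctionFieldFullC E (M * q)) =>
        ((z : modularFunctionFieldFullC E (M * q)) : LaurentSeries E)) h0
  simp only [nodesPhi_coe_coe] at h1
  have hπcoe : (((algebraMap A (integralClosure (Algebra.adjoin A {t})
      (modularFunctionFieldFullC E M)) π : integralClosure (Algebra.adjoin A {t})
        (modularFunctionFieldFullC E M)) : modularFunctionFieldFullC E M) : LaurentSeries E) =
      HahnSeries.C (algebraMap A E π) := nodesFrob_algebraMap_coe π
  rw [hπcoe] at h1
  have h2 : algebraMap A E π = 0 := HahnSeries.C_injective (by rw [h1, map_zero]; rfl)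
  exact hπ0 ((IsFractionRing.injective A E) (by rw [h2, map_zero]))

/-- **rank**: any `q + 2` elements of the upper chart satisfy a linear relation over the lower
chart with a coefficient of nonzero reduction. -/
theorem nodesInst_rank [CharZero E] (hq : q.Prime) (hqM : ¬ q ∣ M)
    (htr : Transcendental k (gaussRed r (IsFractionRing.injective A E) ⟨_, ht⟩))
    (hprime : Prime (algebraMap A
      (integralClosure (Algebra.adjoin A {t}) (modularFunctionFieldFullC E M)) π))
    (halg : ∀ x : modularFunctionFieldFullC E M, IsAlgebraic (Algebra.adjoin A {t}) x)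
    (v : Fin (q + 2) → integralClosure (Algebra.adjoin A {nodesInstIncl E M q t})
      (modularFunctionFieldFullC E (M * q))) :
    ∃ c : Fin (q + 2) → integralClosure (Algebra.adjoin A {t}) (modularFunctionFieldFullC E M),
      (∃ i, nodesFrobChartRed r hπ0 hπ hr hrπ (nodesFrob_full_le (M * q))
        (nodesInstIncl E M q t) (nodesInst_ht' r M q t ht) (nodesPhi A M q t (c i)) ≠ 0) ∧
      ∑ i, nodesPhi A M q t (c i) * v i = 0 := by
  obtain ⟨f, hf, ⟨i₀, hi₀⟩, hsum⟩ := nodesDeg_dependent_fin E M q hq hqM
    (fun i => (((v i : integralClosure (Algebra.adjoin A {nodesInstIncl E M q t})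
      (modularFunctionFieldFullC E (M * q))) : modularFunctionFieldFullC E (M * q)) :
        LaurentSeries E)) (fun i => (v i).1.2)
  have hsum' : ∑ i, (nodesInstIncl E M q).toRingHom (⟨f i, hf i⟩ : modularFunctionFieldFullC E M) *
      (integralClosure (Algebra.adjoin A {nodesInstIncl E M q t})
        (modularFunctionFieldFullC E (M * q))).val.toRingHom (v i) = 0 := by
    apply Subtype.val_injective
    refine Eq.trans ?_ hsum
    rw [IntermediateField.coe_sum]
    refine Finset.sum_congr rfl (fun i _ => ?_)
    rw [MulMemClass.coe_mul]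
    exact congrArg (· * (((v i : integralClosure (Algebra.adjoin A {nodesInstIncl E M q t})
      (modularFunctionFieldFullC E (M * q))) : modularFunctionFieldFullC E (M * q)) :
        LaurentSeries E)) (nodesInstIncl_coe M q ⟨f i, hf i⟩)
  obtain ⟨c, hc0, hcsum⟩ := nodesInst_rank_clear (nodesPhi A M q t)
    (integralClosure (Algebra.adjoin A {t}) (modularFunctionFieldFullC E M)).val.toRingHom
    (integralClosure (Algebra.adjoin A {nodesInstIncl E M q t})
      (modularFunctionFieldFullC E (M * q))).val.toRingHom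
    (nodesInstIncl E M q).toRingHom Subtype.val_injective (fun c => rfl)
    (nodesInst_hfrac M t halg) v (fun i => (⟨f i, hf i⟩ : modularFunctionFieldFullC E M))
    ⟨i₀, fun h0 => hi₀ (congrArg Subtype.val h0)⟩ hsum'
  exact nodesInst_rank_normalise (nodesPhi A M q t) _
    (nodesInst_phi_pi_ne_zero hπ0 M q t) _
    (nodesInst_hval r hπ0 hπ hr hrπ M t ht)
    (nodesInst_ker_sub r hπ0 hπ hr hrπ M q t ht htr hprime) v c hc0 hcsum

end Rank

section Frob

variable {A E k : Type*} [CommRing A] [IsDomain A] [WfDvdMonoid A] [Field E] [Algebra A E]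
  [IsFractionRing A E] [Field k] (r : A →+* k) {π : A}
  (hπ0 : π ≠ 0) (hπ : ¬ IsUnit π) (hr : ∀ a, r a = 0 → π ∣ a) (hrπ : r π = 0)
  (M q : ℕ) [NeZero q] [NeZero M] [NeZero (M * q)]
  [Algebra A (modularFunctionFieldFullC E M)]
  [IsScalarTower A E (modularFunctionFieldFullC E M)]
  [Algebra A (modularFunctionFieldFullC E (M * q))]
  [IsScalarTower A E (modularFunctionFieldFullC E (M * q))]
  (t : modularFunctionFieldFullC E M)
  (ht : (t : LaurentSeries E) ∈ gaussRing (algebraMap A E) r)
  (ιC : E →+* ℂ) (hq : q.Prime) (hqM : ¬ q ∣ M)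

theorem nodesInstIncl_eq_mk (x : modularFunctionFieldFullC E M) :
    nodesInstIncl E M q x = ⟨(x : LaurentSeries E), al_mem_of_mem_low E x.2⟩ :=
  Subtype.ext (nodesInstIncl_coe M q x)

/-- `w_q (incl x) = x(Q^q)` as series. -/
theorem nodesInst_w_coe (x : modularFunctionFieldFullC E M) :
    ((atkinLehner E ιC hq hqM (nodesInstIncl E M q x) : modularFunctionFieldFullC E (M * q)) :
      LaurentSeries E) = qExpand E q (x : LaurentSeries E) := by
  rw [nodesInstIncl_eq_mk]
  exact atkinLehner_of_mem_low E ιC hq hqM x.2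

/-- `w_q (incl x)` lies in the Gauss ring if `x` does. -/
theorem nodesInst_w_mem (x : modularFunctionFieldFullC E M)
    (hx : (x : LaurentSeries E) ∈ gaussRing (algebraMap A E) r) :
    ((atkinLehner E ιC hq hqM (nodesInstIncl E M q x) : modularFunctionFieldFullC E (M * q)) :
      LaurentSeries E) ∈ gaussRing (algebraMap A E) r := by
  rw [nodesInst_w_coe]
  exact nodesFrob_qExpand_mem r q hx

/-- The reduction of `w_q (incl x)` is `x̄(Q^q)`. -/
theorem nodesInst_w_red (x : modularFunctionFieldFullC E M)
    (hx : (x : LaurentSeries E) ∈ gaussRing (algebraMap A E) r)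
    (h : ((atkinLehner E ιC hq hqM (nodesInstIncl E M q x) : modularFunctionFieldFullC E (M * q)) :
      LaurentSeries E) ∈ gaussRing (algebraMap A E) r) :
    gaussRed r (IsFractionRing.injective A E) ⟨_, h⟩ =
      qExpand k q (gaussRed r (IsFractionRing.injective A E) ⟨_, hx⟩) := by
  rw [← nodesFrob_gaussRed_qExpand r q ⟨_, hx⟩]
  congr 1
  exact Subtype.ext (nodesInst_w_coe M q ιC hq hqM x)

/-- **hFr**: `ρ₀ ∘ φ = Fr ∘ ρ ∘ φ` with `Fr = (Q ↦ Q ^ q)`. -/
theorem nodesInst_hFr
    (ρ₀ : integralClosure (Algebra.adjoin A {nodesInstIncl E M q t})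
      (modularFunctionFieldFullC E (M * q)) →+* LaurentSeries k)
    (hρ₀ : ∀ (b : integralClosure (Algebra.adjoin A {nodesInstIncl E M q t})
        (modularFunctionFieldFullC E (M * q)))
      (hb : ((atkinLehner E ιC hq hqM (b : modularFunctionFieldFullC E (M * q)) :
        modularFunctionFieldFullC E (M * q)) : LaurentSeries E) ∈ gaussRing (algebraMap A E) r),
      ρ₀ b = gaussRed r (IsFractionRing.injective A E) ⟨_, hb⟩)
    (c : integralClosure (Algebra.adjoin A {t}) (modularFunctionFieldFullC E M)) :
    ρ₀ (nodesPhi A M q t c) =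
      qExpand k q (nodesFrobChartRed r hπ0 hπ hr hrπ (nodesFrob_full_le (M * q))
        (nodesInstIncl E M q t) (nodesInst_ht' r M q t ht) (nodesPhi A M q t c)) := by
  have hcG := nodesFrob_G1_id r hπ0 hπ hr hrπ (nodesFrob_full_le M) t ht c.2
  rw [nodesInst_rho_phi r hπ0 hπ hr hrπ M q t ht c hcG,
    hρ₀ (nodesPhi A M q t c) (nodesInst_w_mem r M q ιC hq hqM c.1 hcG)]
  exact nodesInst_w_red r M q ιC hq hqM c.1 hcG _

end Frob

section Int

variable {A E k : Type*} [CommRing A] [IsDomain A] [WfDvdMonoid A] [Field E] [Algebra A E]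
  [IsFractionRing A E] [Field k] (r : A →+* k) {π : A}
  (hπ0 : π ≠ 0) (hπ : ¬ IsUnit π) (hr : ∀ a, r a = 0 → π ∣ a) (hrπ : r π = 0)
  (M q : ℕ) [NeZero q] [NeZero M] [NeZero (M * q)]
  [Algebra A (modularFunctionFieldFullC E M)]
  [IsScalarTower A E (modularFunctionFieldFullC E M)]
  [Algebra A (modularFunctionFieldFullC E (M * q))]
  [IsScalarTower A E (modularFunctionFieldFullC E (M * q))]
  (t : modularFunctionFieldFullC E M)

variable (A) in
/-- The coordinate `t` as an element of its chart. -/
def nodesInstCoord : integralClosure (Algebra.adjoin A {t}) (modularFunctionFieldFullC E M) :=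
  ⟨t, (isIntegral_algebraMap (R := Algebra.adjoin A {t})
    (x := (⟨t, Algebra.subset_adjoin (Set.mem_singleton t)⟩ : Algebra.adjoin A {t})))⟩

theorem nodesInstCoord_coe :
    ((nodesInstCoord A M t : integralClosure (Algebra.adjoin A {t})
      (modularFunctionFieldFullC E M)) : modularFunctionFieldFullC E M) = t := rfl

/-- **hφ**: the chart map is integral. -/
theorem nodesPhi_isIntegral : (nodesPhi A M q t).IsIntegral := by
  intro b
  obtain ⟨p, hp, hpb⟩ := b.2
  let g : Algebra.adjoin A {nodesInstIncl E M q t} →+*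
      integralClosure (Algebra.adjoin A {t}) (modularFunctionFieldFullC E M) :=
    (algebraMap (Algebra.adjoin A {t})
      (integralClosure (Algebra.adjoin A {t}) (modularFunctionFieldFullC E M))).comp
        (nodesInstTheta (A := A) M q t)
  refine ⟨p.map g, hp.map g, ?_⟩
  rw [Polynomial.eval₂_map]
  apply Subtype.val_injective
  have h1 := Polynomial.hom_eval₂ p ((nodesPhi A M q t).comp g)
    (integralClosure (Algebra.adjoin A {nodesInstIncl E M q t})
      (modularFunctionFieldFullC E (M * q))).val.toRingHom b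
  have h2 : ((integralClosure (Algebra.adjoin A {nodesInstIncl E M q t})
      (modularFunctionFieldFullC E (M * q))).val.toRingHom).comp ((nodesPhi A M q t).comp g) =
      algebraMap (Algebra.adjoin A {nodesInstIncl E M q t})
        (modularFunctionFieldFullC E (M * q)) := by
    refine RingHom.ext fun y => ?_
    exact nodesInstTheta_spec M q t y
  rw [h2] at h1
  refine Eq.trans h1 ?_
  exact hpb

end Int

section Final

variable {A E k : Type*} [CommRing A] [IsDomain A] [WfDvdMonoid A] [Field E] [Algebra A E]
  [IsFractionRing A E] [Field k] (r : A →+* k) {π : A}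
  (hπ0 : π ≠ 0) (hπ : ¬ IsUnit π) (hr : ∀ a, r a = 0 → π ∣ a) (hrπ : r π = 0)
  (M q : ℕ) [NeZero q] [NeZero M] [NeZero (M * q)]
  [Algebra A (modularFunctionFieldFullC E M)]
  [IsScalarTower A E (modularFunctionFieldFullC E M)]
  [Algebra A (modularFunctionFieldFullC E (M * q))]
  [IsScalarTower A E (modularFunctionFieldFullC E (M * q))]
  (t : modularFunctionFieldFullC E M)
  (ht : (t : LaurentSeries E) ∈ gaussRing (algebraMap A E) r)
  (ιC : E →+* ℂ) (hq : q.Prime) (hqM : ¬ q ∣ M)

/-- `ρ (φ t) = t̄`. -/
theorem nodesInst_rho_phi_coord :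
    nodesFrobChartRed r hπ0 hπ hr hrπ (nodesFrob_full_le (M * q)) (nodesInstIncl E M q t)
        (nodesInst_ht' r M q t ht) (nodesPhi A M q t (nodesInstCoord A M t)) =
      gaussRed r (IsFractionRing.injective A E) ⟨_, ht⟩ :=
  nodesInst_rho_phi r hπ0 hπ hr hrπ M q t ht (nodesInstCoord A M t) ht

/-- **`NodesHomData` for the modular charts**, generic in the coordinate `t : F_M` and in `ρ₀`
(any ring homomorphism computing the reduction of `w_q b`). -/
theorem nodesInst_homData [CharZero E]
    (htr : Transcendental k (gaussRed r (IsFractionRing.injective A E) ⟨_, ht⟩))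
    (hprime : Prime (algebraMap A
      (integralClosure (Algebra.adjoin A {t}) (modularFunctionFieldFullC E M)) π))
    (halg : ∀ x : modularFunctionFieldFullC E M, IsAlgebraic (Algebra.adjoin A {t}) x)
    (ρ₀ : integralClosure (Algebra.adjoin A {nodesInstIncl E M q t})
      (modularFunctionFieldFullC E (M * q)) →+* LaurentSeries k)
    (hρ₀ : ∀ (b : integralClosure (Algebra.adjoin A {nodesInstIncl E M q t})
        (modularFunctionFieldFullC E (M * q)))
      (hb : ((atkinLehner E ιC hq hqM (b : modularFunctionFieldFullC E (M * q)) :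
        modularFunctionFieldFullC E (M * q)) : LaurentSeries E) ∈ gaussRing (algebraMap A E) r),
      ρ₀ b = gaussRed r (IsFractionRing.injective A E) ⟨_, hb⟩)
    (b₁ : integralClosure (Algebra.adjoin A {nodesInstIncl E M q t})
      (modularFunctionFieldFullC E (M * q)))
    (hb₁ : nodesFrobChartRed r hπ0 hπ hr hrπ (nodesFrob_full_le (M * q))
        (nodesInstIncl E M q t) (nodesInst_ht' r M q t ht) b₁ =
      ρ₀ (nodesPhi A M q t (nodesInstCoord A M t)))
    (hb₁' : ρ₀ b₁ = nodesFrobChartRed r hπ0 hπ hr hrπ (nodesFrob_full_le (M * q))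
        (nodesInstIncl E M q t) (nodesInst_ht' r M q t ht)
          (nodesPhi A M q t (nodesInstCoord A M t)))
    (hT : qExpand k q (gaussRed r (IsFractionRing.injective A E) ⟨_, ht⟩) =
      gaussRed r (IsFractionRing.injective A E) ⟨_, ht⟩ ^ q)
    (hne : (gaussRed r (IsFractionRing.injective A E) ⟨_, ht⟩ ^ q) ^ q ≠
      gaussRed r (IsFractionRing.injective A E) ⟨_, ht⟩)
    (hG4 : ∀ a : Fin q → LaurentSeries k,
      ∑ i, qExpand k q (a i) * gaussRed r (IsFractionRing.injective A E) ⟨_, ht⟩ ^ (i : ℕ) = 0 →
        ∀ i, a i = 0) :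
    NodesHomData (nodesPhi A M q t)
      (algebraMap A (integralClosure (Algebra.adjoin A {t}) (modularFunctionFieldFullC E M)) π)
      (nodesFrobChartRed r hπ0 hπ hr hrπ (nodesFrob_full_le (M * q))
        (nodesInstIncl E M q t) (nodesInst_ht' r M q t ht)) ρ₀ q := by
  have hT' := nodesInst_rho_phi_coord r hπ0 hπ hr hrπ M q t ht
  refine nodesHomData_of_frobenius
    (nodesInst_ker_sub r hπ0 hπ hr hrπ M q t ht htr hprime)
    (nodesInst_tf r hπ0 hπ hr hrπ M q t ht hprime)
    (nodesInst_rank r hπ0 hπ hr hrπ M q t ht hq hqM htr hprime halg)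
    (qExpand k q)
    (nodesInst_hFr r hπ0 hπ hr hrπ M q t ht ιC hq hqM ρ₀ hρ₀)
    (nodesInstCoord A M t) b₁ hb₁ hb₁' ?_ ?_ ?_
  · rw [hT']; exact hT
  · rw [hT']; exact hne
  · rw [hT']; exact hG4

/-- The same with the swap hypothesis of `nodes_chart_hom`. -/
theorem nodesInst_homData_of_swap [CharZero E]
    (htr : Transcendental k (gaussRed r (IsFractionRing.injective A E) ⟨_, ht⟩))
    (hprime : Prime (algebraMap A
      (integralClosure (Algebra.adjoin A {t}) (modularFunctionFieldFullC E M)) π))
    (halg : ∀ x : modularFunctionFieldFullC E M, IsAlgebraic (Algebra.adjoin A {t}) x)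
    (ρ₀ : integralClosure (Algebra.adjoin A {nodesInstIncl E M q t})
      (modularFunctionFieldFullC E (M * q)) →+* LaurentSeries k)
    (hρ₀ : ∀ (b : integralClosure (Algebra.adjoin A {nodesInstIncl E M q t})
        (modularFunctionFieldFullC E (M * q)))
      (hb : ((atkinLehner E ιC hq hqM (b : modularFunctionFieldFullC E (M * q)) :
        modularFunctionFieldFullC E (M * q)) : LaurentSeries E) ∈ gaussRing (algebraMap A E) r),
      ρ₀ b = gaussRed r (IsFractionRing.injective A E) ⟨_, hb⟩)
    (swap : ∀ b : integralClosure (Algebra.adjoin A {nodesInstIncl E M q t})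
        (modularFunctionFieldFullC E (M * q)),
      ∃ b' : integralClosure (Algebra.adjoin A {nodesInstIncl E M q t})
        (modularFunctionFieldFullC E (M * q)),
        nodesFrobChartRed r hπ0 hπ hr hrπ (nodesFrob_full_le (M * q))
          (nodesInstIncl E M q t) (nodesInst_ht' r M q t ht) b' = ρ₀ b ∧
        ρ₀ b' = nodesFrobChartRed r hπ0 hπ hr hrπ (nodesFrob_full_le (M * q))
          (nodesInstIncl E M q t) (nodesInst_ht' r M q t ht) b)
    (hT : qExpand k q (gaussRed r (IsFractionRing.injective A E) ⟨_, ht⟩) =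
      gaussRed r (IsFractionRing.injective A E) ⟨_, ht⟩ ^ q)
    (hne : (gaussRed r (IsFractionRing.injective A E) ⟨_, ht⟩ ^ q) ^ q ≠
      gaussRed r (IsFractionRing.injective A E) ⟨_, ht⟩)
    (hG4 : ∀ a : Fin q → LaurentSeries k,
      ∑ i, qExpand k q (a i) * gaussRed r (IsFractionRing.injective A E) ⟨_, ht⟩ ^ (i : ℕ) = 0 →
        ∀ i, a i = 0) :
    NodesHomData (nodesPhi A M q t)
      (algebraMap A (integralClosure (Algebra.adjoin A {t}) (modularFunctionFieldFullC E M)) π)
      (nodesFrobChartRed r hπ0 hπ hr hrπ (nodesFrob_full_le (M * q))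
        (nodesInstIncl E M q t) (nodesInst_ht' r M q t ht)) ρ₀ q := by
  obtain ⟨b₁, hb₁, hb₁'⟩ := swap (nodesPhi A M q t (nodesInstCoord A M t))
  exact nodesInst_homData r hπ0 hπ hr hrπ M q t ht ιC hq hqM htr hprime halg ρ₀ hρ₀ b₁ hb₁ hb₁'
    hT hne hG4

/-- The instance `ρ₀ = nodesSwapRho₀` of the hypothesis `hρ₀` (for any proof `hwt`). -/
theorem nodesInst_hρ₀_swap
    (hwt : (((atkinLehner E ιC hq hqM).toAlgHom (nodesInstIncl E M q t) :
      modularFunctionFieldFullC E (M * q)) : LaurentSeries E) ∈ gaussRing (algebraMap A E) r)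
    (b : integralClosure (Algebra.adjoin A {nodesInstIncl E M q t})
        (modularFunctionFieldFullC E (M * q)))
    (hb : ((atkinLehner E ιC hq hqM (b : modularFunctionFieldFullC E (M * q)) :
      modularFunctionFieldFullC E (M * q)) : LaurentSeries E) ∈ gaussRing (algebraMap A E) r) :
    nodesSwapRho₀ r hπ0 hπ hr hrπ (nodesFrob_full_le (M * q))
        (atkinLehner E ιC hq hqM).toAlgHom (nodesInstIncl E M q t) hwt b =
      gaussRed r (IsFractionRing.injective A E) ⟨_, hb⟩ := rfl

end Final

end Fermat.Agent.UNIP
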