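import Fermat.Agent.UNIP.FibreDVR
import Fermat.Agent.INJ.NormalSpec
import Fermat.Agent.INJ.BGRamNF
import Fermat.Agent.INJ.BGFinH
import Fermat.Agent.INJ.GaussHaupt
import Fermat.Agent.INJ.GaussLevel
import Fermat.Agent.INJ.InjH2Aux

/-!
# UNIP piece U5-RegInst: the modular instantiation of NORM (chart `t`)

For `Lf = F_N(K₀) = modularFunctionFieldFullC K₀ N` itself (no Kummer root), `K₀ ⊆ ℚ̄` any
intermediate field, `A₀ ⊆ K₀` a discrete valuation ring with fraction field `K₀`, uniformizer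
`π`, and a residue map `r : A₀ → k` (`ker r ⊆ (π)`, `r π = 0`) to a perfect field of
characteristic `ℓ ∤ N`, and `e` with `e ∈ A₀ˣ`, `μ_e ⊆ A₀`:

* `TSHyp π t` : the hypotheses of the tame specialization theorem (`INJ.TameSpecStmt`), bundled;
  `TSHyp.prime`, `TSHyp.isDomain`, `TSHyp.isIntegrallyClosed`, `TSHyp.locGen` : the consequences
  for the chart `C = integralClosure A₀[t] Lf`:  `π` is prime in `C`, `C / π` is an integrally
  closed domain, and every maximal ideal `𝔫 ∋ π` is locally generated by `π` and one more element.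
* `tsHyp_jline`  (`t = j`,   `Σ = {0, 1728}`, `6 ∣ e`, `N ∣ e`);
* `tsHyp_h2line` (`t = hm2`, `Σ = {0, -64}`, `2 ∣ N ∣ e`);
* `tsHyp_h3line` (`t = hm3`, `Σ = {0, -27}`, `3 ∣ N ∣ e`).
-/

set_option autoImplicit false
set_option linter.style.haveILetI false
set_option linter.unusedSectionVars false
set_option synthInstance.maxHeartbeats 400000
set_option maxHeartbeats 1000000

namespace Fermat.Agent.UNIP.RegInst

open Polynomial AlgebraicCurve IntermediateField Fermat.Agent.S24 ModularCurve Fermat.Agent.INJ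

universe u

section Abstract

variable {A₀ E Lf : Type u} [CommRing A₀] [IsDomain A₀] [IsDiscreteValuationRing A₀]
  [Field E] [Algebra A₀ E] [IsFractionRing A₀ E] [CharZero E]
  [Field Lf] [Algebra E Lf] [Algebra A₀ Lf] [IsScalarTower A₀ E Lf]

/-- The hypotheses of the tame specialization theorem (`INJ.TameSpecStmt`) for the coordinate
`t` of `Lf / E` and the uniformizer `π` of `A₀`, bundled. -/
structure TSHyp (π : A₀) (t : Lf) : Prop where
  irr : Irreducible π
  transc : Transcendental E t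
  fd : FiniteDimensional E⟮t⟯ Lf
  hcl : ∀ x : Lf, IsAlgebraic E x → x ∈ (algebraMap E Lf).range
  good : TSGoodBasis (E := E) π t
  ram : ∃ (S : Finset A₀) (e : ℕ), (∀ c ∈ S, ∀ c' ∈ S, c ≠ c' → ¬ π ∣ c - c') ∧
    TSUnramified (E := E) t S ∧ IsUnit (e : A₀) ∧ (∃ ζ : A₀, IsPrimitiveRoot ζ e) ∧
    TSTame (E := E) t S e
  place : ∃ P₀ : Place E Lf, P₀.ord t = -1

variable {π : A₀} {t : Lf}

/-- (R1) `π` is a prime element of the chart `C = integralClosure A₀[t] Lf`. -/
theorem TSHyp.prime (h : TSHyp (E := E) π t) :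
    Prime (algebraMap A₀ (integralClosure (Algebra.adjoin A₀ {t}) Lf) π) := by
  haveI := h.fd
  obtain ⟨S, e, hS, hb, he, hζ, htame⟩ := h.ram
  exact tameSpecStmt A₀ E Lf π h.irr t h.transc h.hcl h.good S hS hb e he hζ htame h.place

/-- (R1) the special fibre `C / π` of the chart is a domain. -/
theorem TSHyp.isDomain (h : TSHyp (E := E) π t) :
    IsDomain (integralClosure (Algebra.adjoin A₀ {t}) Lf ⧸
      Ideal.span {algebraMap A₀ (integralClosure (Algebra.adjoin A₀ {t}) Lf) π}) := by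
  haveI := h.fd
  obtain ⟨S, e, hS, hb, he, hζ, htame⟩ := h.ram
  exact Norm.tameSpec_isDomain π h.irr t h.transc h.hcl h.good S hS hb e he hζ htame h.place

/-- (R2) the special fibre `C / π` of the chart is integrally closed. -/
theorem TSHyp.isIntegrallyClosed (h : TSHyp (E := E) π t) :
    IsIntegrallyClosed (integralClosure (Algebra.adjoin A₀ {t}) Lf ⧸
      Ideal.span {algebraMap A₀ (integralClosure (Algebra.adjoin A₀ {t}) Lf) π}) := by
  haveI := h.fd
  obtain ⟨S, e, hS, hb, he, hζ, htame⟩ := h.ram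
  exact Norm.tameSpec_isIntegrallyClosed π h.irr t h.transc h.hcl h.good S hS hb e he hζ htame
    h.place

/-- **Reg** (`reg` of `nodes_chart` / `nodes_chart_hom`): every maximal ideal `𝔫 ∋ π` of the
chart is locally generated by `π` and one more element. -/
theorem TSHyp.locGen (h : TSHyp (E := E) π t)
    (𝔫 : Ideal (integralClosure (Algebra.adjoin A₀ {t}) Lf)) (h𝔫 : 𝔫.IsMaximal)
    (hπ𝔫 : algebraMap A₀ (integralClosure (Algebra.adjoin A₀ {t}) Lf) π ∈ 𝔫) :
    ∃ s ∈ 𝔫, ∀ x ∈ 𝔫, ∃ u, u ∉ 𝔫 ∧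
      u * x ∈ Ideal.span {algebraMap A₀ (integralClosure (Algebra.adjoin A₀ {t}) Lf) π, s} := by
  haveI := h.fd
  haveI := h.isDomain
  haveI := h.isIntegrallyClosed
  exact FibreDVR.chart_locGen_of_isIntegrallyClosed (E := E) h.irr h.transc 𝔫 h𝔫 hπ𝔫

end Abstract

section Modular

variable (K₀ : IntermediateField ℚ NfQb) (N : ℕ) [NeZero N]
variable {A₀ : Type} [CommRing A₀] [IsDomain A₀] [IsDiscreteValuationRing A₀] [Algebra A₀ K₀]
  [IsFractionRing A₀ K₀]
  [Algebra A₀ (modularFunctionFieldFullC K₀ N)]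
  [IsScalarTower A₀ K₀ (modularFunctionFieldFullC K₀ N)]
  {k : Type*} [Field k] (r : A₀ →+* k) {π : A₀}

/-- distinctness of `{0, c}` modulo `π` from `r c ≠ 0` -/
theorem regInst_distinct [DecidableEq A₀] (hrπ : r π = 0) (c : A₀) (hc : r c ≠ 0) :
    ∀ a ∈ ({0, c} : Finset A₀), ∀ a' ∈ ({0, c} : Finset A₀), a ≠ a' → ¬ π ∣ a - a' := by
  intro a ha a' ha' hne hdvd
  rw [Finset.mem_insert, Finset.mem_singleton] at ha ha'
  obtain ⟨d, hd⟩ := hdvd
  have h0 : r (a - a') = 0 := by rw [hd, map_mul, hrπ, zero_mul]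
  rcases ha with rfl | rfl <;> rcases ha' with rfl | rfl
  · exact hne rfl
  · rw [zero_sub, map_neg, neg_eq_zero] at h0; exact hc h0
  · rw [sub_zero] at h0; exact hc h0
  · exact hne rfl

/-- a divisor of a unit `e` of `A₀` is nonzero in `k` -/
theorem regInst_natCast_ne_zero (r : A₀ →+* k) {e : ℕ} (he : IsUnit (e : A₀)) {d : ℕ}
    (hd : d ∣ e) :
    (d : k) ≠ 0 := by
  intro h0
  obtain ⟨c, rfl⟩ := hd
  have h1 : IsUnit (r ((d * c : ℕ) : A₀)) := he.map r
  rw [map_natCast, Nat.cast_mul, h0, zero_mul] at h1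
  exact not_isUnit_zero h1

/-- **The `j`-line.**  The hypotheses of the tame specialization theorem for `F_N(K₀)` and
`t = j`, `Σ = {0, 1728}`. -/
theorem tsHyp_jline (hπ : Irreducible π) (hr : ∀ a, r a = 0 → π ∣ a) (hrπ : r π = 0)
    (ℓ : ℕ) [Fact ℓ.Prime] [CharP k ℓ] [PerfectRing k ℓ]
    (e : ℕ) (h6 : 6 ∣ e) (hN : N ∣ e) (he : IsUnit (e : A₀))
    (hζ : ∃ ζ : A₀, IsPrimitiveRoot ζ e) :
    TSHyp (E := K₀) π (bgJ K₀ N) where
  irr := hπ
  transc := bgConst_transcendental_bgJ K₀ N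
  fd := bgFin_finiteDimensional_full K₀ N
  hcl := bgConst_mem_range_of_isAlgebraic (modularFunctionFieldFullC K₀ N)
  good := tsGoodBasis_j (E := K₀) r π hπ.ne_zero hπ.not_isUnit hr hrπ ℓ N
    (regInst_natCast_ne_zero r he hN)
  ram := by
    classical
    letI := bgRam_algebra K₀ N
    haveI := bgRam_tower K₀ N
    haveI := bgRam_isAlgebraic K₀
    have hram := ramB_jline (E := K₀) (Lf := modularFunctionFieldFullC K₀ N)
      (F₀ := modularFunctionFieldFullC K₀ N) N (bgJ K₀ N) (bgRam_nfEmb_bgJ K₀ N)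
      ({0, 1728} : Finset A₀) ?_ ?_ ?_ e h6 hN (fun P => ⟨P, fun y => rfl⟩) (bgRam_hext K₀ N)
    · refine ⟨{0, 1728}, e, regInst_distinct r hrπ 1728 ?_, hram.1, he, hζ, hram.2⟩
      have h2 : ((2 : ℕ) : k) ≠ 0 :=
        regInst_natCast_ne_zero r he ((show 2 ∣ 6 by norm_num).trans h6)
      have h3 : ((3 : ℕ) : k) ≠ 0 :=
        regInst_natCast_ne_zero r he ((show 3 ∣ 6 by norm_num).trans h6)
      rw [map_ofNat, show (1728 : k) = ((2 : ℕ) : k) ^ 6 * ((3 : ℕ) : k) ^ 3 by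
        push_cast; norm_num]
      exact mul_ne_zero (pow_ne_zero _ h2) (pow_ne_zero _ h3)
    · intro c hc
      rw [Finset.mem_insert, Finset.mem_singleton] at hc
      rcases hc with rfl | rfl
      · left; rw [map_zero, map_zero]
      · right; rw [map_ofNat, map_ofNat]
    · exact ⟨0, by simp, by rw [map_zero, map_zero]⟩
    · exact ⟨1728, by simp, by rw [map_ofNat, map_ofNat]⟩
  place := bgConst_exists_place_bgJ K₀ N

/-- **The Hauptmodul line of `X₀(2)`** (for `ℓ = 3`).  The hypotheses of the tame specialization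
theorem for `F_N(K₀)`, `2 ∣ N`, and `t = hm2`, `Σ = {0, -64}`. -/
theorem tsHyp_h2line (h2 : 2 ∣ N) (hπ : Irreducible π) (hr : ∀ a, r a = 0 → π ∣ a)
    (hrπ : r π = 0) (ℓ : ℕ) [Fact ℓ.Prime] [CharP k ℓ] [PerfectRing k ℓ]
    (e : ℕ) (hN : N ∣ e) (he : IsUnit (e : A₀))
    (hζ : ∃ ζ : A₀, IsPrimitiveRoot ζ e) :
    TSHyp (E := K₀) π (bgH2 K₀ N h2) where
  irr := hπ
  transc := bgConst_transcendental _ (bgH2 K₀ N h2) (by
    show (hm2 K₀).order ≠ 0
    rw [injH_order_hm2]; norm_num)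
  fd := bgFinH_finiteDimensional_full_hm2 K₀ N (bgH2 K₀ N h2) rfl
  hcl := bgConst_mem_range_of_isAlgebraic (modularFunctionFieldFullC K₀ N)
  good := tsGoodBasis_hm2 (E := K₀) r π hπ.ne_zero hπ.not_isUnit hr hrπ ℓ h2
    (Nat.cast_ne_zero.mpr (NeZero.ne N)) (regInst_natCast_ne_zero r he hN)
  ram := by
    classical
    letI := bgRam_algebra K₀ N
    haveI := bgRam_tower K₀ N
    haveI := bgRam_isAlgebraic K₀
    have hram := ramB_h2line (E := K₀) (Lf := modularFunctionFieldFullC K₀ N)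
      (F₀ := modularFunctionFieldFullC K₀ N) N h2 (bgH2 K₀ N h2) (bgRam_nfEmb_bgH2 K₀ N h2)
      ({0, -64} : Finset A₀) ?_ ?_ ?_ e hN (fun P => ⟨P, fun y => rfl⟩) (bgRam_hext K₀ N)
    · refine ⟨{0, -64}, e, regInst_distinct r hrπ (-64) ?_, hram.1, he, hζ, hram.2⟩
      have h2k : ((2 : ℕ) : k) ≠ 0 := regInst_natCast_ne_zero r he (h2.trans hN)
      rw [map_neg, map_ofNat, neg_ne_zero, show (64 : k) = ((2 : ℕ) : k) ^ 6 by
        push_cast; norm_num]
      exact pow_ne_zero _ h2k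
    · intro c hc
      rw [Finset.mem_insert, Finset.mem_singleton] at hc
      rcases hc with rfl | rfl
      · left; rw [map_zero, map_zero]
      · right; rw [map_neg, map_ofNat, map_neg, map_ofNat]
    · exact ⟨0, by simp, by rw [map_zero, map_zero]⟩
    · exact ⟨-64, by simp, by rw [map_neg, map_ofNat, map_neg, map_ofNat]⟩
  place := by
    obtain ⟨P₀, -, h, -⟩ := bgConst_exists_place _ (bgH2 K₀ N h2) (injH_order_hm2 K₀)
    exact ⟨P₀, h⟩

/-- **The Hauptmodul line of `X₀(3)`** (for `ℓ = 2`).  The hypotheses of the tame specialization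
theorem for `F_N(K₀)`, `3 ∣ N`, and `t = hm3`, `Σ = {0, -27}`. -/
theorem tsHyp_h3line (h3 : 3 ∣ N) (hπ : Irreducible π) (hr : ∀ a, r a = 0 → π ∣ a)
    (hrπ : r π = 0) (ℓ : ℕ) [Fact ℓ.Prime] [CharP k ℓ] [PerfectRing k ℓ]
    (e : ℕ) (hN : N ∣ e) (he : IsUnit (e : A₀))
    (hζ : ∃ ζ : A₀, IsPrimitiveRoot ζ e) :
    TSHyp (E := K₀) π (bgH3 K₀ N h3) where
  irr := hπ
  transc := bgConst_transcendental _ (bgH3 K₀ N h3) (by
    show (hm3 K₀).order ≠ 0
    rw [injH_order_hm3]; norm_num)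
  fd := bgFinH_finiteDimensional_full_hm3 K₀ N (bgH3 K₀ N h3) rfl
  hcl := bgConst_mem_range_of_isAlgebraic (modularFunctionFieldFullC K₀ N)
  good := tsGoodBasis_hm3 (E := K₀) r π hπ.ne_zero hπ.not_isUnit hr hrπ ℓ h3
    (Nat.cast_ne_zero.mpr (NeZero.ne N)) (regInst_natCast_ne_zero r he hN)
  ram := by
    classical
    letI := bgRam_algebra K₀ N
    haveI := bgRam_tower K₀ N
    haveI := bgRam_isAlgebraic K₀
    have hram := ramB_h3line (E := K₀) (Lf := modularFunctionFieldFullC K₀ N)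
      (F₀ := modularFunctionFieldFullC K₀ N) N h3 (bgH3 K₀ N h3) (bgRam_nfEmb_bgH3 K₀ N h3)
      ({0, -27} : Finset A₀) ?_ ?_ ?_ e hN (fun P => ⟨P, fun y => rfl⟩) (bgRam_hext K₀ N)
    · refine ⟨{0, -27}, e, regInst_distinct r hrπ (-27) ?_, hram.1, he, hζ, hram.2⟩
      have h3k : ((3 : ℕ) : k) ≠ 0 := regInst_natCast_ne_zero r he (h3.trans hN)
      rw [map_neg, map_ofNat, neg_ne_zero, show (27 : k) = ((3 : ℕ) : k) ^ 3 by
        push_cast; norm_num]
      exact pow_ne_zero _ h3k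
    · intro c hc
      rw [Finset.mem_insert, Finset.mem_singleton] at hc
      rcases hc with rfl | rfl
      · left; rw [map_zero, map_zero]
      · right; rw [map_neg, map_ofNat, map_neg, map_ofNat]
    · exact ⟨0, by simp, by rw [map_zero, map_zero]⟩
    · exact ⟨-27, by simp, by rw [map_neg, map_ofNat, map_neg, map_ofNat]⟩
  place := by
    obtain ⟨P₀, -, h, -⟩ := bgConst_exists_place _ (bgH3 K₀ N h3) (injH_order_hm3 K₀)
    exact ⟨P₀, h⟩

end Modular

end Fermat.Agent.UNIP.RegInst
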