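/-
UNIP (item 34, S34/S35), piece "RegTransfer" of U5, part 2 (helper20): gluing charts.

`A₀` a discrete valuation ring, uniformizer `π`, `E = Frac A₀`, `Lf / E` a field, charts
`C_x = integralClosure (adjoin A₀ {x}) Lf` for transcendental `x`.

* `regT_sat` : `C_x` is saturated in `C_x[1/f]` for divisibility by `π`, `f = F(x)`, `π ∤ F`;
* `regT_not_dvd` : `π ∤ F(x)` in `C_x` if `π ∤ F` in `A₀[X]`;
* `regT_overlap_normalAt`, `regT_overlap_dvd_or_dvd` : transfer of normality / primeness of the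
  special fibre through an overlap `C_{x₁}[1/F₁(x₁)] = C_{x₂}[1/F₂(x₂)]`, `F₁(x₁) F₂(x₂) = 1`
  (instances of `INJ.Norm.normalAt_of_normal_overlap`, `dvd_or_dvd_of_prime_overlap`);
* `regT_glue` : for `v = (t + c)⁻¹`, `c ∈ A₀`: `π` is prime in `C_v` and `C_v / π` is normal as soon
  as this holds on the two charts `C_t`, `C_{t⁻¹}`
  (`Spec C_v = D(v) ∪ D(1 - c v)`, `C_v[1/v] = C_t[1/(t+c)]`, `C_v[1/(1-cv)] = C_{t⁻¹}[1/(1+c t⁻¹)]`).
-/
import Fermat.Agent.INJ.NormalOverlap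
import Fermat.Agent.INJ.NormalDefs
import Fermat.Agent.INJ.TSGlue
import Fermat.Agent.UNIP.RegTransferLoc

set_option autoImplicit false
set_option linter.unusedSectionVars false
set_option linter.unusedVariables false
set_option linter.style.haveILetI false
set_option linter.style.longLine false

namespace Fermat.Agent.UNIP

open Polynomial IntermediateField Fermat.Agent.INJ Fermat.Agent.INJ.Norm

universe u

section Glue

variable {A₀ E Lf : Type u} [CommRing A₀] [IsDomain A₀] [IsDiscreteValuationRing A₀]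
  [Field E] [Algebra A₀ E] [IsFractionRing A₀ E] [CharZero E]
  [Field Lf] [Algebra E Lf] [Algebra A₀ Lf] [IsScalarTower A₀ E Lf]
  {π : A₀}

/-- `π ∤ F(x)` in `A₀[x]` if `π ∤ F` in `A₀[X]` -/
theorem regT_not_dvd_chartEquiv {x : Lf} (hx : Transcendental E x) (F : A₀[X])
    (hF : ¬ C π ∣ F) :
    ¬ algebraMap A₀ (Algebra.adjoin A₀ {x}) π ∣ chartEquiv hx F := by
  intro h
  rw [← chartEquiv_C hx] at h
  obtain ⟨d, hd⟩ := h
  apply hF
  refine ⟨(chartEquiv hx).symm d, ?_⟩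
  apply (chartEquiv hx).injective
  rw [hd, map_mul, AlgEquiv.apply_symm_apply]

theorem regT_not_dvd_chartEquiv_pow (hπ : Irreducible π) {x : Lf} (hx : Transcendental E x)
    (F : A₀[X]) (hF : ¬ C π ∣ F) (k : ℕ) :
    ¬ algebraMap A₀ (Algebra.adjoin A₀ {x}) π ∣ (chartEquiv hx F) ^ k :=
  fun h => regT_not_dvd_chartEquiv hx F hF ((chart_prime hx hπ).dvd_of_dvd_pow h)

theorem regT_aeval_mem (x : Lf) (F : A₀[X]) : aeval x F ∈ Algebra.adjoin A₀ ({x} : Set Lf) := by
  rw [Algebra.adjoin_singleton_eq_range_aeval]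
  exact ⟨F, rfl⟩

/-- **Saturation.**  `z ∈ C_x`, `z = π y` with `y ∈ C_x[1/f]`, `f = F(x)`, `π ∤ F`: then
`y ∈ C_x`. -/
theorem regT_sat (hπ : Irreducible π) {x : Lf} (hx : Transcendental E x) (F : A₀[X])
    (hF : ¬ C π ∣ F) {g : Lf} (hfg : aeval x F * g = 1) {z y : Lf}
    (hz : IsIntegral (Algebra.adjoin A₀ {x}) z)
    (hy : IsIntegral (Algebra.adjoin A₀ {x, g}) y) (hzy : z = algebraMap A₀ Lf π * y) :
    IsIntegral (Algebra.adjoin A₀ {x}) y := by
  obtain ⟨k, hk⟩ := regT_exists_pow_mul_isIntegral hfg (regT_aeval_mem x F) hy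
  haveI := chart_isIntegrallyClosed (A₀ := A₀) (E := E) hx
  have hπR := chart_prime hx hπ
  have hf := regT_not_dvd_chartEquiv_pow hπ hx F hF k
  have hinj := zch_algebraMap_injective (A₀ := A₀) (E := E) (L := Lf)
  have hπ0 : algebraMap A₀ Lf π ≠ 0 := (map_ne_zero_iff _ hinj).mpr hπ.ne_zero
  have h' : ((chartEquiv hx F) ^ k) • z
      = (algebraMap A₀ (Algebra.adjoin A₀ {x}) π) • (aeval x F ^ k * y) := by
    rw [Algebra.smul_def, Algebra.smul_def]
    have e1 : algebraMap (Algebra.adjoin A₀ {x}) Lf ((chartEquiv hx F) ^ k)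
        = aeval x F ^ k := by
      rw [map_pow]
      congr 1
    have e2 : algebraMap (Algebra.adjoin A₀ {x}) Lf (algebraMap A₀ (Algebra.adjoin A₀ {x}) π)
        = algebraMap A₀ Lf π := rfl
    rw [e1, e2, hzy]
    ring
  obtain ⟨w, hw, hzw⟩ := exists_isIntegral_smul_eq hπR hf hz hk h'
  have hwy : w = y := by
    have e2 : algebraMap (Algebra.adjoin A₀ {x}) Lf (algebraMap A₀ (Algebra.adjoin A₀ {x}) π)
        = algebraMap A₀ Lf π := rfl
    rw [Algebra.smul_def, e2, hzy] at hzw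
    exact (mul_left_cancel₀ hπ0 hzw).symm
  rw [← hwy]
  exact hw

/-- `π ∤ F(x)` in the chart `C_x` if `π ∤ F` in `A₀[X]` -/
theorem regT_not_dvd (hπ : Irreducible π) {x : Lf} (hx : Transcendental E x) (F : A₀[X])
    (hF : ¬ C π ∣ F) :
    ¬ ∃ c : Lf, IsIntegral (Algebra.adjoin A₀ ({x} : Set Lf)) c ∧
      aeval x F = algebraMap A₀ Lf π * c := by
  rintro ⟨c, hc, h⟩
  haveI := chart_isIntegrallyClosed (A₀ := A₀) (E := E) hx
  have hπR := chart_prime hx hπ
  have hf := regT_not_dvd_chartEquiv hx F hF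
  have h' : (chartEquiv hx F) • (1 : Lf)
      = (algebraMap A₀ (Algebra.adjoin A₀ {x}) π) • c := by
    rw [Algebra.smul_def, Algebra.smul_def, mul_one]
    exact h
  obtain ⟨w, hw, h1⟩ := exists_isIntegral_smul_eq hπR hf isIntegral_one hc h'
  apply tsg_not_isUnit (A₀ := A₀) (E := E) hx hπ
  refine isUnit_iff_exists_inv.mpr ⟨⟨w, hw⟩, ?_⟩
  apply Subtype.ext
  rw [Algebra.smul_def] at h1
  exact h1.symm

/-- the element `F(x)` of the chart `C_x` -/
noncomputable def regTElt (x : Lf) (F : A₀[X]) :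
    integralClosure (Algebra.adjoin A₀ ({x} : Set Lf)) Lf :=
  ⟨aeval x F, isIntegral_algebraMap (R := Algebra.adjoin A₀ ({x} : Set Lf))
    (x := ⟨aeval x F, regT_aeval_mem x F⟩)⟩

theorem regTElt_coe (x : Lf) (F : A₀[X]) : ((regTElt x F : _) : Lf) = aeval x F := rfl

theorem regT_tsgIncl_algebraMap {R R' : Subalgebra A₀ Lf} (h : R ≤ R') (a : A₀) :
    tsgIncl h (algebraMap A₀ (integralClosure R Lf) a) = algebraMap A₀ (integralClosure R' Lf) a :=
  Subtype.ext rfl

theorem regT_coe_pow_mul {R : Subalgebra A₀ Lf} (a b : integralClosure R Lf) (k : ℕ) :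
    ((a ^ k * b : integralClosure R Lf) : Lf) = (a : Lf) ^ k * (b : Lf) := by
  rw [MulMemClass.coe_mul, SubmonoidClass.coe_pow]

section Overlap

variable {x₁ x₂ : Lf} (F₁ F₂ : A₀[X])

theorem regT_adjoin_pair_le_left
    (hx₂mem : x₂ ∈ Algebra.adjoin A₀ ({x₁, aeval x₂ F₂} : Set Lf)) :
    Algebra.adjoin A₀ ({x₁, x₂} : Set Lf) ≤ Algebra.adjoin A₀ ({x₁, aeval x₂ F₂} : Set Lf) := by
  rw [Algebra.adjoin_le_iff]
  rintro w hw
  rcases hw with rfl | hw
  · exact Algebra.subset_adjoin (Set.mem_insert _ _)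
  · rw [Set.mem_singleton_iff] at hw
    rw [hw]
    exact hx₂mem

theorem regT_adjoin_pair_le_right
    (hx₁mem : x₁ ∈ Algebra.adjoin A₀ ({x₂, aeval x₁ F₁} : Set Lf)) :
    Algebra.adjoin A₀ ({x₁, x₂} : Set Lf) ≤ Algebra.adjoin A₀ ({x₂, aeval x₁ F₁} : Set Lf) := by
  rw [Algebra.adjoin_le_iff]
  rintro w hw
  rcases hw with rfl | hw
  · exact hx₁mem
  · rw [Set.mem_singleton_iff] at hw
    rw [hw]
    exact Algebra.subset_adjoin (Set.mem_insert _ _)

theorem regT_adjoin_le_pair_left :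
    Algebra.adjoin A₀ ({x₁} : Set Lf) ≤ Algebra.adjoin A₀ ({x₁, x₂} : Set Lf) :=
  Algebra.adjoin_mono (by
    intro w hw
    rw [Set.mem_singleton_iff] at hw
    rw [hw]
    exact Set.mem_insert _ _)

theorem regT_adjoin_le_pair_right :
    Algebra.adjoin A₀ ({x₂} : Set Lf) ≤ Algebra.adjoin A₀ ({x₁, x₂} : Set Lf) :=
  Algebra.adjoin_mono (by
    intro w hw
    rw [Set.mem_singleton_iff] at hw
    rw [hw]
    exact Set.mem_insert_of_mem _ (Set.mem_singleton _))

/-- localisation property of one side of an overlap -/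
theorem regT_overlap_loc {x y : Lf} (F : A₀[X]) {g : Lf} (hfg : aeval x F * g = 1)
    {R' : Subalgebra A₀ Lf} (h₁ : Algebra.adjoin A₀ ({x} : Set Lf) ≤ R')
    (h₂ : R' ≤ Algebra.adjoin A₀ ({x, g} : Set Lf))
    (b : integralClosure R' Lf) :
    ∃ (k : ℕ) (c : integralClosure (Algebra.adjoin A₀ ({x} : Set Lf)) Lf),
      tsgIncl h₁ c = tsgIncl h₁ (regTElt x F) ^ k * b := by
  obtain ⟨k, hk⟩ := regT_exists_pow_mul_isIntegral hfg (regT_aeval_mem x F)
    (regT_isIntegral_mono h₂ b.2)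
  refine ⟨k, ⟨_, hk⟩, ?_⟩
  apply Subtype.ext
  rw [regT_coe_pow_mul, tsgIncl_coe, tsgIncl_coe, regTElt_coe]

/-- saturation property of one side of an overlap -/
theorem regT_overlap_sat (hπ : Irreducible π) {x : Lf} (hx : Transcendental E x) (F : A₀[X])
    (hF : ¬ C π ∣ F) {g : Lf} (hfg : aeval x F * g = 1)
    {R' : Subalgebra A₀ Lf} (h₁ : Algebra.adjoin A₀ ({x} : Set Lf) ≤ R')
    (h₂ : R' ≤ Algebra.adjoin A₀ ({x, g} : Set Lf))
    (z : integralClosure (Algebra.adjoin A₀ ({x} : Set Lf)) Lf)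
    (h : tsgIncl h₁ (algebraMap A₀ (integralClosure (Algebra.adjoin A₀ ({x} : Set Lf)) Lf) π) ∣
      tsgIncl h₁ z) :
    algebraMap A₀ (integralClosure (Algebra.adjoin A₀ ({x} : Set Lf)) Lf) π ∣ z := by
  obtain ⟨d, hd⟩ := h
  have hd' : (z : Lf) = algebraMap A₀ Lf π * (d : Lf) := by
    have := congrArg Subtype.val hd
    rw [MulMemClass.coe_mul, tsgIncl_coe, tsgIncl_coe] at this
    exact this
  rw [regT_dvd_iff]
  exact ⟨(d : Lf), regT_sat hπ hx F hF hfg z.2 (regT_isIntegral_mono h₂ d.2) hd', hd'⟩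

variable {F₁ F₂}

/-- **Transfer of normality through an overlap of two charts.** -/
theorem regT_overlap_normalAt (hπ : Irreducible π)
    (hx₁ : Transcendental E x₁) (hx₂ : Transcendental E x₂)
    (hF₁ : ¬ C π ∣ F₁) (hF₂ : ¬ C π ∣ F₂)
    (h12 : aeval x₁ F₁ * aeval x₂ F₂ = 1)
    (hx₂mem : x₂ ∈ Algebra.adjoin A₀ ({x₁, aeval x₂ F₂} : Set Lf))
    (hx₁mem : x₁ ∈ Algebra.adjoin A₀ ({x₂, aeval x₁ F₁} : Set Lf))
    (hN : Normal (integralClosure (Algebra.adjoin A₀ ({x₁} : Set Lf)) Lf)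
      (algebraMap A₀ (integralClosure (Algebra.adjoin A₀ ({x₁} : Set Lf)) Lf) π))
    (m : Ideal (integralClosure (Algebra.adjoin A₀ ({x₂} : Set Lf)) Lf)) [m.IsPrime]
    (hσ : regTElt x₂ F₂ ∉ m) :
    NormalAt (integralClosure (Algebra.adjoin A₀ ({x₂} : Set Lf)) Lf)
      (algebraMap A₀ (integralClosure (Algebra.adjoin A₀ ({x₂} : Set Lf)) Lf) π) m := by
  have h21 : aeval x₂ F₂ * aeval x₁ F₁ = 1 := by rw [mul_comm]; exact h12
  refine normalAt_of_normal_overlap
    (tsgIncl (regT_adjoin_le_pair_left (x₁ := x₁) (x₂ := x₂)))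
    (tsgIncl (regT_adjoin_le_pair_right (x₁ := x₁) (x₂ := x₂)))
    _ _ ?_ (regTElt x₁ F₁) (regTElt x₂ F₂) ?_ ?_ ?_ ?_ ?_ hN m hσ
  · rw [regT_tsgIncl_algebraMap, regT_tsgIncl_algebraMap]
  · apply Subtype.ext
    rw [MulMemClass.coe_mul, tsgIncl_coe, tsgIncl_coe, regTElt_coe, regTElt_coe, h12]
    rfl
  · exact regT_overlap_loc (y := x₂) F₁ h12 _ (regT_adjoin_pair_le_left F₂ hx₂mem)
  · exact regT_overlap_loc (y := x₁) F₂ h21 _ (regT_adjoin_pair_le_right F₁ hx₁mem)
  · exact regT_overlap_sat hπ hx₁ F₁ hF₁ h12 _ (regT_adjoin_pair_le_left F₂ hx₂mem)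
  · exact regT_overlap_sat hπ hx₂ F₂ hF₂ h21 _ (regT_adjoin_pair_le_right F₁ hx₁mem)

/-- **Transfer of primeness through an overlap of two charts.** -/
theorem regT_overlap_dvd_or_dvd (hπ : Irreducible π)
    (hx₁ : Transcendental E x₁) (hx₂ : Transcendental E x₂)
    (hF₁ : ¬ C π ∣ F₁) (hF₂ : ¬ C π ∣ F₂)
    (h12 : aeval x₁ F₁ * aeval x₂ F₂ = 1)
    (hx₂mem : x₂ ∈ Algebra.adjoin A₀ ({x₁, aeval x₂ F₂} : Set Lf))
    (hx₁mem : x₁ ∈ Algebra.adjoin A₀ ({x₂, aeval x₁ F₁} : Set Lf))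
    (hP : Prime (algebraMap A₀ (integralClosure (Algebra.adjoin A₀ ({x₁} : Set Lf)) Lf) π))
    {a b : integralClosure (Algebra.adjoin A₀ ({x₂} : Set Lf)) Lf}
    (hab : algebraMap A₀ (integralClosure (Algebra.adjoin A₀ ({x₂} : Set Lf)) Lf) π ∣ a * b) :
    algebraMap A₀ (integralClosure (Algebra.adjoin A₀ ({x₂} : Set Lf)) Lf) π ∣ a ∨
      algebraMap A₀ (integralClosure (Algebra.adjoin A₀ ({x₂} : Set Lf)) Lf) π ∣ b := by
  have h21 : aeval x₂ F₂ * aeval x₁ F₁ = 1 := by rw [mul_comm]; exact h12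
  refine dvd_or_dvd_of_prime_overlap
    (tsgIncl (regT_adjoin_le_pair_left (x₁ := x₁) (x₂ := x₂)))
    (tsgIncl (regT_adjoin_le_pair_right (x₁ := x₁) (x₂ := x₂)))
    _ _ ?_ (regTElt x₁ F₁) (regTElt x₂ F₂) ?_ ?_ ?_ ?_ hP hab
  · rw [regT_tsgIncl_algebraMap, regT_tsgIncl_algebraMap]
  · apply Subtype.ext
    rw [MulMemClass.coe_mul, tsgIncl_coe, tsgIncl_coe, regTElt_coe, regTElt_coe, h12]
    rfl
  · exact regT_overlap_loc (y := x₂) F₁ h12 _ (regT_adjoin_pair_le_left F₂ hx₂mem)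
  · exact regT_overlap_sat hπ hx₁ F₁ hF₁ h12 _ (regT_adjoin_pair_le_left F₂ hx₂mem)
  · exact regT_overlap_sat hπ hx₂ F₂ hF₂ h21 _ (regT_adjoin_pair_le_right F₁ hx₁mem)

end Overlap

section GlueV

theorem regT_transcendental_add {t : Lf} (ht : Transcendental E t) (c : A₀) :
    Transcendental E (t + algebraMap A₀ Lf c) := by
  intro halg
  apply ht
  have h1 : IsAlgebraic E (algebraMap A₀ Lf c) := by
    rw [IsScalarTower.algebraMap_apply A₀ E Lf]
    exact isAlgebraic_algebraMap (R := E) (A := Lf) (algebraMap A₀ E c)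
  have := halg.sub h1
  rwa [add_sub_cancel_right] at this

theorem regT_not_C_dvd_of_coeff (hπ : Irreducible π) (F : A₀[X]) (i : ℕ) (hi : F.coeff i = 1) :
    ¬ C π ∣ F := by
  intro h
  rw [Polynomial.C_dvd_iff_dvd_coeff] at h
  have := h i
  rw [hi] at this
  exact hπ.not_isUnit (isUnit_of_dvd_one this)

theorem regT_glue_F1 (hπ : Irreducible π) (c : A₀) : ¬ C π ∣ (X + C c : A₀[X]) :=
  regT_not_C_dvd_of_coeff hπ _ 1 (by rw [coeff_add, coeff_X_one, coeff_C_succ, add_zero])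

theorem regT_glue_F2 (hπ : Irreducible π) : ¬ C π ∣ (X : A₀[X]) :=
  regT_not_C_dvd_of_coeff hπ _ 1 coeff_X_one

theorem regT_glue_F3 (hπ : Irreducible π) (c : A₀) : ¬ C π ∣ (1 + C c * X : A₀[X]) :=
  regT_not_C_dvd_of_coeff hπ _ 0 (by
    rw [coeff_add, coeff_one_zero, mul_coeff_zero, coeff_X_zero, mul_zero, add_zero])

theorem regT_glue_F4 (hπ : Irreducible π) (c : A₀) : ¬ C π ∣ (1 - C c * X : A₀[X]) :=
  regT_not_C_dvd_of_coeff hπ _ 0 (by
    rw [coeff_sub, coeff_one_zero, mul_coeff_zero, coeff_X_zero, mul_zero, sub_zero])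

theorem regT_glue_ne_zero {t : Lf} (ht : Transcendental E t) : t ≠ 0 := by
  rintro rfl
  exact ht isAlgebraic_zero

theorem regT_glue_add_ne_zero {t : Lf} (ht : Transcendental E t) (c : A₀) :
    t + algebraMap A₀ Lf c ≠ 0 :=
  regT_glue_ne_zero (E := E) (regT_transcendental_add ht c)

/-- **Gluing.**  For `v = (t + c)⁻¹`: `π` is prime in `C_v` and `C_v / π` is normal, if this holds
on the charts `C_t` and `C_{t⁻¹}`. -/
theorem regT_glue_prime (hπ : Irreducible π) {t : Lf} (ht : Transcendental E t) (c : A₀)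
    (hP : Prime (algebraMap A₀ (integralClosure (Algebra.adjoin A₀ ({t} : Set Lf)) Lf) π)) :
    Prime (algebraMap A₀
      (integralClosure (Algebra.adjoin A₀ ({(t + algebraMap A₀ Lf c)⁻¹} : Set Lf)) Lf) π) := by
  have hs := regT_transcendental_add ht c
  have hv : Transcendental E (t + algebraMap A₀ Lf c)⁻¹ := zch_transcendental_inv hs
  have hs0 := regT_glue_add_ne_zero (E := E) ht c
  have hinj := zch_algebraMap_injective (A₀ := A₀) (E := E) (L := Lf)
  have hπ0 : algebraMap A₀ Lf π ≠ 0 := (map_ne_zero_iff _ hinj).mpr hπ.ne_zero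
  refine ⟨?_, tsg_not_isUnit (A₀ := A₀) (E := E) hv hπ, ?_⟩
  · intro h
    apply hπ0
    have := congrArg Subtype.val h
    exact this
  · intro a b hab
    refine regT_overlap_dvd_or_dvd (F₁ := X + C c) (F₂ := X) hπ ht hv
      (regT_glue_F1 hπ c) (regT_glue_F2 hπ) ?_ ?_ ?_ hP hab
    · rw [map_add, aeval_X, aeval_C, aeval_X, mul_inv_cancel₀ hs0]
    · rw [aeval_X]
      exact Algebra.subset_adjoin (Set.mem_insert_of_mem _ (Set.mem_singleton _))
    · have h1 : t = aeval t (X + C c : A₀[X]) - algebraMap A₀ Lf c := by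
        rw [map_add, aeval_X, aeval_C, add_sub_cancel_right]
      rw [h1]
      exact Subalgebra.sub_mem _
        (Algebra.subset_adjoin (Set.mem_insert_of_mem _ (by rw [← h1]; exact Set.mem_singleton _)))
        (Subalgebra.algebraMap_mem _ c)

theorem regT_glue_normal (hπ : Irreducible π) {t : Lf} (ht : Transcendental E t) (c : A₀)
    (hN₁ : Normal (integralClosure (Algebra.adjoin A₀ ({t} : Set Lf)) Lf)
      (algebraMap A₀ (integralClosure (Algebra.adjoin A₀ ({t} : Set Lf)) Lf) π))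
    (hN₂ : Normal (integralClosure (Algebra.adjoin A₀ ({t⁻¹} : Set Lf)) Lf)
      (algebraMap A₀ (integralClosure (Algebra.adjoin A₀ ({t⁻¹} : Set Lf)) Lf) π)) :
    Normal (integralClosure (Algebra.adjoin A₀ ({(t + algebraMap A₀ Lf c)⁻¹} : Set Lf)) Lf)
      (algebraMap A₀
        (integralClosure (Algebra.adjoin A₀ ({(t + algebraMap A₀ Lf c)⁻¹} : Set Lf)) Lf) π) := by
  have hs := regT_transcendental_add ht c
  have hv : Transcendental E (t + algebraMap A₀ Lf c)⁻¹ := zch_transcendental_inv hs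
  have hu : Transcendental E t⁻¹ := zch_transcendental_inv ht
  have hs0 := regT_glue_add_ne_zero (E := E) ht c
  have ht0 := regT_glue_ne_zero (E := E) ht
  refine normal_of_forall_maximal (fun m hm hπm => ?_)
  haveI : m.IsPrime := hm.isPrime
  by_cases hvm : regTElt (t + algebraMap A₀ Lf c)⁻¹ (X : A₀[X]) ∈ m
  · -- the point lies on `v = 0`: chart `t⁻¹`
    have hσ : regTElt (t + algebraMap A₀ Lf c)⁻¹ (1 - C c * X : A₀[X]) ∉ m := by
      intro h
      apply hm.ne_top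
      rw [Ideal.eq_top_iff_one]
      have h1 : (1 : integralClosure (Algebra.adjoin A₀ ({(t + algebraMap A₀ Lf c)⁻¹} : Set Lf)) Lf)
          = regTElt (t + algebraMap A₀ Lf c)⁻¹ (1 - C c * X : A₀[X]) +
            algebraMap A₀ _ c * regTElt (t + algebraMap A₀ Lf c)⁻¹ (X : A₀[X]) := by
        apply Subtype.ext
        rw [AddMemClass.coe_add, MulMemClass.coe_mul, regTElt_coe, regTElt_coe, map_sub, map_mul,
          aeval_C, aeval_X, map_one]
        have : ((algebraMap A₀ (integralClosure (Algebra.adjoin A₀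
            ({(t + algebraMap A₀ Lf c)⁻¹} : Set Lf)) Lf) c : _) : Lf) = algebraMap A₀ Lf c := rfl
        rw [this, sub_add_cancel]
        rfl
      rw [h1]
      exact m.add_mem h (m.mul_mem_left _ hvm)
    refine regT_overlap_normalAt (F₁ := 1 + C c * X) (F₂ := 1 - C c * X) hπ hu hv
      (regT_glue_F3 hπ c) (regT_glue_F4 hπ c) ?_ ?_ ?_ hN₂ m hσ
    · simp only [map_add, map_sub, map_mul, aeval_C, aeval_X, map_one]
      field_simp
      ring
    · have h1 : (t + algebraMap A₀ Lf c)⁻¹ =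
          t⁻¹ * aeval (t + algebraMap A₀ Lf c)⁻¹ (1 - C c * X : A₀[X]) := by
        rw [map_sub, map_mul, aeval_C, aeval_X, map_one]
        field_simp
        ring
      rw [h1]
      exact Subalgebra.mul_mem _ (Algebra.subset_adjoin (Set.mem_insert _ _))
        (Algebra.subset_adjoin (Set.mem_insert_of_mem _ (by rw [← h1]; exact Set.mem_singleton _)))
    · have h1 : t⁻¹ = (t + algebraMap A₀ Lf c)⁻¹ * aeval t⁻¹ (1 + C c * X : A₀[X]) := by
        rw [map_add, map_mul, aeval_C, aeval_X, map_one]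
        field_simp
      rw [h1]
      exact Subalgebra.mul_mem _ (Algebra.subset_adjoin (Set.mem_insert _ _))
        (Algebra.subset_adjoin (Set.mem_insert_of_mem _ (by rw [← h1]; exact Set.mem_singleton _)))
  · -- the point lies on `v ≠ 0`: chart `t`
    refine regT_overlap_normalAt (F₁ := X + C c) (F₂ := X) hπ ht hv
      (regT_glue_F1 hπ c) (regT_glue_F2 hπ) ?_ ?_ ?_ hN₁ m hvm
    · rw [map_add, aeval_X, aeval_C, aeval_X, mul_inv_cancel₀ hs0]
    · rw [aeval_X]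
      exact Algebra.subset_adjoin (Set.mem_insert_of_mem _ (Set.mem_singleton _))
    · have h1 : t = aeval t (X + C c : A₀[X]) - algebraMap A₀ Lf c := by
        rw [map_add, aeval_X, aeval_C, add_sub_cancel_right]
      rw [h1]
      exact Subalgebra.sub_mem _
        (Algebra.subset_adjoin (Set.mem_insert_of_mem _ (by rw [← h1]; exact Set.mem_singleton _)))
        (Subalgebra.algebraMap_mem _ c)

end GlueV

end Glue

end Fermat.Agent.UNIP
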