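/-
UNIP (item 34, S34/S35), piece "RegTransfer" of U5, part 3 (helper20): from the Hauptmodul charts
to the `j`-charts.

`A₀` a discrete valuation ring with uniformizer `π`, `E = Frac A₀`, `Lf / E` a field,
`t, j ∈ Lf`, `t` transcendental, with the relation of `X₀(2)` resp. `X₀(3)`:
  `hm2` : `j * t ^ 2 = (t + 256) ^ 3`   (`2` a unit of `A₀`),
  `hm3` : `j * t ^ 3 = (t + 27) * (t + 243) ^ 3`   (`3` a unit of `A₀`).
For a chart `C_τ = integralClosure (adjoin A₀ {τ}) Lf` let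
  `(R1) τ` : `Prime (algebraMap A₀ C_τ π)`,  `(R2) τ` : `IsIntegrallyClosed (C_τ ⧸ span {π})`.
* `regT_hm2_j`, `regT_hm3_j` : `(R1), (R2)` for `t` imply `(R1), (R2)` for `j`
  (`C_j = C_t[1/t]`);
* `regT_hm2_jinv`, `regT_hm3_jinv` : `(R1), (R2)` for `t` and `t⁻¹` imply `(R1), (R2)` for `j⁻¹`
  (`C_{j⁻¹} = C_v[1/d]`, `v = (t + c)⁻¹`, `c = 256` resp. `27`, `d = 1` resp. `1 + 216 v`, and `C_v` is
  glued from `C_t` and `C_{t⁻¹}`, `RegTransferGlue.lean`).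
-/
import Fermat.Agent.UNIP.RegTransferGlue

set_option autoImplicit false
set_option linter.unusedSectionVars false
set_option linter.unusedVariables false
set_option linter.style.haveILetI false
set_option linter.style.longLine false

namespace Fermat.Agent.UNIP

open Polynomial IntermediateField Fermat.Agent.INJ Fermat.Agent.INJ.Norm

universe u

section Poly

variable {A₀ L : Type*} [CommRing A₀] [Field L] [Algebra A₀ L]

/-- a root of a monic cubic with coefficients in `R` is integral over `R` -/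
theorem regT_isIntegral_cubic {R : Subalgebra A₀ L} {z r₂ r₁ r₀ : L}
    (h₂ : r₂ ∈ R) (h₁ : r₁ ∈ R) (h₀ : r₀ ∈ R)
    (h : z ^ 3 + r₂ * z ^ 2 + r₁ * z + r₀ = 0) : IsIntegral R z := by
  refine ⟨X ^ 3 + (C (⟨r₂, h₂⟩ : R) * X ^ 2 + C (⟨r₁, h₁⟩ : R) * X + C (⟨r₀, h₀⟩ : R)),
    monic_X_pow_add (lt_of_le_of_lt degree_quadratic_le (by norm_num)), ?_⟩
  simp only [eval₂_add, eval₂_mul, eval₂_pow, eval₂_X, eval₂_C]
  show z ^ 3 + (r₂ * z ^ 2 + r₁ * z + r₀) = 0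
  rw [← h]; ring

/-- a root of a monic quartic with coefficients in `R` is integral over `R` -/
theorem regT_isIntegral_quartic {R : Subalgebra A₀ L} {z r₃ r₂ r₁ r₀ : L}
    (h₃ : r₃ ∈ R) (h₂ : r₂ ∈ R) (h₁ : r₁ ∈ R) (h₀ : r₀ ∈ R)
    (h : z ^ 4 + r₃ * z ^ 3 + r₂ * z ^ 2 + r₁ * z + r₀ = 0) : IsIntegral R z := by
  refine ⟨X ^ 4 + (C (⟨r₃, h₃⟩ : R) * X ^ 3 + C (⟨r₂, h₂⟩ : R) * X ^ 2 + C (⟨r₁, h₁⟩ : R) * X
      + C (⟨r₀, h₀⟩ : R)),
    monic_X_pow_add (lt_of_le_of_lt degree_cubic_le (by norm_num)), ?_⟩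
  simp only [eval₂_add, eval₂_mul, eval₂_pow, eval₂_X, eval₂_C]
  show z ^ 4 + (r₃ * z ^ 3 + r₂ * z ^ 2 + r₁ * z + r₀) = 0
  rw [← h]; ring

/-- `e z` integral, `e` from `A₀` -/
theorem regT_isIntegral_smul_of {R : Subalgebra A₀ L} {z : L} (e : A₀)
    (h : IsIntegral R z) : IsIntegral R (algebraMap A₀ L e * z) := by
  have h1 : IsIntegral R (algebraMap A₀ L e) :=
    isIntegral_algebraMap (R := R) (x := (⟨algebraMap A₀ L e, Subalgebra.algebraMap_mem R e⟩ : R))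
  exact h1.mul h

theorem regT_self_mem (x : L) : x ∈ Algebra.adjoin A₀ ({x} : Set L) :=
  Algebra.subset_adjoin (Set.mem_singleton x)

end Poly

section HM2

variable {A₀ E Lf : Type u} [CommRing A₀] [IsDomain A₀] [IsDiscreteValuationRing A₀]
  [Field E] [Algebra A₀ E] [IsFractionRing A₀ E] [CharZero E]
  [Field Lf] [Algebra E Lf] [Algebra A₀ Lf] [IsScalarTower A₀ E Lf]
  {π : A₀}

theorem regT_hm2_t_isIntegral {t j : Lf} (hrel : j * t ^ 2 = (t + 256) ^ 3) :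
    IsIntegral (Algebra.adjoin A₀ ({j} : Set Lf)) t := by
  refine regT_isIntegral_cubic (r₂ := 768 - j) (r₁ := 196608) (r₀ := 16777216) ?_ ?_ ?_ ?_
  · exact Subalgebra.sub_mem _ (ofNat_mem _ 768) (regT_self_mem j)
  · exact ofNat_mem _ 196608
  · exact ofNat_mem _ 16777216
  · linear_combination (-1 : Lf) * hrel

theorem regT_hm2_tinv_isIntegral {t j : Lf} (ht0 : t ≠ 0) (hrel : j * t ^ 2 = (t + 256) ^ 3)
    (ε : A₀) (hε : ε * 256 = 1) :
    IsIntegral (Algebra.adjoin A₀ ({j} : Set Lf)) t⁻¹ := by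
  have he : algebraMap A₀ Lf ε * 256 = 1 := by
    rw [← map_ofNat (algebraMap A₀ Lf) 256, ← map_mul, hε, map_one]
  have h1 : IsIntegral (Algebra.adjoin A₀ ({j} : Set Lf)) (256 * t⁻¹) := by
    refine regT_isIntegral_cubic (r₂ := 3) (r₁ := 3 - algebraMap A₀ Lf ε * j) (r₀ := 1)
      ?_ ?_ ?_ ?_
    · exact ofNat_mem _ 3
    · exact Subalgebra.sub_mem _ (ofNat_mem _ 3)
        (Subalgebra.mul_mem _ (Subalgebra.algebraMap_mem _ ε) (regT_self_mem j))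
    · exact Subalgebra.one_mem _
    · have h2 : (256 * t⁻¹) ^ 3 + 3 * (256 * t⁻¹) ^ 2 + (3 - algebraMap A₀ Lf ε * j) * (256 * t⁻¹)
          + 1 = (t⁻¹) ^ 3 * ((t + 256) ^ 3 - (algebraMap A₀ Lf ε * 256) * (j * t ^ 2)) := by
        field_simp
        ring
      rw [h2, he, one_mul, hrel, sub_self, mul_zero]
  have h2 : t⁻¹ = algebraMap A₀ Lf ε * (256 * t⁻¹) := by rw [← mul_assoc, he, one_mul]
  rw [h2]
  exact regT_isIntegral_smul_of ε h1

theorem regT_isUnit_256 (h2 : IsUnit (2 : A₀)) : ∃ ε : A₀, ε * 256 = 1 := by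
  have h : IsUnit ((2 : A₀) ^ 8) := h2.pow 8
  have h' : ((2 : A₀) ^ 8) = 256 := by norm_num
  rw [h'] at h
  exact isUnit_iff_exists_inv'.mp h

/-- **(T1) for `X₀(2)`**: `(R1), (R2)` pass from the chart `t` to the chart `j`. -/
theorem regT_hm2_j (hπ : Irreducible π) {t j : Lf} (ht : Transcendental E t)
    (hrel : j * t ^ 2 = (t + 256) ^ 3) (h2 : IsUnit (2 : A₀))
    (hP : Prime (algebraMap A₀ (integralClosure (Algebra.adjoin A₀ ({t} : Set Lf)) Lf) π))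
    (hIC : IsIntegrallyClosed (integralClosure (Algebra.adjoin A₀ ({t} : Set Lf)) Lf ⧸
      Ideal.span {algebraMap A₀ (integralClosure (Algebra.adjoin A₀ ({t} : Set Lf)) Lf) π})) :
    Prime (algebraMap A₀ (integralClosure (Algebra.adjoin A₀ ({j} : Set Lf)) Lf) π) ∧
    IsIntegrallyClosed (integralClosure (Algebra.adjoin A₀ ({j} : Set Lf)) Lf ⧸
      Ideal.span {algebraMap A₀ (integralClosure (Algebra.adjoin A₀ ({j} : Set Lf)) Lf) π}) := by
  obtain ⟨ε, hε⟩ := regT_isUnit_256 h2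
  have ht0 : t ≠ 0 := regT_glue_ne_zero (E := E) ht
  have hy : j ∈ Algebra.adjoin A₀ ({t, t⁻¹} : Set Lf) := by
    have h1 : j = (t + 256) ^ 3 * t⁻¹ ^ 2 := by
      rw [← hrel]
      field_simp
    rw [h1]
    refine Subalgebra.mul_mem _ (Subalgebra.pow_mem _ (Subalgebra.add_mem _
      (Algebra.subset_adjoin (Set.mem_insert _ _)) (ofNat_mem _ 256)) 3)
      (Subalgebra.pow_mem _ (Algebra.subset_adjoin
        (Set.mem_insert_of_mem _ (Set.mem_singleton _))) 2)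
  have hx := regT_hm2_t_isIntegral (A₀ := A₀) hrel
  have hfi := regT_hm2_tinv_isIntegral (A₀ := A₀) ht0 hrel ε hε
  have hfπ : ¬ ∃ c : Lf, IsIntegral (Algebra.adjoin A₀ ({t} : Set Lf)) c ∧
      t = algebraMap A₀ Lf π * c := by
    have := regT_not_dvd (E := E) hπ ht X (regT_glue_F2 hπ)
    rwa [aeval_X] at this
  exact ⟨regT_prime π ht0 (regT_self_mem t) hy hx hfi hP hfπ,
    regT_isIntegrallyClosed π ht0 (regT_self_mem t) hy hx hfi hP hfπ hIC⟩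

theorem regT_hm2_v_isIntegral {t j : Lf} (ht0 : t ≠ 0) (hs0 : t + 256 ≠ 0)
    (hrel : j * t ^ 2 = (t + 256) ^ 3) (ε : A₀) (hε : ε * 256 = 1) :
    IsIntegral (Algebra.adjoin A₀ ({j⁻¹} : Set Lf)) (t + 256)⁻¹ := by
  have he : algebraMap A₀ Lf ε * 256 = 1 := by
    rw [← map_ofNat (algebraMap A₀ Lf) 256, ← map_mul, hε, map_one]
  have hj0 : j ≠ 0 := by
    intro h
    rw [h, zero_mul] at hrel
    exact pow_ne_zero 3 hs0 hrel.symm
  have h1 : IsIntegral (Algebra.adjoin A₀ ({j⁻¹} : Set Lf)) (256 * (t + 256)⁻¹) := by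
    refine regT_isIntegral_cubic (r₂ := -2) (r₁ := 1) (r₀ := -(256 * j⁻¹)) ?_ ?_ ?_ ?_
    · exact Subalgebra.neg_mem _ (ofNat_mem _ 2)
    · exact Subalgebra.one_mem _
    · exact Subalgebra.neg_mem _ (Subalgebra.mul_mem _ (ofNat_mem _ 256) (regT_self_mem j⁻¹))
    · have h2 : (256 * (t + 256)⁻¹) ^ 3 + -2 * (256 * (t + 256)⁻¹) ^ 2 + 1 * (256 * (t + 256)⁻¹)
          + -(256 * j⁻¹) = 256 * j⁻¹ * ((t + 256)⁻¹) ^ 3 * (j * t ^ 2 - (t + 256) ^ 3) := by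
        field_simp
        ring
      rw [h2, hrel, sub_self, mul_zero]
  have h2 : (t + 256)⁻¹ = algebraMap A₀ Lf ε * (256 * (t + 256)⁻¹) := by
    rw [← mul_assoc, he, one_mul]
  rw [h2]
  exact regT_isIntegral_smul_of ε h1

theorem regT_map_256 : algebraMap A₀ Lf (256 : A₀) = 256 := map_ofNat _ 256

/-- **(T2) for `X₀(2)`**: `(R1), (R2)` pass from the charts `t`, `t⁻¹` to the chart `j⁻¹`. -/
theorem regT_hm2_jinv (hπ : Irreducible π) {t j : Lf} (ht : Transcendental E t)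
    (hrel : j * t ^ 2 = (t + 256) ^ 3) (h2 : IsUnit (2 : A₀))
    (hP : Prime (algebraMap A₀ (integralClosure (Algebra.adjoin A₀ ({t} : Set Lf)) Lf) π))
    (hIC : IsIntegrallyClosed (integralClosure (Algebra.adjoin A₀ ({t} : Set Lf)) Lf ⧸
      Ideal.span {algebraMap A₀ (integralClosure (Algebra.adjoin A₀ ({t} : Set Lf)) Lf) π}))
    (hP' : Prime (algebraMap A₀ (integralClosure (Algebra.adjoin A₀ ({t⁻¹} : Set Lf)) Lf) π))
    (hIC' : IsIntegrallyClosed (integralClosure (Algebra.adjoin A₀ ({t⁻¹} : Set Lf)) Lf ⧸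
      Ideal.span {algebraMap A₀ (integralClosure (Algebra.adjoin A₀ ({t⁻¹} : Set Lf)) Lf) π})) :
    Prime (algebraMap A₀ (integralClosure (Algebra.adjoin A₀ ({j⁻¹} : Set Lf)) Lf) π) ∧
    IsIntegrallyClosed (integralClosure (Algebra.adjoin A₀ ({j⁻¹} : Set Lf)) Lf ⧸
      Ideal.span {algebraMap A₀ (integralClosure (Algebra.adjoin A₀ ({j⁻¹} : Set Lf)) Lf) π}) := by
  obtain ⟨ε, hε⟩ := regT_isUnit_256 h2
  have ht0 : t ≠ 0 := regT_glue_ne_zero (E := E) ht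
  have hs0' := regT_glue_add_ne_zero (E := E) ht (256 : A₀)
  have hs := regT_transcendental_add (E := E) ht (256 : A₀)
  have hv' : Transcendental E (t + algebraMap A₀ Lf (256 : A₀))⁻¹ := zch_transcendental_inv hs
  have hPv' := regT_glue_prime (E := E) hπ ht (256 : A₀) hP
  have hNv' := regT_glue_normal (E := E) hπ ht (256 : A₀)
    (normal_of_isIntegrallyClosed_quotient hP hIC)
    (normal_of_isIntegrallyClosed_quotient hP' hIC')
  rw [regT_map_256] at hs0' hv' hPv' hNv'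
  have hICv := isIntegrallyClosed_quotient_of_normal hPv' hNv'
  have hj0 : j ≠ 0 := by
    intro h
    rw [h, zero_mul] at hrel
    exact pow_ne_zero 3 hs0' hrel.symm
  have hy : j⁻¹ ∈ Algebra.adjoin A₀ ({(t + 256)⁻¹, (1 : Lf)⁻¹} : Set Lf) := by
    have h1 : j⁻¹ = (t + 256)⁻¹ * (1 - 256 * (t + 256)⁻¹) ^ 2 := by
      have h3 : j = (t + 256) ^ 3 * (t⁻¹) ^ 2 := by
        rw [← hrel]
        field_simp
      rw [h3]
      field_simp
      ring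
    rw [h1]
    have hvm : (t + 256)⁻¹ ∈ Algebra.adjoin A₀ ({(t + 256)⁻¹, (1 : Lf)⁻¹} : Set Lf) :=
      Algebra.subset_adjoin (Set.mem_insert _ _)
    exact Subalgebra.mul_mem _ hvm (Subalgebra.pow_mem _ (Subalgebra.sub_mem _
      (Subalgebra.one_mem _) (Subalgebra.mul_mem _ (ofNat_mem _ 256) hvm)) 2)
  have hx := regT_hm2_v_isIntegral (A₀ := A₀) ht0 hs0' hrel ε hε
  have hfi : IsIntegral (Algebra.adjoin A₀ ({j⁻¹} : Set Lf)) (1 : Lf)⁻¹ := by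
    rw [inv_one]
    exact isIntegral_one
  have hfπ : ¬ ∃ c : Lf, IsIntegral (Algebra.adjoin A₀ ({(t + 256)⁻¹} : Set Lf)) c ∧
      (1 : Lf) = algebraMap A₀ Lf π * c := by
    have := regT_not_dvd (E := E) hπ hv' (1 : A₀[X])
      (regT_not_C_dvd_of_coeff hπ _ 0 coeff_one_zero)
    rwa [map_one] at this
  exact ⟨regT_prime π one_ne_zero (Subalgebra.one_mem _) hy hx hfi hPv' hfπ,
    regT_isIntegrallyClosed π one_ne_zero (Subalgebra.one_mem _) hy hx hfi hPv' hfπ hICv⟩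

end HM2

section HM3

variable {A₀ E Lf : Type u} [CommRing A₀] [IsDomain A₀] [IsDiscreteValuationRing A₀]
  [Field E] [Algebra A₀ E] [IsFractionRing A₀ E] [CharZero E]
  [Field Lf] [Algebra E Lf] [Algebra A₀ Lf] [IsScalarTower A₀ E Lf]
  {π : A₀}

theorem regT_hm3_t_isIntegral {t j : Lf} (hrel : j * t ^ 3 = (t + 27) * (t + 243) ^ 3) :
    IsIntegral (Algebra.adjoin A₀ ({j} : Set Lf)) t := by
  refine regT_isIntegral_quartic (r₃ := 756 - j) (r₂ := 196830) (r₁ := 19131876)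
    (r₀ := 387420489) ?_ ?_ ?_ ?_ ?_
  · exact Subalgebra.sub_mem _ (ofNat_mem _ 756) (regT_self_mem j)
  · exact ofNat_mem _ 196830
  · exact ofNat_mem _ 19131876
  · exact ofNat_mem _ 387420489
  · linear_combination (-1 : Lf) * hrel

theorem regT_map_mul_ofNat (ε : A₀) (n : ℕ) [n.AtLeastTwo] (hε : ε * (OfNat.ofNat n : A₀) = 1) :
    algebraMap A₀ Lf ε * (OfNat.ofNat n : Lf) = 1 := by
  rw [← map_ofNat (algebraMap A₀ Lf) n, ← map_mul, hε, map_one]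

theorem regT_hm3_tinv_isIntegral {t j : Lf} (ht0 : t ≠ 0)
    (hrel : j * t ^ 3 = (t + 27) * (t + 243) ^ 3)
    (ε ε' : A₀) (hε : ε * 27 = 1) (hε' : ε' * 243 = 1) :
    IsIntegral (Algebra.adjoin A₀ ({j} : Set Lf)) t⁻¹ := by
  have he : algebraMap A₀ Lf ε * 27 = 1 := regT_map_mul_ofNat ε 27 hε
  have he' : algebraMap A₀ Lf ε' * 243 = 1 := regT_map_mul_ofNat ε' 243 hε'
  have h1 : IsIntegral (Algebra.adjoin A₀ ({j} : Set Lf)) (243 * t⁻¹) := by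
    refine regT_isIntegral_quartic (r₃ := 12) (r₂ := 30) (r₁ := 28 - algebraMap A₀ Lf ε * j)
      (r₀ := 9) ?_ ?_ ?_ ?_ ?_
    · exact ofNat_mem _ 12
    · exact ofNat_mem _ 30
    · exact Subalgebra.sub_mem _ (ofNat_mem _ 28)
        (Subalgebra.mul_mem _ (Subalgebra.algebraMap_mem _ ε) (regT_self_mem j))
    · exact ofNat_mem _ 9
    · have h2 : (243 * t⁻¹) ^ 4 + 12 * (243 * t⁻¹) ^ 3 + 30 * (243 * t⁻¹) ^ 2
          + (28 - algebraMap A₀ Lf ε * j) * (243 * t⁻¹) + 9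
          = (t⁻¹) ^ 4 * (9 * ((t + 27) * (t + 243) ^ 3)
              - (algebraMap A₀ Lf ε * 27) * 9 * (j * t ^ 3)) := by
        field_simp
        ring
      rw [h2, he, one_mul, hrel, sub_self, mul_zero]
  have h2 : t⁻¹ = algebraMap A₀ Lf ε' * (243 * t⁻¹) := by rw [← mul_assoc, he', one_mul]
  rw [h2]
  exact regT_isIntegral_smul_of ε' h1

theorem regT_isUnit_pow3 (h3 : IsUnit (3 : A₀)) :
    (∃ ε : A₀, ε * 9 = 1) ∧ (∃ ε : A₀, ε * 27 = 1) ∧ (∃ ε : A₀, ε * 243 = 1) := by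
  refine ⟨?_, ?_, ?_⟩
  · have h : IsUnit ((3 : A₀) ^ 2) := h3.pow 2
    have h' : ((3 : A₀) ^ 2) = 9 := by norm_num
    rw [h'] at h
    exact isUnit_iff_exists_inv'.mp h
  · have h : IsUnit ((3 : A₀) ^ 3) := h3.pow 3
    have h' : ((3 : A₀) ^ 3) = 27 := by norm_num
    rw [h'] at h
    exact isUnit_iff_exists_inv'.mp h
  · have h : IsUnit ((3 : A₀) ^ 5) := h3.pow 5
    have h' : ((3 : A₀) ^ 5) = 243 := by norm_num
    rw [h'] at h
    exact isUnit_iff_exists_inv'.mp h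

/-- **(T1) for `X₀(3)`**: `(R1), (R2)` pass from the chart `t` to the chart `j`. -/
theorem regT_hm3_j (hπ : Irreducible π) {t j : Lf} (ht : Transcendental E t)
    (hrel : j * t ^ 3 = (t + 27) * (t + 243) ^ 3) (h3 : IsUnit (3 : A₀))
    (hP : Prime (algebraMap A₀ (integralClosure (Algebra.adjoin A₀ ({t} : Set Lf)) Lf) π))
    (hIC : IsIntegrallyClosed (integralClosure (Algebra.adjoin A₀ ({t} : Set Lf)) Lf ⧸
      Ideal.span {algebraMap A₀ (integralClosure (Algebra.adjoin A₀ ({t} : Set Lf)) Lf) π})) :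
    Prime (algebraMap A₀ (integralClosure (Algebra.adjoin A₀ ({j} : Set Lf)) Lf) π) ∧
    IsIntegrallyClosed (integralClosure (Algebra.adjoin A₀ ({j} : Set Lf)) Lf ⧸
      Ideal.span {algebraMap A₀ (integralClosure (Algebra.adjoin A₀ ({j} : Set Lf)) Lf) π}) := by
  obtain ⟨-, ⟨ε, hε⟩, ⟨ε', hε'⟩⟩ := regT_isUnit_pow3 h3
  have ht0 : t ≠ 0 := regT_glue_ne_zero (E := E) ht
  have hy : j ∈ Algebra.adjoin A₀ ({t, t⁻¹} : Set Lf) := by
    have h1 : j = (t + 27) * (t + 243) ^ 3 * t⁻¹ ^ 3 := by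
      rw [← hrel]
      field_simp
    rw [h1]
    have htm : t ∈ Algebra.adjoin A₀ ({t, t⁻¹} : Set Lf) :=
      Algebra.subset_adjoin (Set.mem_insert _ _)
    refine Subalgebra.mul_mem _ (Subalgebra.mul_mem _ (Subalgebra.add_mem _ htm (ofNat_mem _ 27))
      (Subalgebra.pow_mem _ (Subalgebra.add_mem _ htm (ofNat_mem _ 243)) 3))
      (Subalgebra.pow_mem _ (Algebra.subset_adjoin
        (Set.mem_insert_of_mem _ (Set.mem_singleton _))) 3)
  have hx := regT_hm3_t_isIntegral (A₀ := A₀) hrel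
  have hfi := regT_hm3_tinv_isIntegral (A₀ := A₀) ht0 hrel ε ε' hε hε'
  have hfπ : ¬ ∃ c : Lf, IsIntegral (Algebra.adjoin A₀ ({t} : Set Lf)) c ∧
      t = algebraMap A₀ Lf π * c := by
    have := regT_not_dvd (E := E) hπ ht X (regT_glue_F2 hπ)
    rwa [aeval_X] at this
  exact ⟨regT_prime π ht0 (regT_self_mem t) hy hx hfi hP hfπ,
    regT_isIntegrallyClosed π ht0 (regT_self_mem t) hy hx hfi hP hfπ hIC⟩

theorem regT_hm3_d_eq {t : Lf} (hs0 : t + 27 ≠ 0) :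
    1 + 216 * (t + 27)⁻¹ = (t + 243) * (t + 27)⁻¹ := by
  field_simp
  ring

theorem regT_hm3_dinv_eq {t : Lf} (hs0 : t + 27 ≠ 0) :
    (1 + 216 * (t + 27)⁻¹)⁻¹ = (t + 27) * (t + 243)⁻¹ := by
  rw [regT_hm3_d_eq hs0, mul_inv, inv_inv, mul_comm]

theorem regT_hm3_v_isIntegral {t j : Lf} (ht0 : t ≠ 0) (hs0 : t + 27 ≠ 0) (hs1 : t + 243 ≠ 0)
    (hrel : j * t ^ 3 = (t + 27) * (t + 243) ^ 3) (ε : A₀) (hε : ε * 27 = 1) :
    IsIntegral (Algebra.adjoin A₀ ({j⁻¹} : Set Lf)) (t + 27)⁻¹ := by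
  have he : algebraMap A₀ Lf ε * 27 = 1 := regT_map_mul_ofNat ε 27 hε
  have hj0 : j ≠ 0 := by
    intro h
    rw [h, zero_mul] at hrel
    exact mul_ne_zero hs0 (pow_ne_zero 3 hs1) hrel.symm
  have hjm := regT_self_mem (A₀ := A₀) j⁻¹
  have h1 : IsIntegral (Algebra.adjoin A₀ ({j⁻¹} : Set Lf)) (27 * (t + 27)⁻¹) := by
    refine regT_isIntegral_quartic (r₃ := -3 + 13824 * j⁻¹) (r₂ := 3 + 5184 * j⁻¹)
      (r₁ := -1 + 648 * j⁻¹) (r₀ := 27 * j⁻¹) ?_ ?_ ?_ ?_ ?_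
    · exact Subalgebra.add_mem _ (Subalgebra.neg_mem _ (ofNat_mem _ 3))
        (Subalgebra.mul_mem _ (ofNat_mem _ 13824) hjm)
    · exact Subalgebra.add_mem _ (ofNat_mem _ 3) (Subalgebra.mul_mem _ (ofNat_mem _ 5184) hjm)
    · exact Subalgebra.add_mem _ (Subalgebra.neg_mem _ (Subalgebra.one_mem _))
        (Subalgebra.mul_mem _ (ofNat_mem _ 648) hjm)
    · exact Subalgebra.mul_mem _ (ofNat_mem _ 27) hjm
    · have h2 : (27 * (t + 27)⁻¹) ^ 4 + (-3 + 13824 * j⁻¹) * (27 * (t + 27)⁻¹) ^ 3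
          + (3 + 5184 * j⁻¹) * (27 * (t + 27)⁻¹) ^ 2 + (-1 + 648 * j⁻¹) * (27 * (t + 27)⁻¹)
          + 27 * j⁻¹
          = 27 * j⁻¹ * ((t + 27)⁻¹) ^ 4 * ((t + 27) * (t + 243) ^ 3 - j * t ^ 3) := by
        field_simp
        ring
      rw [h2, hrel, sub_self, mul_zero]
  have h2 : (t + 27)⁻¹ = algebraMap A₀ Lf ε * (27 * (t + 27)⁻¹) := by
    rw [← mul_assoc, he, one_mul]
  rw [h2]
  exact regT_isIntegral_smul_of ε h1

theorem regT_hm3_dinv_isIntegral {t j : Lf} (ht0 : t ≠ 0) (hs0 : t + 27 ≠ 0) (hs1 : t + 243 ≠ 0)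
    (hrel : j * t ^ 3 = (t + 27) * (t + 243) ^ 3) (ε : A₀) (hε : ε * 9 = 1) :
    IsIntegral (Algebra.adjoin A₀ ({j⁻¹} : Set Lf)) (1 + 216 * (t + 27)⁻¹)⁻¹ := by
  have he : algebraMap A₀ Lf ε * 9 = 1 := regT_map_mul_ofNat ε 9 hε
  have hj0 : j ≠ 0 := by
    intro h
    rw [h, zero_mul] at hrel
    exact mul_ne_zero hs0 (pow_ne_zero 3 hs1) hrel.symm
  have hjm := regT_self_mem (A₀ := A₀) j⁻¹
  rw [regT_hm3_dinv_eq hs0]
  have h1 : IsIntegral (Algebra.adjoin A₀ ({j⁻¹} : Set Lf)) (9 * ((t + 27) * (t + 243)⁻¹)) := by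
    refine regT_isIntegral_quartic (r₃ := -12) (r₂ := 30)
      (r₁ := 110592 * j⁻¹ - 28) (r₀ := 9) ?_ ?_ ?_ ?_ ?_
    · exact Subalgebra.neg_mem _ (ofNat_mem _ 12)
    · exact ofNat_mem _ 30
    · exact Subalgebra.sub_mem _ (Subalgebra.mul_mem _ (ofNat_mem _ 110592) hjm) (ofNat_mem _ 28)
    · exact ofNat_mem _ 9
    · have h2 : (9 * ((t + 27) * (t + 243)⁻¹)) ^ 4 + -12 * (9 * ((t + 27) * (t + 243)⁻¹)) ^ 3
          + 30 * (9 * ((t + 27) * (t + 243)⁻¹)) ^ 2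
          + (110592 * j⁻¹ - 28) * (9 * ((t + 27) * (t + 243)⁻¹)) + 9
          = 995328 * j⁻¹ * ((t + 243)⁻¹) ^ 4 * ((t + 27) * (t + 243) ^ 3 - j * t ^ 3) := by
        field_simp
        ring
      rw [h2, hrel, sub_self, mul_zero]
  have h2 : (t + 27) * (t + 243)⁻¹ = algebraMap A₀ Lf ε * (9 * ((t + 27) * (t + 243)⁻¹)) := by
    rw [← mul_assoc, he, one_mul]
  rw [h2]
  exact regT_isIntegral_smul_of ε h1

theorem regT_map_ofNat (n : ℕ) [n.AtLeastTwo] :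
    algebraMap A₀ Lf (OfNat.ofNat n : A₀) = (OfNat.ofNat n : Lf) := map_ofNat _ n

/-- **(T2) for `X₀(3)`**: `(R1), (R2)` pass from the charts `t`, `t⁻¹` to the chart `j⁻¹`. -/
theorem regT_hm3_jinv (hπ : Irreducible π) {t j : Lf} (ht : Transcendental E t)
    (hrel : j * t ^ 3 = (t + 27) * (t + 243) ^ 3) (h3 : IsUnit (3 : A₀))
    (hP : Prime (algebraMap A₀ (integralClosure (Algebra.adjoin A₀ ({t} : Set Lf)) Lf) π))
    (hIC : IsIntegrallyClosed (integralClosure (Algebra.adjoin A₀ ({t} : Set Lf)) Lf ⧸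
      Ideal.span {algebraMap A₀ (integralClosure (Algebra.adjoin A₀ ({t} : Set Lf)) Lf) π}))
    (hP' : Prime (algebraMap A₀ (integralClosure (Algebra.adjoin A₀ ({t⁻¹} : Set Lf)) Lf) π))
    (hIC' : IsIntegrallyClosed (integralClosure (Algebra.adjoin A₀ ({t⁻¹} : Set Lf)) Lf ⧸
      Ideal.span {algebraMap A₀ (integralClosure (Algebra.adjoin A₀ ({t⁻¹} : Set Lf)) Lf) π})) :
    Prime (algebraMap A₀ (integralClosure (Algebra.adjoin A₀ ({j⁻¹} : Set Lf)) Lf) π) ∧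
    IsIntegrallyClosed (integralClosure (Algebra.adjoin A₀ ({j⁻¹} : Set Lf)) Lf ⧸
      Ideal.span {algebraMap A₀ (integralClosure (Algebra.adjoin A₀ ({j⁻¹} : Set Lf)) Lf) π}) := by
  obtain ⟨⟨ε₉, hε₉⟩, ⟨ε, hε⟩, -⟩ := regT_isUnit_pow3 h3
  have ht0 : t ≠ 0 := regT_glue_ne_zero (E := E) ht
  have hs0' := regT_glue_add_ne_zero (E := E) ht (27 : A₀)
  have hs1' := regT_glue_add_ne_zero (E := E) ht (243 : A₀)
  have hs := regT_transcendental_add (E := E) ht (27 : A₀)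
  have hv' : Transcendental E (t + algebraMap A₀ Lf (27 : A₀))⁻¹ := zch_transcendental_inv hs
  have hPv' := regT_glue_prime (E := E) hπ ht (27 : A₀) hP
  have hNv' := regT_glue_normal (E := E) hπ ht (27 : A₀)
    (normal_of_isIntegrallyClosed_quotient hP hIC)
    (normal_of_isIntegrallyClosed_quotient hP' hIC')
  rw [regT_map_ofNat] at hs0' hs1' hv' hPv' hNv'
  have hICv := isIntegrallyClosed_quotient_of_normal hPv' hNv'
  have hj0 : j ≠ 0 := by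
    intro h
    rw [h, zero_mul] at hrel
    exact mul_ne_zero hs0' (pow_ne_zero 3 hs1') hrel.symm
  have hd0 : (1 + 216 * (t + 27)⁻¹ : Lf) ≠ 0 := by
    rw [regT_hm3_d_eq hs0']
    exact mul_ne_zero hs1' (inv_ne_zero hs0')
  have hf : (1 + 216 * (t + 27)⁻¹ : Lf) ∈ Algebra.adjoin A₀ ({(t + 27)⁻¹} : Set Lf) :=
    Subalgebra.add_mem _ (Subalgebra.one_mem _)
      (Subalgebra.mul_mem _ (ofNat_mem _ 216) (regT_self_mem _))
  have hy : j⁻¹ ∈ Algebra.adjoin A₀ ({(t + 27)⁻¹, (1 + 216 * (t + 27)⁻¹)⁻¹} : Set Lf) := by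
    have h1 : j⁻¹ = (t + 27)⁻¹ * (1 - 27 * (t + 27)⁻¹) ^ 3 * ((1 + 216 * (t + 27)⁻¹)⁻¹) ^ 3 := by
      have h3 : j = (t + 27) * (t + 243) ^ 3 * (t⁻¹) ^ 3 := by
        rw [← hrel]
        field_simp
      rw [h3, regT_hm3_dinv_eq hs0']
      field_simp
      ring
    rw [h1]
    have hvm : (t + 27)⁻¹ ∈
        Algebra.adjoin A₀ ({(t + 27)⁻¹, (1 + 216 * (t + 27)⁻¹)⁻¹} : Set Lf) :=
      Algebra.subset_adjoin (Set.mem_insert _ _)
    exact Subalgebra.mul_mem _ (Subalgebra.mul_mem _ hvm (Subalgebra.pow_mem _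
      (Subalgebra.sub_mem _ (Subalgebra.one_mem _) (Subalgebra.mul_mem _ (ofNat_mem _ 27) hvm)) 3))
      (Subalgebra.pow_mem _ (Algebra.subset_adjoin
        (Set.mem_insert_of_mem _ (Set.mem_singleton _))) 3)
  have hx := regT_hm3_v_isIntegral (A₀ := A₀) ht0 hs0' hs1' hrel ε hε
  have hfi := regT_hm3_dinv_isIntegral (A₀ := A₀) ht0 hs0' hs1' hrel ε₉ hε₉
  have hfπ : ¬ ∃ c : Lf, IsIntegral (Algebra.adjoin A₀ ({(t + 27)⁻¹} : Set Lf)) c ∧
      (1 + 216 * (t + 27)⁻¹ : Lf) = algebraMap A₀ Lf π * c := by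
    have := regT_not_dvd (E := E) hπ hv' (1 + C (216 : A₀) * X : A₀[X]) (regT_glue_F3 hπ 216)
    rwa [map_add, map_mul, aeval_C, aeval_X, map_one, regT_map_ofNat] at this
  exact ⟨regT_prime π hd0 hf hy hx hfi hPv' hfπ,
    regT_isIntegrallyClosed π hd0 hf hy hx hfi hPv' hfπ hICv⟩

end HM3

end Fermat.Agent.UNIP
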