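/-
UNIP (S34), piece D3d "TubeOrd", algebraic core (helper95).  Mathlib only.

`B` a noetherian `A`-algebra (a chart of the model), `𝔫` a prime of `B` containing `π ∈ A`,
`ev : B →ₐ[A] A` a section (a rational point of the tube of `𝔫`: `ev 𝔫 ⊆ (π)`, `ker ev ⊆ 𝔫`).

* `unip_tube_key_node` : coordinates `X, Y` with `X * Y = q * G`, `B = A[X, Y] + 𝔫 ^ N`,
  `a = ev X ≠ 0`, `q = a * t`, `π ∣ t`.  Then the kernel of `ev` is `((X - a) : a^∞)` locally at
  `𝔫`:  `ev b = 0 → ∃ k u c, u ∉ 𝔫 ∧ a ^ k * (u * b) = (X - a) * c`.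
* `unip_tube_key_disc` : coordinate `s` with `B = A[s] + 𝔫 ^ N`:
  `ev b = 0 → ∃ u c, u ∉ 𝔫 ∧ u * b = (s - ev s) * c`.
Consequences for places (TubeOrd.lean): `X - a` has a simple zero at the point and no other zero
in the tube.  No thickness, no regularity, no completion; Krull's intersection theorem only.
-/
import Mathlib

set_option autoImplicit false
set_option linter.unusedSectionVars false

namespace Fermat.Agent.UNIP

section DenseLoc

variable {A B : Type*} [CommRing A] [CommRing B] [Algebra A B]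

/-- `B = A[T] + 𝔫 ^ N` for every `N`, if `𝔫 ⊆ (π, T) + 𝔫 ^ 2`, `π ∈ 𝔫`, `T ⊆ 𝔫` and `A → B ⧸ 𝔫`
is onto. -/
theorem unip_dense_of_le (𝔫 : Ideal B) (π : A) (T : Set B)
    (hπ : algebraMap A B π ∈ 𝔫) (hT : ∀ x ∈ T, x ∈ 𝔫)
    (hle : ∀ x ∈ 𝔫, x ∈ Ideal.span (insert (algebraMap A B π) T) ⊔ 𝔫 ^ 2)
    (hres : ∀ b : B, ∃ α : A, b - algebraMap A B α ∈ 𝔫) :
    ∀ (N : ℕ) (b : B), ∃ c ∈ Algebra.adjoin A T, b - c ∈ 𝔫 ^ N := by
  have hspan𝔫 : Ideal.span (insert (algebraMap A B π) T) ≤ 𝔫 := by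
    rw [Ideal.span_le]
    intro x hx
    rcases hx with rfl | hx
    · exact hπ
    · exact hT x hx
  intro N
  induction N with
  | zero =>
    intro b
    exact ⟨0, Subalgebra.zero_mem _, by simp⟩
  | succ N ih =>
    rcases Nat.eq_zero_or_pos N with hN | hN
    · subst hN
      intro b
      obtain ⟨α, hα⟩ := hres b
      exact ⟨algebraMap A B α, Subalgebra.algebraMap_mem _ _, by simpa using hα⟩
    -- elements of `𝔫` are approximated by elements of `A[T] ∩ 𝔫`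
    have ih𝔫 : ∀ x ∈ 𝔫, ∃ c ∈ Algebra.adjoin A T, c ∈ 𝔫 ∧ x - c ∈ 𝔫 ^ N := by
      intro x hx
      obtain ⟨c, hc, hxc⟩ := ih x
      refine ⟨c, hc, ?_, hxc⟩
      have h1 : x - c ∈ 𝔫 := Ideal.pow_le_self (Nat.pos_iff_ne_zero.mp hN) hxc
      have : c = x - (x - c) := by ring
      rw [this]
      exact Ideal.sub_mem _ hx h1
    have keyspan : ∀ x ∈ Ideal.span (insert (algebraMap A B π) T),
        ∃ c ∈ Algebra.adjoin A T, x - c ∈ 𝔫 ^ (N + 1) := by
      intro x hx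
      induction hx using Submodule.span_induction with
      | mem g hg =>
        rcases hg with rfl | hg
        · exact ⟨algebraMap A B π, Subalgebra.algebraMap_mem _ _, by simp⟩
        · exact ⟨g, Algebra.subset_adjoin hg, by simp⟩
      | zero => exact ⟨0, Subalgebra.zero_mem _, by simp⟩
      | add x y _ _ hx hy =>
        obtain ⟨c, hc, hxc⟩ := hx
        obtain ⟨d, hd, hyd⟩ := hy
        refine ⟨c + d, Subalgebra.add_mem _ hc hd, ?_⟩
        have : x + y - (c + d) = (x - c) + (y - d) := by ring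
        rw [this]
        exact Ideal.add_mem _ hxc hyd
      | smul r x hxmem hx =>
        obtain ⟨c, hc, hxc⟩ := hx
        obtain ⟨d, hd, hrd⟩ := ih r
        refine ⟨d * c, Subalgebra.mul_mem _ hd hc, ?_⟩
        have hxn : x ∈ 𝔫 := hspan𝔫 hxmem
        have hcn : c ∈ 𝔫 := by
          have h1 : x - c ∈ 𝔫 := Ideal.pow_le_self (Nat.succ_ne_zero N) hxc
          have : c = x - (x - c) := by ring
          rw [this]
          exact Ideal.sub_mem _ hxn h1
        have : r • x - d * c = r * (x - c) + (r - d) * c := by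
          simp only [smul_eq_mul]; ring
        rw [this]
        refine Ideal.add_mem _ (Ideal.mul_mem_left _ _ hxc) ?_
        rw [pow_succ]
        exact Ideal.mul_mem_mul hrd hcn
    have keysq : ∀ z ∈ 𝔫 ^ 2, ∃ c ∈ Algebra.adjoin A T, z - c ∈ 𝔫 ^ (N + 1) := by
      intro z hz
      rw [pow_two] at hz
      refine Submodule.mul_induction_on hz ?_ ?_
      · intro m hm n hn
        obtain ⟨cm, hcm, hcm𝔫, hm'⟩ := ih𝔫 m hm
        obtain ⟨cn, hcn, -, hn'⟩ := ih𝔫 n hn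
        refine ⟨cm * cn, Subalgebra.mul_mem _ hcm hcn, ?_⟩
        have : m * n - cm * cn = (m - cm) * n + cm * (n - cn) := by ring
        rw [this]
        refine Ideal.add_mem _ ?_ ?_
        · rw [pow_succ]
          exact Ideal.mul_mem_mul hm' hn
        · rw [pow_succ']
          exact Ideal.mul_mem_mul hcm𝔫 hn'
      · rintro x y ⟨c, hc, hxc⟩ ⟨d, hd, hyd⟩
        refine ⟨c + d, Subalgebra.add_mem _ hc hd, ?_⟩
        have : x + y - (c + d) = (x - c) + (y - d) := by ring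
        rw [this]
        exact Ideal.add_mem _ hxc hyd
    intro b
    obtain ⟨α, hα⟩ := hres b
    obtain ⟨y, hy, z, hz, hyz⟩ := Submodule.mem_sup.mp (hle _ hα)
    obtain ⟨c, hc, hyc⟩ := keyspan y hy
    obtain ⟨d, hd, hzd⟩ := keysq z hz
    refine ⟨algebraMap A B α + c + d,
      Subalgebra.add_mem _ (Subalgebra.add_mem _ (Subalgebra.algebraMap_mem _ _) hc) hd, ?_⟩
    have : b - (algebraMap A B α + c + d) = (y - c) + (z - d) := by
      rw [← sub_eq_iff_eq_add'.mpr hyz.symm]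
      ring
    rw [this]
    exact Ideal.add_mem _ hyc hzd

/-- `B = A[T] + 𝔫 ^ N` for every `N`, if `𝔫` is generated by `π` and `T` locally at `𝔫`,
`A → B ⧸ 𝔫` is onto, and the constants outside `𝔫` are units of `A`. -/
theorem unip_dense_of_locGen (𝔫 : Ideal B) (π : A) (T : Set B)
    (hπ : algebraMap A B π ∈ 𝔫) (hT : ∀ x ∈ T, x ∈ 𝔫)
    (hgen : ∀ b ∈ 𝔫, ∃ u : B, u ∉ 𝔫 ∧ u * b ∈ Ideal.span (insert (algebraMap A B π) T))
    (hres : ∀ b : B, ∃ α : A, b - algebraMap A B α ∈ 𝔫)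
    (hunit : ∀ α : A, algebraMap A B α ∉ 𝔫 → ∃ β : A, α * β = 1) :
    ∀ (N : ℕ) (b : B), ∃ c ∈ Algebra.adjoin A T, b - c ∈ 𝔫 ^ N := by
  refine unip_dense_of_le 𝔫 π T hπ hT (fun x hx => ?_) hres
  obtain ⟨u, hu, hux⟩ := hgen x hx
  obtain ⟨α, hα⟩ := hres u
  have hα𝔫 : algebraMap A B α ∉ 𝔫 := by
    intro h
    apply hu
    have : u = (u - algebraMap A B α) + algebraMap A B α := by ring
    rw [this]
    exact Ideal.add_mem _ hα h
  obtain ⟨β, hβ⟩ := hunit α hα𝔫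
  have e : x = algebraMap A B β * (u * x) - algebraMap A B β * ((u - algebraMap A B α) * x) := by
    have h1 : algebraMap A B α * algebraMap A B β = 1 := by
      rw [← map_mul, hβ, map_one]
    linear_combination (-x) * h1
  rw [e]
  refine Ideal.sub_mem _ (Ideal.mem_sup_left (Ideal.mul_mem_left _ _ hux))
    (Ideal.mem_sup_right (Ideal.mul_mem_left _ _ ?_))
  rw [pow_two]
  exact Ideal.mul_mem_mul hα hx

end DenseLoc

section Krull

variable {B : Type*} [CommRing B] [IsNoetherianRing B]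

/-- **Krull's intersection theorem**, elementwise, relative to an ideal `I`. -/
theorem unip_krull_mem (𝔫 I : Ideal B) (b : B) (h : ∀ N : ℕ, b ∈ 𝔫 ^ N ⊔ I) :
    ∃ r ∈ 𝔫, (1 - r) * b ∈ I := by
  have hx : (Ideal.Quotient.mk I b : B ⧸ I) ∈ (⨅ i : ℕ, 𝔫 ^ i • ⊤ : Submodule B (B ⧸ I)) := by
    rw [Submodule.mem_iInf]
    intro N
    obtain ⟨n, hn, i, hi, hni⟩ := Submodule.mem_sup.mp (h N)
    have e : (Ideal.Quotient.mk I b : B ⧸ I) = n • (Ideal.Quotient.mk I 1 : B ⧸ I) := by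
      rw [← hni, map_add, Ideal.Quotient.eq_zero_iff_mem.mpr hi, add_zero, map_one,
        Algebra.smul_def, mul_one]
      rfl
    rw [e]
    exact Submodule.smul_mem_smul hn Submodule.mem_top
  obtain ⟨r, hr⟩ := (Ideal.mem_iInf_smul_pow_eq_bot_iff 𝔫 _).mp hx
  refine ⟨r.1, r.2, ?_⟩
  rw [← Ideal.Quotient.eq_zero_iff_mem, map_mul, map_sub, map_one, sub_mul, one_mul]
  have : (Ideal.Quotient.mk I (r : B)) * Ideal.Quotient.mk I b = Ideal.Quotient.mk I b := by
    have h2 := hr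
    rw [Algebra.smul_def] at h2
    exact h2
  rw [this, sub_self]

end Krull

section Ideal

variable {A B : Type*} [CommRing A] [CommRing B] [Algebra A B]

/-- The ideal `((f) : a^∞)` localised at `𝔫`, contracted to `B`. -/
def unipTubeIdeal (𝔫 : Ideal B) [𝔫.IsPrime] (f : B) (a : A) : Ideal B where
  carrier := {b | ∃ (k : ℕ) (u c : B), u ∉ 𝔫 ∧ algebraMap A B (a ^ k) * (u * b) = f * c}
  add_mem' := by
    rintro b₁ b₂ ⟨k₁, u₁, c₁, hu₁, h₁⟩ ⟨k₂, u₂, c₂, hu₂, h₂⟩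
    refine ⟨k₁ + k₂, u₁ * u₂, algebraMap A B (a ^ k₂) * u₂ * c₁ + algebraMap A B (a ^ k₁) * u₁ * c₂,
      fun h => ?_, ?_⟩
    · rcases Ideal.IsPrime.mem_or_mem inferInstance h with h' | h'
      · exact hu₁ h'
      · exact hu₂ h'
    · rw [pow_add, map_mul]
      linear_combination (algebraMap A B (a ^ k₂) * u₂) * h₁ + (algebraMap A B (a ^ k₁) * u₁) * h₂
  zero_mem' := ⟨0, 1, 0, fun h => (Ideal.IsPrime.ne_top inferInstance)
    ((Ideal.eq_top_iff_one 𝔫).mpr h), by simp⟩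
  smul_mem' := by
    rintro x b ⟨k, u, c, hu, h⟩
    refine ⟨k, u, x * c, hu, ?_⟩
    rw [smul_eq_mul]
    linear_combination x * h

theorem unip_mem_tubeIdeal (𝔫 : Ideal B) [𝔫.IsPrime] (f : B) (a : A) (b : B) :
    b ∈ unipTubeIdeal 𝔫 f a ↔
      ∃ (k : ℕ) (u c : B), u ∉ 𝔫 ∧ algebraMap A B (a ^ k) * (u * b) = f * c := Iff.rfl

theorem unip_self_mem_tubeIdeal (𝔫 : Ideal B) [𝔫.IsPrime] (f : B) (a : A) :
    f ∈ unipTubeIdeal 𝔫 f a :=
  ⟨0, 1, 1, fun h => (Ideal.IsPrime.ne_top inferInstance) ((Ideal.eq_top_iff_one 𝔫).mpr h),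
    by simp⟩

/-- saturation with respect to `a` -/
theorem unip_tubeIdeal_of_smul (𝔫 : Ideal B) [𝔫.IsPrime] (f : B) (a : A) {b : B}
    (h : algebraMap A B a * b ∈ unipTubeIdeal 𝔫 f a) : b ∈ unipTubeIdeal 𝔫 f a := by
  obtain ⟨k, u, c, hu, hc⟩ := h
  refine ⟨k + 1, u, c, hu, ?_⟩
  rw [pow_succ, map_mul]
  linear_combination hc

/-- saturation with respect to `B ∖ 𝔫` -/
theorem unip_tubeIdeal_of_mul (𝔫 : Ideal B) [𝔫.IsPrime] (f : B) (a : A) {v b : B} (hv : v ∉ 𝔫)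
    (h : v * b ∈ unipTubeIdeal 𝔫 f a) : b ∈ unipTubeIdeal 𝔫 f a := by
  obtain ⟨k, u, c, hu, hc⟩ := h
  refine ⟨k, u * v, c, fun h' => ?_, ?_⟩
  · rcases Ideal.IsPrime.mem_or_mem inferInstance h' with h'' | h''
    · exact hu h''
    · exact hv h''
  · linear_combination hc

end Ideal

section Key

variable {A B : Type*} [CommRing A] [IsDomain A] [CommRing B] [Algebra A B] [IsNoetherianRing B]

/-- `ev` kills the tube ideal of `f` if it kills `f`. -/
theorem unip_ev_tubeIdeal (𝔫 : Ideal B) [𝔫.IsPrime] (f : B) (a : A) (ha : a ≠ 0)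
    (ev : B →ₐ[A] A) (hker : ∀ b, ev b = 0 → b ∈ 𝔫) (hf : ev f = 0)
    {b : B} (hb : b ∈ unipTubeIdeal 𝔫 f a) : ev b = 0 := by
  obtain ⟨k, u, c, hu, hc⟩ := hb
  have h1 := congrArg ev hc
  rw [map_mul, map_mul, map_mul, hf, zero_mul, AlgHom.commutes, Algebra.algebraMap_self_apply]
    at h1
  rcases mul_eq_zero.mp h1 with h | h
  · exact absurd h (pow_ne_zero k ha)
  · rcases mul_eq_zero.mp h with h | h
    · exact absurd (hker u h) hu
    · exact h

/-- `ev (𝔫 ^ N) ⊆ (π ^ N)`. -/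
theorem unip_ev_pow_dvd (π : A) (𝔫 : Ideal B) (ev : B →ₐ[A] A) (hev : ∀ b ∈ 𝔫, π ∣ ev b) :
    ∀ (N : ℕ) {x : B}, x ∈ 𝔫 ^ N → π ^ N ∣ ev x := by
  intro N
  induction N with
  | zero => intro x _; simp
  | succ N ih =>
    intro x hx
    rw [pow_succ] at hx
    refine Submodule.mul_induction_on hx ?_ ?_
    · intro m hm n hn
      rw [map_mul, pow_succ]
      exact mul_dvd_mul (ih hm) (hev n hn)
    · intro x y hx hy
      rw [map_add]
      exact dvd_add hx hy

/-- **Core.**  If `ev f = 0` and `B = A + 𝔫 ^ N + I` for all `N`, where `I` is the tube ideal of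
`f`, then `ker ev ⊆ I`. -/
theorem unip_tube_key_core (π : A) (𝔫 : Ideal B) [𝔫.IsPrime] (hπ : algebraMap A B π ∈ 𝔫)
    (f : B) (a : A) (ha : a ≠ 0)
    (ev : B →ₐ[A] A) (hev : ∀ b ∈ 𝔫, π ∣ ev b) (hker : ∀ b, ev b = 0 → b ∈ 𝔫) (hf : ev f = 0)
    (hspan : ∀ (N : ℕ) (b : B), ∃ α : A, b - algebraMap A B α ∈ 𝔫 ^ N ⊔ unipTubeIdeal 𝔫 f a)
    (b : B) (hb : ev b = 0) : b ∈ unipTubeIdeal 𝔫 f a := by
  have hmem : ∀ N : ℕ, b ∈ 𝔫 ^ N ⊔ unipTubeIdeal 𝔫 f a := by
    intro N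
    obtain ⟨α, hα⟩ := hspan N b
    obtain ⟨n, hn, i, hi, hni⟩ := Submodule.mem_sup.mp hα
    -- `ev` of `b - α = n + i`
    have h1 : ev (b - algebraMap A B α) = ev n + ev i := by rw [← hni, map_add]
    rw [map_sub, hb, AlgHom.commutes, Algebra.algebraMap_self_apply,
      unip_ev_tubeIdeal 𝔫 f a ha ev hker hf hi, add_zero, zero_sub] at h1
    have h2 : π ^ N ∣ α := by
      have := unip_ev_pow_dvd π 𝔫 ev hev N hn
      rw [← h1] at this
      exact (dvd_neg).mp this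
    have h3 : algebraMap A B α ∈ 𝔫 ^ N := by
      obtain ⟨β, hβ⟩ := h2
      rw [hβ, map_mul, map_pow]
      exact Ideal.mul_mem_right _ _ (Ideal.pow_mem_pow hπ N)
    have h4 : b = algebraMap A B α + (b - algebraMap A B α) := by ring
    rw [h4]
    exact Ideal.add_mem _ (Ideal.mem_sup_left h3) hα
  obtain ⟨r, hr, hrb⟩ := unip_krull_mem 𝔫 (unipTubeIdeal 𝔫 f a) b hmem
  refine unip_tubeIdeal_of_mul 𝔫 f a (v := 1 - r) (fun h => ?_) hrb
  have : (1 : B) ∈ 𝔫 := by
    have := Ideal.add_mem _ h hr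
    simpa using this
  exact (Ideal.IsPrime.ne_top inferInstance) ((Ideal.eq_top_iff_one 𝔫).mpr this)

/-- The set of elements of `B` congruent to a constant modulo an ideal, as a subalgebra. -/
def unipConstMod (J : Ideal B) : Subalgebra A B :=
  (⊥ : Subalgebra A (B ⧸ J)).comap (Ideal.Quotient.mkₐ A J)

theorem unip_mem_constMod (J : Ideal B) (b : B) :
    b ∈ unipConstMod (A := A) J ↔ ∃ α : A, b - algebraMap A B α ∈ J := by
  unfold unipConstMod
  rw [Subalgebra.mem_comap, Algebra.mem_bot]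
  constructor
  · rintro ⟨α, hα⟩
    refine ⟨α, ?_⟩
    rw [← Ideal.Quotient.eq_zero_iff_mem, map_sub]
    have h1 : (Ideal.Quotient.mkₐ A J) b = Ideal.Quotient.mk J b := rfl
    have h2 : algebraMap A (B ⧸ J) α = Ideal.Quotient.mk J (algebraMap A B α) := rfl
    rw [h1, h2] at hα
    rw [hα, sub_self]
  · rintro ⟨α, hα⟩
    refine ⟨α, ?_⟩
    have h1 : (Ideal.Quotient.mkₐ A J) b = Ideal.Quotient.mk J b := rfl
    have h2 : algebraMap A (B ⧸ J) α = Ideal.Quotient.mk J (algebraMap A B α) := rfl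
    rw [h1, h2]
    symm
    rw [← sub_eq_zero, ← map_sub, Ideal.Quotient.eq_zero_iff_mem]
    exact hα

/-- **Lemma N (ideal form), node.**  `X * Y = q * G`, `B = A[X, Y] + 𝔫 ^ N`, `ev` a rational
point of the tube with `a = ev X ≠ 0`, `q = a * t`, `π ∣ t`: the kernel of `ev` is
`((X - a) : a^∞)` locally at `𝔫`. -/
theorem unip_tube_key_node (π : A) (𝔫 : Ideal B) [𝔫.IsPrime] (hπ : algebraMap A B π ∈ 𝔫)
    (X Y G : B) (q a t : A) (hq : q = a * t) (ht : π ∣ t)
    (hXY : X * Y = algebraMap A B q * G)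
    (hd : ∀ (N : ℕ) (b : B), ∃ c ∈ Algebra.adjoin A ({X, Y} : Set B), b - c ∈ 𝔫 ^ N)
    (ev : B →ₐ[A] A) (hev : ∀ b ∈ 𝔫, π ∣ ev b) (hker : ∀ b, ev b = 0 → b ∈ 𝔫)
    (hX : ev X = a) (ha : a ≠ 0) (b : B) (hb : ev b = 0) :
    ∃ (k : ℕ) (u c : B), u ∉ 𝔫 ∧
      algebraMap A B (a ^ k) * (u * b) = (X - algebraMap A B a) * c := by
  set f : B := X - algebraMap A B a with hf
  set I : Ideal B := unipTubeIdeal 𝔫 f a with hI
  have hfev : ev f = 0 := by
    rw [hf, map_sub, hX, AlgHom.commutes, Algebra.algebraMap_self_apply, sub_self]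
  have hfI : f ∈ I := unip_self_mem_tubeIdeal 𝔫 f a
  -- `Y - t G ∈ I`
  have hYI : Y - algebraMap A B t * G ∈ I := by
    apply unip_tubeIdeal_of_smul 𝔫 f a
    have : algebraMap A B a * (Y - algebraMap A B t * G) = -(Y * f) := by
      rw [hf, hq, map_mul] at *
      linear_combination hXY
    rw [this]
    exact neg_mem (Ideal.mul_mem_left _ _ hfI)
  obtain ⟨t', rfl⟩ := ht
  refine unip_tube_key_core π 𝔫 hπ f a ha ev hev hker hfev (fun N => ?_) b hb
  -- `B = A + 𝔫 ^ N + I + π ^ j B` for all `j`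
  have key : ∀ j : ℕ, ∀ b : B, ∃ α : A,
      b - algebraMap A B α ∈ 𝔫 ^ N ⊔ I ⊔ Ideal.span {algebraMap A B π ^ j} := by
    intro j
    induction j with
    | zero =>
      intro b
      refine ⟨0, Ideal.mem_sup_right ?_⟩
      rw [pow_zero, Ideal.span_singleton_one]
      exact Submodule.mem_top
    | succ j ih =>
      set J : Ideal B := 𝔫 ^ N ⊔ I ⊔ Ideal.span {algebraMap A B π ^ (j + 1)} with hJ
      have hXJ : X ∈ unipConstMod (A := A) J :=
        (unip_mem_constMod J X).mpr ⟨a, Ideal.mem_sup_left (Ideal.mem_sup_right hfI)⟩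
      have hYJ : Y ∈ unipConstMod (A := A) J := by
        obtain ⟨α, hα⟩ := ih G
        refine (unip_mem_constMod J Y).mpr ⟨π * t' * α, ?_⟩
        have e : Y - algebraMap A B (π * t' * α) =
            (Y - algebraMap A B (π * t') * G) +
              algebraMap A B (π * t') * (G - algebraMap A B α) := by
          rw [map_mul (algebraMap A B) (π * t') α]; ring
        rw [e]
        refine Ideal.add_mem _ (Ideal.mem_sup_left (Ideal.mem_sup_right hYI)) ?_
        -- `π t' · (𝔫^N ⊔ I ⊔ (π^j)) ⊆ J`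
        obtain ⟨x, hx, z, hz, hxz⟩ := Submodule.mem_sup.mp hα
        rw [← hxz, mul_add]
        refine Ideal.add_mem _ (Ideal.mem_sup_left (Ideal.mul_mem_left _ _ hx)) ?_
        obtain ⟨w, rfl⟩ := Ideal.mem_span_singleton'.mp hz
        refine Ideal.mem_sup_right (Ideal.mem_span_singleton'.mpr
          ⟨algebraMap A B t' * w, ?_⟩)
        rw [map_mul, pow_succ]
        ring
      have hle : Algebra.adjoin A ({X, Y} : Set B) ≤ unipConstMod (A := A) J := by
        apply Algebra.adjoin_le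
        intro x hx
        rcases hx with rfl | rfl
        · exact hXJ
        · exact hYJ
      intro b
      obtain ⟨c, hc, hbc⟩ := hd N b
      obtain ⟨α, hα⟩ := (unip_mem_constMod J c).mp (hle hc)
      refine ⟨α, ?_⟩
      have e : b - algebraMap A B α = (b - c) + (c - algebraMap A B α) := by ring
      rw [e]
      exact Ideal.add_mem _ (Ideal.mem_sup_left (Ideal.mem_sup_left hbc)) hα
  intro b
  obtain ⟨α, hα⟩ := key N b
  refine ⟨α, ?_⟩
  obtain ⟨x, hx, z, hz, hxz⟩ := Submodule.mem_sup.mp hα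
  rw [← hxz]
  refine Ideal.add_mem _ hx (Ideal.mem_sup_left ?_)
  obtain ⟨w, rfl⟩ := Ideal.mem_span_singleton'.mp hz
  exact Ideal.mul_mem_left _ _ (Ideal.pow_mem_pow hπ N)

/-- **Lemma N (ideal form), smooth point.**  `B = A[s] + 𝔫 ^ N`, `ev` a rational point of the
tube: the kernel of `ev` is generated by `s - ev s` locally at `𝔫`. -/
theorem unip_tube_key_disc (π : A) (𝔫 : Ideal B) [𝔫.IsPrime] (hπ : algebraMap A B π ∈ 𝔫)
    (s : B)
    (hd : ∀ (N : ℕ) (b : B), ∃ c ∈ Algebra.adjoin A ({s} : Set B), b - c ∈ 𝔫 ^ N)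
    (ev : B →ₐ[A] A) (hev : ∀ b ∈ 𝔫, π ∣ ev b) (hker : ∀ b, ev b = 0 → b ∈ 𝔫)
    (b : B) (hb : ev b = 0) :
    ∃ (u c : B), u ∉ 𝔫 ∧ u * b = (s - algebraMap A B (ev s)) * c := by
  set f : B := s - algebraMap A B (ev s) with hf
  set I : Ideal B := unipTubeIdeal 𝔫 f (1 : A) with hI
  have hfev : ev f = 0 := by
    rw [hf, map_sub, AlgHom.commutes, Algebra.algebraMap_self_apply, sub_self]
  have hfI : f ∈ I := unip_self_mem_tubeIdeal 𝔫 f 1
  have h := unip_tube_key_core π 𝔫 hπ f (1 : A) one_ne_zero ev hev hker hfev (fun N b => by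
    have hle : Algebra.adjoin A ({s} : Set B) ≤ unipConstMod (A := A) (𝔫 ^ N ⊔ I) := by
      apply Algebra.adjoin_le
      intro x hx
      rw [Set.mem_singleton_iff] at hx
      rw [hx]
      exact (unip_mem_constMod _ s).mpr ⟨ev s, Ideal.mem_sup_right hfI⟩
    obtain ⟨c, hc, hbc⟩ := hd N b
    obtain ⟨α, hα⟩ := (unip_mem_constMod _ c).mp (hle hc)
    refine ⟨α, ?_⟩
    have e : b - algebraMap A B α = (b - c) + (c - algebraMap A B α) := by ring
    rw [e]
    exact Ideal.add_mem _ (Ideal.mem_sup_left hbc) hα) b hb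
  obtain ⟨k, u, c, hu, hc⟩ := h
  refine ⟨u, c, hu, ?_⟩
  rw [one_pow, map_one, one_mul] at hc
  exact hc

end Key

end Fermat.Agent.UNIP
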