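import Fermat.Agent.UNIP.UnitCrit
import Fermat.Agent.UNIP.TubeKey
import Fermat.Agent.S24.PlacesCore

/-!
# UNIP / D3d — TubeOrd: Lemma N for places

Setting of `UnitCrit.lean` (D2): `A₀` DVR, `π` irreducible, `E = Frac A₀` (char 0), `Lf/E(τ)` finite,
`B` a noetherian chart (`algebraMap B Lf` injective with image the integral closure of `A₀[τ]`),
`𝔫` a prime of `B` containing `π`.

A *rational point of the tube of `𝔫`* is a place `P` of `Lf / E` with `0 ≤ ord_P τ`, centre in `𝔫`
and residue field `E` (`UnipTubePoint`).  It has an evaluation `ev_P : B →ₐ[A₀] A₀`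
(`unip_exists_tubeEv`).

* `unip_tubeOrd_node` : node coordinates `X * Y = q * G`, `B = A₀[X, Y] + 𝔫 ^ N`, `a = X(P) ≠ 0`,
  `q = a * t`, `π ∣ t`.  Then `ord_P (X - a) = 1`, and `ord_Q (X - a) = 0` for every place `Q ≠ P`
  (rational or not) with `0 ≤ ord_Q τ` and centre in `𝔫`.
* `unip_tubeOrd_disc` : the same for a smooth point, `B = A₀[s] + 𝔫 ^ N`, `a = s(P)`.
-/

set_option autoImplicit false
set_option linter.style.haveILetI false
set_option linter.unusedSectionVars false

namespace Fermat.Agent.UNIP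

open AlgebraicCurve IntermediateField Polynomial Fermat.Agent.S24 Fermat.Agent.INJ

section Places

variable {E Lf : Type*} [Field E] [Field Lf] [Algebra E Lf]

theorem unip_mem_nonunits_iff (P : Place E Lf) (f : Lf) :
    f ∈ P.toValuationSubring.nonunits ↔ f = 0 ∨ 0 < P.ord f := by
  rcases eq_or_ne f 0 with rfl | hf
  · simp only [true_or, iff_true]
    exact P.toValuationSubring.nonunits.zero_mem
  · rw [PlaceAux.ord_pos_iff_mem_nonunits P hf]
    simp [hf]

/-- nonzero constants are units at every place -/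
theorem unip_const_notMem_nonunits (P : Place E Lf) {c : E} (hc : c ≠ 0) :
    algebraMap E Lf c ∉ P.toValuationSubring.nonunits := by
  have hc' : algebraMap E Lf c ≠ 0 := (_root_.map_ne_zero _).mpr hc
  rw [← PlaceAux.ord_pos_iff_mem_nonunits P hc', PlaceAux.ord_algebraMap]
  exact lt_irrefl 0

/-- the maximal ideal absorbs multiplication by the valuation ring -/
theorem unip_mul_mem_nonunits (P : Place E Lf) {x y : Lf}
    (hx : x ∈ P.toValuationSubring.nonunits) (hy : y ∈ P.toValuationSubring) :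
    x * y ∈ P.toValuationSubring.nonunits := by
  rw [ValuationSubring.mem_nonunits_iff] at hx ⊢
  have hy' := (P.toValuationSubring.valuation_le_one_iff y).mpr hy
  rw [map_mul]
  calc P.toValuationSubring.valuation x * P.toValuationSubring.valuation y
      ≤ P.toValuationSubring.valuation x * 1 := by gcongr
    _ = P.toValuationSubring.valuation x := mul_one _
    _ < 1 := hx

end Places

section Ev

variable {A₀ E Lf B : Type*} [CommRing A₀] [IsDomain A₀] [IsDiscreteValuationRing A₀]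
  [Field E] [CharZero E] [Algebra A₀ E] [IsFractionRing A₀ E]
  [Field Lf] [Algebra E Lf] [Algebra A₀ Lf] [IsScalarTower A₀ E Lf]
  [CommRing B] [Algebra B Lf] [Algebra A₀ B] [IsScalarTower A₀ B Lf]

/-- `P` is a rational point of the tube of `𝔫`. -/
structure UnipTubePoint (τ : Lf) (𝔫 : Ideal B) (P : Place E Lf) : Prop where
  ord_nonneg : 0 ≤ P.ord τ
  centre : ∀ b : B, 0 < P.ord (algebraMap B Lf b) → b ∈ 𝔫
  rational : ∀ f ∈ P.toValuationSubring,
    ∃ c : E, f - algebraMap E Lf c ∈ P.toValuationSubring.nonunits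

theorem unip_algebraMap_injective (E : Type*) {A₀ Lf : Type*} [CommRing A₀]
    [Field E] [Algebra A₀ E] [IsFractionRing A₀ E]
    [Field Lf] [Algebra E Lf] [Algebra A₀ Lf] [IsScalarTower A₀ E Lf] :
    Function.Injective (algebraMap A₀ Lf) := by
  rw [IsScalarTower.algebraMap_eq A₀ E Lf]
  exact (algebraMap E Lf).injective.comp (IsFractionRing.injective A₀ E)

/-- constants of `A₀` in the maximal ideal of a place are zero -/
theorem unip_eq_zero_of_mem_nonunits (P : Place E Lf) {α : A₀}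
    (h : algebraMap A₀ Lf α ∈ P.toValuationSubring.nonunits) : α = 0 := by
  by_contra hα
  rw [IsScalarTower.algebraMap_apply A₀ E Lf] at h
  exact unip_const_notMem_nonunits P
    ((map_ne_zero_iff _ (IsFractionRing.injective A₀ E)).mpr hα) h

/-- elements of the chart lie in the valuation ring of a place with `0 ≤ ord τ` -/
theorem unip_chart_mem_place (τ : Lf)
    (hB : ∀ x : Lf, x ∈ (algebraMap B Lf).range ↔ IsIntegral (Algebra.adjoin A₀ {τ}) x)
    (P : Place E Lf) (hP : 0 ≤ P.ord τ) (b : B) :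
    algebraMap B Lf b ∈ P.toValuationSubring :=
  mem_place_of_isIntegral τ P hP ((hB _).mp ⟨b, rfl⟩)

/-- centre in `𝔫`, in terms of the maximal ideal of the place -/
theorem UnipTubePoint.mem_of_nonunits {τ : Lf} {𝔫 : Ideal B} {P : Place E Lf}
    (hP : UnipTubePoint τ 𝔫 P) (hinj : Function.Injective (algebraMap B Lf)) {b : B}
    (hb : algebraMap B Lf b ∈ P.toValuationSubring.nonunits) : b ∈ 𝔫 := by
  rcases (unip_mem_nonunits_iff P _).mp hb with h | h
  · have : b = 0 := hinj (by rw [h, map_zero])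
    rw [this]
    exact 𝔫.zero_mem
  · exact hP.centre b h

/-- the value of an element of the chart at a rational point of the tube is integral -/
theorem unip_exists_value {π : A₀} (hπ : Irreducible π) (τ : Lf)
    (hinj : Function.Injective (algebraMap B Lf))
    (hB : ∀ x : Lf, x ∈ (algebraMap B Lf).range ↔ IsIntegral (Algebra.adjoin A₀ {τ}) x)
    (𝔫 : Ideal B) [𝔫.IsPrime] (hπ𝔫 : algebraMap A₀ B π ∈ 𝔫)
    (P : Place E Lf) (hP : UnipTubePoint τ 𝔫 P) (b : B) :
    ∃ α : A₀, algebraMap B Lf b - algebraMap A₀ Lf α ∈ P.toValuationSubring.nonunits := by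
  have hbP := unip_chart_mem_place τ hB P hP.ord_nonneg b
  obtain ⟨c, hc⟩ := hP.rational _ hbP
  rcases eq_or_ne c 0 with rfl | hc0
  · refine ⟨0, ?_⟩
    simpa using hc
  rcases ValuationRing.isInteger_or_isInteger A₀ c with ⟨α, hα⟩ | ⟨d, hd⟩
  · refine ⟨α, ?_⟩
    rw [IsScalarTower.algebraMap_apply A₀ E Lf, hα]
    exact hc
  · -- `c⁻¹ = d ∈ A₀`
    have hdc : algebraMap A₀ E d * c = 1 := by
      rw [hd]
      exact inv_mul_cancel₀ hc0
    by_cases hdu : IsUnit d
    · obtain ⟨d', hd'⟩ := hdu.exists_right_inv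
      refine ⟨d', ?_⟩
      have h1 : algebraMap A₀ E d * algebraMap A₀ E d' = 1 := by
        rw [← map_mul, hd', map_one]
      have hd0 : algebraMap A₀ E d ≠ 0 := left_ne_zero_of_mul_eq_one h1
      have : algebraMap A₀ E d' = c := mul_left_cancel₀ hd0 (h1.trans hdc.symm)
      rw [IsScalarTower.algebraMap_apply A₀ E Lf, this]
      exact hc
    · exfalso
      -- `d ∈ (π)`, so `d ∈ 𝔫`, and `d b - 1 ∈ 𝔫`
      have hdmem : d ∈ IsLocalRing.maximalIdeal A₀ := (IsLocalRing.mem_maximalIdeal d).mpr hdu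
      rw [hπ.maximalIdeal_eq, Ideal.mem_span_singleton] at hdmem
      obtain ⟨d', rfl⟩ := hdmem
      have hd𝔫 : algebraMap A₀ B (π * d') ∈ 𝔫 := by
        rw [map_mul]
        exact Ideal.mul_mem_right _ _ hπ𝔫
      have hdP : algebraMap A₀ Lf (π * d') ∈ P.toValuationSubring := by
        rw [IsScalarTower.algebraMap_apply A₀ E Lf]
        exact P.algebraMap_mem' _
      have hmem : algebraMap B Lf (algebraMap A₀ B (π * d') * b - 1) ∈
          P.toValuationSubring.nonunits := by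
        have e : algebraMap B Lf (algebraMap A₀ B (π * d') * b - 1) =
            (algebraMap B Lf b - algebraMap E Lf c) * algebraMap A₀ Lf (π * d') := by
          rw [map_sub, map_mul, map_one, ← IsScalarTower.algebraMap_apply A₀ B Lf]
          have h2 : algebraMap A₀ Lf (π * d') * algebraMap E Lf c = 1 := by
            rw [IsScalarTower.algebraMap_apply A₀ E Lf, ← map_mul, hdc, map_one]
          linear_combination h2
        rw [e]
        exact unip_mul_mem_nonunits P hc hdP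
      have h3 := hP.mem_of_nonunits hinj hmem
      have h1 : (1 : B) ∈ 𝔫 := by
        have : (1 : B) = algebraMap A₀ B (π * d') * b - (algebraMap A₀ B (π * d') * b - 1) := by
          ring
        rw [this]
        exact Ideal.sub_mem _ (Ideal.mul_mem_right _ _ hd𝔫) h3
      exact (Ideal.IsPrime.ne_top inferInstance) ((Ideal.eq_top_iff_one 𝔫).mpr h1)

/-- uniqueness of the value at a place -/
theorem unip_value_unique (P : Place E Lf) {f : Lf} {α β : A₀}
    (hα : f - algebraMap A₀ Lf α ∈ P.toValuationSubring.nonunits)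
    (hβ : f - algebraMap A₀ Lf β ∈ P.toValuationSubring.nonunits) : α = β := by
  have h : algebraMap A₀ Lf (β - α) ∈ P.toValuationSubring.nonunits := by
    have : algebraMap A₀ Lf (β - α) = (f - algebraMap A₀ Lf α) - (f - algebraMap A₀ Lf β) := by
      rw [map_sub]; ring
    rw [this]
    exact sub_mem hα hβ
  have := unip_eq_zero_of_mem_nonunits P h
  exact (sub_eq_zero.mp this).symm

theorem unip_algebraMap_mem_place (P : Place E Lf) (α : A₀) :
    algebraMap A₀ Lf α ∈ P.toValuationSubring := by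
  rw [IsScalarTower.algebraMap_apply A₀ E Lf]
  exact P.algebraMap_mem' _

/-- **Evaluation at a rational point of the tube**, as an `A₀`-algebra homomorphism. -/
theorem unip_exists_tubeEv {π : A₀} (hπ : Irreducible π) (τ : Lf)
    (hinj : Function.Injective (algebraMap B Lf))
    (hB : ∀ x : Lf, x ∈ (algebraMap B Lf).range ↔ IsIntegral (Algebra.adjoin A₀ {τ}) x)
    (𝔫 : Ideal B) [𝔫.IsPrime] (hπ𝔫 : algebraMap A₀ B π ∈ 𝔫)
    (P : Place E Lf) (hP : UnipTubePoint τ 𝔫 P) :
    ∃ ev : B →ₐ[A₀] A₀, ∀ b : B,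
      algebraMap B Lf b - algebraMap A₀ Lf (ev b) ∈ P.toValuationSubring.nonunits := by
  classical
  choose ev hev using unip_exists_value hπ τ hinj hB 𝔫 hπ𝔫 P hP
  have huniq : ∀ (b : B) (α : A₀),
      algebraMap B Lf b - algebraMap A₀ Lf α ∈ P.toValuationSubring.nonunits → ev b = α :=
    fun b α h => unip_value_unique P (hev b) h
  have h0 : (0 : Lf) ∈ P.toValuationSubring.nonunits := P.toValuationSubring.nonunits.zero_mem
  have hBP : ∀ b : B, algebraMap B Lf b ∈ P.toValuationSubring :=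
    unip_chart_mem_place τ hB P hP.ord_nonneg
  refine ⟨{ toFun := ev, map_one' := ?_, map_mul' := ?_, map_zero' := ?_, map_add' := ?_,
            commutes' := ?_ }, hev⟩
  · apply huniq
    simp [h0]
  · intro b c
    apply huniq
    have e : algebraMap B Lf (b * c) - algebraMap A₀ Lf (ev b * ev c) =
        (algebraMap B Lf b - algebraMap A₀ Lf (ev b)) * algebraMap B Lf c +
          (algebraMap B Lf c - algebraMap A₀ Lf (ev c)) * algebraMap A₀ Lf (ev b) := by
      rw [map_mul, map_mul]; ring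
    rw [e]
    exact add_mem (unip_mul_mem_nonunits P (hev b) (hBP c))
      (unip_mul_mem_nonunits P (hev c) (unip_algebraMap_mem_place P _))
  · apply huniq
    simp [h0]
  · intro b c
    apply huniq
    have e : algebraMap B Lf (b + c) - algebraMap A₀ Lf (ev b + ev c) =
        (algebraMap B Lf b - algebraMap A₀ Lf (ev b)) +
          (algebraMap B Lf c - algebraMap A₀ Lf (ev c)) := by
      rw [map_add, map_add]; ring
    rw [e]
    exact add_mem (hev b) (hev c)
  · intro α
    apply huniq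
    rw [Algebra.algebraMap_self_apply, ← IsScalarTower.algebraMap_apply A₀ B Lf, sub_self]
    exact h0

/-- `ev b = 0` iff `b` lies in the maximal ideal of the place -/
theorem unip_tubeEv_eq_zero_iff (P : Place E Lf) (ev : B →ₐ[A₀] A₀)
    (hev : ∀ b : B,
      algebraMap B Lf b - algebraMap A₀ Lf (ev b) ∈ P.toValuationSubring.nonunits) (b : B) :
    ev b = 0 ↔ algebraMap B Lf b ∈ P.toValuationSubring.nonunits := by
  constructor
  · intro h
    have := hev b
    rwa [h, map_zero, sub_zero] at this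
  · intro h
    refine unip_value_unique P (f := algebraMap B Lf b) (hev b) ?_
    rwa [map_zero, sub_zero]

theorem unip_tubeEv_ker {τ : Lf} (hinj : Function.Injective (algebraMap B Lf))
    {𝔫 : Ideal B} {P : Place E Lf} (hP : UnipTubePoint τ 𝔫 P) (ev : B →ₐ[A₀] A₀)
    (hev : ∀ b : B,
      algebraMap B Lf b - algebraMap A₀ Lf (ev b) ∈ P.toValuationSubring.nonunits)
    (b : B) (hb : ev b = 0) : b ∈ 𝔫 :=
  hP.mem_of_nonunits hinj ((unip_tubeEv_eq_zero_iff P ev hev b).mp hb)

theorem unip_tubeEv_dvd {π : A₀} (hπ : Irreducible π) {τ : Lf}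
    (hinj : Function.Injective (algebraMap B Lf))
    {𝔫 : Ideal B} [𝔫.IsPrime] {P : Place E Lf} (hP : UnipTubePoint τ 𝔫 P) (ev : B →ₐ[A₀] A₀)
    (hev : ∀ b : B,
      algebraMap B Lf b - algebraMap A₀ Lf (ev b) ∈ P.toValuationSubring.nonunits)
    (b : B) (hb : b ∈ 𝔫) : π ∣ ev b := by
  by_contra hnd
  have hu : IsUnit (ev b) := by
    by_contra hnu
    have : ev b ∈ IsLocalRing.maximalIdeal A₀ := (IsLocalRing.mem_maximalIdeal _).mpr hnu
    rw [hπ.maximalIdeal_eq, Ideal.mem_span_singleton] at this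
    exact hnd this
  have h1 : b - algebraMap A₀ B (ev b) ∈ 𝔫 := by
    apply unip_tubeEv_ker hinj hP ev hev
    rw [map_sub, AlgHom.commutes, Algebra.algebraMap_self_apply, sub_self]
  have h2 : algebraMap A₀ B (ev b) ∈ 𝔫 := by
    have : algebraMap A₀ B (ev b) = b - (b - algebraMap A₀ B (ev b)) := by ring
    rw [this]
    exact Ideal.sub_mem _ hb h1
  have h3 : IsUnit (algebraMap A₀ B (ev b)) := hu.map _
  exact (Ideal.IsPrime.ne_top inferInstance) (Ideal.eq_top_of_isUnit_mem _ h2 h3)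

end Ev

section Ord

variable {A₀ E Lf B : Type*} [CommRing A₀] [IsDomain A₀] [IsDiscreteValuationRing A₀]
  [Field E] [CharZero E] [Algebra A₀ E] [IsFractionRing A₀ E]
  [Field Lf] [Algebra E Lf] [Algebra A₀ Lf] [IsScalarTower A₀ E Lf]
  [CommRing B] [Algebra B Lf] [Algebra A₀ B] [IsScalarTower A₀ B Lf]

/-- a nonzero constant of `A₀` has order `0` -/
theorem unip_ord_const (Q : Place E Lf) (α : A₀) : Q.ord (algebraMap A₀ Lf α) = 0 := by
  rw [IsScalarTower.algebraMap_apply A₀ E Lf]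
  exact PlaceAux.ord_algebraMap Q _

/-- an element of the chart outside `𝔫` is a unit at every place with centre in `𝔫` -/
theorem unip_ord_eq_zero_of_notMem (τ : Lf)
    (hB : ∀ x : Lf, x ∈ (algebraMap B Lf).range ↔ IsIntegral (Algebra.adjoin A₀ {τ}) x)
    (𝔫 : Ideal B) (Q : Place E Lf) (hQ : 0 ≤ Q.ord τ)
    (hQc : ∀ b : B, 0 < Q.ord (algebraMap B Lf b) → b ∈ 𝔫) {u : B} (hu : u ∉ 𝔫) :
    Q.ord (algebraMap B Lf u) = 0 := by
  have h1 : ¬ 0 < Q.ord (algebraMap B Lf u) := fun h => hu (hQc u h)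
  have h2 : 0 ≤ Q.ord (algebraMap B Lf u) := by
    by_cases h0 : algebraMap B Lf u = 0
    · rw [h0, Place.ord_zero]
    · exact (PlaceAux.ord_nonneg_iff Q h0).mpr (unip_chart_mem_place τ hB Q hQ u)
  omega

/-- order of an element of the chart is nonnegative -/
theorem unip_ord_chart_nonneg (τ : Lf)
    (hB : ∀ x : Lf, x ∈ (algebraMap B Lf).range ↔ IsIntegral (Algebra.adjoin A₀ {τ}) x)
    (Q : Place E Lf) (hQ : 0 ≤ Q.ord τ) (c : B) : 0 ≤ Q.ord (algebraMap B Lf c) := by
  by_cases h0 : algebraMap B Lf c = 0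
  · rw [h0, Place.ord_zero]
  · exact (PlaceAux.ord_nonneg_iff Q h0).mpr (unip_chart_mem_place τ hB Q hQ c)

/-- order computation from a relation `a ^ k * (u * b) = f * c` -/
theorem unip_ord_of_key (τ : Lf)
    (hinj : Function.Injective (algebraMap B Lf))
    (hB : ∀ x : Lf, x ∈ (algebraMap B Lf).range ↔ IsIntegral (Algebra.adjoin A₀ {τ}) x)
    (𝔫 : Ideal B) (Q : Place E Lf) (hQ : 0 ≤ Q.ord τ)
    (hQc : ∀ b : B, 0 < Q.ord (algebraMap B Lf b) → b ∈ 𝔫)
    {a : A₀} (ha : a ≠ 0) {k : ℕ} {u b f c : B} (hu : u ∉ 𝔫) (hb : b ≠ 0)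
    (h : algebraMap A₀ B (a ^ k) * (u * b) = f * c) :
    f ≠ 0 ∧ Q.ord (algebraMap B Lf b) = Q.ord (algebraMap B Lf f) + Q.ord (algebraMap B Lf c) ∧
      0 ≤ Q.ord (algebraMap B Lf c) := by
  have hinjA := unip_algebraMap_injective E (A₀ := A₀) (Lf := Lf)
  have hak : algebraMap A₀ Lf (a ^ k) ≠ 0 :=
    (map_ne_zero_iff _ hinjA).mpr (pow_ne_zero k ha)
  have hu0 : algebraMap B Lf u ≠ 0 := by
    intro h0
    apply hu
    have : u = 0 := hinj (by rw [h0, map_zero])
    rw [this]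
    exact 𝔫.zero_mem
  have hb0 : algebraMap B Lf b ≠ 0 := (map_ne_zero_iff _ hinj).mpr hb
  have hL : algebraMap A₀ Lf (a ^ k) * (algebraMap B Lf u * algebraMap B Lf b) =
      algebraMap B Lf f * algebraMap B Lf c := by
    have := congrArg (algebraMap B Lf) h
    rwa [map_mul, map_mul, map_mul, ← IsScalarTower.algebraMap_apply A₀ B Lf] at this
  have hfc : algebraMap B Lf f * algebraMap B Lf c ≠ 0 := by
    rw [← hL]
    exact mul_ne_zero hak (mul_ne_zero hu0 hb0)
  have hf0 : algebraMap B Lf f ≠ 0 := left_ne_zero_of_mul hfc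
  have hc0 : algebraMap B Lf c ≠ 0 := right_ne_zero_of_mul hfc
  have hord := congrArg Q.ord hL
  rw [Place.ord_mul Q hak (mul_ne_zero hu0 hb0), Place.ord_mul Q hu0 hb0,
    Place.ord_mul Q hf0 hc0, unip_ord_const, unip_ord_eq_zero_of_notMem τ hB 𝔫 Q hQ hQc hu]
    at hord
  refine ⟨fun h0 => hf0 (by rw [h0, map_zero]), by omega, ?_⟩
  exact (PlaceAux.ord_nonneg_iff Q hc0).mpr (unip_chart_mem_place τ hB Q hQ c)

/-- **TubeOrd, general form.**  If the kernel of the evaluation at `P` is `((f) : a^∞)` locally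
at `𝔫` and `f` vanishes at `P`, then `f` has a simple zero at `P` and no other zero at a place with
centre in `𝔫`. -/
theorem unip_tubeOrd_of_key {π : A₀} (hπ : Irreducible π) (τ : Lf)
    (hτ : Transcendental E τ) [FiniteDimensional E⟮τ⟯ Lf]
    (hinj : Function.Injective (algebraMap B Lf))
    (hB : ∀ x : Lf, x ∈ (algebraMap B Lf).range ↔ IsIntegral (Algebra.adjoin A₀ {τ}) x)
    (𝔫 : Ideal B) (P : Place E Lf) (hP : 0 ≤ P.ord τ)
    (hPc : ∀ b : B, 0 < P.ord (algebraMap B Lf b) → b ∈ 𝔫)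
    (f : B) (a : A₀) (ha : a ≠ 0)
    (hfP : algebraMap B Lf f ∈ P.toValuationSubring.nonunits)
    (hkey : ∀ b : B, algebraMap B Lf b ∈ P.toValuationSubring.nonunits →
      ∃ (k : ℕ) (u c : B), u ∉ 𝔫 ∧ algebraMap A₀ B (a ^ k) * (u * b) = f * c) :
    P.ord (algebraMap B Lf f) = 1 ∧
    ∀ Q : Place E Lf, 0 ≤ Q.ord τ → (∀ b : B, 0 < Q.ord (algebraMap B Lf b) → b ∈ 𝔫) →
      0 < Q.ord (algebraMap B Lf f) → Q = P := by
  classical
  letI := polyAlgebra (K := E) τ
  obtain ⟨hDed, hFrac, -⟩ := intClosure_facts (K := E) τ hτ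
  haveI := hDed
  haveI := hFrac
  have hK := PlacesAux.hK (K := E) τ
  have hRP : ∀ P' : Place E Lf, 0 ≤ P'.ord τ → ∀ r : intClosure (K := E) τ,
      algebraMap (intClosure (K := E) τ) Lf r ∈ P'.toValuationSubring :=
    fun P' h => PlacesAux.le_place τ P' (PlaceAux.mem_of_ord_nonneg P' h)
  have hπ0 : algebraMap A₀ Lf π ≠ 0 := unip_algebraMap_irreducible_ne_zero E hπ
  -- lifting elements of the integral closure of `E[τ]` to `B`, up to a power of `π`
  have hlift : ∀ r : intClosure (K := E) τ, r ≠ 0 → ∃ b : B, b ≠ 0 ∧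
      ∀ Q : Place E Lf, Q.ord (algebraMap B Lf b) =
        Q.ord (algebraMap (intClosure (K := E) τ) Lf r) := by
    intro r hr
    obtain ⟨k, hk⟩ := exists_pow_mul_isIntegral hπ τ
      (algebraMap (intClosure (K := E) τ) Lf r) r.2
    obtain ⟨b, hb⟩ := (hB _).mpr hk
    have hr0 : algebraMap (intClosure (K := E) τ) Lf r ≠ 0 := fun h => hr (Subtype.ext h)
    have hb' : algebraMap B Lf b =
        algebraMap A₀ Lf π ^ k * algebraMap (intClosure (K := E) τ) Lf r := hb
    refine ⟨b, fun h0 => ?_, fun Q => ?_⟩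
    · rw [h0, map_zero] at hb'
      exact mul_ne_zero (pow_ne_zero k hπ0) hr0 hb'.symm
    · rw [hb', Place.ord_mul Q (pow_ne_zero k hπ0) hr0, ← map_pow, unip_ord_const, zero_add]
  -- order positive ↔ valuation < 1
  have hconv : ∀ (w : IsDedekindDomain.HeightOneSpectrum (intClosure (K := E) τ)) (x : Lf),
      x ≠ 0 → (0 < (placeOfPrime (K := E) hK w).ord x ↔ w.valuation Lf x < 1) := by
    intro w x hx
    have hv : w.valuation Lf x ≠ 0 := (Valuation.ne_zero_iff _).mpr hx
    rw [placeOfPrime_ord hK w hx]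
    constructor
    · intro h
      rw [← WithZero.exp_log hv, ← WithZero.exp_zero, WithZero.exp_lt_exp]
      omega
    · intro h
      rw [← WithZero.exp_log hv, ← WithZero.exp_zero, WithZero.exp_lt_exp] at h
      omega
  obtain ⟨wP, hwP⟩ := exists_placeOfPrime_eq hK P (hRP P hP)
  have hnu : ∀ b : B, 0 < P.ord (algebraMap B Lf b) →
      algebraMap B Lf b ∈ P.toValuationSubring.nonunits :=
    fun b h => (unip_mem_nonunits_iff P _).mpr (Or.inr h)
  constructor
  · -- simple zero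
    obtain ⟨r, hr⟩ := wP.intValuation_exists_uniformizer
    have hr0 : r ≠ 0 := by
      rintro rfl
      rw [map_zero] at hr
      exact WithZero.zero_ne_coe hr
    have hrL : algebraMap (intClosure (K := E) τ) Lf r ≠ 0 := fun h =>
      hr0 ((IsFractionRing.injective (intClosure (K := E) τ) Lf) (by rw [h, map_zero]))
    have hordr : P.ord (algebraMap (intClosure (K := E) τ) Lf r) = 1 := by
      rw [← hwP, placeOfPrime_ord hK wP hrL, wP.valuation_of_algebraMap, hr, WithZero.log_exp]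
      norm_num
    obtain ⟨b, hb0, hbord⟩ := hlift r hr0
    have hbP : P.ord (algebraMap B Lf b) = 1 := by rw [hbord, hordr]
    obtain ⟨k, u, c, hu, hc⟩ := hkey b (hnu b (by rw [hbP]; norm_num))
    obtain ⟨hf0, h1, h2⟩ := unip_ord_of_key τ hinj hB 𝔫 P hP hPc ha hu hb0 hc
    have hfpos : 0 < P.ord (algebraMap B Lf f) := by
      rcases (unip_mem_nonunits_iff P _).mp hfP with h | h
      · exact absurd (hinj (by rw [h, map_zero])) hf0
      · exact h
    omega
  · intro Q hQ hQc hfQ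
    obtain ⟨wQ, hwQ⟩ := exists_placeOfPrime_eq hK Q (hRP Q hQ)
    have hle : wP.asIdeal ≤ wQ.asIdeal := by
      intro r hr
      by_cases hr0 : r = 0
      · rw [hr0]; exact Ideal.zero_mem _
      have hrL : algebraMap (intClosure (K := E) τ) Lf r ≠ 0 := fun h =>
        hr0 ((IsFractionRing.injective (intClosure (K := E) τ) Lf) (by rw [h, map_zero]))
      have h1 : 0 < P.ord (algebraMap (intClosure (K := E) τ) Lf r) := by
        rw [← hwP, hconv wP _ hrL]
        exact (wP.valuation_lt_one_iff_mem (K := Lf) r).mpr hr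
      obtain ⟨b, hb0, hbord⟩ := hlift r hr0
      obtain ⟨k, u, c, hu, hc⟩ := hkey b (hnu b (by rw [hbord]; exact h1))
      obtain ⟨-, h2, h3⟩ := unip_ord_of_key τ hinj hB 𝔫 Q hQ hQc ha hu hb0 hc
      have h4 : 0 < Q.ord (algebraMap (intClosure (K := E) τ) Lf r) := by
        rw [← hbord]; omega
      rw [← hwQ, hconv wQ _ hrL] at h4
      exact (wQ.valuation_lt_one_iff_mem (K := Lf) r).mp h4
    have heq : wP.asIdeal = wQ.asIdeal :=
      Ideal.IsMaximal.eq_of_le wP.isMaximal wQ.isPrime.ne_top hle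
    have : wP = wQ := IsDedekindDomain.HeightOneSpectrum.ext heq
    rw [← hwQ, ← hwP, this]

/-- **TubeOrd, node.**  `X * Y = q * G`, `B = A₀[X, Y] + 𝔫 ^ N`, `P` a rational point of the
tube of `𝔫` with `X(P) = a ≠ 0`, `q = a * t`, `π ∣ t`.  Then `X - a` has a simple zero at `P` and
order `0` at every other place with centre in `𝔫`. -/
theorem unip_tubeOrd_node [IsNoetherianRing B] {π : A₀} (hπ : Irreducible π) (τ : Lf)
    (hτ : Transcendental E τ) [FiniteDimensional E⟮τ⟯ Lf]
    (hinj : Function.Injective (algebraMap B Lf))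
    (hB : ∀ x : Lf, x ∈ (algebraMap B Lf).range ↔ IsIntegral (Algebra.adjoin A₀ {τ}) x)
    (𝔫 : Ideal B) [𝔫.IsPrime] (hπ𝔫 : algebraMap A₀ B π ∈ 𝔫)
    (X Y G : B) (q a t : A₀) (hq : q = a * t) (ht : π ∣ t) (ha : a ≠ 0)
    (hXY : X * Y = algebraMap A₀ B q * G)
    (hd : ∀ (N : ℕ) (b : B), ∃ c ∈ Algebra.adjoin A₀ ({X, Y} : Set B), b - c ∈ 𝔫 ^ N)
    (P : Place E Lf) (hP : UnipTubePoint τ 𝔫 P)
    (hXa : algebraMap B Lf X - algebraMap A₀ Lf a ∈ P.toValuationSubring.nonunits) :
    P.ord (algebraMap B Lf X - algebraMap A₀ Lf a) = 1 ∧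
    ∀ Q : Place E Lf, 0 ≤ Q.ord τ → (∀ b : B, 0 < Q.ord (algebraMap B Lf b) → b ∈ 𝔫) →
      Q ≠ P → Q.ord (algebraMap B Lf X - algebraMap A₀ Lf a) = 0 := by
  obtain ⟨ev, hev⟩ := unip_exists_tubeEv hπ τ hinj hB 𝔫 hπ𝔫 P hP
  have hX : ev X = a := unip_value_unique P (hev X) hXa
  have e : algebraMap B Lf X - algebraMap A₀ Lf a = algebraMap B Lf (X - algebraMap A₀ B a) := by
    rw [map_sub, ← IsScalarTower.algebraMap_apply A₀ B Lf]
  rw [e] at hXa ⊢
  obtain ⟨h1, h2⟩ := unip_tubeOrd_of_key hπ τ hτ hinj hB 𝔫 P hP.ord_nonneg hP.centre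
    (X - algebraMap A₀ B a) a ha hXa (fun b hb =>
      unip_tube_key_node π 𝔫 hπ𝔫 X Y G q a t hq ht hXY hd ev
        (unip_tubeEv_dvd hπ hinj hP ev hev) (unip_tubeEv_ker hinj hP ev hev) hX ha b
        ((unip_tubeEv_eq_zero_iff P ev hev b).mpr hb))
  refine ⟨h1, fun Q hQ hQc hQP => ?_⟩
  have h3 := unip_ord_chart_nonneg τ hB Q hQ (X - algebraMap A₀ B a)
  by_contra h4
  exact hQP (h2 Q hQ hQc (by omega))

/-- **TubeOrd, smooth point.**  `B = A₀[s] + 𝔫 ^ N`, `P` a rational point of the tube of `𝔫`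
with `s(P) = a`.  Then `s - a` has a simple zero at `P` and order `0` at every other place with
centre in `𝔫`. -/
theorem unip_tubeOrd_disc [IsNoetherianRing B] {π : A₀} (hπ : Irreducible π) (τ : Lf)
    (hτ : Transcendental E τ) [FiniteDimensional E⟮τ⟯ Lf]
    (hinj : Function.Injective (algebraMap B Lf))
    (hB : ∀ x : Lf, x ∈ (algebraMap B Lf).range ↔ IsIntegral (Algebra.adjoin A₀ {τ}) x)
    (𝔫 : Ideal B) [𝔫.IsPrime] (hπ𝔫 : algebraMap A₀ B π ∈ 𝔫)
    (s : B) (a : A₀)
    (hd : ∀ (N : ℕ) (b : B), ∃ c ∈ Algebra.adjoin A₀ ({s} : Set B), b - c ∈ 𝔫 ^ N)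
    (P : Place E Lf) (hP : UnipTubePoint τ 𝔫 P)
    (hsa : algebraMap B Lf s - algebraMap A₀ Lf a ∈ P.toValuationSubring.nonunits) :
    P.ord (algebraMap B Lf s - algebraMap A₀ Lf a) = 1 ∧
    ∀ Q : Place E Lf, 0 ≤ Q.ord τ → (∀ b : B, 0 < Q.ord (algebraMap B Lf b) → b ∈ 𝔫) →
      Q ≠ P → Q.ord (algebraMap B Lf s - algebraMap A₀ Lf a) = 0 := by
  obtain ⟨ev, hev⟩ := unip_exists_tubeEv hπ τ hinj hB 𝔫 hπ𝔫 P hP
  have hs : ev s = a := unip_value_unique P (hev s) hsa
  have e : algebraMap B Lf s - algebraMap A₀ Lf a = algebraMap B Lf (s - algebraMap A₀ B a) := by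
    rw [map_sub, ← IsScalarTower.algebraMap_apply A₀ B Lf]
  rw [e] at hsa ⊢
  obtain ⟨h1, h2⟩ := unip_tubeOrd_of_key hπ τ hτ hinj hB 𝔫 P hP.ord_nonneg hP.centre
    (s - algebraMap A₀ B a) (1 : A₀) one_ne_zero hsa (fun b hb => by
      obtain ⟨u, c, hu, hc⟩ := unip_tube_key_disc π 𝔫 hπ𝔫 s hd ev
        (unip_tubeEv_dvd hπ hinj hP ev hev) (unip_tubeEv_ker hinj hP ev hev) b
        ((unip_tubeEv_eq_zero_iff P ev hev b).mpr hb)
      refine ⟨0, u, c, hu, ?_⟩
      rw [pow_zero, map_one, one_mul, hc, hs])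
  refine ⟨h1, fun Q hQ hQc hQP => ?_⟩
  have h3 := unip_ord_chart_nonneg τ hB Q hQ (s - algebraMap A₀ B a)
  by_contra h4
  exact hQP (h2 Q hQ hQc (by omega))

end Ord

end Fermat.Agent.UNIP
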